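import Fermat.Agent.S56F.IfaceHopf

/-!
# S56 / LOC-p-FL, leaf FL-A3 (helper15): group-likes are integral (H3)

`h15f_charCompleteAll : CharCompleteAll` — every function Hopf order is character complete.

Abstract core (`h15f_char_core`, Mathlib only): `K` a field with an ultrametric norm,
`O ⊆ K` its unit ball, `M` a finite additive group, `H ⊆ (M → K)` a multiplicatively closed set
of functions containing `1`, separating the points of `M`, closed under `f ↦ f (x + y)` in
Sweedler form and contained in the `O`-span of a finite subset `S ⊆ H`.  Then every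
`ξ : M → K` with `ξ (x + y) = ξ x * ξ y` lies in the `O`-span of `H`.

Proof.
* (`h15f_exists_indep`) a finite generating set of an `O`-lattice can be thinned out to a
  `K`-linearly independent one `T` (a relation `∑ g s • s = 0` expresses the `s₀` with the
  largest `‖g s₀‖` through the others with coefficients in `O`);
* (`h15f_span_top`) `H` spans `M → K` over `K` (Lagrange interpolation), so `T` is a basis `b`;
* the functionals `φ` with `‖φ f‖ ≤ 1` on `H` are closed under the convolution
  `(φ * ψ) g = φ (x ↦ ψ (y ↦ g (x + y)))` (Sweedler form), contain the coordinates of `b`, and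
  are uniformly bounded at `ξ`; as `(φ * ψ) ξ = φ ξ * ψ ξ`, the powers of `φ ξ` are bounded,
  hence `‖φ ξ‖ ≤ 1`; so the coordinates of `ξ` in the basis `b` are in `O`.
-/

set_option autoImplicit false

open Fermat.Agent.PT.Loc

noncomputable section

namespace Fermat.Agent.S56F

section Core

variable {K : Type*} [NormedField K]

/-- the action of the subring is the action of the field -/
theorem h15f_smul_eq (O : Subring K) {M : Type*} (c : O) (g : M → K) :
    c • g = (c : K) • g := rfl

/-- A finite generating set of a lattice can be thinned out to a linearly independent one. -/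
theorem h15f_exists_indep (O : Subring K) (hO : ∀ x : K, ‖x‖ ≤ 1 → x ∈ O)
    {M : Type*} (S : Finset (M → K)) :
    ∃ T : Finset (M → K), T ⊆ S ∧ LinearIndependent K (fun t : T => (t : M → K)) ∧
      Submodule.span O (T : Set (M → K)) = Submodule.span O (S : Set (M → K)) := by
  classical
  induction S using Finset.strongInduction with
  | H S ih =>
    by_cases hli : LinearIndependent K (fun t : S => (t : M → K))
    · exact ⟨S, Finset.Subset.refl _, hli, rfl⟩
    · rw [Fintype.linearIndependent_iff] at hli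
      push Not at hli
      obtain ⟨g, hsum, i₁, hi₁⟩ := hli
      obtain ⟨i₀, -, hmax⟩ := Finset.exists_max_image (Finset.univ : Finset S) (fun i => ‖g i‖)
        ⟨i₁, Finset.mem_univ _⟩
      have hg0 : g i₀ ≠ 0 := by
        intro h0
        have h1 := hmax i₁ (Finset.mem_univ _)
        rw [h0, norm_zero] at h1
        exact hi₁ (norm_le_zero_iff.mp h1)
      -- `i₀` is an `O`-combination of the others
      have hmem : (i₀ : M → K) ∈ Submodule.span O ((S.erase (i₀ : M → K) : Finset (M → K)) :
          Set (M → K)) := by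
        have h1 : (i₀ : M → K) = ∑ i ∈ Finset.univ.erase i₀, (-(g i / g i₀)) • (i : M → K) := by
          have h2 : ∑ i, g i • (i : M → K) =
              g i₀ • (i₀ : M → K) + ∑ i ∈ Finset.univ.erase i₀, g i • (i : M → K) :=
            (Finset.add_sum_erase _ _ (Finset.mem_univ i₀)).symm
          rw [hsum] at h2
          have h3 : g i₀ • (i₀ : M → K) = -∑ i ∈ Finset.univ.erase i₀, g i • (i : M → K) :=
            eq_neg_of_add_eq_zero_left h2.symm
          have h4 : (i₀ : M → K) = (g i₀)⁻¹ • (g i₀ • (i₀ : M → K)) := by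
            rw [smul_smul, inv_mul_cancel₀ hg0, one_smul]
          rw [h4, h3, smul_neg, Finset.smul_sum, ← Finset.sum_neg_distrib]
          refine Finset.sum_congr rfl fun i _ => ?_
          rw [smul_smul, neg_smul, div_eq_inv_mul]
        have hs : (∑ i ∈ Finset.univ.erase i₀, (-(g i / g i₀)) • (i : M → K)) ∈
            Submodule.span O ((S.erase (i₀ : M → K) : Finset (M → K)) : Set (M → K)) := by
          refine Submodule.sum_mem _ fun i hi => ?_
          have hc : ‖-(g i / g i₀)‖ ≤ 1 := by
            rw [norm_neg, norm_div]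
            exact div_le_one_of_le₀ (hmax i (Finset.mem_univ _)) (norm_nonneg _)
          have hi' : (i : M → K) ∈
              ((S.erase (i₀ : M → K) : Finset (M → K)) : Set (M → K)) := by
            rw [Finset.mem_coe, Finset.mem_erase]
            refine ⟨fun h => ?_, i.2⟩
            exact (Finset.mem_erase.mp hi).1 (Subtype.ext h)
          exact Submodule.smul_mem (Submodule.span O
            ((S.erase (i₀ : M → K) : Finset (M → K)) : Set (M → K)))
            (⟨-(g i / g i₀), hO _ hc⟩ : O) (Submodule.subset_span hi')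
        rw [← h1] at hs
        exact hs
      obtain ⟨T, hT, hTli, hTspan⟩ := ih (S.erase (i₀ : M → K)) (Finset.erase_ssubset i₀.2)
      refine ⟨T, hT.trans (Finset.erase_subset _ _), hTli, ?_⟩
      rw [hTspan]
      have h6 : (S : Set (M → K)) = insert (i₀ : M → K)
          ((S.erase (i₀ : M → K) : Finset (M → K)) : Set (M → K)) := by
        rw [← Finset.coe_insert, Finset.insert_erase i₀.2]
      rw [h6, Submodule.span_insert_eq_span hmem]

/-- A multiplicatively closed set of functions on a finite set which contains `1` and separates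
the points spans all functions. -/
theorem h15f_span_top {M : Type*} [Finite M] (H : Set (M → K)) (h1 : (1 : M → K) ∈ H)
    (hmul : ∀ f ∈ H, ∀ g ∈ H, f * g ∈ H)
    (hsep : ∀ x y : M, (∀ f ∈ H, f x = f y) → x = y) :
    Submodule.span K H = ⊤ := by
  classical
  have := Fintype.ofFinite M
  -- the span is a subalgebra
  let Hm : Submonoid (M → K) := { carrier := H, mul_mem' := fun ha hb => hmul _ ha _ hb,
                                   one_mem' := h1 }
  have hcl : (Submonoid.closure H : Set (M → K)) = H := by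
    have : Submonoid.closure (Hm : Set (M → K)) = Hm := Submonoid.closure_eq Hm
    exact congrArg (fun s : Submonoid (M → K) => (s : Set (M → K))) this
  have hA : Subalgebra.toSubmodule (Algebra.adjoin K H) = Submodule.span K H := by
    rw [Algebra.adjoin_eq_span, hcl]
  rw [← hA, eq_top_iff]
  intro g _
  rw [Subalgebra.mem_toSubmodule]
  -- the indicator functions
  have hδ : ∀ x : M, (Pi.single x (1 : K) : M → K) ∈ Algebra.adjoin K H := by
    intro x
    have hex : ∀ y : M, ∃ e ∈ Algebra.adjoin K H, e x = 1 ∧ (y ≠ x → e y = 0) := by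
      intro y
      by_cases hxy : y = x
      · exact ⟨1, one_mem _, rfl, fun h => absurd hxy h⟩
      · have : ∃ f ∈ H, f x ≠ f y := by
          by_contra hcon
          push Not at hcon
          exact hxy (hsep x y hcon).symm
        obtain ⟨f, hf, hfxy⟩ := this
        have hd : f x - f y ≠ 0 := sub_ne_zero.mpr hfxy
        refine ⟨(f x - f y)⁻¹ • (f - algebraMap K (M → K) (f y)),
          Subalgebra.smul_mem _ (Subalgebra.sub_mem _ (Algebra.subset_adjoin hf)
            (Subalgebra.algebraMap_mem _ _)) _, ?_, fun _ => ?_⟩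
        · simp only [Pi.smul_apply, Pi.sub_apply, Pi.algebraMap_apply, Algebra.algebraMap_self,
            RingHom.id_apply, smul_eq_mul]
          exact inv_mul_cancel₀ hd
        · simp only [Pi.smul_apply, Pi.sub_apply, Pi.algebraMap_apply, Algebra.algebraMap_self,
            RingHom.id_apply, smul_eq_mul, sub_self, mul_zero]
    choose e he hex hey using hex
    have hprod : (Pi.single x (1 : K) : M → K) = ∏ y, e y := by
      funext z
      rw [Finset.prod_apply]
      by_cases hz : z = x
      · subst hz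
        rw [Pi.single_eq_same]
        exact (Finset.prod_eq_one fun y _ => hex y).symm
      · rw [Pi.single_eq_of_ne hz]
        exact (Finset.prod_eq_zero (f := fun y => e y z) (Finset.mem_univ z) (hey z hz)).symm
    rw [hprod]
    exact Subalgebra.prod_mem _ fun y _ => he y
  have hg : g = ∑ x, g x • (Pi.single x (1 : K) : M → K) := by
    funext z
    rw [Finset.sum_apply]
    simp only [Pi.smul_apply, smul_eq_mul]
    rw [Finset.sum_eq_single z]
    · rw [Pi.single_eq_same, mul_one]
    · intro y _ hy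
      rw [Pi.single_eq_of_ne (Ne.symm hy), mul_zero]
    · intro h
      exact absurd (Finset.mem_univ z) h
  rw [hg]
  exact Subalgebra.sum_mem _ fun x _ => Subalgebra.smul_mem _ (hδ x) _

/-- the convolution of two functionals on the functions on `M` -/
def h15f_conv {M : Type*} [AddCommGroup M] (φ ψ : (M → K) →ₗ[K] K) : (M → K) →ₗ[K] K :=
  φ ∘ₗ LinearMap.pi (fun x => ψ ∘ₗ LinearMap.funLeft K K (fun y => x + y))

theorem h15f_conv_apply {M : Type*} [AddCommGroup M] (φ ψ : (M → K) →ₗ[K] K) (g : M → K) :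
    h15f_conv φ ψ g = φ (fun x => ψ (fun y => g (x + y))) := rfl

/-- **Group-likes are integral** (abstract form). -/
theorem h15f_char_core [IsUltrametricDist K] (O : Subring K) (hO : ∀ x : K, ‖x‖ ≤ 1 → x ∈ O)
    (hO' : ∀ x ∈ O, ‖x‖ ≤ 1)
    {M : Type*} [AddCommGroup M] [Finite M]
    (H : Set (M → K)) (h1 : (1 : M → K) ∈ H) (hmul : ∀ f ∈ H, ∀ g ∈ H, f * g ∈ H)
    (S : Finset (M → K)) (hS : (S : Set (M → K)) ⊆ H)
    (hfg : H ⊆ Submodule.span O (S : Set (M → K)))
    (hsep : ∀ x y : M, (∀ f ∈ H, f x = f y) → x = y)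
    (hcomul : ∀ f ∈ H, ∃ (n : ℕ) (a b : Fin n → M → K),
      (∀ i, a i ∈ H) ∧ (∀ i, b i ∈ H) ∧ ∀ x y, f (x + y) = ∑ i, a i x * b i y)
    (ξ : M → K) (hξ : ∀ x y, ξ (x + y) = ξ x * ξ y) :
    ξ ∈ Submodule.span O H := by
  classical
  have := Fintype.ofFinite M
  obtain ⟨T, hTS, hli, hspan⟩ := h15f_exists_indep O hO S
  -- `H` is contained in the `K`-span of `T`
  have hHT : ∀ f ∈ H, f ∈ Submodule.span K (T : Set (M → K)) := by
    intro f hf
    have h2 : f ∈ Submodule.span O (T : Set (M → K)) := by rw [hspan]; exact hfg hf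
    refine Submodule.span_induction
      (p := fun g _ => g ∈ Submodule.span K (T : Set (M → K))) ?_ ?_ ?_ ?_ h2
    · intro x hx; exact Submodule.subset_span hx
    · exact Submodule.zero_mem _
    · intro x y _ _ hx hy; exact Submodule.add_mem _ hx hy
    · intro a x _ hx
      rw [h15f_smul_eq]
      exact Submodule.smul_mem _ _ hx
  have htop : ⊤ ≤ Submodule.span K (Set.range (fun t : T => (t : M → K))) := by
    have h3 : Set.range (fun t : T => (t : M → K)) = (T : Set (M → K)) := by
      ext x
      constructor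
      · rintro ⟨t, rfl⟩; exact t.2
      · intro hx; exact ⟨⟨x, hx⟩, rfl⟩
    rw [h3, ← h15f_span_top H h1 hmul hsep]
    exact Submodule.span_le.mpr hHT
  let b : Module.Basis T K (M → K) := Module.Basis.mk hli htop
  have hb : ∀ t : T, b t = (t : M → K) := fun t => Module.Basis.mk_apply hli htop t
  -- integrality of the coordinates on the `O`-span of `T`
  have hcoordT : ∀ t : T, ∀ g ∈ Submodule.span O (T : Set (M → K)), ‖b.coord t g‖ ≤ 1 := by
    intro t g hg
    refine Submodule.span_induction (p := fun g _ => ‖b.coord t g‖ ≤ 1) ?_ ?_ ?_ ?_ hg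
    · intro x hx
      have hx' : x = b ⟨x, hx⟩ := (hb ⟨x, hx⟩).symm
      rw [hx', Module.Basis.coord_apply, Module.Basis.repr_self, Finsupp.single_apply]
      split_ifs
      · rw [norm_one]
      · rw [norm_zero]; exact zero_le_one
    · rw [map_zero, norm_zero]; exact zero_le_one
    · intro x y _ _ hx hy
      rw [map_add]
      exact (IsUltrametricDist.norm_add_le_max _ _).trans (max_le hx hy)
    · intro a x _ hx
      rw [h15f_smul_eq, map_smul, smul_eq_mul, norm_mul]
      exact mul_le_one₀ (hO' _ a.2) (norm_nonneg _) hx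
  have hcoord : ∀ t : T, ∀ f ∈ H, ‖b.coord t f‖ ≤ 1 := fun t f hf =>
    hcoordT t f (by rw [hspan]; exact hfg hf)
  -- the integral functionals are closed under convolution
  have hconv : ∀ φ ψ : (M → K) →ₗ[K] K, (∀ f ∈ H, ‖φ f‖ ≤ 1) → (∀ f ∈ H, ‖ψ f‖ ≤ 1) →
      ∀ f ∈ H, ‖h15f_conv φ ψ f‖ ≤ 1 := by
    intro φ ψ hφ hψ f hf
    obtain ⟨n, a, c, ha, hc, hac⟩ := hcomul f hf
    have h2 : (fun x => ψ (fun y => f (x + y))) = ∑ i, ψ (c i) • a i := by
      funext x
      have h3 : (fun y => f (x + y)) = ∑ i, a i x • c i := by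
        funext y
        rw [hac, Finset.sum_apply]
        rfl
      rw [h3, map_sum, Finset.sum_apply]
      refine Finset.sum_congr rfl fun i _ => ?_
      rw [map_smul, smul_eq_mul, Pi.smul_apply, smul_eq_mul, mul_comm]
    rw [h15f_conv_apply, h2, map_sum]
    refine IsUltrametricDist.norm_sum_le_of_forall_le_of_nonneg zero_le_one fun i _ => ?_
    rw [map_smul, smul_eq_mul, norm_mul]
    exact mul_le_one₀ (hψ _ (hc i)) (norm_nonneg _) (hφ _ (ha i))
  -- multiplicativity at `ξ`
  have hconvξ : ∀ φ ψ : (M → K) →ₗ[K] K, h15f_conv φ ψ ξ = φ ξ * ψ ξ := by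
    intro φ ψ
    have h2 : (fun x => ψ (fun y => ξ (x + y))) = ψ ξ • ξ := by
      funext x
      have h3 : (fun y => ξ (x + y)) = ξ x • ξ := by
        funext y; rw [hξ]; rfl
      rw [h3, map_smul, smul_eq_mul, Pi.smul_apply, smul_eq_mul, mul_comm]
    rw [h15f_conv_apply, h2, map_smul, smul_eq_mul, mul_comm]
  have hrepr : ξ = ∑ t : T, b.repr ξ t • (t : M → K) := by
    conv_lhs => rw [← b.sum_repr ξ]
    exact Finset.sum_congr rfl fun t _ => by rw [hb]
  -- uniform bound at `ξ`
  have hbound : ∀ ψ : (M → K) →ₗ[K] K, (∀ f ∈ H, ‖ψ f‖ ≤ 1) →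
      ‖ψ ξ‖ ≤ ∑ t : T, ‖b.repr ξ t‖ := by
    intro ψ hψ
    have h4 : ψ ξ = ∑ t : T, b.repr ξ t * ψ (t : M → K) := by
      conv_lhs => rw [hrepr, map_sum]
      exact Finset.sum_congr rfl fun t _ => by rw [map_smul, smul_eq_mul]
    rw [h4]
    refine (norm_sum_le _ _).trans (Finset.sum_le_sum fun t _ => ?_)
    rw [norm_mul]
    exact mul_le_of_le_one_right (norm_nonneg _) (hψ _ (hS (hTS t.2)))
  -- powers
  have hpow : ∀ φ : (M → K) →ₗ[K] K, (∀ f ∈ H, ‖φ f‖ ≤ 1) → ∀ n : ℕ,
      ∃ ψ : (M → K) →ₗ[K] K, (∀ f ∈ H, ‖ψ f‖ ≤ 1) ∧ ψ ξ = φ ξ ^ (n + 1) := by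
    intro φ hφ n
    induction n with
    | zero => exact ⟨φ, hφ, by rw [zero_add, pow_one]⟩
    | succ n ih =>
      obtain ⟨ψ, hψ, hψξ⟩ := ih
      exact ⟨h15f_conv φ ψ, hconv φ ψ hφ hψ, by rw [hconvξ, hψξ, pow_succ' _ (n + 1)]⟩
  have hle : ∀ φ : (M → K) →ₗ[K] K, (∀ f ∈ H, ‖φ f‖ ≤ 1) → ‖φ ξ‖ ≤ 1 := by
    intro φ hφ
    by_contra hcon
    rw [not_le] at hcon
    obtain ⟨n, hn⟩ := pow_unbounded_of_one_lt (∑ t : T, ‖b.repr ξ t‖) hcon
    obtain ⟨ψ, hψ, hψξ⟩ := hpow φ hφ n
    have h2 := hbound ψ hψ
    rw [hψξ, norm_pow] at h2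
    have h3 : ‖φ ξ‖ ^ n ≤ ‖φ ξ‖ ^ (n + 1) := pow_le_pow_right₀ hcon.le (Nat.le_succ n)
    linarith
  -- conclusion
  rw [hrepr]
  refine Submodule.sum_mem _ fun t _ => ?_
  have h3 : ‖b.coord t ξ‖ ≤ 1 := hle (b.coord t) (hcoord t)
  exact Submodule.smul_mem (Submodule.span O H) (⟨b.repr ξ t, hO _ h3⟩ : O)
    (Submodule.subset_span (hS (hTS t.2)))

end Core

/-- **FL-A3** (H3): every function Hopf order is character complete. -/
theorem h15f_charCompleteAll : CharCompleteAll := by
  intro p _ Γ M _ _ act 𝓗 ξ _ hξ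
  obtain ⟨S, hS⟩ := 𝓗.fg
  have hbot : ∀ x : Om p, ‖x‖ ≤ 1 → x ∈ intOm p := fun x hx =>
    ⟨hx, fun σ hσ => by rw [Subgroup.mem_bot.mp hσ]; rfl⟩
  have hSsub : (S : Set (M → Om p)) ⊆ (𝓗.carrier : Set (M → Om p)) := by
    intro x hx
    have h2 : x ∈ Submodule.span (fixInt p Γ) (S : Set (M → Om p)) := Submodule.subset_span hx
    rw [hS] at h2
    exact h2
  have hfg : (𝓗.carrier : Set (M → Om p)) ⊆
      Submodule.span (intOm p) (S : Set (M → Om p)) := by
    intro f hf
    have h2 : f ∈ Submodule.span (fixInt p Γ) (S : Set (M → Om p)) := by rw [hS]; exact hf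
    refine Submodule.span_induction
      (p := fun g _ => g ∈ Submodule.span (intOm p) (S : Set (M → Om p))) ?_ ?_ ?_ ?_ h2
    · intro x hx; exact Submodule.subset_span hx
    · exact Submodule.zero_mem _
    · intro x y _ _ hx hy; exact Submodule.add_mem _ hx hy
    · intro a x _ hx
      exact Submodule.smul_mem _ (⟨(a : Om p), hbot _ a.2.1⟩ : intOm p) hx
  exact h15f_char_core (intOm p) hbot (fun x hx => hx.1)
    (𝓗.carrier : Set (M → Om p)) (one_mem 𝓗.carrier) (fun f hf g hg => mul_mem hf hg) S hSsub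
    hfg (fun x y h => 𝓗.separates x y h) 𝓗.comul ξ hξ

end Fermat.Agent.S56F
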