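import Fermat.Agent.S56F.IfaceHopf

/-!
# S56 / LOC-p-FL, rows FL-B1, FL-B2, FL-B3 (helper38, prefix `h38f_`)

* `h38f_valuesIntegral : ValuesIntegral` (FL-B1): the values of the functions of a function Hopf
  order are integers (`‖f x‖ ≤ 1`): `f` is integral over `fixInt p Γ` because the order is a
  finitely generated module, and the integers of a valuation are integrally closed.
* `h38f_translationInvariance : TranslationInvariance` (FL-B2, (H1)): `x + y ≡ x` iff `y ≡ 0`,
  from the Sweedler form of `f (x + y)` and the ultrametric inequality.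
* `h38f_ptSubgroup : PtSubgroup` (FL-B3): the points `≡ 0` form a subgroup.

Mathlib + the frozen definitions only.
-/

set_option autoImplicit false

open Fermat.Agent.PT.Loc Polynomial

noncomputable section

namespace Fermat.Agent.S56F

/-- An element of `Om p` which is integral over a ring of integers `fixInt p Γ` is an integer. -/
theorem h38f_norm_le_one_of_isIntegral {p : ℕ} [Fact p.Prime] (Γ : Subgroup (Gq p)) (z : Om p)
    (hz : IsIntegral (fixInt p Γ) z) : ‖z‖ ≤ 1 := by
  classical
  obtain ⟨P, hP, hPz⟩ := hz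
  set v : Valuation (Om p) NNReal := NormedField.valuation with hv
  have hle : fixInt p Γ ≤ v.integer := by
    intro x hx
    rw [Valuation.mem_integer_iff]
    have h1 : ‖x‖ ≤ 1 := hx.1
    have h2 : v x = ‖x‖₊ := rfl
    rw [h2]
    exact_mod_cast h1
  have hint : IsIntegral v.integer z := by
    refine ⟨P.map (Subring.inclusion hle), hP.map _, ?_⟩
    rw [Polynomial.eval₂_map]
    exact hPz
  have hmem : z ∈ v.integer := (Valuation.integer.integers v).mem_of_integral hint
  rw [Valuation.mem_integer_iff] at hmem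
  have h2 : v z = ‖z‖₊ := rfl
  rw [h2] at hmem
  exact_mod_cast hmem

/-- **FL-B1.**  The functions of a function Hopf order have integral values. -/
theorem h38f_valuesIntegral : ValuesIntegral := by
  intro p _ Γ M _ act 𝓗 f hf x
  have h1 : IsIntegral (fixInt p Γ) f := IsIntegral.of_mem_of_fg 𝓗.carrier 𝓗.fg f hf
  have h2 : IsIntegral (fixInt p Γ) (Pi.evalAlgHom (fixInt p Γ) (fun _ : M => Om p) x f) :=
    h1.map _
  exact h38f_norm_le_one_of_isIntegral Γ (f x) h2

/-- **FL-B2**, implication form. -/
theorem h38f_translationInvariance_of (hVI : ValuesIntegral) : TranslationInvariance := by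
  intro p _ Γ M _ act 𝓗 x y t
  constructor
  · intro h f hf
    have ht : 0 ≤ t := by
      have := h 0 (Subalgebra.zero_mem _)
      simpa using this
    obtain ⟨n, a, b, ha, hb, hab⟩ := 𝓗.comul f hf
    have e1 : f y = ∑ i, a i (x + y) * b i (-x) := by
      rw [← hab (x + y) (-x)]
      congr 1
      abel
    have e2 : f 0 = ∑ i, a i x * b i (-x) := by
      rw [← hab x (-x)]
      congr 1
      abel
    have e3 : f y - f 0 = ∑ i, (a i (x + y) - a i x) * b i (-x) := by
      rw [e1, e2, ← Finset.sum_sub_distrib]
      exact Finset.sum_congr rfl fun i _ => by ring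
    rw [e3]
    refine IsUltrametricDist.norm_sum_le_of_forall_le_of_nonneg ht fun i _ => ?_
    rw [norm_mul]
    calc ‖a i (x + y) - a i x‖ * ‖b i (-x)‖ ≤ t * 1 :=
          mul_le_mul (h (a i) (ha i)) (hVI p Γ M act 𝓗 (b i) (hb i) (-x)) (norm_nonneg _) ht
      _ = t := mul_one t
  · intro h f hf
    have ht : 0 ≤ t := by
      have := h 0 (Subalgebra.zero_mem _)
      simpa using this
    obtain ⟨n, a, b, ha, hb, hab⟩ := 𝓗.comul f hf
    have e1 : f (x + y) = ∑ i, a i y * b i x := by
      rw [← hab y x]
      congr 1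
      abel
    have e2 : f x = ∑ i, a i 0 * b i x := by
      rw [← hab 0 x]
      congr 1
      abel
    have e3 : f (x + y) - f x = ∑ i, (a i y - a i 0) * b i x := by
      rw [e1, e2, ← Finset.sum_sub_distrib]
      exact Finset.sum_congr rfl fun i _ => by ring
    rw [e3]
    refine IsUltrametricDist.norm_sum_le_of_forall_le_of_nonneg ht fun i _ => ?_
    rw [norm_mul]
    calc ‖a i y - a i 0‖ * ‖b i x‖ ≤ t * 1 :=
          mul_le_mul (h (a i) (ha i)) (hVI p Γ M act 𝓗 (b i) (hb i) x) (norm_nonneg _) ht
      _ = t := mul_one t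

/-- **FL-B2** (H1, translation invariance). -/
theorem h38f_translationInvariance : TranslationInvariance :=
  h38f_translationInvariance_of h38f_valuesIntegral

/-- **FL-B3**, implication form. -/
theorem h38f_ptSubgroup_of (hTI : TranslationInvariance) : PtSubgroup := by
  intro p _ Γ M _ act 𝓗 t
  refine ⟨fun ht f _ => by simpa using ht, fun y y' hy hy' f hf => ?_, fun y hy f hf => ?_⟩
  · have h1 : ‖f (y + y') - f y‖ ≤ t := (hTI p Γ M act 𝓗 y y' t).2 hy' f hf
    have h2 : ‖f y - f 0‖ ≤ t := hy f hf
    have h3 : f (y + y') - f 0 = (f (y + y') - f y) + (f y - f 0) := by ring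
    rw [h3]
    exact (IsUltrametricDist.norm_add_le_max _ _).trans (max_le h1 h2)
  · have h1 : 𝓗.Cong (-y + y) (-y) t := (hTI p Γ M act 𝓗 (-y) y t).2 hy
    have h2 := h1 f hf
    rw [neg_add_cancel] at h2
    rw [norm_sub_rev]
    exact h2

/-- **FL-B3.**  The points `≡ 0` form a subgroup. -/
theorem h38f_ptSubgroup : PtSubgroup :=
  h38f_ptSubgroup_of h38f_translationInvariance

end Fermat.Agent.S56F
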