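import Fermat.Agent.S56F.FLB456_helper87
import Fermat.Agent.S56F.FLB123_helper38

/-!
# S56 / LOC-p-FL, leaves FL-B5, FL-B6 (helper87), unconditional

`h87f_inertiaTrivial : InertiaTrivial` and `h87f_ramBound : RamBound`, from the landed
`h38f_valuesIntegral`, `h38f_translationInvariance` (helper38).
-/

set_option autoImplicit false

namespace Fermat.Agent.S56F

/-- **FL-B5.** -/
theorem h87f_inertiaTrivial : InertiaTrivial :=
  h87f_inertiaTrivial_of h38f_valuesIntegral h38f_translationInvariance

/-- **FL-B6.** -/
theorem h87f_ramBound : RamBound :=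
  h87f_ramBound_of h38f_valuesIntegral h38f_translationInvariance

end Fermat.Agent.S56F
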