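import Fermat.Agent.S56F.IfaceHopf

/-!
# S56 / LOC-p-FL, leaf FL-B7 (helper87): restriction of an order to a sub-object

`h87f_subOrder : SubOrder` — the pull-back of a function Hopf order along an injective
equivariant additive map is a function Hopf order; character completeness is inherited
(characters of a subgroup of a finite abelian group extend to the group).
-/

set_option autoImplicit false

open Fermat.Agent.PT.Loc

noncomputable section

namespace Fermat.Agent.S56F

/-- Precomposition with `j`, as an algebra homomorphism. -/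
def h87f_comp {p : ℕ} [Fact p.Prime] (Γ : Subgroup (Gq p)) {M N : Type} (j : N → M) :
    (M → Om p) →ₐ[fixInt p Γ] (N → Om p) :=
  AlgHom.pi (fun n => Pi.evalAlgHom (fixInt p Γ) (fun _ : M => Om p) (j n))

theorem h87f_comp_apply {p : ℕ} [Fact p.Prime] (Γ : Subgroup (Gq p)) {M N : Type} (j : N → M)
    (f : M → Om p) : h87f_comp Γ j f = f ∘ j := rfl

/-- Characters of a subgroup of a finite abelian group extend. -/
theorem h87f_char_extend {p : ℕ} [Fact p.Prime] {M N : Type} [AddCommGroup M] [Finite M]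
    [AddCommGroup N] (j : N →+ M) (hj : Function.Injective j) (ξ : N → Om p) (h0 : ξ 0 = 1)
    (hmul : ∀ x y, ξ (x + y) = ξ x * ξ y) :
    ∃ ξ' : M → Om p, ξ' 0 = 1 ∧ (∀ x y, ξ' (x + y) = ξ' x * ξ' y) ∧ ∀ n, ξ' (j n) = ξ n := by
  classical
  have hinv : ∀ x, ξ x * ξ (-x) = 1 := fun x => by rw [← hmul, add_neg_cancel, h0]
  let ψ : Multiplicative N →* (Om p)ˣ :=
    { toFun := fun n => Units.mkOfMulEqOne (ξ n.toAdd) (ξ (-n.toAdd)) (hinv _)
      map_one' := by
        apply Units.ext
        change ξ 0 = 1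
        exact h0
      map_mul' := fun a b => by
        apply Units.ext
        change ξ (a.toAdd + b.toAdd) = ξ a.toAdd * ξ b.toAdd
        exact hmul _ _ }
  have hψ : ∀ n : N, ((ψ (Multiplicative.ofAdd n) : (Om p)ˣ) : Om p) = ξ n := fun n => rfl
  let jm : Multiplicative N →* Multiplicative M := AddMonoidHom.toMultiplicative j
  have hjm : Function.Injective jm := fun a b h => hj h
  let e : Multiplicative N ≃* jm.range := MonoidHom.ofInjective hjm
  let χH : jm.range →* (Om p)ˣ := ψ.comp e.symm.toMonoidHom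
  have : NeZero ((Monoid.exponent (Multiplicative M) : ℕ) : Om p) :=
    ⟨by exact_mod_cast Monoid.exponent_ne_zero_of_finite⟩
  obtain ⟨χ, hχ⟩ := MonoidHom.domRestrict_surjective (G := Multiplicative M) (M := Om p)
    jm.range χH
  refine ⟨fun m => ((χ (Multiplicative.ofAdd m) : (Om p)ˣ) : Om p), ?_, ?_, ?_⟩
  · change ((χ 1 : (Om p)ˣ) : Om p) = 1
    rw [map_one, Units.val_one]
  · intro x y
    change ((χ (Multiplicative.ofAdd x * Multiplicative.ofAdd y) : (Om p)ˣ) : Om p) = _
    rw [map_mul, Units.val_mul]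
  · intro n
    have h1 : χ (Multiplicative.ofAdd (j n)) = χH (e (Multiplicative.ofAdd n)) := by
      rw [← hχ]
      rfl
    change ((χ (Multiplicative.ofAdd (j n)) : (Om p)ˣ) : Om p) = ξ n
    rw [h1]
    change ((ψ (e.symm (e (Multiplicative.ofAdd n))) : (Om p)ˣ) : Om p) = ξ n
    rw [MulEquiv.symm_apply_apply]
    exact hψ n

/-- **FL-B7.** -/
theorem h87f_subOrder : SubOrder := by
  intro p _ Γ M _ _ act 𝓗 N _ actN j hj heq
  let 𝓗N : FHO p Γ N actN :=
    { carrier := 𝓗.carrier.map (h87f_comp Γ j)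
      fg := by
        rw [Subalgebra.map_toSubmodule]
        exact 𝓗.fg.map _
      equivariant := by
        rintro g ⟨f, hf, rfl⟩ σ hσ x
        change f (j (actN σ x)) = σ (f (j x))
        rw [heq σ hσ x]
        exact 𝓗.equivariant f hf σ hσ (j x)
      separates := by
        intro x y h
        apply hj
        apply 𝓗.separates
        intro f hf
        exact h (h87f_comp Γ j f) ⟨f, hf, rfl⟩
      comul := by
        rintro g ⟨f, hf, rfl⟩
        obtain ⟨n, a, b, ha, hb, hab⟩ := 𝓗.comul f hf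
        refine ⟨n, fun i => h87f_comp Γ j (a i), fun i => h87f_comp Γ j (b i),
          fun i => ⟨a i, ha i, rfl⟩, fun i => ⟨b i, hb i, rfl⟩, ?_⟩
        intro x y
        change f (j (x + y)) = ∑ i, a i (j x) * b i (j y)
        rw [map_add]
        exact hab (j x) (j y) }
  have hmem : ∀ g : N → Om p, g ∈ 𝓗N.carrier ↔ ∃ f ∈ 𝓗.carrier, g = f ∘ j := by
    intro g
    constructor
    · rintro ⟨f, hf, rfl⟩
      exact ⟨f, hf, rfl⟩
    · rintro ⟨f, hf, rfl⟩
      exact ⟨f, hf, rfl⟩
  refine ⟨𝓗N, hmem, ?_⟩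
  intro hchar ξ h0 hmul
  obtain ⟨ξ', h0', hmul', hξ'⟩ := h87f_char_extend j hj ξ h0 hmul
  have h1 := hchar ξ' h0' hmul'
  have h2 : LinearMap.funLeft (intOm p) (Om p) j ξ' ∈
      (Submodule.span (intOm p) (𝓗.carrier : Set (M → Om p))).map
        (LinearMap.funLeft (intOm p) (Om p) j) := Submodule.mem_map_of_mem h1
  rw [Submodule.map_span] at h2
  have h3 : LinearMap.funLeft (intOm p) (Om p) j ξ' = ξ := by
    funext n
    exact hξ' n
  rw [h3] at h2
  refine Submodule.span_mono ?_ h2
  rintro g ⟨f, hf, rfl⟩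
  exact (hmem _).mpr ⟨f, hf, rfl⟩

end Fermat.Agent.S56F
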