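import Fermat.Agent.S56F.IfaceRank1

/-!
# S56 / LOC-p-FL leaf FL-C0 (helper34): Teichmüller characters exist

`h34t_teichExists : TeichExists` — for every finite field `k` of characteristic `p` there is a
group homomorphism `τ : kˣ →* (Om p)ˣ` which is additive modulo the maximal ideal.

Route: the residue field `κ` of the integers of `Om p` has characteristic `p` and
`X ^ #k - X` splits in it (it splits over `Om p` with integral roots), so there is a ring
homomorphism `ι : k → κ` (splitting field).  A generator `g` of `kˣ` has `ι g ^ (#k - 1) = 1`,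
hence (`X ^ (#k - 1) - 1` splits over `Om p`) there is `w` with `w ^ (#k - 1) = 1` reducing to
`ι g`; `τ` is the homomorphism with `τ g = w`.  Then `τ a` reduces to `ι a` for all `a`.

Reusable, generic (`L` a non-archimedean normed field):
* `h34t_exists_norm_lt_one` : a product of integers of norm `< 1` has a factor of norm `< 1`;
* `h34t_exists_root_near` : (`L` algebraically closed) `‖x ^ n - 1‖ < 1` implies `‖x - w‖ < 1`
  for some `w` with `w ^ n = 1`;
* `h34t_residue_eq_zero_iff` : the residue of an integer vanishes iff its norm is `< 1`;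
* `h34t_splits_residue` : (`L` algebraically closed) `X ^ q - X` splits in the residue field.
-/

set_option autoImplicit false

namespace Fermat.Agent.S56F

open Valued IsLocalRing Polynomial

open scoped NormedField

section Generic

variable {L : Type*} [NontriviallyNormedField L] [IsUltrametricDist L]

omit [IsUltrametricDist L] in
/-- If a product of elements of norm `≤ 1` has norm `< 1`, some factor has norm `< 1`. -/
theorem h34t_exists_norm_lt_one (m : Multiset L) (hm : ∀ a ∈ m, ‖a‖ ≤ 1)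
    (h : ‖m.prod‖ < 1) : ∃ a ∈ m, ‖a‖ < 1 := by
  induction m using Multiset.induction_on with
  | empty => simp at h
  | cons a s ih =>
    rw [Multiset.prod_cons, norm_mul] at h
    rcases lt_or_ge ‖a‖ 1 with ha | ha
    · exact ⟨a, Multiset.mem_cons_self a s, ha⟩
    · have ha1 : ‖a‖ = 1 := le_antisymm (hm a (Multiset.mem_cons_self a s)) ha
      rw [ha1, one_mul] at h
      obtain ⟨b, hb, hb1⟩ := ih (fun b hb => hm b (Multiset.mem_cons_of_mem hb)) h
      exact ⟨b, Multiset.mem_cons_of_mem hb, hb1⟩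

/-- Over an algebraically closed non-archimedean field: an approximate `n`-th root of unity is
close to an `n`-th root of unity. -/
theorem h34t_exists_root_near [IsAlgClosed L] {n : ℕ} (hn : 0 < n) {x : L}
    (hx : ‖x ^ n - 1‖ < 1) : ∃ w : L, w ^ n = 1 ∧ ‖x - w‖ < 1 := by
  have hmonic : (X ^ n - C 1 : L[X]).Monic := monic_X_pow_sub_C 1 hn.ne'
  have hne : (X ^ n - C 1 : L[X]) ≠ 0 := hmonic.ne_zero
  have hsplit := IsAlgClosed.splits (X ^ n - C 1 : L[X])
  have heval := hsplit.eval_eq_prod_roots_of_monic hmonic x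
  have hev : (X ^ n - C 1 : L[X]).eval x = x ^ n - 1 := by simp
  rw [hev] at heval
  have hroots : ∀ w ∈ (X ^ n - C 1 : L[X]).roots, w ^ n = 1 := by
    intro w hw
    have h1 := (mem_roots hne).mp hw
    have h2 : (X ^ n - C 1 : L[X]).eval w = w ^ n - 1 := by simp
    rw [IsRoot.def, h2] at h1
    exact sub_eq_zero.mp h1
  have hnorm_root : ∀ w ∈ (X ^ n - C 1 : L[X]).roots, ‖w‖ = 1 := by
    intro w hw
    have h2 : ‖w‖ ^ n = 1 := by rw [← norm_pow, hroots w hw, norm_one]
    exact (pow_eq_one_iff_of_nonneg (norm_nonneg w) hn.ne').mp h2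
  have hx1 : ‖x‖ = 1 := by
    have h1 : ‖x ^ n‖ = 1 := by
      have h2 : x ^ n = 1 + (x ^ n - 1) := by ring
      rw [h2]
      have h3 := IsUltrametricDist.norm_add_eq_max_of_norm_ne_norm
        (x := (1 : L)) (y := x ^ n - 1) (by rw [norm_one]; exact hx.ne')
      rw [h3, norm_one]
      exact max_eq_left hx.le
    rw [norm_pow] at h1
    exact (pow_eq_one_iff_of_nonneg (norm_nonneg x) hn.ne').mp h1
  have hle : ∀ a ∈ (X ^ n - C 1 : L[X]).roots.map (x - ·), ‖a‖ ≤ 1 := by
    intro a ha
    obtain ⟨w, hw, rfl⟩ := Multiset.mem_map.mp ha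
    have h1 := IsUltrametricDist.norm_add_le_max x (-w)
    rw [norm_neg, hx1, hnorm_root w hw, max_self, ← sub_eq_add_neg] at h1
    exact h1
  rw [heval] at hx
  obtain ⟨a, ha, ha1⟩ := h34t_exists_norm_lt_one _ hle hx
  obtain ⟨w, hw, rfl⟩ := Multiset.mem_map.mp ha
  exact ⟨w, hroots w hw, ha1⟩

/-- The residue of an integer vanishes iff its norm is `< 1`. -/
theorem h34t_residue_eq_zero_iff (y : 𝒪[L]) : residue 𝒪[L] y = 0 ↔ ‖(y : L)‖ < 1 := by
  rw [IsLocalRing.residue_eq_zero_iff, IsLocalRing.mem_maximalIdeal, mem_nonunits_iff,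
    Valued.integer.isUnit_iff_norm_eq_one]
  constructor
  · intro h
    exact lt_of_le_of_ne (Valued.integer.norm_le_one y) h
  · intro h
    exact h.ne

/-- Over an algebraically closed non-archimedean field, `X ^ q - X` splits in the residue
field. -/
theorem h34t_splits_residue [IsAlgClosed L] {q : ℕ} (hq : 1 < q) :
    (X ^ q - X : (ResidueField 𝒪[L])[X]).Splits := by
  have hmonic : (X ^ q - X : L[X]).Monic :=
    monic_X_pow_sub (by rw [degree_X]; exact_mod_cast hq)
  have hne : (X ^ q - X : L[X]) ≠ 0 := hmonic.ne_zero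
  have hsplit := IsAlgClosed.splits (X ^ q - X : L[X])
  have hprod := hsplit.eq_prod_roots_of_monic hmonic
  have hroots : ∀ u ∈ (X ^ q - X : L[X]).roots, ‖u‖ ≤ 1 := by
    intro u hu
    have h1 := (mem_roots hne).mp hu
    have h2 : (X ^ q - X : L[X]).eval u = u ^ q - u := by simp
    rw [IsRoot.def, h2] at h1
    have h3 : u ^ q = u := sub_eq_zero.mp h1
    by_contra hcon
    have hgt : 1 < ‖u‖ := not_le.mp hcon
    have h4 : ‖u‖ ^ q = ‖u‖ := by rw [← norm_pow, h3]
    have h5 : ‖u‖ ^ 1 < ‖u‖ ^ q := pow_lt_pow_right₀ hgt hq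
    rw [pow_one, h4] at h5
    exact lt_irrefl _ h5
  let m : Multiset 𝒪[L] :=
    (X ^ q - X : L[X]).roots.pmap (fun u hu => ⟨u, Valued.integer.mem_iff.mpr hu⟩) hroots
  have hm : m.map (fun y : 𝒪[L] => (y : L)) = (X ^ q - X : L[X]).roots := by
    rw [Multiset.map_pmap]
    exact (Multiset.pmap_eq_map _ _ _ _).trans (Multiset.map_id' _)
  have hP : (X ^ q - X : 𝒪[L][X]) = (m.map (X - C ·)).prod := by
    apply Polynomial.map_injective (𝒪[L].subtype) Subtype.val_injective
    rw [Polynomial.map_multiset_prod, Multiset.map_map]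
    have h1 : (X ^ q - X : 𝒪[L][X]).map (𝒪[L].subtype) = (X ^ q - X : L[X]) := by simp
    rw [h1, hprod]
    conv_lhs => rw [← hm, Multiset.map_map]
    congr 1
    apply Multiset.map_congr rfl
    intro y _
    simp
  have hQ := congrArg (Polynomial.map (residue 𝒪[L])) hP
  rw [Polynomial.map_multiset_prod, Multiset.map_map] at hQ
  have h2 : (X ^ q - X : 𝒪[L][X]).map (residue 𝒪[L]) = (X ^ q - X : (ResidueField 𝒪[L])[X]) := by
    simp
  rw [h2] at hQ
  rw [hQ]
  apply Splits.multisetProd
  intro f hf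
  obtain ⟨y, -, rfl⟩ := Multiset.mem_map.mp hf
  simp only [Function.comp_apply, Polynomial.map_sub, map_X, map_C]
  exact Splits.X_sub_C _

end Generic

section Main

open Fermat.Agent.PT.Loc

/-- `‖p‖ < 1` in `Om p`. -/
theorem h34t_norm_p_lt_one (p : ℕ) [Fact p.Prime] : ‖(p : Om p)‖ < 1 := by
  have h1 : (p : Om p) = algebraMap ℚ_[p] (Om p) (p : ℚ_[p]) := by simp
  rw [h1, norm_algebraMap']
  exact Padic.norm_p_lt_one

/-- **FL-C0**: Teichmüller characters exist. -/
theorem h34t_teichExists : TeichExists := by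
  intro p _ k _ _ _
  classical
  have hfin : Fintype k := Fintype.ofFinite k
  -- the residue field and its characteristic
  have hpres : ((p : ℕ) : ResidueField 𝒪[Om p]) = 0 := by
    rw [← map_natCast (residue 𝒪[Om p]), h34t_residue_eq_zero_iff]
    exact h34t_norm_p_lt_one p
  have hchar : CharP (ResidueField 𝒪[Om p]) p :=
    (CharP.charP_iff_prime_eq_zero Fact.out).mpr hpres
  let _ : Algebra (ZMod p) k := ZMod.algebra k p
  let _ : Algebra (ZMod p) (ResidueField 𝒪[Om p]) := ZMod.algebra _ p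
  have hq : 1 < Fintype.card k := Fintype.one_lt_card
  have hsp : ((X ^ Fintype.card k - X : (ZMod p)[X]).map
      (algebraMap (ZMod p) (ResidueField 𝒪[Om p]))).Splits := by
    have h1 := h34t_splits_residue (L := Om p) hq
    simpa using h1
  let ι : k →ₐ[ZMod p] ResidueField 𝒪[Om p] :=
    IsSplittingField.lift k (X ^ Fintype.card k - X : (ZMod p)[X]) hsp
  -- a generator of `kˣ` and its Teichmüller lift
  obtain ⟨g, hg⟩ := IsCyclic.exists_generator (α := kˣ)
  have hq1 : 0 < Fintype.card k - 1 := by omega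
  have hgpow : (g : k) ^ (Fintype.card k - 1) = 1 :=
    FiniteField.pow_card_sub_one_eq_one (g : k) g.ne_zero
  obtain ⟨x, hx⟩ := IsLocalRing.residue_surjective (ι (g : k))
  have hxn : ‖(x : Om p) ^ (Fintype.card k - 1) - 1‖ < 1 := by
    have h1 : residue 𝒪[Om p] (x ^ (Fintype.card k - 1) - 1) = 0 := by
      rw [map_sub, map_pow, map_one, hx, ← map_pow, hgpow, map_one, sub_self]
    exact (h34t_residue_eq_zero_iff _).mp h1
  obtain ⟨w, hw, hxw⟩ := h34t_exists_root_near hq1 hxn
  have hw1 : ‖w‖ = 1 := by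
    have h2 : ‖w‖ ^ (Fintype.card k - 1) = 1 := by rw [← norm_pow, hw, norm_one]
    exact (pow_eq_one_iff_of_nonneg (norm_nonneg w) hq1.ne').mp h2
  let w0 : 𝒪[Om p] := ⟨w, Valued.integer.mem_iff.mpr hw1.le⟩
  have hw0pow : w0 ^ (Fintype.card k - 1) = 1 := Subtype.ext hw
  have hw0res : residue 𝒪[Om p] w0 = ι (g : k) := by
    rw [← hx, ← sub_eq_zero, ← map_sub, h34t_residue_eq_zero_iff]
    have h1 : ((w0 - x : 𝒪[Om p]) : Om p) = w - (x : Om p) := rfl
    rw [h1, norm_sub_rev]
    exact hxw
  let W : (𝒪[Om p])ˣ := Units.ofPowEqOne w0 (Fintype.card k - 1) hw0pow hq1.ne'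
  have hWpow : W ^ (Fintype.card k - 1) = 1 := Units.pow_ofPowEqOne hw0pow hq1.ne'
  have hordg : orderOf g = Fintype.card k - 1 := by
    rw [orderOf_eq_card_of_forall_mem_zpowers hg, Nat.card_eq_fintype_card, Fintype.card_units]
  have hord : orderOf W ∣ orderOf g := by
    rw [hordg]
    exact orderOf_dvd_of_pow_eq_one hWpow
  let τ0 : kˣ →* (𝒪[Om p])ˣ := monoidHomOfForallMemZpowers hg hord
  have hτ0g : τ0 g = W := monoidHomOfForallMemZpowers_apply_gen hg hord
  -- `τ0` reduces to `ι`
  have key : (Units.map (residue 𝒪[Om p] : 𝒪[Om p] →* ResidueField 𝒪[Om p])).comp τ0 =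
      Units.map ((ι : k →+* ResidueField 𝒪[Om p]) : k →* ResidueField 𝒪[Om p]) := by
    apply MonoidHom.eq_of_eqOn_dense (s := {g})
    · rw [← Subgroup.zpowers_eq_closure]
      exact (Subgroup.eq_top_iff' _).mpr hg
    · intro a ha
      rw [Set.mem_singleton_iff] at ha
      subst ha
      apply Units.ext
      simp only [MonoidHom.coe_comp, Function.comp_apply, Units.coe_map, MonoidHom.coe_coe, hτ0g]
      exact hw0res
  have hres : ∀ a : kˣ, residue 𝒪[Om p] ((τ0 a : (𝒪[Om p])ˣ) : 𝒪[Om p]) = ι (a : k) := by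
    intro a
    have h1 := congrArg (fun f : kˣ →* (ResidueField 𝒪[Om p])ˣ =>
      ((f a : (ResidueField 𝒪[Om p])ˣ) : ResidueField 𝒪[Om p])) key
    simpa using h1
  refine ⟨(Units.map (𝒪[Om p].subtype : 𝒪[Om p] →* Om p)).comp τ0, ?_, ?_⟩
  · intro a b c habc
    have h1 : residue 𝒪[Om p] ((τ0 a : 𝒪[Om p]) + τ0 b - τ0 c) = 0 := by
      rw [map_sub, map_add, hres, hres, hres, ← map_add, habc, sub_self]
    exact (h34t_residue_eq_zero_iff _).mp h1
  · intro a b hab
    have h1 : residue 𝒪[Om p] ((τ0 a : 𝒪[Om p]) + τ0 b) = 0 := by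
      rw [map_add, hres, hres, ← map_add, hab, map_zero]
    exact (h34t_residue_eq_zero_iff _).mp h1

end Main

end Fermat.Agent.S56F
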