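import Fermat.Agent.S56F.IfaceRank1
import Fermat.Agent.PT.Loc.H36URBase

/-!
# S56 / LOC-p-FL, leaf FL-C2 (helper68): the eigenfunction generator

For a `kˣ`-stable order `𝓗` on a line `M` over the finite field `k` and a non-trivial character
`θ = τ ^ j` of `kˣ` (`τ` a Teichmüller character), the `θ`-eigenfunctions of `𝓗` are generated
by one function `X`, and the `θ`-eigenfunctions of the `intOm`-span of `𝓗` are `intOm • X`.

Proof: the eigen-projector `e f = (q-1)⁻¹ ∑_a θ(a)⁻¹ f(a ·)` preserves `𝓗` (values of `τ` are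
roots of unity of order prime to `p`, hence fixed by inertia); some `e f` is non-zero (Dedekind
independence of the evaluations at the points `a • y₀`); `X := e g₀` for a generator `g₀` of the
module `𝓗` maximising `‖(e g) y₀‖`.  The hypothesis `InertiaDiscrete` is not needed.
-/

set_option autoImplicit false

open Fermat.Agent.PT.Loc

open scoped Classical

noncomputable section

namespace Fermat.Agent.S56F

section Basics

variable {p : ℕ} [Fact p.Prime]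

/-- Roots of unity of order prime to `p` are fixed by inertia. -/
theorem h68e_inertia_fix_root {σ : Gq p} (hσ : σ ∈ inertia p) {w : Om p} {m : ℕ} (hm : 0 < m)
    (hpm : ¬ p ∣ m) (hw : w ^ m = 1) : σ w = w := by
  have hn : ‖w‖ = 1 := h36u_norm_eq_one_of_pow hm hw
  have h1 : ‖σ w - w‖ < 1 := hσ w hn.le
  have h2 : (σ w) ^ m = 1 := by rw [← map_pow, hw, map_one]
  exact h36u_eq_of_norm_sub_lt hm hpm h2 hw h1

theorem h68e_root_mem_fixInt {w : Om p} {m : ℕ} (hm : 0 < m) (hpm : ¬ p ∣ m) (hw : w ^ m = 1) :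
    w ∈ fixInt p (inertia p) :=
  ⟨(h36u_norm_eq_one_of_pow hm hw).le, fun _ hσ => h68e_inertia_fix_root hσ hm hpm hw⟩

theorem h68e_inv_natCast_mem_fixInt (Γ : Subgroup (Gq p)) {n : ℕ} (hn : ¬ p ∣ n) :
    ((n : Om p))⁻¹ ∈ fixInt p Γ := by
  refine ⟨?_, fun σ _ => ?_⟩
  · rw [norm_inv, h36u_norm_natCast_eq_one hn, inv_one]
  · rw [map_inv₀, map_natCast]

end Basics

section Field

variable {p : ℕ} [Fact p.Prime] {k : Type} [Field k] [Fintype k] [CharP k p]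

theorem h68e_card_sub_one (k : Type) [Field k] [Fintype k] [CharP k p] :
    0 < Fintype.card k - 1 ∧ ¬ p ∣ Fintype.card k - 1 := by
  obtain ⟨n, hp, hn⟩ := FiniteField.card k p
  have h2 : 2 ≤ p := hp.two_le
  have hq : p ≤ Fintype.card k := by
    rw [hn]
    calc p = p ^ 1 := (pow_one p).symm
      _ ≤ p ^ (n : ℕ) := Nat.pow_le_pow_right (by omega) n.pos
  have hdvd : p ∣ Fintype.card k := by
    rw [hn]; exact dvd_pow_self p n.pos.ne'
  refine ⟨by omega, fun h => ?_⟩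
  have h1 : p ∣ Fintype.card k - (Fintype.card k - 1) := Nat.dvd_sub hdvd h
  have h3 : Fintype.card k - (Fintype.card k - 1) = 1 := by omega
  rw [h3] at h1
  have := Nat.le_of_dvd one_pos h1
  omega

theorem h68e_teich_pow (τ : kˣ →* (Om p)ˣ) (a : kˣ) :
    ((τ a : (Om p)ˣ) : Om p) ^ (Fintype.card k - 1) = 1 := by
  have h1 : a ^ (Fintype.card k - 1) = 1 := by
    apply Units.ext
    rw [Units.val_pow_eq_pow_val, Units.val_one]
    exact FiniteField.pow_card_sub_one_eq_one (a : k) a.ne_zero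
  have h2 : (τ a) ^ (Fintype.card k - 1) = 1 := by rw [← map_pow, h1, map_one]
  have h3 := congrArg (fun u : (Om p)ˣ => (u : Om p)) h2
  simpa using h3

theorem h68e_teich_norm (τ : kˣ →* (Om p)ˣ) (a : kˣ) : ‖((τ a : (Om p)ˣ) : Om p)‖ = 1 :=
  h36u_norm_eq_one_of_pow (h68e_card_sub_one (p := p) k).1 (h68e_teich_pow τ a)

theorem h68e_teich_mem (τ : kˣ →* (Om p)ˣ) (a : kˣ) :
    ((τ a : (Om p)ˣ) : Om p) ∈ fixInt p (inertia p) :=
  h68e_root_mem_fixInt (h68e_card_sub_one (p := p) k).1 (h68e_card_sub_one (p := p) k).2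
    (h68e_teich_pow τ a)

theorem h68e_teich_injective (τ : kˣ →* (Om p)ˣ) (hτ : IsTeich p τ) : Function.Injective τ := by
  rw [injective_iff_map_eq_one]
  intro a ha
  by_contra hne
  have hb : (a : k) - 1 ≠ 0 := sub_ne_zero.mpr (fun h => hne (Units.ext h))
  have h := hτ.1 1 (Units.mk0 _ hb) a (by simp)
  rw [map_one, ha] at h
  have hn := h68e_teich_norm (p := p) τ (Units.mk0 _ hb)
  have h2 : ((1 : (Om p)ˣ) : Om p) + ((τ (Units.mk0 _ hb) : (Om p)ˣ) : Om p) - ((1 : (Om p)ˣ) : Om p)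
      = ((τ (Units.mk0 _ hb) : (Om p)ˣ) : Om p) := by ring
  rw [h2, hn] at h
  exact lt_irrefl _ h

theorem h68e_exists_ne_one (τ : kˣ →* (Om p)ˣ) (hτ : IsTeich p τ) (j : ℕ)
    (hj : ¬ (Fintype.card k - 1) ∣ j) : ∃ a : kˣ, ((τ a : (Om p)ˣ) : Om p) ^ j ≠ 1 := by
  by_contra hcon
  rw [not_exists] at hcon
  obtain ⟨g, hg⟩ := IsCyclic.exists_generator (α := kˣ)
  have hord : orderOf g = Fintype.card k - 1 := by
    rw [orderOf_eq_card_of_forall_mem_zpowers hg, Nat.card_eq_fintype_card, Fintype.card_units]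
  have h1 : ((τ g : (Om p)ˣ) : Om p) ^ j = 1 := not_not.mp (hcon g)
  have h2 : τ (g ^ j) = 1 := by
    apply Units.ext
    rw [map_pow, Units.val_pow_eq_pow_val, h1, Units.val_one]
  have h3 : g ^ j = 1 := h68e_teich_injective τ hτ (by rw [h2, map_one])
  exact hj (hord ▸ orderOf_dvd_of_pow_eq_one h3)

end Field

section Proj

variable {p : ℕ} [Fact p.Prime] {k : Type} [Field k] [Fintype k] [CharP k p]
  {M : Type} [AddCommGroup M] [Module k M]

/-- The eigen-projector for the character `θ = τ ^ j` of `kˣ`. -/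
def h68e_proj (τ : kˣ →* (Om p)ˣ) (j : ℕ) (f : M → Om p) : M → Om p :=
  fun y => (((Fintype.card k - 1 : ℕ)) : Om p)⁻¹ *
    ∑ a : kˣ, ((τ a⁻¹ : (Om p)ˣ) : Om p) ^ j * f (a • y)

omit [CharP k p] in
theorem h68e_proj_add (τ : kˣ →* (Om p)ˣ) (j : ℕ) (f g : M → Om p) :
    h68e_proj τ j (f + g) = h68e_proj τ j f + h68e_proj τ j g := by
  funext y
  simp only [h68e_proj, Pi.add_apply, mul_add, Finset.sum_add_distrib]

omit [CharP k p] in
theorem h68e_proj_smul (τ : kˣ →* (Om p)ˣ) (j : ℕ) (c : Om p) (f : M → Om p) :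
    h68e_proj τ j (c • f) = c • h68e_proj τ j f := by
  funext y
  simp only [h68e_proj, Pi.smul_apply, smul_eq_mul, Finset.mul_sum]
  refine Finset.sum_congr rfl fun a _ => ?_
  ring

omit [CharP k p] in
theorem h68e_proj_zero (τ : kˣ →* (Om p)ˣ) (j : ℕ) :
    h68e_proj τ j (0 : M → Om p) = 0 := by
  funext y
  simp [h68e_proj]

omit [CharP k p] in
theorem h68e_proj_eigen (τ : kˣ →* (Om p)ˣ) (j : ℕ) (f : M → Om p) (b : kˣ) (y : M) :
    h68e_proj τ j f (b • y) = ((τ b : (Om p)ˣ) : Om p) ^ j * h68e_proj τ j f y := by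
  have key : ∑ a : kˣ, ((τ a⁻¹ : (Om p)ˣ) : Om p) ^ j * f (a • b • y)
      = ∑ a : kˣ, ((τ b : (Om p)ˣ) : Om p) ^ j *
          (((τ a⁻¹ : (Om p)ˣ) : Om p) ^ j * f (a • y)) := by
    refine Fintype.sum_equiv (Equiv.mulRight b)
      (fun a => ((τ a⁻¹ : (Om p)ˣ) : Om p) ^ j * f (a • b • y))
      (fun a => ((τ b : (Om p)ˣ) : Om p) ^ j *
          (((τ a⁻¹ : (Om p)ˣ) : Om p) ^ j * f (a • y))) fun a => ?_
    have h1 : (a * b)⁻¹ = b⁻¹ * a⁻¹ := mul_inv_rev a b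
    have h2 : ((τ b : (Om p)ˣ) : Om p) * ((τ (b⁻¹ * a⁻¹) : (Om p)ˣ) : Om p)
        = ((τ a⁻¹ : (Om p)ˣ) : Om p) := by
      rw [← Units.val_mul, ← map_mul, mul_inv_cancel_left]
    simp only [Equiv.coe_mulRight]
    rw [h1, mul_smul, ← mul_assoc, ← mul_pow, h2]
  simp only [h68e_proj]
  rw [key, ← Finset.mul_sum]
  ring

theorem h68e_card_ne_zero (k : Type) [Field k] [Fintype k] [CharP k p] :
    (((Fintype.card k - 1 : ℕ)) : Om p) ≠ 0 := by
  intro h
  have := h36u_norm_natCast_eq_one (q := p) (h68e_card_sub_one (p := p) k).2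
  rw [h, norm_zero] at this
  exact zero_ne_one this

theorem h68e_proj_of_eigen (τ : kˣ →* (Om p)ˣ) (j : ℕ) (Y : M → Om p)
    (hY : ∀ (a : kˣ) (y : M), Y (a • y) = ((τ a : (Om p)ˣ) : Om p) ^ j * Y y) :
    h68e_proj τ j Y = Y := by
  funext y
  simp only [h68e_proj]
  have h1 : ∀ a : kˣ, ((τ a⁻¹ : (Om p)ˣ) : Om p) ^ j * Y (a • y) = Y y := by
    intro a
    rw [hY, ← mul_assoc, ← mul_pow, ← Units.val_mul, ← map_mul, inv_mul_cancel, map_one,
      Units.val_one, one_pow, one_mul]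
  rw [Finset.sum_congr rfl (fun a _ => h1 a), Finset.sum_const, Finset.card_univ,
    Fintype.card_units, nsmul_eq_mul, ← mul_assoc, inv_mul_cancel₀ (h68e_card_ne_zero k),
    one_mul]

theorem h68e_proj_mem (τ : kˣ →* (Om p)ˣ) (j : ℕ) {act : Gq p → M → M}
    (𝓗 : FHO p (inertia p) M act) (hst : ∀ a : kˣ, 𝓗.StableUnder (fun x => a • x))
    {f : M → Om p} (hf : f ∈ 𝓗.carrier) : h68e_proj τ j f ∈ 𝓗.carrier := by
  have hc0 : (((Fintype.card k - 1 : ℕ)) : Om p)⁻¹ ∈ fixInt p (inertia p) :=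
    h68e_inv_natCast_mem_fixInt _ (h68e_card_sub_one (p := p) k).2
  have hr : ∀ a : kˣ, ((τ a⁻¹ : (Om p)ˣ) : Om p) ^ j ∈ fixInt p (inertia p) :=
    fun a => Subring.pow_mem _ (h68e_teich_mem τ a⁻¹) j
  have heq : h68e_proj τ j f =
      (⟨_, hc0⟩ : fixInt p (inertia p)) •
        ∑ a : kˣ, (⟨_, hr a⟩ : fixInt p (inertia p)) • (fun y => f (a • y)) := by
    funext y
    simp only [h68e_proj, Pi.smul_apply, Finset.sum_apply]
    rfl
  rw [heq]
  refine Subalgebra.smul_mem _ (Subalgebra.sum_mem _ fun a _ => ?_) _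
  exact Subalgebra.smul_mem _ (hst a f hf) _

end Proj

section Main

variable {p : ℕ} [Fact p.Prime] {k : Type} [Field k] [Fintype k] [CharP k p]
  {M : Type} [AddCommGroup M] [Module k M]

omit [Fintype k] [CharP k p] in
/-- An eigenfunction for a non-trivial character vanishes at `0`. -/
theorem h68e_eigen_zero (τ : kˣ →* (Om p)ˣ) (j : ℕ) {a₁ : kˣ}
    (ha₁ : ((τ a₁ : (Om p)ˣ) : Om p) ^ j ≠ 1) {W : M → Om p}
    (hW : ∀ (a : kˣ) (y : M), W (a • y) = ((τ a : (Om p)ˣ) : Om p) ^ j * W y) : W 0 = 0 := by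
  have h := hW a₁ 0
  rw [smul_zero] at h
  have h2 : (((τ a₁ : (Om p)ˣ) : Om p) ^ j - 1) * W 0 = 0 := by
    rw [sub_mul, one_mul, ← h, sub_self]
  rcases mul_eq_zero.mp h2 with h' | h'
  · exact absurd (sub_eq_zero.mp h') ha₁
  · exact h'

omit [Fintype k] [CharP k p] in
/-- Eigenfunctions for a non-trivial character on a line are determined by one value. -/
theorem h68e_eigen_ext (hM : Module.finrank k M = 1) (τ : kˣ →* (Om p)ˣ) (j : ℕ) {a₁ : kˣ}
    (ha₁ : ((τ a₁ : (Om p)ˣ) : Om p) ^ j ≠ 1) {y₀ : M} (hy₀ : y₀ ≠ 0) {Y Z : M → Om p}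
    (hY : ∀ (a : kˣ) (y : M), Y (a • y) = ((τ a : (Om p)ˣ) : Om p) ^ j * Y y)
    (hZ : ∀ (a : kˣ) (y : M), Z (a • y) = ((τ a : (Om p)ˣ) : Om p) ^ j * Z y)
    (h0 : Y y₀ = Z y₀) : Y = Z := by
  funext y
  obtain ⟨c, rfl⟩ := (finrank_eq_one_iff_of_nonzero' y₀ hy₀).mp hM y
  by_cases hc : c = 0
  · subst hc
    rw [zero_smul, h68e_eigen_zero τ j ha₁ hY, h68e_eigen_zero τ j ha₁ hZ]
  · have h1 := hY (Units.mk0 c hc) y₀
    have h2 := hZ (Units.mk0 c hc) y₀
    rw [Units.smul_mk0] at h1 h2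
    rw [h1, h2, h0]

/-- Some function of the order has a non-zero eigen-projection. -/
theorem h68e_exists_proj_ne_zero {act : Gq p → M → M} (𝓗 : FHO p (inertia p) M act)
    (τ : kˣ →* (Om p)ˣ) (j : ℕ) {y₀ : M} (hy₀ : y₀ ≠ 0) :
    ∃ f ∈ 𝓗.carrier, h68e_proj τ j f y₀ ≠ 0 := by
  by_contra hcon
  have hzero : ∀ f ∈ 𝓗.carrier,
      ∑ a : kˣ, ((τ a⁻¹ : (Om p)ˣ) : Om p) ^ j * f (a • y₀) = 0 := by
    intro f hf
    by_contra hne
    refine hcon ⟨f, hf, ?_⟩
    simp only [h68e_proj]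
    exact mul_ne_zero (inv_ne_zero (h68e_card_ne_zero k)) hne
  let ev : kˣ → (𝓗.carrier →* Om p) := fun a =>
    { toFun := fun f => (f : M → Om p) (a • y₀)
      map_one' := rfl
      map_mul' := fun _ _ => rfl }
  have hinj : Function.Injective ev := by
    intro a b hab
    have hsep : a • y₀ = b • y₀ := 𝓗.separates _ _ (fun f hf => by
      have h := DFunLike.congr_fun hab ⟨f, hf⟩
      exact h)
    rw [Units.smul_def, Units.smul_def] at hsep
    exact Units.ext (smul_left_injective k hy₀ hsep)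
  have hli := (linearIndependent_monoidHom 𝓗.carrier (Om p)).comp ev hinj
  rw [Fintype.linearIndependent_iff] at hli
  have h1 := hli (fun a => ((τ a⁻¹ : (Om p)ˣ) : Om p) ^ j) (by
    funext f
    simp only [Function.comp_apply, Finset.sum_apply, Pi.smul_apply, smul_eq_mul, Pi.zero_apply]
    exact hzero f f.2) 1
  simp only [inv_one, map_one, Units.val_one, one_pow] at h1
  exact one_ne_zero h1

/-- **FL-C2**, unconditional form. -/
theorem h68e_eigenGen_aux (hM : Module.finrank k M = 1) {act : Gq p → M → M}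
    (𝓗 : FHO p (inertia p) M act) (hst : ∀ a : kˣ, 𝓗.StableUnder (fun x => a • x))
    (τ : kˣ →* (Om p)ˣ) (hτ : IsTeich p τ) (j : ℕ) (hj : ¬ (Fintype.card k - 1) ∣ j) :
    ∃ X ∈ 𝓗.carrier, (∃ y, X y ≠ 0) ∧
      (∀ (a : kˣ) (y : M), X (a • y) = ((τ a : (Om p)ˣ) : Om p) ^ j * X y) ∧
      ∀ Y ∈ Submodule.span (intOm p) (𝓗.carrier : Set (M → Om p)),
        (∀ (a : kˣ) (y : M), Y (a • y) = ((τ a : (Om p)ˣ) : Om p) ^ j * Y y) →
          ∃ c : Om p, ‖c‖ ≤ 1 ∧ ∀ y, Y y = c * X y := by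
  obtain ⟨a₁, ha₁⟩ := h68e_exists_ne_one τ hτ j hj
  obtain ⟨y₀, hy₀⟩ : ∃ y₀ : M, y₀ ≠ 0 := by
    have : Nontrivial M := Module.nontrivial_of_finrank_pos (R := k) (by rw [hM]; exact one_pos)
    exact exists_ne 0
  obtain ⟨S, hS⟩ := 𝓗.fg
  obtain ⟨f₁, hf₁, hf₁ne⟩ := h68e_exists_proj_ne_zero 𝓗 τ j hy₀
  have hmemS : ∀ f ∈ 𝓗.carrier,
      f ∈ Submodule.span (fixInt p (inertia p)) (S : Set (M → Om p)) := fun f hf => by
    rw [hS]; exact hf
  have hSsub : ∀ g ∈ S, g ∈ 𝓗.carrier := fun g hg => by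
    have h : g ∈ Submodule.span (fixInt p (inertia p)) (S : Set (M → Om p)) :=
      Submodule.subset_span hg
    rw [hS] at h
    exact h
  have hsmul : ∀ (r : fixInt p (inertia p)) (f : M → Om p),
      h68e_proj τ j (r • f) = (r : Om p) • h68e_proj τ j f := fun r f =>
    h68e_proj_smul τ j (r : Om p) f
  have hSne : S.Nonempty := by
    by_contra hemp
    rw [Finset.not_nonempty_iff_eq_empty] at hemp
    have h := hmemS f₁ hf₁
    rw [hemp, Finset.coe_empty, Submodule.span_empty, Submodule.mem_bot] at h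
    rw [h, h68e_proj_zero] at hf₁ne
    exact hf₁ne rfl
  obtain ⟨g₀, hg₀S, hmax⟩ :=
    Finset.exists_max_image S (fun g => ‖h68e_proj τ j g y₀‖) hSne
  have hbound : ∀ f ∈ Submodule.span (fixInt p (inertia p)) (S : Set (M → Om p)),
      ‖h68e_proj τ j f y₀‖ ≤ ‖h68e_proj τ j g₀ y₀‖ := by
    intro f hf
    refine Submodule.span_induction (p := fun f _ => ‖h68e_proj τ j f y₀‖ ≤ ‖h68e_proj τ j g₀ y₀‖)
      (fun g hg => hmax g hg) ?_ ?_ ?_ hf
    · rw [h68e_proj_zero, Pi.zero_apply, norm_zero]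
      exact norm_nonneg _
    · intro f g _ _ ihf ihg
      rw [h68e_proj_add, Pi.add_apply]
      exact (IsUltrametricDist.norm_add_le_max _ _).trans (max_le ihf ihg)
    · intro r f _ ih
      rw [hsmul, Pi.smul_apply, smul_eq_mul, norm_mul]
      calc ‖(r : Om p)‖ * ‖h68e_proj τ j f y₀‖ ≤ 1 * ‖h68e_proj τ j f y₀‖ :=
            mul_le_mul_of_nonneg_right r.2.1 (norm_nonneg _)
        _ = ‖h68e_proj τ j f y₀‖ := one_mul _
        _ ≤ _ := ih
  have hX0 : h68e_proj τ j g₀ y₀ ≠ 0 := by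
    intro h
    have h1 := hbound f₁ (hmemS f₁ hf₁)
    rw [h, norm_zero] at h1
    exact hf₁ne (norm_le_zero_iff.mp h1)
  have hXeig : ∀ (a : kˣ) (y : M), h68e_proj τ j g₀ (a • y) =
      ((τ a : (Om p)ˣ) : Om p) ^ j * h68e_proj τ j g₀ y := fun a y => h68e_proj_eigen τ j g₀ a y
  -- every projection is an integral multiple of `X`
  have hG0 : ∀ f : M → Om p, ‖h68e_proj τ j f y₀‖ ≤ ‖h68e_proj τ j g₀ y₀‖ →
      ∃ c : Om p, ‖c‖ ≤ 1 ∧ h68e_proj τ j f = c • h68e_proj τ j g₀ := by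
    intro f hle
    refine ⟨h68e_proj τ j f y₀ / h68e_proj τ j g₀ y₀, ?_, ?_⟩
    · rw [norm_div]
      exact div_le_one_of_le₀ hle (norm_nonneg _)
    · refine h68e_eigen_ext hM τ j ha₁ hy₀ (fun a y => h68e_proj_eigen τ j f a y) ?_ ?_
      · intro a y
        rw [Pi.smul_apply, Pi.smul_apply, hXeig, smul_eq_mul, smul_eq_mul]
        ring
      · rw [Pi.smul_apply, smul_eq_mul, div_mul_cancel₀ _ hX0]
  have hG : ∀ Y ∈ Submodule.span (intOm p) (𝓗.carrier : Set (M → Om p)),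
      ∃ c : Om p, ‖c‖ ≤ 1 ∧ h68e_proj τ j Y = c • h68e_proj τ j g₀ := by
    intro Y hY
    refine Submodule.span_induction
      (p := fun Y _ => ∃ c : Om p, ‖c‖ ≤ 1 ∧ h68e_proj τ j Y = c • h68e_proj τ j g₀)
      (fun f hf => hG0 f (hbound f (hmemS f hf))) ?_ ?_ ?_ hY
    · exact ⟨0, by rw [norm_zero]; exact zero_le_one, by rw [h68e_proj_zero, zero_smul]⟩
    · rintro f g _ _ ⟨c, hc, hfc⟩ ⟨d, hd, hgd⟩
      refine ⟨c + d, (IsUltrametricDist.norm_add_le_max _ _).trans (max_le hc hd), ?_⟩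
      rw [h68e_proj_add, hfc, hgd, add_smul]
    · rintro r f _ ⟨c, hc, hfc⟩
      refine ⟨(r : Om p) * c, ?_, ?_⟩
      · rw [norm_mul]
        exact mul_le_one₀ r.2.1 (norm_nonneg _) hc
      · have h1 : h68e_proj τ j (r • f) = (r : Om p) • h68e_proj τ j f :=
          h68e_proj_smul τ j (r : Om p) f
        rw [h1, hfc, mul_smul]
  refine ⟨h68e_proj τ j g₀, h68e_proj_mem τ j 𝓗 hst (hSsub g₀ hg₀S), ⟨y₀, hX0⟩, hXeig, ?_⟩
  intro Y hY hYeig
  obtain ⟨c, hc, hYc⟩ := hG Y hY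
  refine ⟨c, hc, fun y => ?_⟩
  have h1 : Y y = h68e_proj τ j Y y := by rw [h68e_proj_of_eigen τ j Y hYeig]
  rw [h1, hYc, Pi.smul_apply, smul_eq_mul]

end Main

/-- **FL-C2**: `InertiaDiscrete → EigenGen` (the hypothesis is not needed). -/
theorem h68e_eigenGen : InertiaDiscrete → EigenGen := by
  intro _ p _ k _ _ _ M _ _ hM act χ _ 𝓗 hst τ hτ j hj
  exact h68e_eigenGen_aux hM 𝓗 hst τ hτ j hj

end Fermat.Agent.S56F
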