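import Fermat.Agent.S56F.IfaceRank1

/-!
# S56 / LOC-p-FL, leaf FL-C4 (helper68): the digit lemma

If `U i ≤ (p ^ r - 1) / (p - 1)` and `U i ≡ p ^ i * U 0` modulo `p ^ r - 1` for all `i < r`,
then the base-`p` digits of `U 0` are `0` or `1`.  Proof: moving a digit `≥ 2` to the top by a
cyclic shift produces a residue `≥ 2 p ^ (r - 1) > (p ^ r - 1) / (p - 1)`.
-/

set_option autoImplicit false

namespace Fermat.Agent.S56F

/-- Base-`p` expansion of `u % p ^ r`. -/
theorem h68f_sum_digits (p u r : ℕ) :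
    ∑ i ∈ Finset.range r, ((u / p ^ i) % p) * p ^ i = u % p ^ r := by
  induction r with
  | zero => simp [Nat.mod_one]
  | succ r ih =>
    rw [Finset.sum_range_succ, ih, Nat.mod_pow_succ]
    ring

/-- Key inequality: under the hypotheses of the digit lemma every base-`p` digit of `U 0` is
at most `1`. -/
theorem h68f_digit_le_one (p r : ℕ) (hp : p.Prime) (U : ℕ → ℕ)
    (hU : ∀ i < r, U i ≤ (p ^ r - 1) / (p - 1))
    (hmod : ∀ i < r, U i ≡ p ^ i * U 0 [MOD p ^ r - 1]) (t : ℕ) (ht : t < r) :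
    (U 0 / p ^ t) % p ≤ 1 := by
  by_contra hd
  rw [not_le] at hd
  have hp2 : 2 ≤ p := hp.two_le
  have hdp : (U 0 / p ^ t) % p < p := Nat.mod_lt _ (by omega)
  have hp3 : 3 ≤ p := by omega
  -- notation
  obtain ⟨i, hi⟩ : ∃ i, r = i + 1 + t := ⟨r - 1 - t, by omega⟩
  have hir : i < r := by omega
  set u := U 0 with hu
  set d := (u / p ^ t) % p with hd_def
  set P := p ^ t with hP
  set Q := p ^ i with hQ
  have hPpos : 0 < P := pow_pos (by omega) _
  have hQpos : 0 < Q := pow_pos (by omega) _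
  have hq : p ^ r = Q * (p * P) := by
    rw [hi, hQ, hP, pow_add, pow_add, pow_one]
    ring
  set M := (p ^ r - 1) / (p - 1) with hM
  have hMle : M * (p - 1) ≤ p ^ r - 1 := Nat.div_mul_le_self _ _
  have hqpos : 1 ≤ Q * (p * P) := Nat.one_le_iff_ne_zero.mpr (by positivity)
  -- decomposition of `u`
  set a := u % (p * P) with ha
  set b := u / (p * P) with hb
  have hab : a + p * P * b = u := Nat.mod_add_div u (p * P)
  have ha_lt : a < p * P := Nat.mod_lt _ (by positivity)
  have ha_eq : a = u % P + P * d := by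
    have := Nat.mod_pow_succ (x := u) (b := p) (k := t)
    rw [pow_succ] at this
    rw [ha, mul_comm p P, this]
  have hu_le : u ≤ M := hU 0 (by omega)
  have hM_lt : M < p ^ r - 1 := by
    -- 2 M ≤ M (p - 1) ≤ q - 1 and q - 1 > 0
    have h2 : 2 * M ≤ M * (p - 1) := by
      rw [mul_comm]; exact Nat.mul_le_mul_left _ (by omega)
    have hq3 : 3 ≤ p ^ r := by
      calc 3 ≤ p := hp3
        _ = p ^ 1 := (pow_one p).symm
        _ ≤ p ^ r := Nat.pow_le_pow_right (by omega) (by omega)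
    omega
  have hu_lt : u < Q * (p * P) := by rw [← hq]; omega
  have hb_lt : b < Q := by
    rw [hb, Nat.div_lt_iff_lt_mul (by positivity)]
    exact hu_lt
  -- the shifted value
  set V := Q * a + b with hV
  have hVkey : Q * u = V + (p ^ r - 1) * b := by
    have h1 : (p ^ r - 1) * b + b = p ^ r * b := by
      have : p ^ r - 1 + 1 = p ^ r := Nat.sub_add_cancel (by rw [hq]; exact hqpos)
      calc (p ^ r - 1) * b + b = (p ^ r - 1 + 1) * b := by ring
        _ = p ^ r * b := by rw [this]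
    have h2 : Q * u = Q * a + p ^ r * b := by
      rw [← hab, hq]; ring
    rw [h2, hV, ← h1]; ring
  have hVmod : U i ≡ V [MOD p ^ r - 1] := by
    refine (hmod i hir).trans ?_
    have : Q * u ≡ V [MOD p ^ r - 1] := by
      rw [hVkey]
      have h0 : (p ^ r - 1) * b ≡ 0 [MOD p ^ r - 1] :=
        (Nat.modEq_zero_iff_dvd).mpr (Dvd.intro _ rfl)
      have h5 := (Nat.ModEq.refl V).add h0
      rwa [add_zero] at h5
    exact this
  have hV_ge : 2 * (Q * P) ≤ V := by
    have h1 : P * 2 ≤ a := by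
      rw [ha_eq]
      have : P * 2 ≤ P * d := Nat.mul_le_mul_left _ hd
      omega
    have h2 : Q * (P * 2) ≤ Q * a := Nat.mul_le_mul_left _ h1
    have h3 : Q * (P * 2) = 2 * (Q * P) := by ring
    have h4 : Q * a ≤ V := Nat.le_add_right _ _
    omega
  have hV_le : V + 1 ≤ p ^ r := by
    have h1 : Q * (a + 1) ≤ Q * (p * P) := Nat.mul_le_mul_left _ ha_lt
    have h2 : Q * (a + 1) = Q * a + Q := by ring
    rw [hq]
    omega
  have hM_lt2 : M < 2 * (Q * P) := by
    by_contra hcon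
    rw [not_lt] at hcon
    have h1 : 2 * (Q * P) * (p - 1) ≤ M * (p - 1) := Nat.mul_le_mul_right _ hcon
    have h2 : Q * (p * P) ≤ 2 * (Q * P) * (p - 1) := by
      have h3 : p ≤ 2 * (p - 1) := by omega
      calc Q * (p * P) = (Q * P) * p := by ring
        _ ≤ (Q * P) * (2 * (p - 1)) := Nat.mul_le_mul_left _ h3
        _ = 2 * (Q * P) * (p - 1) := by ring
    rw [hq] at hMle
    omega
  have hUi : U i ≤ M := hU i hir
  have hlt : U i < V := by omega
  have hdvd : p ^ r - 1 ∣ V - U i := (Nat.modEq_iff_dvd' hlt.le).mp hVmod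
  have hle : p ^ r - 1 ≤ V - U i := Nat.le_of_dvd (by omega) hdvd
  have hVeq : V + 1 = p ^ r := by omega
  -- hence `u = q - 1`, contradicting `u ≤ M < q - 1`
  have hb_eq : b + 1 = Q := by
    have h1 : Q * (a + 1) ≤ Q * (p * P) := Nat.mul_le_mul_left _ ha_lt
    have h2 : Q * (a + 1) = Q * a + Q := by ring
    rw [hq] at hVeq
    omega
  have ha_eq2 : a + 1 = p * P := by
    have h1 : Q * (a + 1) = Q * (p * P) := by
      have h2 : Q * (a + 1) = Q * a + Q := by ring
      rw [hq] at hVeq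
      omega
    exact Nat.eq_of_mul_eq_mul_left hQpos h1
  have hu_eq : u + 1 = p ^ r := by
    rw [hq, ← hab, ← hb_eq]
    have : p * P * b + p * P = (b + 1) * (p * P) := by ring
    have h3 : a + p * P * b + 1 = p * P * b + p * P := by omega
    rw [h3, this]
  omega

/-- **FL-C4** (digits). -/
theorem h68f_digitLemma_aux (p r : ℕ) (hp : p.Prime) (hr : 0 < r) (U : ℕ → ℕ)
    (hU : ∀ i < r, U i ≤ (p ^ r - 1) / (p - 1))
    (hmod : ∀ i < r, U i ≡ p ^ i * U 0 [MOD p ^ r - 1]) :
    ∃ S : Finset (Fin r), U 0 = ∑ i ∈ S, p ^ (i : ℕ) := by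
  classical
  have hp2 : 2 ≤ p := hp.two_le
  have hdig := h68f_digit_le_one p r hp U hU hmod
  have hqpos : 1 ≤ p ^ r := Nat.one_le_iff_ne_zero.mpr (by positivity)
  have hult : U 0 < p ^ r := by
    have h1 : U 0 ≤ (p ^ r - 1) / (p - 1) := hU 0 hr
    have h2 : (p ^ r - 1) / (p - 1) ≤ p ^ r - 1 := Nat.div_le_self _ _
    omega
  refine ⟨Finset.univ.filter (fun i : Fin r => (U 0 / p ^ (i : ℕ)) % p = 1), ?_⟩
  have hsum := h68f_sum_digits p (U 0) r
  rw [Nat.mod_eq_of_lt hult] at hsum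
  have hfin : ∑ i ∈ Finset.univ.filter (fun i : Fin r => (U 0 / p ^ (i : ℕ)) % p = 1),
      p ^ (i : ℕ) = ∑ i ∈ Finset.range r, ((U 0 / p ^ i) % p) * p ^ i := by
    rw [Finset.sum_filter, ← Fin.sum_univ_eq_sum_range
      (fun i => ((U 0 / p ^ i) % p) * p ^ i) r]
    refine Finset.sum_congr rfl fun i _ => ?_
    have h1 := hdig i i.2
    rcases Nat.le_one_iff_eq_zero_or_eq_one.mp h1 with h0 | h1'
    · rw [h0]; simp
    · rw [h1']; simp
  rw [hfin, hsum]

/-- **FL-C4**: the frozen Prop `DigitLemma`. -/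
theorem h68f_digitLemma : DigitLemma :=
  fun p r hp hr U hU hmod => h68f_digitLemma_aux p r hp hr U hU hmod

end Fermat.Agent.S56F
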