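import Fermat.Agent.S56F.IfaceRank1
import Fermat.Agent.PT.Glob.H96KKumRamConv
import Fermat.Agent.PT.Loc.H34LFTeich
import Fermat.Agent.PT.Loc.H96RDBase

/-!
# S56 / LOC-p-FL, leaf FL-D1 (helper45): the inertia field is unramified

`h45f_inertiaDiscrete : InertiaDiscrete` : the ring `fixInt p (inertia p)` of the integers of
`Om p = PadicAlgCl p` fixed by the inertia group is discrete with uniformiser `p`.

Also the half of FL-D0 which is needed here:

* `h45f_mem_inertia_of_fix_roots` : an automorphism fixing all the roots of unity of order prime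
  to `p` lies in `inertia p` (Teichmüller representatives, landed `h34lf_lfTeich`);
* `h45f_norm_of_fixed` : an element `x ≠ 0` fixed by `inertia p` has `‖x‖ ∈ p ^ ℤ`
  (landed `h96k_norm_of_inert`).
-/

set_option autoImplicit false

open Fermat.Agent.PT.Loc

noncomputable section

namespace Fermat.Agent.S56F

variable (p : ℕ) [Fact p.Prime]

/-- every automorphism of `Om p` is an isometry. -/
theorem h45f_norm_map (σ : Gq p) (x : Om p) : ‖σ x‖ = ‖x‖ :=
  congrArg NNReal.toReal (nnnorm_padicAlgCl_algEquiv p σ x)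

/-- the ultrametric inequality for a difference. -/
theorem h45f_norm_sub_le_max (a b : Om p) : ‖a - b‖ ≤ max ‖a‖ ‖b‖ := by
  have h := IsUltrametricDist.norm_add_le_max a (-b)
  rwa [norm_neg, ← sub_eq_add_neg] at h

/-- an automorphism fixing all the roots of unity of order prime to `p` lies in the inertia
group. -/
theorem h45f_mem_inertia_of_fix_roots (σ : Gq p)
    (h : ∀ (w : Om p) (m : ℕ), 0 < m → ¬ p ∣ m → w ^ m = 1 → σ w = w) : σ ∈ inertia p := by
  intro x hx
  rcases lt_or_eq_of_le hx with hlt | heq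
  · calc ‖σ x - x‖ ≤ max ‖σ x‖ ‖x‖ := h45f_norm_sub_le_max p _ _
      _ = ‖x‖ := by rw [h45f_norm_map, max_self]
      _ < 1 := hlt
  · -- the local field `ℚ_p(x)`
    have hxint : IsIntegral ℚ_[p] x := Algebra.IsIntegral.isIntegral x
    have hfd : FiniteDimensional ℚ_[p] (IntermediateField.adjoin ℚ_[p] {x}) :=
      IntermediateField.adjoin.finiteDimensional hxint
    have hxK : x ∈ IntermediateField.adjoin ℚ_[p] {x} :=
      IntermediateField.subset_adjoin ℚ_[p] {x} (Set.mem_singleton x)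
    obtain ⟨-, -, -, hteich, -⟩ := h34lf_lfTeich p (IntermediateField.adjoin ℚ_[p] {x})
    obtain ⟨w, ⟨-, m, hm, hpm, hw⟩, hxw⟩ := hteich x hxK heq
    have hσw : σ w = w := h w m hm hpm hw
    have h1 : σ x - x = σ (x - w) - (x - w) := by
      rw [map_sub, hσw]; ring
    rw [h1]
    calc ‖σ (x - w) - (x - w)‖ ≤ max ‖σ (x - w)‖ ‖x - w‖ :=
          h45f_norm_sub_le_max p _ _
      _ = ‖x - w‖ := by rw [h45f_norm_map, max_self]
      _ < 1 := hxw

/-- an element `x ≠ 0` fixed by the inertia group has its norm in `p ^ ℤ`. -/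
theorem h45f_norm_of_fixed {x : Om p} (hx0 : x ≠ 0) (hfix : ∀ σ ∈ inertia p, σ x = x) :
    ∃ j : ℤ, ‖x‖ = ((p : ℝ)⁻¹) ^ j := by
  have hxint : IsIntegral ℚ_[p] x := Algebra.IsIntegral.isIntegral x
  have hfd : FiniteDimensional ℚ_[p] (IntermediateField.adjoin ℚ_[p] {x}) :=
    IntermediateField.adjoin.finiteDimensional hxint
  have hxK : x ∈ IntermediateField.adjoin ℚ_[p] {x} :=
    IntermediateField.subset_adjoin ℚ_[p] {x} (Set.mem_singleton x)
  refine Fermat.Agent.PT.Glob.h96k_norm_of_inert p (IntermediateField.adjoin ℚ_[p] {x}) ?_ hxK hx0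
  intro g hg
  rw [Fermat.Agent.PT.Bridge.h23b_mem_fixingSubgroup_adjoin_iff]
  intro y hy
  rw [Set.mem_singleton_iff] at hy
  subst hy
  exact hfix g (h45f_mem_inertia_of_fix_roots p g hg)

/-- **FL-D1.**  The integers of the inertia field form a discrete valuation ring with
uniformiser `p`. -/
theorem h45f_inertiaDiscrete : InertiaDiscrete := by
  intro p _
  have hp : p.Prime := Fact.out
  have hp0 : ((p : ℕ) : Om p) ≠ 0 := h96b_q_ne_zero p
  have hnp : ‖((p : ℕ) : Om p)‖ = (p : ℝ)⁻¹ := h96b_norm_q p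
  have hpR : (1 : ℝ) < p := by exact_mod_cast hp.one_lt
  have hpinv : ((p : ℝ)⁻¹) < 1 := inv_lt_one_of_one_lt₀ hpR
  have hpinv0 : (0 : ℝ) < (p : ℝ)⁻¹ := inv_pos.mpr (by linarith)
  refine ⟨⟨?_, fun σ _ => map_natCast σ p⟩, ?_, hp0, ?_⟩
  · rw [hnp]; exact hpinv.le
  · rw [hnp]; exact hpinv
  · rintro x ⟨hx1, hxfix⟩ hx0
    obtain ⟨j, hj⟩ := h45f_norm_of_fixed p hx0 hxfix
    -- `j ≥ 0`
    have hj0 : 0 ≤ j := by
      by_contra hneg
      rw [not_le] at hneg
      have h1 : (1 : ℝ) < ((p : ℝ)⁻¹) ^ j := by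
        have h2 : ((p : ℝ)⁻¹) ^ j = (p : ℝ) ^ (-j) := by
          rw [inv_zpow, zpow_neg]
        rw [h2]
        exact one_lt_zpow₀ hpR (by omega)
      rw [← hj] at h1
      exact absurd hx1 (not_le.mpr h1)
    obtain ⟨n, rfl⟩ := Int.eq_ofNat_of_zero_le hj0
    rw [zpow_natCast] at hj
    have hpn0 : ((p : ℕ) : Om p) ^ n ≠ 0 := pow_ne_zero _ hp0
    refine ⟨n, x / ((p : ℕ) : Om p) ^ n, ⟨?_, ?_⟩, ?_, ?_⟩
    · rw [norm_div, norm_pow, hnp, hj, div_self (pow_ne_zero _ hpinv0.ne')]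
    · intro σ hσ
      rw [map_div₀, map_pow, map_natCast, hxfix σ hσ]
    · rw [norm_div, norm_pow, hnp, hj, div_self (pow_ne_zero _ hpinv0.ne')]
    · rw [mul_div_cancel₀ _ hpn0]

end Fermat.Agent.S56F
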