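import Fermat.Agent.S56F.FLD0_helper89

/-!
# S56 / LOC-p-FL, leaf FL-D2 (helper89): the fundamental character of level `n` is onto `μ_n`

`h89d2_fundSurjective_of : InertiaDiscrete → FundSurjective`.

For `π ^ n = p`, `p ∤ n`: the set `H = {ζ | ∃ σ ∈ I, σ π = ζ π}` is a subgroup of `μ_n` (inertia
fixes the `n`-th roots of unity, FL-D0); with `h = #H` the element `π ^ h` is fixed by inertia, so
`‖π‖ ^ h ∈ ‖p‖ ^ ℕ` (FL-D1), hence `n ∣ h`, and `h ≤ #μ_n ≤ n` gives `H = μ_n`.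
-/

set_option autoImplicit false

open Fermat.Agent.PT.Loc

noncomputable section

namespace Fermat.Agent.S56F

variable {p : ℕ} [Fact p.Prime]

/-- the subgroup of the values `σ π / π`, `σ` in the inertia group (`π ^ n = p`, `p ∤ n`). -/
def h89d2_H (n : ℕ) (hn : 0 < n) (hpn : ¬ p ∣ n) (π : Om p) (hπ : π ^ n = p) :
    Subgroup (Om p)ˣ where
  carrier := {ζ | ∃ σ ∈ inertia p, σ π = (ζ : Om p) * π}
  one_mem' := ⟨1, (inertia p).one_mem, by simp⟩
  mul_mem' := by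
    rintro a b ⟨σ, hσ, ha⟩ ⟨τ, hτ, hb⟩
    have hπ0 : π ≠ 0 := by
      rintro rfl
      rw [zero_pow hn.ne'] at hπ
      exact (Nat.cast_ne_zero.mpr (Fact.out : p.Prime).ne_zero) hπ.symm
    have hbn : (b : Om p) ^ n = 1 := by
      have h1 : (τ π) ^ n = π ^ n := by rw [← map_pow, hπ, map_natCast]
      rw [hb, mul_pow] at h1
      exact mul_right_cancel₀ (pow_ne_zero n hπ0) (by rw [one_mul]; exact h1)
    have hfix : σ (b : Om p) = b := h89d0_fix_of_mem_inertia hσ _ n hn hpn hbn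
    refine ⟨σ * τ, (inertia p).mul_mem hσ hτ, ?_⟩
    rw [AlgEquiv.mul_apply, hb, map_mul, hfix, ha, Units.val_mul]
    ring
  inv_mem' := by
    rintro a ⟨σ, hσ, ha⟩
    have hπ0 : π ≠ 0 := by
      rintro rfl
      rw [zero_pow hn.ne'] at hπ
      exact (Nat.cast_ne_zero.mpr (Fact.out : p.Prime).ne_zero) hπ.symm
    have han : (a : Om p) ^ n = 1 := by
      have h1 : (σ π) ^ n = π ^ n := by rw [← map_pow, hπ, map_natCast]
      rw [ha, mul_pow] at h1
      exact mul_right_cancel₀ (pow_ne_zero n hπ0) (by rw [one_mul]; exact h1)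
    have hσi : σ⁻¹ ∈ inertia p := (inertia p).inv_mem hσ
    have hfix : σ⁻¹ (a : Om p) = a := h89d0_fix_of_mem_inertia hσi _ n hn hpn han
    refine ⟨σ⁻¹, hσi, ?_⟩
    have h2 : σ⁻¹ (σ π) = π := by
      rw [← AlgEquiv.mul_apply, inv_mul_cancel, AlgEquiv.one_apply]
    rw [ha, map_mul, hfix] at h2
    have h3 : ((a⁻¹ : (Om p)ˣ) : Om p) * (a : Om p) = 1 := by
      rw [← Units.val_mul, inv_mul_cancel, Units.val_one]
    calc σ⁻¹ π = ((a⁻¹ : (Om p)ˣ) : Om p) * (a : Om p) * σ⁻¹ π := by rw [h3, one_mul]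
      _ = ((a⁻¹ : (Om p)ˣ) : Om p) * ((a : Om p) * σ⁻¹ π) := by ring
      _ = ((a⁻¹ : (Om p)ˣ) : Om p) * π := by rw [h2]

theorem h89d2_mem_H {n : ℕ} (hn : 0 < n) (hpn : ¬ p ∣ n) {π : Om p} (hπ : π ^ n = p)
    (ζ : (Om p)ˣ) : ζ ∈ h89d2_H n hn hpn π hπ ↔ ∃ σ ∈ inertia p, σ π = (ζ : Om p) * π :=
  Iff.rfl

theorem h89d2_H_le {n : ℕ} (hn : 0 < n) (hpn : ¬ p ∣ n) {π : Om p} (hπ : π ^ n = p) :
    h89d2_H n hn hpn π hπ ≤ rootsOfUnity n (Om p) := by
  rintro a ⟨σ, -, ha⟩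
  have hπ0 : π ≠ 0 := by
    rintro rfl
    rw [zero_pow hn.ne'] at hπ
    exact (Nat.cast_ne_zero.mpr (Fact.out : p.Prime).ne_zero) hπ.symm
  have h1 : (σ π) ^ n = π ^ n := by rw [← map_pow, hπ, map_natCast]
  rw [ha, mul_pow] at h1
  have han : (a : Om p) ^ n = 1 :=
    mul_right_cancel₀ (pow_ne_zero n hπ0) (by rw [one_mul]; exact h1)
  rw [mem_rootsOfUnity]
  exact Units.ext (by rw [Units.val_pow_eq_pow_val, han, Units.val_one])

/-- **FL-D2.**  The fundamental character of level `n` is onto `μ_n` on inertia. -/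
theorem h89d2_fundSurjective_of (hD : InertiaDiscrete) : FundSurjective := by
  intro p _ n hn hpn π hπ ζ hζ
  classical
  have : NeZero n := ⟨hn.ne'⟩
  obtain ⟨-, hp1, hp0, hdisc⟩ := hD p
  have hπ0 : π ≠ 0 := by
    rintro rfl
    rw [zero_pow hn.ne'] at hπ
    exact hp0 hπ.symm
  have hnp0 : 0 < ‖(p : Om p)‖ := norm_pos_iff.mpr hp0
  have hπn : ‖π‖ ^ n = ‖(p : Om p)‖ := by rw [← norm_pow, hπ]
  have hπ1 : ‖π‖ ≤ 1 := by
    by_contra h
    rw [not_le] at h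
    have : 1 < ‖π‖ ^ n := one_lt_pow₀ h hn.ne'
    rw [hπn] at this
    exact absurd hp1 (not_lt.mpr this.le)
  set H := h89d2_H n hn hpn π hπ with hH
  have hle : H ≤ rootsOfUnity n (Om p) := h89d2_H_le hn hpn hπ
  have : Finite (rootsOfUnity n (Om p)) := inferInstance
  have : Finite H := Finite.of_injective (Subgroup.inclusion hle) (Subgroup.inclusion_injective hle)
  set h := Nat.card H with hh
  have hh0 : 0 < h := Nat.card_pos
  -- `π ^ h` is fixed by inertia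
  have hfix : ∀ σ ∈ inertia p, σ (π ^ h) = π ^ h := by
    intro σ hσ
    have hu : IsUnit (σ π / π) := by
      rw [isUnit_iff_ne_zero]
      exact div_ne_zero ((map_ne_zero σ).mpr hπ0) hπ0
    have hmem : hu.unit ∈ H := ⟨σ, hσ, by rw [IsUnit.unit_spec]; field_simp⟩
    have h1 : (⟨hu.unit, hmem⟩ : H) ^ h = 1 := pow_card_eq_one'
    have h2 : (σ π / π) ^ h = 1 := by
      have h3 := congrArg (fun x : H => ((x : (Om p)ˣ) : Om p)) h1
      simpa using h3
    rw [map_pow]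
    rw [div_pow, div_eq_one_iff_eq (pow_ne_zero h hπ0)] at h2
    exact h2
  have hmemfix : π ^ h ∈ fixInt p (inertia p) :=
    ⟨by rw [norm_pow]; exact pow_le_one₀ (norm_nonneg _) hπ1, hfix⟩
  obtain ⟨k, u, -, hu1, hku⟩ := hdisc (π ^ h) hmemfix (pow_ne_zero h hπ0)
  have hnorm : ‖π‖ ^ h = ‖(p : Om p)‖ ^ k := by
    rw [← norm_pow, hku, norm_mul, hu1, mul_one, norm_pow]
  -- `h = k * n`
  have hkn : h = k * n := by
    have h1 : ‖(p : Om p)‖ ^ h = ‖(p : Om p)‖ ^ (k * n) :=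
      calc ‖(p : Om p)‖ ^ h = (‖π‖ ^ n) ^ h := by rw [hπn]
        _ = (‖π‖ ^ h) ^ n := by rw [← pow_mul, ← pow_mul, mul_comm]
        _ = (‖(p : Om p)‖ ^ k) ^ n := by rw [hnorm]
        _ = ‖(p : Om p)‖ ^ (k * n) := by rw [← pow_mul]
    exact pow_right_injective₀ hnp0 hp1.ne h1
  -- `h ≤ #μ_n ≤ n`
  have hcard : Nat.card (rootsOfUnity n (Om p)) ≤ n := card_rootsOfUnity (Om p) n
  have hhle : h ≤ Nat.card (rootsOfUnity n (Om p)) :=
    Nat.card_le_card_of_injective (Subgroup.inclusion hle) (Subgroup.inclusion_injective hle)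
  have hk1 : 1 ≤ k := by
    rcases Nat.eq_zero_or_pos k with hk | hk
    · rw [hk, zero_mul] at hkn
      omega
    · exact hk
  have hhn : n ≤ h := by
    rw [hkn]
    exact Nat.le_mul_of_pos_left n hk1
  have hHtop : H = rootsOfUnity n (Om p) :=
    Subgroup.eq_of_le_of_card_ge hle (by rw [← hh]; omega)
  -- conclusion
  have hζu : IsUnit ζ := by
    rw [isUnit_iff_ne_zero]
    rintro rfl
    rw [zero_pow hn.ne'] at hζ
    exact zero_ne_one hζ
  have hζmem : hζu.unit ∈ rootsOfUnity n (Om p) := by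
    rw [mem_rootsOfUnity]
    exact Units.ext (by rw [Units.val_pow_eq_pow_val, IsUnit.unit_spec, hζ, Units.val_one])
  rw [← hHtop] at hζmem
  obtain ⟨σ, hσ, hσπ⟩ := hζmem
  exact ⟨σ, hσ, by rw [hσπ, IsUnit.unit_spec]⟩

end Fermat.Agent.S56F
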