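import Fermat.Agent.S56F.IfaceRank1
import Fermat.Agent.PT.Loc.H34LFTeich

/-!
# S56 / LOC-p-FL, leaf FL-D3 (helper78): tame values

`h78f_tameValue : InertiaDiscrete → TameValue`.

If `z ≠ 0` and `z ^ n` is fixed by inertia (`p ∤ n`, `π ^ n = p`), then `‖z‖ ^ n = ‖p‖ ^ U` and
inertia acts on `z` through `Ψ ^ U`, `Ψ σ = σ π / π`.

Proof.  For `‖z‖ ≤ 1`: `z ^ n = p ^ U u` with `u` a unit fixed by inertia (discreteness);
`w = z / π ^ U` has `w ^ n = u`, so `σ w / w` is an `n`-th root of unity congruent to `1`, hence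
`= 1`.  For `‖z‖ > 1` apply this to `z⁻¹`.
-/

set_option autoImplicit false

open Fermat.Agent.PT.Loc

noncomputable section

namespace Fermat.Agent.S56F

variable {p : ℕ} [Fact p.Prime]

/-- the elements of `Gq p` are isometries. -/
theorem h78f_norm_map (σ : Gq p) (x : Om p) : ‖σ x‖ = ‖x‖ :=
  congrArg NNReal.toReal (nnnorm_padicAlgCl_algEquiv p σ x)

/-- an `n`-th root of unity (`p ∤ n`) congruent to `1` is `1`. -/
theorem h78f_root_eq_one {n : ℕ} (hn0 : 0 < n) (hn : ¬ p ∣ n) {ζ : Om p} (hζ : ζ ^ n = 1)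
    (h1 : ‖ζ - 1‖ < 1) : ζ = 1 := by
  have : FiniteDimensional ℚ_[p] (IntermediateField.adjoin ℚ_[p] ({ζ} : Set (Om p))) :=
    IntermediateField.finiteDimensional_adjoin
      (fun x _ => (Algebra.IsAlgebraic.isAlgebraic (R := ℚ_[p]) x).isIntegral)
  exact h34lf_teich_unique_K (IntermediateField.adjoin ℚ_[p] ({ζ} : Set (Om p))) hn hn hn0
    (IntermediateField.subset_adjoin _ _ (by simp)) (one_mem _) hζ (one_pow n) h1

/-- the integral case of FL-D3. -/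
theorem h78f_tameValue_int (hD : IsDiscrete p (inertia p) (p : Om p)) {n : ℕ} (hn0 : 0 < n)
    (hn : ¬ p ∣ n) {π : Om p} (hπ : π ^ n = p) {z : Om p} (hz : z ≠ 0) (hz1 : ‖z‖ ≤ 1)
    (hfix : ∀ σ ∈ inertia p, σ (z ^ n) = z ^ n) :
    ∃ U : ℕ, ‖z‖ ^ n = ‖(p : Om p)‖ ^ U ∧ ∀ σ ∈ inertia p, σ z / z = (σ π / π) ^ U := by
  obtain ⟨-, -, hp0, hdisc⟩ := hD
  have hπ0 : π ≠ 0 := by
    intro h
    rw [h, zero_pow hn0.ne'] at hπ
    exact hp0 hπ.symm
  have hzn : z ^ n ∈ fixInt p (inertia p) := by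
    refine ⟨?_, hfix⟩
    rw [norm_pow]
    exact pow_le_one₀ (norm_nonneg _) hz1
  obtain ⟨U, u, hu, hu1, hzu⟩ := hdisc (z ^ n) hzn (pow_ne_zero n hz)
  refine ⟨U, ?_, ?_⟩
  · rw [← norm_pow, hzu, norm_mul, hu1, mul_one, norm_pow]
  · intro σ hσ
    set w : Om p := z / π ^ U with hw
    have hw0 : w ≠ 0 := div_ne_zero hz (pow_ne_zero U hπ0)
    have hwn : w ^ n = u := by
      have hpU : ((p : Om p)) ^ U ≠ 0 := pow_ne_zero U hp0
      rw [hw, div_pow, ← pow_mul, mul_comm U n, pow_mul, hπ, hzu]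
      field_simp
    have hw1 : ‖w‖ = 1 := by
      have h2 : ‖w‖ ^ n = 1 := by rw [← norm_pow, hwn, hu1]
      exact (pow_eq_one_iff_of_nonneg (norm_nonneg w) hn0.ne').mp h2
    have hσw : σ w = w := by
      have hζn : (σ w / w) ^ n = 1 := by
        rw [div_pow, ← map_pow, hwn, hu.2 σ hσ]
        exact div_self (by rw [← hwn]; exact pow_ne_zero n hw0)
      have hζ1 : ‖σ w / w - 1‖ < 1 := by
        have e : σ w / w - 1 = (σ w - w) / w := by field_simp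
        rw [e, norm_div, hw1, div_one]
        exact hσ w hw1.le
      have := h78f_root_eq_one hn0 hn hζn hζ1
      exact (div_eq_one_iff_eq hw0).mp this
    have hσπ0 : σ π ≠ 0 := (map_ne_zero σ).mpr hπ0
    have e1 : σ z = σ w * (σ π) ^ U := by
      rw [← map_pow, ← map_mul, hw, div_mul_cancel₀ _ (pow_ne_zero U hπ0)]
    have e2 : z = w * π ^ U := by
      rw [hw, div_mul_cancel₀ _ (pow_ne_zero U hπ0)]
    rw [e1, hσw, div_pow]
    conv_lhs => rw [e2]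
    field_simp

/-- **FL-D3.**  Tame values. -/
theorem h78f_tameValue : InertiaDiscrete → TameValue := by
  intro hID p _ n hn0 hn π hπ z hz hfix
  have hD := hID p
  have hp0 : (p : Om p) ≠ 0 := hD.2.2.1
  have hπ0 : π ≠ 0 := by
    intro h
    rw [h, zero_pow hn0.ne'] at hπ
    exact hp0 hπ.symm
  by_cases hz1 : ‖z‖ ≤ 1
  · obtain ⟨U, h1, h2⟩ := h78f_tameValue_int hD hn0 hn hπ hz hz1 hfix
    refine ⟨(U : ℤ), ?_, ?_⟩
    · rw [zpow_natCast]
      exact h1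
    · intro σ hσ
      rw [zpow_natCast]
      exact h2 σ hσ
  · have hzi0 : z⁻¹ ≠ 0 := inv_ne_zero hz
    have hzi1 : ‖z⁻¹‖ ≤ 1 := by
      rw [norm_inv]
      have h1 : 1 < ‖z‖ := lt_of_not_ge hz1
      exact inv_le_one_of_one_le₀ h1.le
    have hfixi : ∀ σ ∈ inertia p, σ (z⁻¹ ^ n) = z⁻¹ ^ n := by
      intro σ hσ
      rw [inv_pow, map_inv₀, hfix σ hσ]
    obtain ⟨U, h1, h2⟩ := h78f_tameValue_int hD hn0 hn hπ hzi0 hzi1 hfixi
    refine ⟨-(U : ℤ), ?_, ?_⟩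
    · rw [zpow_neg, zpow_natCast, ← h1, norm_inv, inv_pow, inv_inv]
    · intro σ hσ
      have h3 := h2 σ hσ
      rw [zpow_neg, zpow_natCast, ← h3, map_inv₀]
      have hσz0 : σ z ≠ 0 := (map_ne_zero σ).mpr hz
      field_simp

end Fermat.Agent.S56F
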