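import Fermat.Agent.S56F.FLC5_helper89
import Fermat.Agent.S56F.FLD1_helper45
import Fermat.Agent.S56F.FLD2_helper89
import Fermat.Agent.S56F.FLD3_helper78
import Fermat.Agent.S56F.FLC2_helper68
import Fermat.Agent.S56F.FLC4_helper68

/-!
# S56 / LOC-p-FL: rank-one block, unconditional wiring

With FL-D1 (`h45f_inertiaDiscrete`) landed, the tame-structure leaves and the eigen-generator are
unconditional; the rank-one theorem `RankOne` follows from the single remaining leaf `GaussNorm`.
-/

set_option autoImplicit false

noncomputable section

namespace Fermat.Agent.S56F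

/-- FL-D2, unconditional. -/
theorem h89f_fundSurjective : FundSurjective :=
  h89d2_fundSurjective_of h45f_inertiaDiscrete

/-- FL-D3, unconditional. -/
theorem h89f_tameValue : TameValue :=
  h78f_tameValue h45f_inertiaDiscrete

/-- FL-C2, unconditional. -/
theorem h89f_eigenGen : EigenGen :=
  h68e_eigenGen h45f_inertiaDiscrete

/-- **Raynaud, rank one**, from the Gauss sum norm alone. -/
theorem h89f_rankOne_of (hGN : GaussNorm) : RankOne :=
  h89c5_rankOneAsm h45f_inertiaDiscrete h89f_fundSurjective h89f_tameValue hGN h89f_eigenGen
    h68f_digitLemma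

end Fermat.Agent.S56F
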