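import Fermat.Agent.S56F.IfaceO8

/-!
# S56 / LOC-p-FL, row FL-O8 (helper34): the Kummer part of `OrdKC`

Notation: `ζ` a primitive `p`-th root of unity of `Om p`, `χ = h34k_chi hζ : Gq p →* (ZMod p)ˣ`
the cyclotomic character, `I₁ = {g ∈ inertia, χ g = 1}`.

* basic group theory: `h34k_conj_mem_inertia` (inertia is normal), `h34k_cycExp_iff`
  (`cycExp p σ a ↔ a = χ σ`), `h34k_exists_gen` (a generator `σ₀` of `I/I₁`, from
  `FundSurjective` + `CycFund`), `h34k_exists_frob` (a Frobenius with `χ φ = 1`);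
* Kummer generators `h34k_KG ζ θ β` (`g β = ζ ^ θ g * β` on `I₁`, `β` a unit fixed up to
  `p`-th powers by inertia): norm construction `h34k_exists_KG0`, well-definedness
  `h34k_inv_eq`, kernel `h34k_eq_zero_of_inv`, additivity, Frobenius.
-/

set_option autoImplicit false
set_option linter.style.haveILetI false
set_option linter.unusedSectionVars false

open Fermat.Agent.PT.Loc

noncomputable section

namespace Fermat.Agent.S56F

variable {p : ℕ} [Fact p.Prime]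

/-! ## Basic group theory -/

/-- the elements of `Gq p` are isometries. -/
theorem h34k_norm_map (σ : Gq p) (x : Om p) : ‖σ x‖ = ‖x‖ :=
  congrArg NNReal.toReal (nnnorm_padicAlgCl_algEquiv p σ x)

theorem h34k_inv_apply (σ : Gq p) (x : Om p) : σ (σ⁻¹ x) = x := by
  rw [← AlgEquiv.mul_apply, mul_inv_cancel, AlgEquiv.one_apply]

theorem h34k_inv_apply' (σ : Gq p) (x : Om p) : σ⁻¹ (σ x) = x := by
  rw [← AlgEquiv.mul_apply, inv_mul_cancel, AlgEquiv.one_apply]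

/-- inertia is a normal subgroup. -/
theorem h34k_conj_mem_inertia {σ : Gq p} (hσ : σ ∈ inertia p) (τ : Gq p) :
    τ * σ * τ⁻¹ ∈ inertia p := by
  intro x hx
  have h1 : ‖τ⁻¹ x‖ ≤ 1 := by rw [h34k_norm_map]; exact hx
  have h2 := hσ (τ⁻¹ x) h1
  have h3 : (τ * σ * τ⁻¹) x - x = τ (σ (τ⁻¹ x) - τ⁻¹ x) := by
    rw [map_sub, h34k_inv_apply, AlgEquiv.mul_apply, AlgEquiv.mul_apply]
  rw [h3, h34k_norm_map]
  exact h2

theorem h34k_conj_mem_inertia' {σ : Gq p} (hσ : σ ∈ inertia p) (τ : Gq p) :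
    τ⁻¹ * σ * τ ∈ inertia p := by
  have h := h34k_conj_mem_inertia hσ τ⁻¹
  rwa [inv_inv] at h

/-- the cyclotomic character modulo `p`. -/
def h34k_chi {ζ : Om p} (hζ : IsPrimitiveRoot ζ p) : Gq p →* (ZMod p)ˣ :=
  haveI : NeZero p := ⟨(Fact.out : p.Prime).ne_zero⟩
  hζ.autToPow ℚ_[p]

theorem h34k_chi_spec {ζ : Om p} (hζ : IsPrimitiveRoot ζ p) (σ : Gq p) :
    σ ζ = ζ ^ ((h34k_chi hζ σ : (ZMod p)ˣ) : ZMod p).val := by
  haveI : NeZero p := ⟨(Fact.out : p.Prime).ne_zero⟩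
  exact (hζ.autToPow_spec ℚ_[p] σ).symm

theorem h34k_pow_mod {μ : Om p} (hμ : μ ^ p = 1) (a : ℕ) : μ ^ a = μ ^ (a % p) := by
  conv_lhs => rw [← Nat.div_add_mod a p, pow_add, pow_mul, hμ, one_pow, one_mul]

theorem h34k_root_pow_eq {μ : Om p} (hμ : μ ^ p = 1) {a b : ℕ}
    (h : (a : ZMod p) = (b : ZMod p)) : μ ^ a = μ ^ b := by
  rw [ZMod.natCast_eq_natCast_iff] at h
  rw [h34k_pow_mod hμ a, h34k_pow_mod hμ b, h]

/-- powers of `ζ` depend on the exponent modulo `p`. -/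
theorem h34k_pow_eq_iff {ζ : Om p} (hζ : IsPrimitiveRoot ζ p) (a b : ℕ) :
    ζ ^ a = ζ ^ b ↔ (a : ZMod p) = (b : ZMod p) := by
  rw [ZMod.natCast_eq_natCast_iff]
  have hz : ζ ≠ 0 := hζ.ne_zero (Fact.out : p.Prime).ne_zero
  constructor
  · intro h
    have h1 : (Units.mk0 ζ hz) ^ a = (Units.mk0 ζ hz) ^ b := by
      apply Units.ext
      simpa using h
    rw [pow_eq_pow_iff_modEq] at h1
    have h2 : orderOf (Units.mk0 ζ hz) = p := by
      rw [← orderOf_units, Units.val_mk0]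
      exact hζ.eq_orderOf.symm
    rwa [h2] at h1
  · intro h
    exact h34k_root_pow_eq hζ.pow_eq_one ((ZMod.natCast_eq_natCast_iff _ _ _).mpr h)

/-- `cycExp` in terms of the cyclotomic character. -/
theorem h34k_cycExp_iff {ζ : Om p} (hζ : IsPrimitiveRoot ζ p) (σ : Gq p) (a : ℕ) :
    cycExp p σ a ↔ (a : ZMod p) = ((h34k_chi hζ σ : (ZMod p)ˣ) : ZMod p) := by
  haveI : NeZero p := ⟨(Fact.out : p.Prime).ne_zero⟩
  constructor
  · intro h
    have h1 := h ζ hζ.pow_eq_one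
    rw [h34k_chi_spec hζ σ] at h1
    have h2 := (h34k_pow_eq_iff hζ _ _).mp h1
    rw [ZMod.natCast_zmod_val] at h2
    exact h2.symm
  · intro h μ hμ
    obtain ⟨i, -, rfl⟩ := hζ.eq_pow_of_pow_eq_one hμ
    rw [map_pow, h34k_chi_spec hζ σ, ← pow_mul, ← pow_mul, mul_comm]
    apply h34k_root_pow_eq hζ.pow_eq_one
    push_cast
    rw [ZMod.natCast_zmod_val, h]

theorem h34k_cycExp_val {ζ : Om p} (hζ : IsPrimitiveRoot ζ p) (σ : Gq p) :
    cycExp p σ ((h34k_chi hζ σ : (ZMod p)ˣ) : ZMod p).val := by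
  haveI : NeZero p := ⟨(Fact.out : p.Prime).ne_zero⟩
  rw [h34k_cycExp_iff hζ, ZMod.natCast_zmod_val]

theorem h34k_cycExp_one_iff {ζ : Om p} (hζ : IsPrimitiveRoot ζ p) (σ : Gq p) :
    cycExp p σ 1 ↔ h34k_chi hζ σ = 1 := by
  rw [h34k_cycExp_iff hζ, Nat.cast_one]
  constructor
  · intro h
    exact Units.ext h.symm
  · intro h
    rw [h]
    rfl

theorem h34k_cycExp_one_fix {σ : Gq p} (h : cycExp p σ 1) {μ : Om p} (hμ : μ ^ p = 1) :
    σ μ = μ := by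
  rw [h μ hμ, pow_one]

/-! ## Norms of integers -/

theorem h34k_norm_intCast_le (m : ℤ) : ‖(m : Om p)‖ ≤ 1 := by
  have h1 : (m : Om p) = algebraMap ℚ_[p] (Om p) (m : ℚ_[p]) := by simp
  rw [h1, norm_algebraMap']
  exact Padic.norm_int_le_one m

theorem h34k_norm_natCast_le (m : ℕ) : ‖(m : Om p)‖ ≤ 1 := by
  have h := h34k_norm_intCast_le (p := p) (m : ℤ)
  simpa using h

theorem h34k_norm_p_lt : ‖(p : Om p)‖ < 1 := by
  have h1 : (p : Om p) = algebraMap ℚ_[p] (Om p) (p : ℚ_[p]) := by simp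
  rw [h1, norm_algebraMap']
  exact Padic.norm_p_lt_one

/-- `‖a - b‖ < 1` for natural numbers congruent modulo `p`. -/
theorem h34k_norm_natCast_sub_lt {a b : ℕ} (h : (a : ZMod p) = (b : ZMod p)) :
    ‖(a : Om p) - (b : Om p)‖ < 1 := by
  have h2 : (((a : ℤ) - (b : ℤ) : ℤ) : ZMod p) = 0 := by
    push_cast
    rw [sub_eq_zero]
    exact h
  rw [ZMod.intCast_zmod_eq_zero_iff_dvd] at h2
  obtain ⟨m, hm⟩ := h2
  have h3 : (a : Om p) - (b : Om p) = (p : Om p) * (m : Om p) := by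
    have h4 : (((a : ℤ) - (b : ℤ) : ℤ) : Om p) = ((p : ℤ) * m : ℤ) := by rw [hm]
    push_cast at h4
    exact h4
  rw [h3, norm_mul]
  calc ‖(p : Om p)‖ * ‖(m : Om p)‖ ≤ ‖(p : Om p)‖ * 1 :=
        mul_le_mul_of_nonneg_left (h34k_norm_intCast_le m) (norm_nonneg _)
    _ < 1 := by rw [mul_one]; exact h34k_norm_p_lt

theorem h34k_norm_sub_le_max (a b : Om p) : ‖a - b‖ ≤ max ‖a‖ ‖b‖ := by
  have := IsUltrametricDist.norm_add_le_max a (-b)
  rwa [norm_neg, ← sub_eq_add_neg] at this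

/-- `‖x ^ j - y ^ j‖ < 1` if `‖x - y‖ < 1`, `x`, `y` integral. -/
theorem h34k_norm_pow_sub_pow_lt {x y : Om p} (hx : ‖x‖ ≤ 1) (hy : ‖y‖ ≤ 1)
    (h : ‖x - y‖ < 1) (j : ℕ) : ‖x ^ j - y ^ j‖ < 1 := by
  induction j with
  | zero => simp
  | succ j ih =>
    have h1 : x ^ (j + 1) - y ^ (j + 1) = x * (x ^ j - y ^ j) + (x - y) * y ^ j := by ring
    rw [h1]
    refine lt_of_le_of_lt (IsUltrametricDist.norm_add_le_max _ _) (max_lt ?_ ?_)
    · rw [norm_mul]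
      calc ‖x‖ * ‖x ^ j - y ^ j‖ ≤ 1 * ‖x ^ j - y ^ j‖ :=
            mul_le_mul_of_nonneg_right hx (norm_nonneg _)
        _ < 1 := by rw [one_mul]; exact ih
    · rw [norm_mul, norm_pow]
      calc ‖x - y‖ * ‖y‖ ^ j ≤ ‖x - y‖ * 1 :=
            mul_le_mul_of_nonneg_left (pow_le_one₀ (norm_nonneg _) hy) (norm_nonneg _)
        _ < 1 := by rw [mul_one]; exact h

/-- a root of unity of order prime to `p` which is congruent to `1` is `1`
(elementary: `∑ i < n, w ^ i = 0` but `≡ n`). -/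
theorem h34k_root_eq_one {n : ℕ} (hn : ¬ p ∣ n) {w : Om p} (hw : w ^ n = 1)
    (h1 : ‖w - 1‖ < 1) : w = 1 := by
  by_contra hne
  have hn0 : n ≠ 0 := fun h => hn (h ▸ dvd_zero p)
  have hw1 : ‖w‖ ≤ 1 := by
    have h2 : ‖w‖ ^ n = 1 := by rw [← norm_pow, hw, norm_one]
    exact ((pow_eq_one_iff_of_nonneg (norm_nonneg w) hn0).mp h2).le
  have hsum : ∑ i ∈ Finset.range n, w ^ i = 0 := by
    have h3 := mul_neg_geom_sum w n
    rw [hw, sub_self] at h3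
    rcases mul_eq_zero.mp h3 with h4 | h4
    · exact absurd (sub_eq_zero.mp h4).symm hne
    · exact h4
  have hlt : ‖∑ i ∈ Finset.range n, (w ^ i - 1)‖ < 1 := by
    have hne' : (Finset.range n).Nonempty := Finset.nonempty_range_iff.mpr hn0
    obtain ⟨i, -, hi⟩ := IsUltrametricDist.exists_norm_finsetSum_le_of_nonempty hne'
      (fun i => w ^ i - 1)
    refine lt_of_le_of_lt hi ?_
    have := h34k_norm_pow_sub_pow_lt hw1 (by rw [norm_one]) h1 i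
    rwa [one_pow] at this
  rw [Finset.sum_sub_distrib, hsum, zero_sub, norm_neg, Finset.sum_const, Finset.card_range,
    nsmul_eq_mul, mul_one] at hlt
  have h5 : ‖(n : Om p)‖ = 1 := by
    have h6 : (n : Om p) = algebraMap ℚ_[p] (Om p) (n : ℚ_[p]) := by simp
    rw [h6, norm_algebraMap', Padic.norm_natCast_eq_one_iff]
    exact (Nat.Prime.coprime_iff_not_dvd Fact.out).mpr hn
  rw [h5] at hlt
  exact lt_irrefl _ hlt

/-! ## A generator of `I / I₁` and a Frobenius fixing `μ_p` -/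

/-- every element of `(ZMod p)ˣ` is a power of an element of order `p - 1`. -/
theorem h34k_exists_pow_eq {c : (ZMod p)ˣ} (hc : orderOf c = p - 1) (x : (ZMod p)ˣ) :
    ∃ i : ℕ, x = c ^ i := by
  have h1 : Subgroup.zpowers c = ⊤ := by
    apply Subgroup.eq_top_of_card_eq
    rw [Nat.card_zpowers, hc, Nat.card_eq_fintype_card, ZMod.card_units]
  have h2 : x ∈ Subgroup.zpowers c := by rw [h1]; exact Subgroup.mem_top x
  obtain ⟨i, hi⟩ := mem_powers_iff_mem_zpowers.mpr h2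
  exact ⟨i, hi.symm⟩

/-- a generator of `I / I₁`: an element of inertia on which the cyclotomic character has order
`p - 1`. -/
theorem h34k_exists_gen (hp2 : p ≠ 2) (hF : FundSurjective) (hC : CycFund) {ζ : Om p}
    (hζ : IsPrimitiveRoot ζ p) : ∃ σ₀ ∈ inertia p, orderOf (h34k_chi hζ σ₀) = p - 1 := by
  have hp : p.Prime := Fact.out
  have hp1 : 0 < p - 1 := by have := hp.two_le; omega
  have hpn : ¬ p ∣ p - 1 := fun h => by
    have := Nat.le_of_dvd hp1 h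
    omega
  haveI : NeZero p := ⟨hp.ne_zero⟩
  haveI : NeZero (((p - 1 : ℕ)) : Om p) := ⟨by exact_mod_cast hp1.ne'⟩
  obtain ⟨π, hπ⟩ := IsAlgClosed.exists_pow_nat_eq (p : Om p) hp1
  have hπ0 : π ≠ 0 := by
    intro h
    rw [h, zero_pow hp1.ne'] at hπ
    exact (by exact_mod_cast hp.ne_zero : (p : Om p) ≠ 0) hπ.symm
  have hdeg : (Polynomial.cyclotomic (p - 1) (Om p)).degree ≠ 0 := by
    rw [Polynomial.degree_cyclotomic]
    have h3 : Nat.totient (p - 1) ≠ 0 := (Nat.totient_pos.mpr hp1).ne'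
    exact_mod_cast h3
  obtain ⟨ξ, hξ'⟩ := IsAlgClosed.exists_root (Polynomial.cyclotomic (p - 1) (Om p)) hdeg
  have hξ : IsPrimitiveRoot ξ (p - 1) := Polynomial.isRoot_cyclotomic_iff.mp hξ'
  obtain ⟨σ₀, hσ₀, hσπ⟩ := hF p (p - 1) hp1 hpn π hπ ξ hξ.pow_eq_one
  refine ⟨σ₀, hσ₀, ?_⟩
  set a : ℕ := ((h34k_chi hζ σ₀ : (ZMod p)ˣ) : ZMod p).val with ha
  have hcyc : cycExp p σ₀ a := h34k_cycExp_val hζ σ₀
  have h1 := hC p hp2 (p - 1) hp1 hpn dvd_rfl π hπ σ₀ hσ₀ a hcyc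
  rw [Nat.div_self hp1, pow_one, hσπ, mul_div_assoc, div_self hπ0, mul_one] at h1
  have hξ1 : ‖ξ‖ ≤ 1 := by
    have h2 : ‖ξ‖ ^ (p - 1) = 1 := by rw [← norm_pow, hξ.pow_eq_one, norm_one]
    exact ((pow_eq_one_iff_of_nonneg (norm_nonneg ξ) hp1.ne').mp h2).le
  apply Nat.dvd_antisymm
  · rw [← ZMod.card_units p]
    exact orderOf_dvd_card
  · set j := orderOf (h34k_chi hζ σ₀) with hj
    have hpow : (h34k_chi hζ σ₀) ^ j = 1 := pow_orderOf_eq_one _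
    have haj : ((a ^ j : ℕ) : ZMod p) = ((1 : ℕ) : ZMod p) := by
      push_cast
      rw [ha, ZMod.natCast_zmod_val]
      have := congrArg (fun u : (ZMod p)ˣ => (u : ZMod p)) hpow
      simpa using this
    have h3 : ‖((a ^ j : ℕ) : Om p) - ((1 : ℕ) : Om p)‖ < 1 := h34k_norm_natCast_sub_lt haj
    have h4 : ‖ξ ^ j - (a : Om p) ^ j‖ < 1 :=
      h34k_norm_pow_sub_pow_lt hξ1 (h34k_norm_natCast_le a) h1 j
    have h5 : ‖ξ ^ j - 1‖ < 1 := by
      have h6 : ξ ^ j - 1 = (ξ ^ j - (a : Om p) ^ j) + (((a ^ j : ℕ) : Om p) - ((1 : ℕ) : Om p)) := by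
        push_cast
        ring
      rw [h6]
      exact lt_of_le_of_lt (IsUltrametricDist.norm_add_le_max _ _) (max_lt h4 h3)
    have h7 : (ξ ^ j) ^ (p - 1) = 1 := by rw [← pow_mul, mul_comm, pow_mul, hξ.pow_eq_one, one_pow]
    have h8 : ξ ^ j = 1 := h34k_root_eq_one hpn h7 h5
    exact (hξ.pow_eq_one_iff_dvd j).mp h8

/-- a Frobenius element acting trivially on `μ_p`. -/
theorem h34k_exists_frob (hp2 : p ≠ 2) (hD0 : InertiaIffRoots) (hF : FundSurjective)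
    (hC : CycFund) (hFr : FrobExists) {ζ : Om p} (hζ : IsPrimitiveRoot ζ p) :
    ∃ φ : Gq p, h34k_chi hζ φ = 1 ∧
      ∀ (w : Om p) (m : ℕ), 0 < m → ¬ p ∣ m → w ^ m = 1 → φ w = w ^ p := by
  obtain ⟨σ₀, hσ₀, hord⟩ := h34k_exists_gen hp2 hF hC hζ
  obtain ⟨φ₀, hφ₀⟩ := hFr p
  obtain ⟨i, hi⟩ := h34k_exists_pow_eq hord (h34k_chi hζ φ₀)
  refine ⟨(σ₀ ^ i)⁻¹ * φ₀, ?_, ?_⟩
  · rw [map_mul, map_inv, map_pow, hi, inv_mul_cancel]
  · intro w m hm hpm hw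
    rw [AlgEquiv.mul_apply, hφ₀ w m hm hpm hw]
    have h1 : (σ₀ ^ i)⁻¹ ∈ inertia p := (inertia p).inv_mem ((inertia p).pow_mem hσ₀ i)
    have h2 : (w ^ p) ^ m = 1 := by rw [← pow_mul, mul_comm, pow_mul, hw, one_pow]
    exact (hD0 p _).mp h1 (w ^ p) m hm hpm h2

/-! ## The subgroup `I₁` -/

/-- `g ∈ I₁`: `g` is in the inertia group and acts trivially on `μ_p`. -/
def h34k_I1 (p : ℕ) [Fact p.Prime] (g : Gq p) : Prop := g ∈ inertia p ∧ cycExp p g 1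

theorem h34k_I1_conj {ζ : Om p} (hζ : IsPrimitiveRoot ζ p) {g : Gq p} (hg : h34k_I1 p g)
    (τ : Gq p) : h34k_I1 p (τ⁻¹ * g * τ) := by
  refine ⟨h34k_conj_mem_inertia' hg.1 τ, ?_⟩
  rw [h34k_cycExp_one_iff hζ, map_mul, map_mul, map_inv, (h34k_cycExp_one_iff hζ g).mp hg.2,
    mul_one, inv_mul_cancel]

theorem h34k_I1_fix_root {g : Gq p} (hg : h34k_I1 p g) {μ : Om p} (hμ : μ ^ p = 1) :
    g μ = μ := h34k_cycExp_one_fix hg.2 hμ

/-- a generator of `I / I₁`. -/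
structure h34k_Gen {ζ : Om p} (hζ : IsPrimitiveRoot ζ p) (σ₀ : Gq p) : Prop where
  mem : σ₀ ∈ inertia p
  ord : orderOf (h34k_chi hζ σ₀) = p - 1

theorem h34k_Gen.decomp {ζ : Om p} {hζ : IsPrimitiveRoot ζ p} {σ₀ : Gq p}
    (h : h34k_Gen hζ σ₀) {σ : Gq p} (hσ : σ ∈ inertia p) :
    ∃ (j : ℕ) (g : Gq p), h34k_I1 p g ∧ σ = σ₀ ^ j * g := by
  obtain ⟨j, hj⟩ := h34k_exists_pow_eq h.ord (h34k_chi hζ σ)
  refine ⟨j, (σ₀ ^ j)⁻¹ * σ, ⟨?_, ?_⟩, by rw [mul_inv_cancel_left]⟩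
  · exact (inertia p).mul_mem ((inertia p).inv_mem ((inertia p).pow_mem h.mem j)) hσ
  · rw [h34k_cycExp_one_iff hζ, map_mul, map_inv, map_pow, hj, inv_mul_cancel]

theorem h34k_Gen.pow_mem_I1 {ζ : Om p} {hζ : IsPrimitiveRoot ζ p} {σ₀ : Gq p}
    (h : h34k_Gen hζ σ₀) : h34k_I1 p (σ₀ ^ (p - 1)) := by
  refine ⟨(inertia p).pow_mem h.mem _, ?_⟩
  rw [h34k_cycExp_one_iff hζ, map_pow, ← h.ord, pow_orderOf_eq_one]

theorem h34k_Gen.chi_ne_one (hp2 : p ≠ 2) {ζ : Om p} {hζ : IsPrimitiveRoot ζ p} {σ₀ : Gq p}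
    (h : h34k_Gen hζ σ₀) : h34k_chi hζ σ₀ ≠ 1 := by
  intro h1
  have h2 := h.ord
  rw [h1, orderOf_one] at h2
  have := (Fact.out : p.Prime).two_le
  omega

/-- an element fixed by `I₁` and by the generator is fixed by inertia. -/
theorem h34k_Gen.fixed {ζ : Om p} {hζ : IsPrimitiveRoot ζ p} {σ₀ : Gq p}
    (h : h34k_Gen hζ σ₀) {x : Om p} (h1 : ∀ g, h34k_I1 p g → g x = x) (h0 : σ₀ x = x) :
    ∀ σ ∈ inertia p, σ x = x := by
  intro σ hσ
  obtain ⟨j, g, hg, rfl⟩ := h.decomp hσ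
  rw [AlgEquiv.mul_apply, h1 g hg]
  clear hσ
  induction j with
  | zero => simp
  | succ j ih => rw [pow_succ, AlgEquiv.mul_apply, h0, ih]

/-! ## Kummer generators -/

/-- `β` is a Kummer generator of `θ` on `I₁`: a unit with `g β = ζ ^ θ g * β` for `g ∈ I₁`. -/
def h34k_KG (ζ : Om p) (θ : Gq p → ZMod p) (β : Om p) : Prop :=
  ‖β‖ = 1 ∧ ∀ g ∈ inertia p, cycExp p g 1 → g β = ζ ^ (θ g).val * β

/-- a Kummer generator with `β ^ p` fixed by inertia. -/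
def h34k_KG0 (ζ : Om p) (θ : Gq p → ZMod p) (β : Om p) : Prop :=
  h34k_KG ζ θ β ∧ ∀ σ ∈ inertia p, σ (β ^ p) = β ^ p

/-- `θ` is equivariant for the conjugation by inertia. -/
def h34k_Adm {ζ : Om p} (hζ : IsPrimitiveRoot ζ p) (θ : Gq p → ZMod p) : Prop :=
  ∀ σ ∈ inertia p, ∀ g, h34k_I1 p g →
    θ (σ⁻¹ * g * σ) * ((h34k_chi hζ σ : (ZMod p)ˣ) : ZMod p) = θ g

theorem h34k_norm_ne_zero {β : Om p} (h : ‖β‖ = 1) : β ≠ 0 := by
  intro h0
  rw [h0, norm_zero] at h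
  exact zero_ne_one h

theorem h34k_KG.pow_fixed {ζ : Om p} (hζ : IsPrimitiveRoot ζ p) {θ : Gq p → ZMod p}
    {β : Om p} (h : h34k_KG ζ θ β) {g : Gq p} (hg : h34k_I1 p g) : g (β ^ p) = β ^ p := by
  rw [map_pow, h.2 g hg.1 hg.2, mul_pow, ← pow_mul, mul_comm _ p, pow_mul, hζ.pow_eq_one,
    one_pow, one_mul]

/-- only the values of the character on `I₁` matter. -/
theorem h34k_KG.congr {ζ : Om p} {θ θ' : Gq p → ZMod p} {β : Om p} (h : h34k_KG ζ θ β)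
    (hθ : ∀ g, h34k_I1 p g → θ g = θ' g) : h34k_KG ζ θ' β :=
  ⟨h.1, fun g hg1 hg2 => by rw [← hθ g ⟨hg1, hg2⟩]; exact h.2 g hg1 hg2⟩

theorem h34k_KG.mul {ζ : Om p} (hζ : IsPrimitiveRoot ζ p) {θ θ' : Gq p → ZMod p}
    {β β' : Om p} (h : h34k_KG ζ θ β) (h' : h34k_KG ζ θ' β') :
    h34k_KG ζ (fun g => θ g + θ' g) (β * β') := by
  haveI : NeZero p := ⟨(Fact.out : p.Prime).ne_zero⟩
  refine ⟨by rw [norm_mul, h.1, h'.1, one_mul], ?_⟩
  intro g hg1 hg2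
  rw [map_mul, h.2 g hg1 hg2, h'.2 g hg1 hg2]
  have h1 : ζ ^ (θ g + θ' g).val = ζ ^ ((θ g).val + (θ' g).val) := by
    apply h34k_root_pow_eq hζ.pow_eq_one
    push_cast
    rw [ZMod.natCast_zmod_val, ZMod.natCast_zmod_val, ZMod.natCast_zmod_val]
  rw [h1, pow_add]
  ring

/-- conjugation formula: the translate `τ β` of a Kummer generator. -/
theorem h34k_KG.translate {ζ : Om p} (hζ : IsPrimitiveRoot ζ p) {θ : Gq p → ZMod p}
    {β : Om p} (h : h34k_KG ζ θ β) (τ : Gq p) {g : Gq p} (hg : h34k_I1 p g) :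
    g (τ β) = ζ ^ (((h34k_chi hζ τ : (ZMod p)ˣ) : ZMod p).val * (θ (τ⁻¹ * g * τ)).val) * τ β := by
  have hconj := h34k_I1_conj hζ hg τ
  have h1 : g (τ β) = τ ((τ⁻¹ * g * τ) β) := by
    rw [AlgEquiv.mul_apply, AlgEquiv.mul_apply, h34k_inv_apply]
  rw [h1, h.2 _ hconj.1 hconj.2, map_mul, map_pow, h34k_chi_spec hζ τ, ← pow_mul]

/-- **norm construction**: an admissible character with a Kummer generator has a Kummer
generator whose `p`-th power is fixed by inertia. -/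
theorem h34k_exists_KG0 {ζ : Om p} {hζ : IsPrimitiveRoot ζ p} {σ₀ : Gq p}
    (hgen : h34k_Gen hζ σ₀) {θ : Gq p → ZMod p} (hAdm : h34k_Adm hζ θ) {β : Om p}
    (h : h34k_KG ζ θ β) : ∃ β', h34k_KG0 ζ θ β' := by
  have hp : p.Prime := Fact.out
  haveI : NeZero p := ⟨hp.ne_zero⟩
  have hp1 : 1 ≤ p := hp.one_le
  -- the translates are Kummer generators of the same character
  have htr : ∀ (i : ℕ) (g : Gq p), h34k_I1 p g →
      g ((σ₀ ^ i) β) = ζ ^ (θ g).val * (σ₀ ^ i) β := by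
    intro i g hg
    rw [h.translate hζ (σ₀ ^ i) hg]
    congr 1
    apply h34k_root_pow_eq hζ.pow_eq_one
    push_cast
    rw [ZMod.natCast_zmod_val, ZMod.natCast_zmod_val, ZMod.natCast_zmod_val, mul_comm]
    exact hAdm (σ₀ ^ i) ((inertia p).pow_mem hgen.mem i) g hg
  set P : Om p := ∏ i ∈ Finset.range (p - 1), (σ₀ ^ i) β with hP
  have hPnorm : ‖P‖ = 1 := by
    rw [hP, norm_prod]
    apply Finset.prod_eq_one
    intro i _
    rw [h34k_norm_map]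
    exact h.1
  have hP0 : P ≠ 0 := h34k_norm_ne_zero hPnorm
  have hgP : ∀ g, h34k_I1 p g → g P = ζ ^ ((θ g).val * (p - 1)) * P := by
    intro g hg
    rw [hP, map_prod]
    rw [Finset.prod_congr rfl (fun i _ => htr i g hg), Finset.prod_mul_distrib,
      Finset.prod_const, Finset.card_range, ← pow_mul]
  refine ⟨P⁻¹, ⟨by rw [norm_inv, hPnorm, inv_one], ?_⟩, ?_⟩
  · intro g hg1 hg2
    have hg : h34k_I1 p g := ⟨hg1, hg2⟩
    rw [map_inv₀, hgP g hg, mul_inv]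
    congr 1
    have hz : ζ ^ ((θ g).val * (p - 1)) * ζ ^ (θ g).val = 1 := by
      rw [← pow_add]
      have h2 : (θ g).val * (p - 1) + (θ g).val = (θ g).val * p := by
        have : p - 1 + 1 = p := Nat.sub_add_cancel hp1
        calc (θ g).val * (p - 1) + (θ g).val = (θ g).val * (p - 1 + 1) := by ring
          _ = (θ g).val * p := by rw [this]
      rw [h2, mul_comm, pow_mul, hζ.pow_eq_one, one_pow]
    exact inv_eq_of_mul_eq_one_right hz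
  · -- the norm is fixed by inertia
    have hu : ∀ g, h34k_I1 p g → ∀ i : ℕ, g ((σ₀ ^ i) (β ^ p)) = (σ₀ ^ i) (β ^ p) := by
      intro g hg i
      have h1 : g ((σ₀ ^ i) (β ^ p)) = (σ₀ ^ i) (((σ₀ ^ i)⁻¹ * g * σ₀ ^ i) (β ^ p)) := by
        rw [AlgEquiv.mul_apply, AlgEquiv.mul_apply, h34k_inv_apply]
      rw [h1, h.pow_fixed hζ (h34k_I1_conj hζ hg (σ₀ ^ i))]
    have hPp : P ^ p = ∏ i ∈ Finset.range (p - 1), (σ₀ ^ i) (β ^ p) := by
      rw [hP, ← Finset.prod_pow]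
      apply Finset.prod_congr rfl
      intro i _
      rw [map_pow]
    have hfix1 : ∀ g, h34k_I1 p g → g (P ^ p) = P ^ p := by
      intro g hg
      rw [hPp, map_prod]
      exact Finset.prod_congr rfl (fun i _ => hu g hg i)
    have hfix0 : σ₀ (P ^ p) = P ^ p := by
      rw [hPp, map_prod]
      have h1 : ∀ i, σ₀ ((σ₀ ^ i) (β ^ p)) = (σ₀ ^ (i + 1)) (β ^ p) := by
        intro i
        rw [pow_succ', AlgEquiv.mul_apply]
      rw [Finset.prod_congr rfl (fun i _ => h1 i)]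
      have h2 := Finset.prod_range_succ' (fun i => (σ₀ ^ i) (β ^ p)) (p - 1)
      have h3 := Finset.prod_range_succ (fun i => (σ₀ ^ i) (β ^ p)) (p - 1)
      have h4 : (σ₀ ^ (p - 1)) (β ^ p) = (σ₀ ^ 0) (β ^ p) := by
        rw [h.pow_fixed hζ hgen.pow_mem_I1, pow_zero, AlgEquiv.one_apply]
      rw [h3, h4] at h2
      have h5 : (σ₀ ^ 0) (β ^ p) ≠ 0 := by
        rw [pow_zero, AlgEquiv.one_apply]
        exact pow_ne_zero _ (h34k_norm_ne_zero h.1)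
      exact (mul_right_cancel₀ h5 h2).symm
    intro σ hσ
    rw [inv_pow, map_inv₀, hgen.fixed hfix1 hfix0 σ hσ]

/-! ## The unit invariant on Kummer generators -/

/-- the properties of the unit invariant (the conclusion of `H34KUnitInv`). -/
structure h34k_IsInv (p : ℕ) [Fact p.Prime] {κ : Type} [Field κ] (a : Om p → κ) : Prop where
  add : ∀ v v' : Om p, ‖v‖ = 1 → ‖v'‖ = 1 → (∀ σ ∈ inertia p, σ v = v) →
    (∀ σ ∈ inertia p, σ v' = v') → a (v * v') = a v + a v'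
  ker : ∀ v : Om p, ‖v‖ = 1 → (∀ σ ∈ inertia p, σ v = v) → a v = 0 →
    ∃ b : Om p, (∀ σ ∈ inertia p, σ b = b) ∧ b ^ p = v
  frob : ∀ φ : Gq p, (∀ (w : Om p) (m : ℕ), 0 < m → ¬ p ∣ m → w ^ m = 1 → φ w = w ^ p) →
    ∀ v : Om p, ‖v‖ = 1 → (∀ σ ∈ inertia p, σ v = v) → a (φ v) = a v ^ p

section Inv

variable {κ : Type} [Field κ] [CharP κ p] {a : Om p → κ}

theorem h34k_IsInv.one (ha : h34k_IsInv p a) : a 1 = 0 := by
  have h := ha.add 1 1 norm_one norm_one (fun σ _ => map_one σ) (fun σ _ => map_one σ)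
  rw [mul_one] at h
  have h2 : a 1 + 0 = a 1 + a 1 := by rw [add_zero]; exact h
  exact (add_left_cancel h2).symm

theorem h34k_IsInv.pow (ha : h34k_IsInv p a) {b : Om p} (hb : ‖b‖ = 1)
    (hfix : ∀ σ ∈ inertia p, σ b = b) (n : ℕ) : a (b ^ n) = n • a b := by
  induction n with
  | zero => rw [pow_zero, zero_smul]; exact ha.one
  | succ n ih =>
    rw [pow_succ, ha.add (b ^ n) b (by rw [norm_pow, hb, one_pow]) hb
      (fun σ hσ => by rw [map_pow, hfix σ hσ]) hfix, ih, succ_nsmul]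

theorem h34k_IsInv.pow_p (ha : h34k_IsInv p a) {b : Om p} (hb : ‖b‖ = 1)
    (hfix : ∀ σ ∈ inertia p, σ b = b) : a (b ^ p) = 0 := by
  rw [ha.pow hb hfix, nsmul_eq_mul, CharP.cast_eq_zero, zero_mul]

/-- **well-definedness**: the invariant of `β ^ p` depends only on the character. -/
theorem h34k_inv_eq (hp2 : p ≠ 2) {ζ : Om p} {hζ : IsPrimitiveRoot ζ p} {σ₀ : Gq p}
    (hgen : h34k_Gen hζ σ₀) (ha : h34k_IsInv p a) {θ : Gq p → ZMod p} {β₁ β₂ : Om p}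
    (h1 : h34k_KG0 ζ θ β₁) (h2 : h34k_KG0 ζ θ β₂) : a (β₁ ^ p) = a (β₂ ^ p) := by
  have hp : p.Prime := Fact.out
  haveI : NeZero p := ⟨hp.ne_zero⟩
  have hβ₂ : β₂ ≠ 0 := h34k_norm_ne_zero h2.1.1
  have hβ₁ : β₁ ≠ 0 := h34k_norm_ne_zero h1.1.1
  set c : Om p := β₁ / β₂ with hc
  have hcnorm : ‖c‖ = 1 := by rw [hc, norm_div, h1.1.1, h2.1.1, div_one]
  have hc0 : c ≠ 0 := h34k_norm_ne_zero hcnorm
  have hcfix : ∀ g, h34k_I1 p g → g c = c := by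
    intro g hg
    rw [hc, map_div₀, h1.1.2 g hg.1 hg.2, h2.1.2 g hg.1 hg.2, mul_div_mul_left]
    exact pow_ne_zero _ (hζ.ne_zero hp.ne_zero)
  have hcp : ∀ σ ∈ inertia p, σ (c ^ p) = c ^ p := by
    intro σ hσ
    rw [hc, div_pow, map_div₀, h1.2 σ hσ, h2.2 σ hσ]
  -- `σ₀ c = ζ ^ e * c`
  have hε : (σ₀ c / c) ^ p = 1 := by
    rw [div_pow, ← map_pow, hcp σ₀ hgen.mem, div_self (pow_ne_zero _ hc0)]
  obtain ⟨e, -, he⟩ := hζ.eq_pow_of_pow_eq_one hε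
  have hσc : σ₀ c = ζ ^ e * c := by
    rw [he, div_mul_cancel₀ _ hc0]
  -- the correction
  set χ₀ : ZMod p := ((h34k_chi hζ σ₀ : (ZMod p)ˣ) : ZMod p) with hχ₀
  have hχ₀1 : (1 : ZMod p) - χ₀ ≠ 0 := by
    intro h
    apply hgen.chi_ne_one hp2
    apply Units.ext
    rw [Units.val_one]
    exact (sub_eq_zero.mp h).symm
  set j : ZMod p := (e : ZMod p) / (1 - χ₀) with hj
  have hje : (e : ZMod p) + χ₀ * j = j := by
    rw [hj]
    field_simp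
    ring
  set c₀ : Om p := c * ζ ^ j.val with hc₀
  have hζnorm : ‖ζ‖ = 1 := by
    have h3 : ‖ζ‖ ^ p = 1 := by rw [← norm_pow, hζ.pow_eq_one, norm_one]
    exact (pow_eq_one_iff_of_nonneg (norm_nonneg ζ) hp.ne_zero).mp h3
  have hc₀norm : ‖c₀‖ = 1 := by rw [hc₀, norm_mul, norm_pow, hcnorm, hζnorm, one_pow, mul_one]
  have hc₀fix1 : ∀ g, h34k_I1 p g → g c₀ = c₀ := by
    intro g hg
    rw [hc₀, map_mul, hcfix g hg, map_pow, h34k_I1_fix_root hg hζ.pow_eq_one]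
  have hc₀fix0 : σ₀ c₀ = c₀ := by
    rw [hc₀, map_mul, hσc, map_pow, h34k_chi_spec hζ σ₀, ← pow_mul]
    have h3 : ζ ^ e * c * ζ ^ (χ₀.val * j.val) = c * (ζ ^ e * ζ ^ (χ₀.val * j.val)) := by ring
    rw [h3, ← pow_add]
    congr 1
    apply h34k_root_pow_eq hζ.pow_eq_one
    push_cast
    rw [ZMod.natCast_zmod_val, ZMod.natCast_zmod_val]
    exact hje
  have hc₀fix := hgen.fixed hc₀fix1 hc₀fix0
  have hc₀p : c₀ ^ p = c ^ p := by
    rw [hc₀, mul_pow, ← pow_mul, mul_comm _ p, pow_mul, hζ.pow_eq_one, one_pow, mul_one]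
  have h4 : β₁ ^ p = c₀ ^ p * β₂ ^ p := by
    rw [hc₀p, hc, div_pow, div_mul_cancel₀ _ (pow_ne_zero _ hβ₂)]
  rw [h4, ha.add (c₀ ^ p) (β₂ ^ p) (by rw [norm_pow, hc₀norm, one_pow])
    (by rw [norm_pow, h2.1.1, one_pow]) (fun σ hσ => by rw [map_pow, hc₀fix σ hσ]) h2.2,
    ha.pow_p hc₀norm hc₀fix, zero_add]

/-- **kernel**: if the invariant vanishes, the character vanishes on `I₁`. -/
theorem h34k_eq_zero_of_inv {ζ : Om p} (hζ : IsPrimitiveRoot ζ p) (ha : h34k_IsInv p a)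
    {θ : Gq p → ZMod p} {β : Om p} (h : h34k_KG0 ζ θ β) (h0 : a (β ^ p) = 0) :
    ∀ g, h34k_I1 p g → θ g = 0 := by
  have hp : p.Prime := Fact.out
  haveI : NeZero p := ⟨hp.ne_zero⟩
  intro g hg
  obtain ⟨b, hbfix, hbp⟩ := ha.ker (β ^ p) (by rw [norm_pow, h.1.1, one_pow]) h.2 h0
  have hβ0 : β ≠ 0 := h34k_norm_ne_zero h.1.1
  have hb0 : b ≠ 0 := by
    intro hb
    rw [hb, zero_pow hp.ne_zero] at hbp
    exact pow_ne_zero _ hβ0 hbp.symm
  have hε : (β / b) ^ p = 1 := by rw [div_pow, hbp, div_self (pow_ne_zero _ hβ0)]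
  have hgβ : g β = β := by
    have h1 : β = (β / b) * b := by rw [div_mul_cancel₀ _ hb0]
    rw [h1, map_mul, h34k_I1_fix_root hg hε, hbfix g hg.1]
  have h2 := h.1.2 g hg.1 hg.2
  rw [hgβ] at h2
  have h3 : ζ ^ (θ g).val = ζ ^ 0 := by
    rw [pow_zero]
    have h4 : (1 : Om p) * β = ζ ^ (θ g).val * β := by rw [one_mul]; exact h2
    exact (mul_right_cancel₀ hβ0 h4).symm
  have h5 := (h34k_pow_eq_iff hζ _ _).mp h3
  rw [ZMod.natCast_zmod_val, Nat.cast_zero] at h5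
  exact h5

/-- **additivity**. -/
theorem h34k_KG0.mul {ζ : Om p} (hζ : IsPrimitiveRoot ζ p) {θ θ' : Gq p → ZMod p}
    {β β' : Om p} (h : h34k_KG0 ζ θ β) (h' : h34k_KG0 ζ θ' β') :
    h34k_KG0 ζ (fun g => θ g + θ' g) (β * β') := by
  refine ⟨h.1.mul hζ h'.1, ?_⟩
  intro σ hσ
  rw [mul_pow, map_mul, h.2 σ hσ, h'.2 σ hσ]

theorem h34k_inv_mul (ha : h34k_IsInv p a) {ζ : Om p} {θ θ' : Gq p → ZMod p}
    {β β' : Om p} (h : h34k_KG0 ζ θ β) (h' : h34k_KG0 ζ θ' β') :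
    a ((β * β') ^ p) = a (β ^ p) + a (β' ^ p) := by
  rw [mul_pow, ha.add (β ^ p) (β' ^ p) (by rw [norm_pow, h.1.1, one_pow])
    (by rw [norm_pow, h'.1.1, one_pow]) h.2 h'.2]

/-- the trivial character. -/
theorem h34k_KG0.zero (ζ : Om p) : h34k_KG0 ζ (fun _ => (0 : ZMod p)) (1 : Om p) := by
  haveI : NeZero p := ⟨(Fact.out : p.Prime).ne_zero⟩
  refine ⟨⟨norm_one, fun g _ _ => ?_⟩, fun σ _ => ?_⟩
  · rw [map_one, ZMod.val_zero, pow_zero, one_mul]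
  · rw [one_pow, map_one]

theorem h34k_KG0.congr {ζ : Om p} {θ θ' : Gq p → ZMod p} {β : Om p} (h : h34k_KG0 ζ θ β)
    (hθ : ∀ g, h34k_I1 p g → θ g = θ' g) : h34k_KG0 ζ θ' β :=
  ⟨h.1.congr hθ, h.2⟩

/-- **Frobenius**: the translate by a Frobenius fixing `μ_p`. -/
theorem h34k_KG0.frob {ζ : Om p} (hζ : IsPrimitiveRoot ζ p) {θ : Gq p → ZMod p} {β : Om p}
    (h : h34k_KG0 ζ θ β) {φ : Gq p} (hφ : h34k_chi hζ φ = 1) :
    h34k_KG0 ζ (fun g => θ (φ⁻¹ * g * φ)) (φ β) := by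
  haveI : NeZero p := ⟨(Fact.out : p.Prime).ne_zero⟩
  refine ⟨⟨by rw [h34k_norm_map]; exact h.1.1, ?_⟩, ?_⟩
  · intro g hg1 hg2
    rw [h.1.translate hζ φ ⟨hg1, hg2⟩, hφ, Units.val_one, ZMod.val_one, one_mul]
  · intro σ hσ
    have h1 : σ ((φ β) ^ p) = φ ((φ⁻¹ * σ * φ) (β ^ p)) := by
      rw [← map_pow φ, AlgEquiv.mul_apply, AlgEquiv.mul_apply, h34k_inv_apply]
    rw [h1, h.2 _ (h34k_conj_mem_inertia' hσ φ), map_pow]

theorem h34k_inv_frob (ha : h34k_IsInv p a) {ζ : Om p} {θ : Gq p → ZMod p} {β : Om p}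
    (h : h34k_KG0 ζ θ β) {φ : Gq p}
    (hφ : ∀ (w : Om p) (m : ℕ), 0 < m → ¬ p ∣ m → w ^ m = 1 → φ w = w ^ p) :
    a ((φ β) ^ p) = a (β ^ p) ^ p := by
  rw [← map_pow, ha.frob φ hφ (β ^ p) (by rw [norm_pow, h.1.1, one_pow]) h.2]

end Inv

end Fermat.Agent.S56F
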