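import Fermat.Agent.S56F.IfaceHopf3
import Fermat.Agent.S56F.FLA3_helper15
import Fermat.Agent.S56F.FLB123_helper38

/-!
# S56 / LOC-p-FL, leaf FL-B10P (helper15): unit eigenfunctions (`p M = 0`)

`h15u_unitEigenP : UnitEigenP`.

Proof (plan of helper87).  `N :=` the `intOm`-span of the order; it is a ring of functions with
integral values, stable under translation (`h15u_mul_mem`, `h15u_norm_le`,
`h15u_translate_mem`).  The indicator `e` of `x + L` is in `N` (interpolation with the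
`L`-invariant separating functions).  `ξ * e = ∑ d t • t` on an `Om p`-linearly independent
generating set `T` of `N` contained in the order (`h15u_exists_basis`), `‖d t‖ ≤ 1`.  For
`g ∈ I₁`: `g (ξ e (g⁻¹ y)) = κ ξ e (y)` with `κ = ξ (g⁻¹ x - x)`, hence `g (d t) = κ d t`.
Let `d t₀` have the largest norm and `β = (d t₀)⁻¹ ξ x = ∑ ((d t₀)⁻¹ d t) t x`:
`‖β‖ ≤ 1`, `‖β‖ = ‖d t₀‖⁻¹ ≥ 1` and `g β = κ⁻¹ β = ξ (g x - x) β`.
-/

set_option autoImplicit false

open Fermat.Agent.PT.Loc

noncomputable section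

namespace Fermat.Agent.S56F

section Span

variable {p : ℕ} [Fact p.Prime] {Γ : Subgroup (Gq p)} {M : Type} [AddCommGroup M]
  {act : Gq p → M → M}

/-- the `intOm`-span of an order -/
def h15u_N (𝓗 : FHO p Γ M act) : Submodule (intOm p) (M → Om p) :=
  Submodule.span (intOm p) (𝓗.carrier : Set (M → Om p))

theorem h15u_mem_intOm {c : Om p} (hc : ‖c‖ ≤ 1) : c ∈ intOm p :=
  ⟨hc, fun σ hσ => by rw [Subgroup.mem_bot.mp hσ]; rfl⟩

theorem h15u_smul_mem (𝓗 : FHO p Γ M act) {c : Om p} (hc : ‖c‖ ≤ 1) {F : M → Om p}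
    (hF : F ∈ h15u_N 𝓗) : c • F ∈ h15u_N 𝓗 :=
  Submodule.smul_mem (h15u_N 𝓗) (⟨c, h15u_mem_intOm hc⟩ : intOm p) hF

theorem h15u_mul_mem (𝓗 : FHO p Γ M act) {F G : M → Om p} (hF : F ∈ h15u_N 𝓗)
    (hG : G ∈ h15u_N 𝓗) : F * G ∈ h15u_N 𝓗 := by
  refine Submodule.span_induction (p := fun F _ => F * G ∈ h15u_N 𝓗) ?_ ?_ ?_ ?_ hF
  · intro f hf
    refine Submodule.span_induction (p := fun G _ => f * G ∈ h15u_N 𝓗) ?_ ?_ ?_ ?_ hG
    · intro g hg
      exact Submodule.subset_span (mul_mem hf hg)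
    · rw [mul_zero]; exact Submodule.zero_mem _
    · intro a b _ _ ha hb
      rw [mul_add]; exact Submodule.add_mem _ ha hb
    · intro c a _ ha
      have h1 : f * c • a = c • (f * a) := by
        funext y
        show f y * ((c : Om p) * a y) = (c : Om p) * (f y * a y)
        ring
      rw [h1]; exact Submodule.smul_mem _ c ha
  · rw [zero_mul]; exact Submodule.zero_mem _
  · intro a b _ _ ha hb
    rw [add_mul]; exact Submodule.add_mem _ ha hb
  · intro c a _ ha
    have h1 : c • a * G = c • (a * G) := by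
      funext y
      show (c : Om p) * a y * G y = (c : Om p) * (a y * G y)
      ring
    rw [h1]; exact Submodule.smul_mem _ c ha

theorem h15u_one_mem (𝓗 : FHO p Γ M act) : (1 : M → Om p) ∈ h15u_N 𝓗 :=
  Submodule.subset_span (one_mem 𝓗.carrier)

theorem h15u_prod_mem (𝓗 : FHO p Γ M act) {ι : Type*} (s : Finset ι) (F : ι → M → Om p)
    (h : ∀ i ∈ s, F i ∈ h15u_N 𝓗) : ∏ i ∈ s, F i ∈ h15u_N 𝓗 := by
  classical
  induction s using Finset.induction_on with
  | empty => rw [Finset.prod_empty]; exact h15u_one_mem 𝓗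
  | insert a s ha ih =>
    rw [Finset.prod_insert ha]
    exact h15u_mul_mem 𝓗 (h a (Finset.mem_insert_self a s))
      (ih fun i hi => h i (Finset.mem_insert_of_mem hi))

theorem h15u_norm_le (𝓗 : FHO p Γ M act) {F : M → Om p} (hF : F ∈ h15u_N 𝓗) (y : M) :
    ‖F y‖ ≤ 1 := by
  refine Submodule.span_induction (p := fun F _ => ‖F y‖ ≤ 1) ?_ ?_ ?_ ?_ hF
  · intro f hf
    exact h38f_valuesIntegral p Γ M act 𝓗 f hf y
  · show ‖(0 : Om p)‖ ≤ 1
    rw [norm_zero]; exact zero_le_one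
  · intro a b _ _ ha hb
    exact (IsUltrametricDist.norm_add_le_max _ _).trans (max_le ha hb)
  · intro c a _ ha
    show ‖(c : Om p) * a y‖ ≤ 1
    rw [norm_mul]
    exact mul_le_one₀ c.2.1 (norm_nonneg _) ha

theorem h15u_translate_mem (𝓗 : FHO p Γ M act) {F : M → Om p} (hF : F ∈ h15u_N 𝓗) (w : M) :
    (fun y => F (y + w)) ∈ h15u_N 𝓗 := by
  refine Submodule.span_induction (p := fun F _ => (fun y => F (y + w)) ∈ h15u_N 𝓗)
    ?_ ?_ ?_ ?_ hF
  · intro f hf
    obtain ⟨n, a, b, ha, hb, hab⟩ := 𝓗.comul f hf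
    have h1 : (fun y => f (y + w)) = ∑ i, (b i w) • a i := by
      funext y
      rw [hab, Finset.sum_apply]
      refine Finset.sum_congr rfl fun i _ => ?_
      show a i y * b i w = b i w * a i y
      ring
    rw [h1]
    refine Submodule.sum_mem _ fun i _ => ?_
    exact h15u_smul_mem 𝓗 (h38f_valuesIntegral p Γ M act 𝓗 (b i) (hb i) w)
      (Submodule.subset_span (ha i))
  · exact Submodule.zero_mem _
  · intro a b _ _ ha hb
    exact Submodule.add_mem _ ha hb
  · intro c a _ ha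
    exact Submodule.smul_mem _ c ha

/-- a finite `Om p`-linearly independent generating set of `N`, contained in the order -/
theorem h15u_exists_basis (𝓗 : FHO p Γ M act) :
    ∃ T : Finset (M → Om p), (↑T : Set (M → Om p)) ⊆ (𝓗.carrier : Set (M → Om p)) ∧
      LinearIndependent (Om p) (fun t : T => (t : M → Om p)) ∧
      Submodule.span (intOm p) (T : Set (M → Om p)) = h15u_N 𝓗 := by
  obtain ⟨S, hS⟩ := 𝓗.fg
  have hSsub : (S : Set (M → Om p)) ⊆ (𝓗.carrier : Set (M → Om p)) := by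
    intro x hx
    have h2 : x ∈ Submodule.span (fixInt p Γ) (S : Set (M → Om p)) := Submodule.subset_span hx
    rw [hS] at h2
    exact h2
  have hfg : (𝓗.carrier : Set (M → Om p)) ⊆
      Submodule.span (intOm p) (S : Set (M → Om p)) := by
    intro f hf
    have h2 : f ∈ Submodule.span (fixInt p Γ) (S : Set (M → Om p)) := by rw [hS]; exact hf
    refine Submodule.span_induction
      (p := fun g _ => g ∈ Submodule.span (intOm p) (S : Set (M → Om p))) ?_ ?_ ?_ ?_ h2
    · intro x hx; exact Submodule.subset_span hx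
    · exact Submodule.zero_mem _
    · intro x y _ _ hx hy; exact Submodule.add_mem _ hx hy
    · intro a x _ hx
      exact Submodule.smul_mem _ (⟨(a : Om p), h15u_mem_intOm a.2.1⟩ : intOm p) hx
  obtain ⟨T, hTS, hli, hspan⟩ := h15f_exists_indep (intOm p) (fun x hx => h15u_mem_intOm hx) S
  refine ⟨T, fun t ht => hSsub (hTS ht), hli, ?_⟩
  rw [hspan]
  apply le_antisymm
  · exact Submodule.span_mono hSsub
  · exact Submodule.span_le.mpr hfg

end Span

/-- **FL-B10P**: unit eigenfunctions for a module killed by `p`. -/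
theorem h15u_unitEigenP : UnitEigenP := by
  classical
  intro p _ _ M _ _ act hact hpM 𝓗 hchar L h1 h2 h3 ξ hξ0 hξ x
  have := Fintype.ofFinite M
  -- values of `ξ`
  have hξpow : ∀ (n : ℕ) (y : M), ξ (n • y) = ξ y ^ n := by
    intro n y
    induction n with
    | zero => rw [zero_smul, pow_zero, hξ0]
    | succ n ih => rw [succ_nsmul, hξ, ih, pow_succ]
  have hξp : ∀ y, ξ y ^ p = 1 := fun y => by rw [← hξpow, hpM, hξ0]
  have hp0 : p ≠ 0 := (Fact.out : p.Prime).ne_zero
  have hξnorm : ∀ y, ‖ξ y‖ = 1 := by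
    intro y
    have h := congrArg norm (hξp y)
    rw [norm_pow, norm_one] at h
    exact (pow_eq_one_iff_of_nonneg (norm_nonneg _) hp0).mp h
  have hξfix : ∀ g : Gq p, cycExp p g 1 → ∀ y, g (ξ y) = ξ y := fun g hg y => by
    have h := hg (ξ y) (hξp y)
    rwa [pow_one] at h
  have hξneg : ∀ a : M, ξ (-a) = (ξ a)⁻¹ := by
    intro a
    have h : ξ (-a) * ξ a = 1 := by rw [← hξ, neg_add_cancel, hξ0]
    exact eq_inv_of_mul_eq_one_left h
  -- the factors of the indicator of `L`
  have hfac : ∀ z : M, ∃ G ∈ h15u_N 𝓗, (∀ y ∈ L, G y = 1) ∧ (z ∉ L → G z = 0) := by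
    intro z
    by_cases hz : z ∈ L
    · exact ⟨1, h15u_one_mem 𝓗, fun _ _ => rfl, fun h => absurd hz h⟩
    · obtain ⟨f, hf, hfL, hfz⟩ := h3 z hz
      have hu : ‖f 0 - f z‖ = 1 := by rw [← norm_neg, neg_sub]; exact hfz
      have hu0 : f 0 - f z ≠ 0 := by
        intro h0
        rw [h0, norm_zero] at hu
        exact zero_ne_one hu
      have hfN : f ∈ h15u_N 𝓗 := Submodule.subset_span hf
      have hcN : (f z) • (1 : M → Om p) ∈ h15u_N 𝓗 :=
        h15u_smul_mem 𝓗 (h15u_norm_le 𝓗 hfN z) (h15u_one_mem 𝓗)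
      refine ⟨(f 0 - f z)⁻¹ • (f - (f z) • (1 : M → Om p)),
        h15u_smul_mem 𝓗 (by rw [norm_inv, hu, inv_one]) (Submodule.sub_mem _ hfN hcN), ?_, ?_⟩
      · intro y hy
        have h4 : f y = f 0 := by
          have := hfL y hy 0
          rwa [zero_add] at this
        show (f 0 - f z)⁻¹ * (f y - f z * 1) = 1
        rw [h4, mul_one, inv_mul_cancel₀ hu0]
      · intro _
        show (f 0 - f z)⁻¹ * (f z - f z * 1) = 0
        rw [mul_one, sub_self, mul_zero]
  choose G hGN hGL hGz using hfac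
  -- the indicator of `L`
  have he₀N : (∏ z, G z) ∈ h15u_N 𝓗 := h15u_prod_mem 𝓗 _ _ fun z _ => hGN z
  have he₀1 : ∀ y ∈ L, (∏ z, G z) y = 1 := by
    intro y hy
    rw [Finset.prod_apply]
    exact Finset.prod_eq_one fun z _ => hGL z y hy
  have he₀0 : ∀ y, y ∉ L → (∏ z, G z) y = 0 := by
    intro y hy
    rw [Finset.prod_apply]
    exact Finset.prod_eq_zero (f := fun z => G z y) (Finset.mem_univ y) (hGz y hy)
  -- the indicator of `x + L`, times `ξ`
  have hFN : ξ * (fun y => (∏ z, G z) (y + -x)) ∈ h15u_N 𝓗 :=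
    h15u_mul_mem 𝓗 (hchar ξ hξ0 hξ) (h15u_translate_mem 𝓗 he₀N (-x))
  have hF1 : ∀ y, y - x ∈ L → (ξ * (fun y => (∏ z, G z) (y + -x))) y = ξ y := by
    intro y hy
    show ξ y * (∏ z, G z) (y + -x) = ξ y
    rw [← sub_eq_add_neg, he₀1 _ hy, mul_one]
  have hF0 : ∀ y, y - x ∉ L → (ξ * (fun y => (∏ z, G z) (y + -x))) y = 0 := by
    intro y hy
    show ξ y * (∏ z, G z) (y + -x) = 0
    rw [← sub_eq_add_neg, he₀0 _ hy, mul_zero]
  generalize ξ * (fun y => (∏ z, G z) (y + -x)) = F at hFN hF1 hF0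
  have hFx : F x = ξ x := hF1 x (by rw [sub_self]; exact L.zero_mem)
  -- coordinates
  obtain ⟨T, hTH, hli, hTN⟩ := h15u_exists_basis 𝓗
  rw [← hTN] at hFN
  obtain ⟨c, -, hc⟩ := (Submodule.mem_span_finset).mp hFN
  have hcF : ∀ y, F y = ∑ t ∈ T, (c t : Om p) * t y := by
    intro y
    rw [← hc, Finset.sum_apply]
    rfl
  have hcn : ∀ t, ‖(c t : Om p)‖ ≤ 1 := fun t => (c t).2.1
  -- the action of `I₁` on the coordinates
  have hinv : ∀ g : Gq p, ∀ z : Om p, g (g⁻¹ z) = z := fun g z => by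
    rw [← AlgEquiv.mul_apply, mul_inv_cancel, AlgEquiv.one_apply]
  have hactinv : ∀ g : Gq p, ∀ y : M, act g⁻¹ (act g y) = y := fun g y => by
    rw [← hact.mul, inv_mul_cancel, hact.one]
  have hcyc_inv : ∀ g : Gq p, cycExp p g 1 → cycExp p g⁻¹ 1 := by
    intro g hg μ hμ
    have h4 := hg μ hμ
    rw [pow_one] at h4 ⊢
    have h5 : g⁻¹ (g μ) = μ := by
      rw [← AlgEquiv.mul_apply, inv_mul_cancel, AlgEquiv.one_apply]
    rw [h4] at h5
    exact h5
  have hcoord : ∀ g ∈ inertia p, cycExp p g 1 → ∀ t ∈ T,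
      g (c t : Om p) = ξ (act g⁻¹ x - x) * (c t : Om p) := by
    intro g hg hg1 t ht
    have hg' : g⁻¹ ∈ inertia p := (inertia p).inv_mem hg
    have hg1' := hcyc_inv g hg1
    -- `g (F (g⁻¹ y)) = κ F y`
    have hFg : ∀ y, g (F (act g⁻¹ y)) = ξ (act g⁻¹ x - x) * F y := by
      intro y
      have hmem : act g⁻¹ y - x ∈ L ↔ y - x ∈ L := by
        have h4 : act g⁻¹ y - x = (act g⁻¹ y - y) + (y - x) := by abel
        rw [h4]
        exact L.add_mem_cancel_left (h1 g⁻¹ hg' y)
      by_cases hy : y - x ∈ L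
      · rw [hF1 _ (hmem.mpr hy), hF1 _ hy, hξfix g hg1]
        have h5 : act g⁻¹ y = (act g⁻¹ x - x) + y := by
          have h6 : y = x + (y - x) := by abel
          have h7 : act g⁻¹ y = act g⁻¹ x + act g⁻¹ (y - x) := by
            conv_lhs => rw [h6]
            exact hact.add _ _ _
          rw [h7, h2 g⁻¹ hg' hg1' _ hy]
          abel
        rw [h5, hξ]
      · rw [hF0 _ (fun h => hy (hmem.mp h)), hF0 _ hy, map_zero, mul_zero]
    -- the relation
    have hrel : ∑ i : T, (g (c (i : M → Om p) : Om p) -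
        ξ (act g⁻¹ x - x) * (c (i : M → Om p) : Om p)) • (i : M → Om p) = 0 := by
      funext y
      rw [Finset.sum_apply, Finset.sum_coe_sort T (fun t => ((g (c t : Om p) -
        ξ (act g⁻¹ x - x) * (c t : Om p)) • t) y)]
      simp only [Pi.smul_apply, smul_eq_mul, sub_mul, Finset.sum_sub_distrib, Pi.zero_apply]
      have h8 : ∑ t ∈ T, g (c t : Om p) * t y = g (F (act g⁻¹ y)) := by
        rw [hcF, map_sum]
        refine Finset.sum_congr rfl fun t ht => ?_
        rw [map_mul, 𝓗.equivariant t (hTH ht) g⁻¹ hg' y, hinv]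
      have h9 : ∑ t ∈ T, ξ (act g⁻¹ x - x) * (c t : Om p) * t y =
          ξ (act g⁻¹ x - x) * F y := by
        rw [hcF, Finset.mul_sum]
        refine Finset.sum_congr rfl fun t _ => ?_
        rw [mul_assoc]
      rw [h8, h9, hFg, sub_self]
    have h10 := (Fintype.linearIndependent_iff.mp hli) _ hrel ⟨t, ht⟩
    exact sub_eq_zero.mp h10
  -- the largest coordinate
  have hTne : T.Nonempty := by
    rw [Finset.nonempty_iff_ne_empty]
    intro hT
    have h4 := hcF x
    rw [hT, Finset.sum_empty, hFx] at h4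
    have h5 := hξnorm x
    rw [h4, norm_zero] at h5
    exact zero_ne_one h5
  obtain ⟨t₀, ht₀, hmax⟩ := Finset.exists_max_image T (fun t => ‖(c t : Om p)‖) hTne
  have hc0 : (c t₀ : Om p) ≠ 0 := by
    intro h0
    have h4 : ∀ t ∈ T, (c t : Om p) = 0 := by
      intro t ht
      have h5 := hmax t ht
      simp only [h0, norm_zero] at h5
      exact norm_le_zero_iff.mp h5
    have h6 := hcF x
    rw [Finset.sum_eq_zero (fun t ht => by rw [h4 t ht, zero_mul]), hFx] at h6
    have h7 := hξnorm x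
    rw [h6, norm_zero] at h7
    exact zero_ne_one h7
  have hc0n : 0 < ‖(c t₀ : Om p)‖ := norm_pos_iff.mpr hc0
  refine ⟨(c t₀ : Om p)⁻¹ * ξ x, ?_, ?_⟩
  · -- the norm
    apply le_antisymm
    · have h4 : (c t₀ : Om p)⁻¹ * ξ x = ∑ t ∈ T, ((c t₀ : Om p)⁻¹ * (c t : Om p)) * t x := by
        rw [← hFx, hcF, Finset.mul_sum]
        refine Finset.sum_congr rfl fun t _ => ?_
        rw [mul_assoc]
      rw [h4]
      refine IsUltrametricDist.norm_sum_le_of_forall_le_of_nonneg zero_le_one fun t ht => ?_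
      rw [norm_mul, norm_mul, norm_inv]
      have h5 : ‖(c t₀ : Om p)‖⁻¹ * ‖(c t : Om p)‖ ≤ 1 := by
        rw [inv_mul_le_iff₀ hc0n, mul_one]
        exact hmax t ht
      exact mul_le_one₀ h5 (norm_nonneg _)
        (h38f_valuesIntegral p (inertia p) M act 𝓗 t (hTH ht) x)
    · rw [norm_mul, norm_inv, hξnorm, mul_one]
      exact (one_le_inv₀ hc0n).mpr (hcn t₀)
  · -- the eigen-property
    intro g hg hg1
    have h4 := hcoord g hg hg1 t₀ ht₀
    have h5 : act g⁻¹ x - x = -(act g x - x) := by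
      have h6 : act g⁻¹ (act g x) = act g⁻¹ x + act g⁻¹ (act g x - x) := by
        have h7 : act g x = x + (act g x - x) := by abel
        conv_lhs => rw [h7]
        exact hact.add _ _ _
      rw [hactinv, h2 g⁻¹ ((inertia p).inv_mem hg) (hcyc_inv g hg1) _ (h1 g hg x)] at h6
      have h8 : act g⁻¹ x = x - (act g x - x) := eq_sub_of_add_eq h6.symm
      rw [h8]
      abel
    rw [h5, hξneg] at h4
    have hξa : ξ (act g x - x) ≠ 0 := by
      intro h0
      have h6 := hξnorm (act g x - x)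
      rw [h0, norm_zero] at h6
      exact zero_ne_one h6
    rw [map_mul, map_inv₀, h4, hξfix g hg1, mul_inv, inv_inv]
    ring

end Fermat.Agent.S56F
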