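import Fermat.Agent.S56F.IfaceHopf

/-!
# S56 / LOC-p-FL, row FL-B8 (helper9, prefix `h9q_`): the quotient order

`h9q_quotOrder : QuotOrder`: over a discrete `R = fixInt p Γ`, the functions of a function Hopf
order `𝓗` of `M` which are invariant under `N = ker π` form a function Hopf order of the quotient
`Q = M / N`, and character completeness passes to the quotient.

Route (Mathlib + the frozen definitions only):
* `R` is a principal ideal domain; `𝓗` and `𝓗^N` are free `R`-modules of finite rank;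
* an `R`-linearly independent family of `Γ`-equivariant functions is linearly independent over
  `Om p` (Artin's argument; `Γ`-fixed elements have a denominator in `R`);
* a point-separating subalgebra of functions on a finite set spans all functions over `Om p`
  (Lagrange interpolation); hence every `Γ`-equivariant function has a nonzero `R`-multiple in `𝓗`;
* separation on `Q`: the coefficients of `∏_{n ∈ N} (T - f (x + n))` are `N`-invariant and
  `Γ`-equivariant, and a module is not a finite union of proper "kernels";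
* Sweedler closure: expand in bases and use the independence twice;
* character completeness: `𝓗^N` is a direct summand of `𝓗` (the quotient is torsion-free).
-/

set_option autoImplicit false

open Fermat.Agent.PT.Loc Polynomial

noncomputable section

namespace Fermat.Agent.S56F

section Ring

variable {p : ℕ} [Fact p.Prime] {Γ : Subgroup (Gq p)}

theorem h9q_mem_fixInt {x : Om p} :
    x ∈ fixInt p Γ ↔ ‖x‖ ≤ 1 ∧ ∀ σ ∈ Γ, σ x = x := Iff.rfl

/-- the inverse of a `Γ`-fixed element of norm one is in `fixInt p Γ`. -/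
theorem h9q_inv_mem {u : Om p} (hu : u ∈ fixInt p Γ) (hn : ‖u‖ = 1) : u⁻¹ ∈ fixInt p Γ := by
  refine ⟨by rw [norm_inv, hn, inv_one], fun σ hσ => ?_⟩
  rw [map_inv₀, hu.2 σ hσ]

/-- a `Γ`-fixed element of `Om p` has a nonzero denominator in `fixInt p Γ`. -/
theorem h9q_exists_denom (c : Om p) (hc : ∀ σ ∈ Γ, σ c = c) :
    ∃ r : fixInt p Γ, r ≠ 0 ∧ (r : Om p) * c ∈ fixInt p Γ := by
  by_cases h : ‖c‖ ≤ 1
  · refine ⟨1, one_ne_zero, ?_⟩
    have h1 : ((1 : fixInt p Γ) : Om p) * c = c := by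
      rw [OneMemClass.coe_one, one_mul]
    rw [h1]
    exact ⟨h, hc⟩
  · have hc0 : c ≠ 0 := by
      rintro rfl
      exact h (by simp)
    have hmem : c⁻¹ ∈ fixInt p Γ := by
      refine ⟨?_, fun σ hσ => by rw [map_inv₀, hc σ hσ]⟩
      rw [norm_inv]
      have h1 : 1 < ‖c‖ := not_le.mp h
      exact (inv_lt_one_of_one_lt₀ h1).le
    refine ⟨⟨c⁻¹, hmem⟩, ?_, ?_⟩
    · intro h0
      have := congrArg Subtype.val h0
      exact inv_ne_zero hc0 this
    · simp only [inv_mul_cancel₀ hc0]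
      exact (fixInt p Γ).one_mem

/-- a common denominator for finitely many `Γ`-fixed elements. -/
theorem h9q_exists_denom_finset {ι : Type*} (s : Finset ι) (c : ι → Om p)
    (hc : ∀ i ∈ s, ∀ σ ∈ Γ, σ (c i) = c i) :
    ∃ r : fixInt p Γ, r ≠ 0 ∧ ∀ i ∈ s, (r : Om p) * c i ∈ fixInt p Γ := by
  classical
  induction s using Finset.induction_on with
  | empty => exact ⟨1, one_ne_zero, fun i hi => absurd hi (Finset.notMem_empty i)⟩
  | insert a s ha ih =>
    obtain ⟨r, hr, hrs⟩ := ih fun i hi => hc i (Finset.mem_insert_of_mem hi)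
    obtain ⟨r', hr', hra⟩ := h9q_exists_denom (Γ := Γ) (c a) (hc a (Finset.mem_insert_self a s))
    refine ⟨r * r', mul_ne_zero hr hr', fun i hi => ?_⟩
    rcases Finset.mem_insert.mp hi with rfl | hi
    · have : ((r * r' : fixInt p Γ) : Om p) * c i = (r : Om p) * ((r' : Om p) * c i) := by
        push_cast; ring
      rw [this]
      exact (fixInt p Γ).mul_mem r.2 hra
    · have : ((r * r' : fixInt p Γ) : Om p) * c i = (r' : Om p) * ((r : Om p) * c i) := by
        push_cast; ring
      rw [this]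
      exact (fixInt p Γ).mul_mem r'.2 (hrs i hi)

/-- a discrete `fixInt p Γ` is a principal ideal ring. -/
theorem h9q_isPrincipalIdealRing {ϖ : Om p} (h : IsDiscrete p Γ ϖ) :
    IsPrincipalIdealRing (fixInt p Γ) := by
  classical
  obtain ⟨hϖ, hϖ1, hϖ0, hdec⟩ := h
  have hnpos : 0 < ‖ϖ‖ := norm_pos_iff.mpr hϖ0
  refine ⟨fun I => ?_⟩
  by_cases hI : I = ⊥
  · rw [hI]
    exact ⟨⟨0, by simp⟩⟩
  -- a nonzero element
  have hex : ∃ n : ℕ, ∃ x ∈ I, x ≠ 0 ∧ ‖(x : Om p)‖ = ‖ϖ‖ ^ n := by
    obtain ⟨x, hxI, hx0⟩ := Submodule.exists_mem_ne_zero_of_ne_bot hI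
    have hx0' : (x : Om p) ≠ 0 := fun h0 => hx0 (Subtype.ext h0)
    obtain ⟨n, u, hu, hun, hxu⟩ := hdec x x.2 hx0'
    exact ⟨n, x, hxI, hx0, by rw [hxu, norm_mul, norm_pow, hun, mul_one]⟩
  set n₀ := Nat.find hex with hn₀
  obtain ⟨x₀, hx₀I, hx₀0, hx₀n⟩ := Nat.find_spec hex
  have hx₀0' : (x₀ : Om p) ≠ 0 := fun h0 => hx₀0 (Subtype.ext h0)
  obtain ⟨n, u, hu, hun, hxu⟩ := hdec x₀ x₀.2 hx₀0'
  have hnn : n = n₀ := by
    have h1 : ‖ϖ‖ ^ n = ‖ϖ‖ ^ n₀ := by
      rw [← hx₀n, hxu, norm_mul, norm_pow, hun, mul_one]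
    exact pow_right_injective₀ hnpos hϖ1.ne h1
  rw [hnn] at hxu
  clear hnn n
  let g : fixInt p Γ := ⟨ϖ, hϖ⟩ ^ n₀
  have hgI : g ∈ I := by
    have hui : u⁻¹ ∈ fixInt p Γ := h9q_inv_mem hu hun
    have hu0 : u ≠ 0 := by
      rintro rfl
      rw [norm_zero] at hun
      exact zero_ne_one hun
    have : g = ⟨u⁻¹, hui⟩ * x₀ := by
      apply Subtype.ext
      simp only [g, SubmonoidClass.coe_pow, Subring.coe_mul]
      rw [hxu]
      field_simp
    rw [this]
    exact I.mul_mem_left _ hx₀I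
  refine ⟨⟨g, ?_⟩⟩
  apply le_antisymm
  · intro y hy
    by_cases hy0 : y = 0
    · rw [hy0]; exact Submodule.zero_mem _
    have hy0' : (y : Om p) ≠ 0 := fun h0 => hy0 (Subtype.ext h0)
    obtain ⟨k, v, hv, hvn, hyv⟩ := hdec y y.2 hy0'
    have hk : n₀ ≤ k := by
      rw [hn₀]
      exact Nat.find_min' hex ⟨y, hy, hy0, by rw [hyv, norm_mul, norm_pow, hvn, mul_one]⟩
    rw [Submodule.mem_span_singleton]
    refine ⟨⟨ϖ, hϖ⟩ ^ (k - n₀) * ⟨v, hv⟩, ?_⟩
    apply Subtype.ext
    simp only [g, smul_eq_mul, Subring.coe_mul, SubmonoidClass.coe_pow]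
    rw [hyv]
    have : ϖ ^ k = ϖ ^ (k - n₀) * ϖ ^ n₀ := by rw [← pow_add, Nat.sub_add_cancel hk]
    rw [this]
    ring
  · rw [Submodule.span_singleton_le_iff_mem]
    exact hgI

end Ring

section Main

variable {p : ℕ} [Fact p.Prime] {Γ : Subgroup (Gq p)}

/-- Precomposition with `π`, as an algebra homomorphism. -/
def h9q_comp (Γ : Subgroup (Gq p)) {M Q : Type} (π : M → Q) :
    (Q → Om p) →ₐ[fixInt p Γ] (M → Om p) :=
  AlgHom.pi (fun x => Pi.evalAlgHom (fixInt p Γ) (fun _ : Q => Om p) (π x))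

theorem h9q_comp_apply (Γ : Subgroup (Gq p)) {M Q : Type} (π : M → Q) (g : Q → Om p) :
    h9q_comp Γ π g = g ∘ π := rfl

theorem h9q_comp_injective (Γ : Subgroup (Gq p)) {M Q : Type} (π : M → Q)
    (hπ : Function.Surjective π) : Function.Injective (h9q_comp Γ π) := by
  intro g g' h
  funext q
  obtain ⟨x, rfl⟩ := hπ q
  exact congrFun h x

/-- **Artin's independence property**: a family of `Γ`-equivariant functions which is linearly
independent over `fixInt p Γ` is linearly independent over `Om p`. -/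
def h9q_ArtinProp (p : ℕ) [Fact p.Prime] (Γ : Subgroup (Gq p)) : Prop :=
  ∀ (X ι : Type) (act : Gq p → X → X), (∀ σ ∈ Γ, Function.Surjective (act σ)) →
    ∀ E : ι → X → Om p, (∀ i, ∀ σ ∈ Γ, ∀ x, E i (act σ x) = σ (E i x)) →
      LinearIndependent (fixInt p Γ) E → LinearIndependent (Om p) E

/-- **Separation property** of the invariants. -/
def h9q_SepProp : Prop :=
  ∀ (p : ℕ) [Fact p.Prime] (Γ : Subgroup (Gq p)) (M : Type) [AddCommGroup M] [Finite M]
    (act : Gq p → M → M), IsAct act → ∀ (𝓗 : FHO p Γ M act) (Q : Type) [AddCommGroup Q]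
    (actQ : Gq p → Q → Q) (π : M →+ Q), Function.Surjective π →
    (∀ σ ∈ Γ, ∀ x, π (act σ x) = actQ σ (π x)) →
    ∀ q q' : Q, (∀ g : Q → Om p, g ∘ π ∈ 𝓗.carrier → g q = g q') → q = q'

/-- a function invariant under `ker π` factors through `π`. -/
theorem h9q_factor {M Q : Type} [AddCommGroup M] [AddCommGroup Q] (π : M →+ Q)
    (hπ : Function.Surjective π) (f : M → Om p) (hf : ∀ x n, π n = 0 → f (x + n) = f x) :
    ∃ g : Q → Om p, g ∘ π = f := by
  refine ⟨fun q => f (Function.surjInv hπ q), ?_⟩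
  funext x
  have h1 : π (Function.surjInv hπ (π x)) = π x := Function.surjInv_eq hπ (π x)
  have h2 : π (Function.surjInv hπ (π x) - x) = 0 := by rw [map_sub, h1, sub_self]
  have h3 := hf x _ h2
  simp only [Function.comp_apply]
  rw [← h3]
  congr 1
  abel

/-- expansion of a function in a basis of a module of functions. -/
theorem h9q_expand {X : Type} (H : Submodule (fixInt p Γ) (X → Om p)) {n : ℕ}
    (e : Module.Basis (Fin n) (fixInt p Γ) H) (f : X → Om p) (hf : f ∈ H) (x : X) :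
    f x = ∑ j, ((e.repr ⟨f, hf⟩ j : fixInt p Γ) : Om p) * (e j : X → Om p) x := by
  have h1 := e.sum_repr ⟨f, hf⟩
  have h2 := congrArg (fun z : H => (z : X → Om p) x) h1
  simp only [Submodule.coe_sum, Submodule.coe_smul, Finset.sum_apply, Pi.smul_apply] at h2
  rw [← h2]
  rfl

/-- the invariants form a finitely generated module. -/
theorem h9q_fg_comap [IsNoetherianRing (fixInt p Γ)] {M Q : Type} (π : M → Q)
    (hπ : Function.Surjective π) (H : Submodule (fixInt p Γ) (M → Om p)) (hfg : H.FG) :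
    (H.comap (h9q_comp Γ π).toLinearMap).FG := by
  have hN : IsNoetherian (fixInt p Γ) H := isNoetherian_of_fg_of_noetherian H hfg
  refine Submodule.fg_of_fg_map_injective (h9q_comp Γ π).toLinearMap
    (h9q_comp_injective Γ π hπ) ?_
  exact Submodule.FG.of_le_of_isNoetherian (T := H) (Submodule.map_comap_le _ _)

/-- modules of functions are torsion free. -/
theorem h9q_torsionFree {X : Type} (H : Submodule (fixInt p Γ) (X → Om p)) :
    Module.IsTorsionFree (fixInt p Γ) H := inferInstance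

/-- a finitely generated module of functions over a principal `fixInt p Γ` has a basis. -/
theorem h9q_exists_basis [IsPrincipalIdealRing (fixInt p Γ)] {X : Type}
    (H : Submodule (fixInt p Γ) (X → Om p)) (hfg : H.FG) :
    ∃ n : ℕ, Nonempty (Module.Basis (Fin n) (fixInt p Γ) H) := by
  have hT : Module.IsTorsionFree (fixInt p Γ) H := h9q_torsionFree H
  have hF : Module.Finite (fixInt p Γ) H := Module.Finite.of_fg hfg
  obtain ⟨n, e⟩ := Module.basisOfFiniteTypeTorsionFree' (R := fixInt p Γ) (M := H)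
  exact ⟨n, ⟨e⟩⟩

/-- **Sweedler closure of the invariants.** -/
theorem h9q_comul (hA : h9q_ArtinProp p Γ) [IsPrincipalIdealRing (fixInt p Γ)]
    {M : Type} [AddCommGroup M] {act : Gq p → M → M} (hact : IsAct act)
    (𝓗 : FHO p Γ M act) {Q : Type} [AddCommGroup Q] {actQ : Gq p → Q → Q} (π : M →+ Q)
    (hπ : Function.Surjective π) (hπe : ∀ σ ∈ Γ, ∀ x, π (act σ x) = actQ σ (π x))
    (g : Q → Om p) (hg : g ∘ π ∈ 𝓗.carrier) :
    ∃ (n : ℕ) (a b : Fin n → Q → Om p), (∀ i, a i ∘ π ∈ 𝓗.carrier) ∧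
      (∀ i, b i ∘ π ∈ 𝓗.carrier) ∧ ∀ x y, g (x + y) = ∑ i, a i x * b i y := by
  classical
  -- the two modules
  let H : Submodule (fixInt p Γ) (M → Om p) := Subalgebra.toSubmodule 𝓗.carrier
  let HQ : Submodule (fixInt p Γ) (Q → Om p) := H.comap (h9q_comp Γ π).toLinearMap
  obtain ⟨n, ⟨e⟩⟩ := h9q_exists_basis H 𝓗.fg
  obtain ⟨m, ⟨u⟩⟩ := h9q_exists_basis HQ (h9q_fg_comap π hπ H 𝓗.fg)
  -- surjectivity of the actions
  have hsurj : ∀ σ ∈ Γ, Function.Surjective (act σ) := fun σ _ x =>
    ⟨act σ⁻¹ x, by rw [← hact.mul, mul_inv_cancel, hact.one]⟩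
  have hsurjQ : ∀ σ ∈ Γ, Function.Surjective (actQ σ) := by
    intro σ hσ q
    obtain ⟨x, rfl⟩ := hπ q
    exact ⟨π (act σ⁻¹ x), by rw [← hπe σ hσ, ← hact.mul, mul_inv_cancel, hact.one]⟩
  -- the bases as families of functions
  let E : Fin n → M → Om p := fun j => (e j : M → Om p)
  let U : Fin m → Q → Om p := fun k => (u k : Q → Om p)
  have hEmem : ∀ j, E j ∈ 𝓗.carrier := fun j => (e j).2
  have hUmem : ∀ k, U k ∘ π ∈ 𝓗.carrier := fun k => (u k).2
  have hEli : LinearIndependent (Om p) E := by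
    refine hA M (Fin n) act hsurj E (fun j σ hσ x => 𝓗.equivariant _ (hEmem j) σ hσ x) ?_
    exact e.linearIndependent.map' H.subtype (Submodule.ker_subtype H)
  have hUli : LinearIndependent (Om p) U := by
    refine hA Q (Fin m) actQ hsurjQ U ?_ ?_
    · intro k σ hσ q
      obtain ⟨x, rfl⟩ := hπ q
      rw [← hπe σ hσ]
      exact 𝓗.equivariant _ (hUmem k) σ hσ x
    · exact u.linearIndependent.map' HQ.subtype (Submodule.ker_subtype HQ)
  -- the Sweedler form in `𝓗`
  obtain ⟨n', a, b, ha, hb, hab⟩ := 𝓗.comul (g ∘ π) hg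
  have hb' : ∀ i, b i ∈ H := hb
  have hbexp : ∀ i y, b i y = ∑ j, ((e.repr ⟨b i, hb' i⟩ j : fixInt p Γ) : Om p) * E j y :=
    fun i y => h9q_expand H e (b i) (hb' i) y
  let A : Fin n → M → Om p := fun j x =>
    ∑ i, ((e.repr ⟨b i, hb' i⟩ j : fixInt p Γ) : Om p) * a i x
  have hAmem : ∀ j, A j ∈ 𝓗.carrier := by
    intro j
    have h1 : A j = ∑ i, (e.repr ⟨b i, hb' i⟩ j : fixInt p Γ) • a i := by
      funext x
      simp only [A, Finset.sum_apply, Pi.smul_apply]
      rfl
    rw [h1]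
    exact Subalgebra.sum_mem _ fun i _ => Subalgebra.smul_mem _ (ha i) _
  have hAE : ∀ x y, g (π x + π y) = ∑ j, A j x * E j y := by
    intro x y
    have h1 : g (π x + π y) = ∑ i, a i x * b i y := by
      rw [← hab x y, Function.comp_apply, map_add]
    rw [h1]
    simp only [A, hbexp, Finset.mul_sum, Finset.sum_mul]
    rw [Finset.sum_comm]
    refine Finset.sum_congr rfl fun j _ => Finset.sum_congr rfl fun i _ => ?_
    ring
  have hAinv : ∀ j x n, π n = 0 → A j (x + n) = A j x := by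
    intro j x n hn
    have h1 : ∑ j, (A j (x + n) - A j x) • E j = 0 := by
      funext y
      simp only [Finset.sum_apply, Pi.smul_apply, smul_eq_mul, Pi.zero_apply, sub_mul,
        Finset.sum_sub_distrib]
      rw [← hAE, ← hAE, map_add, hn, add_zero, sub_self]
    have h2 := Fintype.linearIndependent_iff.mp hEli _ h1 j
    exact sub_eq_zero.mp h2
  choose A' hA' using fun j => h9q_factor π hπ (A j) (hAinv j)
  have hA'mem : ∀ j, A' j ∈ HQ := by
    intro j
    change A' j ∘ π ∈ 𝓗.carrier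
    rw [hA' j]
    exact hAmem j
  have hA'exp : ∀ j q, A' j q =
      ∑ k, ((u.repr ⟨A' j, hA'mem j⟩ k : fixInt p Γ) : Om p) * U k q :=
    fun j q => h9q_expand HQ u (A' j) (hA'mem j) q
  let D : Fin m → M → Om p := fun k y =>
    ∑ j, ((u.repr ⟨A' j, hA'mem j⟩ k : fixInt p Γ) : Om p) * E j y
  have hDmem : ∀ k, D k ∈ 𝓗.carrier := by
    intro k
    have h1 : D k = ∑ j, (u.repr ⟨A' j, hA'mem j⟩ k : fixInt p Γ) • E j := by
      funext x
      simp only [D, Finset.sum_apply, Pi.smul_apply]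
      rfl
    rw [h1]
    exact Subalgebra.sum_mem _ fun j _ => Subalgebra.smul_mem _ (hEmem j) _
  have hUD : ∀ x y, g (π x + π y) = ∑ k, U k (π x) * D k y := by
    intro x y
    rw [hAE]
    have h1 : ∀ j, A j x = A' j (π x) := fun j => by rw [← hA' j]; rfl
    simp only [h1, hA'exp, D, Finset.mul_sum, Finset.sum_mul]
    rw [Finset.sum_comm]
    refine Finset.sum_congr rfl fun k _ => Finset.sum_congr rfl fun j _ => ?_
    ring
  have hDinv : ∀ k y n, π n = 0 → D k (y + n) = D k y := by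
    intro k y n hn
    have h1 : ∑ k, (D k (y + n) - D k y) • U k = 0 := by
      funext q
      obtain ⟨x, rfl⟩ := hπ q
      simp only [Finset.sum_apply, Pi.smul_apply, smul_eq_mul, Pi.zero_apply, sub_mul,
        Finset.sum_sub_distrib]
      have h2 : ∀ z, ∑ k, D k z * U k (π x) = g (π x + π z) := by
        intro z
        rw [hUD]
        exact Finset.sum_congr rfl fun k _ => mul_comm _ _
      rw [h2, h2, map_add, hn, add_zero, sub_self]
    have h2 := Fintype.linearIndependent_iff.mp hUli _ h1 k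
    exact sub_eq_zero.mp h2
  choose D' hD' using fun k => h9q_factor π hπ (D k) (hDinv k)
  refine ⟨m, U, D', hUmem, fun k => ?_, fun q q' => ?_⟩
  · rw [hD' k]
    exact hDmem k
  · obtain ⟨x, rfl⟩ := hπ q
    obtain ⟨y, rfl⟩ := hπ q'
    rw [hUD]
    refine Finset.sum_congr rfl fun k _ => ?_
    rw [← hD' k]
    rfl

/-- **FL-B8**, conditional form: the quotient order, from Artin's independence property, the
separation property of the invariants and character completeness of all orders. -/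
theorem h9q_quotOrder_of
    (hA : ∀ (p : ℕ) [Fact p.Prime] (Γ : Subgroup (Gq p)), h9q_ArtinProp p Γ)
    (hS : h9q_SepProp) (hC : CharCompleteAll) : QuotOrder := by
  intro p _ Γ ϖ hdisc M _ _ act hact 𝓗 Q _ actQ π hπ hπe
  have hPID : IsPrincipalIdealRing (fixInt p Γ) := h9q_isPrincipalIdealRing hdisc
  have hQ : Finite Q := Finite.of_surjective π hπ
  let 𝓗Q : FHO p Γ Q actQ :=
    { carrier := 𝓗.carrier.comap (h9q_comp Γ π)
      fg := h9q_fg_comap π hπ _ 𝓗.fg
      equivariant := by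
        intro g hg σ hσ q
        obtain ⟨x, rfl⟩ := hπ q
        rw [← hπe σ hσ]
        exact 𝓗.equivariant _ hg σ hσ x
      separates := fun q q' h => hS p Γ M act hact 𝓗 Q actQ π hπ hπe q q' fun g hg => h g hg
      comul := fun g hg => h9q_comul (hA p Γ) hact 𝓗 π hπ hπe g hg }
  exact ⟨𝓗Q, fun g => Iff.rfl, fun _ => hC p Γ Q actQ 𝓗Q⟩

end Main

end Fermat.Agent.S56F
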