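import Fermat.Agent.S56F.IfaceHopf

/-!
# S56 / LOC-p-FL, leaf FL-B8, Artin's lemma (helper15, for helper9's `QuotOrder`)

`h15q_artin`: a family of `Γ`-equivariant functions `E i : X → Om p` which is linearly
independent over `fixInt p Γ` (the integers fixed by `Γ`) is linearly independent over `Om p`.

Proof (Artin): in a relation `∑ g i • E i = 0` normalise by the coefficient of largest norm,
`c = g / g i₀`; twisting by `σ ∈ Γ` gives `∑ σ (c i) • E i = 0`; the difference does not involve
`i₀`, so by induction `σ (c i) = c i`; hence `c i ∈ fixInt p Γ` and `c i₀ = 1`, contradiction.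
-/

set_option autoImplicit false

open Fermat.Agent.PT.Loc

noncomputable section

namespace Fermat.Agent.S56F

/-- **Artin's lemma.** -/
theorem h15q_artin (p : ℕ) [Fact p.Prime] (Γ : Subgroup (Gq p)) {X ι : Type}
    (act : Gq p → X → X) (hsurj : ∀ σ ∈ Γ, Function.Surjective (act σ)) (E : ι → X → Om p)
    (hE : ∀ i, ∀ σ ∈ Γ, ∀ x, E i (act σ x) = σ (E i x))
    (hli : LinearIndependent (fixInt p Γ) E) : LinearIndependent (Om p) E := by
  classical
  rw [linearIndependent_iff']
  intro s
  induction s using Finset.strongInduction with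
  | H s ih =>
    intro g hsum i hi
    by_contra hgi
    obtain ⟨i₀, hi₀, hmax⟩ := Finset.exists_max_image s (fun j => ‖g j‖) ⟨i, hi⟩
    have hg0 : g i₀ ≠ 0 := by
      intro h0
      have h1 := hmax i hi
      simp only [h0, norm_zero] at h1
      exact hgi (norm_le_zero_iff.mp h1)
    have hc1 : g i₀ / g i₀ = 1 := div_self hg0
    have hcn : ∀ j ∈ s, ‖g j / g i₀‖ ≤ 1 := by
      intro j hj
      rw [norm_div]
      exact div_le_one_of_le₀ (hmax j hj) (norm_nonneg _)
    have hcsum : ∑ j ∈ s, (g j / g i₀) • E j = 0 := by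
      have h1 : ∑ j ∈ s, (g j / g i₀) • E j = (g i₀)⁻¹ • ∑ j ∈ s, g j • E j := by
        rw [Finset.smul_sum]
        refine Finset.sum_congr rfl fun j _ => ?_
        rw [smul_smul, div_eq_inv_mul]
      rw [h1, hsum, smul_zero]
    -- the twisted relation
    have htw : ∀ σ ∈ Γ, ∑ j ∈ s, (σ (g j / g i₀)) • E j = 0 := by
      intro σ hσ
      funext x
      obtain ⟨y, rfl⟩ := hsurj σ hσ x
      have h1 := congrFun hcsum y
      simp only [Finset.sum_apply, Pi.smul_apply, smul_eq_mul, Pi.zero_apply] at h1 ⊢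
      have h2 := congrArg σ h1
      rw [map_sum, map_zero] at h2
      rw [← h2]
      refine Finset.sum_congr rfl fun j _ => ?_
      rw [map_mul, hE j σ hσ]
    -- the normalised coefficients are fixed by `Γ`
    have hfix : ∀ σ ∈ Γ, ∀ j ∈ s, σ (g j / g i₀) = g j / g i₀ := by
      intro σ hσ
      have h2 : ∑ j ∈ s, (σ (g j / g i₀) - g j / g i₀) • E j = 0 := by
        simp only [sub_smul, Finset.sum_sub_distrib, htw σ hσ, hcsum, sub_zero]
      have h1 : ∑ j ∈ s.erase i₀, (σ (g j / g i₀) - g j / g i₀) • E j = 0 := by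
        rw [← Finset.add_sum_erase s _ hi₀] at h2
        rw [hc1, map_one, sub_self, zero_smul, zero_add] at h2
        exact h2
      have h3 := ih (s.erase i₀) (Finset.erase_ssubset hi₀)
        (fun j => σ (g j / g i₀) - g j / g i₀) h1
      intro j hj
      by_cases hj0 : j = i₀
      · rw [hj0, hc1, map_one]
      · exact sub_eq_zero.mp (h3 j (Finset.mem_erase.mpr ⟨hj0, hj⟩))
    -- a relation over `fixInt p Γ`
    let c' : ι → fixInt p Γ := fun j =>
      if hj : j ∈ s then ⟨g j / g i₀, hcn j hj, fun σ hσ => hfix σ hσ j hj⟩ else 0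
    have hrel : ∑ j ∈ s, c' j • E j = 0 := by
      rw [← hcsum]
      refine Finset.sum_congr rfl fun j hj => ?_
      simp only [c', dif_pos hj]
      rfl
    have h4 := linearIndependent_iff'.mp hli s c' hrel i₀ hi₀
    have h5 : ((c' i₀ : fixInt p Γ) : Om p) = 1 := by
      simp only [c', dif_pos hi₀]
      exact hc1
    rw [h4] at h5
    exact zero_ne_one h5

end Fermat.Agent.S56F
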