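import Fermat.Agent.S56F.IfaceRank1

/-!
# S56 / LOC-p-FL, leaf FL-C1 (helper7): the easy Gauss sum

`h7g_gaussNorm : GaussNorm` : for a Teichmüller character `τ` of the finite field `k` of
characteristic `p ≠ 2`, a non-trivial additive character `ξ₀` of `k` and every `i`,
`‖∑_a τ(a)^{-p^i} ξ₀(a)‖ ^ (p - 1) = ‖p‖` in `Om p = PadicAlgCl p`.

Proof.  `ζ = ξ₀(a₀) ≠ 1` is a primitive `p`-th root of unity, `‖ζ - 1‖ ^ (p - 1) = ‖p‖`
(`h7g_norm_zeta_sub_one`, from `∏ (1 - μ) = p`); `ξ₀(a) = ζ ^ ñ(a)` with `ñ` additive modulo `p`;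
`ζ ^ m - 1 ≡ m (ζ - 1)` modulo `(ζ - 1)²` (`h7g_norm_pow_sub_lin_le`); `∑_a τ(a)^{-p^i} = 0`; so
`G ≡ (ζ - 1) S` modulo `(ζ - 1)²`, `S = ∑_a τ(a)^{-p^i} ñ(a)`.  Modulo the maximal ideal `S` is
the Teichmüller lift of `T = ∑_a a^{-p^i} n(a) ∈ k` (`h7g_lift_sum`, `h7g_lift_natCast`), and
`T = -β^{p^(i mod r)} ≠ 0` where `n = Tr(β ·)` (`h7g_ff_sum`: trace form, the explicit formula
for the trace of a finite field and `∑_a a^e = 0` for `(q - 1) ∤ e`).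
-/

set_option autoImplicit false
set_option linter.unusedSectionVars false
set_option linter.style.haveILetI false

open Fermat.Agent.PT.Loc

noncomputable section

namespace Fermat.Agent.S56F

section FiniteFieldPart

variable (p : ℕ) [Fact p.Prime] (k : Type) [Field k] [Fintype k] [DecidableEq k] [CharP k p]

/-- Frobenius is periodic: `x ^ p ^ i = x ^ p ^ (i % r)` for `#k = p ^ r`. -/
theorem h7g_frob_mod {r : ℕ} (hcard : Fintype.card k = p ^ r) (x : k) (i : ℕ) :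
    x ^ p ^ i = x ^ p ^ (i % r) := by
  have h1 : p ^ i = (p ^ r) ^ (i / r) * p ^ (i % r) := by
    rw [← pow_mul, ← pow_add, Nat.div_add_mod]
  rw [h1, pow_mul, ← hcard, FiniteField.pow_card_pow]

/-- The character sums `∑_a a^{p^j} a^{-p^i}` for `j, i < r`. -/
theorem h7g_inner_sum {r : ℕ} (hp2 : p ≠ 2) (hcard : Fintype.card k = p ^ r) {i j : ℕ} (hi : i < r)
    (hj : j < r) :
    ∑ a : kˣ, ((a : k) ^ p ^ j * ((a⁻¹ : kˣ) : k) ^ p ^ i) = if j = i then -1 else 0 := by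
  have hp : p.Prime := Fact.out
  have hp3 : 3 ≤ p := by
    have := hp.two_le
    omega
  have hr : 0 < r := lt_of_le_of_lt (Nat.zero_le _) hi
  -- `p ^ e < p ^ r - 1` for `e < r`
  have hlt : ∀ e : ℕ, e < r → p ^ e < p ^ r - 1 := by
    intro e he
    have h1 : p ^ (e + 1) ≤ p ^ r := Nat.pow_le_pow_right hp.pos he
    have h2 : p ^ (e + 1) = p ^ e * p := pow_succ p e
    have h3 : 0 < p ^ e := pow_pos hp.pos e
    have h4 : p ^ e * 3 ≤ p ^ e * p := Nat.mul_le_mul_left _ hp3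
    have h5 : p ^ e + 1 < p ^ r := by
      rw [h2] at h1
      calc p ^ e + 1 < p ^ e * 3 := by omega
        _ ≤ p ^ e * p := h4
        _ ≤ p ^ r := h1
    omega
  have hzero : ∀ e : ℕ, 0 < e → e < p ^ r - 1 → ∑ a : kˣ, ((a : k) ^ e) = 0 := by
    intro e he0 he
    rw [FiniteField.sum_pow_units, hcard, if_neg]
    exact Nat.not_dvd_of_pos_of_lt he0 he
  rcases lt_trichotomy j i with hji | hji | hji
  · -- `j < i`
    rw [if_neg (Nat.ne_of_lt hji)]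
    have hpow : p ^ j < p ^ i := Nat.pow_lt_pow_right hp.one_lt hji
    have hterm : ∀ a : kˣ, ((a : k) ^ p ^ j * ((a⁻¹ : kˣ) : k) ^ p ^ i) =
        (((a⁻¹ : kˣ) : k)) ^ (p ^ i - p ^ j) := by
      intro a
      have h1 : p ^ i = (p ^ i - p ^ j) + p ^ j := by omega
      conv_lhs => rw [h1, pow_add]
      rw [mul_comm, mul_assoc, ← mul_pow]
      simp
    simp_rw [hterm]
    rw [← hzero (p ^ i - p ^ j) (by omega) (by have := hlt i hi; omega)]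
    exact Equiv.sum_comp (Equiv.inv kˣ) (fun a : kˣ => ((a : k)) ^ (p ^ i - p ^ j))
  · subst hji
    rw [if_pos rfl]
    have hterm : ∀ a : kˣ, ((a : k) ^ p ^ j * ((a⁻¹ : kˣ) : k) ^ p ^ j) = (a : k) ^ 0 := by
      intro a
      rw [← mul_pow]
      simp
    simp_rw [hterm]
    rw [FiniteField.sum_pow_units, if_pos (dvd_zero _)]
  · -- `i < j`
    rw [if_neg (Nat.ne_of_gt hji)]
    have hpow : p ^ i < p ^ j := Nat.pow_lt_pow_right hp.one_lt hji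
    have hterm : ∀ a : kˣ, ((a : k) ^ p ^ j * ((a⁻¹ : kˣ) : k) ^ p ^ i) =
        ((a : k)) ^ (p ^ j - p ^ i) := by
      intro a
      have h1 : p ^ j = (p ^ j - p ^ i) + p ^ i := by omega
      conv_lhs => rw [h1, pow_add]
      rw [mul_assoc, ← mul_pow]
      simp
    simp_rw [hterm]
    exact hzero (p ^ j - p ^ i) (by omega) (by have := hlt j hj; omega)

/-- The character sum of the finite field: for a non-zero additive `n : k → 𝔽_p` (given by a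
lift `ñ : k → ℕ`), `∑_a a^{-p^i} n(a) ≠ 0` in `k`. -/
theorem h7g_ff_sum (hp2 : p ≠ 2) (ñ : k → ℕ)
    (hadd : ∀ a b : k, ((ñ (a + b) : ℕ) : ZMod p) = (ñ a : ZMod p) + (ñ b : ZMod p))
    (hne : ∃ a : k, ((ñ a : ℕ) : ZMod p) ≠ 0) (i : ℕ) :
    ∑ a : kˣ, ((a⁻¹ : kˣ) : k) ^ p ^ i * ((ñ (a : k) : ℕ) : k) ≠ 0 := by
  classical
  letI : Algebra (ZMod p) k := ZMod.algebra k p
  have hp : p.Prime := Fact.out
  set r := Module.finrank (ZMod p) k with hr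
  have hcard : Fintype.card k = p ^ r := by
    have h1 := Module.card_eq_pow_finrank (K := ZMod p) (V := k)
    rw [ZMod.card] at h1
    exact h1
  have hr0 : 0 < r := Module.finrank_pos
  -- the linear functional and its trace-dual
  let n0 : k →+ ZMod p := AddMonoidHom.mk' (fun a => ((ñ a : ℕ) : ZMod p)) hadd
  let n1 : k →ₗ[ZMod p] ZMod p := n0.toZModLinearMap p
  have hnd := traceForm_nondegenerate (ZMod p) k
  set β : k := ((Algebra.traceForm (ZMod p) k).toDual hnd).symm n1 with hβdef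
  have hβ : ∀ a : k, Algebra.trace (ZMod p) k (β * a) = ((ñ a : ℕ) : ZMod p) := by
    intro a
    have h1 := LinearMap.BilinForm.apply_toDual_symm_apply (B := Algebra.traceForm (ZMod p) k)
      (hB := hnd) n1 a
    rw [Algebra.traceForm_apply] at h1
    exact h1
  have hβ0 : β ≠ 0 := by
    intro h0
    obtain ⟨a, ha⟩ := hne
    apply ha
    rw [← hβ a, h0, zero_mul, map_zero]
  have hcast : ∀ a : k, ((ñ a : ℕ) : k) = ∑ j ∈ Finset.range r, (β * a) ^ p ^ j := by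
    intro a
    have h1 := FiniteField.algebraMap_trace_eq_sum_pow (ZMod p) k (β * a)
    rw [hβ a, map_natCast, Nat.card_zmod] at h1
    exact h1
  have hmod : i % r < r := Nat.mod_lt _ hr0
  have key : ∑ a : kˣ, ((a⁻¹ : kˣ) : k) ^ p ^ i * ((ñ (a : k) : ℕ) : k) = -β ^ p ^ (i % r) := by
    calc ∑ a : kˣ, ((a⁻¹ : kˣ) : k) ^ p ^ i * ((ñ (a : k) : ℕ) : k)
        = ∑ a : kˣ, ∑ j ∈ Finset.range r,
            β ^ p ^ j * ((a : k) ^ p ^ j * ((a⁻¹ : kˣ) : k) ^ p ^ (i % r)) := by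
          refine Finset.sum_congr rfl fun a _ => ?_
          rw [hcast, Finset.mul_sum, h7g_frob_mod p k hcard _ i]
          refine Finset.sum_congr rfl fun j _ => ?_
          rw [mul_pow]
          ring
      _ = ∑ j ∈ Finset.range r, β ^ p ^ j *
            ∑ a : kˣ, ((a : k) ^ p ^ j * ((a⁻¹ : kˣ) : k) ^ p ^ (i % r)) := by
          rw [Finset.sum_comm]
          refine Finset.sum_congr rfl fun j _ => ?_
          rw [Finset.mul_sum]
      _ = ∑ j ∈ Finset.range r, (if j = i % r then -β ^ p ^ j else 0) := by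
          refine Finset.sum_congr rfl fun j hj => ?_
          rw [h7g_inner_sum p k hp2 hcard hmod (Finset.mem_range.mp hj)]
          split_ifs <;> simp
      _ = -β ^ p ^ (i % r) := by
          rw [Finset.sum_ite_eq' (Finset.range r) (i % r) (fun j => -β ^ p ^ j),
            if_pos (Finset.mem_range.mpr hmod)]
  rw [key]
  exact neg_ne_zero.mpr (pow_ne_zero _ hβ0)

end FiniteFieldPart

section NormPart

variable {K : Type*} [NormedField K] [IsUltrametricDist K]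

theorem h7g_norm_sum_lt {ι : Type*} (s : Finset ι) (f : ι → K) {C : ℝ} (hC : 0 < C)
    (h : ∀ a ∈ s, ‖f a‖ < C) : ‖∑ a ∈ s, f a‖ < C := by
  classical
  induction s using Finset.induction_on with
  | empty => simpa using hC
  | insert a s ha ih =>
    rw [Finset.sum_insert ha]
    exact lt_of_le_of_lt (IsUltrametricDist.norm_add_le_max _ _)
      (max_lt (h a (Finset.mem_insert_self a s))
        (ih fun b hb => h b (Finset.mem_insert_of_mem hb)))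

theorem h7g_norm_sum_le {ι : Type*} (s : Finset ι) (f : ι → K) {C : ℝ} (hC : 0 ≤ C)
    (h : ∀ a ∈ s, ‖f a‖ ≤ C) : ‖∑ a ∈ s, f a‖ ≤ C := by
  classical
  induction s using Finset.induction_on with
  | empty => simpa using hC
  | insert a s ha ih =>
    rw [Finset.sum_insert ha]
    exact le_trans (IsUltrametricDist.norm_add_le_max _ _)
      (max_le (h a (Finset.mem_insert_self a s))
        (ih fun b hb => h b (Finset.mem_insert_of_mem hb)))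

theorem h7g_norm_root_of_unity {ζ : K} {n : ℕ} (hn : n ≠ 0) (h : ζ ^ n = 1) : ‖ζ‖ = 1 := by
  have h1 : ‖ζ‖ ^ n = 1 := by rw [← norm_pow, h, norm_one]
  exact (pow_eq_one_iff_of_nonneg (norm_nonneg ζ) hn).mp h1

theorem h7g_norm_pow_sub_one_le {ζ : K} (hζ : ‖ζ‖ ≤ 1) (m : ℕ) : ‖ζ ^ m - 1‖ ≤ ‖ζ - 1‖ := by
  induction m with
  | zero => simp
  | succ m ih =>
    have h1 : ζ ^ (m + 1) - 1 = ζ * (ζ ^ m - 1) + (ζ - 1) := by ring
    rw [h1]
    refine (IsUltrametricDist.norm_add_le_max _ _).trans (max_le ?_ le_rfl)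
    rw [norm_mul]
    calc ‖ζ‖ * ‖ζ ^ m - 1‖ ≤ 1 * ‖ζ - 1‖ := mul_le_mul hζ ih (norm_nonneg _) zero_le_one
      _ = ‖ζ - 1‖ := one_mul _

theorem h7g_norm_pow_sub_lin_le {ζ : K} (hζ : ‖ζ‖ ≤ 1) (m : ℕ) :
    ‖ζ ^ m - 1 - (m : K) * (ζ - 1)‖ ≤ ‖ζ - 1‖ ^ 2 := by
  induction m with
  | zero => simp
  | succ m ih =>
    have h1 : ζ ^ (m + 1) - 1 - ((m + 1 : ℕ) : K) * (ζ - 1) =
        (ζ ^ m - 1) * (ζ - 1) + (ζ ^ m - 1 - (m : K) * (ζ - 1)) := by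
      push_cast
      ring
    rw [h1]
    refine (IsUltrametricDist.norm_add_le_max _ _).trans (max_le ?_ ih)
    rw [norm_mul, pow_two]
    exact mul_le_mul_of_nonneg_right (h7g_norm_pow_sub_one_le hζ m) (norm_nonneg _)

theorem h7g_norm_zeta_sub_one {p : ℕ} [Fact p.Prime] {ζ : K} (hζ : IsPrimitiveRoot ζ p) :
    ‖ζ - 1‖ ^ (p - 1) = ‖(p : K)‖ := by
  classical
  have hp : p.Prime := Fact.out
  haveI : NeZero p := ⟨hp.ne_zero⟩
  have h1 : ((p : ℕ) : K) = ∏ μ ∈ primitiveRoots p K, (1 - μ) := by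
    have h2 := Polynomial.cyclotomic_eq_prod_X_sub_primitiveRoots (K := K) hζ
    have h3 := congrArg (Polynomial.eval 1) h2
    rw [Polynomial.eval_one_cyclotomic_prime, Polynomial.eval_prod] at h3
    simpa using h3
  have h4 : ∀ μ ∈ primitiveRoots p K, ‖1 - μ‖ = ‖ζ - 1‖ := by
    intro μ hμ
    have hμ' : IsPrimitiveRoot μ p := (mem_primitiveRoots hp.pos).mp hμ
    obtain ⟨a, -, ha⟩ := hζ.eq_pow_of_pow_eq_one hμ'.pow_eq_one
    obtain ⟨b, -, hb⟩ := hμ'.eq_pow_of_pow_eq_one hζ.pow_eq_one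
    have hnζ : ‖ζ‖ ≤ 1 := (h7g_norm_root_of_unity hp.ne_zero hζ.pow_eq_one).le
    have hnμ : ‖μ‖ ≤ 1 := (h7g_norm_root_of_unity hp.ne_zero hμ'.pow_eq_one).le
    rw [← norm_neg, neg_sub]
    apply le_antisymm
    · have := h7g_norm_pow_sub_one_le hnζ a
      rwa [ha] at this
    · have := h7g_norm_pow_sub_one_le hnμ b
      rwa [hb] at this
  rw [h1, norm_prod, Finset.prod_congr rfl h4, Finset.prod_const, hζ.card_primitiveRoots,
    Nat.totient_prime hp]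

end NormPart

section TeichPart

variable {K : Type*} [NormedField K] [IsUltrametricDist K]
variable {k : Type} [Field k] [Fintype k] [DecidableEq k]

/-- the lift `τ̃ : k → K`, `0 ↦ 0`. -/
def h7g_lift (τ : kˣ →* Kˣ) (x : k) : K :=
  if h : x = 0 then 0 else ((τ (Units.mk0 x h) : Kˣ) : K)

variable (τ : kˣ →* Kˣ)

theorem h7g_lift_zero : h7g_lift τ (0 : k) = 0 := by
  simp [h7g_lift]

theorem h7g_lift_of_ne {x : k} (h : x ≠ 0) :
    h7g_lift τ x = ((τ (Units.mk0 x h) : Kˣ) : K) := by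
  simp [h7g_lift, h]

theorem h7g_lift_unit (a : kˣ) : h7g_lift τ (a : k) = ((τ a : Kˣ) : K) := by
  rw [h7g_lift_of_ne τ a.ne_zero, Units.mk0_val]

theorem h7g_lift_one : h7g_lift τ (1 : k) = 1 := by
  have := h7g_lift_unit τ (1 : kˣ)
  simpa using this

theorem h7g_lift_mul (x y : k) : h7g_lift τ (x * y) = h7g_lift τ x * h7g_lift τ y := by
  by_cases hx : x = 0
  · simp [hx, h7g_lift_zero]
  by_cases hy : y = 0
  · simp [hy, h7g_lift_zero]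
  rw [h7g_lift_of_ne τ hx, h7g_lift_of_ne τ hy, h7g_lift_of_ne τ (mul_ne_zero hx hy),
    Units.mk0_mul, map_mul, Units.val_mul]

theorem h7g_lift_pow (x : k) (m : ℕ) : h7g_lift τ (x ^ m) = h7g_lift τ x ^ m := by
  induction m with
  | zero => simp [h7g_lift_one]
  | succ m ih => rw [pow_succ, pow_succ, h7g_lift_mul, ih]

theorem h7g_norm_tau (a : kˣ) : ‖((τ a : Kˣ) : K)‖ = 1 := by
  have h1 : ((τ a : Kˣ) : K) ^ Fintype.card kˣ = 1 := by
    rw [← Units.val_pow_eq_pow_val, ← map_pow, pow_card_eq_one, map_one, Units.val_one]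
  exact h7g_norm_root_of_unity Fintype.card_ne_zero h1

theorem h7g_lift_norm {x : k} (h : x ≠ 0) : ‖h7g_lift τ x‖ = 1 := by
  rw [h7g_lift_of_ne τ h]
  exact h7g_norm_tau τ _

theorem h7g_lift_norm_le (x : k) : ‖h7g_lift τ x‖ ≤ 1 := by
  by_cases h : x = 0
  · simp [h, h7g_lift_zero]
  · exact (h7g_lift_norm τ h).le

variable (h1 : ∀ a b c : kˣ, (a : k) + b = c → ‖((τ a : Kˣ) : K) + τ b - τ c‖ < 1)
  (h2 : ∀ a b : kˣ, (a : k) + b = 0 → ‖((τ a : Kˣ) : K) + τ b‖ < 1)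

include h1 h2

theorem h7g_lift_add (x y : k) : ‖h7g_lift τ (x + y) - (h7g_lift τ x + h7g_lift τ y)‖ < 1 := by
  by_cases hx : x = 0
  · simp [hx, h7g_lift_zero]
  by_cases hy : y = 0
  · simp [hy, h7g_lift_zero]
  by_cases hxy : x + y = 0
  · rw [hxy, h7g_lift_zero, zero_sub, norm_neg, h7g_lift_of_ne τ hx, h7g_lift_of_ne τ hy]
    exact h2 _ _ hxy
  · rw [h7g_lift_of_ne τ hx, h7g_lift_of_ne τ hy, h7g_lift_of_ne τ hxy, ← norm_neg, neg_sub]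
    exact h1 _ _ _ rfl

theorem h7g_lift_sum {ι : Type*} (s : Finset ι) (f : ι → k) :
    ‖h7g_lift τ (∑ a ∈ s, f a) - ∑ a ∈ s, h7g_lift τ (f a)‖ < 1 := by
  classical
  induction s using Finset.induction_on with
  | empty => simp [h7g_lift_zero]
  | insert a s ha ih =>
    rw [Finset.sum_insert ha, Finset.sum_insert ha]
    have e : h7g_lift τ (f a + ∑ x ∈ s, f x) - (h7g_lift τ (f a) + ∑ x ∈ s, h7g_lift τ (f x)) =
        (h7g_lift τ (f a + ∑ x ∈ s, f x) - (h7g_lift τ (f a) + h7g_lift τ (∑ x ∈ s, f x))) +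
        (h7g_lift τ (∑ x ∈ s, f x) - ∑ x ∈ s, h7g_lift τ (f x)) := by ring
    rw [e]
    exact lt_of_le_of_lt (IsUltrametricDist.norm_add_le_max _ _)
      (max_lt (h7g_lift_add τ h1 h2 _ _) ih)

theorem h7g_lift_natCast (m : ℕ) : ‖h7g_lift τ ((m : ℕ) : k) - (m : K)‖ < 1 := by
  induction m with
  | zero => simp [h7g_lift_zero]
  | succ m ih =>
    have e : h7g_lift τ (((m + 1 : ℕ)) : k) - ((m + 1 : ℕ) : K) =
        (h7g_lift τ ((m : k) + 1) - (h7g_lift τ (m : k) + h7g_lift τ 1)) +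
        (h7g_lift τ (m : k) - (m : K)) := by
      rw [h7g_lift_one]
      push_cast
      ring
    rw [e]
    exact lt_of_le_of_lt (IsUltrametricDist.norm_add_le_max _ _)
      (max_lt (h7g_lift_add τ h1 h2 _ _) ih)

/-- `τ` is injective. -/
theorem h7g_tau_ne_one {b : kˣ} (hb : b ≠ 1) : τ b ≠ 1 := by
  intro h
  have hb1 : (b : k) - 1 ≠ 0 := by
    intro h0
    apply hb
    ext
    rw [Units.val_one]
    exact sub_eq_zero.mp h0
  have h3 := h7g_lift_add τ h1 h2 ((b : k) - 1) 1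
  rw [sub_add_cancel, h7g_lift_unit, h, Units.val_one, h7g_lift_one] at h3
  have h4 : ‖h7g_lift τ ((b : k) - 1)‖ < 1 := by
    have e : h7g_lift τ ((b : k) - 1) = -((1 : K) - (h7g_lift τ ((b : k) - 1) + 1)) := by ring
    rw [e, norm_neg]
    exact h3
  rw [h7g_lift_norm τ hb1] at h4
  exact lt_irrefl _ h4

end TeichPart

section Main

theorem h7g_norm_p (p : ℕ) [Fact p.Prime] : ‖((p : ℕ) : Om p)‖ = (p : ℝ)⁻¹ := by
  have h1 : ((p : ℕ) : PadicAlgCl p) = algebraMap ℚ_[p] (PadicAlgCl p) (p : ℚ_[p]) := by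
    rw [map_natCast]
  rw [h1, PadicAlgCl.norm_extends, Padic.norm_p]

/-- **FL-C1.** -/
theorem h7g_gaussNorm : GaussNorm := by
  intro p _ hp2 k _ _ _ _ τ hτ ξ₀ hξ0 hξadd hξne i
  classical
  have hp : p.Prime := Fact.out
  haveI : NeZero p := ⟨hp.ne_zero⟩
  obtain ⟨h1, h2⟩ := hτ
  -- the primitive root
  obtain ⟨a₀, ha₀⟩ := hξne
  have hξnsmul : ∀ (m : ℕ) (a : k), ξ₀ (m • a) = ξ₀ a ^ m := by
    intro m a
    induction m with
    | zero => simp [hξ0]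
    | succ m ih => rw [succ_nsmul, hξadd, ih, pow_succ]
  have hξp : ∀ a : k, ξ₀ a ^ p = 1 := by
    intro a
    rw [← hξnsmul, nsmul_eq_mul, CharP.cast_eq_zero k p, zero_mul, hξ0]
  have hζ : IsPrimitiveRoot (ξ₀ a₀) p :=
    isPrimitiveRoot_of_mem_nthRootsFinset hp
      ((Polynomial.mem_nthRootsFinset hp.pos 1).mpr (hξp a₀)) ha₀
  have hnζ : ‖ξ₀ a₀‖ ≤ 1 := (h7g_norm_root_of_unity hp.ne_zero hζ.pow_eq_one).le
  -- exponents
  have hex : ∀ a : k, ∃ m : ℕ, m < p ∧ ξ₀ a₀ ^ m = ξ₀ a :=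
    fun a => hζ.eq_pow_of_pow_eq_one (hξp a)
  choose ñ hñlt hñ using hex
  have hadd : ∀ a b : k, ((ñ (a + b) : ℕ) : ZMod p) = (ñ a : ZMod p) + (ñ b : ZMod p) := by
    intro a b
    have e : ξ₀ a₀ ^ ñ (a + b) = ξ₀ a₀ ^ (ñ a + ñ b) := by
      rw [hñ, pow_add, hñ, hñ, hξadd]
    have hz0 : ξ₀ a₀ ≠ 0 := hζ.ne_zero hp.ne_zero
    have e3 : ξ₀ a₀ ^ (((ñ (a + b) : ℕ) : ℤ) - ((ñ a + ñ b : ℕ) : ℤ)) = 1 := by
      rw [zpow_sub₀ hz0, zpow_natCast, zpow_natCast, e, div_self (pow_ne_zero _ hz0)]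
    have e4 : ((p : ℕ) : ℤ) ∣ ((ñ (a + b) : ℕ) : ℤ) - ((ñ a + ñ b : ℕ) : ℤ) :=
      (hζ.zpow_eq_one_iff_dvd _).mp e3
    have e5 := (ZMod.intCast_zmod_eq_zero_iff_dvd _ p).mpr e4
    push_cast at e5
    exact sub_eq_zero.mp e5
  have hne : ∃ a : k, ((ñ a : ℕ) : ZMod p) ≠ 0 := by
    refine ⟨a₀, ?_⟩
    intro h0
    have h3 : p ∣ ñ a₀ := (ZMod.natCast_eq_zero_iff _ _).mp h0
    have h4 : ñ a₀ = 0 := Nat.eq_zero_of_dvd_of_lt h3 (hñlt a₀)
    apply ha₀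
    rw [← hñ a₀, h4, pow_zero]
  have hT := h7g_ff_sum p k hp2 ñ hadd hne i
  -- the coefficients
  have hc_lift : ∀ a : kˣ, (((τ a)⁻¹ : (Om p)ˣ) : Om p) ^ (p ^ i) =
      h7g_lift τ (((a⁻¹ : kˣ) : k) ^ p ^ i) := by
    intro a
    rw [h7g_lift_pow, h7g_lift_unit, map_inv]
  have hc_norm : ∀ a : kˣ, ‖(((τ a)⁻¹ : (Om p)ˣ) : Om p) ^ (p ^ i)‖ = 1 := by
    intro a
    rw [hc_lift]
    exact h7g_lift_norm τ (pow_ne_zero _ (Units.ne_zero _))
  -- the unit `S`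
  have hS1 : ‖(∑ a : kˣ, (((τ a)⁻¹ : (Om p)ˣ) : Om p) ^ (p ^ i) * ((ñ (a : k) : ℕ) : Om p)) -
      h7g_lift τ (∑ a : kˣ, ((a⁻¹ : kˣ) : k) ^ p ^ i * ((ñ (a : k) : ℕ) : k))‖ < 1 := by
    have e : (∑ a : kˣ, (((τ a)⁻¹ : (Om p)ˣ) : Om p) ^ (p ^ i) * ((ñ (a : k) : ℕ) : Om p)) -
        h7g_lift τ (∑ a : kˣ, ((a⁻¹ : kˣ) : k) ^ p ^ i * ((ñ (a : k) : ℕ) : k)) =
        (∑ a : kˣ, ((((τ a)⁻¹ : (Om p)ˣ) : Om p) ^ (p ^ i) * ((ñ (a : k) : ℕ) : Om p) -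
          h7g_lift τ (((a⁻¹ : kˣ) : k) ^ p ^ i * ((ñ (a : k) : ℕ) : k)))) +
        -(h7g_lift τ (∑ a : kˣ, ((a⁻¹ : kˣ) : k) ^ p ^ i * ((ñ (a : k) : ℕ) : k)) -
          ∑ a : kˣ, h7g_lift τ (((a⁻¹ : kˣ) : k) ^ p ^ i * ((ñ (a : k) : ℕ) : k))) := by
      rw [Finset.sum_sub_distrib]
      ring
    rw [e]
    refine lt_of_le_of_lt (IsUltrametricDist.norm_add_le_max _ _) (max_lt ?_ ?_)
    · refine h7g_norm_sum_lt _ _ zero_lt_one fun a _ => ?_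
      rw [h7g_lift_mul, ← hc_lift, ← mul_sub, norm_mul, hc_norm, one_mul, norm_sub_rev]
      exact h7g_lift_natCast τ h1 h2 _
    · rw [norm_neg]
      exact h7g_lift_sum τ h1 h2 _ _
  have hSnorm : ‖∑ a : kˣ, (((τ a)⁻¹ : (Om p)ˣ) : Om p) ^ (p ^ i) * ((ñ (a : k) : ℕ) : Om p)‖
      = 1 := by
    have hL := h7g_lift_norm τ hT
    have e : (∑ a : kˣ, (((τ a)⁻¹ : (Om p)ˣ) : Om p) ^ (p ^ i) * ((ñ (a : k) : ℕ) : Om p)) =
        h7g_lift τ (∑ a : kˣ, ((a⁻¹ : kˣ) : k) ^ p ^ i * ((ñ (a : k) : ℕ) : k)) +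
        ((∑ a : kˣ, (((τ a)⁻¹ : (Om p)ˣ) : Om p) ^ (p ^ i) * ((ñ (a : k) : ℕ) : Om p)) -
          h7g_lift τ (∑ a : kˣ, ((a⁻¹ : kˣ) : k) ^ p ^ i * ((ñ (a : k) : ℕ) : k))) := by
      ring
    rw [e, IsUltrametricDist.norm_add_eq_max_of_norm_ne_norm (by rw [hL]; exact (ne_of_lt hS1).symm),
      hL, max_eq_left hS1.le]
  -- the sum of the character vanishes
  have hcsum : ∑ a : kˣ, (((τ a)⁻¹ : (Om p)ˣ) : Om p) ^ (p ^ i) = 0 := by
    let f : kˣ →* Om p :=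
      { toFun := fun a => (((τ a)⁻¹ : (Om p)ˣ) : Om p) ^ (p ^ i)
        map_one' := by simp
        map_mul' := by
          intro a b
          simp only [map_mul, mul_inv, Units.val_mul, mul_pow] }
    have hf : f ≠ 1 := by
      intro h
      have h3 : f (-1) = 1 := by rw [h]; rfl
      have hodd : Odd (p ^ i) := (hp.odd_of_ne_two hp2).pow
      have hm1 : (-1 : kˣ) ≠ 1 := by
        intro h4
        have h5 : ((-1 : kˣ) : k) = ((1 : kˣ) : k) := by rw [h4]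
        rw [Units.val_neg, Units.val_one] at h5
        have h6 : ((2 : ℕ) : k) = 0 := by
          have : (2 : k) = 1 - (-1) := by ring
          push_cast
          rw [this, h5, sub_self]
        have h7 : p ∣ 2 := (CharP.cast_eq_zero_iff k p 2).mp h6
        exact hp2 ((Nat.prime_dvd_prime_iff_eq hp Nat.prime_two).mp h7)
      have h8 : f (-1) = ((τ (-1) : (Om p)ˣ) : Om p) := by
        show (((τ (-1))⁻¹ : (Om p)ˣ) : Om p) ^ (p ^ i) = _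
        rw [← map_inv, inv_neg_one, ← Units.val_pow_eq_pow_val, ← map_pow, hodd.neg_one_pow]
      rw [h8] at h3
      exact h7g_tau_ne_one τ h1 h2 hm1 (Units.ext h3)
    exact sum_hom_units_eq_zero f hf
  -- the decomposition of the Gauss sum
  have hG : ∑ a : kˣ, (((τ a)⁻¹ : (Om p)ˣ) : Om p) ^ (p ^ i) * ξ₀ (a : k) =
      (ξ₀ a₀ - 1) *
        (∑ a : kˣ, (((τ a)⁻¹ : (Om p)ˣ) : Om p) ^ (p ^ i) * ((ñ (a : k) : ℕ) : Om p)) +
      ∑ a : kˣ, (((τ a)⁻¹ : (Om p)ˣ) : Om p) ^ (p ^ i) *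
        (ξ₀ a₀ ^ ñ (a : k) - 1 - ((ñ (a : k) : ℕ) : Om p) * (ξ₀ a₀ - 1)) := by
    rw [Finset.mul_sum, ← Finset.sum_add_distrib]
    have e : ∀ a : kˣ, (ξ₀ a₀ - 1) *
          ((((τ a)⁻¹ : (Om p)ˣ) : Om p) ^ (p ^ i) * ((ñ (a : k) : ℕ) : Om p)) +
        (((τ a)⁻¹ : (Om p)ˣ) : Om p) ^ (p ^ i) *
          (ξ₀ a₀ ^ ñ (a : k) - 1 - ((ñ (a : k) : ℕ) : Om p) * (ξ₀ a₀ - 1)) =
        (((τ a)⁻¹ : (Om p)ˣ) : Om p) ^ (p ^ i) * ξ₀ (a : k) -
          (((τ a)⁻¹ : (Om p)ˣ) : Om p) ^ (p ^ i) := by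
      intro a
      rw [hñ]
      ring
    simp_rw [e]
    rw [Finset.sum_sub_distrib, hcsum, sub_zero]
  have hR : ‖∑ a : kˣ, (((τ a)⁻¹ : (Om p)ˣ) : Om p) ^ (p ^ i) *
        (ξ₀ a₀ ^ ñ (a : k) - 1 - ((ñ (a : k) : ℕ) : Om p) * (ξ₀ a₀ - 1))‖ ≤ ‖ξ₀ a₀ - 1‖ ^ 2 := by
    refine h7g_norm_sum_le _ _ (sq_nonneg _) fun a _ => ?_
    rw [norm_mul, hc_norm, one_mul]
    exact h7g_norm_pow_sub_lin_le hnζ _
  have hz : ‖ξ₀ a₀ - 1‖ ^ (p - 1) = ‖((p : ℕ) : Om p)‖ := h7g_norm_zeta_sub_one hζ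
  have hzpos : 0 < ‖ξ₀ a₀ - 1‖ := norm_pos_iff.mpr (sub_ne_zero.mpr ha₀)
  have hzlt : ‖ξ₀ a₀ - 1‖ < 1 := by
    by_contra hge
    rw [not_lt] at hge
    have h3 : 1 ≤ ‖ξ₀ a₀ - 1‖ ^ (p - 1) := one_le_pow₀ hge
    rw [hz, h7g_norm_p] at h3
    have h4 : ((p : ℝ))⁻¹ < 1 := inv_lt_one_of_one_lt₀ (by exact_mod_cast hp.one_lt)
    linarith
  have hA : ‖(ξ₀ a₀ - 1) *
      (∑ a : kˣ, (((τ a)⁻¹ : (Om p)ˣ) : Om p) ^ (p ^ i) * ((ñ (a : k) : ℕ) : Om p))‖ =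
      ‖ξ₀ a₀ - 1‖ := by
    rw [norm_mul, hSnorm, mul_one]
  have hB : ‖∑ a : kˣ, (((τ a)⁻¹ : (Om p)ˣ) : Om p) ^ (p ^ i) *
        (ξ₀ a₀ ^ ñ (a : k) - 1 - ((ñ (a : k) : ℕ) : Om p) * (ξ₀ a₀ - 1))‖ < ‖ξ₀ a₀ - 1‖ := by
    refine lt_of_le_of_lt hR ?_
    nlinarith
  rw [hG, IsUltrametricDist.norm_add_eq_max_of_norm_ne_norm (by rw [hA]; exact (ne_of_lt hB).symm),
    hA, max_eq_left hB.le]
  exact hz

end Main

end Fermat.Agent.S56F
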