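import Fermat.Agent.S56F.FLB123_helper38
import Fermat.Agent.S56F.FLA3_helper15

/-!
# S56 / LOC-p-FL, row FL-B8 (QuotOrder), part SEPARATION (helper38, prefix `h38q_`)

For a function Hopf order `𝓗` of `M` and a surjective equivariant `π : M → Q`, the functions
`g` on `Q` with `g ∘ π ∈ 𝓗` separate the points of `Q`.

Proof.  For `f ∈ 𝓗` the fibre sum `T f (r) = ∑_{π y = r} f y` satisfies
`(T f) ∘ π = ∑ i, β i • a i`, where `f (x + y) = ∑ i, a i x * b i y` is a Sweedler form and
`β i = ∑_{π m = 0} b i m` is an integer fixed by `Γ` (`ker π` is `Γ`-stable); so `(T f) ∘ π ∈ 𝓗`.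
If `q ≠ q'` were not separated, the functional `h ↦ ∑ y, c y * h y`,
`c y = [π y = q] - [π y = q']`, would vanish on `𝓗`, hence on its `Om`-span, which is everything
(`h15f_span_top`); but `c y₀ = 1` for `π y₀ = q`.
-/

set_option autoImplicit false

open Fermat.Agent.PT.Loc

noncomputable section

namespace Fermat.Agent.S56F

variable {p : ℕ} [Fact p.Prime] {Γ : Subgroup (Gq p)} {M : Type} [AddCommGroup M]
  {act : Gq p → M → M}

/-- `act σ 0 = 0`. -/
theorem h38q_act_zero (hact : IsAct act) (σ : Gq p) : act σ 0 = 0 := by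
  have h := hact.add σ 0 0
  rw [add_zero] at h
  exact left_eq_add.mp h

/-- `act σ⁻¹` is a left inverse of `act σ`. -/
theorem h38q_act_inv_act (hact : IsAct act) (σ : Gq p) (x : M) : act σ⁻¹ (act σ x) = x := by
  rw [← hact.mul, inv_mul_cancel, hact.one]

/-- `act σ` is a right inverse of `act σ⁻¹`. -/
theorem h38q_act_act_inv (hact : IsAct act) (σ : Gq p) (x : M) : act σ (act σ⁻¹ x) = x := by
  rw [← hact.mul, mul_inv_cancel, hact.one]

/-- The kernel of an equivariant map is stable. -/
theorem h38q_ker_stable (hact : IsAct act) {Q : Type} [AddCommGroup Q] (actQ : Gq p → Q → Q)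
    (π : M →+ Q) (hπe : ∀ σ ∈ Γ, ∀ x, π (act σ x) = actQ σ (π x)) (σ : Gq p) (hσ : σ ∈ Γ)
    (m : M) : π (act σ m) = 0 ↔ π m = 0 := by
  have h0 : ∀ τ ∈ Γ, actQ τ 0 = 0 := by
    intro τ hτ
    have := hπe τ hτ 0
    rw [h38q_act_zero hact, map_zero] at this
    exact this.symm
  constructor
  · intro h
    have h1 := hπe σ⁻¹ (Γ.inv_mem hσ) (act σ m)
    rw [h38q_act_inv_act hact, h, h0 _ (Γ.inv_mem hσ)] at h1
    exact h1
  · intro h
    rw [hπe σ hσ, h, h0 σ hσ]

/-- The fibre sum of a function of the order is in the order. -/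
theorem h38q_trace_mem [Fintype M] (hact : IsAct act) (𝓗 : FHO p Γ M act)
    {Q : Type} [AddCommGroup Q] [DecidableEq Q] (actQ : Gq p → Q → Q)
    (π : M →+ Q) (hπe : ∀ σ ∈ Γ, ∀ x, π (act σ x) = actQ σ (π x))
    (f : M → Om p) (hf : f ∈ 𝓗.carrier) :
    (fun x : M => ∑ y : M, if π y = π x then f y else 0) ∈ 𝓗.carrier := by
  obtain ⟨n, a, b, ha, hb, hab⟩ := 𝓗.comul f hf
  -- the coefficients
  set β : Fin n → Om p := fun i => ∑ m : M, if π m = 0 then b i m else 0 with hβ
  have hβmem : ∀ i, β i ∈ fixInt p Γ := by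
    intro i
    refine ⟨?_, fun σ hσ => ?_⟩
    · refine IsUltrametricDist.norm_sum_le_of_forall_le_of_nonneg zero_le_one fun m _ => ?_
      split_ifs
      · exact h38f_valuesIntegral p Γ M act 𝓗 (b i) (hb i) m
      · rw [norm_zero]; exact zero_le_one
    · simp only [hβ, map_sum]
      have h1 : ∀ m : M, σ (if π m = 0 then b i m else 0) =
          if π (act σ m) = 0 then b i (act σ m) else 0 := by
        intro m
        rw [apply_ite σ, map_zero, ← 𝓗.equivariant (b i) (hb i) σ hσ m]
        simp only [h38q_ker_stable hact actQ π hπe σ hσ m]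
      rw [Finset.sum_congr rfl fun m _ => h1 m]
      let e : M ≃ M := ⟨act σ, act σ⁻¹, h38q_act_inv_act hact σ, h38q_act_act_inv hact σ⟩
      exact Equiv.sum_comp e (fun m => if π m = 0 then b i m else 0)
  -- the identity
  have hid : (fun x : M => ∑ y : M, if π y = π x then f y else 0) =
      ∑ i, (⟨β i, hβmem i⟩ : fixInt p Γ) • a i := by
    funext x
    have h2 : ∀ i, ((⟨β i, hβmem i⟩ : fixInt p Γ) • a i) x = β i * a i x := fun i => rfl
    have h6 : ∀ i, β i * a i x = ∑ m : M, (if π m = 0 then b i m else 0) * a i x := fun i => by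
      simp only [hβ, Finset.sum_mul]
    rw [Finset.sum_apply, Finset.sum_congr rfl (fun i _ => h2 i),
      Finset.sum_congr rfl (fun i _ => h6 i), Finset.sum_comm]
    -- reindex `y = m + x`
    let e : M ≃ M := Equiv.addRight x
    rw [← Equiv.sum_comp e (fun y => if π y = π x then f y else 0)]
    refine Finset.sum_congr rfl fun m _ => ?_
    have h3 : π (e m) = π x ↔ π m = 0 := by
      simp only [e, Equiv.coe_addRight, map_add]
      constructor
      · intro h
        exact add_eq_right.mp h
      · intro h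
        rw [h, zero_add]
    by_cases hm : π m = 0
    · have h4 : π (e m) = π x := h3.2 hm
      simp only [h4, hm, if_true]
      have h5 : f (e m) = ∑ i, a i x * b i m := by
        have := hab x m
        rw [add_comm] at this
        exact this
      rw [h5]
      exact Finset.sum_congr rfl fun i _ => mul_comm _ _
    · have h4 : ¬ π (e m) = π x := fun h => hm (h3.1 h)
      simp only [h4, hm, if_false, zero_mul, Finset.sum_const_zero]
  rw [hid]
  exact Subalgebra.sum_mem _ fun i _ => Subalgebra.smul_mem _ (ha i) _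

/-- **FL-B8, separation.**  The invariant functions of the order separate the points of the
quotient. -/
theorem h38q_quotSeparates (p : ℕ) [Fact p.Prime] (Γ : Subgroup (Gq p)) (M : Type)
    [AddCommGroup M] [Finite M] (act : Gq p → M → M) (hact : IsAct act) (𝓗 : FHO p Γ M act)
    (Q : Type) [AddCommGroup Q] (actQ : Gq p → Q → Q) (π : M →+ Q)
    (hπ : Function.Surjective π) (hπe : ∀ σ ∈ Γ, ∀ x, π (act σ x) = actQ σ (π x)) (q q' : Q)
    (h : ∀ g : Q → Om p, g ∘ π ∈ 𝓗.carrier → g q = g q') : q = q' := by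
  classical
  haveI := Fintype.ofFinite M
  by_contra hne
  -- the span of the order is everything
  have htop : Submodule.span (Om p) (𝓗.carrier : Set (M → Om p)) = ⊤ :=
    h15f_span_top (𝓗.carrier : Set (M → Om p)) (Subalgebra.one_mem _)
      (fun f hf g hg => Subalgebra.mul_mem _ hf hg) 𝓗.separates
  -- the functional
  let c : M → Om p := fun y => (if π y = q then 1 else 0) - (if π y = q' then 1 else 0)
  let Λ : (M → Om p) →ₗ[Om p] Om p :=
    { toFun := fun f => ∑ y : M, c y * f y
      map_add' := fun f g => by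
        simp only [Pi.add_apply, mul_add, Finset.sum_add_distrib]
      map_smul' := fun r f => by
        simp only [Pi.smul_apply, smul_eq_mul, RingHom.id_apply, Finset.mul_sum]
        exact Finset.sum_congr rfl fun y _ => by ring }
  have hΛ : ∀ f ∈ 𝓗.carrier, Λ f = 0 := by
    intro f hf
    have hT := h38q_trace_mem hact 𝓗 actQ π hπe f hf
    have hg := h (fun r : Q => ∑ y : M, if π y = r then f y else 0) hT
    show ∑ y : M, c y * f y = 0
    have h1 : ∀ y : M, c y * f y =
        (if π y = q then f y else 0) - (if π y = q' then f y else 0) := by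
      intro y
      simp only [c]
      split_ifs <;> ring
    rw [Finset.sum_congr rfl fun y _ => h1 y, Finset.sum_sub_distrib]
    exact sub_eq_zero.mpr hg
  have hΛ0 : ∀ f : M → Om p, Λ f = 0 := by
    intro f
    have hf : f ∈ Submodule.span (Om p) (𝓗.carrier : Set (M → Om p)) := by
      rw [htop]; exact Submodule.mem_top
    refine Submodule.span_induction (p := fun g _ => Λ g = 0) ?_ ?_ ?_ ?_ hf
    · intro g hg; exact hΛ g hg
    · exact map_zero Λ
    · intro g g' _ _ hg hg'
      rw [map_add, hg, hg', add_zero]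
    · intro r g _ hg
      rw [map_smul, hg, smul_zero]
  obtain ⟨y₀, hy₀⟩ := hπ q
  have h2 := hΛ0 (Pi.single y₀ (1 : Om p))
  have h3 : Λ (Pi.single y₀ (1 : Om p)) = c y₀ := by
    show ∑ y : M, c y * (Pi.single y₀ (1 : Om p) : M → Om p) y = c y₀
    rw [Finset.sum_eq_single y₀]
    · rw [Pi.single_eq_same, mul_one]
    · intro y _ hy
      rw [Pi.single_eq_of_ne hy, mul_zero]
    · intro hy
      exact absurd (Finset.mem_univ y₀) hy
  rw [h3] at h2
  have h4 : c y₀ = 1 := by
    simp only [c, hy₀, if_true]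
    rw [if_neg hne, sub_zero]
  rw [h4] at h2
  exact one_ne_zero h2

end Fermat.Agent.S56F
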