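import Fermat.Agent.S56F.FLB8_helper9
import Fermat.Agent.S56F.FLB8artin_helper15
import Fermat.Agent.S56F.FLB8sep_helper38
import Fermat.Agent.S56F.FLA3_helper15

/-!
# S56 / LOC-p-FL, row FL-B8 (helper9): `QuotOrder`, unconditional

`h9q_quotOrder : QuotOrder`, the exact frozen Prop of `IfaceHopf.lean`.  Wiring of
* `h9q_quotOrder_of` (`FLB8_helper9.lean`: principal ideal ring, bases, finite generation and
  Sweedler closure of the invariants),
* `h15q_artin` (helper15: Artin's independence),
* `h38q_quotSeparates` (helper38: separation by fibre sums),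
* `h15f_charCompleteAll` (helper15: FL-A3).
-/

set_option autoImplicit false

open Fermat.Agent.PT.Loc

noncomputable section

namespace Fermat.Agent.S56F

/-- **FL-B8** (quotient object). -/
theorem h9q_quotOrder : QuotOrder :=
  h9q_quotOrder_of
    (fun p _ Γ _ _ act hsurj E hE hli => h15q_artin p Γ act hsurj E hE hli)
    (fun p _ Γ M _ _ act hact 𝓗 Q _ actQ π hπ hπe q q' h =>
      h38q_quotSeparates p Γ M act hact 𝓗 Q actQ π hπ hπe q q' h)
    h15f_charCompleteAll

end Fermat.Agent.S56F
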