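import Fermat.Agent.S56F.IfaceTop

/-!
# S56 / LOC-p-FL: frozen leaf statements, block ORD (a `Gq p`-stable line exists)

Chain (all statements below are frozen; `ordBound_of` is the compiled assembly):

* `FlatCont`      : a locally flat cocycle is continuous;
* `LocFlatSub`    : if some locally flat cocycle exists, `V` itself is `LocFlat`;
* `OrdNFExists`   : normal form — a stable line `k v₀` on which inertia acts by the cyclotomic
                    character and trivially on the quotient (rank one + the `{v > 0}` argument);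
* `OrdLine`       : a locally flat cocycle is, up to a coboundary, upper triangular with
                    unramified diagonal (`{v > 0}` is a free `k[ε]`-line);
* `OrdPeu`, `OrdPeuRep` : its upper right corner (and that of `ρ`) is a UNIT Kummer class;
* `OrdCount`      : the space of such cocycles has dimension `≤ 4` (pure Galois cohomology).
-/

set_option autoImplicit false
set_option linter.style.haveILetI false

open Fermat.Agent.PT.Loc Polynomial

noncomputable section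

namespace Fermat.Agent.S56F

/-- `σ` acts on `μ_p` by `a`-th powers. -/
def cycExp (p : ℕ) [Fact p.Prime] (σ : Gq p) (a : ℕ) : Prop :=
  ∀ μ : Om p, μ ^ p = 1 → σ μ = μ ^ a

/-! ## More tame structure -/

/-- **FL-D4**: on inertia the cyclotomic character is the `n/(p-1)`-th power of the
fundamental character of level `n`. -/
def CycFund : Prop :=
  ∀ (p : ℕ) [Fact p.Prime], p ≠ 2 → ∀ n : ℕ, 0 < n → ¬ p ∣ n → (p - 1) ∣ n →
    ∀ π : Om p, π ^ n = p → ∀ σ ∈ inertia p, ∀ a : ℕ, cycExp p σ a →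
      ‖(σ π / π) ^ (n / (p - 1)) - (a : Om p)‖ < 1

/-- **FL-D5**: Frobenius elements exist. -/
def FrobExists : Prop :=
  ∀ (p : ℕ) [Fact p.Prime], ∃ φ : Gq p, ∀ (w : Om p) (m : ℕ), 0 < m → ¬ p ∣ m → w ^ m = 1 →
    φ w = w ^ p

/-- **FL-D6**: a continuous homomorphism `Gq p → A` which is trivial on inertia and on one
Frobenius element is trivial. -/
def FrobGen : Prop :=
  ∀ (p : ℕ) [Fact p.Prime] (A : Type) [AddCommGroup A] (h : Gq p → A),
    Cont1 (⊥ : LF p) h → (∀ σ τ, h (σ * τ) = h σ + h τ) → (∀ σ ∈ inertia p, h σ = 0) →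
    ∀ φ : Gq p, (∀ (w : Om p) (m : ℕ), 0 < m → ¬ p ∣ m → w ^ m = 1 → φ w = w ^ p) →
      h φ = 0 → ∀ σ, h σ = 0

section

variable (p : ℕ) [Fact p.Prime] {k : Type} [Field k] {V : Type} [AddCommGroup V] [Module k V]

/-- The coboundary of `X`. -/
def coB (ρ : Gq p →* Module.End k V) (X : Module.End k V) : Gq p → Module.End k V :=
  fun τ => X - ρ τ * X * ρ τ⁻¹

/-- The ordinary normal form of `ρ`. -/
structure OrdNF (ρ : Gq p →* Module.End k V) (v₀ : V) : Prop where
  ne : v₀ ≠ 0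
  stable : ∀ σ : Gq p, ∃ a : k, ρ σ v₀ = a • v₀
  inert_line : ∀ σ ∈ inertia p, ∀ a : ℕ, cycExp p σ a → ρ σ v₀ = (a : k) • v₀
  inert_quot : ∀ σ ∈ inertia p, ∀ v : V, ∃ b : k, ρ σ v - v = b • v₀

/-- Upper triangular with unramified diagonal. -/
structure OrdShape (v₀ : V) (f : Gq p → Module.End k V) : Prop where
  borel : ∀ σ : Gq p, ∃ a : k, f σ v₀ = a • v₀
  inert_zero : ∀ σ ∈ inertia p, f σ v₀ = 0
  inert_range : ∀ σ ∈ inertia p, ∀ v : V, ∃ b : k, f σ v = b • v₀

/-- The upper right corner of `f` on `G_{ℚ_p^ur(ζ_p)}` is a unit Kummer class. -/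
def PeuRam (v₀ : V) (f : Gq p → Module.End k V) : Prop :=
  ∀ ζ : Om p, ζ ^ p = 1 → ζ ≠ 1 → ∀ (v₁ : V) (l : k →+ ZMod p),
    ∃ β : Om p, ‖β‖ = 1 ∧ ∀ g ∈ inertia p, cycExp p g 1 → ∀ b : k, f g v₁ = b • v₀ →
      g β = ζ ^ (l b).val * β

/-- The extension class of `ρ` itself on `G_{ℚ_p^ur(ζ_p)}` is a unit Kummer class. -/
def PeuRamRep (ρ : Gq p →* Module.End k V) (v₀ : V) : Prop :=
  ∀ ζ : Om p, ζ ^ p = 1 → ζ ≠ 1 → ∀ (v₁ : V) (l : k →+ ZMod p),
    ∃ β : Om p, ‖β‖ = 1 ∧ ∀ g ∈ inertia p, cycExp p g 1 → ∀ b : k, ρ g v₁ - v₁ = b • v₀ →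
      g β = ζ ^ (l b).val * β

/-- The necessary condition for flatness in the ordinary case. -/
structure OrdCond (ρ : Gq p →* Module.End k V) (v₀ : V) (f : Gq p → Module.End k V) :
    Prop where
  cont : Cont1 (⊥ : LF p) f
  cocycle : ∀ σ τ : Gq p, f (σ * τ) = f σ + ρ σ * f τ * ρ σ⁻¹
  trace : ∀ σ : Gq p, LinearMap.trace k V (f σ) = 0
  shape : ∃ X : Module.End k V, LinearMap.trace k V X = 0 ∧
    OrdShape p v₀ (f - coB p ρ X) ∧ PeuRam p v₀ (f - coB p ρ X)

end

/-- **FL-O0**: locally flat cocycles are continuous.  (Order over `Γ = ⊤`: the finitely many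
values `f_j x` generate a finite extension `F`; `G_F` acts trivially by separation.) -/
def FlatCont : Prop :=
  ∀ (p : ℕ) [Fact p.Prime] (k : Type) [Field k] [Finite k] (V : Type)
    [AddCommGroup V] [Module k V] [Module.Finite k V] (ρ : Gq p →* Module.End k V)
    (c : Gq p → Module.End k V), IsLocFlatCocycle p ρ c → Cont1 (⊥ : LF p) c

/-- **FL-O1**: if a locally flat cocycle exists, `V` is `LocFlat`.
(SubOrder along `w ↦ (0, w)`, conjugation stability is inherited, then FL-A2 and FL-A3.) -/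
def LocFlatSub : Prop :=
  ∀ (p : ℕ) [Fact p.Prime] (k : Type) [Field k] [Finite k] (V : Type)
    [AddCommGroup V] [Module k V] [Module.Finite k V] (ρ : Gq p →* Module.End k V)
    (c : Gq p → Module.End k V), IsLocFlatCocycle p ρ c → LocFlat p V (fun σ v => ρ σ v)

/-- **FL-O2** (ordinary normal form).  Sub-steps: (i) rank one on the stable line + Frobenius
invariance (`Ψ (φ σ φ⁻¹) = φ (Ψ σ)`) + `CycFund`: inertia acts on the line by `1` or by `ω`;
(ii) by the determinant, on the quotient by `ω` resp. `1`; (iii) if the line is étale, the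
points `≡ 0 mod 𝔪` of a nice order over inertia form a complementary stable line (FL-B3/B4/B5,
rank one with `m = 0` gives unit values on the étale line). -/
def OrdNFExists : Prop :=
  ∀ (p : ℕ) [Fact p.Prime] (k : Type) [Field k] [Finite k] [CharP k p] (V : Type)
    [AddCommGroup V] [Module k V] [Module.Finite k V] (ρ : Gq p →* Module.End k V),
    LocHyp p ρ → (∃ v : V, v ≠ 0 ∧ ∀ σ : Gq p, ∃ a : k, ρ σ v = a • v) →
    LocFlat p V (fun σ v => ρ σ v) → ∃ v₀ : V, OrdNF p ρ v₀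

/-- **FL-O3** (the ordinary line of a flat deformation).  `M⁰ = {v > 0}` of a nice order over
inertia on `V × V` is a `Gq p`-stable free `k[ε]`-line `k[ε] (v₀, X v₀)`, inertia is trivial on
the quotient; unwinding gives the shape of `c - ∂X`. -/
def OrdLine : Prop :=
  ∀ (p : ℕ) [Fact p.Prime] (k : Type) [Field k] [Finite k] [CharP k p] (V : Type)
    [AddCommGroup V] [Module k V] [Module.Finite k V] (ρ : Gq p →* Module.End k V),
    LocHyp p ρ → ∀ v₀ : V, OrdNF p ρ v₀ → ∀ c : Gq p → Module.End k V,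
    IsLocFlatCocycle p ρ c →
      ∃ X : Module.End k V, LinearMap.trace k V X = 0 ∧ OrdShape p v₀ (c - coB p ρ X)

/-- **FL-O4** (peu ramifié, deformation): for every `X` as in FL-O3 the upper right corner of
`c - ∂X` is a unit Kummer class. -/
def OrdPeu : Prop :=
  ∀ (p : ℕ) [Fact p.Prime] (k : Type) [Field k] [Finite k] [CharP k p] (V : Type)
    [AddCommGroup V] [Module k V] [Module.Finite k V] (ρ : Gq p →* Module.End k V),
    LocHyp p ρ → ∀ v₀ : V, OrdNF p ρ v₀ → ∀ c : Gq p → Module.End k V,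
    IsLocFlatCocycle p ρ c → ∀ X : Module.End k V, LinearMap.trace k V X = 0 →
      OrdShape p v₀ (c - coB p ρ X) → PeuRam p v₀ (c - coB p ρ X)

/-- **FL-O5** (peu ramifié, `ρ` itself). -/
def OrdPeuRep : Prop :=
  ∀ (p : ℕ) [Fact p.Prime] (k : Type) [Field k] [Finite k] [CharP k p] (V : Type)
    [AddCommGroup V] [Module k V] [Module.Finite k V] (ρ : Gq p →* Module.End k V),
    LocHyp p ρ → ∀ v₀ : V, OrdNF p ρ v₀ → LocFlat p V (fun σ v => ρ σ v) → PeuRamRep p ρ v₀

/-- **FL-O7**: a `LocFlat` representation is continuous. -/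
def RepCont : Prop :=
  ∀ (p : ℕ) [Fact p.Prime] (k : Type) [Field k] [Finite k] (V : Type)
    [AddCommGroup V] [Module k V] [Module.Finite k V] (ρ : Gq p →* Module.End k V),
    LocFlat p V (fun σ v => ρ σ v) → Cont1 (⊥ : LF p) (fun σ => ρ σ)

/-- **FL-O6** (the count; pure Galois cohomology of `Gq p`, `ρ` continuous).
Proof: `S = Z¹_B + B¹` with `Z¹_B` the cocycles of the shape with `X = 0`;
`dim Z¹_B ≤ 1 + dim Z¹_PR(ψ) ≤ 3` (diagonal part: an unramified continuous homomorphism, FL-D6;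
corner: a `ψ`-cocycle, `ψ = χ₁/χ₂`, with unit Kummer classes: `OrdKC`), `dim B¹ = 3 - h⁰`,
`dim (Z¹_B ∩ B¹) ≥ dim ∂(Borel) ≥ 2 - h⁰` (here `PeuRamRep` is used). -/
def OrdCount : Prop :=
  ∀ (p : ℕ) [Fact p.Prime] (k : Type) [Field k] [Finite k] [CharP k p] (V : Type)
    [AddCommGroup V] [Module k V] [Module.Finite k V] (ρ : Gq p →* Module.End k V),
    LocHyp p ρ → Cont1 (⊥ : LF p) (fun σ => ρ σ) →
    ∀ v₀ : V, OrdNF p ρ v₀ → PeuRamRep p ρ v₀ →
    ∃ W : Submodule k (Gq p → Module.End k V),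
      Module.Finite k W ∧ Module.finrank k W ≤ 4 ∧
      (∀ X : Module.End k V, LinearMap.trace k V X = 0 → coB p ρ X ∈ W) ∧
      ∀ f : Gq p → Module.End k V, OrdCond p ρ v₀ f → f ∈ W

/-- **FL-O8** (`OrdKC`, the Kummer count): for a continuous character `ψ : Gq p → kˣ` which
is the cyclotomic character on inertia, the continuous `ψ`-cocycles `μ` whose restriction to
`G_{ℚ_p^ur(ζ_p)}` consists of UNIT Kummer classes span a space of dimension `≤ 2`.
Proof: (1) if `μ = 0` on `I₁ = {g ∈ inertia, cycExp g 1}` then `μ` is a coboundary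
(`I/I₁` has order `p-1`, then `(ψ σ - 1) μ τ = 0`); (2) for `l : k →+ 𝔽_p` the unit Kummer
generator can be taken with `β ^ p ∈ ℚ_p^ur` (norm from `ℚ_p^ur(ζ_p)`); units of `ℚ_p^ur` modulo
`p`-th powers are `≅ κ` by `u = [c] (1 + p a) ↦ a mod p`; (3) Frobenius semilinearity
`a(φ u) = a(u) ^ p` and `μ (φ g φ⁻¹) = ψ φ • μ g` leave a `k`-line. -/
def OrdKC : Prop :=
  ∀ (p : ℕ) [Fact p.Prime], p ≠ 2 → ∀ (k : Type) [Field k] [Finite k] [CharP k p]
    (ψ : Gq p →* kˣ), Cont1 (⊥ : LF p) (fun σ => ψ σ) →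
    (∀ σ ∈ inertia p, ∀ a : ℕ, cycExp p σ a → ((ψ σ : kˣ) : k) = (a : k)) →
    ∃ Z : Submodule k (Gq p → k), Module.Finite k Z ∧ Module.finrank k Z ≤ 2 ∧
      ∀ μ : Gq p → k, Cont1 (⊥ : LF p) μ → (∀ σ τ, μ (σ * τ) = μ σ + (ψ σ : k) * μ τ) →
        (∀ ζ : Om p, ζ ^ p = 1 → ζ ≠ 1 → ∀ l : k →+ ZMod p,
          ∃ β : Om p, ‖β‖ = 1 ∧ ∀ g ∈ inertia p, cycExp p g 1 → g β = ζ ^ (l (μ g)).val * β) →
        μ ∈ Z

/-- `OrdCount` from the Kummer count (linear algebra of `2 × 2` matrices + FL-D6). -/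
def OrdCountAsm : Prop := FrobExists → FrobGen → OrdKC → OrdCount

/-- The trivial bound: the coboundaries alone span a space of dimension `≤ 4`. -/
theorem coB_bound (p : ℕ) [Fact p.Prime] (k : Type) [Field k] (V : Type)
    [AddCommGroup V] [Module k V] [Module.Finite k V] (hV : Module.finrank k V = 2)
    (ρ : Gq p →* Module.End k V) :
    ∃ W : Submodule k (Gq p → Module.End k V),
      Module.Finite k W ∧ Module.finrank k W ≤ 4 ∧
      ∀ X : Module.End k V, coB p ρ X ∈ W := by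
  let L : Module.End k V →ₗ[k] (Gq p → Module.End k V) :=
    { toFun := fun X => coB p ρ X
      map_add' := fun X Y => by
        funext τ
        simp only [coB, Pi.add_apply, mul_add, add_mul]
        abel
      map_smul' := fun a X => by
        funext τ
        simp only [coB, Pi.smul_apply, RingHom.id_apply, smul_sub, mul_smul_comm,
          smul_mul_assoc] }
  refine ⟨LinearMap.range L, inferInstance, ?_, fun X => ⟨X, rfl⟩⟩
  have h1 := LinearMap.finrank_range_le L
  have h2 : Module.finrank k (Module.End k V) = 4 := by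
    have h3 : Module.finrank k (V →ₗ[k] V) = Module.finrank k V * Module.finrank k V :=
      Module.finrank_linearMap k k V V
    rw [hV] at h3
    exact h3
  omega

/-- **Assembly of block ORD** (compiled). -/
theorem ordBound_of (h0 : FlatCont) (h1 : LocFlatSub) (h2 : OrdNFExists) (h3 : OrdLine)
    (h4 : OrdPeu) (h5 : OrdPeuRep) (h6 : OrdCount) (h7 : RepCont) : OrdBound := by
  intro p _ k _ _ _ V _ _ _ ρ hρ hline
  by_cases hex : ∃ c : Gq p → Module.End k V, IsLocFlatCocycle p ρ c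
  · obtain ⟨c₀, hc₀⟩ := hex
    have hV := h1 p k V ρ c₀ hc₀
    obtain ⟨v₀, hv₀⟩ := h2 p k V ρ hρ hline hV
    obtain ⟨W, hfin, hrk, hB, hW⟩ :=
      h6 p k V ρ hρ (h7 p k V ρ hV) v₀ hv₀ (h5 p k V ρ hρ v₀ hv₀ hV)
    refine ⟨W, hfin, hrk, fun X hX => hB X hX, fun c hc => hW c ?_⟩
    obtain ⟨X, hX, hsh⟩ := h3 p k V ρ hρ v₀ hv₀ c hc
    exact ⟨h0 p k V ρ c hc, hc.cocycle, hc.trace,
      ⟨X, hX, hsh, h4 p k V ρ hρ v₀ hv₀ c hc X hX hsh⟩⟩
  · obtain ⟨W, hfin, hrk, hB⟩ := coB_bound p k V hρ.rank ρ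
    exact ⟨W, hfin, hrk, fun X _ => hB X, fun c hc => (hex ⟨c, hc⟩).elim⟩

end Fermat.Agent.S56F
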