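import Fermat.Agent.S56F.IfaceOrd
import Fermat.Agent.S56F.FLC1_helper7

/-!
# S56 / LOC-p-FL, leaf FL-D4 (helper7): the cyclotomic character on inertia

`h7c_cycFund : CycFund` : for `π ^ n = p`, `(p - 1) ∣ n`, and `σ` in the inertia group acting on
`μ_p` by `a`-th powers, `(σ π / π) ^ (n / (p - 1)) ≡ a` modulo the maximal ideal.

Proof.  `ζ` a primitive `p`-th root of unity, `π' = π ^ (n / (p - 1))`, `π' ^ (p - 1) = p`, so
`‖π'‖ = ‖ζ - 1‖` (`h7g_norm_zeta_sub_one`) and `w = (ζ - 1) / π'` is a unit.  Inertia fixes `w`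
modulo the maximal ideal, `σ w = (ζ ^ a - 1) / (ψ π')` with `ψ = (σ π / π) ^ (n / (p - 1))`, and
`ζ ^ a - 1 ≡ a (ζ - 1)` modulo `(ζ - 1)²` (`h7g_norm_pow_sub_lin_le`).
-/

set_option autoImplicit false
set_option linter.unusedSectionVars false
set_option linter.style.haveILetI false

open Fermat.Agent.PT.Loc

noncomputable section

namespace Fermat.Agent.S56F

/-- A primitive `p`-th root of unity of `Om p`. -/
theorem h7c_exists_primitiveRoot (p : ℕ) [Fact p.Prime] : ∃ ζ : Om p, IsPrimitiveRoot ζ p := by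
  have hp : p.Prime := Fact.out
  haveI : NeZero ((p : ℕ) : Om p) := ⟨by exact_mod_cast hp.ne_zero⟩
  have hdeg : (Polynomial.cyclotomic p (Om p)).degree ≠ 0 := by
    rw [Polynomial.degree_cyclotomic, Nat.totient_prime hp]
    have h2 := hp.two_le
    have h3 : (p - 1 : ℕ) ≠ 0 := by omega
    exact_mod_cast h3
  obtain ⟨ζ, hζ⟩ := IsAlgClosed.exists_root (Polynomial.cyclotomic p (Om p)) hdeg
  exact ⟨ζ, Polynomial.isRoot_cyclotomic_iff.mp hζ⟩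

/-- `‖ζ - 1‖ < 1` for a primitive `p`-th root of unity. -/
theorem h7c_norm_zeta_sub_one_lt (p : ℕ) [Fact p.Prime] {ζ : Om p} (hζ : IsPrimitiveRoot ζ p) :
    ‖ζ - 1‖ < 1 := by
  have hp : p.Prime := Fact.out
  have hz : ‖ζ - 1‖ ^ (p - 1) = ‖((p : ℕ) : Om p)‖ := h7g_norm_zeta_sub_one hζ
  by_contra hge
  rw [not_lt] at hge
  have h3 : 1 ≤ ‖ζ - 1‖ ^ (p - 1) := one_le_pow₀ hge
  rw [hz, h7g_norm_p] at h3
  have h4 : ((p : ℝ))⁻¹ < 1 := inv_lt_one_of_one_lt₀ (by exact_mod_cast hp.one_lt)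
  linarith

/-- **FL-D4.** -/
theorem h7c_cycFund : CycFund := by
  intro p _ hp2 n hn _ hdvd π hπ σ hσ a ha
  have hp : p.Prime := Fact.out
  have hp1 : p - 1 ≠ 0 := by
    have := hp.two_le
    omega
  obtain ⟨ζ, hζ⟩ := h7c_exists_primitiveRoot p
  have hζ1 : ζ ≠ 1 := hζ.ne_one hp.one_lt
  have hnζ : ‖ζ‖ ≤ 1 := (h7g_norm_root_of_unity hp.ne_zero hζ.pow_eq_one).le
  have hz : ‖ζ - 1‖ ^ (p - 1) = ‖((p : ℕ) : Om p)‖ := h7g_norm_zeta_sub_one hζ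
  have hzlt : ‖ζ - 1‖ < 1 := h7c_norm_zeta_sub_one_lt p hζ
  have hzpos : 0 < ‖ζ - 1‖ := norm_pos_iff.mpr (sub_ne_zero.mpr hζ1)
  have hp0 : ((p : ℕ) : Om p) ≠ 0 := by exact_mod_cast hp.ne_zero
  have hπ0 : π ≠ 0 := by
    rintro rfl
    rw [zero_pow hn.ne'] at hπ
    exact hp0 hπ.symm
  set m := n / (p - 1) with hm
  have hmn : m * (p - 1) = n := Nat.div_mul_cancel hdvd
  -- `π' = π ^ m`
  have hπ' : (π ^ m) ^ (p - 1) = ((p : ℕ) : Om p) := by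
    rw [← pow_mul, hmn, hπ]
  have hπ'0 : π ^ m ≠ 0 := pow_ne_zero _ hπ0
  have hnπ' : ‖π ^ m‖ = ‖ζ - 1‖ := by
    have h1 : ‖π ^ m‖ ^ (p - 1) = ‖ζ - 1‖ ^ (p - 1) := by
      rw [← norm_pow, hπ', hz]
    exact (pow_left_inj₀ (norm_nonneg _) (norm_nonneg _) hp1).mp h1
  -- `ψ = σ π / π`
  have hψn : (σ π / π) ^ n = 1 := by
    rw [div_pow, ← map_pow, hπ, map_natCast, div_self hp0]
  have hnψ : ‖σ π / π‖ = 1 := h7g_norm_root_of_unity hn.ne' hψn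
  have hnψm : ‖(σ π / π) ^ m‖ = 1 := by rw [norm_pow, hnψ, one_pow]
  have hσπ : σ (π ^ m) = (σ π / π) ^ m * π ^ m := by
    rw [map_pow, div_pow, div_mul_cancel₀ _ hπ'0]
  -- the unit `w`
  have hw : ‖(ζ - 1) / π ^ m‖ ≤ 1 := by
    rw [norm_div, hnπ', div_self hzpos.ne']
  have hin : ‖σ ((ζ - 1) / π ^ m) - (ζ - 1) / π ^ m‖ < 1 := hσ _ hw
  have hσζ : σ ζ = ζ ^ a := ha ζ hζ.pow_eq_one
  have hψ0 : (σ π / π) ^ m ≠ 0 := by
    intro h0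
    rw [h0, norm_zero] at hnψm
    exact zero_ne_one hnψm
  have e1 : σ ((ζ - 1) / π ^ m) - (ζ - 1) / π ^ m =
      ((ζ ^ a - 1) - (σ π / π) ^ m * (ζ - 1)) / ((σ π / π) ^ m * π ^ m) := by
    rw [map_div₀, map_sub, map_one, hσζ, hσπ]
    field_simp
  rw [e1, norm_div, norm_mul, hnψm, one_mul, hnπ', div_lt_one hzpos] at hin
  -- `ζ ^ a - 1 ≡ a (ζ - 1)`
  have hlin : ‖ζ ^ a - 1 - (a : Om p) * (ζ - 1)‖ < ‖ζ - 1‖ := by
    refine lt_of_le_of_lt (h7g_norm_pow_sub_lin_le hnζ a) ?_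
    nlinarith
  have e2 : ((σ π / π) ^ m - (a : Om p)) * (ζ - 1) =
      (ζ ^ a - 1 - (a : Om p) * (ζ - 1)) + -((ζ ^ a - 1) - (σ π / π) ^ m * (ζ - 1)) := by
    ring
  have h5 : ‖((σ π / π) ^ m - (a : Om p)) * (ζ - 1)‖ < ‖ζ - 1‖ := by
    rw [e2]
    refine lt_of_le_of_lt (IsUltrametricDist.norm_add_le_max _ _) (max_lt hlin ?_)
    rw [norm_neg]
    exact hin
  rw [norm_mul] at h5
  by_contra hge
  rw [not_lt] at hge
  have h6 : ‖ζ - 1‖ ≤ ‖(σ π / π) ^ m - (a : Om p)‖ * ‖ζ - 1‖ := by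
    calc ‖ζ - 1‖ = 1 * ‖ζ - 1‖ := (one_mul _).symm
      _ ≤ ‖(σ π / π) ^ m - (a : Om p)‖ * ‖ζ - 1‖ :=
        mul_le_mul_of_nonneg_right hge (norm_nonneg _)
  exact absurd h5 (not_lt.mpr h6)

end Fermat.Agent.S56F
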