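import Fermat.Agent.S56F.IfaceOrd
import Fermat.Agent.PT.Loc.H36URFrob
import Fermat.Agent.PT.Loc.H34LFTeich
import Fermat.Agent.PT.Loc.H96RDBase

/-!
# S56 / LOC-p-FL, row FL-D5 (helper96): Frobenius elements exist

`h96f_frobExists : FrobExists`: there is `φ ∈ Gal(ℚ̄_p/ℚ_p)` raising every root of unity of order
prime to `p` to its `p`-th power.  From the PT toolkit: `h36_urFrob` (Frobenius elements of a
local field exist) and `h96b_lfBase` (the residue field of `ℚ_p` has `p` elements).
-/

set_option autoImplicit false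

open Fermat.Agent.PT.Loc

noncomputable section

namespace Fermat.Agent.S56F

/-- A Frobenius element of `ℚ_p` in the sense of PT-LOC acts by `w ↦ w ^ p` on the roots of
unity of order prime to `p`. -/
theorem h96f_isFrob_bot_iff (p : ℕ) [Fact p.Prime] (φ : Gq p) :
    IsFrob (⊥ : LF p) φ ↔
      ∀ (w : Om p) (m : ℕ), 0 < m → ¬ p ∣ m → w ^ m = 1 → φ w = w ^ p := by
  have hres : resCard (⊥ : LF p) = p := (h96b_lfBase p).2.1
  have hbot : φ ∈ GK (⊥ : LF p) := by
    rw [IntermediateField.mem_fixingSubgroup_iff]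
    intro x hx
    obtain ⟨a, rfl⟩ := IntermediateField.mem_bot.1 hx
    exact φ.commutes a
  constructor
  · intro h w m hm hpm hw
    have := h.2 w m hm hpm hw
    rwa [hres] at this
  · intro h
    refine ⟨hbot, fun w m hm hpm hw => ?_⟩
    rw [hres]
    exact h w m hm hpm hw

/-- **FL-D5** (exact frozen Prop). -/
theorem h96f_frobExists : FrobExists := by
  intro p _
  obtain ⟨φ, hφ⟩ := h36_urFrob h34lf_lfTeich p (⊥ : LF p)
  exact ⟨φ, (h96f_isFrob_bot_iff p φ).1 hφ⟩

end Fermat.Agent.S56F
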