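import Fermat.Agent.S56F.IfaceOrd
import Fermat.Agent.S56F.FLC5Final_helper89
import Fermat.Agent.S56F.FLC1_helper7
import Fermat.Agent.S56F.FLD4_helper7
import Fermat.Agent.S56F.FLD5_helper96
import Fermat.Agent.S56F.FLB123_helper38
import Fermat.Agent.S56F.FLB56_helper87
import Fermat.Agent.S56F.FLB7_helper87
import Fermat.Agent.S56F.FLC0_helper34

/-!
# S56 / LOC-p-FL, leaf FL-O2 (helper89, prefix `h89o_`): the ordinary normal form

`h89o_ordNFExists : OrdNFExists`.  A reducible locally flat `ρ` with `det ρ = ω` has a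
`Gq p`-stable line on which inertia acts through the cyclotomic character and trivially on the
quotient.

Proof.  Let `k v` be a stable line with character `χ`.  The restriction of a nice order over
inertia to the line is a `kˣ`-stable character complete order, so (`RankOne`) `τ ∘ χ = Ψ ^ m` on
inertia with `m = ∑_{i ∈ S} p ^ i`.  Conjugation by a Frobenius fixes `χ` and raises `Ψ` to the
`p`-th power, and `Ψ` is onto `μ_n` (`FundSurjective`), so `n ∣ (p - 1) m`: `m = 0` or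
`m = n / (p - 1)`.
* `m = n / (p - 1)`: `χ = ω` on inertia (`CycFund`), and `det ρ = ω` shows that inertia acts
  trivially on the quotient: `v₀ = v`.
* `m = 0`: `χ = 1` on inertia and the functions of the order have unit values on the line; the
  points `≡ 0 mod 𝔪` form a `Gq p`-stable subspace `W` with `W ∩ k v = 0`, inertia is trivial on
  `V / W`, and `W ≠ 0` because `ω` is ramified.  So `W` is a complementary stable line, and
  `det ρ = ω` shows that inertia acts on it through `ω`.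
-/

set_option autoImplicit false
set_option linter.unusedSectionVars false
set_option linter.style.haveILetI false

open Fermat.Agent.PT.Loc Polynomial

noncomputable section

namespace Fermat.Agent.S56F

section Galois

variable {p : ℕ} [Fact p.Prime]

/-- Inertia is a normal subgroup. -/
theorem h89o_conj_mem_inertia {σ : Gq p} (hσ : σ ∈ inertia p) (τ : Gq p) :
    τ * σ * τ⁻¹ ∈ inertia p := by
  intro x hx
  have h1 : ‖τ⁻¹ x‖ ≤ 1 := by rw [h89d0_norm_map]; exact hx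
  have h2 := hσ (τ⁻¹ x) h1
  have h3 : (τ * σ * τ⁻¹) x - x = τ (σ (τ⁻¹ x) - τ⁻¹ x) := by
    rw [map_sub, AlgEquiv.mul_apply, AlgEquiv.mul_apply]
    congr 1
    rw [← AlgEquiv.mul_apply, mul_inv_cancel, AlgEquiv.one_apply]
  rw [h3, h89d0_norm_map]
  exact h2

theorem h89o_conj_mem_inertia' {σ : Gq p} (hσ : σ ∈ inertia p) (τ : Gq p) :
    τ⁻¹ * σ * τ ∈ inertia p := by
  have := h89o_conj_mem_inertia hσ τ⁻¹
  rwa [inv_inv] at this

/-- Every element acts on `μ_p` by a power. -/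
theorem h89o_exists_cycExp (σ : Gq p) : ∃ a : ℕ, cycExp p σ a := by
  obtain ⟨ζ, hζ⟩ := h7c_exists_primitiveRoot p
  have hp0 : 0 < p := (Fact.out : p.Prime).pos
  have h1 : (σ ζ) ^ p = 1 := by rw [← map_pow, hζ.pow_eq_one, map_one]
  haveI : NeZero p := ⟨hp0.ne'⟩
  obtain ⟨a, -, ha⟩ := hζ.eq_pow_of_pow_eq_one h1
  refine ⟨a, fun μ hμ => ?_⟩
  obtain ⟨j, -, hj⟩ := hζ.eq_pow_of_pow_eq_one hμ
  rw [← hj, map_pow, ← ha, ← pow_mul, ← pow_mul, mul_comm]

/-- Conjugation by a Frobenius raises the fundamental character to the `p`-th power. -/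
theorem h89o_frob_conj {φ : Gq p}
    (hφ : ∀ (w : Om p) (m : ℕ), 0 < m → ¬ p ∣ m → w ^ m = 1 → φ w = w ^ p)
    {σ : Gq p} (hσ : σ ∈ inertia p) {n : ℕ} (hn : 0 < n) (hpn : ¬ p ∣ n) {π : Om p}
    (hπ : π ^ n = p) : (φ * σ * φ⁻¹) π / π = (σ π / π) ^ p := by
  have hp0 : (p : Om p) ≠ 0 := by
    exact_mod_cast (Fact.out : p.Prime).ne_zero
  have hπ0 : π ≠ 0 := by
    intro h
    rw [h, zero_pow hn.ne'] at hπ
    exact hp0 hπ.symm
  obtain ⟨η, hη⟩ : ∃ η : Om p, η = φ⁻¹ π / π := ⟨_, rfl⟩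
  have hηn : η ^ n = 1 := by
    rw [hη, div_pow, ← map_pow, hπ, map_natCast, div_self hp0]
  have hηπ : φ⁻¹ π = η * π := by rw [hη, div_mul_cancel₀ _ hπ0]
  have hση : σ η = η := h89d0_fix_of_mem_inertia hσ η n hn hpn hηn
  obtain ⟨ψ, hψ⟩ : ∃ ψ : Om p, ψ = σ π / π := ⟨_, rfl⟩
  have hψn : ψ ^ n = 1 := by
    rw [hψ, div_pow, ← map_pow, hπ, map_natCast, div_self hp0]
  have hσπ : σ π = ψ * π := by rw [hψ, div_mul_cancel₀ _ hπ0]
  have hφψ : φ ψ = ψ ^ p := hφ ψ n hn hpn hψn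
  have hφηπ : φ η * φ π = π := by
    rw [← map_mul, ← hηπ, ← AlgEquiv.mul_apply, mul_inv_cancel, AlgEquiv.one_apply]
  have h1 : (φ * σ * φ⁻¹) π = ψ ^ p * π := by
    rw [AlgEquiv.mul_apply, AlgEquiv.mul_apply, hηπ, map_mul, hση, hσπ, map_mul, map_mul, hφψ]
    calc φ η * (ψ ^ p * φ π) = ψ ^ p * (φ η * φ π) := by ring
      _ = ψ ^ p * π := by rw [hφηπ]
  rw [h1, mul_div_assoc, div_self hπ0, mul_one, ← hψ]

end Galois

section Arith

/-- The digit sums `m` with `(p ^ r - 1) ∣ (p - 1) m` are `0` and `(p ^ r - 1) / (p - 1)`. -/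
theorem h89o_digits (p r : ℕ) (hp : p.Prime) (S : Finset (Fin r)) (m : ℕ)
    (hm : m = ∑ i ∈ S, p ^ (i : ℕ)) (hdvd : (p ^ r - 1) ∣ (p - 1) * m) :
    m = 0 ∨ m = (p ^ r - 1) / (p - 1) := by
  have hp2 : 2 ≤ p := hp.two_le
  have hgeom : (p - 1) * ∑ i ∈ Finset.range r, p ^ i = p ^ r - 1 := by
    have h := Nat.geomSum_eq hp2 r
    have h2 : (p - 1) ∣ p ^ r - 1 := by
      have := Nat.sub_dvd_pow_sub_pow p 1 r
      simpa using this
    rw [h, Nat.mul_div_cancel' h2]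
  have hN : (p ^ r - 1) / (p - 1) = ∑ i ∈ Finset.range r, p ^ i := by
    rw [← hgeom, Nat.mul_div_cancel_left _ (by omega : 0 < p - 1)]
  have hle : m ≤ ∑ i ∈ Finset.range r, p ^ i := by
    rw [hm, ← Fin.sum_univ_eq_sum_range (fun i => p ^ i) r]
    exact Finset.sum_le_sum_of_subset (Finset.subset_univ S)
  rw [← hgeom] at hdvd
  have hd : (∑ i ∈ Finset.range r, p ^ i) ∣ m :=
    (Nat.mul_dvd_mul_iff_left (by omega : 0 < p - 1)).mp hdvd
  rcases Nat.eq_zero_or_pos m with h0 | hpos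
  · exact Or.inl h0
  · right
    rw [hN]
    exact le_antisymm hle (Nat.le_of_dvd hpos hd)

end Arith

section LinAlg

variable {k : Type} [Field k] {V : Type} [AddCommGroup V] [Module k V] [Module.Finite k V]

/-- The determinant of a triangular endomorphism of a plane. -/
theorem h89o_det_tri (hV : Module.finrank k V = 2) (v w : V)
    (hli : LinearIndependent k ![v, w]) (f : Module.End k V) (α c d : k)
    (h1 : f v = α • v) (h2 : f w = c • v + d • w) : LinearMap.det f = α * d := by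
  classical
  let b : Module.Basis (Fin 2) k V :=
    basisOfLinearIndependentOfCardEqFinrank hli (by rw [Fintype.card_fin, hV])
  have hb0 : b 0 = v := by simp [b]
  have hb1 : b 1 = w := by simp [b]
  rw [← LinearMap.det_toMatrix b, Matrix.det_fin_two]
  have e00 : LinearMap.toMatrix b b f 0 0 = α := by
    rw [LinearMap.toMatrix_apply, hb0, h1, ← hb0]; simp
  have e10 : LinearMap.toMatrix b b f 1 0 = 0 := by
    rw [LinearMap.toMatrix_apply, hb0, h1, ← hb0]; simp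
  have e11 : LinearMap.toMatrix b b f 1 1 = d := by
    rw [LinearMap.toMatrix_apply, hb1, h2, ← hb0, ← hb1]; simp
  rw [e00, e10, e11]
  ring

/-- Expansion in a basis of a plane. -/
theorem h89o_expand (hV : Module.finrank k V = 2) (v w : V)
    (hli : LinearIndependent k ![v, w]) (x : V) : ∃ a b : k, x = a • v + b • w := by
  classical
  let b : Module.Basis (Fin 2) k V :=
    basisOfLinearIndependentOfCardEqFinrank hli (by rw [Fintype.card_fin, hV])
  have hb0 : b 0 = v := by simp [b]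
  have hb1 : b 1 = w := by simp [b]
  refine ⟨b.repr x 0, b.repr x 1, ?_⟩
  have := b.sum_repr x
  rw [Fin.sum_univ_two, hb0, hb1] at this
  exact this.symm

/-- Two vectors are independent if the second is not on the line of the first. -/
theorem h89o_indep {v w : V} (hv : v ≠ 0) (hw : ∀ a : k, w ≠ a • v) :
    LinearIndependent k ![v, w] := by
  rw [LinearIndependent.pair_iff]
  intro s t hst
  by_cases ht : t = 0
  · subst ht
    rw [zero_smul, add_zero] at hst
    exact ⟨(smul_eq_zero.mp hst).resolve_right hv, rfl⟩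
  · exfalso
    apply hw (-(t⁻¹ * s))
    have h3 : t • w = -(s • v) := eq_neg_of_add_eq_zero_right hst
    calc w = t⁻¹ • (t • w) := by rw [smul_smul, inv_mul_cancel₀ ht, one_smul]
      _ = -(t⁻¹ * s) • v := by rw [h3, smul_neg, smul_smul, neg_smul]

end LinAlg

section Teich

variable {p : ℕ} [Fact p.Prime] {k : Type} [Field k] [Fintype k] [DecidableEq k]

/-- The ultrametric inequality for a difference. -/
theorem h89o_norm_sub_le_max (a b : Om p) : ‖a - b‖ ≤ max ‖a‖ ‖b‖ := by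
  have h := IsUltrametricDist.norm_add_le_max a (-b)
  rwa [norm_neg, ← sub_eq_add_neg] at h

/-- A Teichmüller character is injective modulo the maximal ideal. -/
theorem h89o_teich_inj_mod (τ : kˣ →* (Om p)ˣ) (hτ : IsTeich p τ) (x y : kˣ)
    (h : ‖((τ x : (Om p)ˣ) : Om p) - τ y‖ < 1) : x = y := by
  by_contra hne
  have hxy : (x : k) - y ≠ 0 := by
    intro h0
    exact hne (Units.ext (sub_eq_zero.mp h0))
  have h3 := h7g_lift_add τ hτ.1 hτ.2 ((x : k) - y) y
  rw [sub_add_cancel, h7g_lift_unit, h7g_lift_unit] at h3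
  have h4 : ‖h7g_lift τ ((x : k) - y)‖ < 1 := by
    have e : h7g_lift τ ((x : k) - y) =
        (((τ x : (Om p)ˣ) : Om p) - τ y) -
          (((τ x : (Om p)ˣ) : Om p) - (h7g_lift τ ((x : k) - y) + τ y)) := by ring
    rw [e]
    exact lt_of_le_of_lt (h89o_norm_sub_le_max _ _) (max_lt h h3)
  rw [h7g_lift_norm τ hxy] at h4
  exact lt_irrefl _ h4

/-- A natural number of norm `< 1` vanishes in `k`. -/
theorem h89o_nat_zero (τ : kˣ →* (Om p)ˣ) (hτ : IsTeich p τ) (a : ℕ)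
    (h : ‖((a : ℕ) : Om p)‖ < 1) : ((a : ℕ) : k) = 0 := by
  by_contra hne
  have h3 := h7g_lift_natCast τ hτ.1 hτ.2 a
  have h4 : ‖h7g_lift τ ((a : ℕ) : k)‖ < 1 := by
    have e : h7g_lift τ ((a : ℕ) : k) =
        (h7g_lift τ ((a : ℕ) : k) - ((a : ℕ) : Om p)) + ((a : ℕ) : Om p) := by ring
    rw [e]
    exact lt_of_le_of_lt (IsUltrametricDist.norm_add_le_max _ _) (max_lt h3 h)
  rw [h7g_lift_norm τ hne] at h4
  exact lt_irrefl _ h4

/-- If `τ x ≡ a` modulo the maximal ideal then `x = a` in `k`. -/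
theorem h89o_teich_nat (τ : kˣ →* (Om p)ˣ) (hτ : IsTeich p τ) (x : kˣ) (a : ℕ)
    (h : ‖((τ x : (Om p)ˣ) : Om p) - (a : Om p)‖ < 1) : (x : k) = (a : k) := by
  have h3 := h7g_lift_natCast τ hτ.1 hτ.2 a
  have h4 : ‖((τ x : (Om p)ˣ) : Om p) - h7g_lift τ ((a : ℕ) : k)‖ < 1 := by
    have e : ((τ x : (Om p)ˣ) : Om p) - h7g_lift τ ((a : ℕ) : k) =
        (((τ x : (Om p)ˣ) : Om p) - (a : Om p)) -
          (h7g_lift τ ((a : ℕ) : k) - ((a : ℕ) : Om p)) := by ring
    rw [e]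
    exact lt_of_le_of_lt (h89o_norm_sub_le_max _ _) (max_lt h h3)
  by_cases ha : ((a : ℕ) : k) = 0
  · exfalso
    rw [ha, h7g_lift_zero, sub_zero, h7g_norm_tau] at h4
    exact lt_irrefl _ h4
  · rw [h7g_lift_of_ne τ ha] at h4
    have := h89o_teich_inj_mod τ hτ x _ h4
    rw [this, Units.val_mk0]

end Teich

section Ram

variable {p : ℕ} [Fact p.Prime]

/-- The cyclotomic character modulo `p` is ramified (`p` odd). -/
theorem h89o_exists_ram (hp2 : p ≠ 2) (k : Type) [Field k] [Finite k] [CharP k p] :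
    ∃ σ ∈ inertia p, ∀ a : ℕ, cycExp p σ a → ((a : ℕ) : k) ≠ 1 := by
  classical
  letI : Fintype k := Fintype.ofFinite k
  have hp : p.Prime := Fact.out
  have hp3 : 3 ≤ p := by
    have := hp.two_le
    omega
  obtain ⟨τ, hτ⟩ := h34t_teichExists p k
  have hn : 0 < p - 1 := by omega
  have hpn : ¬ p ∣ p - 1 := fun h => by
    have := Nat.le_of_dvd hn h
    omega
  obtain ⟨π, hπ⟩ := IsAlgClosed.exists_pow_nat_eq ((p : ℕ) : Om p) hn
  have hev : Even (p - 1) := hp.even_sub_one hp2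
  have hm1 : (-1 : Om p) ^ (p - 1) = 1 := hev.neg_one_pow
  obtain ⟨σ, hσ, hσπ⟩ := h89f_fundSurjective p (p - 1) hn hpn π hπ (-1) hm1
  refine ⟨σ, hσ, fun a ha h1 => ?_⟩
  have hp0 : ((p : ℕ) : Om p) ≠ 0 := by exact_mod_cast hp.ne_zero
  have hπ0 : π ≠ 0 := by
    intro h
    rw [h, zero_pow hn.ne'] at hπ
    exact hp0 hπ.symm
  have hc := h7c_cycFund p hp2 (p - 1) hn hpn dvd_rfl π hπ σ hσ a ha
  rw [Nat.div_self hn, pow_one, hσπ, mul_div_assoc, div_self hπ0, mul_one] at hc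
  have h3 : ‖(((a + 1 : ℕ)) : Om p)‖ < 1 := by
    have e : (((a + 1 : ℕ)) : Om p) = -((-1 : Om p) - (a : Om p)) := by push_cast; ring
    rw [e, norm_neg]
    exact hc
  have h4 := h89o_nat_zero τ hτ (a + 1) h3
  rw [Nat.cast_add, h1, Nat.cast_one] at h4
  have h5 : ((2 : ℕ) : k) = 0 := by
    rw [← h4]; norm_num
  have h6 := (CharP.cast_eq_zero_iff k p 2).mp h5
  exact hp2 ((Nat.prime_dvd_prime_iff_eq hp Nat.prime_two).mp h6)

end Ram

section Main

variable {p : ℕ} [Fact p.Prime]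

theorem h89o_pow_sub_one_pos (r : ℕ) (hr : 0 < r) : 0 < p ^ r - 1 := by
  have hp : p.Prime := Fact.out
  have h1 : p ^ 1 ≤ p ^ r := Nat.pow_le_pow_right hp.pos hr
  have h2 := hp.two_le
  rw [pow_one] at h1
  omega

theorem h89o_not_dvd_pow_sub_one (r : ℕ) (hr : 0 < r) : ¬ p ∣ p ^ r - 1 := by
  have hp : p.Prime := Fact.out
  intro h
  have h1 : p ∣ p ^ r := dvd_pow_self p hr.ne'
  have h2 := h89o_pow_sub_one_pos (p := p) r hr
  have h3 : p ∣ p ^ r - (p ^ r - 1) := Nat.dvd_sub h1 h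
  have h4 : p ^ r - (p ^ r - 1) = 1 := by omega
  rw [h4] at h3
  exact hp.one_lt.ne' (Nat.dvd_one.mp h3)

/-- A primitive root of unity of any order prime to `p`... of any positive order. -/
theorem h89o_exists_primitiveRoot (n : ℕ) (hn : 0 < n) : ∃ ζ : Om p, IsPrimitiveRoot ζ n := by
  haveI : NeZero ((n : ℕ) : Om p) := ⟨by exact_mod_cast hn.ne'⟩
  have hdeg : (Polynomial.cyclotomic n (Om p)).degree ≠ 0 := by
    rw [Polynomial.degree_cyclotomic]
    have h3 : Nat.totient n ≠ 0 := (Nat.totient_pos.mpr hn).ne'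
    exact_mod_cast h3
  obtain ⟨ζ, hζ⟩ := IsAlgClosed.exists_root (Polynomial.cyclotomic n (Om p)) hdeg
  exact ⟨ζ, Polynomial.isRoot_cyclotomic_iff.mp hζ⟩

/-- Frobenius invariance of the character forces `m = 0` or `m = n / (p - 1)`. -/
theorem h89o_dichotomy {k : Type} [Field k] (r : ℕ) (hr : 0 < r)
    (τ : kˣ →* (Om p)ˣ) (χ : Gq p → kˣ)
    (hχconj : ∀ φ σ : Gq p, χ (φ * σ * φ⁻¹) = χ σ) (π : Om p) (hπ : π ^ (p ^ r - 1) = p)
    (m : ℕ) (S : Finset (Fin r)) (hS : m = ∑ i ∈ S, p ^ (i : ℕ))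
    (hχm : ∀ σ ∈ inertia p, ((τ (χ σ) : (Om p)ˣ) : Om p) = (σ π / π) ^ m) :
    m = 0 ∨ m = (p ^ r - 1) / (p - 1) := by
  have hp : p.Prime := Fact.out
  have hn := h89o_pow_sub_one_pos (p := p) r hr
  have hpn := h89o_not_dvd_pow_sub_one (p := p) r hr
  have hp0 : ((p : ℕ) : Om p) ≠ 0 := by exact_mod_cast hp.ne_zero
  have hπ0 : π ≠ 0 := by
    intro h
    rw [h, zero_pow hn.ne'] at hπ
    exact hp0 hπ.symm
  obtain ⟨φ, hφ⟩ := h96f_frobExists p
  obtain ⟨ζ, hζ⟩ := h89o_exists_primitiveRoot (p := p) (p ^ r - 1) hn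
  obtain ⟨σ, hσ, hσπ⟩ := h89f_fundSurjective p _ hn hpn π hπ ζ hζ.pow_eq_one
  have hψ : σ π / π = ζ := by rw [hσπ, mul_div_assoc, div_self hπ0, mul_one]
  have h1 := hχm σ hσ
  have h2 := hχm (φ * σ * φ⁻¹) (h89o_conj_mem_inertia hσ φ)
  rw [hχconj, h89o_frob_conj hφ hσ hn hpn hπ, hψ] at h2
  rw [hψ] at h1
  have h3 : ζ ^ (p * m) = ζ ^ m := by rw [pow_mul, ← h2, h1]
  have h4 : (p ^ r - 1) ∣ (p - 1) * m := by
    have e : (p - 1) * m + m = p * m := by
      have := hp.one_le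
      calc (p - 1) * m + m = (p - 1 + 1) * m := by ring
        _ = p * m := by rw [Nat.sub_add_cancel this]
    have h5 : ζ ^ ((p - 1) * m) * ζ ^ m = 1 * ζ ^ m := by
      rw [← pow_add, e, h3, one_mul]
    have hz : ζ ^ m ≠ 0 := pow_ne_zero _ (hζ.ne_zero hn.ne')
    exact hζ.dvd_of_pow_eq_one _ (mul_right_cancel₀ hz h5)
  exact h89o_digits p r hp S m hS h4

variable {k : Type} [Field k] [Finite k] [CharP k p] {V : Type} [AddCommGroup V] [Module k V]
  [Module.Finite k V]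

/-- The points `≡ 0` modulo the maximal ideal of a nice order over inertia. -/
theorem h89o_conn (ρ : Gq p →* Module.End k V)
    (𝓗 : FHO p (inertia p) V (fun σ v => ρ σ v)) (hnice : 𝓗.Nice) :
    ∃ W : Submodule k V, (∀ σ : Gq p, ∀ y ∈ W, ρ σ y ∈ W) ∧
      (∀ σ ∈ inertia p, ∀ x, ρ σ x - x ∈ W) ∧
      ∀ y ∈ W, ∀ f ∈ 𝓗.carrier, ‖f y - f 0‖ < 1 := by
  classical
  haveI : Finite V := Module.finite_of_finite k
  letI : Fintype V := Fintype.ofFinite V
  have hact : IsAct (fun (σ : Gq p) (x : V) => ρ σ x) :=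
    ⟨fun x => by simp, fun σ τ x => by simp [map_mul], fun σ x y => map_add _ _ _⟩
  obtain ⟨t₀, ht0, ht1, hbd⟩ := h87f_exists_bound (Finset.univ : Finset V)
    (fun y => if h : ∃ t : ℝ, t < 1 ∧ 𝓗.PtLE y t then h.choose else 0)
    (fun y _ => by
      by_cases h : ∃ t : ℝ, t < 1 ∧ 𝓗.PtLE y t
      · simp only [dif_pos h]; exact h.choose_spec.1
      · simp only [dif_neg h]; exact zero_lt_one)
  have hmono : ∀ y, (∃ t : ℝ, t < 1 ∧ 𝓗.PtLE y t) → 𝓗.PtLE y t₀ := by
    intro y h f hf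
    have h1 := hbd y (Finset.mem_univ y)
    simp only [dif_pos h] at h1
    exact (h.choose_spec.2 f hf).trans h1
  have hsub := h38f_ptSubgroup p (inertia p) V _ 𝓗 t₀
  have hstab := fun y hy => h87f_ptStable p (inertia p) V _ hact 𝓗 t₀ y hy
  refine ⟨{ carrier := {y | 𝓗.PtLE y t₀}
            add_mem' := fun {a b} ha hb => hsub.2.1 a b ha hb
            zero_mem' := hsub.1 ht0
            smul_mem' := fun c y hy => ?_ }, ?_, ?_, ?_⟩
  · by_cases hc : c = 0
    · subst hc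
      rw [zero_smul]
      exact hsub.1 ht0
    · have hα := hnice.aut (DistribMulAction.toAddEquiv V (Units.mk0 c hc)) (fun σ _ x => by
        simp [Units.smul_def])
      have := (hstab y hy).2.1 _ hα
      simpa [Units.smul_def] using this
  · intro σ y hy
    exact (hstab y hy).2.2 σ (hnice.conj σ⁻¹ (fun g hg => h89o_conj_mem_inertia hg σ⁻¹)
      (fun g hg => h89o_conj_mem_inertia' hg σ⁻¹))
  · intro σ hσ x
    exact hmono _ (h87f_inertiaTrivial p (inertia p) V _ 𝓗 le_rfl σ hσ x)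
  · intro y hy f hf
    exact lt_of_le_of_lt (hy f hf) ht1

/-- The multiplicative case. -/
theorem h89o_case_mult (ρ : Gq p →* Module.End k V) (hρ : LocHyp p ρ) (v : V) (hv0 : v ≠ 0)
    (χ : Gq p → kˣ) (hχ : ∀ σ, ρ σ v = ((χ σ : kˣ) : k) • v)
    (hcyc : ∀ σ ∈ inertia p, ∀ a : ℕ, cycExp p σ a → ((χ σ : kˣ) : k) = (a : k)) :
    OrdNF p ρ v := by
  refine ⟨hv0, fun σ => ⟨_, hχ σ⟩, fun σ hσ a ha => ?_, fun σ hσ w => ?_⟩
  · rw [hχ σ, hcyc σ hσ a ha]
  · obtain ⟨a, ha⟩ := h89o_exists_cycExp σ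
    have hχa := hcyc σ hσ a ha
    have hdet := hρ.det σ a ha
    obtain ⟨v', hli⟩ := exists_linearIndependent_pair_of_one_lt_finrank
      (by rw [hρ.rank]; norm_num) hv0
    obtain ⟨c, d, hcd⟩ := h89o_expand hρ.rank v v' hli (ρ σ v')
    have hd := h89o_det_tri hρ.rank v v' hli (ρ σ) (χ σ) c d (hχ σ) hcd
    have hd1 : d = 1 := by
      rw [hdet, ← hχa] at hd
      have hne : ((χ σ : kˣ) : k) ≠ 0 := (χ σ).ne_zero
      have h5 : ((χ σ : kˣ) : k) * 1 = ((χ σ : kˣ) : k) * d := by rw [mul_one]; exact hd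
      exact (mul_left_cancel₀ hne h5).symm
    obtain ⟨x, y, hxy⟩ := h89o_expand hρ.rank v v' hli w
    refine ⟨x * (((χ σ : kˣ) : k) - 1) + y * c, ?_⟩
    rw [hxy, map_add, map_smul, map_smul, hχ σ, hcd, hd1]
    module

/-- The étale case. -/
theorem h89o_case_et (ρ : Gq p →* Module.End k V) (hρ : LocHyp p ρ) (v : V) (hv0 : v ≠ 0)
    (hv1 : ∀ σ ∈ inertia p, ρ σ v = v) (W : Submodule k V)
    (hWst : ∀ σ : Gq p, ∀ y ∈ W, ρ σ y ∈ W) (hWin : ∀ σ ∈ inertia p, ∀ x, ρ σ x - x ∈ W)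
    (hWv : ∀ c : k, c • v ∈ W → c = 0) : ∃ v₀ : V, OrdNF p ρ v₀ := by
  have hWne : ∃ v₀ ∈ W, v₀ ≠ 0 := by
    by_contra hcon
    push Not at hcon
    obtain ⟨σ₀, hσ₀, hram⟩ := h89o_exists_ram hρ.odd k
    obtain ⟨a, ha⟩ := h89o_exists_cycExp σ₀
    have hdet := hρ.det σ₀ a ha
    have hone : ρ σ₀ = 1 := by
      apply LinearMap.ext
      intro x
      have := hcon _ (hWin σ₀ hσ₀ x)
      rw [sub_eq_zero] at this
      rw [this]
      rfl
    rw [hone, map_one] at hdet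
    exact hram a ha hdet.symm
  obtain ⟨v₀, hv₀W, hv₀⟩ := hWne
  have hli : LinearIndependent k ![v, v₀] := h89o_indep hv0 (fun a h => by
    have h1 : a • v ∈ W := h ▸ hv₀W
    have ha := hWv a h1
    rw [ha, zero_smul] at h
    exact hv₀ h)
  have hspan : ∀ w ∈ W, ∃ b : k, w = b • v₀ := by
    intro w hw
    obtain ⟨x, y, hxy⟩ := h89o_expand hρ.rank v v₀ hli w
    have hx : x • v ∈ W := by
      have e : x • v = w - y • v₀ := by rw [hxy]; abel
      rw [e]
      exact W.sub_mem hw (W.smul_mem y hv₀W)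
    have h0 := hWv x hx
    rw [h0, zero_smul, zero_add] at hxy
    exact ⟨y, hxy⟩
  refine ⟨v₀, hv₀, fun σ => ?_, fun σ hσ a ha => ?_, fun σ hσ w => ?_⟩
  · exact hspan _ (hWst σ v₀ hv₀W)
  · obtain ⟨d, hd⟩ := hspan _ (hWst σ v₀ hv₀W)
    have hdet := hρ.det σ a ha
    have h5 := h89o_det_tri hρ.rank v v₀ hli (ρ σ) 1 0 d
      (by rw [one_smul]; exact hv1 σ hσ) (by rw [zero_smul, zero_add]; exact hd)
    rw [one_mul] at h5
    rw [hd, ← h5, hdet]
  · exact hspan _ (hWin σ hσ w)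

/-- **FL-O2** (exact frozen Prop). -/
theorem h89o_ordNFExists : OrdNFExists := by
  intro p _ k _ _ _ V _ _ _ ρ hρ hline hflat
  classical
  letI : Fintype k := Fintype.ofFinite k
  haveI : Finite V := Module.finite_of_finite k
  have hp : p.Prime := Fact.out
  obtain ⟨v, hv0, hv⟩ := hline
  obtain ⟨𝓗, hnice⟩ := hflat (inertia p)
  -- the character of the line
  have hinv : ∀ (σ : Gq p) (x : V), ρ σ⁻¹ (ρ σ x) = x := fun σ x => by
    rw [← Module.End.mul_apply, ← map_mul, inv_mul_cancel, map_one]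
    rfl
  have hχex : ∀ σ : Gq p, ∃ a : kˣ, ρ σ v = ((a : kˣ) : k) • v := by
    intro σ
    obtain ⟨a, ha⟩ := hv σ
    have ha0 : a ≠ 0 := by
      rintro rfl
      rw [zero_smul] at ha
      have h1 := hinv σ v
      rw [ha, map_zero] at h1
      exact hv0 h1.symm
    exact ⟨Units.mk0 a ha0, ha⟩
  choose χ hχ using hχex
  have hsmul_inj : ∀ a b : k, a • v = b • v → a = b := fun a b h => by
    have h1 : (a - b) • v = 0 := by rw [sub_smul, h, sub_self]
    exact sub_eq_zero.mp ((smul_eq_zero.mp h1).resolve_right hv0)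
  have hχmul : ∀ σ τ : Gq p, χ (σ * τ) = χ σ * χ τ := by
    intro σ τ
    apply Units.ext
    apply hsmul_inj
    rw [← hχ, map_mul, Module.End.mul_apply, hχ τ, map_smul, hχ σ, smul_smul, Units.val_mul,
      mul_comm]
  have hχone : χ 1 = 1 := by
    have h1 := hχmul 1 1
    rw [mul_one] at h1
    exact (mul_eq_left.mp h1.symm)
  have hχconj : ∀ φ σ : Gq p, χ (φ * σ * φ⁻¹) = χ σ := by
    intro φ σ
    rw [hχmul, hχmul, mul_comm (χ φ), mul_assoc, ← hχmul, mul_inv_cancel, hχone, mul_one]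
  obtain ⟨τ, hτ⟩ := h34t_teichExists p k
  obtain ⟨r, -, hcard⟩ := FiniteField.card k p
  have hr : 0 < (r : ℕ) := r.pos
  have hn := h89o_pow_sub_one_pos (p := p) (r : ℕ) hr
  have hpn := h89o_not_dvd_pow_sub_one (p := p) (r : ℕ) hr
  obtain ⟨π, hπ⟩ := IsAlgClosed.exists_pow_nat_eq ((p : ℕ) : Om p) hn
  -- the order on the line
  obtain ⟨j, hj⟩ : ∃ j : k →+ V, ∀ c, j c = c • v :=
    ⟨{ toFun := fun c => c • v
       map_zero' := zero_smul k v
       map_add' := fun a b => add_smul a b v }, fun _ => rfl⟩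
  have hjinj : Function.Injective j := fun a b h => by
    rw [hj, hj] at h
    exact hsmul_inj a b h
  obtain ⟨𝓗L, h𝓗L, hcc⟩ := h87f_subOrder p (inertia p) V _ 𝓗 k
    (fun σ c => ((χ σ : kˣ) : k) * c) j hjinj
    (fun σ _ c => by
      show j (((χ σ : kˣ) : k) * c) = ρ σ (j c)
      rw [hj, hj, map_smul, hχ σ, smul_smul, mul_comm])
  have hstabL : ∀ a : kˣ, 𝓗L.StableUnder (fun x => a • x) := by
    intro a g hg
    obtain ⟨f, hf, rfl⟩ := (h𝓗L g).mp hg
    rw [h𝓗L]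
    refine ⟨fun x => f (DistribMulAction.toAddEquiv V a x),
      hnice.aut _ (fun σ _ x => by simp [Units.smul_def]) f hf, ?_⟩
    funext c
    simp only [Function.comp_apply, hj, DistribMulAction.toAddEquiv_apply, Units.smul_def,
      smul_eq_mul, smul_smul]
  obtain ⟨m, ⟨S, hS⟩, hχm, hX⟩ := h89f_rankOne_of h7g_gaussNorm p hρ.odd k (r : ℕ) hcard k
    (Module.finrank_self k) (fun σ c => ((χ σ : kˣ) : k) * c) χ
    (fun σ _ x => by rw [Units.smul_def, smul_eq_mul]) 𝓗L hstabL (hcc hnice.char) τ hτ π hπ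
  rcases h89o_dichotomy (r : ℕ) hr τ χ hχconj π hπ m S hS hχm with hm | hm
  · -- the étale case
    have hχ1 : ∀ σ ∈ inertia p, χ σ = 1 := by
      intro σ hσ
      apply h89o_teich_inj_mod τ hτ
      rw [hχm σ hσ, hm, pow_zero, map_one, Units.val_one, sub_self, norm_zero]
      exact zero_lt_one
    have hv1 : ∀ σ ∈ inertia p, ρ σ v = v := fun σ hσ => by
      rw [hχ σ, hχ1 σ hσ, Units.val_one, one_smul]
    obtain ⟨W, hWst, hWin, hWlt⟩ := h89o_conn ρ 𝓗 hnice
    refine h89o_case_et ρ hρ v hv0 hv1 W hWst hWin (fun c hcW => ?_)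
    by_contra hc
    obtain ⟨X, hXmem, hX0, hXn⟩ := hX 0 hr
    obtain ⟨f, hf, rfl⟩ := (h𝓗L X).mp hXmem
    have h1 := hWlt (c • v) hcW f hf
    have h2 : f 0 = 0 := by
      have := hX0
      rwa [Function.comp_apply, map_zero] at this
    have h3 := hXn c hc
    rw [hm, mul_zero, Nat.zero_mod, pow_zero, Function.comp_apply, hj] at h3
    have h4 : ‖f (c • v)‖ = 1 := (pow_eq_one_iff_of_nonneg (norm_nonneg _) hn.ne').mp h3
    rw [h2, sub_zero, h4] at h1
    exact lt_irrefl _ h1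
  · -- the multiplicative case
    refine ⟨v, h89o_case_mult ρ hρ v hv0 χ hχ (fun σ hσ a ha => ?_)⟩
    have hdvd : (p - 1) ∣ p ^ (r : ℕ) - 1 := by
      have := Nat.sub_dvd_pow_sub_pow p 1 (r : ℕ)
      simpa using this
    have h2 := h7c_cycFund p hρ.odd _ hn hpn hdvd π hπ σ hσ a ha
    rw [← hm, ← hχm σ hσ] at h2
    exact h89o_teich_nat τ hτ (χ σ) a h2

end Main

end Fermat.Agent.S56F
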