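import Fermat.Agent.S56F.IfaceHopf

/-!
# S56 / LOC-p-FL, leaf FL-A1 (helper39): the normal form

`h39f_normalForm : NormalForm` — a `Flat` module `M` has, for every `Γ ≤ Gq p`, a function Hopf
order over `fixInt p Γ` which is stable under conjugation by the normaliser of `Γ`.

The order is the `fixInt p Γ`-span of the functions `Φ h : x ↦ padicEmbedding p ((e.symm x) h)`,
`h ∈ H`, where `H` is the Hopf algebra over `ℤ_(p)` and `e : Hom(H, ℚ̄) ≃ M`.
-/

set_option autoImplicit false
set_option linter.style.haveILetI false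
set_option linter.unusedSectionVars false

open Fermat.Agent.PT.Loc

noncomputable section

namespace Fermat.Agent.S56F

section Rat

variable {p : ℕ} [Fact p.Prime]

/-- the image in `Om p` of an element of `ℤ_(p)`. -/
theorem h39f_padicEmbedding_algebraMap (r : GaloisRep.ratLocalizedAt p) :
    padicEmbedding p (algebraMap (GaloisRep.ratLocalizedAt p) Qb r) =
      algebraMap ℚ_[p] (Om p) (((r : ℚ) : ℚ_[p])) := by
  have h1 : algebraMap (GaloisRep.ratLocalizedAt p) Qb r = algebraMap ℚ Qb (r : ℚ) := rfl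
  rw [h1, AlgHom.commutes]
  rw [eq_ratCast (algebraMap ℚ (Om p)) (r : ℚ), map_ratCast]

/-- the elements of `ℤ_(p)` are integers of `Om p` fixed by the Galois group. -/
theorem h39f_rat_mem_fixInt (Γ : Subgroup (Gq p)) (r : GaloisRep.ratLocalizedAt p) :
    padicEmbedding p (algebraMap (GaloisRep.ratLocalizedAt p) Qb r) ∈ fixInt p Γ := by
  rw [h39f_padicEmbedding_algebraMap]
  refine ⟨?_, fun σ _ => σ.commutes _⟩
  rw [PadicAlgCl.norm_extends]
  refine Padic.norm_rat_le_one ?_
  have h2 : ((r : ℚ).den).Coprime p := r.2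
  intro hdvd
  have := Nat.Coprime.eq_one_of_dvd h2.symm hdvd
  exact (Fact.out : p.Prime).one_lt.ne' this

end Rat

section Order

variable {p : ℕ} [Fact p.Prime] {M : Type} [AddCommGroup M] {H : Type} [CommRing H]
  [HopfAlgebra (GaloisRep.ratLocalizedAt p) H]
  (e : WithConv (H →ₐ[GaloisRep.ratLocalizedAt p] Qb) ≃ M)

/-- the evaluation functions: `Φ h x = padicEmbedding p ((e.symm x) h)`. -/
def h39f_Phi : H →+* (M → Om p) :=
  RingHom.pi fun x => ((padicEmbedding p).toRingHom).comp ((e.symm x).ofConv).toRingHom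

theorem h39f_Phi_apply (h : H) (x : M) :
    h39f_Phi e h x = padicEmbedding p ((e.symm x).ofConv h) := rfl

/-- the order: the `fixInt p Γ`-subalgebra generated by the evaluation functions. -/
def h39f_carrier (Γ : Subgroup (Gq p)) : Subalgebra (fixInt p Γ) (M → Om p) :=
  Algebra.adjoin (fixInt p Γ) (Set.range (h39f_Phi e))

theorem h39f_Phi_mem (Γ : Subgroup (Gq p)) (h : H) : h39f_Phi e h ∈ h39f_carrier e Γ :=
  Algebra.subset_adjoin ⟨h, rfl⟩

/-- the order is the span of the evaluation functions. -/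
theorem h39f_carrier_eq_span (Γ : Subgroup (Gq p)) :
    Subalgebra.toSubmodule (h39f_carrier e Γ) =
      Submodule.span (fixInt p Γ) (Set.range (h39f_Phi e)) := by
  rw [h39f_carrier, Algebra.adjoin_eq_span]
  have hcl : (Submonoid.closure (Set.range (h39f_Phi e)) : Set (M → Om p)) =
      Set.range (h39f_Phi e) := by
    have : Set.range (h39f_Phi e) =
        ((MonoidHom.mrange ((h39f_Phi e : H →+* (M → Om p)) : H →* (M → Om p)) :
          Submonoid (M → Om p)) : Set (M → Om p)) := by
      ext x; simp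
    rw [this, Submonoid.closure_eq]
  rw [hcl]

/-- induction principle for the order. -/
theorem h39f_induction (Γ : Subgroup (Gq p)) {P : (M → Om p) → Prop}
    (hΦ : ∀ h : H, P (h39f_Phi e h)) (h0 : P 0) (hadd : ∀ f g, P f → P g → P (f + g))
    (hsmul : ∀ (c : fixInt p Γ) (f : M → Om p), P f → P (c • f))
    {f : M → Om p} (hf : f ∈ h39f_carrier e Γ) : P f := by
  have key : ∀ g : M → Om p,
      g ∈ Submodule.span (fixInt p Γ) (Set.range (h39f_Phi e)) → P g := by
    intro g hg
    induction hg using Submodule.span_induction with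
    | mem x hx => obtain ⟨h, rfl⟩ := hx; exact hΦ h
    | zero => exact h0
    | add x y _ _ hx hy => exact hadd x y hx hy
    | smul c x _ hx => exact hsmul c x hx
  exact key f (by rw [← h39f_carrier_eq_span]; exact hf)

/-- scalars of `ℤ_(p)` act through `fixInt p Γ`. -/
theorem h39f_Phi_smul (Γ : Subgroup (Gq p)) (r : GaloisRep.ratLocalizedAt p) (h : H) :
    h39f_Phi e (r • h) =
      (⟨padicEmbedding p (algebraMap (GaloisRep.ratLocalizedAt p) Qb r),
        h39f_rat_mem_fixInt Γ r⟩ : fixInt p Γ) • h39f_Phi e h := by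
  funext x
  rw [h39f_Phi_apply, map_smul, Algebra.smul_def, map_mul]
  rfl

/-- the order is finitely generated. -/
theorem h39f_fg [Module.Finite (GaloisRep.ratLocalizedAt p) H] (Γ : Subgroup (Gq p)) :
    (Subalgebra.toSubmodule (h39f_carrier e Γ)).FG := by
  obtain ⟨s, hs⟩ := (Module.Finite.fg_top : (⊤ : Submodule (GaloisRep.ratLocalizedAt p) H).FG)
  classical
  refine ⟨s.image (h39f_Phi e), ?_⟩
  rw [h39f_carrier_eq_span]
  apply le_antisymm
  · apply Submodule.span_mono
    rintro _ hx
    rw [Finset.coe_image] at hx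
    obtain ⟨h, -, rfl⟩ := hx
    exact ⟨h, rfl⟩
  · rw [Submodule.span_le]
    rintro _ ⟨h, rfl⟩
    have hh : h ∈ Submodule.span (GaloisRep.ratLocalizedAt p) (s : Set H) := by
      rw [hs]; trivial
    rw [SetLike.mem_coe]
    induction hh using Submodule.span_induction with
    | mem x hx =>
      exact Submodule.subset_span (by rw [Finset.coe_image]; exact ⟨x, hx, rfl⟩)
    | zero => rw [map_zero]; exact zero_mem _
    | add x y _ _ hx hy => rw [map_add]; exact add_mem hx hy
    | smul r x _ hx =>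
      rw [h39f_Phi_smul e Γ]
      exact Submodule.smul_mem _ _ hx

/-! ### equivariance of the evaluation functions -/

/-- the composite of a point with a Galois automorphism. -/
def h39f_comp (σ : GQ) (f : WithConv (H →ₐ[GaloisRep.ratLocalizedAt p] Qb)) :
    WithConv (H →ₐ[GaloisRep.ratLocalizedAt p] Qb) :=
  WithConv.toConv
    { toRingHom := (σ : Qb →+* Qb).comp f.ofConv.toRingHom
      commutes' := fun r => by
        show σ (f.ofConv (algebraMap _ H r)) = algebraMap _ Qb r
        rw [AlgHom.commutes]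
        exact σ.commutes (r : ℚ) }

theorem h39f_comp_apply (σ : GQ) (f : WithConv (H →ₐ[GaloisRep.ratLocalizedAt p] Qb)) (h : H) :
    (h39f_comp σ f) h = σ (f h) := rfl

variable {e} in
/-- the evaluation functions are equivariant for the whole local Galois group. -/
theorem h39f_Phi_act {act : GQ → M → M}
    (hact : ∀ (σ : GQ) (f g : WithConv (H →ₐ[GaloisRep.ratLocalizedAt p] Qb)),
      (∀ h : H, g h = σ (f h)) → e g = act σ (e f))
    (τ : Gq p) (h : H) (x : M) :
    h39f_Phi e h (act (ιp p τ) x) = τ (h39f_Phi e h x) := by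
  have h1 : e (h39f_comp (ιp p τ) (e.symm x)) = act (ιp p τ) x := by
    rw [hact (ιp p τ) (e.symm x) (h39f_comp (ιp p τ) (e.symm x)) (fun h => rfl),
      Equiv.apply_symm_apply]
  have h2 : e.symm (act (ιp p τ) x) = h39f_comp (ιp p τ) (e.symm x) := by
    rw [← h1, Equiv.symm_apply_apply]
  rw [h39f_Phi_apply, h2, h39f_Phi_apply]
  exact padicEmbedding_localGaloisToGlobal p τ _

theorem h39f_smul_apply (Γ : Subgroup (Gq p)) (c : fixInt p Γ) (f : M → Om p) (x : M) :
    (c • f) x = (c : Om p) * f x := rfl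

/-- conjugation by an element of the normaliser preserves `fixInt p Γ`. -/
theorem h39f_conj_mem_fixInt (Γ : Subgroup (Gq p)) (τ : Gq p)
    (hτ : ∀ σ ∈ Γ, τ⁻¹ * σ * τ ∈ Γ) (c : fixInt p Γ) : τ (c : Om p) ∈ fixInt p Γ := by
  refine ⟨?_, fun σ hσ => ?_⟩
  · have h2 : ‖τ (c : Om p)‖ = ‖(c : Om p)‖ :=
      congrArg NNReal.toReal (nnnorm_padicAlgCl_algEquiv p τ (c : Om p))
    rw [h2]
    exact c.2.1
  · have h1 := c.2.2 (τ⁻¹ * σ * τ) (hτ σ hσ)
    have h2 : σ (τ (c : Om p)) = τ ((τ⁻¹ * σ * τ) (c : Om p)) := by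
      rw [AlgEquiv.mul_apply, AlgEquiv.mul_apply, ← AlgEquiv.mul_apply τ τ⁻¹, mul_inv_cancel,
        AlgEquiv.one_apply]
    rw [h2, h1]

/-! ### the Sweedler form -/

/-- `F` is a finite sum of products `a i x * b i y` with `a i`, `b i` in the subalgebra `C`. -/
def h39f_Sw {R : Type} [CommRing R] [Algebra R (M → Om p)] (C : Subalgebra R (M → Om p))
    (F : M → M → Om p) : Prop :=
  ∃ (n : ℕ) (a b : Fin n → M → Om p),
    (∀ i, a i ∈ C) ∧ (∀ i, b i ∈ C) ∧ ∀ x y, F x y = ∑ i, a i x * b i y

section Sw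

variable {R : Type} [CommRing R] [Algebra R (M → Om p)] (C : Subalgebra R (M → Om p))

theorem h39f_Sw_zero : h39f_Sw C (fun _ _ => 0) :=
  ⟨0, fun i => i.elim0, fun i => i.elim0, fun i => i.elim0, fun i => i.elim0,
    fun _ _ => by simp⟩

theorem h39f_Sw_tmul {a b : M → Om p} (ha : a ∈ C) (hb : b ∈ C) :
    h39f_Sw C (fun x y => a x * b y) :=
  ⟨1, fun _ => a, fun _ => b, fun _ => ha, fun _ => hb, fun _ _ => by simp⟩

theorem h39f_Sw_add {F G : M → M → Om p} (hF : h39f_Sw C F) (hG : h39f_Sw C G) :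
    h39f_Sw C (fun x y => F x y + G x y) := by
  obtain ⟨n, a, b, ha, hb, hab⟩ := hF
  obtain ⟨n', a', b', ha', hb', hab'⟩ := hG
  refine ⟨n + n', Fin.append a a', Fin.append b b', ?_, ?_, ?_⟩
  · intro i
    refine Fin.addCases (fun j => ?_) (fun j => ?_) i
    · rw [Fin.append_left]; exact ha j
    · rw [Fin.append_right]; exact ha' j
  · intro i
    refine Fin.addCases (fun j => ?_) (fun j => ?_) i
    · rw [Fin.append_left]; exact hb j
    · rw [Fin.append_right]; exact hb' j
  · intro x y
    show F x y + G x y = _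
    rw [Fin.sum_univ_add, hab, hab']
    simp only [Fin.append_left, Fin.append_right]

end Sw

/-- the Sweedler form of the functions `(x, y) ↦ padicEmbedding (lift (e⁻¹ x) (e⁻¹ y) t)`. -/
theorem h39f_Sw_lift (Γ : Subgroup (Gq p))
    (t : TensorProduct (GaloisRep.ratLocalizedAt p) H H) :
    h39f_Sw (h39f_carrier e Γ) (fun x y => padicEmbedding p
      (Algebra.TensorProduct.lift (e.symm x).ofConv (e.symm y).ofConv
        (fun _ _ => Commute.all _ _) t)) := by
  induction t using TensorProduct.induction_on with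
  | zero =>
    have := h39f_Sw_zero (M := M) (p := p) (h39f_carrier e Γ)
    refine (iff_of_eq (congrArg _ ?_)).mp this
    funext x y
    rw [map_zero, map_zero]
  | tmul a b =>
    have := h39f_Sw_tmul (h39f_carrier e Γ) (h39f_Phi_mem e Γ a) (h39f_Phi_mem e Γ b)
    refine (iff_of_eq (congrArg _ ?_)).mp this
    funext x y
    rw [Algebra.TensorProduct.lift_tmul, map_mul]
    rfl
  | add t t' ht ht' =>
    have := h39f_Sw_add (h39f_carrier e Γ) ht ht'
    refine (iff_of_eq (congrArg _ ?_)).mp this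
    funext x y
    rw [map_add, map_add]

variable {e} in
/-- the evaluation functions in Sweedler form. -/
theorem h39f_Sw_Phi (hmul : ∀ f g : WithConv (H →ₐ[GaloisRep.ratLocalizedAt p] Qb),
      e (f * g) = e f + e g) (Γ : Subgroup (Gq p)) (h : H) :
    h39f_Sw (h39f_carrier e Γ) (fun x y => h39f_Phi e h (x + y)) := by
  have := h39f_Sw_lift e Γ (Coalgebra.comul h)
  refine (iff_of_eq (congrArg _ ?_)).mp this
  funext x y
  have h1 : e.symm (x + y) = e.symm x * e.symm y := by
    apply e.injective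
    rw [hmul, Equiv.apply_symm_apply, Equiv.apply_symm_apply, Equiv.apply_symm_apply]
  rw [h39f_Phi_apply, h1]
  exact congrArg (padicEmbedding p) (AlgHom.convMul_apply (e.symm x) (e.symm y) h).symm

variable {e} in
/-- every element of the order in Sweedler form. -/
theorem h39f_Sw_carrier (hmul : ∀ f g : WithConv (H →ₐ[GaloisRep.ratLocalizedAt p] Qb),
      e (f * g) = e f + e g) (Γ : Subgroup (Gq p)) {f : M → Om p}
    (hf : f ∈ h39f_carrier e Γ) :
    h39f_Sw (h39f_carrier e Γ) (fun x y => f (x + y)) := by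
  refine h39f_induction e Γ (P := fun f => h39f_Sw (h39f_carrier e Γ) (fun x y => f (x + y)))
    (fun h => h39f_Sw_Phi hmul Γ h) ?_ ?_ ?_ hf
  · exact h39f_Sw_zero _
  · intro f g hf hg
    exact h39f_Sw_add _ hf hg
  · rintro c f ⟨n, a, b, ha, hb, hab⟩
    refine ⟨n, fun i => c • a i, b, fun i => Subalgebra.smul_mem _ (ha i) c, hb, ?_⟩
    intro x y
    show (c • f) (x + y) = _
    rw [h39f_smul_apply, show f (x + y) = _ from hab x y, Finset.mul_sum]
    refine Finset.sum_congr rfl fun i _ => ?_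
    show (c : Om p) * (a i x * b i y) = (c • a i) x * b i y
    rw [h39f_smul_apply, mul_assoc]

end Order

/-! ## the theorem -/

/-- **FL-A1.** -/
theorem h39f_normalForm : NormalForm := by
  intro p _ M _ _ act hfl Γ
  obtain ⟨H, hCR, hHopf, hfin, -, -, e, hmul, hact⟩ := hfl
  refine ⟨⟨h39f_carrier e Γ, h39f_fg e Γ, ?_, ?_, ?_⟩, ?_⟩
  · -- equivariance
    intro f hf σ hσ
    refine h39f_induction e Γ
      (P := fun f => ∀ x, f (act (ιp p σ) x) = σ (f x)) ?_ ?_ ?_ ?_ hf
    · intro h x
      exact h39f_Phi_act hact σ h x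
    · intro x
      simp
    · intro f g hf hg x
      rw [Pi.add_apply, Pi.add_apply, hf, hg, map_add]
    · intro c f hf x
      rw [h39f_smul_apply, h39f_smul_apply, hf, map_mul, c.2.2 σ hσ]
  · -- separation
    intro x y hxy
    apply e.symm.injective
    apply WithConv.ext
    refine AlgHom.ext fun h => ?_
    have h1 := hxy (h39f_Phi e h) (h39f_Phi_mem e Γ h)
    rw [h39f_Phi_apply, h39f_Phi_apply] at h1
    exact (padicEmbedding p).toRingHom.injective h1
  · -- Sweedler form
    intro f hf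
    exact h39f_Sw_carrier hmul Γ hf
  · -- conjugation
    intro τ hτ1 hτ2 f hf
    refine h39f_induction e Γ
      (P := fun f => (fun x => τ (f (act (ιp p τ⁻¹) x))) ∈ h39f_carrier e Γ) ?_ ?_ ?_ ?_ hf
    · intro h
      have : (fun x => τ (h39f_Phi e h (act (ιp p τ⁻¹) x))) = h39f_Phi e h := by
        funext x
        rw [h39f_Phi_act hact τ⁻¹ h x, ← AlgEquiv.mul_apply, mul_inv_cancel, AlgEquiv.one_apply]
      rw [this]
      exact h39f_Phi_mem e Γ h
    · have : (fun x => τ ((0 : M → Om p) (act (ιp p τ⁻¹) x))) = 0 := by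
        funext x
        simp
      rw [this]
      exact zero_mem _
    · intro f g hf hg
      have : (fun x => τ ((f + g) (act (ιp p τ⁻¹) x))) =
          (fun x => τ (f (act (ιp p τ⁻¹) x))) + (fun x => τ (g (act (ιp p τ⁻¹) x))) := by
        funext x
        rw [Pi.add_apply, Pi.add_apply, map_add]
      rw [this]
      exact add_mem hf hg
    · intro c f hf
      have : (fun x => τ ((c • f) (act (ιp p τ⁻¹) x))) =
          (⟨τ (c : Om p), h39f_conj_mem_fixInt Γ τ hτ2 c⟩ : fixInt p Γ) •
            (fun x => τ (f (act (ιp p τ⁻¹) x))) := by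
        funext x
        rw [h39f_smul_apply, h39f_smul_apply, map_mul]
      rw [this]
      exact Subalgebra.smul_mem _ hf _

end Fermat.Agent.S56F
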