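import Fermat.Agent.S56F.IfaceRank1
import Fermat.Agent.PT.Loc.H34LFTeich

/-!
# S56 / LOC-p-FL, leaf FL-D0 (helper89): inertia = the elements fixing the prime-to-`p` roots of unity

`h89d0_inertiaIffRoots : InertiaIffRoots`.

* (⇒) a root of unity `w` of order prime to `p` and its image `σ w` are congruent modulo the
  maximal ideal, hence equal (`h34lf_teich_unique_K` in the finite extension `ℚ_p(w, σ w)`).
* (⇐) an integer `x` of norm `1` is congruent to a root of unity `w` of order prime to `p` of the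
  finite extension `ℚ_p(x)` (`h34lf_lfTeich`), so `σ x - x = σ (x - w) - (x - w)` has norm `< 1`.
-/

set_option autoImplicit false

open Fermat.Agent.PT.Loc

noncomputable section

namespace Fermat.Agent.S56F

variable {p : ℕ} [Fact p.Prime]

/-- the elements of `Gq p` are isometries. -/
theorem h89d0_norm_map (σ : Gq p) (x : Om p) : ‖σ x‖ = ‖x‖ :=
  congrArg NNReal.toReal (nnnorm_padicAlgCl_algEquiv p σ x)

/-- a root of unity has norm one. -/
theorem h89d0_norm_of_pow_eq_one {w : Om p} {m : ℕ} (hm : 0 < m) (hw : w ^ m = 1) : ‖w‖ = 1 := by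
  have h2 : ‖w‖ ^ m = 1 := by rw [← norm_pow, hw, norm_one]
  exact (pow_eq_one_iff_of_nonneg (norm_nonneg w) hm.ne').mp h2

/-- finite subextensions generated by finitely many elements. -/
theorem h89d0_finiteDimensional_adjoin (S : Set (Om p)) (hS : S.Finite) :
    FiniteDimensional ℚ_[p] (IntermediateField.adjoin ℚ_[p] S) := by
  have : Finite S := hS
  exact IntermediateField.finiteDimensional_adjoin
    (fun x _ => (Algebra.IsAlgebraic.isAlgebraic (R := ℚ_[p]) x).isIntegral)

/-- (⇒) inertia fixes the roots of unity of order prime to `p`. -/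
theorem h89d0_fix_of_mem_inertia {σ : Gq p} (hσ : σ ∈ inertia p) (w : Om p) (m : ℕ)
    (hm0 : 0 < m) (hm : ¬ p ∣ m) (hw : w ^ m = 1) : σ w = w := by
  have hw1 : ‖w‖ = 1 := h89d0_norm_of_pow_eq_one hm0 hw
  have hcong : ‖σ w - w‖ < 1 := hσ w hw1.le
  have hσw : (σ w) ^ m = 1 := by rw [← map_pow, hw, map_one]
  have : FiniteDimensional ℚ_[p] (IntermediateField.adjoin ℚ_[p] ({σ w, w} : Set (Om p))) :=
    h89d0_finiteDimensional_adjoin _ (Set.toFinite _)
  exact h34lf_teich_unique_K (IntermediateField.adjoin ℚ_[p] ({σ w, w} : Set (Om p))) hm hm hm0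
    (IntermediateField.subset_adjoin _ _ (by simp))
    (IntermediateField.subset_adjoin _ _ (by simp)) hσw hw hcong

/-- (⇐) an element fixing the roots of unity of order prime to `p` is in the inertia group. -/
theorem h89d0_mem_inertia_of_fix {σ : Gq p}
    (hσ : ∀ (w : Om p) (m : ℕ), 0 < m → ¬ p ∣ m → w ^ m = 1 → σ w = w) : σ ∈ inertia p := by
  intro x hx
  rcases lt_or_eq_of_le hx with hlt | heq
  · have h1 : ‖σ x - x‖ ≤ max ‖σ x‖ ‖x‖ := by
      have := IsUltrametricDist.norm_add_le_max (σ x) (-x)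
      rwa [norm_neg, ← sub_eq_add_neg] at this
    rw [h89d0_norm_map, max_self] at h1
    exact lt_of_le_of_lt h1 hlt
  · have : FiniteDimensional ℚ_[p] (IntermediateField.adjoin ℚ_[p] ({x} : Set (Om p))) :=
      h89d0_finiteDimensional_adjoin _ (Set.toFinite _)
    obtain ⟨-, -, -, hex, -⟩ :=
      h34lf_lfTeich p (IntermediateField.adjoin ℚ_[p] ({x} : Set (Om p)))
    obtain ⟨w, hw, hxw⟩ := hex x (IntermediateField.subset_adjoin _ _ (by simp)) heq
    obtain ⟨-, m, hm0, hm, hwm⟩ := hw
    have hfix : σ w = w := hσ w m hm0 hm hwm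
    have h2 : σ x - x = σ (x - w) + (-(x - w)) := by
      rw [map_sub, hfix]; ring
    have h3 : ‖σ x - x‖ ≤ max ‖σ (x - w)‖ ‖-(x - w)‖ := by
      rw [h2]; exact IsUltrametricDist.norm_add_le_max _ _
    rw [h89d0_norm_map, norm_neg, max_self] at h3
    exact lt_of_le_of_lt h3 hxw

/-- **FL-D0.**  The inertia group is the group of the elements fixing all roots of unity of order
prime to `p`. -/
theorem h89d0_inertiaIffRoots : InertiaIffRoots := by
  intro p _ σ
  exact ⟨fun h w m hm0 hm hw => h89d0_fix_of_mem_inertia h w m hm0 hm hw,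
    fun h => h89d0_mem_inertia_of_fix h⟩

end Fermat.Agent.S56F
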