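import Fermat.Agent.S56F.IfaceOrd
import Fermat.Agent.PT.Loc.H36URBase

/-!
# S56 / LOC-p-FL, row FL-O3 (helper84): `OrdLine`

`M⁰ = {y | v(y) > 0}` (the points `≡ 0` modulo the maximal ideal) of a nice order over inertia
on `V × V = V ⊕ εV` (the deformation `(1 + ε c) ρ`) is the free `k[ε]`-line
`k[ε] (v₀, w₀)`; it is stable under `Gq p` and inertia is trivial on the quotient.  Choosing a
trace-zero `X` with `X v₀ ≡ w₀` modulo `k v₀`, the cocycle `c - ∂X` is upper triangular, its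
values on inertia have range in `k v₀`, and the trace-zero condition kills its diagonal on
inertia.

Main theorem: `h84o_ordLine : RankOne → QuotOrder → SubOrder → InertiaDiscrete → PtSubgroup →
PtStable → InertiaTrivial → FundSurjective → CycFund → TeichExists → OrdLine`.
-/

set_option autoImplicit false
set_option linter.style.haveILetI false

open Fermat.Agent.PT.Loc Polynomial

noncomputable section

namespace Fermat.Agent.S56F

/-! ## Basics on `Gq p` -/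

section Basics

variable {p : ℕ} [Fact p.Prime]

theorem h84o_norm_map (σ : Gq p) (x : Om p) : ‖σ x‖ = ‖x‖ :=
  congrArg NNReal.toReal (nnnorm_padicAlgCl_algEquiv p σ x)

/-- inertia is a normal subgroup. -/
theorem h84o_inertia_conj (τ : Gq p) {σ : Gq p} (hσ : σ ∈ inertia p) :
    τ * σ * τ⁻¹ ∈ inertia p := by
  intro x hx
  have h1 : ‖τ⁻¹ x‖ ≤ 1 := by rw [h84o_norm_map]; exact hx
  have h2 := hσ (τ⁻¹ x) h1
  have h4 : τ (τ⁻¹ x) = x := by
    rw [← AlgEquiv.mul_apply, mul_inv_cancel, AlgEquiv.one_apply]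
  have h3 : (τ * σ * τ⁻¹) x - x = τ (σ (τ⁻¹ x) - τ⁻¹ x) := by
    rw [map_sub, AlgEquiv.mul_apply, AlgEquiv.mul_apply, h4]
  rw [h3, h84o_norm_map]
  exact h2

theorem h84o_inertia_conj' (τ : Gq p) {σ : Gq p} (hσ : σ ∈ inertia p) :
    τ⁻¹ * σ * τ ∈ inertia p := by
  have h := h84o_inertia_conj τ⁻¹ hσ
  rwa [inv_inv] at h

/-- every `σ` acts on `μ_p` by some power. -/
theorem h84o_exists_cycExp (σ : Gq p) : ∃ a : ℕ, cycExp p σ a := by
  have hp := (Fact.out : p.Prime)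
  haveI : NeZero p := ⟨hp.ne_zero⟩
  haveI hnz : NeZero ((p : ℕ) : Om p) := ⟨by exact_mod_cast hp.ne_zero⟩
  obtain ⟨ζ, hζ⟩ := HasEnoughRootsOfUnity.exists_primitiveRoot (Om p) p
  have h1 : (σ ζ) ^ p = 1 := by rw [← map_pow, hζ.pow_eq_one, map_one]
  obtain ⟨a, -, ha⟩ := hζ.eq_pow_of_pow_eq_one h1
  refine ⟨a, fun μ hμ => ?_⟩
  obtain ⟨j, -, hj⟩ := hζ.eq_pow_of_pow_eq_one hμ
  rw [← hj, map_pow, ← ha, ← pow_mul, ← pow_mul, mul_comm]

/-- for `p` odd some element of inertia acts on `μ_p` by an exponent `a ≢ 1`. -/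
theorem h84o_exists_inert_ne_one (hFS : FundSurjective) (hCF : CycFund) (hp2 : p ≠ 2)
    (k : Type) [Field k] [CharP k p] :
    ∃ σ ∈ inertia p, ∃ a : ℕ, cycExp p σ a ∧ (a : k) ≠ 1 := by
  have hp := (Fact.out : p.Prime)
  have hp3 : 3 ≤ p := by
    have h2 := hp.two_le
    omega
  have hpos : 0 < p - 1 := by omega
  have hnd : ¬ p ∣ p - 1 := by
    intro h
    have := Nat.le_of_dvd hpos h
    omega
  obtain ⟨π, hπ⟩ := IsAlgClosed.exists_pow_nat_eq ((p : ℕ) : Om p) hpos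
  have heven : Even (p - 1) := hp.even_sub_one hp2
  have hm1 : (-1 : Om p) ^ (p - 1) = 1 := heven.neg_one_pow
  obtain ⟨σ, hσ, hσπ⟩ := hFS p (p - 1) hpos hnd π hπ (-1) hm1
  obtain ⟨a, ha⟩ := h84o_exists_cycExp σ
  refine ⟨σ, hσ, a, ha, ?_⟩
  have hπ0 : π ≠ 0 := by
    rintro rfl
    rw [zero_pow hpos.ne'] at hπ
    exact (Nat.cast_ne_zero.mpr hp.ne_zero) hπ.symm
  have h1 := hCF p hp2 (p - 1) hpos hnd (dvd_refl _) π hπ σ hσ a ha
  rw [Nat.div_self hpos, pow_one, hσπ, mul_div_assoc, div_self hπ0, mul_one] at h1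
  have h2 : ‖(((a + 1 : ℕ)) : Om p)‖ < 1 := by
    have h : (((a + 1 : ℕ)) : Om p) = -(-1 - (a : Om p)) := by push_cast; ring
    rw [h, norm_neg]
    exact h1
  have h3 : p ∣ a + 1 := by
    by_contra h
    rw [h36u_norm_natCast_eq_one h] at h2
    exact lt_irrefl _ h2
  have h4 : ((a + 1 : ℕ) : k) = 0 := (CharP.cast_eq_zero_iff k p _).2 h3
  intro h5
  have h6 : ((2 : ℕ) : k) = 0 := by
    push_cast at h4 ⊢
    rw [h5] at h4
    rw [← h4]
    norm_num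
  have h7 := (CharP.cast_eq_zero_iff k p 2).1 h6
  have := Nat.le_of_dvd (by norm_num) h7
  omega

end Basics

/-! ## The deformation action -/

section Act

variable {p : ℕ} [Fact p.Prime] {k : Type} [Field k] {V : Type} [AddCommGroup V] [Module k V]

theorem h84o_defAct_apply (ρ : Gq p →* Module.End k V) (c : Gq p → Module.End k V) (σ : Gq p)
    (x : V × V) : defAct ρ c σ x = (ρ σ x.1, ρ σ x.2 + c σ (ρ σ x.1)) := rfl

theorem h84o_rho_inv_apply (ρ : Gq p →* Module.End k V) (σ : Gq p) (v : V) :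
    ρ σ⁻¹ (ρ σ v) = v := by
  rw [← Module.End.mul_apply, ← map_mul, inv_mul_cancel, map_one, Module.End.one_apply]

theorem h84o_rho_apply_inv (ρ : Gq p →* Module.End k V) (σ : Gq p) (v : V) :
    ρ σ (ρ σ⁻¹ v) = v := by
  rw [← Module.End.mul_apply, ← map_mul, mul_inv_cancel, map_one, Module.End.one_apply]

theorem h84o_isAct (ρ : Gq p →* Module.End k V) (c : Gq p → Module.End k V)
    (hc : ∀ σ τ : Gq p, c (σ * τ) = c σ + ρ σ * c τ * ρ σ⁻¹) : IsAct (defAct ρ c) := by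
  have hc1 : c 1 = 0 := by
    have := hc 1 1
    simp only [mul_one, map_one, inv_one, one_mul] at this
    exact left_eq_add.mp this
  refine ⟨fun x => ?_, fun σ τ x => ?_, fun σ x y => ?_⟩
  · simp [defAct, hc1]
  · have h3 : c (σ * τ) * ρ σ = c σ * ρ σ + ρ σ * c τ := by
      rw [hc σ τ, add_mul, mul_assoc (ρ σ * c τ), ← map_mul, inv_mul_cancel, map_one,
        mul_one]
    have h4 : ∀ v : V, c (σ * τ) (ρ σ v) = c σ (ρ σ v) + ρ σ (c τ v) := fun v => by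
      have := congrArg (fun f : Module.End k V => f v) h3
      simpa [Module.End.mul_apply] using this
    simp only [defAct, map_mul, Module.End.mul_apply, map_add, Prod.mk.injEq, true_and]
    rw [h4]
    abel
  · simp only [defAct, Prod.fst_add, Prod.snd_add, map_add, Prod.mk_add_mk, Prod.mk.injEq,
      true_and]
    abel

end Act

/-! ## The points `≡ 0` modulo the maximal ideal -/

section M0

variable {p : ℕ} [Fact p.Prime] {Γ : Subgroup (Gq p)} {M : Type} [AddCommGroup M]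
  {act : Gq p → M → M}

/-- the points `≡ 0` modulo the maximal ideal ("`v(y) > 0`"). -/
def h84o_M0 (𝓗 : FHO p Γ M act) : Set M := {y | ∃ t : ℝ, t < 1 ∧ 𝓗.PtLE y t}

theorem h84o_M0_zero (𝓗 : FHO p Γ M act) : (0 : M) ∈ h84o_M0 𝓗 :=
  ⟨0, zero_lt_one, fun f _ => by rw [sub_self, norm_zero]⟩

theorem h84o_ptLE_mono (𝓗 : FHO p Γ M act) {y : M} {t t' : ℝ} (h : 𝓗.PtLE y t)
    (htt : t ≤ t') : 𝓗.PtLE y t' :=
  fun f hf => (h f hf).trans htt

theorem h84o_M0_add (hB3 : PtSubgroup) (𝓗 : FHO p Γ M act) {y y' : M}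
    (hy : y ∈ h84o_M0 𝓗) (hy' : y' ∈ h84o_M0 𝓗) : y + y' ∈ h84o_M0 𝓗 := by
  obtain ⟨t, ht, h⟩ := hy
  obtain ⟨t', ht', h'⟩ := hy'
  exact ⟨max t t', max_lt ht ht', (hB3 p Γ M act 𝓗 (max t t')).2.1 y y'
    (h84o_ptLE_mono 𝓗 h (le_max_left _ _)) (h84o_ptLE_mono 𝓗 h' (le_max_right _ _))⟩

theorem h84o_M0_neg (hB3 : PtSubgroup) (𝓗 : FHO p Γ M act) {y : M}
    (hy : y ∈ h84o_M0 𝓗) : -y ∈ h84o_M0 𝓗 := by
  obtain ⟨t, ht, h⟩ := hy
  exact ⟨t, ht, (hB3 p Γ M act 𝓗 t).2.2 y h⟩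

theorem h84o_M0_sub (hB3 : PtSubgroup) (𝓗 : FHO p Γ M act) {y y' : M}
    (hy : y ∈ h84o_M0 𝓗) (hy' : y' ∈ h84o_M0 𝓗) : y - y' ∈ h84o_M0 𝓗 := by
  rw [sub_eq_add_neg]
  exact h84o_M0_add hB3 𝓗 hy (h84o_M0_neg hB3 𝓗 hy')

theorem h84o_M0_aut (hB4 : PtStable) (hact : IsAct act) (𝓗 : FHO p Γ M act) (α : M ≃+ M)
    (hα : 𝓗.StableUnder α) {y : M} (hy : y ∈ h84o_M0 𝓗) : α y ∈ h84o_M0 𝓗 := by
  obtain ⟨t, ht, h⟩ := hy
  exact ⟨t, ht, (hB4 p Γ M act hact 𝓗 t y h).2.1 α hα⟩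

theorem h84o_M0_act (hB4 : PtStable) (hact : IsAct act) (𝓗 : FHO p Γ M act) (τ : Gq p)
    (hτ : 𝓗.ConjStable τ⁻¹) {y : M} (hy : y ∈ h84o_M0 𝓗) : act τ y ∈ h84o_M0 𝓗 := by
  obtain ⟨t, ht, h⟩ := hy
  exact ⟨t, ht, (hB4 p Γ M act hact 𝓗 t y h).2.2 τ hτ⟩

theorem h84o_M0_inert (hB5 : InertiaTrivial) (𝓗 : FHO p Γ M act) (hΓ : Γ ≤ inertia p)
    {σ : Gq p} (hσ : σ ∈ Γ) (x : M) : act σ x - x ∈ h84o_M0 𝓗 :=
  hB5 p Γ M act 𝓗 hΓ σ hσ x

end M0

/-! ## The `k[ε]`-module structure of `M⁰ ⊆ V × V` -/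

section Def

variable {p : ℕ} [Fact p.Prime] {k : Type} [Field k] {V : Type} [AddCommGroup V] [Module k V]

/-- multiplication by the unit `a`. -/
def h84o_scal (a : kˣ) : (V × V) ≃+ (V × V) where
  toFun x := ((a : k) • x.1, (a : k) • x.2)
  invFun x := (((a⁻¹ : kˣ) : k) • x.1, ((a⁻¹ : kˣ) : k) • x.2)
  left_inv x := by simp [smul_smul]
  right_inv x := by simp [smul_smul]
  map_add' x y := by simp [smul_add]

/-- multiplication by `1 + b ε`. -/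
def h84o_shear (b : k) : (V × V) ≃+ (V × V) where
  toFun x := (x.1, x.2 + b • x.1)
  invFun x := (x.1, x.2 - b • x.1)
  left_inv x := by simp
  right_inv x := by simp
  map_add' x y := by
    simp only [Prod.fst_add, Prod.snd_add, smul_add, Prod.mk_add_mk, Prod.mk.injEq, true_and]
    abel

theorem h84o_scal_apply (a : kˣ) (x : V × V) :
    h84o_scal a x = ((a : k) • x.1, (a : k) • x.2) := rfl

theorem h84o_shear_apply (b : k) (x : V × V) :
    h84o_shear b x = (x.1, x.2 + b • x.1) := rfl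

variable (ρ : Gq p →* Module.End k V) (c : Gq p → Module.End k V)

theorem h84o_scal_comm (a : kˣ) (σ : Gq p) (x : V × V) :
    h84o_scal a (defAct ρ c σ x) = defAct ρ c σ (h84o_scal a x) := by
  simp only [h84o_scal_apply, h84o_defAct_apply, map_smul, smul_add]

theorem h84o_shear_comm (b : k) (σ : Gq p) (x : V × V) :
    h84o_shear b (defAct ρ c σ x) = defAct ρ c σ (h84o_shear b x) := by
  simp only [h84o_shear_apply, h84o_defAct_apply, map_smul, map_add, Prod.mk.injEq, true_and]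
  abel

variable {ρ c}
variable (𝓗 : FHO p (inertia p) (V × V) (defAct ρ c))

theorem h84o_M0_scal (hB4 : PtStable) (hact : IsAct (defAct ρ c)) (h𝓗 : 𝓗.Nice) (a : kˣ)
    {y : V × V} (hy : y ∈ h84o_M0 𝓗) : ((a : k) • y.1, (a : k) • y.2) ∈ h84o_M0 𝓗 :=
  h84o_M0_aut hB4 hact 𝓗 (h84o_scal a)
    (h𝓗.aut (h84o_scal a) fun σ _ x => h84o_scal_comm ρ c a σ x) hy

theorem h84o_M0_smul (hB4 : PtStable) (hact : IsAct (defAct ρ c)) (h𝓗 : 𝓗.Nice) (a : k)
    {y : V × V} (hy : y ∈ h84o_M0 𝓗) : (a • y.1, a • y.2) ∈ h84o_M0 𝓗 := by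
  by_cases ha : a = 0
  · subst ha
    simp only [zero_smul]
    exact h84o_M0_zero 𝓗
  · exact h84o_M0_scal 𝓗 hB4 hact h𝓗 (Units.mk0 a ha) hy

theorem h84o_M0_shear (hB4 : PtStable) (hact : IsAct (defAct ρ c)) (h𝓗 : 𝓗.Nice) (b : k)
    {y : V × V} (hy : y ∈ h84o_M0 𝓗) : (y.1, y.2 + b • y.1) ∈ h84o_M0 𝓗 :=
  h84o_M0_aut hB4 hact 𝓗 (h84o_shear b)
    (h𝓗.aut (h84o_shear b) fun σ _ x => h84o_shear_comm ρ c b σ x) hy

/-- multiplication by `b ε`. -/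
theorem h84o_M0_eps (hB3 : PtSubgroup) (hB4 : PtStable) (hact : IsAct (defAct ρ c))
    (h𝓗 : 𝓗.Nice) (b : k) {y : V × V} (hy : y ∈ h84o_M0 𝓗) :
    ((0 : V), b • y.1) ∈ h84o_M0 𝓗 := by
  have h := h84o_M0_sub hB3 𝓗 (h84o_M0_shear 𝓗 hB4 hact h𝓗 b hy) hy
  have e : (y.1, y.2 + b • y.1) - y = ((0 : V), b • y.1) := by
    ext <;> simp
  rwa [e] at h

/-- `M⁰` is stable under `Gq p`. -/
theorem h84o_M0_gal (hB4 : PtStable) (hact : IsAct (defAct ρ c)) (h𝓗 : 𝓗.Nice) (τ : Gq p)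
    {y : V × V} (hy : y ∈ h84o_M0 𝓗) : defAct ρ c τ y ∈ h84o_M0 𝓗 := by
  refine h84o_M0_act hB4 hact 𝓗 τ (h𝓗.conj τ⁻¹ (fun σ hσ => ?_) (fun σ hσ => ?_)) hy
  · exact h84o_inertia_conj τ⁻¹ hσ
  · exact h84o_inertia_conj' τ⁻¹ hσ

end Def

/-! ## The key step: `M⁰ ∩ εV ⊆ ε k v₀` (rank one with `m = 0` on the étale quotient) -/

section Key

/-- a sum of distinct powers `p ^ i`, `i < r`, divisible by `p ^ r - 1` is zero (`p` odd). -/
theorem h84o_digit_zero {p r m : ℕ} (hp : p.Prime) (hp2 : p ≠ 2) (hr : 0 < r)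
    (S : Finset (Fin r)) (hm : m = ∑ i ∈ S, p ^ (i : ℕ)) (hdvd : p ^ r - 1 ∣ m) : m = 0 := by
  have hp3 : 3 ≤ p := by
    have h2 := hp.two_le
    omega
  have h1 : m ≤ ∑ i : Fin r, p ^ (i : ℕ) := by
    rw [hm]
    exact Finset.sum_le_sum_of_subset (Finset.subset_univ S)
  have h2 : ∑ i : Fin r, p ^ (i : ℕ) = ∑ i ∈ Finset.range r, p ^ i :=
    Fin.sum_univ_eq_sum_range (fun i => p ^ i) r
  have h3 := Nat.geomSum_eq hp.two_le r
  have hpr : p ≤ p ^ r := by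
    calc p = p ^ 1 := (pow_one p).symm
      _ ≤ p ^ r := Nat.pow_le_pow_right hp.pos hr
  have hn : 0 < p ^ r - 1 := by omega
  have h4 : (p ^ r - 1) / (p - 1) ≤ (p ^ r - 1) / 2 :=
    Nat.div_le_div_left (by omega) (by norm_num)
  have h5 : (p ^ r - 1) / 2 < p ^ r - 1 := Nat.div_lt_self hn (by norm_num)
  have h6 : m < p ^ r - 1 := by
    rw [h2, h3] at h1
    omega
  exact Nat.eq_zero_of_dvd_of_lt hdvd h6

variable {p : ℕ} [Fact p.Prime] {k : Type} [Field k] [Finite k] [CharP k p]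
  {V : Type} [AddCommGroup V] [Module k V] [Module.Finite k V]
  {ρ : Gq p →* Module.End k V} {c : Gq p → Module.End k V}

theorem h84o_eps_mem (hR : RankOne) (hQ : QuotOrder) (hS : SubOrder) (hD : InertiaDiscrete)
    (hFS : FundSurjective) (hT : TeichExists) (hρ : LocHyp p ρ) {v₀ : V} (hv₀ : OrdNF p ρ v₀)
    (𝓗 : FHO p (inertia p) (V × V) (defAct ρ c)) (h𝓗 : 𝓗.Nice) {w : V}
    (hw : ((0 : V), w) ∈ h84o_M0 𝓗) : w ∈ Submodule.span k {v₀} := by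
  classical
  by_contra hwL
  have hp := (Fact.out : p.Prime)
  haveI : Finite V := Module.finite_of_finite k
  letI : Fintype k := Fintype.ofFinite k
  obtain ⟨r, -, hcard⟩ := FiniteField.card k p
  set L : Submodule k V := Submodule.span k {v₀} with hL
  have hv₀L : v₀ ∈ L := Submodule.mem_span_singleton_self _
  -- the sub-order on `εV`
  let actV : Gq p → V → V := fun σ v => ρ σ v
  let j : V →+ V × V := AddMonoidHom.inr V V
  have hj : Function.Injective j := fun a b h => (Prod.mk.inj h).2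
  have hjeq : ∀ σ ∈ inertia p, ∀ x, j (actV σ x) = defAct ρ c σ (j x) := by
    intro σ _ x
    simp [j, actV, defAct]
  obtain ⟨𝓗V, hV1, hV2⟩ := hS p (inertia p) (V × V) (defAct ρ c) 𝓗 V actV j hj hjeq
  -- the quotient order on `V / k v₀`
  have hstab : ∀ σ : Gq p, L ≤ L.comap (ρ σ) := by
    intro σ x hx
    rw [Submodule.mem_comap]
    obtain ⟨a, rfl⟩ := Submodule.mem_span_singleton.1 hx
    obtain ⟨b, hb⟩ := hv₀.stable σ
    rw [map_smul, hb, smul_smul]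
    exact Submodule.smul_mem _ _ hv₀L
  let actQ : Gq p → (V ⧸ L) → (V ⧸ L) := fun σ => L.mapQ L (ρ σ) (hstab σ)
  let π : V →+ (V ⧸ L) := L.mkQ.toAddMonoidHom
  have hπs : Function.Surjective π := L.mkQ_surjective
  have hπeq : ∀ σ ∈ inertia p, ∀ x, π (actV σ x) = actQ σ (π x) := fun σ _ x => rfl
  have hactV : IsAct actV :=
    ⟨fun x => by simp [actV], fun σ τ x => by simp [actV, map_mul],
      fun σ x y => by simp [actV]⟩
  obtain ⟨𝓗Q, hQ1, hQ2⟩ :=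
    hQ p (inertia p) (p : Om p) (hD p) V actV hactV 𝓗V (V ⧸ L) actQ π hπs hπeq
  -- the hypotheses of rank one
  have hfr : Module.finrank k (V ⧸ L) = 1 := by
    have h1 := Submodule.finrank_quotient_add_finrank L
    have h2 : Module.finrank k L = 1 := finrank_span_singleton hv₀.ne
    rw [hρ.rank, h2] at h1
    omega
  have hχ : ∀ σ ∈ inertia p, ∀ x : V ⧸ L, actQ σ x = ((fun _ : Gq p => (1 : kˣ)) σ) • x := by
    intro σ hσ x
    obtain ⟨v, rfl⟩ := L.mkQ_surjective x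
    rw [one_smul]
    show L.mkQ (ρ σ v) = L.mkQ v
    obtain ⟨b, hb⟩ := hv₀.inert_quot σ hσ v
    rw [← sub_eq_zero, ← map_sub, hb]
    exact (Submodule.Quotient.mk_eq_zero L).2 (Submodule.smul_mem _ _ hv₀L)
  have hstQ : ∀ a : kˣ, 𝓗Q.StableUnder (fun x => a • x) := by
    intro a g hg
    rw [hQ1, hV1] at hg
    rw [hQ1, hV1]
    obtain ⟨f, hf, hgf⟩ := hg
    refine ⟨fun x => f (h84o_scal a x),
      h𝓗.aut (h84o_scal a) (fun σ _ x => h84o_scal_comm ρ c a σ x) f hf, ?_⟩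
    funext v
    have h1 := congrFun hgf ((a : k) • v)
    simp only [Function.comp_apply] at h1 ⊢
    have h2 : h84o_scal a (j v) = j ((a : k) • v) := by
      simp [h84o_scal_apply, j]
    have h3 : a • π v = π ((a : k) • v) := by
      rw [Units.smul_def]
      exact (L.mkQ.map_smul (a : k) v).symm
    rw [h2, ← h1, h3]
  have hchQ : 𝓗Q.CharComplete := hQ2 (hV2 h𝓗.char)
  obtain ⟨τ, hτ⟩ := hT p k
  have hr : 0 < (r : ℕ) := r.pos
  have hpr : p ≤ p ^ (r : ℕ) := by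
    calc p = p ^ 1 := (pow_one p).symm
      _ ≤ p ^ (r : ℕ) := Nat.pow_le_pow_right hp.pos hr
  have hn0 : 0 < p ^ (r : ℕ) - 1 := Nat.sub_pos_of_lt (lt_of_lt_of_le hp.one_lt hpr)
  have hpn : ¬ p ∣ p ^ (r : ℕ) - 1 := by
    intro h
    have h1 : p ∣ p ^ (r : ℕ) := dvd_pow_self p hr.ne'
    have h2 : p ∣ p ^ (r : ℕ) - (p ^ (r : ℕ) - 1) := Nat.dvd_sub h1 h
    have h3 : p ^ (r : ℕ) - (p ^ (r : ℕ) - 1) = 1 := by omega
    rw [h3] at h2
    exact hp.one_lt.ne' (Nat.dvd_one.mp h2)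
  obtain ⟨π₀, hπ₀⟩ := IsAlgClosed.exists_pow_nat_eq ((p : ℕ) : Om p) hn0
  obtain ⟨m, ⟨S, hmS⟩, hmχ, hX⟩ := hR p hρ.odd k r hcard (V ⧸ L) hfr actQ (fun _ => 1) hχ 𝓗Q
    hstQ hchQ τ hτ π₀ hπ₀
  -- `m = 0`
  have hπ₀0 : π₀ ≠ 0 := by
    rintro rfl
    rw [zero_pow hn0.ne'] at hπ₀
    exact (Nat.cast_ne_zero.mpr hp.ne_zero) hπ₀.symm
  haveI hnz : NeZero (((p ^ (r : ℕ) - 1 : ℕ)) : Om p) := ⟨by exact_mod_cast hn0.ne'⟩
  obtain ⟨ζ, hζ⟩ := HasEnoughRootsOfUnity.exists_primitiveRoot (Om p) (p ^ (r : ℕ) - 1)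
  obtain ⟨σ, hσ, hσπ⟩ := hFS p (p ^ (r : ℕ) - 1) hn0 hpn π₀ hπ₀ ζ hζ.pow_eq_one
  have hΨ : σ π₀ / π₀ = ζ := by
    rw [hσπ, mul_div_assoc, div_self hπ₀0, mul_one]
  have hζm : ζ ^ m = 1 := by
    have h1 := hmχ σ hσ
    rw [hΨ] at h1
    rw [← h1]
    simp
  have hdvd : p ^ (r : ℕ) - 1 ∣ m := (hζ.pow_eq_one_iff_dvd m).1 hζm
  have hm0 : m = 0 := h84o_digit_zero hp hρ.odd hr S hmS hdvd
  -- the unit-valued function
  obtain ⟨X, hXmem, hX0, hXy⟩ := hX 0 hr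
  have hXunit : ∀ y : V ⧸ L, y ≠ 0 → ‖X y‖ = 1 := by
    intro y hy
    have h1 := hXy y hy
    rw [hm0, mul_zero, Nat.zero_mod, pow_zero] at h1
    exact (pow_eq_one_iff_of_nonneg (norm_nonneg _) hn0.ne').1 h1
  rw [hQ1, hV1] at hXmem
  obtain ⟨f, hf, hXf⟩ := hXmem
  obtain ⟨t, ht, hpt⟩ := hw
  have h1 := hpt f hf
  have h2 : f ((0 : V), w) = X (π w) := by
    have := congrFun hXf w
    simp only [Function.comp_apply] at this
    rw [this]
    rfl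
  have h3 : f 0 = 0 := by
    have := congrFun hXf 0
    simp only [Function.comp_apply, map_zero] at this
    rw [← this, hX0]
  rw [h2, h3, sub_zero] at h1
  have h4 : π w ≠ 0 := fun h => hwL ((Submodule.Quotient.mk_eq_zero L).1 h)
  rw [hXunit _ h4] at h1
  exact absurd (lt_of_le_of_lt h1 ht) (lt_irrefl _)

end Key

/-! ## The normal form of the cocycle -/

section Main

variable {p : ℕ} [Fact p.Prime] {k : Type} [Field k] {V : Type} [AddCommGroup V] [Module k V]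

theorem h84o_f_apply (ρ : Gq p →* Module.End k V) (c : Gq p → Module.End k V)
    (X : Module.End k V) (σ : Gq p) (v : V) :
    (c - coB p ρ X) σ v = c σ v - X v + ρ σ (X (ρ σ⁻¹ v)) := by
  simp only [Pi.sub_apply, coB, LinearMap.sub_apply, Module.End.mul_apply]
  abel

theorem h84o_trace_f [Module.Finite k V] (ρ : Gq p →* Module.End k V)
    (c : Gq p → Module.End k V) (X : Module.End k V) (σ : Gq p)
    (hc : LinearMap.trace k V (c σ) = 0) :
    LinearMap.trace k V ((c - coB p ρ X) σ) = 0 := by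
  have h1 : LinearMap.trace k V (ρ σ * X * ρ σ⁻¹) = LinearMap.trace k V X := by
    rw [LinearMap.trace_mul_comm, ← mul_assoc, ← map_mul, inv_mul_cancel, map_one, one_mul]
  simp only [Pi.sub_apply, coB, map_sub, hc, h1, sub_self]

/-- a functional with `φ v₀ = 1`. -/
theorem h84o_exists_dual {v₀ : V} (hv₀ : v₀ ≠ 0) : ∃ φ : V →ₗ[k] k, φ v₀ = 1 := by
  have hinj : LinearMap.ker (LinearMap.toSpanSingleton k V v₀) = ⊥ :=
    LinearMap.ker_toSpanSingleton k hv₀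
  obtain ⟨g, hg⟩ := LinearMap.exists_leftInverse_of_injective _ hinj
  refine ⟨g, ?_⟩
  have := congrArg (fun f : k →ₗ[k] k => f 1) hg
  simpa using this

/-- **FL-O3.** -/
theorem h84o_ordLine (hR : RankOne) (hQ : QuotOrder) (hS : SubOrder) (hD : InertiaDiscrete)
    (hB3 : PtSubgroup) (hB4 : PtStable) (hB5 : InertiaTrivial) (hFS : FundSurjective)
    (hCF : CycFund) (hT : TeichExists) : OrdLine := by
  intro p _ k _ _ _ V _ _ _ ρ hρ v₀ hv₀ c hc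
  classical
  have hp := (Fact.out : p.Prime)
  have hact : IsAct (defAct ρ c) := h84o_isAct ρ c hc.cocycle
  obtain ⟨𝓗, h𝓗⟩ := hc.flat (inertia p)
  have hv₀L : ∀ b : k, b • v₀ ∈ Submodule.span k {v₀} := fun b =>
    Submodule.smul_mem _ _ (Submodule.mem_span_singleton_self _)
  have hkey : ∀ w : V, ((0 : V), w) ∈ h84o_M0 𝓗 → ∃ b : k, b • v₀ = w := fun w hw =>
    Submodule.mem_span_singleton.1 (h84o_eps_mem hR hQ hS hD hFS hT hρ hv₀ 𝓗 h𝓗 hw)
  -- an element of inertia with `ω ≠ 1`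
  obtain ⟨σ₀, hσ₀, a₀, ha₀, ha₀1⟩ := h84o_exists_inert_ne_one hFS hCF hρ.odd k
  have hρσ₀ : ρ σ₀ v₀ = (a₀ : k) • v₀ := hv₀.inert_line σ₀ hσ₀ a₀ ha₀
  have ha₀' : (a₀ : k) - 1 ≠ 0 := sub_ne_zero.mpr ha₀1
  -- `(v₀, w₀) ∈ M⁰`
  have h1 : defAct ρ c σ₀ (v₀, 0) - (v₀, 0) ∈ h84o_M0 𝓗 :=
    h84o_M0_inert hB5 𝓗 le_rfl hσ₀ _
  obtain ⟨w₀, hvw⟩ : ∃ w₀ : V, (v₀, w₀) ∈ h84o_M0 𝓗 := by
    refine ⟨((a₀ : k) - 1)⁻¹ • ((a₀ : k) • c σ₀ v₀), ?_⟩
    have h2 := h84o_M0_smul 𝓗 hB4 hact h𝓗 ((a₀ : k) - 1)⁻¹ h1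
    have e1 : ((a₀ : k) - 1)⁻¹ • (defAct ρ c σ₀ (v₀, 0) - (v₀, 0)).1 = v₀ := by
      simp only [h84o_defAct_apply, Prod.fst_sub, hρσ₀]
      have e0 : (a₀ : k) • v₀ - v₀ = ((a₀ : k) - 1) • v₀ := by rw [sub_smul, one_smul]
      rw [e0, smul_smul, inv_mul_cancel₀ ha₀', one_smul]
    have e2 : ((a₀ : k) - 1)⁻¹ • (defAct ρ c σ₀ (v₀, 0) - (v₀, 0)).2 =
        ((a₀ : k) - 1)⁻¹ • ((a₀ : k) • c σ₀ v₀) := by
      simp only [h84o_defAct_apply, Prod.snd_sub, hρσ₀, map_zero, zero_add, sub_zero, map_smul]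
    rwa [e1, e2] at h2
  -- the structure of `M⁰`
  have hstruct : ∀ y ∈ h84o_M0 𝓗, ∃ a b : k, y.1 = a • v₀ ∧ y.2 = a • w₀ + b • v₀ := by
    intro y hy
    have h3 := h84o_M0_eps 𝓗 hB3 hB4 hact h𝓗 1 hy
    rw [one_smul] at h3
    obtain ⟨a, ha⟩ := hkey _ h3
    have h4 := h84o_M0_sub hB3 𝓗 hy (h84o_M0_smul 𝓗 hB4 hact h𝓗 a hvw)
    have e : y - (a • v₀, a • w₀) = ((0 : V), y.2 - a • w₀) := by
      ext
      · simp [ha]
      · simp
    rw [e] at h4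
    obtain ⟨b, hb⟩ := hkey _ h4
    exact ⟨a, b, ha.symm, by rw [hb]; abel⟩
  -- the endomorphism `X`
  obtain ⟨φ, hφ⟩ := h84o_exists_dual (k := k) hv₀.ne
  have h2k : (2 : k) ≠ 0 := by
    intro h
    have h6 : ((2 : ℕ) : k) = 0 := by exact_mod_cast h
    have h7 := (CharP.cast_eq_zero_iff k p 2).1 h6
    have h8 := Nat.le_of_dvd (by norm_num) h7
    have h9 := hp.two_le
    exact hρ.odd (by omega)
  set d : k := φ w₀ / 2 with hd
  set X : Module.End k V := φ.smulRight w₀ - d • (1 : Module.End k V) with hX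
  have hXv : ∀ v : V, X v = φ v • w₀ - d • v := by
    intro v
    simp [hX]
  have hXv₀ : X v₀ = w₀ - d • v₀ := by rw [hXv, hφ, one_smul]
  have hXtr : LinearMap.trace k V X = 0 := by
    rw [hX, map_sub, LinearMap.trace_smulRight, map_smul, LinearMap.trace_one, hρ.rank, hd]
    simp only [smul_eq_mul, Nat.cast_ofNat]
    field_simp
    ring
  refine ⟨X, hXtr, ?_⟩
  -- `f v ∈ k v₀` implies `f v = φ (f v) • v₀`
  have hrange : ∀ σ ∈ inertia p, ∀ v : V, ∃ b : k, (c - coB p ρ X) σ v = b • v₀ := by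
    intro σ hσ v
    have h3 : defAct ρ c σ (ρ σ⁻¹ v, 0) - (ρ σ⁻¹ v, 0) ∈ h84o_M0 𝓗 :=
      h84o_M0_inert hB5 𝓗 le_rfl hσ _
    obtain ⟨a, b, hab1, hab2⟩ := hstruct _ h3
    simp only [h84o_defAct_apply, Prod.fst_sub, Prod.snd_sub, map_zero, zero_add, sub_zero,
      h84o_rho_apply_inv] at hab1 hab2
    -- hab1 : v - ρ σ⁻¹ v = a • v₀ ; hab2 : c σ v = a • w₀ + b • v₀
    obtain ⟨b', hb'⟩ := hv₀.inert_quot σ hσ (X (ρ σ⁻¹ v))
    have hu : ρ σ⁻¹ v = v - a • v₀ := by rw [← hab1]; abel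
    have hXu : X (ρ σ⁻¹ v) = X v - a • (w₀ - d • v₀) := by
      rw [hu, map_sub, map_smul, hXv₀]
    refine ⟨b + a * d + b', ?_⟩
    rw [h84o_f_apply, hab2]
    have h5 : ρ σ (X (ρ σ⁻¹ v)) = X (ρ σ⁻¹ v) + b' • v₀ := by rw [← hb']; abel
    rw [h5, hXu]
    simp only [smul_sub, add_smul, mul_smul]
    abel
  refine ⟨?_, ?_, hrange⟩
  · -- borel
    intro σ
    obtain ⟨aσ, haσ⟩ := hv₀.stable σ
    have haσ0 : aσ ≠ 0 := by
      rintro rfl
      rw [zero_smul] at haσ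
      have := h84o_rho_inv_apply ρ σ v₀
      rw [haσ, map_zero] at this
      exact hv₀.ne this.symm
    have hinv : ρ σ⁻¹ v₀ = aσ⁻¹ • v₀ := by
      have h3 := h84o_rho_inv_apply ρ σ v₀
      rw [haσ, map_smul] at h3
      calc ρ σ⁻¹ v₀ = aσ⁻¹ • (aσ • ρ σ⁻¹ v₀) := by
            rw [smul_smul, inv_mul_cancel₀ haσ0, one_smul]
        _ = aσ⁻¹ • v₀ := by rw [h3]
    have h3 := h84o_M0_gal 𝓗 hB4 hact h𝓗 σ hvw
    obtain ⟨a, b, hab1, hab2⟩ := hstruct _ h3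
    simp only [h84o_defAct_apply, haσ, map_smul] at hab1 hab2
    -- hab1 : aσ • v₀ = a • v₀ ; hab2 : ρ σ w₀ + aσ • c σ v₀ = a • w₀ + b • v₀
    have haa : a = aσ := by
      have h4 : (aσ - a) • v₀ = 0 := by rw [sub_smul, hab1, sub_self]
      rcases smul_eq_zero.1 h4 with h | h
      · exact (sub_eq_zero.1 h).symm
      · exact absurd h hv₀.ne
    subst haa
    have hcv : c σ v₀ = w₀ - a⁻¹ • ρ σ w₀ + (a⁻¹ * b) • v₀ := by
      have h4 : a • c σ v₀ = a • w₀ + b • v₀ - ρ σ w₀ := by rw [← hab2]; abel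
      have h5 : c σ v₀ = a⁻¹ • (a • c σ v₀) := by
        rw [smul_smul, inv_mul_cancel₀ haσ0, one_smul]
      rw [h5, h4]
      simp only [smul_sub, smul_add, smul_smul, inv_mul_cancel₀ haσ0, one_smul]
      abel
    refine ⟨a⁻¹ * b, ?_⟩
    rw [h84o_f_apply, hinv, map_smul, hXv₀, hcv, map_smul, map_sub, map_smul, haσ]
    simp only [smul_sub, smul_smul]
    have e : a⁻¹ * (d * a) = d := by
      field_simp
    rw [e]
    abel
  · -- inert_zero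
    intro σ hσ
    have htr := h84o_trace_f ρ c X σ (hc.trace σ)
    have hform : (c - coB p ρ X) σ = (φ.comp ((c - coB p ρ X) σ)).smulRight v₀ := by
      apply LinearMap.ext
      intro v
      obtain ⟨b, hb⟩ := hrange σ hσ v
      rw [LinearMap.smulRight_apply, LinearMap.comp_apply, hb, map_smul, hφ, smul_eq_mul,
        mul_one]
    rw [hform, LinearMap.trace_smulRight, LinearMap.comp_apply] at htr
    obtain ⟨b, hb⟩ := hrange σ hσ v₀
    rw [hb] at htr ⊢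
    rw [map_smul, hφ, smul_eq_mul, mul_one] at htr
    rw [htr, zero_smul]

end Main

end Fermat.Agent.S56F
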