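import Fermat.Agent.S56F.IfaceHopf

/-!
# S56 / LOC-p-FL, leaves FL-B4, FL-B5, FL-B6 (helper87)

* `h87f_ptStable : PtStable` (FL-B4), unconditional;
* `h87f_inertiaTrivial_of : ValuesIntegral → TranslationInvariance → InertiaTrivial` (FL-B5);
* `h87f_ramBound_of : ValuesIntegral → TranslationInvariance → RamBound` (FL-B6).
-/

set_option autoImplicit false

open Fermat.Agent.PT.Loc

noncomputable section

namespace Fermat.Agent.S56F

/-- `Gq p` acts on `Om p` by isometries. -/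
theorem h87f_norm_map {p : ℕ} [Fact p.Prime] (σ : Gq p) (x : Om p) : ‖σ x‖ = ‖x‖ :=
  congrArg NNReal.toReal (nnnorm_padicAlgCl_algEquiv p σ x)

theorem h87f_act_zero {G : Type} [Group G] {M : Type} [AddCommGroup M] {act : G → M → M}
    (h : IsAct act) (σ : G) : act σ 0 = 0 := by
  have h1 := h.add σ 0 0
  rw [add_zero] at h1
  exact left_eq_add.mp h1

/-- **FL-B4.** -/
theorem h87f_ptStable : PtStable := by
  intro p _ Γ M _ act hact 𝓗 t y hy
  refine ⟨?_, ?_, ?_⟩
  · intro σ hσ f hf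
    have h0 : act σ 0 = 0 := h87f_act_zero hact σ
    have e1 := 𝓗.equivariant f hf σ hσ y
    have e2 := 𝓗.equivariant f hf σ hσ 0
    rw [h0] at e2
    rw [e1, e2, ← map_sub, h87f_norm_map]
    exact hy f hf
  · intro α hα f hf
    have h1 := hy _ (hα f hf)
    simpa using h1
  · intro τ hτ f hf
    have h1 := hy _ (hτ f hf)
    simp only [inv_inv] at h1
    rw [← map_sub, h87f_norm_map, h87f_act_zero hact] at h1
    exact h1

/-- A finite family of reals `< 1` has a common bound `< 1`. -/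
theorem h87f_exists_bound {ι : Type*} (S : Finset ι) (φ : ι → ℝ) (h : ∀ s ∈ S, φ s < 1) :
    ∃ t : ℝ, 0 ≤ t ∧ t < 1 ∧ ∀ s ∈ S, φ s ≤ t := by
  classical
  induction S using Finset.induction_on with
  | empty => exact ⟨0, le_refl _, zero_lt_one, fun s hs => absurd hs (Finset.notMem_empty s)⟩
  | insert a S _ ih =>
    obtain ⟨t, ht0, ht1, ht⟩ := ih (fun s hs => h s (Finset.mem_insert_of_mem hs))
    refine ⟨max t (φ a), le_max_of_le_left ht0,
      max_lt ht1 (h a (Finset.mem_insert_self a S)), ?_⟩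
    intro s hs
    rcases Finset.mem_insert.mp hs with rfl | hs'
    · exact le_max_right _ _
    · exact (ht s hs').trans (le_max_left _ _)

/-- The displacement bound passes from generators to the span. -/
theorem h87f_span_bound {p : ℕ} [Fact p.Prime] {Γ : Subgroup (Gq p)} {M : Type}
    (S : Set (M → Om p)) (σ : Gq p) (hσ : σ ∈ Γ) (x : M) (t : ℝ) (ht0 : 0 ≤ t)
    (hS : ∀ s ∈ S, ‖σ (s x) - s x‖ ≤ t) (f : M → Om p)
    (hf : f ∈ Submodule.span (fixInt p Γ) S) : ‖σ (f x) - f x‖ ≤ t := by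
  induction hf using Submodule.span_induction with
  | mem s hs => exact hS s hs
  | zero => simpa using ht0
  | add f g _ _ hf hg =>
    have e : σ ((f + g) x) - (f + g) x = (σ (f x) - f x) + (σ (g x) - g x) := by
      rw [Pi.add_apply, map_add]
      ring
    rw [e]
    exact (IsUltrametricDist.norm_add_le_max _ _).trans (max_le hf hg)
  | smul c f _ hf =>
    have hc : σ (c : Om p) = c := c.2.2 σ hσ
    have e : σ ((c • f) x) - (c • f) x = (c : Om p) * (σ (f x) - f x) := by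
      rw [Pi.smul_apply, Subring.smul_def, smul_eq_mul, map_mul, hc]
      ring
    rw [e, norm_mul]
    calc ‖(c : Om p)‖ * ‖σ (f x) - f x‖ ≤ 1 * t :=
          mul_le_mul c.2.1 hf (norm_nonneg _) zero_le_one
      _ = t := one_mul _

/-- Uniform bound for the displacement by an inertia element of `Γ`, at a point `x`. -/
theorem h87f_cong_of_inertia (hB1 : ValuesIntegral) {p : ℕ} [Fact p.Prime]
    {Γ : Subgroup (Gq p)} {M : Type} [AddCommGroup M] {act : Gq p → M → M}
    (𝓗 : FHO p Γ M act) (hΓ : Γ ≤ inertia p) (σ : Gq p) (hσ : σ ∈ Γ) (x : M) :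
    ∃ t : ℝ, t < 1 ∧ 𝓗.Cong (act σ x) x t := by
  obtain ⟨S, hS⟩ := 𝓗.fg
  have hSc : ∀ s ∈ S, s ∈ 𝓗.carrier := by
    intro s hs
    have h1 : s ∈ Subalgebra.toSubmodule 𝓗.carrier := by
      rw [← hS]
      exact Submodule.subset_span hs
    exact h1
  obtain ⟨t, ht0, ht1, ht⟩ := h87f_exists_bound S (fun s => ‖σ (s x) - s x‖)
    (fun s hs => hΓ hσ (s x) (hB1 p Γ M act 𝓗 s (hSc s hs) x))
  refine ⟨t, ht1, ?_⟩
  intro f hf
  rw [𝓗.equivariant f hf σ hσ x]
  have hfS : f ∈ Submodule.span (fixInt p Γ) (S : Set (M → Om p)) := by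
    rw [hS]
    exact hf
  exact h87f_span_bound (S : Set (M → Om p)) σ hσ x t ht0 (fun s hs => ht s hs) f hfS

/-- **FL-B5**, from FL-B1 and FL-B2. -/
theorem h87f_inertiaTrivial_of (hB1 : ValuesIntegral) (hB2 : TranslationInvariance) :
    InertiaTrivial := by
  intro p _ Γ M _ act 𝓗 hΓ σ hσ x
  obtain ⟨t, ht, hc⟩ := h87f_cong_of_inertia hB1 𝓗 hΓ σ hσ x
  refine ⟨t, ht, ?_⟩
  rw [← hB2 p Γ M act 𝓗 x (act σ x - x) t]
  have e : x + (act σ x - x) = act σ x := by abel
  rw [e]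
  exact hc

/-- **FL-B6**, from FL-B1 and FL-B2. -/
theorem h87f_ramBound_of (hB1 : ValuesIntegral) (hB2 : TranslationInvariance) : RamBound := by
  intro p _ Γ M _ act 𝓗 g hg x t hnot
  rw [← hB2 p Γ M act 𝓗 x (act g x - x) t] at hnot
  have e : x + (act g x - x) = act g x := by abel
  rw [e] at hnot
  unfold FHO.Cong at hnot
  push Not at hnot
  obtain ⟨f, hf, hlt⟩ := hnot
  refine ⟨f x, hB1 p Γ M act 𝓗 f hf x, ?_, ?_⟩
  · intro σ hσ hx
    rw [← 𝓗.equivariant f hf σ hσ x, hx]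
  · rw [← 𝓗.equivariant f hf g hg x]
    exact hlt

end Fermat.Agent.S56F
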