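import Fermat.Agent.S56F.A1h39

/-!
# S56 / LOC-p-FL, leaf FL-A2 (helper39): the compositum of the translates

`h39a_autStabilize : AutStabilize` — a function Hopf order `𝓗` (stable under conjugation by the
normaliser of `Γ`) is contained in a function Hopf order `𝓗'` which is stable under all additive
automorphisms of `M` commuting with `Γ`, and still stable under conjugation.

`𝓗'` is the subalgebra generated by the translates `f ∘ α`, `f ∈ 𝓗`, `α ∈ Aut_Γ(M)`.
-/

set_option autoImplicit false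
set_option linter.style.haveILetI false
set_option linter.unusedSectionVars false

open Fermat.Agent.PT.Loc

noncomputable section

namespace Fermat.Agent.S56F

section

variable {p : ℕ} [Fact p.Prime] {Γ : Subgroup (Gq p)} {M : Type} [AddCommGroup M]
  {act : Gq p → M → M}

/-- precomposition with a map, as an algebra endomorphism of the functions. -/
def h39a_pre (Γ : Subgroup (Gq p)) (α : M → M) : (M → Om p) →ₐ[fixInt p Γ] (M → Om p) where
  toFun f := fun x => f (α x)
  map_one' := rfl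
  map_mul' _ _ := rfl
  map_zero' := rfl
  map_add' _ _ := rfl
  commutes' _ := rfl

theorem h39a_pre_apply (α : M → M) (f : M → Om p) (x : M) : h39a_pre Γ α f x = f (α x) := rfl

/-- `α` commutes with the action of `Γ`. -/
def h39a_Comm (Γ : Subgroup (Gq p)) (act : Gq p → M → M) (α : M ≃+ M) : Prop :=
  ∀ σ ∈ Γ, ∀ x, α (act σ x) = act σ (α x)

/-- the translates of the functions of the order. -/
def h39a_gens (𝓗 : FHO p Γ M act) : Set (M → Om p) :=
  {F | ∃ f ∈ 𝓗.carrier, ∃ α : M ≃+ M, h39a_Comm Γ act α ∧ F = h39a_pre Γ α f}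

/-- the compositum of the translates. -/
def h39a_carrier (𝓗 : FHO p Γ M act) : Subalgebra (fixInt p Γ) (M → Om p) :=
  Algebra.adjoin (fixInt p Γ) (h39a_gens 𝓗)

theorem h39a_pre_mem (𝓗 : FHO p Γ M act) {f : M → Om p} (hf : f ∈ 𝓗.carrier) {α : M ≃+ M}
    (hα : h39a_Comm Γ act α) : h39a_pre Γ α f ∈ h39a_carrier 𝓗 :=
  Algebra.subset_adjoin ⟨f, hf, α, hα, rfl⟩

theorem h39a_le (𝓗 : FHO p Γ M act) : 𝓗.carrier ≤ h39a_carrier 𝓗 := by
  intro f hf
  have h := h39a_pre_mem 𝓗 hf (α := AddEquiv.refl M) (fun _ _ _ => rfl)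
  exact h

/-- the compositum is finitely generated as a module. -/
theorem h39a_fg [Finite M] (𝓗 : FHO p Γ M act) :
    (Subalgebra.toSubmodule (h39a_carrier 𝓗)).FG := by
  obtain ⟨G, hG⟩ := 𝓗.fg
  have hGc : ∀ g ∈ G, g ∈ 𝓗.carrier := by
    intro g hg
    have : g ∈ Submodule.span (fixInt p Γ) (G : Set (M → Om p)) := Submodule.subset_span hg
    rw [hG] at this
    exact this
  set S : Set (M → Om p) :=
    {F | ∃ g ∈ G, ∃ α : M ≃+ M, h39a_Comm Γ act α ∧ F = h39a_pre Γ α g} with hS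
  have hSfin : S.Finite := by
    have hsub : S ⊆ (fun q : (M → Om p) × (M ≃+ M) => h39a_pre Γ q.2 q.1) ''
        ((G : Set (M → Om p)) ×ˢ (Set.univ : Set (M ≃+ M))) := by
      rintro _ ⟨g, hg, α, -, rfl⟩
      exact ⟨(g, α), ⟨hg, trivial⟩, rfl⟩
    exact Set.Finite.subset ((G.finite_toSet.prod Set.finite_univ).image _) hsub
  have hint : ∀ x ∈ S, IsIntegral (fixInt p Γ) x := by
    rintro _ ⟨g, hg, α, -, rfl⟩
    exact (IsIntegral.of_mem_of_fg 𝓗.carrier 𝓗.fg g (hGc g hg)).map (h39a_pre Γ α)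
  have heq : h39a_carrier 𝓗 = Algebra.adjoin (fixInt p Γ) S := by
    apply le_antisymm
    · apply Algebra.adjoin_le
      rintro _ ⟨f, hf, α, hα, rfl⟩
      have key : ∀ f : M → Om p, f ∈ Submodule.span (fixInt p Γ) (G : Set (M → Om p)) →
          h39a_pre Γ α f ∈ Algebra.adjoin (fixInt p Γ) S := by
        intro f hf'
        induction hf' using Submodule.span_induction with
        | mem g hg => exact Algebra.subset_adjoin ⟨g, hg, α, hα, rfl⟩
        | zero => rw [map_zero]; exact zero_mem _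
        | add x y _ _ hx hy => rw [map_add]; exact add_mem hx hy
        | smul c x _ hx => rw [map_smul]; exact Subalgebra.smul_mem _ hx c
      exact key f (by rw [hG]; exact hf)
    · apply Algebra.adjoin_mono
      rintro _ ⟨g, hg, α, hα, rfl⟩
      exact ⟨g, hGc g hg, α, hα, rfl⟩
  rw [heq]
  exact fg_adjoin_of_finite hSfin hint

/-- the functions of the compositum are equivariant. -/
theorem h39a_equivariant (𝓗 : FHO p Γ M act) :
    ∀ f ∈ h39a_carrier 𝓗, ∀ σ ∈ Γ, ∀ x, f (act σ x) = σ (f x) := by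
  intro f hf σ hσ
  induction hf using Algebra.adjoin_induction with
  | mem F hF =>
    obtain ⟨f, hf, α, hα, rfl⟩ := hF
    intro x
    rw [h39a_pre_apply, h39a_pre_apply, hα σ hσ x]
    exact 𝓗.equivariant f hf σ hσ _
  | algebraMap c =>
    intro x
    exact (c.2.2 σ hσ).symm
  | add f g _ _ hf hg =>
    intro x
    rw [Pi.add_apply, Pi.add_apply, hf, hg, map_add]
  | mul f g _ _ hf hg =>
    intro x
    rw [Pi.mul_apply, Pi.mul_apply, hf, hg, map_mul]

/-! ### the Sweedler form -/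

theorem h39a_Sw_mul {R : Type} [CommRing R] [Algebra R (M → Om p)]
    (C : Subalgebra R (M → Om p)) {F G : M → M → Om p} (hF : h39f_Sw C F) (hG : h39f_Sw C G) :
    h39f_Sw C (fun x y => F x y * G x y) := by
  obtain ⟨n, a, b, ha, hb, hab⟩ := hF
  obtain ⟨n', a', b', ha', hb', hab'⟩ := hG
  refine ⟨n * n', fun k => a (finProdFinEquiv.symm k).1 * a' (finProdFinEquiv.symm k).2,
    fun k => b (finProdFinEquiv.symm k).1 * b' (finProdFinEquiv.symm k).2,
    fun k => mul_mem (ha _) (ha' _), fun k => mul_mem (hb _) (hb' _), ?_⟩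
  intro x y
  show F x y * G x y = _
  rw [hab, hab', Finset.sum_mul_sum, ← Finset.sum_product', Finset.univ_product_univ]
  refine Fintype.sum_equiv finProdFinEquiv _ _ (fun k => ?_)
  simp only [Equiv.symm_apply_apply, Pi.mul_apply]
  ring

theorem h39a_Sw_const {R : Type} [CommRing R] [Algebra R (M → Om p)]
    (C : Subalgebra R (M → Om p)) (c : R) :
    h39f_Sw C (fun x _ => algebraMap R (M → Om p) c x) :=
  ⟨1, fun _ => algebraMap R (M → Om p) c, fun _ => 1, fun _ => Subalgebra.algebraMap_mem C c,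
    fun _ => one_mem C, fun _ _ => by simp⟩

/-- the compositum is closed under `f ↦ f (x + y)` in Sweedler form. -/
theorem h39a_comul (𝓗 : FHO p Γ M act) :
    ∀ f ∈ h39a_carrier 𝓗, h39f_Sw (h39a_carrier 𝓗) (fun x y => f (x + y)) := by
  intro f hf
  induction hf using Algebra.adjoin_induction with
  | mem F hF =>
    obtain ⟨f, hf, α, hα, rfl⟩ := hF
    obtain ⟨n, a, b, ha, hb, hab⟩ := 𝓗.comul f hf
    refine ⟨n, fun i => h39a_pre Γ α (a i), fun i => h39a_pre Γ α (b i),
      fun i => h39a_pre_mem 𝓗 (ha i) hα, fun i => h39a_pre_mem 𝓗 (hb i) hα, ?_⟩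
    intro x y
    show f (α (x + y)) = _
    rw [map_add, hab]
    rfl
  | algebraMap c =>
    have h := h39a_Sw_const (h39a_carrier 𝓗) c
    exact h
  | add f g _ _ hf hg => exact h39f_Sw_add _ hf hg
  | mul f g _ _ hf hg => exact h39a_Sw_mul _ hf hg

/-! ### stability -/

/-- the compositum is stable under the automorphisms commuting with `Γ`. -/
theorem h39a_stable (𝓗 : FHO p Γ M act) (α₀ : M ≃+ M) (hα₀ : h39a_Comm Γ act α₀)
    {f : M → Om p} (hf : f ∈ h39a_carrier 𝓗) : (fun x => f (α₀ x)) ∈ h39a_carrier 𝓗 := by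
  have hle : h39a_carrier 𝓗 ≤ (h39a_carrier 𝓗).comap (h39a_pre Γ α₀) := by
    apply Algebra.adjoin_le
    rintro _ ⟨f, hf, α, hα, rfl⟩
    show h39a_pre Γ α₀ (h39a_pre Γ α f) ∈ h39a_carrier 𝓗
    have h1 : h39a_pre Γ α₀ (h39a_pre Γ α f) = h39a_pre Γ (α₀.trans α) f := rfl
    rw [h1]
    refine h39a_pre_mem 𝓗 hf ?_
    intro σ hσ x
    show α (α₀ (act σ x)) = act σ (α (α₀ x))
    rw [hα₀ σ hσ, hα σ hσ]
  exact hle hf

/-- the action of an element of the local Galois group, as an additive automorphism. -/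
def h39a_actEquiv (hact : IsAct act) (τ : Gq p) : M ≃+ M where
  toFun := act τ
  invFun := act τ⁻¹
  left_inv x := by rw [← hact.mul, inv_mul_cancel, hact.one]
  right_inv x := by rw [← hact.mul, mul_inv_cancel, hact.one]
  map_add' := hact.add τ

/-- the conjugate of an automorphism by an element of the local Galois group. -/
def h39a_conj (hact : IsAct act) (τ : Gq p) (α : M ≃+ M) : M ≃+ M :=
  (h39a_actEquiv hact τ⁻¹).trans (α.trans (h39a_actEquiv hact τ))

theorem h39a_conj_apply (hact : IsAct act) (τ : Gq p) (α : M ≃+ M) (x : M) :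
    h39a_conj hact τ α x = act τ (α (act τ⁻¹ x)) := rfl

theorem h39a_conj_comm (hact : IsAct act) (τ : Gq p) (hτ : ∀ σ ∈ Γ, τ⁻¹ * σ * τ ∈ Γ)
    {α : M ≃+ M} (hα : h39a_Comm Γ act α) : h39a_Comm Γ act (h39a_conj hact τ α) := by
  intro σ hσ x
  rw [h39a_conj_apply, h39a_conj_apply, ← hact.mul]
  have h1 : τ⁻¹ * σ = (τ⁻¹ * σ * τ) * τ⁻¹ := by group
  rw [h1, hact.mul, hα _ (hτ σ hσ), ← hact.mul, ← hact.mul]
  congr 1
  group

/-- the compositum is stable under conjugation by the normaliser of `Γ`. -/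
theorem h39a_conjStable (hact : IsAct act) (𝓗 : FHO p Γ M act) (τ : Gq p)
    (hτ : ∀ σ ∈ Γ, τ⁻¹ * σ * τ ∈ Γ) (h𝓗 : 𝓗.ConjStable τ)
    {f : M → Om p} (hf : f ∈ h39a_carrier 𝓗) :
    (fun x => τ (f (act τ⁻¹ x))) ∈ h39a_carrier 𝓗 := by
  induction hf using Algebra.adjoin_induction with
  | mem F hF =>
    obtain ⟨f, hf, α, hα, rfl⟩ := hF
    have h1 : (fun x => τ (h39a_pre Γ α f (act τ⁻¹ x))) =
        h39a_pre Γ (h39a_conj hact τ α) (fun x => τ (f (act τ⁻¹ x))) := by
      funext x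
      rw [h39a_pre_apply, h39a_pre_apply, h39a_conj_apply, ← hact.mul, inv_mul_cancel, hact.one]
    rw [h1]
    exact h39a_pre_mem 𝓗 (h𝓗 f hf) (h39a_conj_comm hact τ hτ hα)
  | algebraMap c =>
    have h1 : (fun x => τ (algebraMap (fixInt p Γ) (M → Om p) c (act τ⁻¹ x))) =
        algebraMap (fixInt p Γ) (M → Om p)
          (⟨τ (c : Om p), h39f_conj_mem_fixInt Γ τ hτ c⟩ : fixInt p Γ) := rfl
    rw [h1]
    exact Subalgebra.algebraMap_mem _ _
  | add f g _ _ hf hg =>
    have h1 : (fun x => τ ((f + g) (act τ⁻¹ x))) =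
        (fun x => τ (f (act τ⁻¹ x))) + (fun x => τ (g (act τ⁻¹ x))) := by
      funext x
      rw [Pi.add_apply, Pi.add_apply, map_add]
    rw [h1]
    exact add_mem hf hg
  | mul f g _ _ hf hg =>
    have h1 : (fun x => τ ((f * g) (act τ⁻¹ x))) =
        (fun x => τ (f (act τ⁻¹ x))) * (fun x => τ (g (act τ⁻¹ x))) := by
      funext x
      rw [Pi.mul_apply, Pi.mul_apply, map_mul]
    rw [h1]
    exact mul_mem hf hg

end

/-! ## the theorem -/

/-- **FL-A2.** -/
theorem h39a_autStabilize : AutStabilize := by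
  intro p _ Γ M _ _ act hact 𝓗 h𝓗
  refine ⟨⟨h39a_carrier 𝓗, h39a_fg 𝓗, h39a_equivariant 𝓗, ?_, h39a_comul 𝓗⟩, h39a_le 𝓗, ?_, ?_⟩
  · intro x y hxy
    exact 𝓗.separates x y fun f hf => hxy f (h39a_le 𝓗 hf)
  · intro α hα f hf
    exact h39a_stable 𝓗 α hα hf
  · intro τ hτ1 hτ2 f hf
    exact h39a_conjStable hact 𝓗 τ hτ2 (h𝓗 τ hτ1 hτ2) hf

end Fermat.Agent.S56F
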