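import Fermat.Agent.S56F.IfaceOrd

/-!
# S56 / LOC-p-FL, leaves FL-O0 and FL-O7 (helper7): continuity

* `h7o_exists_trivial` : a function Hopf order over `Γ = ⊤` for a finite `M` is fixed pointwise
  by an open subgroup: the finitely many values `f_j x` of module generators `f_j` generate a
  finite extension `F`, and `G_F` acts trivially on `M` by separation.
* `h7o_flatCont : FlatCont` : locally flat cocycles are continuous.
* `h7o_repCont : RepCont` : a `LocFlat` representation is continuous.
-/

set_option autoImplicit false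
set_option linter.unusedSectionVars false
set_option linter.style.haveILetI false

open Fermat.Agent.PT.Loc

noncomputable section

namespace Fermat.Agent.S56F

/-- A function Hopf order over `Γ = ⊤` for a finite `M`: an open subgroup acts trivially. -/
theorem h7o_exists_trivial {p : ℕ} [Fact p.Prime] {M : Type} [AddCommGroup M] [Finite M]
    {act : Gq p → M → M} (𝓗 : FHO p ⊤ M act) :
    ∃ F : LF p, FiniteDimensional ℚ_[p] F ∧ ∀ s ∈ GK F, ∀ x : M, act s x = x := by
  classical
  obtain ⟨S, hS⟩ := 𝓗.fg
  set T : Set (Om p) := ⋃ f ∈ (S : Set (M → Om p)), Set.range f with hT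
  have hTfin : T.Finite := Set.Finite.biUnion S.finite_toSet fun f _ => Set.finite_range f
  haveI : Finite T := hTfin.to_subtype
  set F : LF p := IntermediateField.adjoin ℚ_[p] T with hF
  have hFfd : FiniteDimensional ℚ_[p] F :=
    IntermediateField.finiteDimensional_adjoin fun x _ => Algebra.IsIntegral.isIntegral x
  refine ⟨F, hFfd, fun s hs x => ?_⟩
  have hfix : ∀ y ∈ T, s y = y := by
    intro y hy
    exact (IntermediateField.mem_fixingSubgroup_iff F s).mp hs y
      (IntermediateField.subset_adjoin _ _ hy)
  have hgen : ∀ f ∈ S, ∀ y : M, f (act s y) = f y := by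
    intro f hf y
    rw [𝓗.equivariant f (by
      have : f ∈ Subalgebra.toSubmodule 𝓗.carrier := by
        rw [← hS]
        exact Submodule.subset_span hf
      exact this) s (Subgroup.mem_top s) y]
    apply hfix
    rw [hT]
    exact Set.mem_biUnion hf (Set.mem_range_self y)
  have hall : ∀ f ∈ 𝓗.carrier, f (act s x) = f x := by
    intro f hf
    have hf' : f ∈ Submodule.span (fixInt p ⊤) (S : Set (M → Om p)) := by
      rw [hS]
      exact hf
    induction hf' using Submodule.span_induction with
    | mem g hg => exact hgen g hg x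
    | zero => rfl
    | add g h _ _ ihg ihh =>
      have hg' : g ∈ 𝓗.carrier := by
        have : g ∈ Subalgebra.toSubmodule 𝓗.carrier := by rw [← hS]; assumption
        exact this
      have hh' : h ∈ 𝓗.carrier := by
        have : h ∈ Subalgebra.toSubmodule 𝓗.carrier := by rw [← hS]; assumption
        exact this
      rw [Pi.add_apply, Pi.add_apply, ihg hg', ihh hh']
    | smul r g _ ihg =>
      have hg' : g ∈ 𝓗.carrier := by
        have : g ∈ Subalgebra.toSubmodule 𝓗.carrier := by rw [← hS]; assumption
        exact this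
      rw [Pi.smul_apply, Pi.smul_apply, ihg hg']
  exact 𝓗.separates _ _ hall

/-- **FL-O0.** -/
theorem h7o_flatCont : FlatCont := by
  intro p _ k _ _ V _ _ _ ρ c hc
  haveI : Finite V := Module.finite_of_finite k
  obtain ⟨𝓗, -⟩ := hc.flat ⊤
  obtain ⟨F, hFfd, hF⟩ := h7o_exists_trivial 𝓗
  refine ⟨F, hFfd, bot_le, fun g _ s hs => ?_⟩
  have h1 : ∀ v : V, ρ s v = v := by
    intro v
    have := congrArg Prod.fst (hF s hs (v, 0))
    simpa [defAct] using this
  have h2 : c s = 0 := by
    apply LinearMap.ext
    intro v
    have := congrArg Prod.snd (hF s hs (v, 0))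
    simpa [defAct, h1] using this
  rw [hc.cocycle, h2, mul_zero, zero_mul, add_zero]

/-- **FL-O7.** -/
theorem h7o_repCont : RepCont := by
  intro p _ k _ _ V _ _ _ ρ hρ
  haveI : Finite V := Module.finite_of_finite k
  obtain ⟨𝓗, -⟩ := hρ ⊤
  obtain ⟨F, hFfd, hF⟩ := h7o_exists_trivial 𝓗
  refine ⟨F, hFfd, bot_le, fun g _ s hs => ?_⟩
  have h1 : ρ s = 1 := by
    apply LinearMap.ext
    intro v
    exact hF s hs v
  show ρ (g * s) = ρ g
  rw [map_mul, h1, mul_one]

end Fermat.Agent.S56F
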