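import Fermat.Agent.S56F.FLO1_helper7
import Fermat.Agent.S56F.FLB7_helper87
import Fermat.Agent.S56F.A2h39
import Fermat.Agent.S56F.FLA3_helper15

/-!
# S56 / LOC-p-FL, leaf FL-O1, unconditional (helper7)

`h7s_locFlatSub_final : LocFlatSub` from the landed `h87f_subOrder` (helper87),
`h39a_autStabilize` (helper39), `h15f_charCompleteAll` (helper15).
-/

set_option autoImplicit false

namespace Fermat.Agent.S56F

/-- **FL-O1**, unconditional. -/
theorem h7s_locFlatSub_final : LocFlatSub :=
  h7s_locFlatSub h87f_subOrder h39a_autStabilize h15f_charCompleteAll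

end Fermat.Agent.S56F
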