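import Fermat.Agent.S56F.FLO3_helper84
import Fermat.Agent.S56F.FLC5Final_helper89
import Fermat.Agent.S56F.FLC1_helper7
import Fermat.Agent.S56F.FLB8final_helper9
import Fermat.Agent.S56F.FLB7_helper87
import Fermat.Agent.S56F.FLD1_helper45
import Fermat.Agent.S56F.FLB123_helper38
import Fermat.Agent.S56F.FLB56_helper87
import Fermat.Agent.S56F.FLD4_helper7
import Fermat.Agent.S56F.FLC0_helper34

/-!
# S56 / LOC-p-FL, row FL-O3 (helper84): `OrdLine`, unconditional

`h84o_ordLine_final : OrdLine` from `h84o_ordLine` and the landed leaves.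
-/

set_option autoImplicit false

noncomputable section

namespace Fermat.Agent.S56F

/-- **FL-O3**, unconditional. -/
theorem h84o_ordLine_final : OrdLine :=
  h84o_ordLine (h89f_rankOne_of h7g_gaussNorm) h9q_quotOrder h87f_subOrder h45f_inertiaDiscrete
    h38f_ptSubgroup h87f_ptStable h87f_inertiaTrivial h89f_fundSurjective h7c_cycFund
    h34t_teichExists

end Fermat.Agent.S56F
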