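import Fermat.Agent.S56F.FLO4_helper4
import Fermat.Agent.S56F.FLB10P_helper15

/-!
# S56 / LOC-p-FL, leaves FL-O4 and FL-O5 (helper4): unconditional forms

`h4p_ordPeu : OrdPeu` and `h4o_ordPeuRep : OrdPeuRep` (exact frozen `Prop`s of `IfaceOrd.lean`),
from the conditional forms and the landed `h15u_unitEigenP : UnitEigenP`.
-/

set_option autoImplicit false

noncomputable section

namespace Fermat.Agent.S56F

/-- **FL-O4**, unconditional. -/
theorem h4p_ordPeu : OrdPeu := h4p_ordPeu_of h15u_unitEigenP

/-- **FL-O5**, unconditional. -/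
theorem h4o_ordPeuRep : OrdPeuRep := h4o_ordPeuRep_of h15u_unitEigenP

end Fermat.Agent.S56F
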