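import Fermat.Agent.S56F.IfaceOrd

/-!
# S56 / LOC-p-FL, leaf FL-O6 (helper43): the ordinary count from the Kummer count

`h43o_ordCountAsm : OrdCountAsm`, i.e. `FrobExists → FrobGen → OrdKC → OrdCount`.

In a basis `(v₀, v₁)` of `V` (`k v₀` the stable line of `OrdNF`), `ρ = [[χ₁, b], [0, χ₂]]`.
A cocycle `g = [[d, μ], [0, -d]]` of this shape has `d` additive and
`χ₂(σ) μ(στ) = χ₂(σ) μ(σ) + χ₁(σ) μ(τ) - 2 b(σ) d(τ)`.
`T` = the space of such pairs `(d, μ)` (continuous, `d` unramified, `μ` with unit Kummer classes);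
`dim T ≤ 1 + 2` (`FrobGen`: `d` is determined by `d(φ)`; `OrdKC` for `ψ = χ₁/χ₂`), and
`W = k ∂F + Θ(T)` (`F = [[0,0],[1,0]]`, `Θ(d, μ) = [[d, μ], [0, -d]]`) has dimension `≤ 4`,
contains the coboundaries of the Borel (here `PeuRamRep` is used) and every `f` with `OrdCond`.
-/

set_option autoImplicit false
set_option linter.style.haveILetI false
set_option linter.unusedSectionVars false

open Fermat.Agent.PT.Loc

noncomputable section

namespace Fermat.Agent.S56F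

/-! ## Continuity -/

section Cont

variable {p : ℕ} [Fact p.Prime]

theorem h43o_mem_GK_bot (g : Gq p) : g ∈ GK (⊥ : LF p) := by
  show g ∈ (⊥ : LF p).fixingSubgroup
  rw [IntermediateField.fixingSubgroup_bot]
  exact Subgroup.mem_top g

theorem h43o_cont_iff {X : Type*} (f : Gq p → X) :
    Cont1 (⊥ : LF p) f ↔
      ∃ F : LF p, FiniteDimensional ℚ_[p] F ∧ ∀ g : Gq p, ∀ s ∈ GK F, f (g * s) = f g := by
  constructor
  · rintro ⟨F, hF, -, h⟩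
    exact ⟨F, hF, fun g s hs => h g (h43o_mem_GK_bot g) s hs⟩
  · rintro ⟨F, hF, h⟩
    exact ⟨F, hF, bot_le, fun g _ s hs => h g s hs⟩

theorem h43o_cont_comp {X Y : Type*} {f : Gq p → X} (hf : Cont1 (⊥ : LF p) f) (u : X → Y) :
    Cont1 (⊥ : LF p) (fun σ => u (f σ)) := by
  obtain ⟨F, hF, hle, h⟩ := hf
  refine ⟨F, hF, hle, fun g hg s hs => ?_⟩
  show u (f (g * s)) = u (f g)
  rw [h g hg s hs]

theorem h43o_cont_pair {X Y : Type*} {f : Gq p → X} {g : Gq p → Y}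
    (hf : Cont1 (⊥ : LF p) f) (hg : Cont1 (⊥ : LF p) g) :
    Cont1 (⊥ : LF p) (fun σ => (f σ, g σ)) := by
  obtain ⟨F₁, hF₁, -, h₁⟩ := hf
  obtain ⟨F₂, hF₂, -, h₂⟩ := hg
  haveI := hF₁
  haveI := hF₂
  refine ⟨F₁ ⊔ F₂, IntermediateField.finiteDimensional_sup F₁ F₂, bot_le, fun x hx s hs => ?_⟩
  have hs₁ : s ∈ GK F₁ := by
    rw [IntermediateField.mem_fixingSubgroup_iff] at hs ⊢
    exact fun y hy => hs y ((le_sup_left : F₁ ≤ F₁ ⊔ F₂) hy)
  have hs₂ : s ∈ GK F₂ := by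
    rw [IntermediateField.mem_fixingSubgroup_iff] at hs ⊢
    exact fun y hy => hs y ((le_sup_right : F₂ ≤ F₁ ⊔ F₂) hy)
  show (f (x * s), g (x * s)) = (f x, g x)
  rw [h₁ x hx s hs₁, h₂ x hx s hs₂]

theorem h43o_cont_map₂ {X Y Z : Type*} {f : Gq p → X} {g : Gq p → Y}
    (hf : Cont1 (⊥ : LF p) f) (hg : Cont1 (⊥ : LF p) g) (u : X → Y → Z) :
    Cont1 (⊥ : LF p) (fun σ => u (f σ) (g σ)) :=
  h43o_cont_comp (h43o_cont_pair hf hg) (fun x => u x.1 x.2)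

theorem h43o_cont_zero {X Y : Type*} [Zero Y] {f : Gq p → X} (hf : Cont1 (⊥ : LF p) f) :
    Cont1 (⊥ : LF p) (0 : Gq p → Y) :=
  h43o_cont_comp hf (fun _ => (0 : Y))

end Cont

/-! ## Unit Kummer classes -/

section Kummer

variable (p : ℕ) [Fact p.Prime] {k : Type} [Field k]

/-- the restriction of `μ` to `G_{ℚ_p^ur(ζ_p)}` consists of unit Kummer classes. -/
def h43o_P (μ : Gq p → k) : Prop :=
  ∀ ζ : Om p, ζ ^ p = 1 → ζ ≠ 1 → ∀ l : k →+ ZMod p,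
    ∃ β : Om p, ‖β‖ = 1 ∧ ∀ g ∈ inertia p, cycExp p g 1 → g β = ζ ^ (l (μ g)).val * β

variable {p}

theorem h43o_pow_mod {ζ : Om p} (hζ : ζ ^ p = 1) (n : ℕ) : ζ ^ (n % p) = ζ ^ n := by
  conv_rhs => rw [← Nat.mod_add_div n p, pow_add, pow_mul, hζ, one_pow, mul_one]

theorem h43o_P_congr {μ μ' : Gq p → k}
    (h : ∀ g ∈ inertia p, cycExp p g 1 → μ g = μ' g) (hμ : h43o_P p μ) : h43o_P p μ' := by
  intro ζ hζ hζ1 l
  obtain ⟨β, hβ, hg⟩ := hμ ζ hζ hζ1 l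
  refine ⟨β, hβ, fun g hgi hg1 => ?_⟩
  rw [← h g hgi hg1]
  exact hg g hgi hg1

theorem h43o_P_zero : h43o_P p (0 : Gq p → k) := by
  intro ζ _ _ l
  refine ⟨1, norm_one, fun g _ _ => ?_⟩
  simp

theorem h43o_P_add {μ₁ μ₂ : Gq p → k} (h₁ : h43o_P p μ₁) (h₂ : h43o_P p μ₂) :
    h43o_P p (μ₁ + μ₂) := by
  intro ζ hζ hζ1 l
  obtain ⟨β₁, hβ₁, hg₁⟩ := h₁ ζ hζ hζ1 l
  obtain ⟨β₂, hβ₂, hg₂⟩ := h₂ ζ hζ hζ1 l
  refine ⟨β₁ * β₂, by rw [norm_mul, hβ₁, hβ₂, mul_one], fun g hgi hg1 => ?_⟩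
  rw [map_mul, hg₁ g hgi hg1, hg₂ g hgi hg1, Pi.add_apply, map_add, ZMod.val_add,
    h43o_pow_mod hζ, pow_add]
  ring

theorem h43o_P_smul (c : k) {μ : Gq p → k} (h : h43o_P p μ) : h43o_P p (c • μ) := by
  intro ζ hζ hζ1 l
  obtain ⟨β, hβ, hg⟩ := h ζ hζ hζ1 (l.comp (AddMonoidHom.mulLeft c))
  refine ⟨β, hβ, fun g hgi hg1 => ?_⟩
  rw [hg g hgi hg1]
  rfl

end Kummer

/-! ## `2 × 2` matrices -/

section Alg

variable {k : Type} [Field k]

theorem h43o_mul00 (A B : Matrix (Fin 2) (Fin 2) k) :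
    (A * B) 0 0 = A 0 0 * B 0 0 + A 0 1 * B 1 0 := by
  rw [Matrix.mul_apply, Fin.sum_univ_two]

theorem h43o_mul01 (A B : Matrix (Fin 2) (Fin 2) k) :
    (A * B) 0 1 = A 0 0 * B 0 1 + A 0 1 * B 1 1 := by
  rw [Matrix.mul_apply, Fin.sum_univ_two]

theorem h43o_mul10 (A B : Matrix (Fin 2) (Fin 2) k) :
    (A * B) 1 0 = A 1 0 * B 0 0 + A 1 1 * B 1 0 := by
  rw [Matrix.mul_apply, Fin.sum_univ_two]

theorem h43o_mul11 (A B : Matrix (Fin 2) (Fin 2) k) :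
    (A * B) 1 1 = A 1 0 * B 0 1 + A 1 1 * B 1 1 := by
  rw [Matrix.mul_apply, Fin.sum_univ_two]

theorem h43o_ext {A B : Matrix (Fin 2) (Fin 2) k} (h00 : A 0 0 = B 0 0) (h01 : A 0 1 = B 0 1)
    (h10 : A 1 0 = B 1 0) (h11 : A 1 1 = B 1 1) : A = B := by
  ext i j
  fin_cases i <;> fin_cases j
  · exact h00
  · exact h01
  · exact h10
  · exact h11

theorem h43o_trace (A : Matrix (Fin 2) (Fin 2) k) : A.trace = A 0 0 + A 1 1 :=
  Matrix.trace_fin_two A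

variable {G : Type} [Group G] (R : G →* Matrix (Fin 2) (Fin 2) k)

theorem h43o_R00_one : R 1 0 0 = 1 := by
  rw [map_one]
  rfl

theorem h43o_R11_one : R 1 1 1 = 1 := by
  rw [map_one]
  rfl

theorem h43o_R01_mul (σ τ : G) :
    R (σ * τ) 0 1 = R σ 0 0 * R τ 0 1 + R σ 0 1 * R τ 1 1 := by
  rw [map_mul, h43o_mul01]

variable (hR : ∀ σ, R σ 1 0 = 0)

include hR in
theorem h43o_R00_mul (σ τ : G) : R (σ * τ) 0 0 = R σ 0 0 * R τ 0 0 := by
  rw [map_mul, h43o_mul00, hR τ, mul_zero, add_zero]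

include hR in
theorem h43o_R11_mul (σ τ : G) : R (σ * τ) 1 1 = R σ 1 1 * R τ 1 1 := by
  rw [map_mul, h43o_mul11, hR σ, zero_mul, zero_add]

include hR in
theorem h43o_R00_inv (σ : G) : R σ 0 0 * R σ⁻¹ 0 0 = 1 := by
  rw [← h43o_R00_mul R hR, mul_inv_cancel, h43o_R00_one]

include hR in
theorem h43o_R11_inv (σ : G) : R σ 1 1 * R σ⁻¹ 1 1 = 1 := by
  rw [← h43o_R11_mul R hR, mul_inv_cancel, h43o_R11_one]

include hR in
theorem h43o_R00_ne (σ : G) : R σ 0 0 ≠ 0 :=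
  left_ne_zero_of_mul_eq_one (h43o_R00_inv R hR σ)

include hR in
theorem h43o_R11_ne (σ : G) : R σ 1 1 ≠ 0 :=
  left_ne_zero_of_mul_eq_one (h43o_R11_inv R hR σ)

/-- `χ₁`. -/
def h43o_chi1 : G →* k where
  toFun σ := R σ 0 0
  map_one' := h43o_R00_one R
  map_mul' := h43o_R00_mul R hR

/-- `χ₂`. -/
def h43o_chi2 : G →* k where
  toFun σ := R σ 1 1
  map_one' := h43o_R11_one R
  map_mul' := h43o_R11_mul R hR

/-- `ψ = χ₁ / χ₂`. -/
def h43o_psi : G →* kˣ := (h43o_chi1 R hR).toHomUnits / (h43o_chi2 R hR).toHomUnits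

theorem h43o_psi_val (σ : G) : ((h43o_psi R hR σ : kˣ) : k) = R σ 0 0 / R σ 1 1 := by
  rw [h43o_psi, MonoidHom.div_apply, Units.val_div_eq_div_val, MonoidHom.coe_toHomUnits,
    MonoidHom.coe_toHomUnits]
  rfl

/-- the cocycle condition. -/
def h43o_IsCoc (g : G → Matrix (Fin 2) (Fin 2) k) : Prop :=
  ∀ σ τ, g (σ * τ) = g σ + R σ * g τ * R σ⁻¹

/-- the coboundary of `X`. -/
def h43o_cob (X : Matrix (Fin 2) (Fin 2) k) : G → Matrix (Fin 2) (Fin 2) k :=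
  fun τ => X - R τ * X * R τ⁻¹

theorem h43o_R_inv_mul (σ : G) : R σ⁻¹ * R σ = 1 := by
  rw [← map_mul, inv_mul_cancel, map_one]

theorem h43o_R_mul_inv (σ : G) : R σ * R σ⁻¹ = 1 := by
  rw [← map_mul, mul_inv_cancel, map_one]

theorem h43o_cob_isCoc (X : Matrix (Fin 2) (Fin 2) k) : h43o_IsCoc R (h43o_cob R X) := by
  intro σ τ
  simp only [h43o_cob, mul_inv_rev, map_mul]
  noncomm_ring

theorem h43o_isCoc_sub {f g : G → Matrix (Fin 2) (Fin 2) k} (hf : h43o_IsCoc R f)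
    (hg : h43o_IsCoc R g) : h43o_IsCoc R (fun σ => f σ - g σ) := by
  intro σ τ
  show f (σ * τ) - g (σ * τ) = f σ - g σ + R σ * (f τ - g τ) * R σ⁻¹
  rw [hf σ τ, hg σ τ]
  noncomm_ring

theorem h43o_coc_mul {g : G → Matrix (Fin 2) (Fin 2) k} (hg : h43o_IsCoc R g) (σ τ : G) :
    g (σ * τ) * R σ = g σ * R σ + R σ * g τ := by
  rw [hg σ τ, add_mul, mul_assoc (R σ * g τ), h43o_R_inv_mul, mul_one]

theorem h43o_cob_mul (X : Matrix (Fin 2) (Fin 2) k) (σ : G) :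
    h43o_cob R X σ * R σ = X * R σ - R σ * X := by
  rw [h43o_cob, sub_mul, mul_assoc (R σ * X), h43o_R_inv_mul, mul_one]

include hR in
theorem h43o_d_add {g : G → Matrix (Fin 2) (Fin 2) k} (hg : h43o_IsCoc R g)
    (h10 : ∀ σ, g σ 1 0 = 0) (σ τ : G) : g (σ * τ) 0 0 = g σ 0 0 + g τ 0 0 := by
  have h := congrFun (congrFun (h43o_coc_mul R hg σ τ) 0) 0
  rw [Matrix.add_apply, h43o_mul00, h43o_mul00, h43o_mul00, hR σ, h10 τ] at h
  apply mul_right_cancel₀ (h43o_R00_ne R hR σ)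
  linear_combination h

include hR in
theorem h43o_mu_rel {g : G → Matrix (Fin 2) (Fin 2) k} (hg : h43o_IsCoc R g)
    (h10 : ∀ σ, g σ 1 0 = 0) (htr : ∀ σ, (g σ).trace = 0) (σ τ : G) :
    R σ 1 1 * g (σ * τ) 0 1
      = R σ 1 1 * g σ 0 1 + R σ 0 0 * g τ 0 1 - 2 * R σ 0 1 * g τ 0 0 := by
  have h := congrFun (congrFun (h43o_coc_mul R hg σ τ) 0) 1
  rw [Matrix.add_apply, h43o_mul01, h43o_mul01, h43o_mul01, h43o_d_add R hR hg h10 σ τ] at h
  have h11 : g τ 1 1 = - g τ 0 0 := by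
    have := htr τ
    rw [h43o_trace] at this
    linear_combination this
  rw [h11] at h
  linear_combination h

include hR in
theorem h43o_cob10 {X : Matrix (Fin 2) (Fin 2) k} (hX : X 1 0 = 0) (σ : G) :
    h43o_cob R X σ 1 0 = 0 := by
  rw [h43o_cob, Matrix.sub_apply, h43o_mul10, h43o_mul10, h43o_mul11, hR σ, hR σ⁻¹, hX]
  ring

include hR in
theorem h43o_cob00 {X : Matrix (Fin 2) (Fin 2) k} (hX : X 1 0 = 0) (σ : G) :
    h43o_cob R X σ 0 0 = 0 := by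
  rw [h43o_cob, Matrix.sub_apply, h43o_mul00, h43o_mul00, h43o_mul01, hR σ⁻¹, hX]
  linear_combination (- X 0 0) * h43o_R00_inv R hR σ

theorem h43o_cob_trace (X : Matrix (Fin 2) (Fin 2) k) (σ : G) :
    (h43o_cob R X σ).trace = 0 := by
  rw [h43o_cob, Matrix.trace_sub, Matrix.trace_mul_comm, ← mul_assoc, h43o_R_inv_mul, one_mul,
    sub_self]

include hR in
theorem h43o_cob01 {X : Matrix (Fin 2) (Fin 2) k} (hX : X 1 0 = 0) (hXtr : X.trace = 0) (σ : G)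
    (h1 : R σ 0 0 = 1) (h2 : R σ 1 1 = 1) : h43o_cob R X σ 0 1 = 2 * X 0 0 * R σ 0 1 := by
  have h := congrFun (congrFun (h43o_cob_mul R X σ) 0) 1
  rw [Matrix.sub_apply, h43o_mul01, h43o_mul01, h43o_mul01, h43o_cob00 R hR hX, h1, h2] at h
  rw [h43o_trace] at hXtr
  linear_combination h - R σ 0 1 * hXtr

/-- `Θ(d, μ) = [[d, μ], [0, -d]]`. -/
def h43o_Theta : ((G → k) × (G → k)) →ₗ[k] (G → Matrix (Fin 2) (Fin 2) k) where
  toFun t := fun σ => !![t.1 σ, t.2 σ; 0, -t.1 σ]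
  map_add' s t := by
    funext σ
    apply h43o_ext <;> simp
    ring
  map_smul' c t := by
    funext σ
    apply h43o_ext <;> simp

theorem h43o_Theta_eq (g : G → Matrix (Fin 2) (Fin 2) k) (h10 : ∀ σ, g σ 1 0 = 0)
    (htr : ∀ σ, (g σ).trace = 0) :
    h43o_Theta (fun σ => g σ 0 0, fun σ => g σ 0 1) = g := by
  funext σ
  have h := htr σ
  rw [h43o_trace] at h
  apply h43o_ext
  · simp [h43o_Theta]
  · simp [h43o_Theta]
  · simp [h43o_Theta, h10 σ]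
  · simp [h43o_Theta]
    linear_combination -h

/-- the lower triangular nilpotent. -/
def h43o_F : Matrix (Fin 2) (Fin 2) k := !![0, 0; 1, 0]

/-- the upper triangular part. -/
def h43o_up (X : Matrix (Fin 2) (Fin 2) k) : Matrix (Fin 2) (Fin 2) k :=
  !![X 0 0, X 0 1; 0, X 1 1]

theorem h43o_up10 (X : Matrix (Fin 2) (Fin 2) k) : h43o_up X 1 0 = 0 := by
  simp [h43o_up]

theorem h43o_up00 (X : Matrix (Fin 2) (Fin 2) k) : h43o_up X 0 0 = X 0 0 := by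
  simp [h43o_up]

theorem h43o_up_trace (X : Matrix (Fin 2) (Fin 2) k) : (h43o_up X).trace = X.trace := by
  rw [h43o_trace, h43o_trace]
  simp [h43o_up]

theorem h43o_decomp (X : Matrix (Fin 2) (Fin 2) k) : X = X 1 0 • h43o_F + h43o_up X := by
  apply h43o_ext <;> simp [h43o_F, h43o_up]

theorem h43o_cob_decomp (X : Matrix (Fin 2) (Fin 2) k) :
    h43o_cob R X = X 1 0 • h43o_cob R h43o_F + h43o_cob R (h43o_up X) := by
  funext σ
  simp only [h43o_cob, Pi.add_apply, Pi.smul_apply]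
  conv_lhs => rw [h43o_decomp X]
  simp only [mul_add, add_mul, Matrix.mul_smul, Matrix.smul_mul, smul_sub]
  abel

end Alg

/-! ## The space `T` of pairs `(d, μ)` -/

section Main

variable {p : ℕ} [Fact p.Prime] {k : Type} [Field k]
variable (R : Gq p →* Matrix (Fin 2) (Fin 2) k)

/-- the pairs `(d, μ)`: `d` a continuous unramified homomorphism, `μ` continuous with the twisted
cocycle relation and unit Kummer classes. -/
def h43o_T : Submodule k ((Gq p → k) × (Gq p → k)) where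
  carrier := {t | (∀ σ τ, t.1 (σ * τ) = t.1 σ + t.1 τ) ∧ Cont1 (⊥ : LF p) t.1 ∧
      (∀ σ ∈ inertia p, t.1 σ = 0) ∧ Cont1 (⊥ : LF p) t.2 ∧
      (∀ σ τ, R σ 1 1 * t.2 (σ * τ)
        = R σ 1 1 * t.2 σ + R σ 0 0 * t.2 τ - 2 * R σ 0 1 * t.1 τ) ∧
      h43o_P p t.2}
  add_mem' := by
    rintro ⟨d₁, μ₁⟩ ⟨d₂, μ₂⟩ ⟨a1, a2, a3, a4, a5, a6⟩ ⟨b1, b2, b3, b4, b5, b6⟩
    refine ⟨fun σ τ => ?_, h43o_cont_map₂ a2 b2 (· + ·), fun σ hσ => ?_,
      h43o_cont_map₂ a4 b4 (· + ·), fun σ τ => ?_, h43o_P_add a6 b6⟩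
    · show d₁ (σ * τ) + d₂ (σ * τ) = (d₁ σ + d₂ σ) + (d₁ τ + d₂ τ)
      linear_combination a1 σ τ + b1 σ τ
    · show d₁ σ + d₂ σ = 0
      linear_combination a3 σ hσ + b3 σ hσ
    · show R σ 1 1 * (μ₁ (σ * τ) + μ₂ (σ * τ))
        = R σ 1 1 * (μ₁ σ + μ₂ σ) + R σ 0 0 * (μ₁ τ + μ₂ τ) - 2 * R σ 0 1 * (d₁ τ + d₂ τ)
      linear_combination a5 σ τ + b5 σ τ
  zero_mem' := by
    have hc : Cont1 (⊥ : LF p) (0 : Gq p → k) :=
      ⟨⊥, inferInstance, le_rfl, fun _ _ _ _ => rfl⟩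
    refine ⟨fun σ τ => ?_, hc, fun σ _ => rfl, hc, fun σ τ => ?_, h43o_P_zero⟩
    · show (0 : k) = 0 + 0
      rw [add_zero]
    · show R σ 1 1 * 0 = R σ 1 1 * 0 + R σ 0 0 * 0 - 2 * R σ 0 1 * 0
      ring
  smul_mem' := by
    rintro c ⟨d, μ⟩ ⟨a1, a2, a3, a4, a5, a6⟩
    refine ⟨fun σ τ => ?_, h43o_cont_comp a2 (c * ·), fun σ hσ => ?_,
      h43o_cont_comp a4 (c * ·), fun σ τ => ?_, h43o_P_smul c a6⟩
    · show c * d (σ * τ) = c * d σ + c * d τ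
      linear_combination c * a1 σ τ
    · show c * d σ = 0
      linear_combination c * a3 σ hσ
    · show R σ 1 1 * (c * μ (σ * τ))
        = R σ 1 1 * (c * μ σ) + R σ 0 0 * (c * μ τ) - 2 * R σ 0 1 * (c * d τ)
      linear_combination c * a5 σ τ

theorem h43o_mem_T (t : (Gq p → k) × (Gq p → k)) : t ∈ h43o_T R ↔
    (∀ σ τ, t.1 (σ * τ) = t.1 σ + t.1 τ) ∧ Cont1 (⊥ : LF p) t.1 ∧
      (∀ σ ∈ inertia p, t.1 σ = 0) ∧ Cont1 (⊥ : LF p) t.2 ∧
      (∀ σ τ, R σ 1 1 * t.2 (σ * τ)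
        = R σ 1 1 * t.2 σ + R σ 0 0 * t.2 τ - 2 * R σ 0 1 * t.1 τ) ∧
      h43o_P p t.2 := Iff.rfl

variable (hR : ∀ σ, R σ 1 0 = 0)

include hR in
/-- a cocycle of the shape gives an element of `T`. -/
theorem h43o_mem_T_of_coc {g : Gq p → Matrix (Fin 2) (Fin 2) k} (hg : h43o_IsCoc R g)
    (h10 : ∀ σ, g σ 1 0 = 0) (htr : ∀ σ, (g σ).trace = 0) (hc : Cont1 (⊥ : LF p) g)
    (hin : ∀ σ ∈ inertia p, g σ 0 0 = 0) (hP : h43o_P p (fun σ => g σ 0 1)) :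
    g ∈ (h43o_T R).map h43o_Theta := by
  refine ⟨(fun σ => g σ 0 0, fun σ => g σ 0 1), ?_, h43o_Theta_eq g h10 htr⟩
  exact ⟨fun σ τ => h43o_d_add R hR hg h10 σ τ,
    h43o_cont_comp hc (fun A : Matrix (Fin 2) (Fin 2) k => A 0 0), hin,
    h43o_cont_comp hc (fun A : Matrix (Fin 2) (Fin 2) k => A 0 1),
    fun σ τ => h43o_mu_rel R hR hg h10 htr σ τ, hP⟩

theorem h43o_cont_cob (hRc : Cont1 (⊥ : LF p) (fun σ => R σ)) (X : Matrix (Fin 2) (Fin 2) k) :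
    Cont1 (⊥ : LF p) (h43o_cob R X) := by
  obtain ⟨F, hF, hle, h⟩ := hRc
  refine ⟨F, hF, hle, fun g hg s hs => ?_⟩
  have h1 : R (g * s) = R g := h g hg s hs
  have h2 : R s = 1 := by
    have := h 1 (h43o_mem_GK_bot 1) s hs
    simpa using this
  have h3 : R s⁻¹ = 1 := by
    have := h43o_R_inv_mul R s
    rwa [h2, mul_one] at this
  show X - R (g * s) * X * R (g * s)⁻¹ = X - R g * X * R g⁻¹
  rw [h1, mul_inv_rev, map_mul, h3, one_mul]

include hR in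
/-- the coboundaries of the Borel lie in `Θ(T)`. -/
theorem h43o_cob_borel (hRc : Cont1 (⊥ : LF p) (fun σ => R σ))
    (hi1 : ∀ σ ∈ inertia p, ∀ a : ℕ, cycExp p σ a → R σ 0 0 = (a : k))
    (hi2 : ∀ σ ∈ inertia p, R σ 1 1 = 1)
    (hPR : h43o_P p (fun σ => R σ 0 1))
    {X : Matrix (Fin 2) (Fin 2) k} (hX : X 1 0 = 0) (hXtr : X.trace = 0) :
    h43o_cob R X ∈ (h43o_T R).map h43o_Theta := by
  refine h43o_mem_T_of_coc R hR (h43o_cob_isCoc R X) (h43o_cob10 R hR hX)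
    (h43o_cob_trace R X) (h43o_cont_cob R hRc X) (fun σ _ => h43o_cob00 R hR hX σ) ?_
  refine h43o_P_congr (μ := (2 * X 0 0) • (fun σ => R σ 0 1)) ?_ (h43o_P_smul _ hPR)
  intro g hg hg1
  have h1 : R g 0 0 = 1 := by
    rw [hi1 g hg 1 hg1]
    exact Nat.cast_one
  rw [h43o_cob01 R hR hX hXtr g h1 (hi2 g hg)]
  rfl

include hR in
theorem h43o_cont_psi (hRc : Cont1 (⊥ : LF p) (fun σ => R σ)) :
    Cont1 (⊥ : LF p) (fun σ => h43o_psi R hR σ) := by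
  obtain ⟨F, hF, hle, h⟩ := hRc
  refine ⟨F, hF, hle, fun g hg s hs => ?_⟩
  have h1 : R (g * s) = R g := h g hg s hs
  apply Units.ext
  show ((h43o_psi R hR (g * s) : kˣ) : k) = ((h43o_psi R hR g : kˣ) : k)
  rw [h43o_psi_val, h43o_psi_val, h1]

include hR in
/-- `dim T ≤ 3`. -/
theorem h43o_T_bound (hFE : FrobExists) (hFG : FrobGen) (hKC : OrdKC) (hp2 : p ≠ 2)
    [Finite k] [CharP k p]
    (hRc : Cont1 (⊥ : LF p) (fun σ => R σ))
    (hi1 : ∀ σ ∈ inertia p, ∀ a : ℕ, cycExp p σ a → R σ 0 0 = (a : k))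
    (hi2 : ∀ σ ∈ inertia p, R σ 1 1 = 1) :
    Module.Finite k (h43o_T R) ∧ Module.finrank k (h43o_T R) ≤ 3 := by
  obtain ⟨φ, hφ⟩ := hFE p
  obtain ⟨Z, hZf, hZr, hZ⟩ := hKC p hp2 k (h43o_psi R hR) (h43o_cont_psi R hR hRc)
    (fun σ hσ a ha => by rw [h43o_psi_val, hi1 σ hσ a ha, hi2 σ hσ, div_one])
  have hd0 : ∀ t ∈ h43o_T R, t.1 φ = 0 → t.1 = 0 := fun t ht h0 =>
    funext (hFG p k t.1 ht.2.1 ht.1 ht.2.2.1 φ hφ h0)
  have hμZ : ∀ t ∈ h43o_T R, t.1 = 0 → t.2 ∈ Z := by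
    intro t ht h0
    refine hZ t.2 ht.2.2.2.1 (fun σ τ => ?_) ht.2.2.2.2.2
    have h := ht.2.2.2.2.1 σ τ
    rw [h0] at h
    simp only [Pi.zero_apply, mul_zero, sub_zero] at h
    rw [h43o_psi_val]
    have hne := h43o_R11_ne R hR σ
    field_simp
    linear_combination h
  obtain ⟨t₀, ht₀, ht₀'⟩ :
      ∃ t₀ ∈ h43o_T R, ∀ t ∈ h43o_T R, t.1 φ - t.1 φ * t₀.1 φ = 0 := by
    by_cases h : ∃ t ∈ h43o_T R, t.1 φ ≠ 0
    · obtain ⟨t, ht, hne⟩ := h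
      refine ⟨(t.1 φ)⁻¹ • t, Submodule.smul_mem _ _ ht, fun s _ => ?_⟩
      show s.1 φ - s.1 φ * ((t.1 φ)⁻¹ * t.1 φ) = 0
      rw [inv_mul_cancel₀ hne, mul_one, sub_self]
    · have h' : ∀ t ∈ h43o_T R, t.1 φ = 0 := fun t ht => by
        by_contra hne
        exact h ⟨t, ht, hne⟩
      refine ⟨0, Submodule.zero_mem _, fun s hs => ?_⟩
      rw [h' s hs, zero_mul, sub_zero]
  let L₁ : h43o_T R →ₗ[k] k :=
    ((LinearMap.proj φ).comp (LinearMap.fst k (Gq p → k) (Gq p → k))).comp (h43o_T R).subtype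
  have hL₁ : ∀ t : h43o_T R, L₁ t = t.1.1 φ := fun _ => rfl
  let L₂' : h43o_T R →ₗ[k] (Gq p → k) :=
    ((LinearMap.snd k (Gq p → k) (Gq p → k)).comp (h43o_T R).subtype) - L₁.smulRight t₀.2
  have hL₂' : ∀ t : h43o_T R, L₂' t = t.1.2 - t.1.1 φ • t₀.2 := fun _ => rfl
  have hmem : ∀ t : h43o_T R, L₂' t ∈ Z := by
    intro t
    have hs : t.1 - (t.1.1 φ) • t₀ ∈ h43o_T R :=
      Submodule.sub_mem _ t.2 (Submodule.smul_mem _ _ ht₀)
    have hs0 : (t.1 - (t.1.1 φ) • t₀).1 = 0 := by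
      apply hd0 _ hs
      show t.1.1 φ - t.1.1 φ * t₀.1 φ = 0
      exact ht₀' t.1 t.2
    exact hμZ _ hs hs0
  let L₂ : h43o_T R →ₗ[k] Z := LinearMap.codRestrict Z L₂' hmem
  let L : h43o_T R →ₗ[k] k × Z := LinearMap.prod L₁ L₂
  have hinj : Function.Injective L := by
    rw [injective_iff_map_eq_zero]
    intro t ht
    have h1 : L₁ t = 0 := congrArg Prod.fst ht
    have h2 : L₂' t = 0 := congrArg (fun x : k × Z => (x.2 : Gq p → k)) ht
    rw [hL₁] at h1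
    rw [hL₂', h1, zero_smul, sub_zero] at h2
    have h3 : t.1.1 = 0 := hd0 t.1 t.2 h1
    apply Subtype.ext
    exact Prod.ext h3 h2
  haveI := hZf
  refine ⟨Module.Finite.of_injective L hinj, ?_⟩
  calc Module.finrank k (h43o_T R) ≤ Module.finrank k (k × Z) :=
        LinearMap.finrank_le_finrank_of_injective hinj
    _ = 1 + Module.finrank k Z := by rw [Module.finrank_prod, Module.finrank_self]
    _ ≤ 3 := by omega

include hR in
/-- **The count, in matrix form.** -/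
theorem h43o_matCount (hFE : FrobExists) (hFG : FrobGen) (hKC : OrdKC) (hp2 : p ≠ 2)
    [Finite k] [CharP k p]
    (hRc : Cont1 (⊥ : LF p) (fun σ => R σ))
    (hi1 : ∀ σ ∈ inertia p, ∀ a : ℕ, cycExp p σ a → R σ 0 0 = (a : k))
    (hi2 : ∀ σ ∈ inertia p, R σ 1 1 = 1)
    (hPR : h43o_P p (fun σ => R σ 0 1)) :
    ∃ W : Submodule k (Gq p → Matrix (Fin 2) (Fin 2) k),
      Module.Finite k W ∧ Module.finrank k W ≤ 4 ∧
      (∀ X : Matrix (Fin 2) (Fin 2) k, X.trace = 0 → h43o_cob R X ∈ W) ∧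
      ∀ f : Gq p → Matrix (Fin 2) (Fin 2) k, Cont1 (⊥ : LF p) f → h43o_IsCoc R f →
        (∀ σ, (f σ).trace = 0) →
        (∃ X : Matrix (Fin 2) (Fin 2) k, X.trace = 0 ∧
          (∀ σ, (f σ - h43o_cob R X σ) 1 0 = 0) ∧
          (∀ σ ∈ inertia p, (f σ - h43o_cob R X σ) 0 0 = 0) ∧
          h43o_P p (fun σ => (f σ - h43o_cob R X σ) 0 1)) → f ∈ W := by
  obtain ⟨hTf, hTr⟩ := h43o_T_bound R hR hFE hFG hKC hp2 hRc hi1 hi2
  haveI := hTf
  set W : Submodule k (Gq p → Matrix (Fin 2) (Fin 2) k) :=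
    Submodule.span k {h43o_cob R (h43o_F : Matrix (Fin 2) (Fin 2) k)}
      ⊔ (h43o_T R).map h43o_Theta with hW
  have hB : ∀ X : Matrix (Fin 2) (Fin 2) k, X.trace = 0 → h43o_cob R X ∈ W := by
    intro X hX
    rw [h43o_cob_decomp R X]
    refine Submodule.add_mem _ (Submodule.smul_mem _ _
      (Submodule.mem_sup_left (Submodule.subset_span rfl))) (Submodule.mem_sup_right ?_)
    exact h43o_cob_borel R hR hRc hi1 hi2 hPR (h43o_up10 X) (by rw [h43o_up_trace]; exact hX)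
  have h1 : Module.finrank k
      (Submodule.span k {h43o_cob R (h43o_F : Matrix (Fin 2) (Fin 2) k)}) ≤ 1 := by
    have := finrank_span_le_card (R := k)
      ({h43o_cob R (h43o_F : Matrix (Fin 2) (Fin 2) k)} : Set (Gq p → Matrix (Fin 2) (Fin 2) k))
    simpa using this
  refine ⟨W, inferInstance, ?_, hB, ?_⟩
  · calc Module.finrank k W
        ≤ Module.finrank k
            (Submodule.span k {h43o_cob R (h43o_F : Matrix (Fin 2) (Fin 2) k)})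
          + Module.finrank k ((h43o_T R).map (h43o_Theta (G := Gq p) (k := k))) :=
          Submodule.finrank_add_le_finrank_add_finrank _ _
      _ ≤ 1 + 3 := add_le_add h1 ((Submodule.finrank_map_le _ _).trans hTr)
  · rintro f hfc hfcoc hftr ⟨X, hX, h10, hin, hP⟩
    have hdec : f = h43o_cob R X + (fun σ => f σ - h43o_cob R X σ) := by
      funext σ
      simp
    rw [hdec]
    refine Submodule.add_mem _ (hB X hX) (Submodule.mem_sup_right ?_)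
    refine h43o_mem_T_of_coc R hR (h43o_isCoc_sub R hfcoc (h43o_cob_isCoc R X)) h10
      (fun σ => ?_) (h43o_cont_map₂ hfc (h43o_cont_cob R hRc X) (· - ·)) hin hP
    rw [Matrix.trace_sub, hftr σ, h43o_cob_trace, sub_zero]

end Main

/-! ## Transport to `End V` -/

section Transport

variable {k : Type} [Field k] {V : Type} [AddCommGroup V] [Module k V]

theorem h43o_entry (B : Module.Basis (Fin 2) k V) (A : Module.End k V) (j : Fin 2) (x y : k)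
    (h : A (B j) = x • B 0 + y • B 1) :
    LinearMap.toMatrixAlgEquiv B A 0 j = x ∧ LinearMap.toMatrixAlgEquiv B A 1 j = y := by
  rw [LinearMap.toMatrixAlgEquiv_apply, LinearMap.toMatrixAlgEquiv_apply, h]
  simp

end Transport

/-- **FL-O6**: the ordinary count from the Kummer count. -/
theorem h43o_ordCountAsm : OrdCountAsm := by
  intro hFE hFG hKC p _ k _ _ _ V _ _ _ ρ hρ hρc v₀ hv₀ hPRR
  classical
  have hrk : 1 < Module.finrank k V := by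
    rw [hρ.rank]
    norm_num
  obtain ⟨v₁, hli⟩ := exists_linearIndependent_pair_of_one_lt_finrank hrk hv₀.ne
  have hcard : Fintype.card (Fin 2) = Module.finrank k V := by
    rw [hρ.rank]
    rfl
  set B : Module.Basis (Fin 2) k V := basisOfLinearIndependentOfCardEqFinrank hli hcard
    with hBdef
  have hB0 : B 0 = v₀ := by
    rw [hBdef, coe_basisOfLinearIndependentOfCardEqFinrank]
    rfl
  set Φ : Module.End k V ≃ₐ[k] Matrix (Fin 2) (Fin 2) k := LinearMap.toMatrixAlgEquiv B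
    with hΦ
  set R : Gq p →* Matrix (Fin 2) (Fin 2) k :=
    (Φ : Module.End k V →* Matrix (Fin 2) (Fin 2) k).comp ρ with hRdef
  have hRapp : ∀ σ, R σ = Φ (ρ σ) := fun _ => rfl
  -- the shape of `R`
  have hR : ∀ σ, R σ 1 0 = 0 := by
    intro σ
    obtain ⟨a, ha⟩ := hv₀.stable σ
    have h : ρ σ (B 0) = a • B 0 + (0 : k) • B 1 := by
      rw [hB0, ha, zero_smul, add_zero]
    exact (h43o_entry B (ρ σ) 0 a 0 h).2
  have hRc : Cont1 (⊥ : LF p) (fun σ => R σ) := h43o_cont_comp hρc (fun A => Φ A)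
  have hi1 : ∀ σ ∈ inertia p, ∀ a : ℕ, cycExp p σ a → R σ 0 0 = (a : k) := by
    intro σ hσ a ha
    have h : ρ σ (B 0) = (a : k) • B 0 + (0 : k) • B 1 := by
      rw [hB0, hv₀.inert_line σ hσ a ha, zero_smul, add_zero]
    exact (h43o_entry B (ρ σ) 0 _ 0 h).1
  have hq : ∀ σ ∈ inertia p, ρ σ (B 1) = R σ 0 1 • B 0 + (1 : k) • B 1 := by
    intro σ hσ
    obtain ⟨b, hb⟩ := hv₀.inert_quot σ hσ (B 1)
    have h : ρ σ (B 1) = b • B 0 + (1 : k) • B 1 := by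
      rw [hB0, one_smul, ← hb]
      abel
    have h1 := (h43o_entry B (ρ σ) 1 b 1 h).1
    rw [hRapp, h1]
    exact h
  have hi2 : ∀ σ ∈ inertia p, R σ 1 1 = 1 := fun σ hσ =>
    (h43o_entry B (ρ σ) 1 _ 1 (hq σ hσ)).2
  have hPR : h43o_P p (fun σ => R σ 0 1) := by
    intro ζ hζ hζ1 l
    obtain ⟨β, hβ, hg⟩ := hPRR ζ hζ hζ1 (B 1) l
    refine ⟨β, hβ, fun g hgi hg1 => hg g hgi hg1 (R g 0 1) ?_⟩
    rw [hq g hgi, hB0, one_smul]
    abel
  obtain ⟨W', hW'f, hW'r, hW'B, hW'⟩ :=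
    h43o_matCount R hR hFE hFG hKC hρ.odd hRc hi1 hi2 hPR
  -- transport
  let Ψ : (Gq p → Module.End k V) ≃ₗ[k] (Gq p → Matrix (Fin 2) (Fin 2) k) :=
    LinearEquiv.piCongrRight (fun _ => Φ.toLinearEquiv)
  have hΨ : ∀ (f : Gq p → Module.End k V) (σ : Gq p), Ψ f σ = Φ (f σ) := fun _ _ => rfl
  have hcobΨ : ∀ X : Module.End k V, Ψ (coB p ρ X) = h43o_cob R (Φ X) := by
    intro X
    funext σ
    show Φ (X - ρ σ * X * ρ σ⁻¹) = Φ X - Φ (ρ σ) * Φ X * Φ (ρ σ⁻¹)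
    rw [map_sub, map_mul, map_mul]
  have htrΦ : ∀ A : Module.End k V, (Φ A).trace = LinearMap.trace k V A := fun A =>
    (LinearMap.trace_eq_matrix_trace k B A).symm
  have hmemW : ∀ f : Gq p → Module.End k V,
      f ∈ W'.map (Ψ.symm : (Gq p → Matrix (Fin 2) (Fin 2) k) →ₗ[k] (Gq p → Module.End k V))
        ↔ Ψ f ∈ W' := by
    intro f
    rw [Submodule.mem_map_equiv, LinearEquiv.symm_symm]
  haveI := hW'f
  refine ⟨W'.map (Ψ.symm : (Gq p → Matrix (Fin 2) (Fin 2) k) →ₗ[k] (Gq p → Module.End k V)),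
    inferInstance, ?_, ?_, ?_⟩
  · rw [LinearEquiv.finrank_map_eq]
    exact hW'r
  · intro X hX
    rw [hmemW, hcobΨ]
    exact hW'B _ (by rw [htrΦ]; exact hX)
  · intro f hf
    rw [hmemW]
    obtain ⟨X, hX, hsh, hpr⟩ := hf.shape
    have hsub : ∀ σ, Ψ f σ - h43o_cob R (Φ X) σ = Φ ((f - coB p ρ X) σ) := by
      intro σ
      rw [← hcobΨ, hΨ, hΨ, Pi.sub_apply, map_sub]
    have hrange : ∀ σ ∈ inertia p, (f - coB p ρ X) σ (B 1)
        = (Ψ f σ - h43o_cob R (Φ X) σ) 0 1 • v₀ := by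
      intro σ hσ
      obtain ⟨b, hb⟩ := hsh.inert_range σ hσ (B 1)
      have h : (f - coB p ρ X) σ (B 1) = b • B 0 + (0 : k) • B 1 := by
        rw [hB0, hb, zero_smul, add_zero]
      rw [hsub, (h43o_entry B _ 1 b 0 h).1]
      exact hb
    refine hW' (Ψ f) (h43o_cont_comp hf.cont (fun A => Φ A)) ?_ ?_ ⟨Φ X, ?_, ?_, ?_, ?_⟩
    · intro σ τ
      show Φ (f (σ * τ)) = Φ (f σ) + Φ (ρ σ) * Φ (f τ) * Φ (ρ σ⁻¹)
      rw [hf.cocycle, map_add, map_mul, map_mul]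
    · intro σ
      rw [hΨ, htrΦ]
      exact hf.trace σ
    · rw [htrΦ]
      exact hX
    · intro σ
      obtain ⟨a, ha⟩ := hsh.borel σ
      have h : (f - coB p ρ X) σ (B 0) = a • B 0 + (0 : k) • B 1 := by
        rw [hB0, ha, zero_smul, add_zero]
      rw [hsub]
      exact (h43o_entry B _ 0 a 0 h).2
    · intro σ hσ
      have h : (f - coB p ρ X) σ (B 0) = (0 : k) • B 0 + (0 : k) • B 1 := by
        rw [hB0, hsh.inert_zero σ hσ, zero_smul, zero_smul, add_zero]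
      rw [hsub]
      exact (h43o_entry B _ 0 0 0 h).1
    · intro ζ hζ hζ1 l
      obtain ⟨β, hβ, hg⟩ := hpr ζ hζ hζ1 (B 1) l
      exact ⟨β, hβ, fun g hgi hg1 => hg g hgi hg1 _ (hrange g hgi)⟩

end Fermat.Agent.S56F
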