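import Fermat.Agent.S56F.IfaceTop

/-!
# S56 / LOC-p-FL, leaf FL-T1 (helper87): the local-global bridge for the determinant

`h87f_detBridge : DetBridge` — if `τ ∈ Gq p` acts on `μ_p(Om p)` by `a`-th powers, then
`ιp p τ` acts on `μ_p(ℚ̄)` by `a`-th powers (injectivity of `padicEmbedding` and
`padicEmbedding_localGaloisToGlobal`).
-/

set_option autoImplicit false

open Fermat.Agent.PT.Loc

noncomputable section

namespace Fermat.Agent.S56F

/-- **FL-T1.** -/
theorem h87f_detBridge : DetBridge := by
  intro p _ τ a h μ hμ
  apply (padicEmbedding p).toRingHom.injective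
  change padicEmbedding p (localGaloisToGlobal p τ μ) = padicEmbedding p (μ ^ a)
  rw [padicEmbedding_localGaloisToGlobal, map_pow]
  apply h
  rw [← map_pow, hμ, map_one]

end Fermat.Agent.S56F
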