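import Fermat.Agent.S56F.IfaceSS
import Fermat.Agent.S56F.A1h39
import Fermat.Agent.S56F.A2h39
import Fermat.Agent.S56F.FLA3_helper15
import Fermat.Agent.S56F.FLT1_helper87
import Fermat.Agent.S56F.FLO07_helper7
import Fermat.Agent.S56F.FLO1F_helper7
import Fermat.Agent.S56F.FLC0_helper34
import Fermat.Agent.S56F.FLO2_helper89
import Fermat.Agent.S56F.FLO3Final_helper84
import Fermat.Agent.S56F.FLO45Final_helper4
import Fermat.Agent.S56F.FLO6_helper43
import Fermat.Agent.S56F.FLD5_helper96
import Fermat.Agent.S56F.FLD6_helper96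

/-!
# S56 / LOC-p-FL: the pillar reduced to its five open blocks

`h97_locPFL_of : OrdKC → SSNFExists → SSDiagZero → SSOffLev3 → SSCount → LocPFL`
(everything else is landed and plugged in here).
-/

set_option autoImplicit false
set_option linter.style.haveILetI false

namespace Fermat.Agent.S56F

/-- Block HOPF-A, unconditional. -/
theorem h97_niceExists : NiceExists :=
  niceExists_of h39f_normalForm h39a_autStabilize h15f_charCompleteAll

/-- Block ORD from the Kummer count. -/
theorem h97_ordBound_of (hkc : OrdKC) : OrdBound :=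
  ordBound_of h7o_flatCont h7s_locFlatSub_final h89o_ordNFExists h84o_ordLine_final
    h4p_ordPeu h4o_ordPeuRep (h43o_ordCountAsm h96f_frobExists h96g_frobGen hkc) h7o_repCont

/-- Block SS from its four block statements. -/
theorem h97_ssBound_of (s1 : SSNFExists) (s2 : SSDiagZero) (s3 : SSOffLev3) (s4 : SSCount) :
    SSBound :=
  ssBound_of h7o_flatCont h7s_locFlatSub_final h7o_repCont h34t_teichExists s1 s2 s3 s4

/-- **The pillar LOC-p-FL, reduced to the five open blocks.** -/
theorem h97_locPFL_of (hkc : OrdKC) (s1 : SSNFExists) (s2 : SSDiagZero) (s3 : SSOffLev3)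
    (s4 : SSCount) : LocPFL :=
  locPFL_of h97_niceExists h87f_detBridge
    (locPFLloc_of (h97_ordBound_of hkc) (h97_ssBound_of s1 s2 s3 s4))

end Fermat.Agent.S56F
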