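import Fermat.Agent.S56F.IfaceO8
import Fermat.Agent.S56F.FLC0_helper34
import Fermat.Agent.S56F.FLC1_helper7
import Fermat.Agent.S56F.FLD0_helper89
import Fermat.Agent.S56F.FLD1_helper45
import Fermat.Agent.S56F.FLO3_helper84
import Fermat.Agent.PT.Loc.H34LFTeich
import Fermat.Agent.PT.Loc.H36URBase

/-!
# S56 / LOC-p-FL, row FL-O8b (helper84): `H34KUnitInv`

The invariant `a : U(ℚ_p^ur) → κ`, `u = w (1 + p y) ↦ y mod 𝔪` (`w` a root of unity of order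
prime to `p`): additive, kernel = `p`-th powers, Frobenius semilinear.  `κ` is the residue field
of `Om p`.
-/

set_option autoImplicit false
set_option linter.style.haveILetI false
set_option linter.unusedSectionVars false

open Valued IsLocalRing Polynomial

open scoped NormedField

open Fermat.Agent.PT.Loc

noncomputable section

namespace Fermat.Agent.S56F

variable {p : ℕ} [Fact p.Prime]

/-! ## The residue map of `Om p` -/

/-- the residue field of `Om p`. -/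
abbrev h84u_kappa (p : ℕ) [Fact p.Prime] : Type := ResidueField 𝒪[Om p]

theorem h84u_charP (p : ℕ) [Fact p.Prime] : CharP (h84u_kappa p) p := by
  have hpres : ((p : ℕ) : ResidueField 𝒪[Om p]) = 0 := by
    rw [← map_natCast (residue 𝒪[Om p]), h34t_residue_eq_zero_iff]
    exact h34t_norm_p_lt_one p
  exact (CharP.charP_iff_prime_eq_zero Fact.out).mpr hpres

/-- the integer of `Om p` attached to an element of norm `≤ 1`. -/
def h84u_int (y : Om p) (h : ‖y‖ ≤ 1) : 𝒪[Om p] := ⟨y, Valued.integer.mem_iff.mpr h⟩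

/-- the residue map, extended by zero. -/
def h84u_res (y : Om p) : h84u_kappa p :=
  if h : ‖y‖ ≤ 1 then residue 𝒪[Om p] (h84u_int y h) else 0

theorem h84u_res_of_le {y : Om p} (h : ‖y‖ ≤ 1) :
    h84u_res y = residue 𝒪[Om p] (h84u_int y h) := dif_pos h

theorem h84u_norm_add_le {x y : Om p} (hx : ‖x‖ ≤ 1) (hy : ‖y‖ ≤ 1) : ‖x + y‖ ≤ 1 :=
  (IsUltrametricDist.norm_add_le_max x y).trans (max_le hx hy)

theorem h84u_norm_mul_le {x y : Om p} (hx : ‖x‖ ≤ 1) (hy : ‖y‖ ≤ 1) : ‖x * y‖ ≤ 1 := by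
  rw [norm_mul]
  exact mul_le_one₀ hx (norm_nonneg _) hy

theorem h84u_norm_pow_le {x : Om p} (hx : ‖x‖ ≤ 1) (n : ℕ) : ‖x ^ n‖ ≤ 1 := by
  rw [norm_pow]
  exact pow_le_one₀ (norm_nonneg _) hx

theorem h84u_res_add {x y : Om p} (hx : ‖x‖ ≤ 1) (hy : ‖y‖ ≤ 1) :
    h84u_res (x + y) = h84u_res x + h84u_res y := by
  rw [h84u_res_of_le hx, h84u_res_of_le hy, h84u_res_of_le (h84u_norm_add_le hx hy),
    ← map_add]
  rfl

theorem h84u_res_mul {x y : Om p} (hx : ‖x‖ ≤ 1) (hy : ‖y‖ ≤ 1) :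
    h84u_res (x * y) = h84u_res x * h84u_res y := by
  rw [h84u_res_of_le hx, h84u_res_of_le hy, h84u_res_of_le (h84u_norm_mul_le hx hy),
    ← map_mul]
  rfl

theorem h84u_res_pow {x : Om p} (hx : ‖x‖ ≤ 1) (n : ℕ) :
    h84u_res (x ^ n) = h84u_res x ^ n := by
  rw [h84u_res_of_le hx, h84u_res_of_le (h84u_norm_pow_le hx n), ← map_pow]
  rfl

theorem h84u_res_eq_zero_iff {x : Om p} (hx : ‖x‖ ≤ 1) : h84u_res x = 0 ↔ ‖x‖ < 1 := by
  rw [h84u_res_of_le hx, h34t_residue_eq_zero_iff]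
  rfl

theorem h84u_res_eq_of_norm_sub_lt {x y : Om p} (hy : ‖y‖ ≤ 1)
    (h : ‖x - y‖ < 1) : h84u_res x = h84u_res y := by
  have h1 : h84u_res (x - y) = 0 := (h84u_res_eq_zero_iff h.le).2 h
  have h2 : x = (x - y) + y := by ring
  rw [h2, h84u_res_add h.le hy, h1, zero_add]

theorem h84u_norm_sub_lt_of_res_eq {x y : Om p} (hx : ‖x‖ ≤ 1) (hy : ‖y‖ ≤ 1)
    (h : h84u_res x = h84u_res y) : ‖x - y‖ < 1 := by
  have hxy : ‖x - y‖ ≤ 1 := by
    rw [sub_eq_add_neg]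
    exact h84u_norm_add_le hx (by rw [norm_neg]; exact hy)
  rw [← h84u_res_eq_zero_iff hxy]
  have h2 : x = (x - y) + y := by ring
  have h3 := h84u_res_add hxy hy
  rw [← h2, h] at h3
  exact (add_eq_right.1 h3.symm)

theorem h84u_norm_p_pos (p : ℕ) [Fact p.Prime] : 0 < ‖(p : Om p)‖ := by
  rw [norm_pos_iff]
  exact Nat.cast_ne_zero.mpr (Fact.out : p.Prime).ne_zero

theorem h84u_res_p_mul (y : Om p) (hy : ‖y‖ ≤ 1) : h84u_res ((p : Om p) * y) = 0 := by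
  have h1 : ‖(p : Om p) * y‖ < 1 := by
    rw [norm_mul]
    calc ‖(p : Om p)‖ * ‖y‖ ≤ ‖(p : Om p)‖ * 1 :=
          mul_le_mul_of_nonneg_left hy (norm_nonneg _)
      _ < 1 := by rw [mul_one]; exact h34t_norm_p_lt_one p
  exact (h84u_res_eq_zero_iff h1.le).2 h1

/-! ## Teichmüller representatives in `Om p` -/

/-- a root of unity of order prime to `p`. -/
def h84u_IsMu (p : ℕ) [Fact p.Prime] (w : Om p) : Prop := ∃ m : ℕ, 0 < m ∧ ¬ p ∣ m ∧ w ^ m = 1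

theorem h84u_isMu_norm {w : Om p} (hw : h84u_IsMu p w) : ‖w‖ = 1 := by
  obtain ⟨m, hm0, -, hwm⟩ := hw
  exact h36u_norm_eq_one_of_pow hm0 hwm

theorem h84u_isMu_ne_zero {w : Om p} (hw : h84u_IsMu p w) : w ≠ 0 := by
  intro h
  have := h84u_isMu_norm hw
  rw [h, norm_zero] at this
  exact zero_ne_one this

theorem h84u_isMu_mul {w w' : Om p} (hw : h84u_IsMu p w) (hw' : h84u_IsMu p w') :
    h84u_IsMu p (w * w') := by
  obtain ⟨m, hm0, hm, hwm⟩ := hw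
  obtain ⟨m', hm0', hm', hwm'⟩ := hw'
  refine ⟨m * m', Nat.mul_pos hm0 hm0', ?_, ?_⟩
  · intro h
    rcases (Nat.Prime.dvd_mul Fact.out).mp h with h | h
    · exact hm h
    · exact hm' h
  · rw [mul_pow, pow_mul, hwm, one_pow, pow_mul', hwm', one_pow, one_mul]

theorem h84u_isMu_pow {w : Om p} (hw : h84u_IsMu p w) (n : ℕ) : h84u_IsMu p (w ^ n) := by
  obtain ⟨m, hm0, hm, hwm⟩ := hw
  exact ⟨m, hm0, hm, by rw [← pow_mul, mul_comm, pow_mul, hwm, one_pow]⟩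

theorem h84u_isMu_eq {w w' : Om p} (hw : h84u_IsMu p w) (hw' : h84u_IsMu p w')
    (h : ‖w - w'‖ < 1) : w = w' := by
  obtain ⟨m, hm0, hm, hwm⟩ := hw
  obtain ⟨m', hm0', hm', hwm'⟩ := hw'
  have hq : ¬ p ∣ m * m' := by
    intro h
    rcases (Nat.Prime.dvd_mul Fact.out).mp h with h | h
    · exact hm h
    · exact hm' h
  refine h36u_eq_of_norm_sub_lt (Nat.mul_pos hm0 hm0') hq ?_ ?_ h
  · rw [pow_mul, hwm, one_pow]
  · rw [pow_mul', hwm', one_pow]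

theorem h84u_isMu_fix {w : Om p} (hw : h84u_IsMu p w) {σ : Gq p} (hσ : σ ∈ inertia p) :
    σ w = w := by
  obtain ⟨m, hm0, hm, hwm⟩ := hw
  exact h89d0_fix_of_mem_inertia hσ w m hm0 hm hwm

/-- every unit of `Om p` is congruent to a root of unity of order prime to `p`. -/
theorem h84u_teich {x : Om p} (hx : ‖x‖ = 1) : ∃ w : Om p, h84u_IsMu p w ∧ ‖x - w‖ < 1 := by
  have hp := (Fact.out : p.Prime)
  set K : LF p := IntermediateField.adjoin ℚ_[p] ({x} : Set (Om p)) with hK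
  haveI : FiniteDimensional ℚ_[p] K :=
    h89d0_finiteDimensional_adjoin {x} (Set.finite_singleton x)
  have hxK : x ∈ K := IntermediateField.subset_adjoin _ _ (Set.mem_singleton x)
  obtain ⟨f, hf0, hNf⟩ := h34lf_card_residue_pow p (↥K)
  obtain ⟨w, hw, hxw⟩ := h34lf_teich_exists p (↥K) (x := ⟨x, hxK⟩) hx
  have hpf : p ≤ p ^ f := by
    calc p = p ^ 1 := (pow_one p).symm
      _ ≤ p ^ f := Nat.pow_le_pow_right hp.pos hf0
  refine ⟨(w : Om p), ⟨p ^ f - 1, Nat.sub_pos_of_lt (lt_of_lt_of_le hp.one_lt hpf), ?_, ?_⟩,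
    hxw⟩
  · intro h
    have h1 : p ∣ p ^ f := dvd_pow_self p hf0.ne'
    have h2 : p ∣ p ^ f - (p ^ f - 1) := Nat.dvd_sub h1 h
    have h3 : p ^ f - (p ^ f - 1) = 1 := by
      have := hp.one_lt
      omega
    rw [h3] at h2
    exact hp.one_lt.ne' (Nat.dvd_one.mp h2)
  · rw [← hNf]
    exact congrArg (fun y : ↥K => (y : Om p)) hw

/-! ## The decomposition `v = w (1 + p y)` -/

/-- an element fixed by inertia of norm `< 1` is divisible by `p` in the inertia-fixed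
integers. -/
theorem h84u_div_p {x : Om p} (hfix : ∀ σ ∈ inertia p, σ x = x) (hx : ‖x‖ < 1) :
    ∃ y : Om p, ‖y‖ ≤ 1 ∧ (∀ σ ∈ inertia p, σ y = y) ∧ x = (p : Om p) * y := by
  by_cases hx0 : x = 0
  · exact ⟨0, by rw [norm_zero]; exact zero_le_one, fun σ _ => map_zero σ, by rw [hx0, mul_zero]⟩
  obtain ⟨-, hp1, -, hD⟩ := h45f_inertiaDiscrete p
  obtain ⟨n, u, hu, hu1, hxu⟩ := hD x ⟨hx.le, hfix⟩ hx0
  have hn : n ≠ 0 := by
    rintro rfl
    rw [pow_zero, one_mul] at hxu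
    rw [hxu, hu1] at hx
    exact lt_irrefl _ hx
  obtain ⟨n', rfl⟩ := Nat.exists_eq_succ_of_ne_zero hn
  refine ⟨(p : Om p) ^ n' * u, ?_, ?_, ?_⟩
  · rw [norm_mul, hu1, mul_one, norm_pow]
    exact pow_le_one₀ (norm_nonneg _) hp1.le
  · intro σ hσ
    rw [map_mul, map_pow, map_natCast, hu.2 σ hσ]
  · rw [hxu, pow_succ]
    ring

/-- **existence** of the decomposition of a unit fixed by inertia. -/
theorem h84u_decomp {v : Om p} (hv : ‖v‖ = 1) (hfix : ∀ σ ∈ inertia p, σ v = v) :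
    ∃ w y : Om p, h84u_IsMu p w ∧ ‖y‖ ≤ 1 ∧ (∀ σ ∈ inertia p, σ y = y) ∧
      v = w * (1 + (p : Om p) * y) := by
  obtain ⟨w, hw, hvw⟩ := h84u_teich hv
  have hw0 := h84u_isMu_ne_zero hw
  have hw1 := h84u_isMu_norm hw
  have hx : ‖v / w - 1‖ < 1 := by
    have h4 : v / w - 1 = (v - w) / w := by field_simp
    rw [h4, norm_div, hw1, div_one]
    exact hvw
  have hxfix : ∀ σ ∈ inertia p, σ (v / w - 1) = v / w - 1 := by
    intro σ hσ
    rw [map_sub, map_div₀, map_one, hfix σ hσ, h84u_isMu_fix hw hσ]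
  obtain ⟨y, hy, hyfix, hxy⟩ := h84u_div_p hxfix hx
  refine ⟨w, y, hw, hy, hyfix, ?_⟩
  rw [← hxy]
  field_simp
  ring

/-- **uniqueness** of the decomposition. -/
theorem h84u_decomp_unique {w w' y y' : Om p} (hw : h84u_IsMu p w) (hw' : h84u_IsMu p w')
    (hy : ‖y‖ ≤ 1) (hy' : ‖y'‖ ≤ 1)
    (h : w * (1 + (p : Om p) * y) = w' * (1 + (p : Om p) * y')) : w = w' ∧ y = y' := by
  have hp0 : (p : Om p) ≠ 0 := Nat.cast_ne_zero.mpr (Fact.out : p.Prime).ne_zero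
  have hpn := h34t_norm_p_lt_one p
  have hww : w = w' := by
    apply h84u_isMu_eq hw hw'
    have h1 : w - w' = (p : Om p) * (w' * y' - w * y) := by
      linear_combination h
    rw [h1, norm_mul]
    have h2 : ‖w' * y' - w * y‖ ≤ 1 := by
      rw [sub_eq_add_neg]
      refine h84u_norm_add_le (h84u_norm_mul_le (h84u_isMu_norm hw').le hy') ?_
      rw [norm_neg]
      exact h84u_norm_mul_le (h84u_isMu_norm hw).le hy
    calc ‖(p : Om p)‖ * ‖w' * y' - w * y‖ ≤ ‖(p : Om p)‖ * 1 :=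
          mul_le_mul_of_nonneg_left h2 (norm_nonneg _)
      _ < 1 := by rw [mul_one]; exact hpn
  refine ⟨hww, ?_⟩
  subst hww
  have h1 := mul_left_cancel₀ (h84u_isMu_ne_zero hw) h
  have h2 : (p : Om p) * y = (p : Om p) * y' := add_left_cancel h1
  exact mul_left_cancel₀ hp0 h2

open Classical in
/-- the invariant `a`. -/
def h84u_a (v : Om p) : h84u_kappa p :=
  if h : ∃ w y : Om p, h84u_IsMu p w ∧ ‖y‖ ≤ 1 ∧ v = w * (1 + (p : Om p) * y) then
    h84u_res (Classical.choose (Classical.choose_spec h))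
  else 0

open Classical in
theorem h84u_a_spec {v w y : Om p} (hw : h84u_IsMu p w) (hy : ‖y‖ ≤ 1)
    (hv : v = w * (1 + (p : Om p) * y)) : h84u_a v = h84u_res y := by
  have h : ∃ w y : Om p, h84u_IsMu p w ∧ ‖y‖ ≤ 1 ∧ v = w * (1 + (p : Om p) * y) :=
    ⟨w, y, hw, hy, hv⟩
  rw [h84u_a, dif_pos h]
  obtain ⟨hw', hy', hv'⟩ := Classical.choose_spec (Classical.choose_spec h)
  have hv'' := hv.symm.trans hv'
  rw [(h84u_decomp_unique hw hw' hy hy' hv'').2]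

/-! ## Additivity -/

theorem h84u_a_mul {v v' : Om p} (hv : ‖v‖ = 1) (hv' : ‖v'‖ = 1)
    (hfix : ∀ σ ∈ inertia p, σ v = v) (hfix' : ∀ σ ∈ inertia p, σ v' = v') :
    h84u_a (v * v') = h84u_a v + h84u_a v' := by
  obtain ⟨w, y, hw, hy, -, hvw⟩ := h84u_decomp hv hfix
  obtain ⟨w', y', hw', hy', -, hvw'⟩ := h84u_decomp hv' hfix'
  have hyy : ‖y + y'‖ ≤ 1 := h84u_norm_add_le hy hy'
  have hpyy : ‖(p : Om p) * (y * y')‖ ≤ 1 :=
    h84u_norm_mul_le (h34t_norm_p_lt_one p).le (h84u_norm_mul_le hy hy')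
  have h1 : v * v' = (w * w') * (1 + (p : Om p) * (y + y' + (p : Om p) * (y * y'))) := by
    rw [hvw, hvw']
    ring
  rw [h84u_a_spec (h84u_isMu_mul hw hw') (h84u_norm_add_le hyy hpyy) h1,
    h84u_a_spec hw hy hvw, h84u_a_spec hw' hy' hvw', h84u_res_add hyy hpyy,
    h84u_res_add hy hy', h84u_res_p_mul _ (h84u_norm_mul_le hy hy'), add_zero]

/-! ## The kernel: `p`-th roots -/

/-- a root of unity of order prime to `p` is a `p`-th power of such a root of unity. -/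
theorem h84u_mu_root {w : Om p} (hw : h84u_IsMu p w) : ∃ b : Om p, h84u_IsMu p b ∧ b ^ p = w := by
  have hp := (Fact.out : p.Prime)
  obtain ⟨m, hm0, hm, hwm⟩ := hw
  have hcop : Nat.Coprime p m := (Nat.Prime.coprime_iff_not_dvd hp).2 hm
  have h1 := Nat.ModEq.pow_totient hcop
  have hφ : 0 < m.totient := Nat.totient_pos.2 hm0
  have h2 : 1 ≤ p ^ m.totient := Nat.one_le_pow _ _ hp.pos
  obtain ⟨t, ht⟩ := (Nat.modEq_iff_dvd' h2).1 h1.symm
  have h3 : p ^ m.totient = m * t + 1 := by omega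
  refine ⟨w ^ (p ^ (m.totient - 1)), h84u_isMu_pow ⟨m, hm0, hm, hwm⟩ _, ?_⟩
  have h4 : p ^ (m.totient - 1) * p = p ^ m.totient := by
    rw [← pow_succ]
    congr 1
    omega
  rw [← pow_mul, h4, h3, pow_succ, pow_mul, hwm, one_pow, one_mul]

theorem h84u_norm_lt_one_of_pow_lt {x : Om p}
    (h : ‖x‖ ^ (p - 1) < ‖(p : Om p)‖) : ‖x‖ < 1 := by
  by_contra hge
  rw [not_lt] at hge
  have h1 : (1 : ℝ) ≤ ‖x‖ ^ (p - 1) := one_le_pow₀ hge
  have h2 := h34t_norm_p_lt_one p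
  linarith

/-- uniqueness of the `p`-th root near `1`. -/
theorem h84u_root_near_one_unique {b b' : Om p} (hbb : b ^ p = b' ^ p)
    (hb : ‖b - 1‖ ^ (p - 1) < ‖(p : Om p)‖) (hb' : ‖b' - 1‖ ^ (p - 1) < ‖(p : Om p)‖) :
    b = b' := by
  have hp := (Fact.out : p.Prime)
  have hb1 : ‖b - 1‖ < 1 := h84u_norm_lt_one_of_pow_lt hb
  have hnb : ‖b‖ = 1 := by
    have h2 : b = 1 + (b - 1) := by ring
    rw [h2]
    have h3 := IsUltrametricDist.norm_add_eq_max_of_norm_ne_norm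
      (x := (1 : Om p)) (y := b - 1) (by rw [norm_one]; exact hb1.ne')
    rw [h3, norm_one]
    exact max_eq_left hb1.le
  have hb0 : b ≠ 0 := by
    intro h
    rw [h, norm_zero] at hnb
    exact zero_ne_one hnb
  by_contra hne
  set μ : Om p := b' / b with hμ
  have hμp : μ ^ p = 1 := by
    rw [hμ, div_pow, ← hbb, div_self (pow_ne_zero _ hb0)]
  have hμ1 : μ ≠ 1 := by
    intro h
    apply hne
    rw [hμ, div_eq_one_iff_eq hb0] at h
    exact h.symm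
  have hord : orderOf μ = p := orderOf_eq_prime hμp hμ1
  have hprim : IsPrimitiveRoot μ p := by
    have := IsPrimitiveRoot.orderOf μ
    rwa [hord] at this
  have hn := h7g_norm_zeta_sub_one (K := Om p) hprim
  have h1 : b' - b = b * (μ - 1) := by
    rw [hμ]
    field_simp
  have h2 : ‖μ - 1‖ = ‖b' - b‖ := by rw [h1, norm_mul, hnb, one_mul]
  have h3 : ‖b' - b‖ ≤ max ‖b' - 1‖ ‖b - 1‖ := by
    have e : b' - b = (b' - 1) + -(b - 1) := by ring
    rw [e]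
    have := IsUltrametricDist.norm_add_le_max (b' - 1) (-(b - 1))
    rwa [norm_neg] at this
  have h4 : ‖μ - 1‖ ^ (p - 1) < ‖(p : Om p)‖ := by
    rw [h2]
    rcases le_max_iff.1 h3 with h | h
    · exact lt_of_le_of_lt (pow_le_pow_left₀ (norm_nonneg _) h _) hb'
    · exact lt_of_le_of_lt (pow_le_pow_left₀ (norm_nonneg _) h _) hb
  rw [hn] at h4
  exact lt_irrefl _ h4

/-- existence of the `p`-th root near `1` of `u ≡ 1` modulo `p²`. -/
theorem h84u_root_near_one (hp3 : 3 ≤ p) {u : Om p} (hu : ‖u - 1‖ ≤ ‖(p : Om p)‖ ^ 2) :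
    ∃ b : Om p, b ^ p = u ∧ ‖b - 1‖ ^ (p - 1) < ‖(p : Om p)‖ := by
  classical
  have hp := (Fact.out : p.Prime)
  haveI : NeZero p := ⟨hp.ne_zero⟩
  haveI hnz : NeZero ((p : ℕ) : Om p) := ⟨by exact_mod_cast hp.ne_zero⟩
  obtain ⟨ζ, hζ⟩ := HasEnoughRootsOfUnity.exists_primitiveRoot (Om p) p
  obtain ⟨b₀, hb₀⟩ := IsAlgClosed.exists_pow_nat_eq u hp.pos
  have hprod := hζ.pow_sub_pow_eq_prod_sub_mul b₀ 1 hp.pos
  rw [one_pow, hb₀] at hprod
  have hpp := h84u_norm_p_pos p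
  have hp1 := h34t_norm_p_lt_one p
  have hex : ∃ μ ∈ nthRootsFinset p (1 : Om p), ‖b₀ - μ‖ ^ (p - 1) < ‖(p : Om p)‖ := by
    by_contra hcon
    simp only [not_exists, not_and, not_lt] at hcon
    have h1 : ‖u - 1‖ ^ (p - 1) = ∏ μ ∈ nthRootsFinset p (1 : Om p), ‖b₀ - μ‖ ^ (p - 1) := by
      rw [hprod, norm_prod, ← Finset.prod_pow]
      refine Finset.prod_congr rfl fun μ _ => ?_
      rw [mul_one]
    have h2 : ∏ _μ ∈ nthRootsFinset p (1 : Om p), ‖(p : Om p)‖ ≤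
        ∏ μ ∈ nthRootsFinset p (1 : Om p), ‖b₀ - μ‖ ^ (p - 1) :=
      Finset.prod_le_prod (fun _ _ => norm_nonneg _) fun μ hμ => hcon μ hμ
    rw [Finset.prod_const, hζ.card_nthRootsFinset, ← h1] at h2
    have h3 : ‖u - 1‖ ^ (p - 1) ≤ (‖(p : Om p)‖ ^ 2) ^ (p - 1) :=
      pow_le_pow_left₀ (norm_nonneg _) hu _
    rw [← pow_mul] at h3
    have h4 : ‖(p : Om p)‖ ^ (2 * (p - 1)) < ‖(p : Om p)‖ ^ p :=
      pow_lt_pow_right_of_lt_one₀ hpp hp1 (by omega)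
    linarith
  obtain ⟨μ, hμ, hμn⟩ := hex
  have hμp : μ ^ p = 1 := (mem_nthRootsFinset hp.pos 1).1 hμ
  have hμ1 : ‖μ‖ = 1 := h36u_norm_eq_one_of_pow hp.pos hμp
  have hμ0 : μ ≠ 0 := by
    intro h
    rw [h, norm_zero] at hμ1
    exact zero_ne_one hμ1
  refine ⟨b₀ / μ, ?_, ?_⟩
  · rw [div_pow, hb₀, hμp, div_one]
  · have e : b₀ / μ - 1 = (b₀ - μ) / μ := by field_simp
    rw [e, norm_div, hμ1, div_one]
    exact hμn

theorem h84u_a_ker (hp2 : p ≠ 2) {v : Om p} (hv : ‖v‖ = 1)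
    (hfix : ∀ σ ∈ inertia p, σ v = v) (hav : h84u_a v = 0) :
    ∃ b : Om p, (∀ σ ∈ inertia p, σ b = b) ∧ b ^ p = v := by
  have hp := (Fact.out : p.Prime)
  have hp3 : 3 ≤ p := by
    have h2 := hp.two_le
    omega
  obtain ⟨w, y, hw, hy, hyfix, hvw⟩ := h84u_decomp hv hfix
  rw [h84u_a_spec hw hy hvw, h84u_res_eq_zero_iff hy] at hav
  obtain ⟨y', hy', hyfix', hyy'⟩ := h84u_div_p hyfix hav
  set u : Om p := 1 + (p : Om p) * y with hu
  have hun : ‖u - 1‖ ≤ ‖(p : Om p)‖ ^ 2 := by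
    have e : u - 1 = (p : Om p) ^ 2 * y' := by
      rw [hu, hyy']
      ring
    rw [e, norm_mul, norm_pow]
    calc ‖(p : Om p)‖ ^ 2 * ‖y'‖ ≤ ‖(p : Om p)‖ ^ 2 * 1 :=
          mul_le_mul_of_nonneg_left hy' (by positivity)
      _ = ‖(p : Om p)‖ ^ 2 := mul_one _
  have hufix : ∀ σ ∈ inertia p, σ u = u := by
    intro σ hσ
    rw [hu, map_add, map_one, map_mul, map_natCast, hyfix σ hσ]
  obtain ⟨b₁, hb₁, hb₁n⟩ := h84u_root_near_one hp3 hun
  obtain ⟨bw, hbw, hbwp⟩ := h84u_mu_root hw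
  refine ⟨bw * b₁, fun σ hσ => ?_, ?_⟩
  · have h1 : σ b₁ = b₁ := by
      apply h84u_root_near_one_unique _ _ hb₁n
      · rw [← map_pow, hb₁, hufix σ hσ]
      · have e : σ b₁ - 1 = σ (b₁ - 1) := by rw [map_sub, map_one]
        rw [e, h84o_norm_map]
        exact hb₁n
    rw [map_mul, h84u_isMu_fix hbw hσ, h1]
  · rw [mul_pow, hbwp, hb₁, hvw]

/-! ## Frobenius -/

theorem h84u_frob_res (φ : Gq p)
    (hφ : ∀ (w : Om p) (m : ℕ), 0 < m → ¬ p ∣ m → w ^ m = 1 → φ w = w ^ p)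
    {y : Om p} (hy : ‖y‖ ≤ 1) : h84u_res (φ y) = h84u_res y ^ p := by
  have hp := (Fact.out : p.Prime)
  have hφy : ‖φ y‖ ≤ 1 := by rw [h84o_norm_map]; exact hy
  rcases lt_or_eq_of_le hy with h | h
  · have h1 : ‖φ y‖ < 1 := by rw [h84o_norm_map]; exact h
    rw [(h84u_res_eq_zero_iff hy).2 h, (h84u_res_eq_zero_iff hφy).2 h1, zero_pow hp.ne_zero]
  · obtain ⟨w, hw, hyw⟩ := h84u_teich h
    obtain ⟨m, hm0, hm, hwm⟩ := hw
    have hw1 : ‖w‖ ≤ 1 := (h36u_norm_eq_one_of_pow hm0 hwm).le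
    have h1 : h84u_res y = h84u_res w := h84u_res_eq_of_norm_sub_lt hw1 hyw
    have hφw : ‖φ w‖ ≤ 1 := by rw [h84o_norm_map]; exact hw1
    have h2 : h84u_res (φ y) = h84u_res (φ w) := by
      apply h84u_res_eq_of_norm_sub_lt hφw
      rw [← map_sub, h84o_norm_map]
      exact hyw
    rw [h2, h1, hφ w m hm0 hm hwm, h84u_res_pow hw1]

theorem h84u_a_frob (φ : Gq p)
    (hφ : ∀ (w : Om p) (m : ℕ), 0 < m → ¬ p ∣ m → w ^ m = 1 → φ w = w ^ p)
    {v : Om p} (hv : ‖v‖ = 1) (hfix : ∀ σ ∈ inertia p, σ v = v) :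
    h84u_a (φ v) = h84u_a v ^ p := by
  obtain ⟨w, y, hw, hy, -, hvw⟩ := h84u_decomp hv hfix
  have hφy : ‖φ y‖ ≤ 1 := by rw [h84o_norm_map]; exact hy
  have hφw : φ w = w ^ p := by
    obtain ⟨m, hm0, hm, hwm⟩ := hw
    exact hφ w m hm0 hm hwm
  have h1 : φ v = w ^ p * (1 + (p : Om p) * φ y) := by
    rw [hvw, map_mul, map_add, map_one, map_mul, map_natCast, hφw]
  rw [h84u_a_spec (h84u_isMu_pow hw p) hφy h1, h84u_a_spec hw hy hvw, h84u_frob_res φ hφ hy]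

/-- **FL-O8b.** -/
theorem h84u_unitInv : H34KUnitInv := by
  intro p _ hp2
  exact ⟨h84u_kappa p, inferInstance, h84u_charP p, h84u_a,
    fun v v' hv hv' hfix hfix' => h84u_a_mul hv hv' hfix hfix',
    fun v hv hfix hav => h84u_a_ker hp2 hv hfix hav,
    fun φ hφ v hv hfix => h84u_a_frob φ hφ hv hfix⟩

end Fermat.Agent.S56F
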