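import Fermat.Agent.S56F.IfaceHopf2
import Fermat.Agent.S56F.FLD1_helper45
import Fermat.Agent.S56F.FLD2_helper89

/-!
# S56 / LOC-p-FL, leaf FL-D7 (helper45): tame extensions of the inertia field are discrete

`h45g_tameDiscrete : TameDiscrete` : for `π ^ n = p`, `p ∤ n`, and `Γ = {σ ∈ I | σ π = π}` the
ring `fixInt p Γ` (the integers of `ℚ_p^ur(π)`) is discrete with uniformiser `π`.

Proof (norm argument, no eigen-decomposition): for every `n`-th root of unity `ζ` choose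
`s ζ ∈ I` with `s ζ π = ζ π` (FL-D2).  For `x` fixed by `Γ` the product
`N = ∏_ζ (s ζ) x` is fixed by `I` (an element `τ ∈ I` with `τ π = c π` maps `(s ζ) x` to
`(s (c ζ)) x`), so `‖x‖ ^ n = ‖N‖ ∈ ‖p‖ ^ ℕ = (‖π‖ ^ n) ^ ℕ` by FL-D1.
-/

set_option autoImplicit false

open Fermat.Agent.PT.Loc

noncomputable section

namespace Fermat.Agent.S56F

/-- **FL-D7.**  The integers of `ℚ_p^ur(π)`, `π ^ n = p`, `p ∤ n`, are discrete with
uniformiser `π`. -/
theorem h45g_tameDiscrete : TameDiscrete := by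
  intro p _ n hn hpn π hπ Γ hΓ
  classical
  haveI : NeZero n := ⟨hn.ne'⟩
  haveI : NeZero ((n : ℕ) : Om p) := ⟨by exact_mod_cast hn.ne'⟩
  haveI : Finite (rootsOfUnity n (Om p)) := inferInstance
  letI : Fintype (rootsOfUnity n (Om p)) := Fintype.ofFinite _
  have hD : InertiaDiscrete := h45f_inertiaDiscrete
  have hsurj := h89d2_fundSurjective_of hD p n hn hpn π hπ
  obtain ⟨-, hp1, hp0, hdisc⟩ := hD p
  -- basic facts on `π`
  have hπ0 : π ≠ 0 := by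
    rintro rfl
    rw [zero_pow hn.ne'] at hπ
    exact hp0 hπ.symm
  have hπn : ‖π‖ ^ n = ‖(p : Om p)‖ := by rw [← norm_pow, hπ]
  have hπpos : 0 < ‖π‖ := norm_pos_iff.mpr hπ0
  have hπlt : ‖π‖ < 1 := by
    by_contra h
    rw [not_lt] at h
    have h1 : 1 ≤ ‖π‖ ^ n := one_le_pow₀ h
    rw [hπn] at h1
    exact absurd hp1 (not_lt.mpr h1)
  have hπΓ : ∀ σ ∈ Γ, σ π = π := fun σ hσ => ((hΓ σ).mp hσ).2
  refine ⟨⟨hπlt.le, hπΓ⟩, hπlt, hπ0, ?_⟩
  rintro x ⟨hx1, hxfix⟩ hx0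
  -- the roots of unity and the chosen lifts
  have hRpow : ∀ ζ : rootsOfUnity n (Om p), (((ζ : (Om p)ˣ) : Om p)) ^ n = 1 := by
    intro ζ
    have h1 : (ζ : (Om p)ˣ) ^ n = 1 := (mem_rootsOfUnity n _).mp ζ.2
    have h2 := congrArg (fun u : (Om p)ˣ => (u : Om p)) h1
    simpa using h2
  have hex : ∀ ζ : rootsOfUnity n (Om p),
      ∃ σ ∈ inertia p, σ π = ((ζ : (Om p)ˣ) : Om p) * π := fun ζ => hsurj _ (hRpow ζ)
  choose s hsI hsπ using hex
  -- the key relation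
  have hkey : ∀ τ ∈ inertia p, ∀ c : rootsOfUnity n (Om p),
      τ π = ((c : (Om p)ˣ) : Om p) * π →
      ∀ ζ : rootsOfUnity n (Om p), τ (s ζ x) = s (c * ζ) x := by
    intro τ hτ c hc ζ
    have hτζ : τ (((ζ : (Om p)ˣ) : Om p)) = ((ζ : (Om p)ˣ) : Om p) :=
      h89d0_fix_of_mem_inertia hτ _ n hn hpn (hRpow ζ)
    have h1 : τ (s ζ π) = s (c * ζ) π := by
      rw [hsπ ζ, hsπ (c * ζ), map_mul, hτζ, hc]
      push_cast
      ring
    have hg : (s (c * ζ))⁻¹ * τ * s ζ ∈ Γ := by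
      rw [hΓ]
      refine ⟨mul_mem (mul_mem (inv_mem (hsI _)) hτ) (hsI _), ?_⟩
      rw [AlgEquiv.mul_apply, AlgEquiv.mul_apply, h1, ← AlgEquiv.mul_apply, inv_mul_cancel,
        AlgEquiv.one_apply]
    have h2 := hxfix _ hg
    rw [AlgEquiv.mul_apply, AlgEquiv.mul_apply] at h2
    have h3 := congrArg (s (c * ζ)) h2
    rwa [← AlgEquiv.mul_apply, mul_inv_cancel, AlgEquiv.one_apply] at h3
  -- the norm of `x`
  set N : Om p := ∏ ζ : rootsOfUnity n (Om p), s ζ x with hN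
  have hNfix : ∀ τ ∈ inertia p, τ N = N := by
    intro τ hτ
    -- the root of unity `c = τ π / π`
    have hcu : IsUnit (τ π / π) := by
      rw [isUnit_iff_ne_zero]
      exact div_ne_zero ((map_ne_zero τ).mpr hπ0) hπ0
    have hcn : hcu.unit ∈ rootsOfUnity n (Om p) := by
      rw [mem_rootsOfUnity]
      apply Units.ext
      rw [Units.val_pow_eq_pow_val, IsUnit.unit_spec, Units.val_one, div_pow, ← map_pow, hπ,
        map_natCast, div_self hp0]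
    have hc : τ π = (((⟨hcu.unit, hcn⟩ : rootsOfUnity n (Om p)) : (Om p)ˣ) : Om p) * π := by
      show τ π = ((hcu.unit : (Om p)ˣ) : Om p) * π
      rw [IsUnit.unit_spec, div_mul_cancel₀ _ hπ0]
    rw [hN, map_prod]
    rw [Finset.prod_congr rfl (fun ζ _ => hkey τ hτ ⟨hcu.unit, hcn⟩ hc ζ)]
    exact Equiv.prod_comp (Equiv.mulLeft (⟨hcu.unit, hcn⟩ : rootsOfUnity n (Om p)))
      (fun ζ => s ζ x)
  have hcard : Fintype.card (rootsOfUnity n (Om p)) = n := by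
    rw [← Nat.card_eq_fintype_card]
    exact HasEnoughRootsOfUnity.natCard_rootsOfUnity (Om p) n
  have hNnorm : ‖N‖ = ‖x‖ ^ n := by
    rw [hN, norm_prod]
    rw [Finset.prod_congr rfl (fun ζ _ => h89d0_norm_map (s ζ) x), Finset.prod_const,
      Finset.card_univ, hcard]
  have hN0 : N ≠ 0 := by
    rw [hN, Finset.prod_ne_zero_iff]
    exact fun ζ _ => (map_ne_zero (s ζ)).mpr hx0
  have hNmem : N ∈ fixInt p (inertia p) :=
    ⟨by rw [hNnorm]; exact pow_le_one₀ (norm_nonneg _) hx1, hNfix⟩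
  obtain ⟨k, u, -, hu1, hku⟩ := hdisc N hNmem hN0
  have hxk : ‖x‖ = ‖π‖ ^ k := by
    have h1 : ‖x‖ ^ n = (‖π‖ ^ k) ^ n := by
      rw [← hNnorm, hku, norm_mul, hu1, mul_one, norm_pow, ← hπn, ← pow_mul, ← pow_mul,
        mul_comm]
    exact (pow_left_inj₀ (norm_nonneg _) (pow_nonneg (norm_nonneg _) _) hn.ne').mp h1
  have hπk0 : π ^ k ≠ 0 := pow_ne_zero _ hπ0
  refine ⟨k, x / π ^ k, ⟨?_, ?_⟩, ?_, ?_⟩
  · rw [norm_div, norm_pow, hxk, div_self (pow_ne_zero _ hπpos.ne')]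
  · intro σ hσ
    rw [map_div₀, map_pow, hπΓ σ hσ, hxfix σ hσ]
  · rw [norm_div, norm_pow, hxk, div_self (pow_ne_zero _ hπpos.ne')]
  · rw [mul_div_cancel₀ _ hπk0]

end Fermat.Agent.S56F
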