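import Fermat.Agent.S56F.FLS4KIface_helper89
import Fermat.Agent.S56F.FLD7_helper45
import Fermat.Agent.S56F.FLC0_helper34

/-!
# S56 / LOC-p-FL, sub-leaf FL-S4K-P (helper10): `H89KPowLev`

The level of a `p`-th power of `K = ℚ_p^ur(π)` (`π ^ (p² - 1) = p`) is a multiple of `p` or
`≥ p² + p`.  `y ^ p - 1 = z ^ p + p z r`, `z = y - 1`, `‖r‖ ≤ 1` (`exists_add_pow_prime_eq` in the
ring of integers), `‖z‖ = ‖π‖ ^ i` (`h45g_tameDiscrete`).

Reusable (any `π` with `π ^ n = p`, `0 < n`): `h10v_norm_pi_pos`, `h10v_norm_pi_lt_one`,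
`h10v_norm_p`, `h10v_pow_sub_one` (the expansion), `h10v_norm_le_one_of_pow`.
-/

set_option autoImplicit false
set_option linter.style.haveILetI false
set_option linter.unusedSectionVars false

open Fermat.Agent.PT.Loc

noncomputable section

namespace Fermat.Agent.S56F

section Basic

variable {p : ℕ} [Fact p.Prime]

lemma h10v_norm_p_pos : 0 < ‖(p : Om p)‖ := by
  rw [norm_pos_iff]
  exact_mod_cast (Fact.out : p.Prime).ne_zero

lemma h10v_norm_pi_pos {π : Om p} {n : ℕ} (hπ : π ^ n = p) : 0 < ‖π‖ := by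
  rw [norm_pos_iff]
  rintro rfl
  have h1 : ‖(0 : Om p) ^ n‖ = ‖(p : Om p)‖ := by rw [hπ]
  rcases Nat.eq_zero_or_pos n with hn | hn
  · subst hn
    rw [pow_zero, norm_one] at h1
    exact absurd h1.symm (h34t_norm_p_lt_one p).ne
  · rw [zero_pow hn.ne', norm_zero] at h1
    exact absurd h1.symm h10v_norm_p_pos.ne'

lemma h10v_norm_p {π : Om p} {n : ℕ} (hπ : π ^ n = p) : ‖(p : Om p)‖ = ‖π‖ ^ n := by
  rw [← norm_pow, hπ]

lemma h10v_norm_pi_lt_one {π : Om p} {n : ℕ} (hπ : π ^ n = p) : ‖π‖ < 1 := by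
  by_contra hcon
  push Not at hcon
  have h1 : 1 ≤ ‖π‖ ^ n := one_le_pow₀ hcon
  rw [← h10v_norm_p hπ] at h1
  exact absurd (h34t_norm_p_lt_one p) (not_lt.mpr h1)

/-- `‖y ^ m‖ ≤ 1` implies `‖y‖ ≤ 1`. -/
lemma h10v_norm_le_one_of_pow {y : Om p} {m : ℕ} (hm : m ≠ 0) (h : ‖y ^ m‖ ≤ 1) : ‖y‖ ≤ 1 := by
  rw [norm_pow] at h
  exact (pow_le_one_iff_of_nonneg (norm_nonneg y) hm).mp h

/-- The expansion `(1 + z) ^ p - 1 = z ^ p + p z r` with `‖r‖ ≤ 1`. -/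
lemma h10v_pow_sub_one {z : Om p} (hz : ‖z‖ ≤ 1) :
    ∃ r : Om p, ‖r‖ ≤ 1 ∧ (z + 1) ^ p - 1 = z ^ p + (p : Om p) * z * r := by
  have hz' : z ∈ intOm p := ⟨hz, fun σ hσ => by
    rw [Subgroup.mem_bot] at hσ
    rw [hσ]
    rfl⟩
  obtain ⟨r, hr⟩ := exists_add_pow_prime_eq (Fact.out : p.Prime) (⟨z, hz'⟩ : intOm p) 1
  refine ⟨(r : Om p), r.2.1, ?_⟩
  have h := congrArg (Subtype.val : intOm p → Om p) hr
  simp only [Subring.coe_add, Subring.coe_mul, Subring.coe_pow, Subring.coe_one,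
    Subring.coe_natCast, one_pow, mul_one] at h
  rw [h]
  ring

end Basic

/-- **FL-S4K-P.** -/
theorem h10v_kPowLev : H89KPowLev := by
  intro p _ π hπ y j hy hj0 hj hpj hlev
  have hp : p.Prime := Fact.out
  have hp2 : 2 ≤ p := hp.two_le
  have hn0 : 0 < p ^ 2 - 1 := by
    have : 4 ≤ p ^ 2 := by nlinarith
    omega
  have hπ0 : 0 < ‖π‖ := h10v_norm_pi_pos hπ
  have hπ1 : ‖π‖ < 1 := h10v_norm_pi_lt_one hπ
  have hnp : ‖(p : Om p)‖ = ‖π‖ ^ (p ^ 2 - 1) := h10v_norm_p hπ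
  -- `‖y ^ p - 1‖ < 1`, `‖y‖ ≤ 1`
  have hlt : ‖y ^ p - 1‖ < 1 :=
    lt_of_le_of_lt hlev (pow_lt_one₀ hπ0.le hπ1 hj0.ne')
  have hyp : ‖y ^ p‖ ≤ 1 := by
    have h1 : y ^ p = (y ^ p - 1) + 1 := by ring
    rw [h1]
    refine (IsUltrametricDist.norm_add_le_max _ _).trans (max_le hlt.le ?_)
    rw [norm_one]
  have hy1 : ‖y‖ ≤ 1 := h10v_norm_le_one_of_pow hp.ne_zero hyp
  -- `z = y - 1`
  have hz1 : ‖y - 1‖ ≤ 1 := by
    rw [sub_eq_add_neg]
    refine (IsUltrametricDist.norm_add_le_max _ _).trans (max_le hy1 ?_)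
    rw [norm_neg, norm_one]
  obtain ⟨r, hr, hexp⟩ := h10v_pow_sub_one (p := p) hz1
  rw [sub_add_cancel] at hexp
  have hzfix : (y - 1) ∈ fixInt p (h89s_IK p π) := ⟨hz1, fun σ hσ => by
    rw [map_sub, hy σ hσ, map_one]⟩
  by_cases hz0 : y - 1 = 0
  · have : y = 1 := sub_eq_zero.mp hz0
    rw [this, one_pow, sub_self, norm_zero]
    exact pow_nonneg hπ0.le _
  have hdisc := h45g_tameDiscrete p (p ^ 2 - 1) hn0 (by
    intro hdvd
    have h1 : p ∣ p ^ 2 := dvd_pow_self p (by norm_num)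
    have h2 : p ∣ p ^ 2 - (p ^ 2 - 1) := Nat.dvd_sub h1 hdvd
    have h3 : p ^ 2 - (p ^ 2 - 1) = 1 := by omega
    rw [h3] at h2
    exact hp.one_lt.ne' (Nat.dvd_one.mp h2)) π hπ (h89s_IK p π) (fun σ => Iff.rfl)
  obtain ⟨i, u, -, hu1, hzu⟩ := hdisc.2.2.2 (y - 1) hzfix hz0
  have hnz : ‖y - 1‖ = ‖π‖ ^ i := by
    rw [hzu, norm_mul, norm_pow, hu1, mul_one]
  have hA : ‖(y - 1) ^ p‖ = ‖π‖ ^ (p * i) := by
    rw [norm_pow, hnz, ← pow_mul, mul_comm]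
  have hB : ‖(p : Om p) * (y - 1) * r‖ ≤ ‖π‖ ^ (p ^ 2 - 1 + i) := by
    rw [norm_mul, norm_mul, hnp, hnz, pow_add]
    calc ‖π‖ ^ (p ^ 2 - 1) * ‖π‖ ^ i * ‖r‖ ≤ ‖π‖ ^ (p ^ 2 - 1) * ‖π‖ ^ i * 1 :=
          mul_le_mul_of_nonneg_left hr (by positivity)
      _ = ‖π‖ ^ (p ^ 2 - 1) * ‖π‖ ^ i := mul_one _
  rcases Nat.lt_or_ge p i with hi | hi
  · -- `i ≥ p + 1`
    have h1 : ‖(y - 1) ^ p‖ ≤ ‖π‖ ^ (j + 1) := by
      rw [hA]
      refine pow_le_pow_of_le_one hπ0.le hπ1.le ?_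
      have : p * (p + 1) ≤ p * i := Nat.mul_le_mul_left p hi
      have h2 : p * (p + 1) = p ^ 2 + p := by ring
      omega
    have h2 : ‖(p : Om p) * (y - 1) * r‖ ≤ ‖π‖ ^ (j + 1) := by
      refine hB.trans (pow_le_pow_of_le_one hπ0.le hπ1.le ?_)
      omega
    rw [hexp]
    exact (IsUltrametricDist.norm_add_le_max _ _).trans (max_le h1 h2)
  · -- `i ≤ p`
    have hlt2 : p * i < p ^ 2 - 1 + i := by
      have h1 : p * i ≤ p * p := Nat.mul_le_mul_left p hi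
      have h2 : p * i = (p - 1) * i + i := by
        have : p = (p - 1) + 1 := by omega
        conv_lhs => rw [this]
        ring
      have h3 : (p - 1) * i ≤ (p - 1) * p := Nat.mul_le_mul_left _ hi
      have h4 : (p - 1) * p + p = p ^ 2 := by
        have : p = (p - 1) + 1 := by omega
        conv_rhs => rw [this]
        conv_lhs => rw [this]
        simp only [Nat.add_sub_cancel]
        ring
      omega
    have hBlt : ‖(p : Om p) * (y - 1) * r‖ < ‖(y - 1) ^ p‖ := by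
      rw [hA]
      exact lt_of_le_of_lt hB (pow_lt_pow_right_of_lt_one₀ hπ0 hπ1 hlt2)
    have hnorm : ‖y ^ p - 1‖ = ‖π‖ ^ (p * i) := by
      rw [hexp, IsUltrametricDist.norm_add_eq_max_of_norm_ne_norm hBlt.ne', max_eq_left hBlt.le, hA]
    rw [hnorm] at hlev ⊢
    have hji : j ≤ p * i := (pow_le_pow_iff_right_of_lt_one₀ hπ0 hπ1).mp hlev
    have hne : j ≠ p * i := by
      rintro rfl
      exact hpj (dvd_mul_right p i)
    exact pow_le_pow_of_le_one hπ0.le hπ1.le (by omega)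

end Fermat.Agent.S56F
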