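import Fermat.Agent.S56F.FLS4KIface_helper89
import Fermat.Agent.S56F.FLD7_helper45
import Fermat.Agent.S56F.FLD1_helper45
import Fermat.Agent.S56F.FLD0_helper89

/-!
# S56 / LOC-p-FL, row FL-S4K-X (helper89): `H89KExpand`

`h89x_kExpand : H89KExpand`: an element `x` of `K = ℚ_p^ur(π)` with `‖x - 1‖ ≤ ‖π‖ ^ j` is
`1 + π ^ j (w + π z)` with `w` a root of unity of order prime to `p` or `0`, and `z` an integer
of `K`.

Reusable:
* `h89x_discrete` : `IsDiscrete p (h89s_IK p π) π`;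
* `h89x_pi_ne_zero`, `h89x_norm_pi_pos`, `h89x_norm_pi_lt_one`, `h89x_norm_pi_pow` ;
* `h89x_div_pi` : an integer of `K` of norm `< 1` is divisible by `π` in the integers of `K`;
* `h89x_norm_eq_pow` : a non-zero integer of `K` has norm `‖π‖ ^ n`;
* `h89x_teich` : a unit of `Om p` is congruent to a root of unity of order prime to `p`;
* `h89x_root_fix` : roots of unity of order prime to `p` are in `K`.
-/

set_option autoImplicit false

open Fermat.Agent.PT.Loc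

noncomputable section

namespace Fermat.Agent.S56F

variable {p : ℕ} [Fact p.Prime]

theorem h89x_sq_sub_one_pos : 0 < p ^ 2 - 1 := by
  have hp : p.Prime := Fact.out
  have h2 : 2 ≤ p := hp.two_le
  have : 4 ≤ p ^ 2 := by nlinarith
  omega

theorem h89x_not_dvd_sq_sub_one : ¬ p ∣ p ^ 2 - 1 := by
  have hp : p.Prime := Fact.out
  have h2 : 2 ≤ p := hp.two_le
  intro h
  have h1 : p ∣ p ^ 2 := dvd_pow_self p (by norm_num)
  have h3 : 1 ≤ p ^ 2 := Nat.one_le_pow _ _ (by omega)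
  have h4 : p ∣ p ^ 2 - (p ^ 2 - 1) := Nat.dvd_sub h1 h
  have h5 : p ^ 2 - (p ^ 2 - 1) = 1 := by omega
  rw [h5] at h4
  have := Nat.le_of_dvd (by norm_num) h4
  omega

/-- the integers of `K = ℚ_p^ur(π)` are discrete with uniformiser `π`. -/
theorem h89x_discrete {π : Om p} (hπ : π ^ (p ^ 2 - 1) = p) :
    IsDiscrete p (h89s_IK p π) π :=
  h45g_tameDiscrete p (p ^ 2 - 1) h89x_sq_sub_one_pos h89x_not_dvd_sq_sub_one π hπ
    (h89s_IK p π) (fun _ => h89s_mem_IK)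

theorem h89x_pi_ne_zero {π : Om p} (hπ : π ^ (p ^ 2 - 1) = p) : π ≠ 0 :=
  (h89x_discrete hπ).2.2.1

theorem h89x_norm_pi_lt_one {π : Om p} (hπ : π ^ (p ^ 2 - 1) = p) : ‖π‖ < 1 :=
  (h89x_discrete hπ).2.1

theorem h89x_norm_pi_pos {π : Om p} (hπ : π ^ (p ^ 2 - 1) = p) : 0 < ‖π‖ :=
  norm_pos_iff.mpr (h89x_pi_ne_zero hπ)

/-- `π ∈ K`. -/
theorem h89x_pi_fix (π : Om p) : h89s_KFix p π π := fun _ hg => hg.2

/-- roots of unity of order prime to `p` are in `K`. -/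
theorem h89x_root_fix (π : Om p) {w : Om p} {m : ℕ} (hm0 : 0 < m) (hm : ¬ p ∣ m)
    (hw : w ^ m = 1) : h89s_KFix p π w :=
  fun _ hg => h89d0_fix_of_mem_inertia (p := p) hg.1 w m hm0 hm hw

theorem h89x_fix_mul {π x y : Om p} (hx : h89s_KFix p π x) (hy : h89s_KFix p π y) :
    h89s_KFix p π (x * y) := fun g hg => by rw [map_mul, hx g hg, hy g hg]

theorem h89x_fix_add {π x y : Om p} (hx : h89s_KFix p π x) (hy : h89s_KFix p π y) :
    h89s_KFix p π (x + y) := fun g hg => by rw [map_add, hx g hg, hy g hg]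

theorem h89x_fix_sub {π x y : Om p} (hx : h89s_KFix p π x) (hy : h89s_KFix p π y) :
    h89s_KFix p π (x - y) := fun g hg => by rw [map_sub, hx g hg, hy g hg]

theorem h89x_fix_pow {π x : Om p} (hx : h89s_KFix p π x) (n : ℕ) :
    h89s_KFix p π (x ^ n) := fun g hg => by rw [map_pow, hx g hg]

theorem h89x_fix_div {π x y : Om p} (hx : h89s_KFix p π x) (hy : h89s_KFix p π y) :
    h89s_KFix p π (x / y) := fun g hg => by rw [map_div₀, hx g hg, hy g hg]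

theorem h89x_fix_inv {π x : Om p} (hx : h89s_KFix p π x) :
    h89s_KFix p π x⁻¹ := fun g hg => by rw [map_inv₀, hx g hg]

theorem h89x_fix_one (π : Om p) : h89s_KFix p π 1 := fun g _ => map_one g

theorem h89x_fix_zero (π : Om p) : h89s_KFix p π 0 := fun g _ => map_zero g

theorem h89x_fix_natCast (π : Om p) (n : ℕ) : h89s_KFix p π (n : Om p) :=
  fun g _ => map_natCast g n

/-- a non-zero integer of `K` is `π ^ n` times a unit of `K`. -/
theorem h89x_factor {π : Om p} (hπ : π ^ (p ^ 2 - 1) = p) {x : Om p} (hx : h89s_KFix p π x)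
    (hx1 : ‖x‖ ≤ 1) (hx0 : x ≠ 0) :
    ∃ (n : ℕ) (u : Om p), h89s_KFix p π u ∧ ‖u‖ = 1 ∧ x = π ^ n * u := by
  obtain ⟨n, u, hu, hu1, hxu⟩ := (h89x_discrete hπ).2.2.2 x ⟨hx1, hx⟩ hx0
  exact ⟨n, u, hu.2, hu1, hxu⟩

/-- a non-zero integer of `K` has norm `‖π‖ ^ n`. -/
theorem h89x_norm_eq_pow {π : Om p} (hπ : π ^ (p ^ 2 - 1) = p) {x : Om p}
    (hx : h89s_KFix p π x) (hx1 : ‖x‖ ≤ 1) (hx0 : x ≠ 0) : ∃ n : ℕ, ‖x‖ = ‖π‖ ^ n := by
  obtain ⟨n, u, -, hu1, hxu⟩ := h89x_factor hπ hx hx1 hx0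
  exact ⟨n, by rw [hxu, norm_mul, norm_pow, hu1, mul_one]⟩

/-- an integer of `K` of norm `< 1` is divisible by `π`. -/
theorem h89x_div_pi {π : Om p} (hπ : π ^ (p ^ 2 - 1) = p) {x : Om p} (hx : h89s_KFix p π x)
    (hx1 : ‖x‖ < 1) : ∃ z : Om p, h89s_KFix p π z ∧ ‖z‖ ≤ 1 ∧ x = π * z := by
  by_cases hx0 : x = 0
  · exact ⟨0, h89x_fix_zero π, by simp, by rw [hx0, mul_zero]⟩
  obtain ⟨n, u, hu, hu1, hxu⟩ := h89x_factor hπ hx hx1.le hx0
  have hn : n ≠ 0 := by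
    rintro rfl
    rw [pow_zero, one_mul] at hxu
    rw [hxu, hu1] at hx1
    exact lt_irrefl _ hx1
  obtain ⟨n', rfl⟩ := Nat.exists_eq_succ_of_ne_zero hn
  refine ⟨π ^ n' * u, h89x_fix_mul (h89x_fix_pow (h89x_pi_fix π) n') hu, ?_, ?_⟩
  · rw [norm_mul, norm_pow, hu1, mul_one]
    exact pow_le_one₀ (norm_nonneg _) (h89x_norm_pi_lt_one hπ).le
  · rw [hxu, pow_succ]; ring

/-- a unit of `Om p` is congruent to a root of unity of order prime to `p`. -/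
theorem h89x_teich {u : Om p} (hu : ‖u‖ = 1) :
    ∃ (w : Om p) (m : ℕ), 0 < m ∧ ¬ p ∣ m ∧ w ^ m = 1 ∧ ‖u - w‖ < 1 := by
  have hxint : IsIntegral ℚ_[p] u := Algebra.IsIntegral.isIntegral u
  have hfd : FiniteDimensional ℚ_[p] (IntermediateField.adjoin ℚ_[p] {u}) :=
    IntermediateField.adjoin.finiteDimensional hxint
  have hxK : u ∈ IntermediateField.adjoin ℚ_[p] {u} :=
    IntermediateField.subset_adjoin ℚ_[p] {u} (Set.mem_singleton u)
  obtain ⟨-, -, -, hteich, -⟩ := h34lf_lfTeich p (IntermediateField.adjoin ℚ_[p] {u})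
  obtain ⟨w, ⟨-, m, hm, hpm, hw⟩, hxw⟩ := hteich u hxK hu
  exact ⟨w, m, hm, hpm, hw, hxw⟩

/-- an integer of `K` is `w + π z`, `w` a root of unity of order prime to `p` or `0`. -/
theorem h89x_expand_int {π : Om p} (hπ : π ^ (p ^ 2 - 1) = p) {y : Om p}
    (hy : h89s_KFix p π y) (hy1 : ‖y‖ ≤ 1) :
    ∃ w z : Om p, (w = 0 ∨ ∃ m : ℕ, 0 < m ∧ ¬ p ∣ m ∧ w ^ m = 1) ∧ h89s_KFix p π z ∧ ‖z‖ ≤ 1 ∧
      y = w + π * z := by
  rcases lt_or_eq_of_le hy1 with hlt | heq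
  · obtain ⟨z, hz, hz1, hyz⟩ := h89x_div_pi hπ hy hlt
    exact ⟨0, z, Or.inl rfl, hz, hz1, by rw [zero_add, hyz]⟩
  · obtain ⟨w, m, hm0, hm, hw, hyw⟩ := h89x_teich heq
    obtain ⟨z, hz, hz1, hyz⟩ := h89x_div_pi hπ (h89x_fix_sub hy (h89x_root_fix π hm0 hm hw)) hyw
    exact ⟨w, z, Or.inr ⟨m, hm0, hm, hw⟩, hz, hz1, by rw [← hyz]; ring⟩

/-- **FL-S4K-X.** -/
theorem h89x_kExpand : H89KExpand := by
  intro p _ π hπ x j hx hxj
  have hπ0 : π ≠ 0 := h89x_pi_ne_zero hπ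
  have hπj0 : π ^ j ≠ 0 := pow_ne_zero _ hπ0
  have hπpos : 0 < ‖π‖ ^ j := pow_pos (h89x_norm_pi_pos hπ) j
  have hy : h89s_KFix p π ((x - 1) / π ^ j) :=
    h89x_fix_div (h89x_fix_sub hx (h89x_fix_one π)) (h89x_fix_pow (h89x_pi_fix π) j)
  have hy1 : ‖(x - 1) / π ^ j‖ ≤ 1 := by
    rw [norm_div, norm_pow, div_le_one hπpos]
    exact hxj
  obtain ⟨w, z, hw, hz, hz1, hyz⟩ := h89x_expand_int hπ hy hy1
  refine ⟨w, z, hw, hz, hz1, ?_⟩
  rw [← hyz, mul_div_cancel₀ _ hπj0]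
  ring

end Fermat.Agent.S56F
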