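import Fermat.Agent.S56F.FLS4KB_helper82
import Fermat.Agent.S56F.FLS4KX_helper89
import Fermat.Agent.S56F.FLS4KP_helper10

/-!
# S56 / LOC-p-FL, row FL-S4K-B (helper82): `H89KLevEig`, unconditional

`h82k_levEig_of` applied to the landed `h89x_kExpand` (helper89) and `h10v_kPowLev` (helper10).
-/

set_option autoImplicit false

namespace Fermat.Agent.S56F

/-- **FL-S4K-B** (eigen-exclusion), unconditional. -/
theorem h82k_levEig : H89KLevEig := h82k_levEig_of h89x_kExpand h10v_kPowLev

end Fermat.Agent.S56F
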