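import Fermat.Agent.S56F.FinalSS1_helper97
import Fermat.Agent.S56F.FLS4KBFinal_helper82

/-!
# S56 / LOC-p-FL (helper97): the flat local condition at `p`, UNCONDITIONAL

`h97_locPFL : LocPFL`.  Blocks: ordinary part `h97_ordBound` (`FinalOrd.lean`), supersingular
normal form `h7x_ssnfExists`, diagonal part `h39s_ssDiagZero_ofA h49a_ssClaimA`, off-diagonal
level `h15s_ssOffLev3`, Kummer count `h89k_ssCount_of h43s_kLevP h82k_levEig h97k_kLevTop h7d_kInv
h10e_kSemi2`.
-/

set_option autoImplicit false

namespace Fermat.Agent.S56F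

theorem h97_locPFL : LocPFL :=
  h97_locPFL_of1 h82k_levEig

end Fermat.Agent.S56F
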