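import Mathlib
import Fermat.Prelude.Def_GaloisRep_Flat
import Fermat.Prelude.Def_GaloisRep_CompletionBridge
import Fermat.Agent.PT.Loc.Basic

/-!
# S56, pillar LOC-p-FL (architect helper97): frozen definitions

Goal of the pillar: `LocPFL` (end of this file) — the restrictions to `G_{ℚ_p}` of the FLAT
trace-zero cocycles of a residual representation span, together with the coboundaries, a space of
dimension `≤ 4` (i.e. `dim L_p ≤ h⁰(G_p, ad⁰) + 1`).

Frame (frozen):
* global: `Qb = AlgebraicClosure ℚ`, `GQ = Gal(Qb/ℚ)`; `Flat p M act` is the Prelude's flatness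
  (`GaloisRepAdic.IsFlatAt` is `Flat` of every finite level, `isFlatAt_iff`);
* local: `Om p = PadicAlgCl p` with its norm (`‖p‖ = p⁻¹`), `Gq p = Gal(Om p/ℚ_p)` (both from
  `PT/Loc/Basic.lean`), `ιp p : Gq p →* GQ` the Prelude's `localGaloisToGlobal`;
* a *function Hopf order* `FHO p Γ M act` (`Γ ≤ Gq p`): a subalgebra of `M → Om p` over
  `fixInt p Γ = {x | ‖x‖ ≤ 1, Γ x = x}`, finitely generated as a module, consisting of
  `Γ`-equivariant functions, separating the points of `M`, closed under `f ↦ f(x + y)` in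
  Sweedler form.  Only NECESSARY conditions for flatness are ever used.
-/

set_option autoImplicit false

open Fermat.Agent.PT.Loc

noncomputable section

namespace Fermat.Agent.S56F

/-- `ℚ̄`. -/
abbrev Qb : Type := AlgebraicClosure ℚ

/-- `G_ℚ`. -/
abbrev GQ : Type := Qb ≃ₐ[ℚ] Qb

/-- The restriction map `G_{ℚ_p} → G_ℚ` of the Prelude. -/
abbrev ιp (p : ℕ) [Fact p.Prime] : Gq p →* GQ := localGaloisToGlobal p

/-- The Prelude's flatness, for a set `M` with an addition and a map `act : G_ℚ → M → M`: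
`M` is, `G_ℚ`-equivariantly, the group of `ℚ̄`-points of a finite flat cocommutative Hopf algebra
over `ℤ_(p)`. -/
def Flat (p : ℕ) (M : Type) [AddCommGroup M] (act : GQ → M → M) : Prop :=
  ∃ (H : Type) (_ : CommRing H) (_ : HopfAlgebra (GaloisRep.ratLocalizedAt p) H),
    Module.Finite (GaloisRep.ratLocalizedAt p) H ∧
    Module.Flat (GaloisRep.ratLocalizedAt p) H ∧
    Coalgebra.IsCocomm (GaloisRep.ratLocalizedAt p) H ∧
    ∃ e : WithConv (H →ₐ[GaloisRep.ratLocalizedAt p] Qb) ≃ M,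
      (∀ f g, e (f * g) = e f + e g) ∧
      ∀ (σ : GQ) (f g : WithConv (H →ₐ[GaloisRep.ratLocalizedAt p] Qb)),
        (∀ h : H, g h = σ (f h)) → e g = act σ (e f)

/-- The Prelude's `IsFlatAt` is `Flat` of every finite level. -/
theorem isFlatAt_iff {A : Type} [CommRing A] [IsLocalRing A] (ρ : GaloisRepAdic A) (p : ℕ) :
    ρ.IsFlatAt p ↔ Finite (IsLocalRing.ResidueField A) ∧ ∀ I : Ideal A, Finite (A ⧸ I) →
      Flat p (ρ.V ⧸ (I • (⊤ : Submodule A ρ.V))) (fun σ => ρ.levelAction I σ) := Iff.rfl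

/-! ## Local frame -/

/-- The integers of `Om p` fixed by `Γ`. -/
def fixInt (p : ℕ) [Fact p.Prime] (Γ : Subgroup (Gq p)) : Subring (Om p) where
  carrier := {x | ‖x‖ ≤ 1 ∧ ∀ σ ∈ Γ, σ x = x}
  mul_mem' {a b} ha hb := ⟨by
      rw [norm_mul]; exact mul_le_one₀ ha.1 (norm_nonneg _) hb.1,
    fun σ hσ => by rw [map_mul, ha.2 σ hσ, hb.2 σ hσ]⟩
  one_mem' := ⟨by rw [norm_one], fun σ _ => map_one σ⟩
  add_mem' {a b} ha hb := ⟨(IsUltrametricDist.norm_add_le_max a b).trans (max_le ha.1 hb.1),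
    fun σ hσ => by rw [map_add, ha.2 σ hσ, hb.2 σ hσ]⟩
  zero_mem' := ⟨by rw [norm_zero]; exact zero_le_one, fun σ _ => map_zero σ⟩
  neg_mem' {a} ha := ⟨by rw [norm_neg]; exact ha.1, fun σ hσ => by rw [map_neg, ha.2 σ hσ]⟩

/-- All integers of `Om p`. -/
abbrev intOm (p : ℕ) [Fact p.Prime] : Subring (Om p) := fixInt p ⊥

/-- The inertia subgroup of `Gq p`. -/
def inertia (p : ℕ) [Fact p.Prime] : Subgroup (Gq p) where
  carrier := {σ | ∀ x : Om p, ‖x‖ ≤ 1 → ‖σ x - x‖ < 1}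
  mul_mem' {a b} ha hb := fun x hx => by
    have h1 : ‖b x‖ ≤ 1 := by
      have := nnnorm_padicAlgCl_algEquiv p b x
      have h2 : ‖b x‖ = ‖x‖ := congrArg NNReal.toReal this
      rw [h2]; exact hx
    have h3 : (a * b) x - x = (a (b x) - b x) + (b x - x) := by
      rw [AlgEquiv.mul_apply]; ring
    rw [h3]
    exact lt_of_le_of_lt (IsUltrametricDist.norm_add_le_max _ _) (max_lt (ha _ h1) (hb _ hx))
  one_mem' := fun x _ => by simp
  inv_mem' {a} ha := fun x hx => by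
    have h2 : ‖a⁻¹ x‖ = ‖x‖ := congrArg NNReal.toReal (nnnorm_padicAlgCl_algEquiv p a⁻¹ x)
    have h1 : ‖a⁻¹ x‖ ≤ 1 := by rw [h2]; exact hx
    have h3 := ha (a⁻¹ x) h1
    have h4 : a (a⁻¹ x) = x := by
      rw [← AlgEquiv.mul_apply, mul_inv_cancel, AlgEquiv.one_apply]
    rw [h4, ← norm_neg] at h3
    simpa using h3

/-- `act` is an action of `G` on the additive group `M` by additive maps. -/
structure IsAct {G : Type} [Group G] {M : Type} [AddCommGroup M] (act : G → M → M) : Prop where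
  one : ∀ x, act 1 x = x
  mul : ∀ σ τ x, act (σ * τ) x = act σ (act τ x)
  add : ∀ σ x y, act σ (x + y) = act σ x + act σ y

/-- A function Hopf order for the `Γ`-module `M` (values in `Om p`). -/
structure FHO (p : ℕ) [Fact p.Prime] (Γ : Subgroup (Gq p)) (M : Type) [AddCommGroup M]
    (act : Gq p → M → M) where
  /-- the order, a subalgebra of the algebra of all functions -/
  carrier : Subalgebra (fixInt p Γ) (M → Om p)
  fg : (Subalgebra.toSubmodule carrier).FG
  equivariant : ∀ f ∈ carrier, ∀ σ ∈ Γ, ∀ x, f (act σ x) = σ (f x)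
  separates : ∀ x y : M, (∀ f ∈ carrier, f x = f y) → x = y
  comul : ∀ f ∈ carrier, ∃ (n : ℕ) (a b : Fin n → M → Om p),
    (∀ i, a i ∈ carrier) ∧ (∀ i, b i ∈ carrier) ∧ ∀ x y, f (x + y) = ∑ i, a i x * b i y

variable {p : ℕ} [Fact p.Prime] {Γ : Subgroup (Gq p)} {M : Type} [AddCommGroup M]
  {act : Gq p → M → M}

/-- `y ≡ 0` modulo `{‖·‖ ≤ t}` for the order `𝓗`:  "`v(y) ≥ -log_p t`". -/
def FHO.PtLE (𝓗 : FHO p Γ M act) (y : M) (t : ℝ) : Prop :=
  ∀ f ∈ 𝓗.carrier, ‖f y - f 0‖ ≤ t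

/-- `x ≡ y` modulo `{‖·‖ ≤ t}` for the order `𝓗`. -/
def FHO.Cong (𝓗 : FHO p Γ M act) (x y : M) (t : ℝ) : Prop :=
  ∀ f ∈ 𝓗.carrier, ‖f x - f y‖ ≤ t

/-- The order is stable under the additive automorphism `α`. -/
def FHO.StableUnder (𝓗 : FHO p Γ M act) (α : M → M) : Prop :=
  ∀ f ∈ 𝓗.carrier, (fun x => f (α x)) ∈ 𝓗.carrier

/-- The order is stable under conjugation by `τ ∈ Gq p`: `f ↦ τ ∘ f ∘ act τ⁻¹`. -/
def FHO.ConjStable (𝓗 : FHO p Γ M act) (τ : Gq p) : Prop :=
  ∀ f ∈ 𝓗.carrier, (fun x => τ (f (act τ⁻¹ x))) ∈ 𝓗.carrier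

/-- Character completeness (H3): every character of `M` is an integral combination of
elements of the order. -/
def FHO.CharComplete (𝓗 : FHO p Γ M act) : Prop :=
  ∀ ξ : M → Om p, ξ 0 = 1 → (∀ x y, ξ (x + y) = ξ x * ξ y) →
    ξ ∈ Submodule.span (intOm p) (𝓗.carrier : Set (M → Om p))

/-- A *nice* order: stable under all additive automorphisms commuting with `Γ`, stable under
conjugation by the normaliser of `Γ`, character complete. -/
structure FHO.Nice (𝓗 : FHO p Γ M act) : Prop where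
  aut : ∀ α : M ≃+ M, (∀ σ ∈ Γ, ∀ x, α (act σ x) = act σ (α x)) → 𝓗.StableUnder α
  conj : ∀ τ : Gq p, (∀ σ ∈ Γ, τ * σ * τ⁻¹ ∈ Γ) → (∀ σ ∈ Γ, τ⁻¹ * σ * τ ∈ Γ) → 𝓗.ConjStable τ
  char : 𝓗.CharComplete

/-! ## The target of the pillar -/

section Target

variable (p : ℕ) [Fact p.Prime] {k : Type} [Field k] {V : Type} [AddCommGroup V] [Module k V]

/-- `c` is a flat trace-zero cocycle of `ρ`: the deformation `(1 + ε c) ρ` to `k[ε]` of `ρ`,
realised on `V × V` (`(v, w) = v + ε w`), is `Flat`. -/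
structure IsFlatCocycle (ρ : GQ →* Module.End k V) (c : GQ → Module.End k V) : Prop where
  cocycle : ∀ σ τ : GQ, c (σ * τ) = c σ + ρ σ * c τ * ρ σ⁻¹
  trace : ∀ σ : GQ, LinearMap.trace k V (c σ) = 0
  flat : Flat p (V × V) (fun σ x => (ρ σ x.1, ρ σ x.2 + c σ (ρ σ x.1)))

end Target

open Polynomial in
/-- **TARGET of LOC-p-FL.**  For a residual representation `ρ` (`p` odd, `k` finite of
characteristic `p`, `dim V = 2`, eigenvalues in `k`, `det ρ = ω`): there is a `k`-subspace `W` of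
functions `Gq p → End V`, of dimension `≤ 4`, containing the trace-zero coboundaries and the
restriction of every flat trace-zero cocycle.  (So `dim L_p ≤ 4 - dim B¹ = h⁰ + 1`.) -/
def LocPFL : Prop :=
  ∀ (p : ℕ) [Fact p.Prime], p ≠ 2 →
  ∀ (k : Type) [Field k] [Finite k] [CharP k p] (V : Type) [AddCommGroup V] [Module k V]
    [Module.Finite k V], Module.finrank k V = 2 →
  ∀ ρ : GQ →* Module.End k V,
    (∀ σ : GQ, ∃ α β : k, LinearMap.charpoly (ρ σ) = (X - C α) * (X - C β)) →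
    (∀ (σ : GQ) (a : ℕ), (∀ μ : Qb, μ ^ p = 1 → σ μ = μ ^ a) → LinearMap.det (ρ σ) = (a : k)) →
    ∃ W : Submodule k (Gq p → Module.End k V),
      Module.Finite k W ∧ Module.finrank k W ≤ 4 ∧
      (∀ X : Module.End k V, LinearMap.trace k V X = 0 →
        (fun τ : Gq p => X - ρ (ιp p τ) * X * ρ (ιp p τ)⁻¹) ∈ W) ∧
      ∀ c : GQ → Module.End k V, IsFlatCocycle p ρ c → (fun τ : Gq p => c (ιp p τ)) ∈ W

end Fermat.Agent.S56F
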