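import Fermat.Agent.S56F.IfaceHopf2
import Fermat.Agent.S56F.FLA3_helper15
import Fermat.Agent.S56F.FLB123_helper38

/-!
# S56 / LOC-p-FL, row FL-B10 (helper9, prefix `h9u_`): unit eigenfunctions

`h9u_unitEigenP : h9u_UnitEigenP`, the statement `UnitEigen` of `IfaceHopf2.lean` for characters
`ξ` with values in `μ_p` (automatic when `p` kills `M`, e.g. `M = V` or `M = V × V` for a vector
space `V` over a field of characteristic `p`).

Proof (plan of helper87).  `N` = the `intOm`-span of the order `𝓗`, a ring of functions stable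
under translations.
* The indicator `e` of `x + L` is in `N`: Lagrange interpolation with the `L`-invariant functions
  given by the etaleness of `M / L`, the denominators are units.
* `ξ ∈ N` by character completeness, so `F = ξ * e ∈ N`; `N` is spanned by an `Om p`-linearly
  independent family `t ∈ 𝓗`, `F = ∑ c t • t` with integral `c t`.
* For `g ∈ I₁`: `F (act g z) = ξ (act g x - x) * F z` and `g (F z) = F z`, hence
  `ξ (act g x - x) * g (c t) = c t` by independence.
* A coefficient `c` of maximal norm is a unit (evaluate at `x`); `β = c⁻¹`.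
-/

set_option autoImplicit false

open Fermat.Agent.PT.Loc

noncomputable section

namespace Fermat.Agent.S56F

/-- **FL-B10**, for characters with values in `μ_p`. -/
def h9u_UnitEigenP : Prop :=
  ∀ (p : ℕ) [Fact p.Prime] (M : Type) [AddCommGroup M] [Finite M]
    (act : Gq p → M → M), IsAct act → ∀ 𝓗 : FHO p (inertia p) M act, 𝓗.CharComplete →
  ∀ L : AddSubgroup M, (∀ σ ∈ inertia p, ∀ x, act σ x - x ∈ L) →
    (∀ g ∈ inertia p, cycExp p g 1 → ∀ y ∈ L, act g y = y) →
    (∀ x, x ∉ L → ∃ f ∈ 𝓗.carrier, (∀ y ∈ L, ∀ z, f (z + y) = f z) ∧ ‖f x - f 0‖ = 1) →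
  ∀ ξ : M → Om p, ξ 0 = 1 → (∀ x y, ξ (x + y) = ξ x * ξ y) → (∀ y, ξ y ^ p = 1) → ∀ x : M,
    ∃ β : Om p, ‖β‖ = 1 ∧ ∀ g ∈ inertia p, cycExp p g 1 → g β = ξ (act g x - x) * β

section Span

variable {p : ℕ} [Fact p.Prime] {Γ : Subgroup (Gq p)} {M : Type} [AddCommGroup M]
  {act : Gq p → M → M}

theorem h9u_mem_intOm {z : Om p} (hz : ‖z‖ ≤ 1) : z ∈ intOm p :=
  ⟨hz, fun σ hσ => by rw [Subgroup.mem_bot.mp hσ]; rfl⟩

/-- the integral span of the order. -/
def h9u_N (𝓗 : FHO p Γ M act) : Submodule (intOm p) (M → Om p) :=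
  Submodule.span (intOm p) (𝓗.carrier : Set (M → Om p))

theorem h9u_N_of_mem (𝓗 : FHO p Γ M act) {f : M → Om p} (hf : f ∈ 𝓗.carrier) :
    f ∈ h9u_N 𝓗 := Submodule.subset_span hf

theorem h9u_N_one (𝓗 : FHO p Γ M act) : (1 : M → Om p) ∈ h9u_N 𝓗 :=
  h9u_N_of_mem 𝓗 (one_mem _)

theorem h9u_N_mul (𝓗 : FHO p Γ M act) {f f' : M → Om p} (hf : f ∈ h9u_N 𝓗)
    (hf' : f' ∈ h9u_N 𝓗) : f * f' ∈ h9u_N 𝓗 := by
  have h := Submodule.mul_mem_mul hf hf'
  rw [h9u_N, Submodule.span_mul_span] at h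
  refine Submodule.span_mono ?_ h
  rintro _ ⟨a, ha, b, hb, rfl⟩
  exact mul_mem ha hb

theorem h9u_N_prod (𝓗 : FHO p Γ M act) {ι : Type*} (s : Finset ι) (G : ι → M → Om p)
    (h : ∀ i ∈ s, G i ∈ h9u_N 𝓗) : ∏ i ∈ s, G i ∈ h9u_N 𝓗 :=
  Finset.prod_induction G (fun f => f ∈ h9u_N 𝓗) (fun _ _ ha hb => h9u_N_mul 𝓗 ha hb)
    (h9u_N_one 𝓗) h

theorem h9u_N_smul (𝓗 : FHO p Γ M act) {c : Om p} (hc : ‖c‖ ≤ 1) {f : M → Om p}
    (hf : f ∈ h9u_N 𝓗) : c • f ∈ h9u_N 𝓗 :=
  Submodule.smul_mem (h9u_N 𝓗) (⟨c, h9u_mem_intOm hc⟩ : intOm p) hf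

/-- translates of functions of the order are in the integral span. -/
theorem h9u_N_translate (𝓗 : FHO p Γ M act) {f : M → Om p} (hf : f ∈ 𝓗.carrier) (w : M) :
    (fun z => f (z + w)) ∈ h9u_N 𝓗 := by
  obtain ⟨n, a, b, ha, hb, hab⟩ := 𝓗.comul f hf
  have h1 : (fun z => f (z + w)) = ∑ i, (b i w) • a i := by
    funext z
    rw [hab z w, Finset.sum_apply]
    refine Finset.sum_congr rfl fun i _ => ?_
    rw [Pi.smul_apply, smul_eq_mul, mul_comm]
  rw [h1]
  exact Submodule.sum_mem _ fun i _ =>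
    h9u_N_smul 𝓗 (h38f_valuesIntegral p Γ M act 𝓗 (b i) (hb i) w) (h9u_N_of_mem 𝓗 (ha i))

/-- **Lagrange interpolation**: the indicator of a coset of `L` is in the integral span when
`M / L` is etale for the order. -/
theorem h9u_indicator [Finite M] (𝓗 : FHO p Γ M act) (L : AddSubgroup M)
    (h3 : ∀ x, x ∉ L → ∃ f ∈ 𝓗.carrier, (∀ y ∈ L, ∀ z, f (z + y) = f z) ∧ ‖f x - f 0‖ = 1)
    (x : M) :
    ∃ e ∈ h9u_N 𝓗, (∀ z, z - x ∈ L → e z = 1) ∧ (∀ z, z - x ∉ L → e z = 0) := by
  classical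
  have := Fintype.ofFinite M
  -- for each `y` outside `x + L` a function which is `1` on `x + L` and `0` at `y`
  have hG : ∀ y : M, ∃ G ∈ h9u_N 𝓗, (∀ z, z - x ∈ L → G z = 1) ∧ (y - x ∉ L → G y = 0) := by
    intro y
    by_cases hy : y - x ∈ L
    · exact ⟨1, h9u_N_one 𝓗, fun _ _ => rfl, fun h => absurd hy h⟩
    · obtain ⟨f, hf, hinv, hnorm⟩ := h3 (y - x) hy
      have hun : ‖f 0 - f (y - x)‖ = 1 := by rw [norm_sub_rev]; exact hnorm
      have hu0 : f 0 - f (y - x) ≠ 0 := by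
        intro h0
        rw [h0, norm_zero] at hun
        exact zero_ne_one hun
      refine ⟨(f 0 - f (y - x))⁻¹ •
        ((fun z => f (z + (-x))) - (f (y - x)) • (1 : M → Om p)), ?_, ?_, ?_⟩
      · refine h9u_N_smul 𝓗 (by rw [norm_inv, hun, inv_one]) ?_
        refine Submodule.sub_mem _ (h9u_N_translate 𝓗 hf (-x)) ?_
        exact h9u_N_smul 𝓗 (h38f_valuesIntegral p Γ M act 𝓗 f hf _) (h9u_N_one 𝓗)
      · intro z hz
        simp only [Pi.smul_apply, Pi.sub_apply, Pi.one_apply, smul_eq_mul, mul_one]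
        have h1 : f (z + -x) = f 0 := by
          have h2 := hinv (z - x) hz 0
          rw [zero_add] at h2
          rw [← sub_eq_add_neg]
          exact h2
        rw [h1, inv_mul_cancel₀ hu0]
      · intro _
        simp only [Pi.smul_apply, Pi.sub_apply, Pi.one_apply, smul_eq_mul, mul_one]
        rw [← sub_eq_add_neg, sub_self, mul_zero]
  choose G hGN hG1 hG0 using hG
  refine ⟨∏ y : M, G y, h9u_N_prod 𝓗 _ G fun y _ => hGN y, fun z hz => ?_, fun z hz => ?_⟩
  · rw [Finset.prod_apply]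
    exact Finset.prod_eq_one fun y _ => hG1 y z hz
  · rw [Finset.prod_apply]
    exact Finset.prod_eq_zero (Finset.mem_univ z) (hG0 z hz)

/-- the integral span of the order is spanned by an `Om p`-linearly independent finite family
of functions of the order. -/
theorem h9u_exists_indep (𝓗 : FHO p Γ M act) :
    ∃ T : Finset (M → Om p), (∀ t ∈ T, t ∈ 𝓗.carrier) ∧
      LinearIndependent (Om p) (fun t : T => (t : M → Om p)) ∧
      h9u_N 𝓗 ≤ Submodule.span (intOm p) (T : Set (M → Om p)) := by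
  obtain ⟨S, hS⟩ := 𝓗.fg
  have hSsub : ∀ f ∈ S, f ∈ 𝓗.carrier := by
    intro f hf
    have h2 : f ∈ Submodule.span (fixInt p Γ) (S : Set (M → Om p)) :=
      Submodule.subset_span hf
    rw [hS] at h2
    exact h2
  have hfg : (𝓗.carrier : Set (M → Om p)) ⊆
      Submodule.span (intOm p) (S : Set (M → Om p)) := by
    intro f hf
    have h2 : f ∈ Submodule.span (fixInt p Γ) (S : Set (M → Om p)) := by rw [hS]; exact hf
    refine Submodule.span_induction
      (p := fun g _ => g ∈ Submodule.span (intOm p) (S : Set (M → Om p))) ?_ ?_ ?_ ?_ h2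
    · intro x hx; exact Submodule.subset_span hx
    · exact Submodule.zero_mem _
    · intro x y _ _ hx hy; exact Submodule.add_mem _ hx hy
    · intro a x _ hx
      exact Submodule.smul_mem _ (⟨(a : Om p), h9u_mem_intOm a.2.1⟩ : intOm p) hx
  obtain ⟨T, hTS, hTli, hTspan⟩ := h15f_exists_indep (intOm p)
    (fun z hz => h9u_mem_intOm hz) S
  refine ⟨T, fun t ht => hSsub t (hTS ht), hTli, ?_⟩
  rw [hTspan]
  exact Submodule.span_le.mpr hfg

end Span

/-- **FL-B10** for characters with values in `μ_p`. -/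
theorem h9u_unitEigenP : h9u_UnitEigenP := by
  intro p _ M _ _ act hact 𝓗 hchar L h1 h2 h3 ξ hξ0 hξmul hξp x
  classical
  -- the values of `ξ` are units
  have hξn : ∀ y, ‖ξ y‖ = 1 := by
    intro y
    have h := congrArg norm (hξp y)
    rw [norm_pow, norm_one] at h
    exact (pow_eq_one_iff_of_nonneg (norm_nonneg _) (Fact.out : p.Prime).ne_zero).mp h
  have hξne : ∀ y, ξ y ≠ 0 := fun y h0 => by
    have h := hξn y
    rw [h0, norm_zero] at h
    exact zero_ne_one h
  have hx0 : x - x ∈ L := by rw [sub_self]; exact L.zero_mem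
  -- the indicator of `x + L` and the function `F = ξ * e`
  obtain ⟨e, heN, he1, he0⟩ := h9u_indicator 𝓗 L h3 x
  have hξN : ξ ∈ h9u_N 𝓗 := hchar ξ hξ0 hξmul
  have hFN : ξ * e ∈ h9u_N 𝓗 := h9u_N_mul 𝓗 hξN heN
  obtain ⟨T, hT, hTli, hTspan⟩ := h9u_exists_indep 𝓗
  have hF : ξ * e ∈ Submodule.span (intOm p) (Set.range (fun t : T => (t : M → Om p))) := by
    have h := hTspan hFN
    have hr : Set.range (fun t : T => (t : M → Om p)) = (T : Set (M → Om p)) := by
      ext f
      simp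
    rw [hr]
    exact h
  obtain ⟨c, hc⟩ := (Submodule.mem_span_range_iff_exists_fun (intOm p)).mp hF
  have hcz : ∀ z, ξ z * e z = ∑ t : T, (c t : Om p) * (t : M → Om p) z := by
    intro z
    have h := congrFun hc z
    rw [Finset.sum_apply] at h
    rw [← Pi.mul_apply, ← h]
    rfl
  -- the coefficients are eigenvectors
  have key : ∀ g ∈ inertia p, cycExp p g 1 → ∀ t : T,
      ξ (act g x - x) * g (c t : Om p) = (c t : Om p) := by
    intro g hg hg1 t
    have hgfix : ∀ μ : Om p, μ ^ p = 1 → g μ = μ := fun μ hμ => by rw [hg1 μ hμ, pow_one]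
    have hχ : ∀ z, ξ (act g z) * e (act g z) = ξ (act g x - x) * (ξ z * e z) := by
      intro z
      by_cases hz : z - x ∈ L
      · have hgz : act g z - x ∈ L := by
          have h4 : act g z - x = (act g z - z) + (z - x) := by abel
          rw [h4]
          exact L.add_mem (h1 g hg z) hz
        rw [he1 _ hgz, he1 _ hz, mul_one, mul_one, ← hξmul]
        congr 1
        have hzl : act g (z - x) = z - x := h2 g hg hg1 _ hz
        have h4 : act g z = act g x + act g (z - x) := by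
          rw [← hact.add]
          congr 1
          abel
        rw [h4, hzl]
        abel
      · have hgz : act g z - x ∉ L := by
          intro h
          apply hz
          have h4 : z - x = (act g z - x) - (act g z - z) := by abel
          rw [h4]
          exact L.sub_mem h (h1 g hg z)
        rw [he0 _ hgz, he0 _ hz, mul_zero, mul_zero, mul_zero]
    have hFfix : ∀ z, g (ξ z * e z) = ξ z * e z := by
      intro z
      rw [map_mul, hgfix _ (hξp z)]
      by_cases hz : z - x ∈ L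
      · rw [he1 _ hz, map_one]
      · rw [he0 _ hz, map_zero]
    have hrel : ∑ t : T, (ξ (act g x - x) * g (c t : Om p) - (c t : Om p)) •
        (t : M → Om p) = 0 := by
      funext w
      obtain ⟨z, rfl⟩ : ∃ z, act g z = w :=
        ⟨act g⁻¹ w, by rw [← hact.mul, mul_inv_cancel, hact.one]⟩
      simp only [Finset.sum_apply, Pi.smul_apply, smul_eq_mul, Pi.zero_apply, sub_mul,
        Finset.sum_sub_distrib]
      have h5 : ξ z * e z = ∑ t : T, g (c t : Om p) * (t : M → Om p) (act g z) := by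
        rw [← hFfix z, hcz z, map_sum]
        refine Finset.sum_congr rfl fun t _ => ?_
        rw [map_mul, 𝓗.equivariant _ (hT t t.2) g hg z]
      have h6 : ∑ t : T, (c t : Om p) * (t : M → Om p) (act g z) =
          ∑ t : T, ξ (act g x - x) * g (c t : Om p) * (t : M → Om p) (act g z) := by
        rw [← hcz (act g z), hχ z, h5, Finset.mul_sum]
        exact Finset.sum_congr rfl fun t _ => (mul_assoc _ _ _).symm
      rw [h6, sub_self]
    exact sub_eq_zero.mp (Fintype.linearIndependent_iff.mp hTli _ hrel t)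
  -- a coefficient of maximal norm is a unit
  have hTne : (Finset.univ : Finset T).Nonempty := by
    by_contra hne
    rw [Finset.not_nonempty_iff_eq_empty] at hne
    have h := hcz x
    rw [hne, Finset.sum_empty, he1 x hx0, mul_one] at h
    exact hξne x h
  obtain ⟨t₀, -, hmax⟩ := Finset.exists_max_image Finset.univ
    (fun t : T => ‖(c t : Om p)‖) hTne
  have hc1 : ‖(c t₀ : Om p)‖ ≤ 1 := (c t₀).2.1
  have hc2 : 1 ≤ ‖(c t₀ : Om p)‖ := by
    have h := hcz x
    rw [he1 x hx0, mul_one] at h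
    have h5 : ‖ξ x‖ ≤ ‖(c t₀ : Om p)‖ := by
      rw [h]
      refine IsUltrametricDist.norm_sum_le_of_forall_le_of_nonneg (norm_nonneg _) fun t _ => ?_
      rw [norm_mul]
      calc ‖(c t : Om p)‖ * ‖(t : M → Om p) x‖ ≤ ‖(c t₀ : Om p)‖ * 1 :=
            mul_le_mul (hmax t (Finset.mem_univ t))
              (h38f_valuesIntegral p _ M act 𝓗 _ (hT t t.2) x) (norm_nonneg _) (norm_nonneg _)
        _ = ‖(c t₀ : Om p)‖ := mul_one _
    rw [hξn x] at h5
    exact h5
  have hcn : ‖(c t₀ : Om p)‖ = 1 := le_antisymm hc1 hc2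
  refine ⟨(c t₀ : Om p)⁻¹, by rw [norm_inv, hcn, inv_one], fun g hg hg1 => ?_⟩
  have hk := key g hg hg1 t₀
  have hχ0 : ξ (act g x - x) ≠ 0 := hξne _
  have h7 : (c t₀ : Om p)⁻¹ = (ξ (act g x - x))⁻¹ * (g (c t₀ : Om p))⁻¹ := by
    rw [← mul_inv, hk]
  rw [map_inv₀, h7, ← mul_assoc, mul_inv_cancel₀ hχ0, one_mul]

/-- powers of a character. -/
theorem h9u_char_nsmul {p : ℕ} [Fact p.Prime] {M : Type} [AddCommGroup M] (ξ : M → Om p)
    (hξ0 : ξ 0 = 1) (hξmul : ∀ x y, ξ (x + y) = ξ x * ξ y) (n : ℕ) (y : M) :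
    ξ (n • y) = ξ y ^ n := by
  induction n with
  | zero => rw [zero_smul, pow_zero, hξ0]
  | succ n ih => rw [succ_nsmul, hξmul, ih, pow_succ]

/-- **FL-B10** for groups killed by `p`: the statement `UnitEigen` with the extra hypothesis
`p • y = 0` for all `y : M`. -/
theorem h9u_unitEigen_tors (p : ℕ) [Fact p.Prime] (M : Type) [AddCommGroup M] [Finite M]
    (hpM : ∀ y : M, p • y = 0)
    (act : Gq p → M → M) (hact : IsAct act) (𝓗 : FHO p (inertia p) M act)
    (hchar : 𝓗.CharComplete) (L : AddSubgroup M)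
    (h1 : ∀ σ ∈ inertia p, ∀ x, act σ x - x ∈ L)
    (h2 : ∀ g ∈ inertia p, cycExp p g 1 → ∀ y ∈ L, act g y = y)
    (h3 : ∀ x, x ∉ L →
      ∃ f ∈ 𝓗.carrier, (∀ y ∈ L, ∀ z, f (z + y) = f z) ∧ ‖f x - f 0‖ = 1)
    (ξ : M → Om p) (hξ0 : ξ 0 = 1) (hξmul : ∀ x y, ξ (x + y) = ξ x * ξ y) (x : M) :
    ∃ β : Om p, ‖β‖ = 1 ∧ ∀ g ∈ inertia p, cycExp p g 1 → g β = ξ (act g x - x) * β :=
  h9u_unitEigenP p M act hact 𝓗 hchar L h1 h2 h3 ξ hξ0 hξmul
    (fun y => by rw [← h9u_char_nsmul ξ hξ0 hξmul, hpM, hξ0]) x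

end Fermat.Agent.S56F
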