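import Fermat.Agent.S56F.IfaceHopf2

/-!
# S56 / LOC-p-FL, leaf FL-B9 (helper4, prefix `h4b_`): base change of an order

`h4b_baseChange : BaseChange` — for `Γ' ≤ Γ` the `fixInt p Γ'`-span of a function Hopf order
over `Γ` is a function Hopf order over `Γ'`.
-/

set_option autoImplicit false

open Fermat.Agent.PT.Loc

noncomputable section

namespace Fermat.Agent.S56F

/-- `fixInt` is antitone. -/
theorem h4b_fixInt_le {p : ℕ} [Fact p.Prime] {Γ Γ' : Subgroup (Gq p)} (hle : Γ' ≤ Γ) :
    fixInt p Γ ≤ fixInt p Γ' :=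
  fun _ hx => ⟨hx.1, fun σ hσ => hx.2 σ (hle hσ)⟩

/-- The span over the bigger ring contains the span over the smaller ring. -/
theorem h4b_span_le {p : ℕ} [Fact p.Prime] {Γ Γ' : Subgroup (Gq p)} (hle : Γ' ≤ Γ)
    {M : Type} (S : Set (M → Om p)) (f : M → Om p)
    (hf : f ∈ Submodule.span (fixInt p Γ) S) : f ∈ Submodule.span (fixInt p Γ') S := by
  induction hf using Submodule.span_induction with
  | mem x hx => exact Submodule.subset_span hx
  | zero => exact Submodule.zero_mem _
  | add x y _ _ hx hy => exact Submodule.add_mem _ hx hy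
  | smul r x _ hx =>
    have h1 : r • x = (⟨(r : Om p), h4b_fixInt_le hle r.2⟩ : fixInt p Γ') • x := rfl
    rw [h1]
    exact Submodule.smul_mem _ _ hx

/-- **FL-B9.** -/
theorem h4b_baseChange : BaseChange := by
  intro p _ Γ Γ' hle M _ act 𝓗
  classical
  set C : Subalgebra (fixInt p Γ') (M → Om p) :=
    Algebra.adjoin (fixInt p Γ') (𝓗.carrier : Set (M → Om p)) with hCdef
  have hC : Subalgebra.toSubmodule C =
      Submodule.span (fixInt p Γ') (𝓗.carrier : Set (M → Om p)) := by
    rw [hCdef, Algebra.adjoin_eq_span]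
    congr 1
    exact congrArg _ (Submonoid.closure_eq 𝓗.carrier.toSubmonoid)
  have hmem : ∀ f : M → Om p, f ∈ C ↔
      f ∈ Submodule.span (fixInt p Γ') (𝓗.carrier : Set (M → Om p)) := by
    intro f
    rw [← hC]
    exact Iff.rfl
  have hsub : ∀ f ∈ 𝓗.carrier, f ∈ C := fun f hf => Algebra.subset_adjoin hf
  have hfg : (Subalgebra.toSubmodule C).FG := by
    obtain ⟨S, hS⟩ := 𝓗.fg
    refine ⟨S, ?_⟩
    rw [hC]
    apply le_antisymm
    · apply Submodule.span_mono
      intro f hf
      have : f ∈ Submodule.span (fixInt p Γ) (S : Set (M → Om p)) := Submodule.subset_span hf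
      rw [hS] at this
      exact this
    · rw [Submodule.span_le]
      intro f hf
      have h1 : f ∈ Subalgebra.toSubmodule 𝓗.carrier := hf
      rw [← hS] at h1
      exact h4b_span_le hle _ f h1
  have hequiv : ∀ f ∈ C, ∀ σ ∈ Γ', ∀ x, f (act σ x) = σ (f x) := by
    intro f hf σ hσ x
    rw [hmem] at hf
    induction hf using Submodule.span_induction with
    | mem g hg => exact 𝓗.equivariant g hg σ (hle hσ) x
    | zero => simp
    | add g h _ _ hg hh =>
      rw [Pi.add_apply, Pi.add_apply, hg, hh, map_add]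
    | smul r g _ hg =>
      have h1 : ∀ y, (r • g) y = (r : Om p) * g y := fun y => rfl
      rw [h1, h1, hg, map_mul, r.2.2 σ hσ]
  have hcomul : ∀ f ∈ C, ∃ (n : ℕ) (a b : Fin n → M → Om p),
      (∀ i, a i ∈ C) ∧ (∀ i, b i ∈ C) ∧ ∀ x y, f (x + y) = ∑ i, a i x * b i y := by
    intro f hf
    rw [hmem] at hf
    induction hf using Submodule.span_induction with
    | mem g hg =>
      obtain ⟨n, a, b, ha, hb, hab⟩ := 𝓗.comul g hg
      exact ⟨n, a, b, fun i => hsub _ (ha i), fun i => hsub _ (hb i), hab⟩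
    | zero =>
      exact ⟨0, fun _ => 0, fun _ => 0, fun i => i.elim0, fun i => i.elim0, fun x y => by simp⟩
    | add g h _ _ hg hh =>
      obtain ⟨n₁, a₁, b₁, ha₁, hb₁, hab₁⟩ := hg
      obtain ⟨n₂, a₂, b₂, ha₂, hb₂, hab₂⟩ := hh
      refine ⟨n₁ + n₂, Fin.append a₁ a₂, Fin.append b₁ b₂, ?_, ?_, ?_⟩
      · intro i
        refine Fin.addCases (fun j => ?_) (fun j => ?_) i
        · rw [Fin.append_left]; exact ha₁ j
        · rw [Fin.append_right]; exact ha₂ j
      · intro i
        refine Fin.addCases (fun j => ?_) (fun j => ?_) i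
        · rw [Fin.append_left]; exact hb₁ j
        · rw [Fin.append_right]; exact hb₂ j
      · intro x y
        rw [Fin.sum_univ_add]
        simp only [Fin.append_left, Fin.append_right]
        rw [Pi.add_apply, hab₁, hab₂]
    | smul r g _ hg =>
      obtain ⟨n, a, b, ha, hb, hab⟩ := hg
      refine ⟨n, fun i => r • a i, b, fun i => C.smul_mem (ha i) r, hb, ?_⟩
      intro x y
      have h1 : ∀ (h : M → Om p) (z : M), (r • h) z = (r : Om p) * h z := fun h z => rfl
      rw [h1, hab, Finset.mul_sum]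
      apply Finset.sum_congr rfl
      intro i _
      show (r : Om p) * (a i x * b i y) = (r • a i) x * b i y
      rw [h1, mul_assoc]
  refine ⟨{ carrier := C
            fg := hfg
            equivariant := hequiv
            separates := fun x y h => 𝓗.separates x y (fun f hf => h f (hsub f hf))
            comul := hcomul }, hsub, fun f hf => (hmem f).1 hf⟩

end Fermat.Agent.S56F
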