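import Fermat.Agent.S56F.IfaceRank1
import Fermat.Agent.S56F.FLB123_helper38

/-!
# S56 / LOC-p-FL, leaf FL-C5 (helper89): Raynaud in rank one, assembly

`h89c5_rankOneAsm : RankOneAsm`, i.e.
`InertiaDiscrete → FundSurjective → TameValue → GaussNorm → EigenGen → DigitLemma → RankOne`.

Notation: `n = p ^ r - 1 = #kˣ`, `Ψ σ = σ π / π`.

* `X_i` := the `τ ^ (p ^ i)`-eigenfunction generator (`EigenGen`), `z_i = X_i y₀`;
  `X_i 0 = 0`, `‖X_i y‖ = ‖z_i‖` for `y ≠ 0`;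
* equivariance: `σ z_i = τ(χ σ) ^ (p ^ i) z_i` for `σ` in inertia, so `TameValue` gives `U_i` with
  `‖z_i‖ ^ n = ‖p‖ ^ U_i` and `τ(χ σ) ^ (p ^ i) = Ψ σ ^ U_i`;
* a non-trivial character `ξ` of `M` is in the integral span of the order (`CharComplete`); its
  `τ ^ (p ^ i)`-component `∑_a τ(a) ^ (-p ^ i) ξ(a ·)` is `c X_i`, `‖c‖ ≤ 1`, and its value at
  `y₀` is a Gauss sum, of norm `‖p‖ ^ (1 / (p - 1))` (`GaussNorm`): `U_i (p - 1) ≤ n`;
* `FundSurjective`: `U_i ≡ p ^ i U_0 mod n`; `DigitLemma`.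
-/

set_option autoImplicit false

open Fermat.Agent.PT.Loc

noncomputable section

namespace Fermat.Agent.S56F

section Teich

variable {p : ℕ} [Fact p.Prime] {k : Type} [Field k] [Fintype k]

/-- the values of a character of `kˣ` are `#kˣ`-th roots of unity. -/
theorem h89c5_tau_pow (τ : kˣ →* (Om p)ˣ) (a : kˣ) :
    ((τ a : (Om p)ˣ) : Om p) ^ (Fintype.card k - 1) = 1 := by
  have h1 : a ^ (Fintype.card k - 1) = 1 := by
    have h2 : Nat.card kˣ = Fintype.card k - 1 := by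
      rw [Nat.card_units, Nat.card_eq_fintype_card]
    rw [← h2]
    exact pow_card_eq_one'
  rw [← Units.val_pow_eq_pow_val, ← map_pow, h1, map_one, Units.val_one]

/-- the values of a character of `kˣ` have norm one. -/
theorem h89c5_tau_norm (τ : kˣ →* (Om p)ˣ) (a : kˣ) : ‖((τ a : (Om p)ˣ) : Om p)‖ = 1 := by
  have h1 := h89c5_tau_pow τ a
  have hpos : Fintype.card k - 1 ≠ 0 := by
    have := Fintype.one_lt_card (α := k)
    omega
  have h2 : ‖((τ a : (Om p)ˣ) : Om p)‖ ^ (Fintype.card k - 1) = 1 := by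
    rw [← norm_pow, h1, norm_one]
  exact (pow_eq_one_iff_of_nonneg (norm_nonneg _) hpos).mp h2

/-- a Teichmüller character is injective. -/
theorem h89c5_tau_injective (τ : kˣ →* (Om p)ˣ) (hτ : IsTeich p τ) : Function.Injective τ := by
  intro a b hab
  by_contra hne
  have hc : (a : k) - b ≠ 0 := by
    intro h
    exact hne (Units.ext (sub_eq_zero.mp h))
  have h1 := hτ.1 b (Units.mk0 _ hc) a (by rw [Units.val_mk0]; ring)
  rw [hab, add_sub_cancel_left] at h1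
  rw [h89c5_tau_norm] at h1
  exact lt_irrefl _ h1

end Teich

section Span

variable {p : ℕ} [Fact p.Prime] {Γ : Subgroup (Gq p)} {M : Type} [AddCommGroup M]
  {act : Gq p → M → M}

/-- the integral span of a stable order is stable. -/
theorem h89c5_span_stable (𝓗 : FHO p Γ M act) (α : M → M) (h : 𝓗.StableUnder α)
    (f : M → Om p) (hf : f ∈ Submodule.span (intOm p) (𝓗.carrier : Set (M → Om p))) :
    (fun x => f (α x)) ∈ Submodule.span (intOm p) (𝓗.carrier : Set (M → Om p)) := by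
  induction hf using Submodule.span_induction with
  | mem f hf => exact Submodule.subset_span (h f hf)
  | zero => exact Submodule.zero_mem _
  | add f g _ _ hf hg => exact Submodule.add_mem _ hf hg
  | smul c f _ hf => exact Submodule.smul_mem _ c hf

/-- integers of `Om p`. -/
theorem h89c5_mem_intOm {x : Om p} (hx : ‖x‖ ≤ 1) : x ∈ intOm p :=
  ⟨hx, fun σ hσ => by rw [Subgroup.mem_bot.mp hσ]; rfl⟩

end Span

section Package

variable {p : ℕ} [Fact p.Prime]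

/-- the package at the index `i`: the eigenfunction generator `X_i`, its tame exponent `U_i`
and the Gauss sum bound `U_i (p - 1) ≤ p ^ r - 1`. -/
theorem h89c5_package (hD : InertiaDiscrete) (hTV : TameValue) (hGN : GaussNorm) (hEG : EigenGen)
    (hp2 : p ≠ 2) {k : Type} [Field k] [Fintype k] [CharP k p] (r : ℕ)
    (hcard : Fintype.card k = p ^ r) {M : Type} [AddCommGroup M] [Module k M]
    (hM : Module.finrank k M = 1) (act : Gq p → M → M) (χ : Gq p → kˣ)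
    (hact : ∀ σ ∈ inertia p, ∀ x, act σ x = χ σ • x) (𝓗 : FHO p (inertia p) M act)
    (hst : ∀ a : kˣ, 𝓗.StableUnder (fun x => a • x)) (hcc : 𝓗.CharComplete)
    (τ : kˣ →* (Om p)ˣ) (hτ : IsTeich p τ) (π : Om p) (hπ : π ^ (p ^ r - 1) = p) (i : ℕ) :
    ∃ X ∈ 𝓗.carrier, ∃ U : ℕ, X 0 = 0 ∧
      (∀ y : M, y ≠ 0 → ‖X y‖ ^ (p ^ r - 1) = ‖(p : Om p)‖ ^ U) ∧
      (∀ σ ∈ inertia p, ((τ (χ σ) : (Om p)ˣ) : Om p) ^ (p ^ i) = (σ π / π) ^ U) ∧
      U * (p - 1) ≤ p ^ r - 1 := by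
  classical
  have hp : p.Prime := Fact.out
  have hp3 : 3 ≤ p := by
    have := hp.two_le
    omega
  have hr : 0 < r := by
    rcases Nat.eq_zero_or_pos r with h | h
    · exfalso
      rw [h, pow_zero] at hcard
      have := Fintype.one_lt_card (α := k)
      omega
    · exact h
  have hq3 : 3 ≤ p ^ r := le_trans hp3 (Nat.le_self_pow hr.ne' p)
  obtain ⟨n, hn⟩ : ∃ n, n = p ^ r - 1 := ⟨_, rfl⟩
  rw [← hn] at hπ ⊢
  have hn2 : 2 ≤ n := by omega
  have hn0 : 0 < n := by omega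
  have hcard' : Fintype.card k - 1 = n := by rw [hcard, hn]
  have hpn : ¬ p ∣ n := by
    intro h
    have h1 : p ∣ p ^ r := dvd_pow_self p hr.ne'
    have h2 : p ∣ p ^ r - n := Nat.dvd_sub h1 h
    have h3 : p ^ r - n = 1 := by omega
    rw [h3] at h2
    exact hp.one_lt.ne' (Nat.dvd_one.mp h2)
  have hcop : Nat.Coprime n (p ^ i) :=
    Nat.Coprime.pow_right i ((Nat.Prime.coprime_iff_not_dvd hp).mpr hpn).symm
  have hj : ¬ (Fintype.card k - 1) ∣ p ^ i := by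
    rw [hcard']
    intro h
    have := Nat.Coprime.eq_one_of_dvd hcop h
    omega
  obtain ⟨X, hX, ⟨y1, hy1⟩, heig, huniv⟩ := hEG p k M hM act χ hact 𝓗 hst τ hτ (p ^ i) hj
  -- a value of `τ ^ (p ^ i)` different from `1`
  have hcardu : Nat.card kˣ = n := by
    rw [Nat.card_units, Nat.card_eq_fintype_card, hcard, hn]
  obtain ⟨a0, ha0⟩ : ∃ a : kˣ, ((τ a : (Om p)ˣ) : Om p) ^ (p ^ i) ≠ 1 := by
    obtain ⟨a, ha⟩ : ∃ a : kˣ, a ≠ 1 := by
      by_contra hall
      push Not at hall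
      have hsub : Subsingleton kˣ := ⟨fun x y => by rw [hall x, hall y]⟩
      have : Nat.card kˣ ≤ 1 := Finite.card_le_one_iff_subsingleton.mpr hsub
      omega
    refine ⟨a, fun h => ha ?_⟩
    have h1 : τ (a ^ (p ^ i)) = τ 1 := by
      rw [map_pow, map_one]
      exact Units.ext (by rw [Units.val_pow_eq_pow_val, h, Units.val_one])
    have h2 : a ^ (p ^ i) = 1 := h89c5_tau_injective τ hτ h1
    have h3 : a ^ n = 1 := by
      rw [← hcardu]
      exact pow_card_eq_one'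
    have h4 : orderOf a ∣ p ^ i := orderOf_dvd_of_pow_eq_one h2
    have h5 : orderOf a ∣ n := orderOf_dvd_of_pow_eq_one h3
    have h6 : orderOf a = 1 := Nat.eq_one_of_dvd_coprimes hcop h5 h4
    exact orderOf_eq_one_iff.mp h6
  have hX0 : X 0 = 0 := by
    have h1 := heig a0 0
    rw [smul_zero] at h1
    by_contra h
    apply ha0
    have h2 : (((τ a0 : (Om p)ˣ) : Om p) ^ (p ^ i) - 1) * X 0 = 0 := by
      rw [sub_mul, one_mul, ← h1, sub_self]
    rcases mul_eq_zero.mp h2 with h3 | h3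
    · exact sub_eq_zero.mp h3
    · exact absurd h3 h
  -- a basis vector
  obtain ⟨y0, hy0, hspan⟩ := (finrank_eq_one_iff' (K := k) (V := M)).mp hM
  have hgen : ∀ y : M, y ≠ 0 → ∃ a : kˣ, y = a • y0 := by
    intro y hy
    obtain ⟨c, hc⟩ := hspan y
    have hc0 : c ≠ 0 := by
      rintro rfl
      rw [zero_smul] at hc
      exact hy hc.symm
    exact ⟨Units.mk0 c hc0, by rw [← hc]; rfl⟩
  obtain ⟨z, hz⟩ : ∃ z, z = X y0 := ⟨_, rfl⟩
  have hXy : ∀ y : M, y ≠ 0 → ‖X y‖ = ‖z‖ := by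
    intro y hy
    obtain ⟨a, rfl⟩ := hgen y hy
    rw [heig, norm_mul, norm_pow, h89c5_tau_norm, one_pow, one_mul, hz]
  have hz0 : z ≠ 0 := by
    intro h
    have hy10 : y1 ≠ 0 := by
      rintro rfl
      exact hy1 hX0
    have h1 := hXy y1 hy10
    rw [h, norm_zero, norm_eq_zero] at h1
    exact hy1 h1
  -- equivariance
  have hσz : ∀ σ ∈ inertia p, σ z = ((τ (χ σ) : (Om p)ˣ) : Om p) ^ (p ^ i) * z := by
    intro σ hσ
    rw [hz, ← 𝓗.equivariant X hX σ hσ y0, hact σ hσ y0, heig]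
  have hfix : ∀ σ ∈ inertia p, σ (z ^ n) = z ^ n := by
    intro σ hσ
    rw [map_pow, hσz σ hσ, mul_pow, ← pow_mul, mul_comm (p ^ i) n, pow_mul, ← hcard',
      h89c5_tau_pow, one_pow, one_mul]
  obtain ⟨U, hU1, hU2⟩ := hTV p n hn0 hpn π hπ z hz0 hfix
  obtain ⟨-, hp1, hp0, -⟩ := hD p
  have hnp0 : 0 < ‖(p : Om p)‖ := norm_pos_iff.mpr hp0
  have hz1 : ‖z‖ ≤ 1 := by
    rw [hz]
    exact h38f_valuesIntegral p (inertia p) M act 𝓗 X hX y0
  have hU0 : 0 ≤ U := by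
    by_contra h
    rw [not_le] at h
    have h1 : 1 < ‖(p : Om p)‖ ^ U := one_lt_zpow_of_neg₀ hnp0 hp1 h
    rw [← hU1] at h1
    exact absurd (pow_le_one₀ (norm_nonneg _) hz1) (not_le.mpr h1)
  lift U to ℕ using hU0
  rw [zpow_natCast] at hU1
  -- a non-trivial character of `M`
  have hfinM : Module.Finite k M := Module.finite_of_finrank_pos (by rw [hM]; exact one_pos)
  have hFM : Finite M := Module.finite_of_finite k
  have hexp : NeZero ((Monoid.exponent (Multiplicative M) : ℕ) : Om p) := ⟨by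
    have h1 : Monoid.exponent (Multiplicative M) ≠ 0 := Monoid.exponent_ne_zero_of_finite
    exact_mod_cast h1⟩
  obtain ⟨φ, hφ⟩ := CommGroup.exists_apply_ne_one_of_hasEnoughRootsOfUnity (Multiplicative M)
    (Om p) (a := Multiplicative.ofAdd y0) (by simpa using hy0)
  obtain ⟨ξ, hξ⟩ : ∃ ξ : M → Om p, ξ = fun y => ((φ (Multiplicative.ofAdd y) : (Om p)ˣ) : Om p) :=
    ⟨_, rfl⟩
  have hξ0 : ξ 0 = 1 := by simp [hξ]
  have hξadd : ∀ x y, ξ (x + y) = ξ x * ξ y := by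
    intro x y
    simp [hξ, ofAdd_add, map_mul]
  have hξy0 : ξ y0 ≠ 1 := by
    intro h
    rw [hξ] at h
    exact hφ (Units.ext h)
  have hξmem := hcc ξ hξ0 hξadd
  -- the eigen-component of `ξ`
  obtain ⟨Y, hY⟩ : ∃ Y : M → Om p, Y = fun y =>
      ∑ a : kˣ, (((τ a)⁻¹ : (Om p)ˣ) : Om p) ^ (p ^ i) * ξ (a • y) := ⟨_, rfl⟩
  have hcoef : ∀ a : kˣ, ‖(((τ a)⁻¹ : (Om p)ˣ) : Om p) ^ (p ^ i)‖ ≤ 1 := by
    intro a
    rw [norm_pow, ← map_inv, h89c5_tau_norm, one_pow]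
  have hYmem : Y ∈ Submodule.span (intOm p) (𝓗.carrier : Set (M → Om p)) := by
    have h1 : Y = ∑ a : kˣ, (⟨(((τ a)⁻¹ : (Om p)ˣ) : Om p) ^ (p ^ i),
        h89c5_mem_intOm (hcoef a)⟩ : intOm p) • (fun y : M => ξ (a • y)) := by
      rw [hY]
      funext y
      rw [Finset.sum_apply]
      rfl
    rw [h1]
    exact Submodule.sum_mem _ (fun a _ => Submodule.smul_mem _ _
      (h89c5_span_stable 𝓗 _ (hst a) ξ hξmem))
  have hYeig : ∀ (b : kˣ) (y : M), Y (b • y) = ((τ b : (Om p)ˣ) : Om p) ^ (p ^ i) * Y y := by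
    intro b y
    rw [hY]
    simp only
    rw [Finset.mul_sum]
    refine Fintype.sum_equiv (Equiv.mulRight b) _ _ (fun a => ?_)
    rw [Equiv.coe_mulRight, map_mul, mul_inv, Units.val_mul, mul_pow, mul_smul, ← mul_assoc,
      ← mul_assoc]
    congr 1
    have h2 : ((τ b : (Om p)ˣ) : Om p) ^ (p ^ i) * (((τ b)⁻¹ : (Om p)ˣ) : Om p) ^ (p ^ i) = 1 := by
      rw [← mul_pow, ← Units.val_mul, mul_inv_cancel, Units.val_one, one_pow]
    calc (((τ a)⁻¹ : (Om p)ˣ) : Om p) ^ (p ^ i)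
        = (((τ a)⁻¹ : (Om p)ˣ) : Om p) ^ (p ^ i) *
            (((τ b : (Om p)ˣ) : Om p) ^ (p ^ i) * (((τ b)⁻¹ : (Om p)ˣ) : Om p) ^ (p ^ i)) := by
          rw [h2, mul_one]
      _ = _ := by ring
  obtain ⟨c, hc1, hcY⟩ := huniv Y hYmem hYeig
  -- the Gauss sum
  have hG := hGN p hp2 k τ hτ (fun a : k => ξ (a • y0)) (by simp only [zero_smul]; exact hξ0)
    (fun a b => by simp only [add_smul]; exact hξadd _ _) ⟨1, by simp only [one_smul]; exact hξy0⟩ i
  have hYy0 : Y y0 = ∑ a : kˣ, (((τ a)⁻¹ : (Om p)ˣ) : Om p) ^ (p ^ i) * ξ ((a : k) • y0) := by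
    rw [hY]
    rfl
  rw [← hYy0] at hG
  have hle : ‖Y y0‖ ≤ ‖z‖ := by
    rw [hcY y0, norm_mul, ← hz]
    exact mul_le_of_le_one_left (norm_nonneg _) hc1
  have hbound : U * (p - 1) ≤ n := by
    have h1 : ‖(p : Om p)‖ ^ n ≤ ‖(p : Om p)‖ ^ (U * (p - 1)) :=
      calc ‖(p : Om p)‖ ^ n = (‖Y y0‖ ^ (p - 1)) ^ n := by rw [hG]
        _ = (‖Y y0‖ ^ n) ^ (p - 1) := by rw [← pow_mul, ← pow_mul, mul_comm]
        _ ≤ (‖z‖ ^ n) ^ (p - 1) :=
            pow_le_pow_left₀ (pow_nonneg (norm_nonneg _) _)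
              (pow_le_pow_left₀ (norm_nonneg _) hle n) _
        _ = ‖(p : Om p)‖ ^ (U * (p - 1)) := by rw [hU1, ← pow_mul]
    exact (pow_le_pow_iff_right_of_lt_one₀ hnp0 hp1).mp h1
  refine ⟨X, hX, U, hX0, ?_, ?_, hbound⟩
  · intro y hy
    rw [hXy y hy, hU1]
  · intro σ hσ
    have h1 := hU2 σ hσ
    rw [zpow_natCast, hσz σ hσ, mul_div_assoc, div_self hz0, mul_one] at h1
    exact h1

end Package

/-- **FL-C5 (RAYNAUD in rank one), assembly.** -/
theorem h89c5_rankOneAsm : RankOneAsm := by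
  intro hD hFS hTV hGN hEG hDL p _ hp2 k _ _ _ r hcard M _ _ hM act χ hact 𝓗 hst hcc τ hτ π hπ
  classical
  have hp : p.Prime := Fact.out
  have hp3 : 3 ≤ p := by
    have := hp.two_le
    omega
  have hr : 0 < r := by
    rcases Nat.eq_zero_or_pos r with h | h
    · exfalso
      rw [h, pow_zero] at hcard
      have := Fintype.one_lt_card (α := k)
      omega
    · exact h
  have hq3 : 3 ≤ p ^ r := le_trans hp3 (Nat.le_self_pow hr.ne' p)
  have hpack := fun i : ℕ =>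
    h89c5_package hD hTV hGN hEG hp2 r hcard hM act χ hact 𝓗 hst hcc τ hτ π hπ i
  choose X hX U hX0 hXn hXσ hXb using hpack
  obtain ⟨n, hn⟩ : ∃ n, n = p ^ r - 1 := ⟨_, rfl⟩
  rw [← hn] at hπ hXn hXb ⊢
  have hn2 : 2 ≤ n := by omega
  have hn0 : 0 < n := by omega
  have hpn : ¬ p ∣ n := by
    intro h
    have h1 : p ∣ p ^ r := dvd_pow_self p hr.ne'
    have h2 : p ∣ p ^ r - n := Nat.dvd_sub h1 h
    have h3 : p ^ r - n = 1 := by omega
    rw [h3] at h2
    exact hp.one_lt.ne' (Nat.dvd_one.mp h2)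
  -- a generator of the image of the fundamental character
  have hnz : NeZero ((n : ℕ) : Om p) := ⟨by exact_mod_cast hn0.ne'⟩
  obtain ⟨ζ, hζ⟩ := HasEnoughRootsOfUnity.exists_primitiveRoot (Om p) n
  obtain ⟨σ, hσ, hσπ⟩ := hFS p n hn0 hpn π hπ ζ hζ.pow_eq_one
  have hπ0 : π ≠ 0 := by
    rintro rfl
    rw [zero_pow hn0.ne'] at hπ
    exact (Nat.cast_ne_zero.mpr hp.ne_zero) hπ.symm
  have hΨ : σ π / π = ζ := by
    rw [hσπ, mul_div_assoc, div_self hπ0, mul_one]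
  have hcong : ∀ i : ℕ, U i ≡ p ^ i * U 0 [MOD n] := by
    intro i
    have h1 := hXσ i σ hσ
    have h0 := hXσ 0 σ hσ
    rw [pow_zero, pow_one] at h0
    rw [h0, hΨ, ← pow_mul] at h1
    have hu : IsUnit ζ := hζ.isUnit hn0.ne'
    have h2 : hu.unit ^ (U 0 * p ^ i) = hu.unit ^ (U i) :=
      Units.ext (by rw [Units.val_pow_eq_pow_val, Units.val_pow_eq_pow_val, IsUnit.unit_spec, h1])
    rw [pow_eq_pow_iff_modEq] at h2
    have h3 : orderOf hu.unit = n := by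
      rw [← orderOf_units, IsUnit.unit_spec, ← hζ.eq_orderOf]
    rw [h3, mul_comm] at h2
    exact h2.symm
  have hp1 : 0 < p - 1 := by omega
  obtain ⟨S, hS⟩ := hDL p r hp hr U
    (fun i _ => by rw [← hn]; exact (Nat.le_div_iff_mul_le hp1).mpr (hXb i))
    (fun i _ => by rw [← hn]; exact hcong i)
  refine ⟨U 0, ⟨S, hS⟩, ?_, ?_⟩
  · intro σ' hσ'
    have h := hXσ 0 σ' hσ'
    rwa [pow_zero, pow_one] at h
  · intro i _
    refine ⟨X i, hX i, hX0 i, fun y hy => ?_⟩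
    rw [hXn i y hy]
    have h2 : U i < n := by
      have h3 := hXb i
      have h4 : U i * 2 ≤ U i * (p - 1) := Nat.mul_le_mul_left _ (by omega)
      omega
    have h5 : U i = (p ^ i * U 0) % n := by
      rw [← hcong i, Nat.mod_eq_of_lt h2]
    rw [← h5]

end Fermat.Agent.S56F
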