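import Fermat.Agent.S56F.IfaceOrd
import Fermat.Agent.S56F.FLD0_helper89
import Fermat.Agent.PT.Loc.H36Unr
import Fermat.Agent.PT.Loc.H66URCyc
import Fermat.Agent.PT.Loc.H34LFTeich
import Fermat.Agent.PT.Loc.H96RDBase
import Fermat.Agent.PT.Loc.MC.H65Idx

/-!
# S56 / LOC-p-FL, row FL-D6 (helper96): inertia and one Frobenius element generate

`h96g_frobGen : FrobGen`: a continuous homomorphism `h : Gal(ℚ̄_p/ℚ_p) → A` which vanishes on the
inertia group and on one Frobenius element `φ` is zero.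

Proof.  `h` is right invariant under `G_F` for a finite extension `F/ℚ_p`; by the compactness
step `h36n_exists_level` there is `m > 0` with `G_{Kur ⊥ m} ⊆ I · G_F`, so `h` vanishes on
`G_{Kur ⊥ m}`; `Kur ⊥ m / ℚ_p` is cyclic of degree `m` generated by `φ` (`h66v_urCyc`), so every
`σ` is `φ ^ j · t` with `t ∈ G_{Kur ⊥ m}` and `h σ = j • h φ + h t = 0`.
-/

set_option autoImplicit false
set_option linter.style.haveILetI false

open Fermat.Agent.PT.Loc

noncomputable section

namespace Fermat.Agent.S56F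

/-- every element of `Gq p` fixes the base field. -/
theorem h96g_mem_GK_bot (p : ℕ) [Fact p.Prime] (g : Gq p) : g ∈ GK (⊥ : LF p) := by
  rw [IntermediateField.mem_fixingSubgroup_iff]
  intro x hx
  obtain ⟨a, rfl⟩ := IntermediateField.mem_bot.1 hx
  exact g.commutes a

/-- **FL-D6** (exact frozen Prop). -/
theorem h96g_frobGen : FrobGen := by
  intro p _ A _ h hcont hadd hI φ hφ hφ0 σ
  have hres : resCard (⊥ : LF p) = p := (h96b_lfBase p).2.1
  have hFrob : IsFrob (⊥ : LF p) φ := by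
    refine ⟨h96g_mem_GK_bot p φ, fun w m hm hpm hw => ?_⟩
    rw [hres]
    exact hφ w m hm hpm hw
  obtain ⟨F, hF, -, hinv⟩ := hcont
  haveI := hF
  have h1 : h 1 = 0 := by
    have := hadd 1 1
    rw [mul_one] at this
    exact left_eq_add.mp this
  obtain ⟨m, hm, hlev⟩ := h36n_exists_level h34lf_lfTeich (⊥ : LF p) F
  -- `h` vanishes on `G_{Kur ⊥ m}`
  have hvan : ∀ t ∈ GK (Kur (⊥ : LF p) m), h t = 0 := by
    intro t ht
    obtain ⟨i, hi, hmem⟩ := hlev t ht
    have hiI : i ∈ inertia p := (h89d0_inertiaIffRoots p i).2 hi.2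
    have e : t = i * (i⁻¹ * t) := by group
    rw [e, hadd, hI i hiI, zero_add]
    have := hinv 1 (h96g_mem_GK_bot p 1) (i⁻¹ * t) hmem
    rw [one_mul] at this
    rw [this, h1]
  have hpow : ∀ j : ℕ, h (φ ^ j) = 0 := by
    intro j
    induction j with
    | zero => rw [pow_zero, h1]
    | succ j ih => rw [pow_succ, hadd, ih, hφ0, add_zero]
  have hc : IsCyc (⊥ : LF p) (Kur (⊥ : LF p) m) m φ :=
    h66v_urCyc h34lf_lfTeich p (⊥ : LF p) m φ hm hFrob
  have hmem := h65_idx_mem hc (h96g_mem_GK_bot p σ)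
  have e : σ = φ ^ cycIdx (Kur (⊥ : LF p) m) φ m σ *
      ((φ ^ cycIdx (Kur (⊥ : LF p) m) φ m σ)⁻¹ * σ) := by group
  rw [e, hadd, hpow, hvan _ hmem, add_zero]

end Fermat.Agent.S56F
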