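import Fermat.Agent.S56F.IfaceKum

/-!
# S56 / LOC-p-FL, row FL-K1 (helper10): `KummerGen`

Kummer generators exist: Hilbert 90 by Lagrange resolvents.  `χ` is a continuous additive
character of `I_K` (trivial on `I_K ∩ G_F`, `F/ℚ_p` finite), `ζ ^ p = 1` fixed by `I_K`.  Let `R`
be the finite set of the restrictions `g|F : F → Ω` (`g ∈ I_K`); `χ` factors through `R`,
`β(θ) = ∑_{r ∈ R} ζ ^ (-χ r) r(θ)` satisfies `g β = ζ ^ (χ g) β`, and `β(θ) ≠ 0` for some `θ ∈ F`
by Dedekind's independence of characters.  (No normal closure is needed.)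
-/

set_option autoImplicit false
set_option linter.style.haveILetI false
set_option linter.unusedSectionVars false

open Fermat.Agent.PT.Loc

noncomputable section

namespace Fermat.Agent.S56F

/-- `ζ ^ p = 1`: the exponent only matters modulo `p`. -/
lemma h10g_pow_mod {A : Type} [Monoid A] {p : ℕ} (ζ : A) (hζ : ζ ^ p = 1) (n : ℕ) :
    ζ ^ (n % p) = ζ ^ n := by
  conv_rhs => rw [← Nat.div_add_mod n p]
  rw [pow_add, pow_mul, hζ, one_pow, one_mul]

lemma h10g_pow_val_add {A : Type} [Monoid A] {p : ℕ} [NeZero p] (ζ : A) (hζ : ζ ^ p = 1)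
    (a b : ZMod p) : ζ ^ (a + b).val = ζ ^ a.val * ζ ^ b.val := by
  rw [ZMod.val_add, h10g_pow_mod ζ hζ, pow_add]

/-- The restriction of `g` to `F`, as an embedding `F → Ω`. -/
def h10g_res {p : ℕ} [Fact p.Prime] (F : LF p) (g : Gq p) : F →ₐ[ℚ_[p]] Om p :=
  (g : Om p →ₐ[ℚ_[p]] Om p).comp F.val

@[simp] lemma h10g_res_apply {p : ℕ} [Fact p.Prime] (F : LF p) (g : Gq p) (θ : F) :
    h10g_res F g θ = g (θ : Om p) := rfl

lemma h10g_res_eq_iff {p : ℕ} [Fact p.Prime] (F : LF p) (g h : Gq p) :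
    h10g_res F g = h10g_res F h ↔ g⁻¹ * h ∈ GK F := by
  constructor
  · intro hgh
    rw [IntermediateField.mem_fixingSubgroup_iff]
    intro x hx
    have h1 : g x = h x := by
      have := DFunLike.congr_fun hgh ⟨x, hx⟩
      simpa using this
    rw [AlgEquiv.mul_apply, ← h1]
    change g⁻¹ (g x) = x
    rw [← AlgEquiv.mul_apply, inv_mul_cancel, AlgEquiv.one_apply]
  · intro hgh
    rw [IntermediateField.mem_fixingSubgroup_iff] at hgh
    ext θ
    have h1 := hgh (θ : Om p) θ.2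
    rw [AlgEquiv.mul_apply] at h1
    have h2 : g (g⁻¹ (h (θ : Om p))) = g (θ : Om p) := by rw [h1]
    rw [← AlgEquiv.mul_apply, mul_inv_cancel, AlgEquiv.one_apply] at h2
    simp only [h10g_res_apply]
    exact h2.symm

/-- **FL-K1.** -/
theorem h10g_kummerGen : KummerGen := by
  intro p _ π ζ hζ hfix χ hχ
  obtain ⟨F, hFfin, hF⟩ := hχ.cont
  classical
  haveI : FiniteDimensional ℚ_[p] F := hFfin
  haveI : Fintype (F →ₐ[ℚ_[p]] Om p) := Fintype.ofFinite _
  have hζ0 : ζ ≠ 0 := by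
    rintro rfl
    have hp : p ≠ 0 := (Fact.out : p.Prime).ne_zero
    rw [zero_pow hp] at hζ
    exact zero_ne_one hζ
  -- `χ 1 = 0`, `χ g⁻¹ = - χ g`
  have hχ1 : χ 1 = 0 := by
    have h := hχ.add 1 (IK p π).one_mem 1 (IK p π).one_mem
    rw [mul_one] at h
    have : χ 1 + 0 = χ 1 + χ 1 := by rw [add_zero]; exact h
    exact (add_left_cancel this).symm
  have hχinv : ∀ g ∈ IK p π, χ g⁻¹ = - χ g := by
    intro g hg
    have h := hχ.add g hg g⁻¹ ((IK p π).inv_mem hg)
    rw [mul_inv_cancel, hχ1] at h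
    exact (neg_eq_of_add_eq_zero_right h.symm).symm
  -- `χ` factors through the restrictions
  have hwd : ∀ g ∈ IK p π, ∀ h ∈ IK p π, h10g_res F g = h10g_res F h → χ g = χ h := by
    intro g hg h hh hgh
    have h1 : g⁻¹ * h ∈ GK F := (h10g_res_eq_iff F g h).mp hgh
    have h2 := hF (g⁻¹ * h) ((IK p π).mul_mem ((IK p π).inv_mem hg) hh) h1
    rw [hχ.add g⁻¹ ((IK p π).inv_mem hg) h hh, hχinv g hg] at h2
    have : χ h = χ g := by
      have := congrArg (fun t => χ g + t) h2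
      simpa using this
    exact this.symm
  -- the set of restrictions and the induced character
  let R : Finset (F →ₐ[ℚ_[p]] Om p) :=
    Finset.univ.filter (fun r => ∃ g, g ∈ IK p π ∧ h10g_res F g = r)
  have hR : ∀ r, r ∈ R ↔ ∃ g, g ∈ IK p π ∧ h10g_res F g = r := by
    intro r
    simp [R]
  let χ' : (F →ₐ[ℚ_[p]] Om p) → ZMod p := fun r =>
    if h : ∃ g, g ∈ IK p π ∧ h10g_res F g = r then χ (Classical.choose h) else 0
  have hχ' : ∀ g ∈ IK p π, χ' (h10g_res F g) = χ g := by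
    intro g hg
    have h : ∃ g', g' ∈ IK p π ∧ h10g_res F g' = h10g_res F g := ⟨g, hg, rfl⟩
    simp only [χ', dif_pos h]
    exact hwd _ (Classical.choose_spec h).1 g hg (Classical.choose_spec h).2
  -- the resolvent
  let β : F → Om p := fun θ => ∑ r ∈ R, ζ ^ (- χ' r).val * r θ
  -- composition with `h`
  have hcomp : ∀ (h g : Gq p), (h : Om p →ₐ[ℚ_[p]] Om p).comp (h10g_res F g)
      = h10g_res F (h * g) := by
    intro h g
    ext θ
    rfl
  have hequiv : ∀ h ∈ IK p π, ∀ θ : F, h (β θ) = ζ ^ (χ h).val * β θ := by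
    intro h hh θ
    have hfixpow : ∀ n : ℕ, h (ζ ^ n) = ζ ^ n := by
      intro n
      rw [map_pow, hfix h hh]
    change h (∑ r ∈ R, ζ ^ (- χ' r).val * r θ) = ζ ^ (χ h).val * ∑ r ∈ R, ζ ^ (- χ' r).val * r θ
    rw [map_sum, Finset.mul_sum]
    refine Finset.sum_nbij' (fun r => (h : Om p →ₐ[ℚ_[p]] Om p).comp r)
      (fun r => ((h⁻¹ : Gq p) : Om p →ₐ[ℚ_[p]] Om p).comp r) ?_ ?_ ?_ ?_ ?_
    · intro r hr
      obtain ⟨g, hg, rfl⟩ := (hR r).mp hr
      rw [hcomp]
      exact (hR _).mpr ⟨h * g, (IK p π).mul_mem hh hg, rfl⟩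
    · intro r hr
      obtain ⟨g, hg, rfl⟩ := (hR r).mp hr
      rw [hcomp]
      exact (hR _).mpr ⟨h⁻¹ * g, (IK p π).mul_mem ((IK p π).inv_mem hh) hg, rfl⟩
    · intro r hr
      obtain ⟨g, hg, rfl⟩ := (hR r).mp hr
      rw [hcomp, hcomp, inv_mul_cancel_left]
    · intro r hr
      obtain ⟨g, hg, rfl⟩ := (hR r).mp hr
      rw [hcomp, hcomp, mul_inv_cancel_left]
    · intro r hr
      obtain ⟨g, hg, rfl⟩ := (hR r).mp hr
      rw [hcomp, hχ' g hg, hχ' (h * g) ((IK p π).mul_mem hh hg), hχ.add h hh g hg, map_mul,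
        hfixpow, ← mul_assoc, ← h10g_pow_val_add ζ hζ]
      have e1 : χ h + -(χ h + χ g) = - χ g := by ring
      rw [e1]
      rfl
  -- non-vanishing
  have hne : ∃ θ : F, β θ ≠ 0 := by
    by_contra hcon
    push Not at hcon
    have hli := linearIndependent_monoidHom F (Om p)
    rw [linearIndependent_iff'] at hli
    let ι : (F →ₐ[ℚ_[p]] Om p) → (F →* Om p) := fun r => (r : F →+* Om p).toMonoidHom
    have hι : Function.Injective ι := by
      intro r r' hrr
      ext θ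
      exact DFunLike.congr_fun hrr θ
    let c : (F →* Om p) → Om p := fun f =>
      if h : ∃ r, r ∈ R ∧ ι r = f then ζ ^ (- χ' (Classical.choose h)).val else 0
    have hc : ∀ r ∈ R, c (ι r) = ζ ^ (- χ' r).val := by
      intro r hr
      have h : ∃ r', r' ∈ R ∧ ι r' = ι r := ⟨r, hr, rfl⟩
      simp only [c, dif_pos h]
      rw [hι (Classical.choose_spec h).2]
    have hsum : ∑ f ∈ R.image ι, c f • (f : F → Om p) = 0 := by
      rw [Finset.sum_image (fun r _ r' _ h => hι h)]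
      funext θ
      rw [Finset.sum_apply]
      have := hcon θ
      change ∑ r ∈ R, ζ ^ (- χ' r).val * r θ = 0 at this
      rw [Pi.zero_apply, ← this]
      refine Finset.sum_congr rfl (fun r hr => ?_)
      rw [hc r hr]
      rfl
    have h1 : h10g_res F 1 ∈ R := (hR _).mpr ⟨1, (IK p π).one_mem, rfl⟩
    have h2 := hli (R.image ι) c hsum (ι (h10g_res F 1)) (Finset.mem_image_of_mem ι h1)
    rw [hc _ h1] at h2
    exact pow_ne_zero _ hζ0 h2
  obtain ⟨θ, hθ⟩ := hne
  exact ⟨β θ, hθ, fun g hg => hequiv g hg θ⟩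

end Fermat.Agent.S56F
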