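import Fermat.Agent.S56F.IfaceKum
import Fermat.Agent.S56F.FLD7_helper45
import Fermat.Agent.S56F.FLD0_helper89

/-!
# S56 / LOC-p-FL, leaf FL-K2 (helper83, prefix `h83k_`): `h83k_unitNF : UnitNF`

`b ≠ 0` fixed by `I_K`, `K = ℚ_p^ur(π)`: `b = π ^ Z * v` with `Z : ℤ` and `v` a unit fixed by
`I_K` (`h45g_tameDiscrete` applied to `b` or `b⁻¹`); `v ≡ w mod 𝔪` for a root of unity `w` of
order `m₀` prime to `p` (`h34lf_lfTeich`), `w = w' ^ p` with `w' = w ^ a`, `a p ≡ 1 mod m₀`;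
`w, w'` are fixed by inertia (`h89d0_fix_of_mem_inertia`).  With `Z = p Q + m`, `0 ≤ m < p`:
`c = π ^ Q * w'`, `u = v / w`.
-/

set_option autoImplicit false

open Fermat.Agent.PT.Loc Polynomial

noncomputable section

namespace Fermat.Agent.S56F

/-- a nonzero element fixed by `Γ` is `ϖ ^ Z * v`, `Z : ℤ`, `v` a unit fixed by `Γ`. -/
theorem h83k_zpow_unit {p : ℕ} [Fact p.Prime] {Γ : Subgroup (Gq p)} {ϖ : Om p}
    (hD : IsDiscrete p Γ ϖ) (b : Om p) (hb : b ≠ 0) (hfix : ∀ g ∈ Γ, g b = b) :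
    ∃ (Z : ℤ) (v : Om p), ‖v‖ = 1 ∧ (∀ g ∈ Γ, g v = v) ∧ b = ϖ ^ Z * v := by
  obtain ⟨-, -, hϖ0, hdisc⟩ := hD
  by_cases hle : ‖b‖ ≤ 1
  · obtain ⟨N, u, hu, hu1, hbu⟩ := hdisc b ⟨hle, hfix⟩ hb
    exact ⟨(N : ℤ), u, hu1, hu.2, by rw [zpow_natCast]; exact hbu⟩
  · have hlt : 1 < ‖b‖ := lt_of_not_ge hle
    have hinv : ‖b⁻¹‖ ≤ 1 := by
      rw [norm_inv]
      exact inv_le_one_of_one_le₀ hlt.le
    have hfix' : ∀ g ∈ Γ, g b⁻¹ = b⁻¹ := fun g hg => by rw [map_inv₀, hfix g hg]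
    obtain ⟨N, u, hu, hu1, hbu⟩ := hdisc b⁻¹ ⟨hinv, hfix'⟩ (inv_ne_zero hb)
    have hu0 : u ≠ 0 := by
      rintro rfl
      rw [norm_zero] at hu1
      exact zero_ne_one hu1
    refine ⟨-(N : ℤ), u⁻¹, by rw [norm_inv, hu1, inv_one], fun g hg => by
      rw [map_inv₀, hu.2 g hg], ?_⟩
    have : b = (ϖ ^ N * u)⁻¹ := by rw [← hbu, inv_inv]
    rw [this, mul_inv, zpow_neg, zpow_natCast]

/-- a `p`-th root of a root of unity of order prime to `p`. -/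
theorem h83k_root {p : ℕ} [Fact p.Prime] (w : Om p) (m₀ : ℕ) (hm0 : 0 < m₀) (hpm : ¬ p ∣ m₀)
    (hw : w ^ m₀ = 1) : ∃ w' : Om p, w' ^ m₀ = 1 ∧ w' ^ p = w := by
  have hp : p.Prime := Fact.out
  have hcop : Nat.Coprime p m₀ := (Nat.Prime.coprime_iff_not_dvd hp).2 hpm
  by_cases h1 : m₀ = 1
  · subst h1
    rw [pow_one] at hw
    exact ⟨1, one_pow _, by rw [one_pow, hw]⟩
  · have hm1 : 1 < m₀ := by omega
    obtain ⟨a, -, ha⟩ := Nat.exists_mul_mod_eq_one_of_coprime hcop hm1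
    refine ⟨w ^ a, by rw [← pow_mul, mul_comm, pow_mul, hw, one_pow], ?_⟩
    have h2 : p * a = m₀ * (p * a / m₀) + 1 := by
      have := Nat.div_add_mod (p * a) m₀
      omega
    rw [← pow_mul, mul_comm a p, h2, pow_succ, pow_mul, hw, one_pow, one_mul]

/-- **FL-K2.**  The trivial normal form `b = π ^ m * c ^ p * u`. -/
theorem h83k_unitNF : UnitNF := by
  intro p _ n hn hpn π hπ b hb hfix
  have hp : p.Prime := Fact.out
  have hD : IsDiscrete p (IK p π) π :=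
    h45g_tameDiscrete p n hn hpn π hπ (IK p π) (fun σ => mem_IK)
  have hπ0 : π ≠ 0 := hD.2.2.1
  have hπfix : ∀ g ∈ IK p π, g π = π := fun g hg => (mem_IK.1 hg).2
  obtain ⟨Z, v, hv1, hvfix, hbv⟩ := h83k_zpow_unit hD b hb hfix
  -- the Teichmüller representative of `v`
  have hfd : FiniteDimensional ℚ_[p] (IntermediateField.adjoin ℚ_[p] ({v} : Set (Om p))) :=
    h89d0_finiteDimensional_adjoin _ (Set.toFinite _)
  obtain ⟨-, -, -, hex, -⟩ :=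
    h34lf_lfTeich p (IntermediateField.adjoin ℚ_[p] ({v} : Set (Om p)))
  obtain ⟨w, hw, hvw⟩ := hex v (IntermediateField.subset_adjoin _ _ (by simp)) hv1
  obtain ⟨-, m₀, hm0, hpm, hwm⟩ := hw
  have hw1 : ‖w‖ = 1 := h89d0_norm_of_pow_eq_one hm0 hwm
  have hw0 : w ≠ 0 := by
    rintro rfl
    rw [norm_zero] at hw1
    exact zero_ne_one hw1
  obtain ⟨w', hw'm, hw'p⟩ := h83k_root w m₀ hm0 hpm hwm
  have hw'0 : w' ≠ 0 := by
    rintro rfl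
    rw [zero_pow hp.ne_zero] at hw'p
    exact hw0 hw'p.symm
  have hwfix : ∀ g ∈ IK p π, g w = w := fun g hg =>
    h89d0_fix_of_mem_inertia (mem_IK.1 hg).1 w m₀ hm0 hpm hwm
  have hw'fix : ∀ g ∈ IK p π, g w' = w' := fun g hg =>
    h89d0_fix_of_mem_inertia (mem_IK.1 hg).1 w' m₀ hm0 hpm hw'm
  -- euclidean division of the exponent
  have hpZ : (0 : ℤ) < (p : ℤ) := by exact_mod_cast hp.pos
  have hmod0 : 0 ≤ Z % (p : ℤ) := Int.emod_nonneg Z hpZ.ne'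
  have hmodlt : Z % (p : ℤ) < (p : ℤ) := Int.emod_lt_of_pos Z hpZ
  have hZ : Z = ((Z % (p : ℤ)).toNat : ℤ) + (Z / (p : ℤ)) * (p : ℤ) := by
    rw [Int.toNat_of_nonneg hmod0]
    have := Int.emod_add_mul_ediv Z (p : ℤ)
    linarith [mul_comm (p : ℤ) (Z / (p : ℤ))]
  refine ⟨(Z % (p : ℤ)).toNat, π ^ (Z / (p : ℤ)) * w', v * w⁻¹, ?_, ?_, ?_, ?_, ?_, ?_⟩
  · have : ((Z % (p : ℤ)).toNat : ℤ) < (p : ℤ) := by rw [Int.toNat_of_nonneg hmod0]; exact hmodlt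
    exact_mod_cast this
  · exact mul_ne_zero (zpow_ne_zero _ hπ0) hw'0
  · intro g hg
    rw [map_mul, map_zpow₀, hπfix g hg, hw'fix g hg]
  · intro g hg
    rw [map_mul, map_inv₀, hvfix g hg, hwfix g hg]
  · have : v * w⁻¹ - 1 = (v - w) * w⁻¹ := by
      field_simp
    rw [this, norm_mul, norm_inv, hw1, inv_one, mul_one]
    exact hvw
  · rw [hbv]
    conv_lhs => rw [hZ]
    rw [zpow_add₀ hπ0, zpow_natCast, mul_pow, ← zpow_natCast (π ^ (Z / (p : ℤ))) p, ← zpow_mul,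
      hw'p]
    field_simp

end Fermat.Agent.S56F
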