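import Fermat.Agent.S56F.IfaceKum
import Fermat.Agent.S56F.FLD7_helper45
import Fermat.Agent.S56F.FLC1_helper7

/-!
# S56 / LOC-p-FL, leaf FL-K3 (helper99): the conductor bound for Kummer classes of level `≤ 2`

`h99k_condBound : CondBound`.

Setting: `K = ℚ_p^ur(π)`, `π ^ n = p`, `p ∤ n`, `(p - 1) ∣ n`; `I_K = IK p π`; `χ : I_K → 𝔽_p` a
character with Kummer generator `β` (`g β = ζ ^ χ(g) β`), `β ^ p = π ^ m u`, `u ≡ 1`.

Proof.
* `h99k_decomp` (finite Galois theory by hand): if `χ ≠ 0` on `I_K`, every `z` fixed by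
  `ker χ` is `P(β)` for a polynomial `P` of degree `< p` with coefficients fixed by `I_K`
  (eigencomponents `z_i = p⁻¹ ∑_c ζ^(-ic) g_c z`, `a_i = z_i / β ^ i`).
* `h99k_terms_le` (ultrametric): if `‖w‖ ^ p = ‖π‖ ^ e`, `p ∤ e`, the non-zero terms of
  `P(w)` have pairwise distinct norms (norms of elements of `K` are in `‖π‖ ^ ℤ`, FL-D7),
  hence each term is bounded by `‖P(w)‖`.
* `h99k_eval_diff_le`: `‖P(w + δ) - P(w)‖ ≤ (‖δ‖ / ‖w‖) max ‖a_i w ^ i‖` for `‖δ‖ ≤ ‖w‖`.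
* `m ≠ 0`: `w = β`, `e = m`, `δ = (ζ ^ c - 1) β`, `‖g z - z‖ ≤ ‖ζ - 1‖ = ‖π‖ ^ (n/(p-1))`.
* `m = 0`: `‖u - 1‖ = ‖π‖ ^ j`, `j ∈ {1, 2}`; `w = y = β - 1`, `‖y‖ ^ p = ‖π‖ ^ j`
  (binomial expansion, `h99k_binom`), `P` replaced by `P(X + 1)` (`h99k_shift`),
  `δ = (ζ ^ c - 1) β`, `‖g z - z‖ ‖y‖ ≤ ‖ζ - 1‖`.
-/

set_option autoImplicit false
set_option linter.style.haveILetI false
set_option linter.unusedSectionVars false

open Fermat.Agent.PT.Loc Polynomial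

noncomputable section

namespace Fermat.Agent.S56F

variable {p : ℕ} [Fact p.Prime]

theorem h99k_norm_map (g : Gq p) (x : Om p) : ‖g x‖ = ‖x‖ :=
  congrArg NNReal.toReal (nnnorm_padicAlgCl_algEquiv p g x)

/-- The norm of a non-zero element of `K = ℚ_p^ur(π)` is an integral power of `‖π‖`. -/
theorem h99k_fixed_norm {n : ℕ} (hn : 0 < n) (hpn : ¬ p ∣ n) {π : Om p} (hπ : π ^ n = p)
    {a : Om p} (ha0 : a ≠ 0) (ha : ∀ g ∈ IK p π, g a = a) : ∃ k : ℤ, ‖a‖ = ‖π‖ ^ k := by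
  obtain ⟨-, -, -, hfac⟩ := h45g_tameDiscrete p n hn hpn π hπ (IK p π) (fun σ => Iff.rfl)
  by_cases h : ‖a‖ ≤ 1
  · obtain ⟨k, u, -, hu1, hk⟩ := hfac a ⟨h, ha⟩ ha0
    refine ⟨k, ?_⟩
    rw [hk, norm_mul, norm_pow, hu1, mul_one, zpow_natCast]
  · have h1 : ‖a⁻¹‖ ≤ 1 := by
      rw [norm_inv]
      exact inv_le_one_of_one_le₀ (not_le.mp h).le
    have h2 : ∀ g ∈ IK p π, g a⁻¹ = a⁻¹ := fun g hg => by rw [map_inv₀, ha g hg]
    obtain ⟨k, u, -, hu1, hk⟩ := hfac a⁻¹ ⟨h1, h2⟩ (inv_ne_zero ha0)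
    refine ⟨-(k : ℤ), ?_⟩
    have h3 : ‖a⁻¹‖ = ‖π‖ ^ k := by rw [hk, norm_mul, norm_pow, hu1, mul_one]
    rw [norm_inv] at h3
    rw [zpow_neg, zpow_natCast, ← h3, inv_inv]

theorem h99k_norm_pi {n : ℕ} (hn : 0 < n) {π : Om p} (hπ : π ^ n = p) :
    0 < ‖π‖ ∧ ‖π‖ < 1 := by
  have hp : p.Prime := Fact.out
  have h1 : ‖π‖ ^ n = (p : ℝ)⁻¹ := by rw [← norm_pow, hπ, h7g_norm_p]
  have h2 : (0 : ℝ) < (p : ℝ)⁻¹ := inv_pos.mpr (by exact_mod_cast hp.pos)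
  have h3 : ((p : ℝ))⁻¹ < 1 := inv_lt_one_of_one_lt₀ (by exact_mod_cast hp.one_lt)
  constructor
  · rcases (norm_nonneg π).eq_or_lt with h | h
    · rw [← h, zero_pow hn.ne'] at h1
      linarith
    · exact h
  · by_contra hge
    rw [not_lt] at hge
    have := one_le_pow₀ (n := n) hge
    linarith
/-- Terms with pairwise distinct norms: each term is bounded by the sum. -/
theorem h99k_term_le_sum (s : Finset ℕ) (f : ℕ → Om p)
    (hs : ∀ i ∈ s, ∀ j ∈ s, f i ≠ 0 → f j ≠ 0 → ‖f i‖ = ‖f j‖ → i = j) (i : ℕ) (hi : i ∈ s) :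
    ‖f i‖ ≤ ‖∑ j ∈ s, f j‖ := by
  classical
  by_cases h0 : f i = 0
  · rw [h0, norm_zero]; exact norm_nonneg _
  have h1 : ∑ j ∈ s, f j = ∑ j ∈ s.filter (fun j => f j ≠ 0), f j :=
    (Finset.sum_filter_ne_zero s).symm
  have h2 : Set.Pairwise (s.filter (fun j => f j ≠ 0) : Set ℕ) (fun i j ↦ ‖f i‖₊ ≠ ‖f j‖₊) := by
    intro a ha b hb hab heq
    rw [Finset.mem_coe, Finset.mem_filter] at ha hb
    exact hab (hs a ha.1 b hb.1 ha.2 hb.2 (congrArg NNReal.toReal heq))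
  have h3 := IsUltrametricDist.nnnorm_sum_eq_sup_of_pairwise_ne h2
  have h4 : ‖f i‖₊ ≤ ‖∑ j ∈ s, f j‖₊ := by
    rw [h1, h3]
    exact Finset.le_sup (f := fun j => ‖f j‖₊) (Finset.mem_filter.mpr ⟨hi, h0⟩)
  exact h4

/-- **Key lemma**: for a polynomial `P` of degree `< p` with coefficients in `K` and `w` with
`‖w‖ ^ p = ‖π‖ ^ e`, `p ∤ e`, every term of `P(w)` is bounded by `‖P(w)‖`. -/
theorem h99k_terms_le {n : ℕ} (hn : 0 < n) (hpn : ¬ p ∣ n) {π : Om p} (hπ : π ^ n = p)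
    (P : (Om p)[X]) (hdeg : P.natDegree < p)
    (hfix : ∀ g ∈ IK p π, ∀ i, g (P.coeff i) = P.coeff i)
    (w : Om p) (e : ℕ) (he : ¬ p ∣ e) (hw : ‖w‖ ^ p = ‖π‖ ^ e) (i : ℕ) :
    ‖P.coeff i * w ^ i‖ ≤ ‖P.eval w‖ := by
  have hp : p.Prime := Fact.out
  obtain ⟨hπ0, hπ1⟩ := h99k_norm_pi hn hπ
  by_cases hi : i < p
  swap
  · rw [Polynomial.coeff_eq_zero_of_natDegree_lt (lt_of_lt_of_le hdeg (not_lt.mp hi)), zero_mul,
      norm_zero]
    exact norm_nonneg _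
  rw [Polynomial.eval_eq_sum_range' hdeg]
  refine h99k_term_le_sum (Finset.range p) (fun j => P.coeff j * w ^ j) ?_ i
    (Finset.mem_range.mpr hi)
  intro a ha b hb ha0 hb0 hab
  rw [Finset.mem_range] at ha hb
  have hca : P.coeff a ≠ 0 := left_ne_zero_of_mul ha0
  have hcb : P.coeff b ≠ 0 := left_ne_zero_of_mul hb0
  obtain ⟨ka, hka⟩ := h99k_fixed_norm hn hpn hπ hca (fun g hg => hfix g hg a)
  obtain ⟨kb, hkb⟩ := h99k_fixed_norm hn hpn hπ hcb (fun g hg => hfix g hg b)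
  have key : ∀ (c : ℕ) (k : ℤ), ‖P.coeff c‖ = ‖π‖ ^ k →
      ‖P.coeff c * w ^ c‖ ^ p = ‖π‖ ^ (k * p + (e * c : ℕ)) := by
    intro c k hk
    rw [norm_mul, norm_pow, mul_pow, hk, ← pow_mul, mul_comm c p, pow_mul, hw, ← pow_mul,
      zpow_add₀ hπ0.ne', zpow_mul, zpow_natCast, zpow_natCast]
  have h1 : ‖π‖ ^ (ka * p + (e * a : ℕ)) = ‖π‖ ^ (kb * p + (e * b : ℕ)) := by
    rw [← key a ka hka, ← key b kb hkb, hab]
  have h2 : ka * p + (e * a : ℕ) = kb * p + (e * b : ℕ) :=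
    zpow_right_injective₀ hπ0 hπ1.ne h1
  -- `p ∣ e * (a - b)`
  have h3 : (p : ℤ) ∣ (e : ℤ) * ((a : ℤ) - b) := by
    refine ⟨kb - ka, ?_⟩
    push_cast at h2
    linear_combination h2
  have h4 : (p : ℤ) ∣ (a : ℤ) - b := by
    rcases (Nat.prime_iff_prime_int.mp hp).dvd_or_dvd h3 with h | h
    · exact absurd (Int.natCast_dvd_natCast.mp h) he
    · exact h
  obtain ⟨t, ht⟩ := h4
  have h5 : t = 0 := by
    by_contra ht0
    have h6 : (1 : ℤ) ≤ |t| := Int.one_le_abs ht0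
    have h7 : |(a : ℤ) - b| = p * |t| := by rw [ht, abs_mul, Nat.abs_cast]
    have h8 : |(a : ℤ) - b| < p := by
      rw [abs_lt]
      constructor <;> omega
    have h9 : (p : ℤ) * 1 ≤ p * |t| := mul_le_mul_of_nonneg_left h6 (by positivity)
    omega
  rw [h5, mul_zero] at ht
  omega

/-- `‖(w + δ) ^ i - w ^ i‖ ≤ (‖δ‖ / ‖w‖) ‖w‖ ^ i` for `‖δ‖ ≤ ‖w‖`. -/
theorem h99k_pow_diff_le (w δ : Om p) (hδ : ‖δ‖ ≤ ‖w‖) (i : ℕ) :
    ‖(w + δ) ^ i - w ^ i‖ * ‖w‖ ≤ ‖δ‖ * ‖w‖ ^ i := by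
  rcases i with _ | k
  · simp only [pow_zero, sub_self, norm_zero, zero_mul, mul_one]
    exact norm_nonneg _
  have h1 : ‖w + δ‖ ≤ ‖w‖ :=
    (IsUltrametricDist.norm_add_le_max _ _).trans (max_le le_rfl hδ)
  have h2 : (w + δ) ^ (k + 1) - w ^ (k + 1) =
      (∑ j ∈ Finset.range (k + 1), (w + δ) ^ j * w ^ (k + 1 - 1 - j)) * δ := by
    have := geom_sum₂_mul (w + δ) w (k + 1)
    rw [← this]
    ring
  have h3 : ‖∑ j ∈ Finset.range (k + 1), (w + δ) ^ j * w ^ (k + 1 - 1 - j)‖ ≤ ‖w‖ ^ k := by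
    refine h7g_norm_sum_le _ _ (pow_nonneg (norm_nonneg _) _) fun j hj => ?_
    rw [Finset.mem_range] at hj
    rw [norm_mul, norm_pow, norm_pow]
    have h4 : k = j + (k + 1 - 1 - j) := by omega
    calc ‖w + δ‖ ^ j * ‖w‖ ^ (k + 1 - 1 - j) ≤ ‖w‖ ^ j * ‖w‖ ^ (k + 1 - 1 - j) :=
          mul_le_mul_of_nonneg_right (pow_le_pow_left₀ (norm_nonneg _) h1 j)
            (pow_nonneg (norm_nonneg _) _)
      _ = ‖w‖ ^ k := by rw [← pow_add, ← h4]
  rw [h2, norm_mul]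
  calc ‖∑ j ∈ Finset.range (k + 1), (w + δ) ^ j * w ^ (k + 1 - 1 - j)‖ * ‖δ‖ * ‖w‖
      ≤ ‖w‖ ^ k * ‖δ‖ * ‖w‖ :=
        mul_le_mul_of_nonneg_right (mul_le_mul_of_nonneg_right h3 (norm_nonneg _))
          (norm_nonneg _)
    _ = ‖δ‖ * ‖w‖ ^ (k + 1) := by ring

/-- `‖P(w + δ) - P(w)‖ ≤ (‖δ‖ / ‖w‖) B` if all terms of `P(w)` are bounded by `B`. -/
theorem h99k_eval_diff_le (P : (Om p)[X]) (w δ : Om p) (hδ : ‖δ‖ ≤ ‖w‖) (B : ℝ)
    (hB : ∀ i, ‖P.coeff i * w ^ i‖ ≤ B) :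
    ‖P.eval (w + δ) - P.eval w‖ * ‖w‖ ≤ ‖δ‖ * B := by
  have hB0 : 0 ≤ B := (norm_nonneg _).trans (hB 0)
  rcases (norm_nonneg w).eq_or_lt with hw | hw
  · rw [← hw, mul_zero]
    exact mul_nonneg (norm_nonneg _) hB0
  have h1 : P.eval (w + δ) - P.eval w =
      ∑ i ∈ Finset.range (P.natDegree + 1), P.coeff i * ((w + δ) ^ i - w ^ i) := by
    rw [Polynomial.eval_eq_sum_range, Polynomial.eval_eq_sum_range, ← Finset.sum_sub_distrib]
    exact Finset.sum_congr rfl fun i _ => by ring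
  have h2 : ‖P.eval (w + δ) - P.eval w‖ ≤ ‖δ‖ * B / ‖w‖ := by
    rw [h1]
    refine h7g_norm_sum_le _ _ (div_nonneg (mul_nonneg (norm_nonneg _) hB0) hw.le) fun i _ => ?_
    rw [le_div_iff₀ hw, norm_mul, mul_assoc]
    have h3 := hB i
    rw [norm_mul, norm_pow] at h3
    calc ‖P.coeff i‖ * (‖(w + δ) ^ i - w ^ i‖ * ‖w‖)
        ≤ ‖P.coeff i‖ * (‖δ‖ * ‖w‖ ^ i) :=
          mul_le_mul_of_nonneg_left (h99k_pow_diff_le w δ hδ i) (norm_nonneg _)
      _ = ‖δ‖ * (‖P.coeff i‖ * ‖w‖ ^ i) := by ring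
      _ ≤ ‖δ‖ * B := mul_le_mul_of_nonneg_left h3 (norm_nonneg _)
  rwa [le_div_iff₀ hw] at h2

/-- Galois acts on values of polynomials with fixed coefficients. -/
theorem h99k_map_eval (g : Gq p) (P : (Om p)[X]) (hfix : ∀ i, g (P.coeff i) = P.coeff i)
    (w : Om p) : g (P.eval w) = P.eval (g w) := by
  rw [Polynomial.eval_eq_sum_range, Polynomial.eval_eq_sum_range, map_sum]
  refine Finset.sum_congr rfl fun i _ => ?_
  rw [map_mul, map_pow, hfix i]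

/-- The shift `P(X + 1)`. -/
theorem h99k_shift (P : (Om p)[X]) :
    (P.comp (X + C 1)).natDegree ≤ P.natDegree ∧
    (∀ g : Gq p, (∀ i, g (P.coeff i) = P.coeff i) →
      ∀ i, g ((P.comp (X + C 1)).coeff i) = (P.comp (X + C 1)).coeff i) ∧
    ∀ y : Om p, (P.comp (X + C 1)).eval y = P.eval (y + 1) := by
  refine ⟨?_, ?_, ?_⟩
  · rw [Polynomial.natDegree_comp, Polynomial.natDegree_X_add_C, mul_one]
  · intro g hg i
    have h1 : P.map (g : Om p →+* Om p) = P := by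
      ext j
      rw [Polynomial.coeff_map]
      exact hg j
    have h2 : (P.comp (X + C 1)).map (g : Om p →+* Om p) = P.comp (X + C 1) := by
      rw [Polynomial.map_comp, h1]
      simp
    have h3 := congrArg (fun Q => Q.coeff i) h2
    simp only [Polynomial.coeff_map] at h3
    exact h3
  · intro y
    simp [Polynomial.eval_comp]

section Chi

variable {π : Om p} {χ : Gq p → ZMod p}
  (hadd : ∀ g ∈ IK p π, ∀ h ∈ IK p π, χ (g * h) = χ g + χ h)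

include hadd

theorem h99k_chi_one : χ 1 = 0 := by
  have h := hadd 1 (IK p π).one_mem 1 (IK p π).one_mem
  rw [mul_one] at h
  exact add_eq_left.mp h.symm

theorem h99k_chi_inv {g : Gq p} (hg : g ∈ IK p π) : χ g⁻¹ = - χ g := by
  have h := hadd g⁻¹ ((IK p π).inv_mem hg) g hg
  rw [inv_mul_cancel, h99k_chi_one hadd] at h
  exact eq_neg_of_add_eq_zero_left h.symm

theorem h99k_chi_pow {g : Gq p} (hg : g ∈ IK p π) (k : ℕ) : χ (g ^ k) = (k : ZMod p) * χ g := by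
  induction k with
  | zero => simp [h99k_chi_one hadd]
  | succ k ih =>
    rw [pow_succ, hadd _ ((IK p π).pow_mem hg k) _ hg, ih]
    push_cast
    ring

theorem h99k_chi_surj (hχ : ∃ g ∈ IK p π, χ g ≠ 0) (c : ZMod p) : ∃ g ∈ IK p π, χ g = c := by
  have hp : p.Prime := Fact.out
  haveI : NeZero p := ⟨hp.ne_zero⟩
  obtain ⟨g1, hg1, hne⟩ := hχ
  refine ⟨g1 ^ (c * (χ g1)⁻¹).val, (IK p π).pow_mem hg1 _, ?_⟩
  rw [h99k_chi_pow hadd hg1, ZMod.natCast_zmod_val, mul_assoc, inv_mul_cancel₀ hne, mul_one]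

end Chi

/-- the character `c ↦ ζ ^ c` of `ZMod p`. -/
def h99k_E (ζ : Om p) (c : ZMod p) : Om p := ζ ^ c.val

theorem h99k_E_add {ζ : Om p} (hζp : ζ ^ p = 1) (c d : ZMod p) :
    h99k_E ζ (c + d) = h99k_E ζ c * h99k_E ζ d := by
  have hp : p.Prime := Fact.out
  haveI : NeZero p := ⟨hp.ne_zero⟩
  unfold h99k_E
  rw [ZMod.val_add, ← pow_add, ← pow_eq_pow_mod _ hζp]

theorem h99k_E_mul {ζ : Om p} (hζp : ζ ^ p = 1) (c d : ZMod p) :
    h99k_E ζ (c * d) = h99k_E ζ c ^ d.val := by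
  have hp : p.Prime := Fact.out
  haveI : NeZero p := ⟨hp.ne_zero⟩
  unfold h99k_E
  rw [ZMod.val_mul, ← pow_mul, ← pow_eq_pow_mod _ hζp]

theorem h99k_E_zero (ζ : Om p) : h99k_E ζ 0 = 1 := by
  unfold h99k_E
  rw [ZMod.val_zero, pow_zero]

theorem h99k_E_one (ζ : Om p) : h99k_E ζ 1 = ζ := by
  have hp : p.Prime := Fact.out
  haveI : Fact (1 < p) := ⟨hp.one_lt⟩
  unfold h99k_E
  rw [ZMod.val_one, pow_one]

theorem h99k_E_ne_zero {ζ : Om p} (hζp : ζ ^ p = 1) (c : ZMod p) : h99k_E ζ c ≠ 0 := by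
  have hp : p.Prime := Fact.out
  unfold h99k_E
  refine pow_ne_zero _ fun h0 => ?_
  rw [h0, zero_pow hp.ne_zero] at hζp
  exact zero_ne_one hζp

theorem h99k_E_ne_one {ζ : Om p} (hζp : ζ ^ p = 1) (hζ1 : ζ ≠ 1) {c : ZMod p} (hc : c ≠ 0) :
    h99k_E ζ c ≠ 1 := by
  have hp : p.Prime := Fact.out
  haveI : NeZero p := ⟨hp.ne_zero⟩
  unfold h99k_E
  intro h
  have h1 : orderOf ζ = p := orderOf_eq_prime hζp hζ1
  have h2 : orderOf ζ ∣ c.val := orderOf_dvd_of_pow_eq_one h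
  rw [h1] at h2
  have h3 : c.val < p := ZMod.val_lt c
  have h4 : c.val ≠ 0 := fun h0 => hc ((ZMod.val_eq_zero c).mp h0)
  exact h4 (Nat.eq_zero_of_dvd_of_lt h2 h3)

/-- orthogonality -/
theorem h99k_orth {ζ : Om p} (hζp : ζ ^ p = 1) (hζ1 : ζ ≠ 1) (d : ZMod p) :
    ∑ i : ZMod p, h99k_E ζ (i * d) = if d = 0 then (p : Om p) else 0 := by
  have hp : p.Prime := Fact.out
  haveI : NeZero p := ⟨hp.ne_zero⟩
  split_ifs with hd
  · subst hd
    simp only [mul_zero, h99k_E_zero, Finset.sum_const, Finset.card_univ, ZMod.card,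
      nsmul_eq_mul, mul_one]
  · have h1 : h99k_E ζ d * ∑ i : ZMod p, h99k_E ζ (i * d) = ∑ i : ZMod p, h99k_E ζ (i * d) := by
      rw [Finset.mul_sum]
      refine Fintype.sum_equiv (Equiv.addRight (1 : ZMod p)) _ _ fun i => ?_
      rw [← h99k_E_add hζp, Equiv.coe_addRight]
      congr 1
      ring
    have h2 : (h99k_E ζ d - 1) * ∑ i : ZMod p, h99k_E ζ (i * d) = 0 := by
      rw [sub_mul, h1, one_mul, sub_self]
    rcases mul_eq_zero.mp h2 with h | h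
    · exact absurd (sub_eq_zero.mp h) (h99k_E_ne_one hζp hζ1 hd)
    · exact h


/-- **Eigen-decomposition**: `z = P(β)` with `P` of degree `< p` over `K`. -/
theorem h99k_decomp {π ζ : Om p} (hζp : ζ ^ p = 1) (hζ1 : ζ ≠ 1)
    {χ : Gq p → ZMod p} (hadd : ∀ g ∈ IK p π, ∀ h ∈ IK p π, χ (g * h) = χ g + χ h)
    {β : Om p} (hβ0 : β ≠ 0) (hβ : ∀ g ∈ IK p π, g β = ζ ^ (χ g).val * β)
    {z : Om p} (hz : ∀ s ∈ IK p π, χ s = 0 → s z = z)
    (hχ : ∃ g ∈ IK p π, χ g ≠ 0) :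
    ∃ P : (Om p)[X], P.natDegree < p ∧ (∀ g ∈ IK p π, ∀ i, g (P.coeff i) = P.coeff i) ∧
      P.eval β = z := by
  classical
  have hp : p.Prime := Fact.out
  haveI : NeZero p := ⟨hp.ne_zero⟩
  have hp0 : ((p : ℕ) : Om p) ≠ 0 := by exact_mod_cast hp.ne_zero
  choose G hG hGχ using h99k_chi_surj hadd hχ
  have hβ' : ∀ g ∈ IK p π, g β = h99k_E ζ (χ g) * β := hβ
  -- `ζ` is fixed by `I_K`
  have hζfix : ∀ g ∈ IK p π, g ζ = ζ := by
    intro g hg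
    have h1 : (g * G 1) β = h99k_E ζ (χ g) * ζ * β := by
      rw [hβ' _ ((IK p π).mul_mem hg (hG 1)), hadd g hg _ (hG 1), hGχ, h99k_E_add hζp,
        h99k_E_one]
    have h2 : (g * G 1) β = g ζ * (h99k_E ζ (χ g) * β) := by
      rw [AlgEquiv.mul_apply, hβ' _ (hG 1), hGχ, h99k_E_one, map_mul, hβ' g hg]
    have h3 : g ζ * (h99k_E ζ (χ g) * β) = ζ * (h99k_E ζ (χ g) * β) := by
      rw [← h2, h1]; ring
    exact mul_right_cancel₀ (mul_ne_zero (h99k_E_ne_zero hζp _) hβ0) h3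
  have hEfix : ∀ g ∈ IK p π, ∀ c, g (h99k_E ζ c) = h99k_E ζ c := by
    intro g hg c
    unfold h99k_E
    rw [map_pow, hζfix g hg]
  -- the orbit of `z`
  have hZ : ∀ g ∈ IK p π, g z = G (χ g) z := by
    intro g hg
    have h1 : χ ((G (χ g))⁻¹ * g) = 0 := by
      rw [hadd _ ((IK p π).inv_mem (hG _)) g hg, h99k_chi_inv hadd (hG _), hGχ, neg_add_cancel]
    have h2 := hz _ ((IK p π).mul_mem ((IK p π).inv_mem (hG (χ g))) hg) h1
    rw [AlgEquiv.mul_apply] at h2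
    have h3 := congrArg (G (χ g)) h2
    rwa [← AlgEquiv.mul_apply, mul_inv_cancel, AlgEquiv.one_apply] at h3
  have hZact : ∀ h ∈ IK p π, ∀ c, h (G c z) = G (χ h + c) z := by
    intro h hh c
    rw [← AlgEquiv.mul_apply, hZ _ ((IK p π).mul_mem hh (hG c)), hadd h hh _ (hG c), hGχ]
  have hZ0 : G 0 z = z := by
    have := hZ 1 (IK p π).one_mem
    rw [AlgEquiv.one_apply, h99k_chi_one hadd] at this
    exact this.symm
  -- eigencomponents
  set zc : ZMod p → Om p := fun i =>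
    ((p : ℕ) : Om p)⁻¹ * ∑ c : ZMod p, h99k_E ζ (-(i * c)) * G c z with hzc
  have hzc_act : ∀ h ∈ IK p π, ∀ i, h (zc i) = h99k_E ζ (i * χ h) * zc i := by
    intro h hh i
    have key : ∑ c : ZMod p, h (h99k_E ζ (-(i * c))) * h (G c z) =
        h99k_E ζ (i * χ h) * ∑ c : ZMod p, h99k_E ζ (-(i * c)) * G c z := by
      rw [Finset.mul_sum]
      refine Fintype.sum_equiv (Equiv.addLeft (χ h))
        (fun c => h (h99k_E ζ (-(i * c))) * h (G c z))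
        (fun c => h99k_E ζ (i * χ h) * (h99k_E ζ (-(i * c)) * G c z)) fun c => ?_
      show h (h99k_E ζ (-(i * c))) * h (G c z) =
        h99k_E ζ (i * χ h) * (h99k_E ζ (-(i * (χ h + c))) * G (χ h + c) z)
      rw [hEfix h hh, hZact h hh, ← mul_assoc, ← h99k_E_add hζp]
      congr 2
      ring
    simp only [hzc, map_mul, map_inv₀, map_natCast, map_sum]
    rw [key]
    ring
  have hsum : ∑ i : ZMod p, zc i = z := by
    simp only [hzc]
    rw [← Finset.mul_sum Finset.univ _ (((p : ℕ) : Om p)⁻¹), Finset.sum_comm]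
    have h1 : ∀ c : ZMod p, ∑ i : ZMod p, h99k_E ζ (-(i * c)) * G c z =
        if c = 0 then ((p : ℕ) : Om p) * z else 0 := by
      intro c
      rw [← Finset.sum_mul]
      have h2 : ∀ i : ZMod p, h99k_E ζ (-(i * c)) = h99k_E ζ (i * (-c)) := fun i => by
        rw [mul_neg]
      simp only [h2]
      rw [h99k_orth hζp hζ1]
      by_cases hc : c = 0
      · subst hc
        rw [if_pos neg_zero, if_pos rfl, hZ0]
      · rw [if_neg (neg_ne_zero.mpr hc), if_neg hc, zero_mul]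
    simp only [h1]
    rw [Finset.sum_ite_eq' Finset.univ (0 : ZMod p), if_pos (Finset.mem_univ _),
      inv_mul_cancel_left₀ hp0]
  -- the coefficients
  set a : ZMod p → Om p := fun i => zc i / β ^ i.val with ha
  have ha_fix : ∀ h ∈ IK p π, ∀ i, h (a i) = a i := by
    intro h hh i
    simp only [ha]
    rw [map_div₀, map_pow, hzc_act h hh, hβ' h hh, mul_pow, ← h99k_E_mul hζp, mul_comm (χ h) i,
      mul_div_mul_left _ _ (h99k_E_ne_zero hζp _)]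
  refine ⟨∑ i : ZMod p, C (a i) * X ^ i.val, ?_, ?_, ?_⟩
  · have h1 : (∑ i : ZMod p, C (a i) * X ^ i.val : (Om p)[X]).natDegree ≤ p - 1 := by
      refine Polynomial.natDegree_sum_le_of_forall_le _ _ fun i _ => ?_
      refine (Polynomial.natDegree_C_mul_X_pow_le _ _).trans ?_
      have := ZMod.val_lt i
      omega
    have := hp.pos
    omega
  · intro g hg j
    simp only [Polynomial.finsetSum_coeff, Polynomial.coeff_C_mul_X_pow, map_sum]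
    refine Finset.sum_congr rfl fun i _ => ?_
    split_ifs
    · exact ha_fix g hg i
    · exact map_zero _
  · simp only [Polynomial.eval_finsetSum, Polynomial.eval_mul, Polynomial.eval_C,
      Polynomial.eval_pow, Polynomial.eval_X, ha]
    rw [← hsum]
    refine Finset.sum_congr rfl fun i _ => ?_
    rw [div_mul_cancel₀ _ (pow_ne_zero _ hβ0)]

theorem h99k_norm_eq_of_sub_lt {a b : Om p} (h : ‖a - b‖ < ‖b‖) : ‖a‖ = ‖b‖ := by
  have h1 : a = (a - b) + b := by ring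
  have h2 := IsUltrametricDist.norm_add_eq_max_of_norm_ne_norm h.ne
  rw [← h1] at h2
  rw [h2, max_eq_right h.le]

/-- binomial expansion with an integral remainder. -/
theorem h99k_binom (y : Om p) (hy : ‖y‖ ≤ 1) :
    ∃ r : Om p, ‖r‖ ≤ 1 ∧ (y + 1) ^ p = y ^ p + 1 + (p : Om p) * y * r := by
  have hp : p.Prime := Fact.out
  have hy' : y ∈ intOm p := ⟨hy, fun σ hσ => by
    rw [Subgroup.mem_bot] at hσ
    rw [hσ, AlgEquiv.one_apply]⟩
  obtain ⟨r, hr⟩ := exists_add_pow_prime_eq hp (⟨y, hy'⟩ : intOm p) 1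
  refine ⟨(r : Om p), r.2.1, ?_⟩
  have h1 := congrArg (fun x : intOm p => (x : Om p)) hr
  simpa using h1

theorem h99k_zeta_norm {n : ℕ} (hdvd : (p - 1) ∣ n) {π : Om p} (hπ : π ^ n = p)
    {ζ : Om p} (hζp : ζ ^ p = 1) (hζ1 : ζ ≠ 1) : ‖ζ - 1‖ = ‖π‖ ^ (n / (p - 1)) := by
  have hp : p.Prime := Fact.out
  have hp1 : p - 1 ≠ 0 := by
    have := hp.two_le
    omega
  have hprim : IsPrimitiveRoot ζ p := by
    have h1 : orderOf ζ = p := orderOf_eq_prime hζp hζ1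
    have h2 := IsPrimitiveRoot.orderOf ζ
    rwa [h1] at h2
  have h3 : ‖ζ - 1‖ ^ (p - 1) = ‖((p : ℕ) : Om p)‖ := h7g_norm_zeta_sub_one hprim
  have h4 : ‖((p : ℕ) : Om p)‖ = (‖π‖ ^ (n / (p - 1))) ^ (p - 1) := by
    rw [← pow_mul, Nat.div_mul_cancel hdvd, ← norm_pow, hπ]
  rw [h4] at h3
  exact (pow_left_inj₀ (norm_nonneg _) (pow_nonneg (norm_nonneg _) _) hp1).mp h3


theorem h99k_norm_sub_le_max (a b : Om p) : ‖a - b‖ ≤ max ‖a‖ ‖b‖ := by
  have h := IsUltrametricDist.norm_add_le_max a (-b)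
  rwa [norm_neg, ← sub_eq_add_neg] at h

/-- **FL-K3**: the conductor bound for Kummer classes of level `≤ 2`. -/
theorem h99k_condBound : CondBound := by
  intro p _ hp2 n hn hpn hdvd π hπ ζ hζp hζ1 χ hχ β u m hβ hm hu hu1 hβp hcase g hg z hz1 hz
  have hp : p.Prime := Fact.out
  have hp3 : 3 ≤ p := by
    have := hp.two_le
    omega
  obtain ⟨hπ0, hπ1⟩ := h99k_norm_pi hn hπ
  -- the trivial case
  by_cases hχ0 : ∀ s ∈ IK p π, χ s = 0
  · rw [hz g hg (hχ0 g hg), sub_self, norm_zero, zero_pow hp.ne_zero]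
    exact pow_nonneg hπ0.le _
  have hχ1 : ∃ s ∈ IK p π, χ s ≠ 0 := by
    by_contra h
    exact hχ0 fun s hs => by
      by_contra h2
      exact h ⟨s, hs, h2⟩
  -- arithmetic of the exponents
  obtain ⟨q, hq⟩ := hdvd
  have hq0 : 0 < q := by
    rcases Nat.eq_zero_or_pos q with h | h
    · rw [h, mul_zero] at hq
      omega
    · exact h
  have hnq : n / (p - 1) = q := by
    rw [hq]
    exact Nat.mul_div_cancel_left q (by omega)
  have hpq : p ≤ p * q := Nat.le_mul_of_pos_right p hq0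
  have hn2 : 2 ≤ n := by
    have h1 : (p - 1) * 1 ≤ (p - 1) * q := Nat.mul_le_mul_left _ hq0
    omega
  -- norms
  have hu0 : ‖u‖ = 1 := by
    have := h99k_norm_eq_of_sub_lt (a := u) (b := 1) (by rwa [norm_one])
    rwa [norm_one] at this
  have hπne : π ≠ 0 := norm_pos_iff.mp hπ0
  have hune : u ≠ 0 := by
    intro h
    rw [h, norm_zero] at hu0
    exact zero_ne_one hu0
  have hβ0 : β ≠ 0 := by
    intro h
    rw [h, zero_pow hp.ne_zero] at hβp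
    exact mul_ne_zero (pow_ne_zero _ hπne) hune hβp.symm
  have hnβ : ‖β‖ ^ p = ‖π‖ ^ m := by
    rw [← norm_pow, hβp, norm_mul, norm_pow, hu0, mul_one]
  have hζn : ‖ζ - 1‖ = ‖π‖ ^ q := by
    rw [← hnq]
    exact h99k_zeta_norm ⟨q, hq⟩ hπ hζp hζ1
  have hζ_norm : ‖ζ‖ = 1 := h7g_norm_root_of_unity hp.ne_zero hζp
  have hπq1 : ‖π‖ ^ q ≤ 1 := pow_le_one₀ hπ0.le hπ1.le
  -- the action of `g` on `β`
  set δ : Om p := (ζ ^ (χ g).val - 1) * β with hδ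
  have hgβ : g β = β + δ := by
    rw [hβ g hg, hδ]
    ring
  have hδn : ‖δ‖ ≤ ‖π‖ ^ q * ‖β‖ := by
    rw [hδ, norm_mul, ← hζn]
    exact mul_le_mul_of_nonneg_right (h7g_norm_pow_sub_one_le hζ_norm.le _) (norm_nonneg _)
  -- the decomposition
  obtain ⟨P, hdeg, hfix, hPz⟩ := h99k_decomp hζp hζ1 hχ.add hβ0 hβ hz hχ1
  -- final arithmetic
  have hfin : ∀ j : ℕ, j ≤ 2 → ‖π‖ ^ (p * q - j) ≤ ‖π‖ ^ (p * (n / (p - 1)) - 2) := by
    intro j hj
    rw [hnq]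
    exact pow_le_pow_of_le_one hπ0.le hπ1.le (by omega)
  by_cases hm0 : m = 0
  swap
  · -- CASE `m ≠ 0`
    have hpm : ¬ p ∣ m := fun h => by
      have := Nat.le_of_dvd (Nat.pos_of_ne_zero hm0) h
      omega
    have hterms : ∀ i, ‖P.coeff i * β ^ i‖ ≤ 1 := fun i =>
      (h99k_terms_le hn hpn hπ P hdeg hfix β m hpm hnβ i).trans (by rw [hPz]; exact hz1)
    have hδβ : ‖δ‖ ≤ ‖β‖ :=
      hδn.trans (by
        calc ‖π‖ ^ q * ‖β‖ ≤ 1 * ‖β‖ := mul_le_mul_of_nonneg_right hπq1 (norm_nonneg _)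
          _ = ‖β‖ := one_mul _)
    have hdiff := h99k_eval_diff_le P β δ hδβ 1 hterms
    have hgz : g z = P.eval (β + δ) := by
      rw [← hPz, h99k_map_eval g P (hfix g hg), hgβ]
    rw [← hgz, hPz, mul_one] at hdiff
    have h1 : ‖g z - z‖ * ‖β‖ ≤ ‖π‖ ^ q * ‖β‖ := hdiff.trans hδn
    have h2 : ‖g z - z‖ ≤ ‖π‖ ^ q := le_of_mul_le_mul_right h1 (norm_pos_iff.mpr hβ0)
    calc ‖g z - z‖ ^ p ≤ (‖π‖ ^ q) ^ p := pow_le_pow_left₀ (norm_nonneg _) h2 p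
      _ = ‖π‖ ^ (p * q - 0) := by rw [← pow_mul, Nat.sub_zero, mul_comm]
      _ ≤ ‖π‖ ^ (p * (n / (p - 1)) - 2) := hfin 0 (by omega)
  · -- CASE `m = 0`
    subst hm0
    rw [pow_zero, one_mul] at hβp
    rw [pow_zero] at hnβ
    have hu3 : ‖π‖ ^ 3 < ‖u - 1‖ := by
      rcases hcase with h | h
      · exact absurd rfl h
      · exact h
    have hu1ne : u - 1 ≠ 0 := by
      intro h
      rw [h, norm_zero] at hu3
      exact absurd hu3 (not_lt.mpr (pow_nonneg hπ0.le _))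
    obtain ⟨k, hk⟩ := h99k_fixed_norm hn hpn hπ hu1ne (fun s hs => by
      rw [map_sub, hu s hs, map_one])
    have hk0 : 0 < k := by
      have h1 : ‖π‖ ^ k < ‖π‖ ^ (0 : ℤ) := by rw [zpow_zero, ← hk]; exact hu1
      exact (zpow_lt_zpow_iff_right_of_lt_one₀ hπ0 hπ1).mp h1
    have hk3 : k < 3 := by
      have h1 : ‖π‖ ^ ((3 : ℕ) : ℤ) < ‖π‖ ^ k := by rw [zpow_natCast, ← hk]; exact hu3
      have := (zpow_lt_zpow_iff_right_of_lt_one₀ hπ0 hπ1).mp h1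
      exact_mod_cast this
    obtain ⟨j, rfl⟩ : ∃ j : ℕ, k = j := ⟨k.toNat, (Int.toNat_of_nonneg hk0.le).symm⟩
    rw [zpow_natCast] at hk
    have hj1 : 1 ≤ j := by omega
    have hj2 : j ≤ 2 := by omega
    have hβ1 : ‖β‖ = 1 := (pow_eq_one_iff_of_nonneg (norm_nonneg _) hp.ne_zero).mp hnβ
    -- `y = β - 1`
    set y : Om p := β - 1 with hy
    have hy1 : ‖y‖ ≤ 1 := by
      rw [hy]
      refine (h99k_norm_sub_le_max _ _).trans (max_le hβ1.le ?_)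
      rw [norm_one]
    obtain ⟨r, hr1, hr⟩ := h99k_binom y hy1
    have hyβ : y + 1 = β := by rw [hy]; ring
    rw [hyβ, hβp] at hr
    have hnp : ‖((p : ℕ) : Om p)‖ = ‖π‖ ^ n := by rw [← norm_pow, hπ]
    have hpyr : ‖((p : ℕ) : Om p) * y * r‖ ≤ ‖π‖ ^ n * ‖y‖ := by
      rw [norm_mul, norm_mul, hnp]
      calc ‖π‖ ^ n * ‖y‖ * ‖r‖ ≤ ‖π‖ ^ n * ‖y‖ * 1 :=
            mul_le_mul_of_nonneg_left hr1 (mul_nonneg (pow_nonneg hπ0.le _) (norm_nonneg _))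
        _ = ‖π‖ ^ n * ‖y‖ := mul_one _
    have hyp : y ^ p = (u - 1) - ((p : ℕ) : Om p) * y * r := by
      rw [hr]; ring
    have hπn1 : ‖π‖ ^ n < 1 := pow_lt_one₀ hπ0.le hπ1 hn.ne'
    have hylt : ‖y‖ < 1 := by
      by_contra hge
      have hy_eq : ‖y‖ = 1 := le_antisymm hy1 (not_lt.mp hge)
      have h1 : ‖y ^ p‖ = 1 := by rw [norm_pow, hy_eq, one_pow]
      have h2 : ‖y ^ p‖ < 1 := by
        rw [hyp]
        refine lt_of_le_of_lt (h99k_norm_sub_le_max _ _) (max_lt hu1 ?_)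
        refine lt_of_le_of_lt hpyr ?_
        rw [hy_eq, mul_one]
        exact hπn1
      linarith
    have hπnj : ‖π‖ ^ n ≤ ‖π‖ ^ j := pow_le_pow_of_le_one hπ0.le hπ1.le (by omega)
    have hπj0 : 0 < ‖π‖ ^ j := pow_pos hπ0 j
    have hlt : ‖((p : ℕ) : Om p) * y * r‖ < ‖u - 1‖ := by
      rw [hk]
      refine lt_of_le_of_lt hpyr ?_
      calc ‖π‖ ^ n * ‖y‖ ≤ ‖π‖ ^ j * ‖y‖ := mul_le_mul_of_nonneg_right hπnj (norm_nonneg _)
        _ < ‖π‖ ^ j * 1 := mul_lt_mul_of_pos_left hylt hπj0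
        _ = ‖π‖ ^ j := mul_one _
    have hny : ‖y‖ ^ p = ‖π‖ ^ j := by
      rw [← norm_pow, ← hk]
      refine h99k_norm_eq_of_sub_lt ?_
      have h1 : y ^ p - (u - 1) = -(((p : ℕ) : Om p) * y * r) := by rw [hyp]; ring
      rw [h1, norm_neg]
      exact hlt
    have hpj : ¬ p ∣ j := fun h => by
      have := Nat.le_of_dvd (by omega) h
      omega
    -- the shifted polynomial
    obtain ⟨hQdeg, hQfix, hQeval⟩ := h99k_shift P
    set Q : (Om p)[X] := P.comp (X + C 1) with hQ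
    have hQz : Q.eval y = z := by rw [hQeval, hyβ, hPz]
    have hterms : ∀ i, ‖Q.coeff i * y ^ i‖ ≤ 1 := fun i =>
      (h99k_terms_le hn hpn hπ Q (lt_of_le_of_lt hQdeg hdeg)
        (fun s hs => hQfix s (hfix s hs)) y j hpj hny i).trans (by rw [hQz]; exact hz1)
    have hgy : g y = y + δ := by
      rw [hy, map_sub, map_one, hgβ]
      ring
    have hδq : ‖δ‖ ≤ ‖π‖ ^ q := by
      refine hδn.trans ?_
      rw [hβ1, mul_one]
    have hπy : ‖π‖ ≤ ‖y‖ := by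
      have h1 : ‖π‖ ^ p ≤ ‖y‖ ^ p := by
        rw [hny]
        exact pow_le_pow_of_le_one hπ0.le hπ1.le (by omega)
      exact (pow_le_pow_iff_left₀ hπ0.le (norm_nonneg _) hp.ne_zero).mp h1
    have hδy : ‖δ‖ ≤ ‖y‖ := by
      refine hδq.trans (le_trans ?_ hπy)
      calc ‖π‖ ^ q ≤ ‖π‖ ^ 1 := pow_le_pow_of_le_one hπ0.le hπ1.le hq0
        _ = ‖π‖ := pow_one _
    have hdiff := h99k_eval_diff_le Q y δ hδy 1 hterms
    have hgz : g z = Q.eval (y + δ) := by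
      rw [← hQz, h99k_map_eval g Q (hQfix g (hfix g hg)), hgy]
    rw [← hgz, hQz, mul_one] at hdiff
    have h1 : ‖g z - z‖ * ‖y‖ ≤ ‖π‖ ^ q := hdiff.trans hδq
    have h2 : (‖g z - z‖ * ‖y‖) ^ p ≤ (‖π‖ ^ q) ^ p :=
      pow_le_pow_left₀ (mul_nonneg (norm_nonneg _) (norm_nonneg _)) h1 p
    rw [mul_pow, hny, ← pow_mul] at h2
    have h3 : ‖π‖ ^ (q * p) = ‖π‖ ^ (p * q - j) * ‖π‖ ^ j := by
      rw [← pow_add]
      congr 1
      rw [mul_comm q p]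
      omega
    rw [h3] at h2
    exact (le_of_mul_le_mul_right h2 hπj0).trans (hfin j hj2)

end Fermat.Agent.S56F
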