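import Fermat.Agent.S56F.IfaceSS

/-!
# S56 / LOC-p-FL, row FL-S3 (`SSOffLev3`), owner helper15: frozen sub-leaves

Notation: `K = ℚ_p^ur(π)`, `π ^ (p² - 1) = p`, `I_K = h15s_IK p π = {g ∈ inertia | g π = π}`
(its fixed integers are discrete with uniformiser `π`: landed `h45g_tameDiscrete`).
A *Kummer datum* `h15s_KD p Γ ζ χ`: `ζ` a primitive `p`-th root of unity fixed by `Γ` and
`χ : Gq p → ZMod p` additive on `Γ`.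

Two halves:
* FLAT side (`H15sFlat`): for `χ g = l (φ₁ (c g v₂))` (the `(1,2)`-entry of a locally flat
  cocycle) and every `t < ‖π‖ ^ p` there is an integer `z` fixed by `ker χ ∩ I_K` with
  `t < ‖g₀ z - z‖`.  Split into `H15sRankFn` (Raynaud function on the sub-quotient
  `V × 𝔽_{p²}` of `V × V`, needs `H15sFactor`, `H15sSubfield`) and `H15sNormRam` (norm function,
  quotient order over `I_K`, ramification bound).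
* KUMMER side (`H15sKum`): such a bound forces a Kummer generator `β` of `χ` with
  `‖β ^ p - 1‖ ≤ ‖π‖ ^ 3`.  Leaves: `H15sResolvent`, `H15sDecomp`, `H15sValIndep`,
  `H15sBoundAsm`, `H15sLevel`, `H15sResRoot`, `H15sKumAsm`; and `H15sZetaFix`.

Every `def … : Prop` is a leaf (rows `FL-S3a …` of `s56_tasks`); prove it as
`theorem <prefix>_<name> : <Name>` in your own file.  Do NOT edit this file.
-/

set_option autoImplicit false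
set_option linter.style.haveILetI false

open Fermat.Agent.PT.Loc Polynomial

noncomputable section

namespace Fermat.Agent.S56F

/-- `I_K`: the elements of inertia fixing `π`. -/
def h15s_IK (p : ℕ) [Fact p.Prime] (π : Om p) : Subgroup (Gq p) where
  carrier := {g | g ∈ inertia p ∧ g π = π}
  mul_mem' {a b} ha hb := ⟨(inertia p).mul_mem ha.1 hb.1, by
    rw [AlgEquiv.mul_apply, hb.2, ha.2]⟩
  one_mem' := ⟨(inertia p).one_mem, rfl⟩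
  inv_mem' {a} ha := ⟨(inertia p).inv_mem ha.1, by
    have h := ha.2
    calc a⁻¹ π = a⁻¹ (a π) := by rw [h]
      _ = (a⁻¹ * a) π := rfl
      _ = π := by rw [inv_mul_cancel]; rfl⟩

theorem h15s_mem_IK {p : ℕ} [Fact p.Prime] {π : Om p} {g : Gq p} :
    g ∈ h15s_IK p π ↔ g ∈ inertia p ∧ g π = π := Iff.rfl

theorem h15s_IK_le (p : ℕ) [Fact p.Prime] (π : Om p) : h15s_IK p π ≤ inertia p :=
  fun _ hg => hg.1

/-- A Kummer datum on `Γ`. -/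
structure h15s_KD (p : ℕ) [Fact p.Prime] (Γ : Subgroup (Gq p)) (ζ : Om p)
    (χ : Gq p → ZMod p) : Prop where
  pow : ζ ^ p = 1
  ne : ζ ≠ 1
  fix : ∀ g ∈ Γ, g ζ = ζ
  add : ∀ g ∈ Γ, ∀ h ∈ Γ, χ (g * h) = χ g + χ h

/-! ## Kummer side -/

/-- **FL-S3a** (Lagrange resolvent).  If `z` is fixed by `ker χ ∩ Γ` and moved by `g₀ ∈ Γ`, then
`χ` has a Kummer generator.
Proof: `a = χ g₀ ≠ 0`; `g₀ ^ p` fixes `z`; `B_j = ∑_{i<p} ζ ^ (-i j) g₀ ^ i z` has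
`g₀ B_j = ζ ^ j B_j`, `n B_j = B_j` for `n ∈ ker χ ∩ Γ` (normal in `Γ`), `∑_j B_j = p z`; so
`B_j ≠ 0` for some `j ≠ 0` (else `p z = B_0` is fixed by `g₀`); `B = B_j ^ m` with
`m j = a` in `ZMod p`; every `g ∈ Γ` is `n g₀ ^ i` with `i a = χ g`. -/
def H15sResolvent : Prop :=
  ∀ (p : ℕ) [Fact p.Prime] (Γ : Subgroup (Gq p)) (ζ : Om p) (χ : Gq p → ZMod p),
    h15s_KD p Γ ζ χ → ∀ g₀ ∈ Γ, ∀ z : Om p, (∀ σ ∈ Γ, χ σ = 0 → σ z = z) → g₀ z ≠ z →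
    ∃ B : Om p, B ≠ 0 ∧ ∀ g ∈ Γ, g B = ζ ^ (χ g).val * B

/-- **FL-S3b** (eigen-decomposition).  Every `z` fixed by `ker χ ∩ Γ` is `∑_{j<p} c j * B ^ j`
with `Γ`-fixed `c j`.
Proof: `R_j = ∑_{i<p} ζ ^ (-i j a) g₀ ^ i z` (`a = χ g₀`) has `g R_j = ζ ^ (j χ g) R_j` for
`g ∈ Γ`, and `∑_{j<p} R_j = p z`; `c j = R_j / (p B ^ j)`. -/
def H15sDecomp : Prop :=
  ∀ (p : ℕ) [Fact p.Prime] (Γ : Subgroup (Gq p)) (ζ : Om p) (χ : Gq p → ZMod p),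
    h15s_KD p Γ ζ χ → ∀ B : Om p, B ≠ 0 → (∀ g ∈ Γ, g B = ζ ^ (χ g).val * B) →
    ∀ g₀ ∈ Γ, χ g₀ ≠ 0 → ∀ z : Om p, (∀ σ ∈ Γ, χ σ = 0 → σ z = z) →
    ∃ c : ℕ → Om p, (∀ j, ∀ g ∈ Γ, g (c j) = c j) ∧ z = ∑ j ∈ Finset.range p, c j * B ^ j

/-- **FL-S3c** (valuation independence).  Over a discrete `fixInt p Γ` with uniformiser `ϖ`, if
`‖y‖ ^ p = ‖ϖ‖ ^ n` with `p ∤ n`, the terms of `∑_{j<p} d j * y ^ j` (`d j` fixed by `Γ`) are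
bounded by the sum.
Proof: `‖d j‖ ∈ ‖ϖ‖ ^ ℤ ∪ {0}`, so the non-zero terms have pairwise distinct norms
(`‖d i / d j‖ ^ p = ‖ϖ‖ ^ (n (j - i))` forces `p ∣ n (j - i)`); ultrametric inequality. -/
def H15sValIndep : Prop :=
  ∀ (p : ℕ) [Fact p.Prime] (Γ : Subgroup (Gq p)) (ϖ : Om p), IsDiscrete p Γ ϖ →
    ∀ (y : Om p) (n : ℕ), ‖y‖ ^ p = ‖ϖ‖ ^ n → ¬ p ∣ n →
    ∀ d : ℕ → Om p, (∀ j, ∀ g ∈ Γ, g (d j) = d j) →
      ∀ i < p, ‖d i * y ^ i‖ ≤ ‖∑ j ∈ Finset.range p, d j * y ^ j‖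

/-- The cyclic conductor bound (conclusion of FL-S3d). -/
def H15sBound : Prop :=
  ∀ (p : ℕ) [Fact p.Prime] (Γ : Subgroup (Gq p)) (ϖ : Om p), IsDiscrete p Γ ϖ →
    ∀ (ζ : Om p) (χ : Gq p → ZMod p), h15s_KD p Γ ζ χ →
    ∀ B : Om p, B ≠ 0 → (∀ g ∈ Γ, g B = ζ ^ (χ g).val * B) →
    ∀ e : Om p, (∀ g ∈ Γ, g e = e) → ∀ n : ℕ, ‖B - e‖ ^ p = ‖ϖ‖ ^ n → ¬ p ∣ n →
    ∀ z : Om p, ‖z‖ ≤ 1 → (∀ σ ∈ Γ, χ σ = 0 → σ z = z) →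
      ∀ g ∈ Γ, ‖g z - z‖ * ‖B - e‖ ≤ ‖ζ - 1‖ * ‖B‖

/-- **FL-S3d** (cyclic conductor bound, assembly).
Proof: if `χ = 0` on `Γ` then `g z = z`.  Otherwise `z = ∑ c j * B ^ j` (FL-S3b)
`= ∑ d i * y ^ i` with `y = B - e`, `d i = ∑_j c j * choose j i * e ^ (j - i)` fixed by `Γ`;
`‖d i * y ^ i‖ ≤ ‖z‖ ≤ 1` (FL-S3c); `g y = y + (ζ ^ a - 1) * B`, `‖g y‖ = ‖y‖`, so
`‖(g y) ^ i - y ^ i‖ ≤ ‖ζ - 1‖ * ‖B‖ * ‖y‖ ^ (i - 1)`. -/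
def H15sBoundAsm : Prop := H15sDecomp → H15sValIndep → H15sBound

/-- **FL-S3e** (level of a `p`-th root).  `B ^ p - 1 = x ^ p + p * x * s` with `x = B - 1`,
`‖s‖ ≤ 1`. -/
def H15sLevel : Prop :=
  ∀ (p : ℕ) [Fact p.Prime] (B : Om p), ‖B ^ p - 1‖ < 1 → ‖(p : Om p)‖ < ‖B ^ p - 1‖ →
    ‖B - 1‖ ^ p = ‖B ^ p - 1‖

/-- **FL-S3f** (residual `p`-th roots).  Every unit is, modulo the maximal ideal, the `p`-th
power of a unit fixed by inertia.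
Proof: `u` lies in a finite extension of `ℚ_p` with residue field of `q = p ^ r` elements, so
`‖u ^ (q - 1) - 1‖ < 1`; `X ^ (q - 1) - 1 = ∏ (X - w_i)` over `Om p` gives a root of unity `w₀`
with `‖u - w₀‖ < 1`; `w = w₀ ^ (p ^ (r - 1))` (fixed by inertia: `h89d0_inertiaIffRoots`). -/
def H15sResRoot : Prop :=
  ∀ (p : ℕ) [Fact p.Prime] (u : Om p), ‖u‖ = 1 →
    ∃ w : Om p, ‖w‖ = 1 ∧ (∀ g ∈ inertia p, g w = w) ∧ ‖u - w ^ p‖ < 1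

/-- **FL-S3g** (`ζ_p ∈ K`).  From `h7c_cycFund` (`n = p² - 1`): for `g ∈ I_K` acting on `μ_p` by
`a`-th powers, `‖1 - a‖ < 1`, so `p ∣ a - 1`. -/
def H15sZetaFix : Prop :=
  ∀ (p : ℕ) [Fact p.Prime], p ≠ 2 → ∀ π : Om p, π ^ (p ^ 2 - 1) = p →
    ∀ ζ : Om p, ζ ^ p = 1 → ∀ g ∈ h15s_IK p π, g ζ = ζ

/-- The Kummer side: a flat ramification bound forces level `≥ 3`. -/
def H15sKum : Prop :=
  ∀ (p : ℕ) [Fact p.Prime], p ≠ 2 → ∀ π : Om p, π ^ (p ^ 2 - 1) = p →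
    ∀ (ζ : Om p) (χ : Gq p → ZMod p), h15s_KD p (h15s_IK p π) ζ χ →
    (∀ g₀ ∈ h15s_IK p π, χ g₀ ≠ 0 → ∀ t : ℝ, t < ‖π‖ ^ p →
      ∃ z : Om p, ‖z‖ ≤ 1 ∧ (∀ σ ∈ h15s_IK p π, χ σ = 0 → σ z = z) ∧ t < ‖g₀ z - z‖) →
    ∃ β : Om p, ‖β ^ p - 1‖ ≤ ‖π‖ ^ 3 ∧ ∀ g ∈ h15s_IK p π, g β = ζ ^ (χ g).val * β

/-- **FL-S3h** (assembly of the Kummer side).  `Γ = I_K` is discrete with uniformiser `π`
(`h45g_tameDiscrete`), `‖ζ - 1‖ = ‖π‖ ^ (p + 1)` (`h7g_norm_zeta_sub_one`).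
If `χ = 0` on `Γ`: `β = 1`.  Else `g₀` with `χ g₀ ≠ 0`, `z₀` from the bound with `t = 0`,
`B₀` from FL-S3a, multiplied by a power of `π` so that `‖B₀‖ ^ p = ‖π‖ ^ n`, `n : ℕ`.
(i) `p ∤ n`: FL-S3d with `e = 0` gives `‖g₀ z - z‖ ≤ ‖ζ - 1‖ = ‖π‖ ^ (p + 1)`, contradicting the
bound for `t = ‖π‖ ^ (p + 1)`.  (ii) `n = p m`: `B₁ = B₀ / π ^ m` is a unit, FL-S3f gives `w`,
`B₂ = B₁ / w` has `‖B₂ ^ p - 1‖ < 1`.  (iii) `B₂ ^ p - 1` is fixed by `Γ`: it is `0` or of norm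
`‖π‖ ^ j`, `j ≥ 1`; if `j ≥ 3` take `β = B₂`; if `j ≤ 2` then `‖B₂ - 1‖ ^ p = ‖π‖ ^ j` (FL-S3e),
`p ∤ j`, and FL-S3d with `e = 1` gives `‖g₀ z - z‖ ≤ t := ‖π‖ ^ (p + 1) / ‖B₂ - 1‖ < ‖π‖ ^ p`,
contradicting the bound. -/
def H15sKumAsm : Prop := H15sResolvent → H15sBound → H15sLevel → H15sResRoot → H15sKum

/-! ## Flat side -/

/-- **FL-S3i** (factorisation through an `F`-linear form; PURE ALGEBRA, Mathlib only).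
Proof: fix `t₀ : F →+ ZMod p` non-zero; `Λ ↦ t₀ ∘ Λ` is injective from `k →ₗ[F] F` to
`k →+ ZMod p` (a non-zero `Λ` is onto) and both have `#k` elements. -/
def H15sFactor : Prop :=
  ∀ (p : ℕ) [Fact p.Prime] (F k : Type) [Field F] [Field k] [Algebra F k] [Finite k]
    [CharP k p] (l : k →+ ZMod p), (∃ x, l x ≠ 0) →
    ∃ (Λ : k →ₗ[F] F) (t : F →+ ZMod p), (∀ x, l x = t (Λ x)) ∧ Function.Surjective Λ

/-- **FL-S3j** (the subfield with `p²` elements; PURE ALGEBRA, Mathlib only).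
Proof: `F = {x | x ^ (p²) = x}`; at most `p²` roots; the powers of `a` and `0` are in `F`. -/
def H15sSubfield : Prop :=
  ∀ (p : ℕ) [Fact p.Prime] (k : Type) [Field k] [Finite k] [CharP k p] (a : kˣ),
    orderOf a = p ^ 2 - 1 →
    ∃ F : Subfield k, Nat.card F = p ^ 2 ∧ ∀ x : k, x ^ (p ^ 2) = x → x ∈ F

/-- **FL-S3k** (norm function and ramification bound).  Given a function `f` on
`E = V × A` (`A` of order `p²`, `lam : k → A` onto, `l = t ∘ lam`) whose pull-back along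
`Φ (v, w) = (v, lam (φ₁ w))` lies in an order over inertia on `V × V`, with `f (0, 0) = 0` and
`‖f (0, s)‖ = ‖π‖` for `s ≠ 0`: the flat ramification bound.
Proof: `ρ = 1` on `I_K` (`SSNF`, `τ` injective); `𝓗'` = base change of `𝓗` to `I_K`
(`h4b_baseChange`); for `h ∈ H = ker t` (`p` elements) and a lift `m_h = (0, s_h • v₁)`,
`lam s_h = h`, the translate `x ↦ f (Φ (x + m_h))` is in `𝓗'` (Sweedler form; the coefficients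
`b_i m_h` are integers fixed by `I_K` because `I_K` fixes `m_h`); their product `N` is in `𝓗'`
and factors through `Φ' (v, w) = (v, l (φ₁ w))`, so `N = N' ∘ Φ'` with `N'` in the quotient
order on `E' = V × ZMod p` over `I_K` (`h9q_quotOrder`, `h45g_tameDiscrete`, `IsAct (defAct ρ c)`);
`N' (0, 0) = 0`, `‖N' (0, u)‖ = ‖π‖ ^ p` for `u ≠ 0`; `h87f_ramBound` at `x = (v₂, 0)`,
`g₀ x - x = (0, l (φ₁ (c g₀ v₂)))`. -/
def H15sNormRam : Prop :=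
  ∀ (p : ℕ) [Fact p.Prime] (k : Type) [Field k] [Finite k] [CharP k p] (V : Type)
    [AddCommGroup V] [Module k V] [Module.Finite k V] (ρ : Gq p →* Module.End k V),
    LocHyp p ρ → ∀ (τ : kˣ →* (Om p)ˣ), IsTeich p τ → ∀ π : Om p, π ^ (p ^ 2 - 1) = p →
    ∀ v₁ v₂ : V, SSNF p ρ τ π v₁ v₂ →
    ∀ c : Gq p → Module.End k V, IsLocFlatCocycle p ρ c →
    ∀ 𝓗 : FHO p (inertia p) (V × V) (defAct ρ c),
    ∀ (l : k →+ ZMod p) (φ₁ : V →ₗ[k] k), φ₁ v₁ = 1 → φ₁ v₂ = 0 →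
    ∀ (A : Type) [AddCommGroup A] [Finite A] (lam : k →+ A) (t : A →+ ZMod p),
      Function.Surjective lam → (∀ x, l x = t (lam x)) → Nat.card A = p ^ 2 →
    ∀ f : V × A → Om p, (fun x : V × V => f (x.1, lam (φ₁ x.2))) ∈ 𝓗.carrier →
      f (0, 0) = 0 → (∀ s : A, s ≠ 0 → ‖f (0, s)‖ = ‖π‖) →
    ∀ g₀ ∈ h15s_IK p π, l (φ₁ (c g₀ v₂)) ≠ 0 → ∀ t' : ℝ, t' < ‖π‖ ^ p →
      ∃ z : Om p, ‖z‖ ≤ 1 ∧ (∀ σ ∈ h15s_IK p π, l (φ₁ (c σ v₂)) = 0 → σ z = z) ∧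
        t' < ‖g₀ z - z‖

/-- **FL-S3l** (the Raynaud function on the sub-quotient `V × 𝔽_{p²}`; helper15).
`F = 𝔽_{p²} ⊆ k` (FL-S3j; `τ` maps onto `μ_{p²-1}` by `SSNF` and `h89f_fundSurjective`),
`l = t ∘ Λ` (FL-S3i), `E = V × F`, quotient order (`h9q_quotOrder`), sub-order on the line
`0 × F` (`h87f_subOrder`), stable under `Fˣ` (`Nice.aut` for the scalars of `V × V`), rank one
(`h4o_rankOne`) with `m = 1`. -/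
def H15sRankFn : Prop :=
  ∀ (p : ℕ) [Fact p.Prime] (k : Type) [Field k] [Finite k] [CharP k p] (V : Type)
    [AddCommGroup V] [Module k V] [Module.Finite k V] (ρ : Gq p →* Module.End k V),
    LocHyp p ρ → ∀ (τ : kˣ →* (Om p)ˣ), IsTeich p τ → ∀ π : Om p, π ^ (p ^ 2 - 1) = p →
    ∀ v₁ v₂ : V, SSNF p ρ τ π v₁ v₂ →
    ∀ c : Gq p → Module.End k V, IsLocFlatCocycle p ρ c →
    ∀ 𝓗 : FHO p (inertia p) (V × V) (defAct ρ c), 𝓗.Nice →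
    ∀ (l : k →+ ZMod p) (φ₁ : V →ₗ[k] k), φ₁ v₁ = 1 → φ₁ v₂ = 0 → (∃ x, l x ≠ 0) →
    ∃ (A : Type) (_ : AddCommGroup A) (_ : Finite A) (lam : k →+ A) (t : A →+ ZMod p),
      Function.Surjective lam ∧ (∀ x, l x = t (lam x)) ∧ Nat.card A = p ^ 2 ∧
      ∃ f : V × A → Om p, (fun x : V × V => f (x.1, lam (φ₁ x.2))) ∈ 𝓗.carrier ∧
        f (0, 0) = 0 ∧ ∀ s : A, s ≠ 0 → ‖f (0, s)‖ = ‖π‖

/-- The flat side. -/
def H15sFlat : Prop :=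
  ∀ (p : ℕ) [Fact p.Prime] (k : Type) [Field k] [Finite k] [CharP k p] (V : Type)
    [AddCommGroup V] [Module k V] [Module.Finite k V] (ρ : Gq p →* Module.End k V),
    LocHyp p ρ → ∀ (τ : kˣ →* (Om p)ˣ), IsTeich p τ → ∀ π : Om p, π ^ (p ^ 2 - 1) = p →
    ∀ v₁ v₂ : V, SSNF p ρ τ π v₁ v₂ →
    ∀ c : Gq p → Module.End k V, IsLocFlatCocycle p ρ c →
    ∀ (l : k →+ ZMod p) (φ₁ : V →ₗ[k] k), φ₁ v₁ = 1 → φ₁ v₂ = 0 →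
    ∀ g₀ ∈ h15s_IK p π, l (φ₁ (c g₀ v₂)) ≠ 0 → ∀ t' : ℝ, t' < ‖π‖ ^ p →
      ∃ z : Om p, ‖z‖ ≤ 1 ∧ (∀ σ ∈ h15s_IK p π, l (φ₁ (c σ v₂)) = 0 → σ z = z) ∧
        t' < ‖g₀ z - z‖

/-- Assembly of the flat side (compiled). -/
theorem h15s_flat_of (hA : H15sRankFn) (hB : H15sNormRam) : H15sFlat := by
  intro p _ k _ _ _ V _ _ _ ρ hρ τ hτ π hπ v₁ v₂ hNF c hc l φ₁ h1 h2 g₀ hg₀ hne t' ht'
  obtain ⟨𝓗, h𝓗⟩ := hc.flat (inertia p)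
  obtain ⟨A, iA, iF, lam, t, hsurj, hfac, hcard, f, hf, hf0, hfn⟩ :=
    hA p k V ρ hρ τ hτ π hπ v₁ v₂ hNF c hc 𝓗 h𝓗 l φ₁ h1 h2 ⟨_, hne⟩
  exact hB p k V ρ hρ τ hτ π hπ v₁ v₂ hNF c hc 𝓗 l φ₁ h1 h2 A lam t hsurj hfac hcard f hf hf0
    hfn g₀ hg₀ hne t' ht'

end Fermat.Agent.S56F
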