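import Fermat.Agent.S56F.IfaceHopf2

/-!
# S56 / LOC-p-FL: frozen leaf statements, block HOPF, part 3

`UnitEigenP` replaces `UnitEigen` (FL-B10): the module is killed by `p` (remark of helper87:
the values of the character must be fixed by `I₁`).
-/

set_option autoImplicit false

open Fermat.Agent.PT.Loc

noncomputable section

namespace Fermat.Agent.S56F

/-- **FL-B10P** (unit eigenfunctions, `p M = 0`).  Same statement as `UnitEigen` with the
additional hypothesis `∀ x, p • x = 0`.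
Proof (helper87): `N := intOm`-span of the order; the indicator `e` of `x + L` is in `N`
(Lagrange interpolation with the `L`-invariant separating functions, unit denominators);
`ξ ∈ N` by character completeness, so `ξ * e = ∑ c_i e_i` with `e_i` in the order, linearly
independent over `Om p`, `‖c_i‖ ≤ 1`; for `g ∈ I₁`: `g (c_i) = ξ (g⁻¹ x - x) c_i` (the values of
`ξ` are `p`-th roots of unity, fixed by `g`); evaluation at `x` shows that some `c_i` is a unit;
`β = c_i⁻¹`. -/
def UnitEigenP : Prop :=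
  ∀ (p : ℕ) [Fact p.Prime], p ≠ 2 → ∀ (M : Type) [AddCommGroup M] [Finite M]
    (act : Gq p → M → M), IsAct act → (∀ x : M, p • x = 0) →
  ∀ 𝓗 : FHO p (inertia p) M act, 𝓗.CharComplete →
  ∀ L : AddSubgroup M, (∀ σ ∈ inertia p, ∀ x, act σ x - x ∈ L) →
    (∀ g ∈ inertia p, cycExp p g 1 → ∀ y ∈ L, act g y = y) →
    (∀ x, x ∉ L → ∃ f ∈ 𝓗.carrier, (∀ y ∈ L, ∀ z, f (z + y) = f z) ∧ ‖f x - f 0‖ = 1) →
  ∀ ξ : M → Om p, ξ 0 = 1 → (∀ x y, ξ (x + y) = ξ x * ξ y) → ∀ x : M,
    ∃ β : Om p, ‖β‖ = 1 ∧ ∀ g ∈ inertia p, cycExp p g 1 → g β = ξ (act g x - x) * β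

end Fermat.Agent.S56F
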