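import Fermat.Agent.S56F.IfaceSS
import Fermat.Agent.S56F.IfaceHopf3

/-!
# S56 / LOC-p-FL: frozen leaf statements of block SS (Kummer theory over `K = ℚ_p^ur(π)`)

`IK p π = {g ∈ inertia | g π = π}` is the absolute Galois group of `K = ℚ_p^ur(π)`
(`π ^ n = p`, `p ∤ n`; integers of `K` are discrete with uniformiser `π`: FL-D7).

* FL-K1 `KummerGen`, FL-K2 `UnitNF`, FL-K3 `CondBound` : Kummer generators, the trivial normal
  form `b = π ^ m * c ^ p * u`, the conductor bound for classes not representable in `U⁽³⁾`;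
* FL-S2A..S2U : the four leaves of `SSDiagZero`;
* FL-S3F, FL-S3N : the two remaining leaves of `SSOffLev3`;
* FL-S4A, FL-S4B : the two leaves of `SSCount`.
Do NOT edit this file.
-/

set_option autoImplicit false
set_option linter.style.haveILetI false

open Fermat.Agent.PT.Loc Polynomial

noncomputable section

namespace Fermat.Agent.S56F

/-- `I_K = {g ∈ inertia | g π = π}`. -/
def IK (p : ℕ) [Fact p.Prime] (π : Om p) : Subgroup (Gq p) where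
  carrier := {g | g ∈ inertia p ∧ g π = π}
  mul_mem' {a b} ha hb := ⟨(inertia p).mul_mem ha.1 hb.1, by
    rw [AlgEquiv.mul_apply, hb.2, ha.2]⟩
  one_mem' := ⟨(inertia p).one_mem, rfl⟩
  inv_mem' {a} ha := ⟨(inertia p).inv_mem ha.1, by
    have h : a⁻¹ (a π) = π := by
      rw [← AlgEquiv.mul_apply, inv_mul_cancel, AlgEquiv.one_apply]
    rw [ha.2] at h
    exact h⟩

theorem mem_IK {p : ℕ} [Fact p.Prime] {π : Om p} {g : Gq p} :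
    g ∈ IK p π ↔ g ∈ inertia p ∧ g π = π := Iff.rfl

/-- A continuous additive character of `I_K`. -/
structure IsKChar (p : ℕ) [Fact p.Prime] (π : Om p) (χ : Gq p → ZMod p) : Prop where
  add : ∀ g ∈ IK p π, ∀ h ∈ IK p π, χ (g * h) = χ g + χ h
  cont : ∃ F : LF p, FiniteDimensional ℚ_[p] F ∧ ∀ s ∈ IK p π, s ∈ GK F → χ s = 0

/-! ## Kummer theory -/

/-- **FL-K1** (Kummer generators; Hilbert 90 by Lagrange resolvents).
`χ` factors through the finite group of restrictions of `I_K` to the normal closure `F'` of `F`;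
`β = ∑_σ ζ ^ (-χ σ) σ θ` over these restrictions, `θ ∈ F'` with `β ≠ 0` by Dedekind
independence. -/
def KummerGen : Prop :=
  ∀ (p : ℕ) [Fact p.Prime] (π ζ : Om p), ζ ^ p = 1 → (∀ g ∈ IK p π, g ζ = ζ) →
    ∀ χ : Gq p → ZMod p, IsKChar p π χ →
      ∃ β : Om p, β ≠ 0 ∧ ∀ g ∈ IK p π, g β = ζ ^ (χ g).val * β

/-- **FL-K2** (trivial normal form).  `b = π ^ N * u₀` (FL-D7), `u₀ ≡ w` a root of unity of
order prime to `p` (fixed by inertia), `w` is a `p`-th power of such a root of unity. -/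
def UnitNF : Prop :=
  ∀ (p : ℕ) [Fact p.Prime] (n : ℕ), 0 < n → ¬ p ∣ n → ∀ π : Om p, π ^ n = p →
    ∀ b : Om p, b ≠ 0 → (∀ g ∈ IK p π, g b = b) →
      ∃ (m : ℕ) (c u : Om p), m < p ∧ c ≠ 0 ∧ (∀ g ∈ IK p π, g c = c) ∧
        (∀ g ∈ IK p π, g u = u) ∧ ‖u - 1‖ < 1 ∧ b = π ^ m * c ^ p * u

/-- **FL-K3** (conductor bound for the classes of level `≤ 2`).  `L = K(β)`, `β ^ p = π ^ m u`.
If `m ≠ 0`: `z = ∑_{i<p} a_i β ^ i` (`a_i ∈ K`, norms of the terms pairwise distinct, so each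
term is integral), `g z - z = ∑ (ζ ^ (i χ g) - 1) a_i β ^ i`, `‖ζ - 1‖ = ‖π‖ ^ (n/(p-1))`.
If `m = 0`: `‖u - 1‖ = ‖π‖ ^ j`, `j ∈ {1, 2}`; `y = β - 1` has `‖y‖ ^ p = ‖π‖ ^ j`,
`z = ∑ a_i y ^ i` with integral terms, `g y = y + δ`, `‖δ‖ = ‖ζ - 1‖`,
`‖g z - z‖ ≤ ‖δ‖ / ‖y‖`. -/
def CondBound : Prop :=
  ∀ (p : ℕ) [Fact p.Prime], p ≠ 2 → ∀ (n : ℕ), 0 < n → ¬ p ∣ n → (p - 1) ∣ n →
  ∀ π : Om p, π ^ n = p → ∀ ζ : Om p, ζ ^ p = 1 → ζ ≠ 1 →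
  ∀ χ : Gq p → ZMod p, IsKChar p π χ →
  ∀ (β u : Om p) (m : ℕ), (∀ g ∈ IK p π, g β = ζ ^ (χ g).val * β) → m < p →
    (∀ g ∈ IK p π, g u = u) → ‖u - 1‖ < 1 → β ^ p = π ^ m * u →
    (m ≠ 0 ∨ ‖π‖ ^ 3 < ‖u - 1‖) →
  ∀ g ∈ IK p π, ∀ z : Om p, ‖z‖ ≤ 1 → (∀ s ∈ IK p π, χ s = 0 → s z = z) →
    ‖g z - z‖ ^ p ≤ ‖π‖ ^ (p * (n / (p - 1)) - 2)

/-! ## Leaves of `SSDiagZero` -/

/-- **FL-S2A** (Claim A): a continuous homomorphism `h : inertia → k` which is anti-invariant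
under a Frobenius has its image in an `𝔽_p`-line.
Proof: over `K₁ = ℚ_p^ur(π₁)`, `π₁ ^ (p-1) = p`: for `l : k →+ 𝔽_p` the character `l ∘ h` of
`I_{K₁}` has a Kummer generator `β_l` (FL-K1), `β_l ^ p = π₁ ^ m c ^ p u` (FL-K2); invariance
under conjugation by inertia: the class is an `ω`-eigenvector, so `m = 0` and only the
level-one coefficient `a_l mod 𝔪` survives (levels `2..p-1` have eigencharacters `ω ^ j ≠ ω`,
levels `≥ p` are `p`-th powers); `l ↦ a_l` is additive and injective modulo `{l | l ∘ h = 0}`;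
Frobenius anti-invariance (choose the Frobenius fixing `π₁`) gives `c' a_l ^ p + a_l = 0`,
an `𝔽_p`-line. -/
def SSClaimA : Prop :=
  ∀ (p : ℕ) [Fact p.Prime], p ≠ 2 → ∀ (k : Type) [Field k] [Finite k] [CharP k p]
    (h : Gq p → k) (φ : Gq p),
    (∀ σ ∈ inertia p, ∀ τ ∈ inertia p, h (σ * τ) = h σ + h τ) →
    (∃ F : LF p, FiniteDimensional ℚ_[p] F ∧ ∀ s ∈ inertia p, s ∈ GK F → h s = 0) →
    (∀ (w : Om p) (m : ℕ), 0 < m → ¬ p ∣ m → w ^ m = 1 → φ w = w ^ p) →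
    (∀ σ ∈ inertia p, h (φ * σ * φ⁻¹) = - h σ) →
    ∃ (a₀ : k) (χ : Gq p → ZMod p), ∀ σ ∈ inertia p, h σ = ((χ σ).val : k) * a₀

/-- **FL-S2B** (Claim B, elementary): for a character `χ : inertia → 𝔽_p` every integer `z` of
the field cut out by `χ` over `K = ℚ_p^ur(π)` has `‖g z - z‖ ≤ ‖p‖ ^ (1/p)`.
Proof: `z = ∑_{i<n} y_i π ^ i` with `y_i` fixed by `ker χ` (eigen-decomposition under
`ker χ → μ_n`, onto since `t ^ p ∈ ker χ`), `‖y_i π ^ i‖ ≤ 1`; for `y ≠ 0` fixed by `ker χ`: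
`‖y‖ ^ p = ‖∏_{i<p} g₀ ^ i y‖ ∈ ‖p‖ ^ ℤ` (FL-D1), and `g ↦ g y / y mod 𝔪` is a homomorphism
killed by `p`, hence trivial, so `‖g y / y - 1‖ ≤ ‖p‖ ^ (1/p)`. -/
def SSClaimB : Prop :=
  ∀ (p : ℕ) [Fact p.Prime], p ≠ 2 → ∀ (n : ℕ), 0 < n → ¬ p ∣ n → ∀ π : Om p, π ^ n = p →
  ∀ χ : Gq p → ZMod p, (∀ σ ∈ inertia p, ∀ τ ∈ inertia p, χ (σ * τ) = χ σ + χ τ) →
  ∀ g ∈ IK p π, ∀ z : Om p, ‖z‖ ≤ 1 → (∀ s ∈ IK p π, χ s = 0 → s z = z) →
    ‖g z - z‖ ^ p ≤ ‖(p : Om p)‖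

/-- **FL-S2F** (flat side of the diagonal part).  `E = (k v₁ ⊕ εV)/(ε k v₂)` over inertia
(FL-B7, FL-B8 with FL-D1, stable under `kˣ`, character complete); rank one (FL-C5) on the line
`ε (V / k v₂)` (character `χ₁`, `τ ∘ χ₁ = Ψ`): a function `X` of the order with `‖X y‖ = ‖π‖`
for `y ≠ 0`; FL-B6 at the point `x = (v₁, 0)`, whose stabiliser in inertia is
`{s ∈ I_K | h s = 0}`. -/
def SSFlatDiag : Prop :=
  ∀ (p : ℕ) [Fact p.Prime] (k : Type) [Field k] [Finite k] [CharP k p] (V : Type)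
    [AddCommGroup V] [Module k V] [Module.Finite k V] (ρ : Gq p →* Module.End k V),
    LocHyp p ρ → ∀ (τ : kˣ →* (Om p)ˣ), IsTeich p τ → ∀ π : Om p, π ^ (p ^ 2 - 1) = p →
    ∀ v₁ v₂ : V, SSNF p ρ τ π v₁ v₂ →
    ∀ c : Gq p → Module.End k V, IsLocFlatCocycle p ρ c →
    ∀ h : Gq p → k, (∀ g ∈ IK p π, ∃ b' : k, c g v₁ = h g • v₁ + b' • v₂) →
    ∀ g ∈ IK p π, h g ≠ 0 → ∀ t : ℝ, t < ‖π‖ →
      ∃ z : Om p, ‖z‖ ≤ 1 ∧ (∀ s ∈ IK p π, h s = 0 → s z = z) ∧ t < ‖g z - z‖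

/-- **FL-S2U** (unramified step): if the diagonal part of a continuous trace-zero cocycle
vanishes on inertia, it vanishes on the stabiliser `D'` of the lines.
Proof: `h = c₁₁ : D' → k` is a homomorphism, `h (φ σ φ⁻¹) = - h σ` for a Frobenius `φ`
(which swaps the lines: `Ψ (φ t φ⁻¹) = Ψ t ^ p`), so `h (φ²) = 0`; `σ ↦ h (σ²) / 2` is a
continuous homomorphism on `Gq p` (commutators lie in inertia), trivial on inertia and at `φ`,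
hence trivial (FL-D6). -/
def SSUnrZero : Prop :=
  ∀ (p : ℕ) [Fact p.Prime] (k : Type) [Field k] [Finite k] [CharP k p] (V : Type)
    [AddCommGroup V] [Module k V] [Module.Finite k V] (ρ : Gq p →* Module.End k V),
    LocHyp p ρ → ∀ (τ : kˣ →* (Om p)ˣ), IsTeich p τ → ∀ π : Om p, π ^ (p ^ 2 - 1) = p →
    ∀ v₁ v₂ : V, SSNF p ρ τ π v₁ v₂ →
    ∀ f : Gq p → Module.End k V, Cont1 (⊥ : LF p) f →
    (∀ σ τ : Gq p, f (σ * τ) = f σ + ρ σ * f τ * ρ σ⁻¹) →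
    (∀ σ : Gq p, LinearMap.trace k V (f σ) = 0) →
    (∀ σ ∈ inertia p, ∃ b : k, f σ v₁ = b • v₂) → SSDiag0 p ρ v₁ v₂ f

/-! ## Leaves of `SSOffLev3` -/

/-- **FL-S3N**: the supersingular normal form excludes stable lines.
(`Ψ (φ t φ⁻¹) = Ψ t ^ p ≠ Ψ t` for suitable `t`: a Frobenius swaps the lines.) -/
def SSNoLine : Prop :=
  ∀ (p : ℕ) [Fact p.Prime] (k : Type) [Field k] [Finite k] [CharP k p] (V : Type)
    [AddCommGroup V] [Module k V] [Module.Finite k V] (ρ : Gq p →* Module.End k V),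
    LocHyp p ρ → ∀ (τ : kˣ →* (Om p)ˣ), IsTeich p τ → ∀ π : Om p, π ^ (p ^ 2 - 1) = p →
    ∀ v₁ v₂ : V, SSNF p ρ τ π v₁ v₂ →
    ¬ ∃ v : V, v ≠ 0 ∧ ∀ σ : Gq p, ∃ a : k, ρ σ v = a • v

/-- **FL-S3F** (flat side of the off-diagonal part).  Over inertia:
`E₁ = (k v₂ ⊕ εV)/(ε (k v₂ + H₂ v₁))`, `H₂ = {y | ∀ x ∈ 𝔽_{p²}, l (x y) = 0}`; the line
`ε (k / H₂) v₁` is an `𝔽_{p²}`-line with character `χ₁`; rank one (FL-C5 for `𝔽_{p²}`,
`m = 1`): `X` with `‖X y‖ = ‖π‖` for `y ≠ 0`.  Base change to `I_K` (FL-B9), quotient by the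
`𝔽_p`-line `H₁ = ker l / H₂` (FL-B8 with FL-D7): the norm function `∏_{n ∈ H₁} f (e + n)`
has norm `‖π‖ ^ p` at the non-zero points of the line; FL-B6 at the point `(v₂, 0)`. -/
def SSFlatLevel : Prop :=
  ∀ (p : ℕ) [Fact p.Prime] (k : Type) [Field k] [Finite k] [CharP k p] (V : Type)
    [AddCommGroup V] [Module k V] [Module.Finite k V] (ρ : Gq p →* Module.End k V),
    LocHyp p ρ → ∀ (τ : kˣ →* (Om p)ˣ), IsTeich p τ → ∀ π : Om p, π ^ (p ^ 2 - 1) = p →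
    ∀ v₁ v₂ : V, SSNF p ρ τ π v₁ v₂ →
    ∀ c : Gq p → Module.End k V, IsLocFlatCocycle p ρ c →
    ∀ μ : Gq p → k, (∀ g ∈ IK p π, ∃ b' : k, c g v₂ = μ g • v₁ + b' • v₂) →
    ∀ (l : k →+ ZMod p) (g : Gq p), g ∈ IK p π → l (μ g) ≠ 0 → ∀ t : ℝ, t < ‖π‖ ^ p →
      ∃ z : Om p, ‖z‖ ≤ 1 ∧ (∀ s ∈ IK p π, l (μ s) = 0 → s z = z) ∧ t < ‖g z - z‖

/-! ## Leaves of `SSCount` -/

/-- **FL-S4A** (the kernel of the restriction to `I_K` consists of coboundaries).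
`c₂₁ = 0` on `I_K` by conjugation with a swapping element; `f` factors through
`inertia / I_K ≅ μ_{p²-1}` on inertia: `f = ∂X₀` there (`X₀ = N⁻¹ ∑_t f t`); `f - ∂X₀` has
values commuting with `ρ(inertia)`, i.e. diagonal; zero on `D'` by `SSDiag0`;
`f φ = a diag(1,-1) = ∂Y φ` with `Y = (a/2) diag(1,-1)`. -/
def SSKerCob : Prop :=
  ∀ (p : ℕ) [Fact p.Prime] (k : Type) [Field k] [Finite k] [CharP k p] (V : Type)
    [AddCommGroup V] [Module k V] [Module.Finite k V] (ρ : Gq p →* Module.End k V),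
    LocHyp p ρ → (¬ ∃ v : V, v ≠ 0 ∧ ∀ σ : Gq p, ∃ a : k, ρ σ v = a • v) →
    ∀ (τ : kˣ →* (Om p)ˣ), IsTeich p τ → ∀ π : Om p, π ^ (p ^ 2 - 1) = p →
    ∀ v₁ v₂ : V, SSNF p ρ τ π v₁ v₂ →
    ∀ f : Gq p → Module.End k V, Cont1 (⊥ : LF p) f →
    (∀ σ τ : Gq p, f (σ * τ) = f σ + ρ σ * f τ * ρ σ⁻¹) →
    (∀ σ : Gq p, LinearMap.trace k V (f σ) = 0) → SSDiag0 p ρ v₁ v₂ f →
    (∀ g ∈ IK p π, f g v₂ = 0) →
    ∃ X : Module.End k V, LinearMap.trace k V X = 0 ∧ f = coB p ρ X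

/-- **FL-S4B** (`SSKC`, the supersingular Kummer count).  The continuous homomorphisms
`μ : I_K → k` with `μ (t g t⁻¹) = (χ₁/χ₂)(t) μ g` (`t` in inertia), `μ (φ₂ g φ₂⁻¹) = a₂ μ g`
and Kummer classes of level `≥ 3` form a `k`-space of dimension `≤ 1`.
Proof: level calculus for `χ_l = l ∘ μ`: (p) a class of level `j`, `p ∣ j`, `j < p² + p`, has
level `j + 1`; (c) for `p ∤ j` the coefficient at level `j` is well defined modulo `𝔪`,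
additive in the character, and zero iff the level is `≥ j + 1`; (T) conjugation by `t` with
`Ψ t = θ` of order `p² - 1` multiplies it by `θ ^ (p + 1 - j)`, and
`l α² - s l α + l = 0` (`α = τ⁻¹ (θ ^ (1 - p))`, `s = α + α⁻¹ ∈ 𝔽_p`) kills it unless
`j ≡ 2, 2p mod p² - 1`; (top) level `≥ p² + p` means `χ = 0`.  So `χ_l` is determined by its
coefficient `𝒜 l` at level `p² + 1`; `𝒜 (l x) = x ^ p 𝒜 l` for `x ∈ 𝔽_{p²}` and
`𝒜 (l a₂) ^ (p²) = c₂ 𝒜 l` (Frobenius); such `𝒜` are at most `#k`. -/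
def SSKC : Prop :=
  ∀ (p : ℕ) [Fact p.Prime], p ≠ 2 → ∀ (k : Type) [Field k] [Finite k] [CharP k p]
    (τ : kˣ →* (Om p)ˣ), IsTeich p τ → ∀ π : Om p, π ^ (p ^ 2 - 1) = p →
    ∀ (φ₂ : Gq p) (a₂ : k),
      (∀ (w : Om p) (m : ℕ), 0 < m → ¬ p ∣ m → w ^ m = 1 → φ₂ w = w ^ (p ^ 2)) → φ₂ π = π →
    ∃ Z : Submodule k (Gq p → k), Module.Finite k Z ∧ Module.finrank k Z ≤ 1 ∧
      ∀ μ : Gq p → k, (∀ g, g ∉ IK p π → μ g = 0) →
        (∀ g ∈ IK p π, ∀ h ∈ IK p π, μ (g * h) = μ g + μ h) →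
        (∃ F : LF p, FiniteDimensional ℚ_[p] F ∧ ∀ s ∈ IK p π, s ∈ GK F → μ s = 0) →
        (∀ t ∈ inertia p, ∃ a : kˣ, ((τ a : (Om p)ˣ) : Om p) * (t π / π) ^ p = t π / π ∧
          ∀ g ∈ IK p π, μ (t * g * t⁻¹) = (a : k) * μ g) →
        (∀ g ∈ IK p π, μ (φ₂ * g * φ₂⁻¹) = a₂ * μ g) →
        (∀ ζ : Om p, ζ ^ p = 1 → ζ ≠ 1 → ∀ l : k →+ ZMod p,
          ∃ β : Om p, ‖β ^ p - 1‖ ≤ ‖π‖ ^ 3 ∧
            ∀ g ∈ IK p π, g β = ζ ^ (l (μ g)).val * β) →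
        μ ∈ Z

end Fermat.Agent.S56F
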