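import Fermat.Agent.S56F.FLS4KIface_helper89
import Fermat.Agent.S56F.FLS3Iface_helper15
import Fermat.Agent.S56F.IfaceKum
import Fermat.Agent.S56F.FLD4_helper7
import Fermat.Agent.S56F.FLD0_helper89
import Fermat.Agent.S56F.FLD1_helper45
import Fermat.Agent.S56F.FLD7_helper45
import Fermat.Agent.S56F.FLK2_helper83
import Fermat.Agent.PT.Loc.H36URBase

/-!
# S56 / LOC-p-FL, block SS: shared level calculus tools (helper68)

General tools for Kummer generators over `K = ℚ_p^ur(π)`: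

* `h68v_teich`        : every integer of `Om p` is congruent to `0` or to a root of unity of order
                        prime to `p`;
* `h68v_zeta_fix`     : `ζ_p` is fixed by the elements of inertia fixing `π` (`π ^ n = p`,
                        `(p - 1) ∣ n`);
* `h68v_binom`        : `‖(1 + t) ^ p - 1 - p t - t ^ p‖ ≤ ‖p‖ ‖t‖ ^ 2`;
* `h68v_top_strict`   : a Kummer generator with `‖β ^ p - 1‖ < ‖ζ - 1‖ ^ p` has trivial character;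
* `h68v_top`          : the same for `‖β ^ p - 1‖ ≤ ‖ζ - 1‖ ^ p` over a subgroup of inertia
                        (Artin–Schreier step);
* `h68v_disc_step`    : discreteness of the norms of `K`.
-/

set_option autoImplicit false
set_option linter.style.haveILetI false

open Fermat.Agent.PT.Loc Polynomial

noncomputable section

namespace Fermat.Agent.S56F

variable {p : ℕ} [Fact p.Prime]

/-! ## Elementary norm facts -/

theorem h68v_norm_sub_le_max (a b : Om p) : ‖a - b‖ ≤ max ‖a‖ ‖b‖ := by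
  have h := IsUltrametricDist.norm_add_le_max a (-b)
  rwa [norm_neg, ← sub_eq_add_neg] at h

theorem h68v_norm_eq_one_of_sub_lt {c : Om p} (h : ‖c - 1‖ < 1) : ‖c‖ = 1 := by
  have h1 : c = (c - 1) + 1 := by ring
  apply le_antisymm
  · rw [h1]
    exact (IsUltrametricDist.norm_add_le_max _ _).trans (max_le h.le (by rw [norm_one]))
  · by_contra hlt
    rw [not_le] at hlt
    have h2 : (1 : Om p) = c - (c - 1) := by ring
    have h3 : ‖(1 : Om p)‖ ≤ max ‖c‖ ‖c - 1‖ := by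
      conv_lhs => rw [h2]
      exact h68v_norm_sub_le_max _ _
    rw [norm_one] at h3
    have := max_lt hlt h
    linarith

theorem h68v_norm_pow_sub_pow_le {a b : Om p} (ha : ‖a‖ ≤ 1) (hb : ‖b‖ ≤ 1) (m : ℕ) :
    ‖a ^ m - b ^ m‖ ≤ ‖a - b‖ := by
  induction m with
  | zero => simp
  | succ m ih =>
    have h1 : a ^ (m + 1) - b ^ (m + 1) = a * (a ^ m - b ^ m) + (a - b) * b ^ m := by ring
    rw [h1]
    refine (IsUltrametricDist.norm_add_le_max _ _).trans (max_le ?_ ?_)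
    · rw [norm_mul]
      calc ‖a‖ * ‖a ^ m - b ^ m‖ ≤ 1 * ‖a - b‖ :=
            mul_le_mul ha ih (norm_nonneg _) zero_le_one
        _ = ‖a - b‖ := one_mul _
    · rw [norm_mul, norm_pow]
      calc ‖a - b‖ * ‖b‖ ^ m ≤ ‖a - b‖ * 1 :=
            mul_le_mul_of_nonneg_left (pow_le_one₀ (norm_nonneg _) hb) (norm_nonneg _)
        _ = ‖a - b‖ := mul_one _

theorem h68v_div_pow (β c : Om p) (hc : c ≠ 0) :
    (β * c⁻¹) ^ p - 1 = (β ^ p - c ^ p) * (c ^ p)⁻¹ := by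
  rw [mul_pow, inv_pow, sub_mul, mul_inv_cancel₀ (pow_ne_zero _ hc)]

theorem h68v_primitive {ζ : Om p} (hζ : ζ ^ p = 1) (hζ1 : ζ ≠ 1) : IsPrimitiveRoot ζ p := by
  have hp : p.Prime := Fact.out
  rw [IsPrimitiveRoot.iff_orderOf]
  exact orderOf_eq_prime hζ hζ1

theorem h68v_norm_zeta_pow {ζ : Om p} (hζ : IsPrimitiveRoot ζ p) {m : ℕ} (hm : ¬ p ∣ m) :
    ‖ζ ^ m - 1‖ = ‖ζ - 1‖ := by
  have hp : p.Prime := Fact.out
  have hcop : Nat.Coprime m p := ((Nat.Prime.coprime_iff_not_dvd hp).2 hm).symm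
  have h1 := h7g_norm_zeta_sub_one (hζ.pow_of_coprime m hcop)
  have h2 := h7g_norm_zeta_sub_one hζ
  have h3 : p - 1 ≠ 0 := by have := hp.two_le; omega
  have h4 : ‖ζ ^ m - 1‖ ^ (p - 1) = ‖ζ - 1‖ ^ (p - 1) := by rw [h1, h2]
  exact (pow_left_inj₀ (norm_nonneg _) (norm_nonneg _) h3).1 h4

theorem h68v_norm_p_lt_one : ‖((p : ℕ) : Om p)‖ < 1 := by
  have hp : p.Prime := Fact.out
  rw [h7g_norm_p]
  exact inv_lt_one_of_one_lt₀ (by exact_mod_cast hp.one_lt)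

theorem h68v_norm_p_pos : 0 < ‖((p : ℕ) : Om p)‖ := by
  have hp : p.Prime := Fact.out
  rw [h7g_norm_p]
  exact inv_pos.2 (by exact_mod_cast hp.pos)

/-! ## Teichmüller representatives -/

/-- every integer of `Om p` is congruent to `0` or to a root of unity of order prime to `p`. -/
theorem h68v_teich (x : Om p) (hx : ‖x‖ ≤ 1) :
    ∃ w : Om p, (w = 0 ∨ ∃ m : ℕ, 0 < m ∧ ¬ p ∣ m ∧ w ^ m = 1) ∧ ‖x - w‖ < 1 := by
  rcases lt_or_eq_of_le hx with hlt | heq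
  · exact ⟨0, Or.inl rfl, by rwa [sub_zero]⟩
  · have hxint : IsIntegral ℚ_[p] x := Algebra.IsIntegral.isIntegral x
    have hfd : FiniteDimensional ℚ_[p] (IntermediateField.adjoin ℚ_[p] {x}) :=
      IntermediateField.adjoin.finiteDimensional hxint
    have hxK : x ∈ IntermediateField.adjoin ℚ_[p] {x} :=
      IntermediateField.subset_adjoin ℚ_[p] {x} (Set.mem_singleton x)
    obtain ⟨-, -, -, hteich, -⟩ := h34lf_lfTeich p (IntermediateField.adjoin ℚ_[p] {x})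
    obtain ⟨w, ⟨-, m, hm, hpm, hw⟩, hxw⟩ := hteich x hxK heq
    exact ⟨w, Or.inr ⟨m, hm, hpm, hw⟩, hxw⟩

theorem h68v_teich_fix {w : Om p} (hw : w = 0 ∨ ∃ m : ℕ, 0 < m ∧ ¬ p ∣ m ∧ w ^ m = 1)
    {g : Gq p} (hg : g ∈ inertia p) : g w = w := by
  rcases hw with rfl | ⟨m, hm, hpm, hw⟩
  · exact map_zero g
  · exact h89d0_fix_of_mem_inertia hg w m hm hpm hw

theorem h68v_teich_norm {w : Om p} (hw : w = 0 ∨ ∃ m : ℕ, 0 < m ∧ ¬ p ∣ m ∧ w ^ m = 1) :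
    ‖w‖ ≤ 1 := by
  rcases hw with rfl | ⟨m, hm, -, hw⟩
  · rw [norm_zero]; exact zero_le_one
  · exact (h36u_norm_eq_one_of_pow hm hw).le

/-- a `p`-th root which is again `0` or a root of unity of order prime to `p`. -/
theorem h68v_teich_root {w : Om p} (hw : w = 0 ∨ ∃ m : ℕ, 0 < m ∧ ¬ p ∣ m ∧ w ^ m = 1) :
    ∃ w' : Om p, (w' = 0 ∨ ∃ m : ℕ, 0 < m ∧ ¬ p ∣ m ∧ w' ^ m = 1) ∧ w' ^ p = w := by
  have hp : p.Prime := Fact.out
  rcases hw with rfl | ⟨m, hm, hpm, hw⟩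
  · exact ⟨0, Or.inl rfl, zero_pow hp.ne_zero⟩
  · obtain ⟨w', hw', hw'p⟩ := h83k_root w m hm hpm hw
    exact ⟨w', Or.inr ⟨m, hm, hpm, hw'⟩, hw'p⟩

/-! ## `ζ_p ∈ K` -/

/-- `ζ_p` is fixed by the elements of inertia fixing `π`. -/
theorem h68v_zeta_fix (hp2 : p ≠ 2) (n : ℕ) (hn : 0 < n) (hpn : ¬ p ∣ n) (hdiv : (p - 1) ∣ n)
    (π : Om p) (hπ : π ^ n = p) {g : Gq p} (hg : g ∈ inertia p) (hgπ : g π = π)
    (ζ : Om p) (hζ : ζ ^ p = 1) : g ζ = ζ := by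
  have hp : p.Prime := Fact.out
  obtain ⟨ζ₀, hζ₀⟩ := h7c_exists_primitiveRoot p
  have hg0 : (g ζ₀) ^ p = 1 := by rw [← map_pow, hζ₀.pow_eq_one, map_one]
  obtain ⟨a, -, ha⟩ := hζ₀.eq_pow_of_pow_eq_one hg0
  have hcyc : cycExp p g a := by
    intro μ hμ
    obtain ⟨b, -, hb⟩ := hζ₀.eq_pow_of_pow_eq_one hμ
    rw [← hb, map_pow, ← ha, ← pow_mul, ← pow_mul, mul_comm]
  have hπ0 : π ≠ 0 := by
    rintro rfl
    rw [zero_pow hn.ne'] at hπ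
    exact hp.ne_zero (by exact_mod_cast hπ.symm)
  have h1 := h7c_cycFund p hp2 n hn hpn hdiv π hπ g hg a hcyc
  rw [hgπ, div_self hπ0, one_pow] at h1
  -- `a ≡ 1 mod p`
  have ha1 : ζ₀ ^ a = ζ₀ := by
    rcases Nat.eq_zero_or_pos a with h0 | hpos
    · exfalso
      rw [h0, Nat.cast_zero, sub_zero, norm_one] at h1
      exact lt_irrefl _ h1
    · have h2 : ‖(((a - 1 : ℕ) : ℕ) : Om p)‖ < 1 := by
        have h3 : (((a - 1 : ℕ) : ℕ) : Om p) = -(1 - (a : Om p)) := by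
          rw [Nat.cast_sub hpos, Nat.cast_one]; ring
        rw [h3, norm_neg]
        exact h1
      obtain ⟨c, hc⟩ := (h36u_norm_natCast_lt_one_iff (a - 1)).1 h2
      have h4 : a = p * c + 1 := by omega
      rw [h4, pow_succ, pow_mul, hζ₀.pow_eq_one, one_pow, one_mul]
  obtain ⟨b, -, hb⟩ := hζ₀.eq_pow_of_pow_eq_one hζ
  rw [← hb, map_pow, ← ha, ha1]

/-! ## The binomial estimate -/

theorem h68v_binom (t : Om p) (ht : ‖t‖ ≤ 1) :
    ‖(1 + t) ^ p - 1 - (p : Om p) * t - t ^ p‖ ≤ ‖((p : ℕ) : Om p)‖ * ‖t‖ ^ 2 := by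
  have hp : p.Prime := Fact.out
  obtain ⟨k, hk⟩ : ∃ k, p = k + 2 := ⟨p - 2, by have := hp.two_le; omega⟩
  have h1 : (1 + t) ^ p = ∑ m ∈ Finset.range (p + 1), t ^ m * ((p.choose m : ℕ) : Om p) := by
    rw [add_comm, add_pow]
    refine Finset.sum_congr rfl fun m _ => ?_
    rw [one_pow, mul_one]
  have h2 : (1 + t) ^ p - 1 - (p : Om p) * t - t ^ p =
      ∑ m ∈ Finset.range k, t ^ (m + 2) * ((p.choose (m + 2) : ℕ) : Om p) := by
    have hsum : ∀ f : ℕ → Om p, ∑ m ∈ Finset.range p, f m =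
        ∑ m ∈ Finset.range k, f (m + 2) + f 1 + f 0 := by
      intro f
      rw [congrArg Finset.range hk, Finset.sum_range_succ', Finset.sum_range_succ']
    rw [h1, Finset.sum_range_succ, Nat.choose_self, Nat.cast_one, mul_one, hsum]
    simp only [pow_zero, Nat.choose_zero_right, Nat.cast_one, mul_one, pow_one,
      Nat.choose_one_right]
    ring
  rw [h2]
  refine h7g_norm_sum_le _ _ (mul_nonneg (norm_nonneg _) (pow_nonneg (norm_nonneg _) _)) ?_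
  intro m hm
  rw [Finset.mem_range] at hm
  have hdvd : p ∣ p.choose (m + 2) := hp.dvd_choose_self (by omega) (by omega)
  obtain ⟨c, hc⟩ := hdvd
  rw [norm_mul, hc, Nat.cast_mul, norm_mul, norm_pow]
  have h3 : ‖t‖ ^ (m + 2) ≤ ‖t‖ ^ 2 :=
    pow_le_pow_of_le_one (norm_nonneg _) ht (by omega)
  have h4 : ‖((c : ℕ) : Om p)‖ ≤ 1 := h36u_norm_natCast_le_one c
  calc ‖t‖ ^ (m + 2) * (‖((p : ℕ) : Om p)‖ * ‖((c : ℕ) : Om p)‖)
      ≤ ‖t‖ ^ 2 * (‖((p : ℕ) : Om p)‖ * 1) :=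
        mul_le_mul h3 (mul_le_mul_of_nonneg_left h4 (norm_nonneg _))
          (mul_nonneg (norm_nonneg _) (norm_nonneg _)) (pow_nonneg (norm_nonneg _) _)
    _ = ‖((p : ℕ) : Om p)‖ * ‖t‖ ^ 2 := by ring

theorem h68v_binom' (t : Om p) (ht : ‖t‖ ≤ 1) :
    ‖(1 + t) ^ p - 1 - t ^ p‖ ≤ ‖((p : ℕ) : Om p)‖ * ‖t‖ := by
  have h1 : (1 + t) ^ p - 1 - t ^ p =
      ((1 + t) ^ p - 1 - (p : Om p) * t - t ^ p) + (p : Om p) * t := by ring
  rw [h1]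
  refine (IsUltrametricDist.norm_add_le_max _ _).trans (max_le ?_ ?_)
  · refine (h68v_binom t ht).trans ?_
    refine mul_le_mul_of_nonneg_left ?_ (norm_nonneg _)
    calc ‖t‖ ^ 2 = ‖t‖ * ‖t‖ := sq _
      _ ≤ ‖t‖ * 1 := mul_le_mul_of_nonneg_left ht (norm_nonneg _)
      _ = ‖t‖ := mul_one _
  · rw [norm_mul]

/-! ## The top of the unit filtration -/

/-- a Kummer generator with `‖β ^ p - 1‖ < ‖ζ - 1‖ ^ p` has trivial character (unique root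
near `1`). -/
theorem h68v_top_strict (Γ : Subgroup (Gq p)) {ζ : Om p} (hζ : IsPrimitiveRoot ζ p)
    (hfix : ∀ g ∈ Γ, g ζ = ζ) (χ : Gq p → ZMod p) (β : Om p)
    (hβ : ∀ g ∈ Γ, g β = ζ ^ (χ g).val * β) (hlt : ‖β ^ p - 1‖ < ‖ζ - 1‖ ^ p) :
    ∀ g ∈ Γ, χ g = 0 := by
  classical
  have hp : p.Prime := Fact.out
  haveI : NeZero p := ⟨hp.ne_zero⟩
  have hl1 : ‖ζ - 1‖ < 1 := h7c_norm_zeta_sub_one_lt p hζ
  have hprod : (1 : Om p) ^ p - β ^ p = ∏ μ ∈ nthRootsFinset p (1 : Om p), (1 - μ * β) :=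
    hζ.pow_sub_pow_eq_prod_sub_mul 1 β hp.pos
  have hcard : (nthRootsFinset p (1 : Om p)).card = p := hζ.card_nthRootsFinset
  have hex : ∃ μ ∈ nthRootsFinset p (1 : Om p), ‖1 - μ * β‖ < ‖ζ - 1‖ := by
    by_contra hne
    simp only [not_exists, not_and, not_lt] at hne
    have h1 : ‖ζ - 1‖ ^ p ≤ ‖(1 : Om p) ^ p - β ^ p‖ := by
      rw [hprod, norm_prod]
      calc ‖ζ - 1‖ ^ p = ∏ _μ ∈ nthRootsFinset p (1 : Om p), ‖ζ - 1‖ := by
            rw [Finset.prod_const, hcard]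
        _ ≤ ∏ μ ∈ nthRootsFinset p (1 : Om p), ‖1 - μ * β‖ :=
            Finset.prod_le_prod (fun _ _ => norm_nonneg _) hne
    have h6 : ‖(1 : Om p) ^ p - β ^ p‖ = ‖β ^ p - 1‖ := by
      rw [one_pow, ← norm_neg, neg_sub]
    rw [h6] at h1
    exact absurd hlt (not_lt.2 h1)
  obtain ⟨μ, hμ, hμβ⟩ := hex
  have hμp : μ ^ p = 1 := (mem_nthRootsFinset hp.pos 1).1 hμ
  obtain ⟨b, -, hb⟩ := hζ.eq_pow_of_pow_eq_one hμp
  have hμfix : ∀ g ∈ Γ, g μ = μ := fun g hg => by rw [← hb, map_pow, hfix g hg]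
  have hβ₁1 : ‖μ * β - 1‖ < ‖ζ - 1‖ := by rw [← norm_neg, neg_sub]; exact hμβ
  have hβ₁n : ‖μ * β‖ = 1 := h68v_norm_eq_one_of_sub_lt (hβ₁1.trans hl1)
  intro g hg
  by_contra hχ
  have hval : ¬ p ∣ (χ g).val := by
    intro hd
    have hlt' : (χ g).val < p := ZMod.val_lt _
    have h0 : (χ g).val = 0 := Nat.eq_zero_of_dvd_of_lt hd hlt'
    exact hχ ((ZMod.val_eq_zero _).1 h0)
  have hg1 : g (μ * β) = ζ ^ (χ g).val * (μ * β) := by
    rw [map_mul, hμfix g hg, hβ g hg]; ring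
  have h2 : g (μ * β) - μ * β = (ζ ^ (χ g).val - 1) * (μ * β) := by rw [hg1]; ring
  have h3 : ‖g (μ * β) - μ * β‖ = ‖ζ - 1‖ := by
    rw [h2, norm_mul, hβ₁n, mul_one, h68v_norm_zeta_pow hζ hval]
  have h4 : g (μ * β) - μ * β = g (μ * β - 1) - (μ * β - 1) := by
    rw [map_sub, map_one]; ring
  have h5 : ‖g (μ * β) - μ * β‖ < ‖ζ - 1‖ := by
    rw [h4]
    refine (h68v_norm_sub_le_max _ _).trans_lt ?_
    rw [h36u_norm_aut, max_self]
    exact hβ₁1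
  rw [h3] at h5
  exact lt_irrefl _ h5

/-- **The top**: a Kummer generator with `‖β ^ p - 1‖ ≤ ‖ζ - 1‖ ^ p` over a subgroup of inertia
has trivial character (Artin–Schreier step, then `h68v_top_strict`). -/
theorem h68v_top (Γ : Subgroup (Gq p)) (hΓ : Γ ≤ inertia p) {ζ : Om p}
    (hζ : IsPrimitiveRoot ζ p) (hfix : ∀ g ∈ Γ, g ζ = ζ) (χ : Gq p → ZMod p) (β : Om p)
    (hβ : ∀ g ∈ Γ, g β = ζ ^ (χ g).val * β) (hle : ‖β ^ p - 1‖ ≤ ‖ζ - 1‖ ^ p) :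
    ∀ g ∈ Γ, χ g = 0 := by
  have hp : p.Prime := Fact.out
  have hp2 : 2 ≤ p := hp.two_le
  have hl1 : ‖ζ - 1‖ < 1 := h7c_norm_zeta_sub_one_lt p hζ
  have hlp : ‖ζ - 1‖ ^ (p - 1) = ‖((p : ℕ) : Om p)‖ := h7g_norm_zeta_sub_one hζ
  have hl0 : ζ - 1 ≠ 0 := by
    intro h0
    rw [h0, norm_zero, zero_pow (by omega)] at hlp
    exact (h68v_norm_p_pos (p := p)).ne hlp
  have hlpos : 0 < ‖ζ - 1‖ := norm_pos_iff.2 hl0
  obtain ⟨v, hv⟩ : ∃ v : Om p, v = -((p : ℕ) : Om p) / (ζ - 1) ^ (p - 1) := ⟨_, rfl⟩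
  obtain ⟨a, ha⟩ : ∃ a : Om p, a = (β ^ p - 1) / (ζ - 1) ^ p := ⟨_, rfl⟩
  have hvn : ‖v‖ = 1 := by
    rw [hv, norm_div, norm_neg, norm_pow, hlp, div_self (h68v_norm_p_pos (p := p)).ne']
  have han : ‖a‖ ≤ 1 := by
    rw [ha, norm_div, norm_pow]
    exact div_le_one_of_le₀ hle (pow_nonneg (norm_nonneg _) _)
  have hvp : v * (ζ - 1) ^ (p - 1) = -((p : ℕ) : Om p) := by
    rw [hv]; field_simp
  have hap : a * (ζ - 1) ^ p = β ^ p - 1 := by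
    rw [ha]; field_simp
  have hpow : (ζ - 1) ^ p = (ζ - 1) ^ (p - 1) * (ζ - 1) := by
    rw [← pow_succ]; congr 1; omega
  -- a root of `X ^ p - v X - a`
  obtain ⟨x₀, hx₀⟩ : ∃ x₀ : Om p, x₀ ^ p - v * x₀ - a = 0 := by
    have hq : (C v * X + C a : (Om p)[X]).degree < (X ^ p : (Om p)[X]).degree := by
      rw [degree_X_pow]
      exact lt_of_le_of_lt degree_linear_le (by exact_mod_cast hp.one_lt)
    have hdeg : (X ^ p - (C v * X + C a) : (Om p)[X]).degree ≠ 0 := by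
      rw [degree_sub_eq_left_of_degree_lt hq, degree_X_pow]
      exact_mod_cast hp.ne_zero
    obtain ⟨x₀, hx₀⟩ := IsAlgClosed.exists_root _ hdeg
    refine ⟨x₀, ?_⟩
    have h1 : eval x₀ (X ^ p - (C v * X + C a) : (Om p)[X]) = 0 := hx₀
    simp only [eval_sub, eval_pow, eval_X, eval_add, eval_mul, eval_C] at h1
    linear_combination h1
  have hx₀n : ‖x₀‖ ≤ 1 := by
    by_contra hgt
    rw [not_le] at hgt
    have h1 : x₀ ^ p = v * x₀ + a := by linear_combination hx₀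
    have h2 : ‖x₀ ^ p‖ ≤ ‖x₀‖ := by
      rw [h1]
      refine (IsUltrametricDist.norm_add_le_max _ _).trans (max_le ?_ (han.trans hgt.le))
      rw [norm_mul, hvn, one_mul]
    rw [norm_pow] at h2
    have h3 : ‖x₀‖ < ‖x₀‖ ^ p := lt_self_pow₀ hgt (by omega)
    exact absurd h2 (not_le.2 h3)
  obtain ⟨w, hw, hxw⟩ := h68v_teich x₀ hx₀n
  have hwfix : ∀ g ∈ Γ, g w = w := fun g hg => h68v_teich_fix hw (hΓ hg)
  have hwn : ‖w‖ ≤ 1 := h68v_teich_norm hw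
  have hkey : ‖w ^ p - v * w - a‖ < 1 := by
    have h1 : w ^ p - v * w - a = (w ^ p - x₀ ^ p) - v * (w - x₀) := by
      linear_combination hx₀
    have hwx : ‖w - x₀‖ < 1 := by rw [← norm_neg, neg_sub]; exact hxw
    rw [h1]
    refine (h68v_norm_sub_le_max _ _).trans_lt (max_lt ?_ ?_)
    · exact (h68v_norm_pow_sub_pow_le hwn hx₀n p).trans_lt hwx
    · rw [norm_mul, hvn, one_mul]; exact hwx
  -- the correction `c = 1 + (ζ - 1) w`
  have htn : ‖(ζ - 1) * w‖ ≤ ‖ζ - 1‖ := by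
    rw [norm_mul]
    calc ‖ζ - 1‖ * ‖w‖ ≤ ‖ζ - 1‖ * 1 := mul_le_mul_of_nonneg_left hwn (norm_nonneg _)
      _ = ‖ζ - 1‖ := mul_one _
  have hbin := h68v_binom ((ζ - 1) * w) (htn.trans hl1.le)
  have hcn : ‖(1 + (ζ - 1) * w)‖ = 1 := by
    apply h68v_norm_eq_one_of_sub_lt
    have : 1 + (ζ - 1) * w - 1 = (ζ - 1) * w := by ring
    rw [this]
    exact htn.trans_lt hl1
  have hc0 : (1 + (ζ - 1) * w) ≠ 0 := by
    intro h0
    rw [h0, norm_zero] at hcn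
    exact zero_ne_one hcn
  have hdiff : β ^ p - (1 + (ζ - 1) * w) ^ p =
      -((ζ - 1) ^ p * (w ^ p - v * w - a)) -
        ((1 + (ζ - 1) * w) ^ p - 1 - (p : Om p) * ((ζ - 1) * w) - ((ζ - 1) * w) ^ p) := by
    rw [mul_pow]
    linear_combination (-1 : Om p) * hap - (v * w) * hpow - ((ζ - 1) * w) * hvp
  have hsmall : ‖β ^ p - (1 + (ζ - 1) * w) ^ p‖ < ‖ζ - 1‖ ^ p := by
    rw [hdiff]
    refine (h68v_norm_sub_le_max _ _).trans_lt (max_lt ?_ ?_)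
    · rw [norm_neg, norm_mul, norm_pow]
      calc ‖ζ - 1‖ ^ p * ‖w ^ p - v * w - a‖ < ‖ζ - 1‖ ^ p * 1 :=
            mul_lt_mul_of_pos_left hkey (pow_pos hlpos p)
        _ = ‖ζ - 1‖ ^ p := mul_one _
    · refine hbin.trans_lt ?_
      have h1 : ‖(ζ - 1) * w‖ ^ 2 ≤ ‖ζ - 1‖ ^ 2 :=
        pow_le_pow_left₀ (norm_nonneg _) htn 2
      have h2 : ‖ζ - 1‖ ^ (p - 1) * ‖ζ - 1‖ ^ 2 = ‖ζ - 1‖ ^ p * ‖ζ - 1‖ := by
        rw [← pow_add, ← pow_succ]; congr 1; omega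
      calc ‖((p : ℕ) : Om p)‖ * ‖(ζ - 1) * w‖ ^ 2
          ≤ ‖((p : ℕ) : Om p)‖ * ‖ζ - 1‖ ^ 2 :=
            mul_le_mul_of_nonneg_left h1 (norm_nonneg _)
        _ = ‖ζ - 1‖ ^ p * ‖ζ - 1‖ := by rw [← hlp, h2]
        _ < ‖ζ - 1‖ ^ p * 1 := mul_lt_mul_of_pos_left hl1 (pow_pos hlpos p)
        _ = ‖ζ - 1‖ ^ p := mul_one _
  -- the new generator
  have hcfix : ∀ g ∈ Γ, g (1 + (ζ - 1) * w) = 1 + (ζ - 1) * w := fun g hg => by
    rw [map_add, map_one, map_mul, map_sub, map_one, hfix g hg, hwfix g hg]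
  have hβ₂ : ∀ g ∈ Γ, g (β * (1 + (ζ - 1) * w)⁻¹) =
      ζ ^ (χ g).val * (β * (1 + (ζ - 1) * w)⁻¹) := fun g hg => by
    rw [map_mul, map_inv₀, hcfix g hg, hβ g hg]; ring
  have hlt : ‖(β * (1 + (ζ - 1) * w)⁻¹) ^ p - 1‖ < ‖ζ - 1‖ ^ p := by
    have h1 : (β * (1 + (ζ - 1) * w)⁻¹) ^ p - 1 =
        (β ^ p - (1 + (ζ - 1) * w) ^ p) * ((1 + (ζ - 1) * w) ^ p)⁻¹ :=
      h68v_div_pow β _ hc0
    rw [h1, norm_mul, norm_inv, norm_pow, hcn, one_pow, inv_one, mul_one]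
    exact hsmall
  exact h68v_top_strict Γ hζ hfix χ _ hβ₂ hlt

/-! ## Discreteness -/

/-- discreteness of the norms of a discretely valued fixed field. -/
theorem h68v_disc_step {Γ : Subgroup (Gq p)} {ϖ : Om p} (hD : IsDiscrete p Γ ϖ) (x : Om p)
    (hx : ∀ g ∈ Γ, g x = x) (j : ℕ) (hlt : ‖x‖ < ‖ϖ‖ ^ j) : ‖x‖ ≤ ‖ϖ‖ ^ (j + 1) := by
  obtain ⟨hϖmem, hϖ1, hϖ0, hdisc⟩ := hD
  have hϖpos : 0 < ‖ϖ‖ := norm_pos_iff.2 hϖ0
  by_cases hx0 : x = 0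
  · rw [hx0, norm_zero]
    exact pow_nonneg (norm_nonneg _) _
  have hyn : ‖x / ϖ ^ j‖ < 1 := by
    rw [norm_div, norm_pow, div_lt_one (pow_pos hϖpos j)]
    exact hlt
  have hyfix : ∀ g ∈ Γ, g (x / ϖ ^ j) = x / ϖ ^ j := fun g hg => by
    rw [map_div₀, map_pow, hx g hg, hϖmem.2 g hg]
  have hy0 : x / ϖ ^ j ≠ 0 := div_ne_zero hx0 (pow_ne_zero _ hϖ0)
  obtain ⟨n, u, -, hu1, hyu⟩ := hdisc (x / ϖ ^ j) ⟨hyn.le, hyfix⟩ hy0
  have hn : n ≠ 0 := by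
    rintro rfl
    rw [pow_zero, one_mul] at hyu
    rw [hyu, hu1] at hyn
    exact lt_irrefl _ hyn
  have hyle : ‖x / ϖ ^ j‖ ≤ ‖ϖ‖ := by
    rw [hyu, norm_mul, norm_pow, hu1, mul_one]
    exact pow_le_of_le_one (norm_nonneg _) hϖ1.le hn
  have hxy : x = x / ϖ ^ j * ϖ ^ j := by
    field_simp
  rw [hxy, norm_mul, norm_pow, pow_succ, mul_comm]
  exact mul_le_mul_of_nonneg_left hyle (pow_nonneg (norm_nonneg _) _)

/-! ## Arithmetic of `p² - 1` -/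

theorem h68v_arith (p : ℕ) (hp : 2 ≤ p) :
    0 < p ^ 2 - 1 ∧ ¬ p ∣ p ^ 2 - 1 ∧ (p - 1) ∣ p ^ 2 - 1 ∧
      p ^ 2 - 1 = (p + 1) * (p - 1) := by
  obtain ⟨q, rfl⟩ : ∃ q, p = q + 2 := ⟨p - 2, by omega⟩
  have h1 : (q + 2) ^ 2 - 1 = (q + 2 + 1) * (q + 2 - 1) := by
    have h2 : (q + 2) ^ 2 = (q + 2 + 1) * (q + 2 - 1) + 1 := by
      have : q + 2 - 1 = q + 1 := by omega
      rw [this]; ring
    omega
  refine ⟨?_, ?_, ?_, h1⟩
  · rw [h1]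
    exact Nat.mul_pos (by omega) (by omega)
  · intro hd
    have h3 : (q + 2) ∣ (q + 2) ^ 2 := dvd_pow_self _ (by norm_num)
    have h4 : 1 ≤ (q + 2) ^ 2 := Nat.one_le_pow _ _ (by omega)
    have h5 : (q + 2) ∣ 1 := by
      have := (Nat.dvd_sub h3 hd)
      rwa [Nat.sub_sub_self h4] at this
    have := Nat.le_of_dvd one_pos h5
    omega
  · rw [h1]
    exact dvd_mul_left _ _

/-- `‖π‖ ^ (p + 1) = ‖ζ - 1‖` for `π ^ (p² - 1) = p`. -/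
theorem h68v_norm_pi {π : Om p} (hπ : π ^ (p ^ 2 - 1) = p) {ζ : Om p}
    (hζ : IsPrimitiveRoot ζ p) : ‖π‖ ^ (p + 1) = ‖ζ - 1‖ := by
  have hp : p.Prime := Fact.out
  obtain ⟨-, -, -, h4⟩ := h68v_arith p hp.two_le
  have h1 : (‖π‖ ^ (p + 1)) ^ (p - 1) = ‖ζ - 1‖ ^ (p - 1) := by
    rw [← pow_mul, ← h4, ← norm_pow, hπ, h7g_norm_zeta_sub_one hζ]
  have h3 : p - 1 ≠ 0 := by have := hp.two_le; omega
  exact (pow_left_inj₀ (pow_nonneg (norm_nonneg _) _) (norm_nonneg _) h3).1 h1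

theorem h68v_norm_pi_lt_one {π : Om p} (hπ : π ^ (p ^ 2 - 1) = p) : ‖π‖ < 1 := by
  have hp : p.Prime := Fact.out
  obtain ⟨h1, -, -, -⟩ := h68v_arith p hp.two_le
  by_contra hge
  rw [not_lt] at hge
  have h2 : 1 ≤ ‖π‖ ^ (p ^ 2 - 1) := one_le_pow₀ hge
  rw [← norm_pow, hπ] at h2
  exact absurd h2 (not_le.2 h68v_norm_p_lt_one)

theorem h68v_pi_ne_zero {π : Om p} (hπ : π ^ (p ^ 2 - 1) = p) : π ≠ 0 := by
  have hp : p.Prime := Fact.out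
  obtain ⟨h1, -, -, -⟩ := h68v_arith p hp.two_le
  rintro rfl
  rw [zero_pow h1.ne'] at hπ
  exact hp.ne_zero (by exact_mod_cast hπ.symm)

end Fermat.Agent.S56F
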