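import Fermat.Agent.S56F.IfaceOrd

/-!
# S56 / LOC-p-FL, leaf FL-O1 (helper7): `V` is `LocFlat` if a locally flat cocycle exists

`h7s_locFlatSub : SubOrder → AutStabilize → CharCompleteAll → LocFlatSub`.

Proof.  Pull the nice order of `V × V` back along `j : w ↦ (0, w)` (`SubOrder`); `j` is
equivariant for the whole group, so conjugation stability is inherited; then enlarge
(`AutStabilize`) and use `CharCompleteAll`.
-/

set_option autoImplicit false
set_option linter.unusedSectionVars false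
set_option linter.style.haveILetI false

open Fermat.Agent.PT.Loc

noncomputable section

namespace Fermat.Agent.S56F

/-- **FL-O1.** -/
theorem h7s_locFlatSub (hS : SubOrder) (hA : AutStabilize) (hC : CharCompleteAll) :
    LocFlatSub := by
  intro p _ k _ _ V _ _ _ ρ c hc Γ
  haveI : Finite V := Module.finite_of_finite k
  obtain ⟨𝓗, hnice⟩ := hc.flat Γ
  -- the inclusion `w ↦ (0, w)`
  let j : V →+ V × V := AddMonoidHom.inr V V
  have hj : Function.Injective j := fun a b h => by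
    have := congrArg Prod.snd h
    simpa [j] using this
  have hjeq : ∀ (σ : Gq p) (x : V), j (ρ σ x) = defAct ρ c σ (j x) := by
    intro σ x
    simp [j, defAct]
  obtain ⟨𝓗N, hN, -⟩ := hS p Γ (V × V) (defAct ρ c) 𝓗 V (fun σ v => ρ σ v) j hj
    (fun σ _ x => hjeq σ x)
  have hact : IsAct (fun (σ : Gq p) (v : V) => ρ σ v) :=
    ⟨fun x => by simp, fun σ τ x => by simp [map_mul], fun σ x y => by simp⟩
  have hconj : ∀ τ : Gq p, (∀ σ ∈ Γ, τ * σ * τ⁻¹ ∈ Γ) → (∀ σ ∈ Γ, τ⁻¹ * σ * τ ∈ Γ) →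
      𝓗N.ConjStable τ := by
    intro τ h1 h2 g hg
    obtain ⟨f, hf, rfl⟩ := (hN g).mp hg
    refine (hN _).mpr ⟨fun y => τ (f (defAct ρ c τ⁻¹ y)), hnice.conj τ h1 h2 f hf, ?_⟩
    funext x
    simp only [Function.comp_apply]
    rw [hjeq]
  obtain ⟨𝓗', -, haut, hconj'⟩ := hA p Γ V _ hact 𝓗N hconj
  exact ⟨𝓗', ⟨haut, hconj', hC p Γ V _ 𝓗'⟩⟩

end Fermat.Agent.S56F
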