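import Fermat.Agent.S56F.FLO5_helper4
import Fermat.Agent.S56F.FLB7_helper87

/-!
# S56 / LOC-p-FL, leaf FL-O4 (helper4, prefix `h4p_`): `OrdPeu` from `UnitEigenP`

* `h4p_etale` (**étale quotients, any rank**): `𝓗` a character complete order over inertia on a
  finite `k`-module `M`, stable under `kˣ`; `L ≤ M` a `k`-submodule with inertia trivial on
  `M / L`.  Then every `x ∉ L` is separated from `0` modulo `𝔪` by an `L`-invariant function of
  `𝓗` (quotient order FL-B8, sub-order FL-B7 on the line `k x̄`, rank one FL-C5 with `m = 0`).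
* `h4p_ordPeu_of : UnitEigenP → OrdPeu`: `UnitEigenP` for `M = V × V`,
  `L = k[ε] (v₀, X v₀)`, `x = (v₁, X v₁)`, `ξ (v, w) = ζ ^ l (λ (w - X v))`.
-/

set_option autoImplicit false
set_option linter.style.haveILetI false

open Fermat.Agent.PT.Loc

noncomputable section

namespace Fermat.Agent.S56F

/-- **Étale quotients, any rank.** -/
theorem h4p_etale (p : ℕ) [Fact p.Prime] (hp2 : p ≠ 2) (k : Type) [Field k] [Finite k]
    [CharP k p] (M : Type) [AddCommGroup M] [Module k M] [Finite M] (act : Gq p → M → M)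
    (hact : IsAct act) (𝓗 : FHO p (inertia p) M act) (hchar : 𝓗.CharComplete)
    (hstab : ∀ a : kˣ, 𝓗.StableUnder (fun x => a • x))
    (L : Submodule k M) (htriv : ∀ σ ∈ inertia p, ∀ x, act σ x - x ∈ L) :
    ∀ x, x ∉ L → ∃ f ∈ 𝓗.carrier, (∀ y ∈ L, ∀ z, f (z + y) = f z) ∧ ‖f x - f 0‖ = 1 := by
  classical
  intro x hx
  have hq : ∀ y : M, L.mkQ y = 0 ↔ y ∈ L := fun y => by
    rw [Submodule.mkQ_apply]
    exact Submodule.Quotient.mk_eq_zero L
  have hactQ : IsAct (fun (_ : Gq p) (z : M ⧸ L) => z) :=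
    ⟨fun _ => rfl, fun _ _ _ => rfl, fun _ _ _ => rfl⟩
  -- the quotient order
  obtain ⟨𝓗Q, hmemQ, hcharQ⟩ := h9q_quotOrder p (inertia p) (p : Om p) (h45f_inertiaDiscrete p)
    M act hact 𝓗 (M ⧸ L) (fun _ z => z) L.mkQ.toAddMonoidHom (Submodule.mkQ_surjective L)
    (fun σ hσ y => by
      show L.mkQ (act σ y) = L.mkQ y
      rw [← sub_eq_zero, ← map_sub]
      exact (hq _).2 (htriv σ hσ y))
  have hstabQ : ∀ a : kˣ, 𝓗Q.StableUnder (fun z => a • z) := by
    intro a f hf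
    rw [hmemQ]
    have h1 := hstab a _ ((hmemQ f).1 hf)
    have h2 : (fun z => f (a • z)) ∘ (L.mkQ.toAddMonoidHom : M → M ⧸ L) =
        fun y => (f ∘ (L.mkQ.toAddMonoidHom : M → M ⧸ L)) (a • y) := by
      funext y
      show f (a • L.mkQ y) = f (L.mkQ (a • y))
      rw [Units.smul_def, Units.smul_def, map_smul]
    rw [h2]
    exact h1
  -- the line spanned by the image of `x`
  set y : M ⧸ L := L.mkQ x with hy
  have hy0 : y ≠ 0 := fun h => hx ((hq x).1 h)
  set N : Submodule k (M ⧸ L) := Submodule.span k {y} with hN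
  have hrank : Module.finrank k N = 1 := finrank_span_singleton hy0
  haveI : Finite (M ⧸ L) := Finite.of_surjective _ (Submodule.mkQ_surjective L)
  obtain ⟨𝓗N, hmemN, hcharN⟩ := h87f_subOrder p (inertia p) (M ⧸ L) (fun _ z => z) 𝓗Q N
    (fun _ z => z) N.subtype.toAddMonoidHom (Submodule.injective_subtype N) (fun _ _ _ => rfl)
  have hstabN : ∀ a : kˣ, 𝓗N.StableUnder (fun z => a • z) := by
    intro a g hg
    obtain ⟨f, hf, rfl⟩ := (hmemN g).1 hg
    rw [hmemN]
    exact ⟨fun z => f (a • z), hstabQ a f hf, rfl⟩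
  have hactN : IsAct (fun (_ : Gq p) (z : N) => z) :=
    ⟨fun _ => rfl, fun _ _ _ => rfl, fun _ _ _ => rfl⟩
  obtain ⟨X, hXmem, hX0, hXn⟩ := h4o_unit_of_trivial p hp2 k N (fun _ z => z) hactN 𝓗N
    (hcharN (hcharQ hchar)) hstabN N hrank LinearMap.id Function.surjective_id
    (fun _ _ _ => rfl)
  obtain ⟨G, hG, hXG⟩ := (hmemN _).1 hXmem
  have hXG' : ∀ z : N, X z = G (z : M ⧸ L) := fun z => congrFun hXG z
  refine ⟨G ∘ (L.mkQ.toAddMonoidHom : M → M ⧸ L), (hmemQ G).1 hG, fun w hw z => ?_, ?_⟩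
  · show G (L.mkQ (z + w)) = G (L.mkQ z)
    rw [map_add, (hq w).2 hw, add_zero]
  · show ‖G (L.mkQ x) - G (L.mkQ 0)‖ = 1
    have hyN : y ∈ N := Submodule.mem_span_singleton_self y
    have h1 : G (L.mkQ x) = X ⟨y, hyN⟩ := (hXG' ⟨y, hyN⟩).symm
    have h2 : G (L.mkQ 0) = X 0 := by
      rw [map_zero]
      exact (hXG' 0).symm
    rw [h1, h2, hX0, sub_zero]
    apply hXn
    intro h
    exact hy0 (congrArg Subtype.val h)

/-- The deformed action is an action. -/
theorem h4p_isAct (p : ℕ) [Fact p.Prime] {k : Type} [Field k] {V : Type} [AddCommGroup V]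
    [Module k V] (ρ : Gq p →* Module.End k V) (c : Gq p → Module.End k V)
    (hc : ∀ σ τ : Gq p, c (σ * τ) = c σ + ρ σ * c τ * ρ σ⁻¹) : IsAct (defAct ρ c) := by
  have hinv : ∀ σ : Gq p, ρ σ⁻¹ * ρ σ = 1 := fun σ => by
    rw [← map_mul, inv_mul_cancel, map_one]
  have hc1 : c 1 = 0 := by
    have := hc 1 1
    simp only [mul_one, map_one, inv_one, one_mul] at this
    exact left_eq_add.mp this
  refine ⟨fun x => ?_, fun σ τ x => ?_, fun σ x y => ?_⟩
  · simp [defAct, hc1]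
  · have h3 : c (σ * τ) * ρ σ = c σ * ρ σ + ρ σ * c τ := by
      rw [hc, add_mul, mul_assoc, hinv, mul_one]
    have h4 : c (σ * τ) (ρ σ (ρ τ x.1)) = c σ (ρ σ (ρ τ x.1)) + ρ σ (c τ (ρ τ x.1)) := by
      have := congrArg (fun f : Module.End k V => f (ρ τ x.1)) h3
      simpa using this
    simp only [defAct, map_mul, Module.End.mul_apply, map_add, h4]
    congr 1
    abel
  · simp only [defAct, Prod.fst_add, Prod.snd_add, map_add]
    ext
    · rfl
    · simp only [Prod.snd_add]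
      abel

/-- **FL-O4** from `UnitEigenP`. -/
theorem h4p_ordPeu_of (hU : UnitEigenP) : OrdPeu := by
  intro p _ k _ _ _ V _ _ _ ρ hρ v₀ hNF c hc X _ hsh ζ hζ _ v₁ l
  classical
  have hpp : p.Prime := Fact.out
  obtain ⟨𝓗, hnice⟩ := hc.flat (inertia p)
  haveI : Finite V := Module.finite_of_finite k
  have hact : IsAct (defAct ρ c) := h4p_isAct p ρ c hc.cocycle
  have hinv : ∀ σ : Gq p, ∀ v : V, ρ σ⁻¹ (ρ σ v) = v := fun σ v => by
    rw [← Module.End.mul_apply, ← map_mul, inv_mul_cancel, map_one, Module.End.one_apply]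
  -- `c = f + coB X`
  have hcf : ∀ (σ : Gq p) (v : V),
      c σ (ρ σ v) = (c - coB p ρ X) σ (ρ σ v) + X (ρ σ v) - ρ σ (X v) := by
    intro σ v
    simp only [Pi.sub_apply, coB, LinearMap.sub_apply, Module.End.mul_apply, hinv]
    abel
  have hstab : ∀ a : kˣ, 𝓗.StableUnder (fun x => a • x) := by
    intro a
    exact hnice.aut (DistribMulAction.toAddEquiv (V × V) a) (fun σ _ x => by
      show a • defAct ρ c σ x = defAct ρ c σ (a • x)
      simp only [defAct, Units.smul_def, Prod.smul_fst, Prod.smul_snd, map_smul, Prod.smul_mk,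
        smul_add])
  -- the submodule `L = k[ε] (v₀, X v₀)`
  set L : Submodule k (V × V) := Submodule.span k {((v₀, X v₀) : V × V), ((0, v₀) : V × V)}
    with hL
  have hLmem : ∀ (a b : k), ((a • v₀, a • X v₀ + b • v₀) : V × V) ∈ L := by
    intro a b
    have h1 : ((a • v₀, a • X v₀ + b • v₀) : V × V) =
        a • ((v₀, X v₀) : V × V) + b • ((0, v₀) : V × V) := by
      ext <;> simp
    rw [h1]
    exact L.add_mem (L.smul_mem _ (Submodule.subset_span (by simp)))
      (L.smul_mem _ (Submodule.subset_span (by simp)))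
  have hLex : ∀ y ∈ L, ∃ a b : k, y = ((a • v₀, a • X v₀ + b • v₀) : V × V) := by
    intro y hy
    rw [hL, Submodule.mem_span_pair] at hy
    obtain ⟨a, b, rfl⟩ := hy
    exact ⟨a, b, by ext <;> simp⟩
  -- inertia is trivial modulo `L`
  have htriv : ∀ σ ∈ inertia p, ∀ x, defAct ρ c σ x - x ∈ L := by
    intro σ hσ x
    obtain ⟨a, ha⟩ := hNF.inert_quot σ hσ x.1
    obtain ⟨b₁, hb₁⟩ := hNF.inert_quot σ hσ x.2
    obtain ⟨b₂, hb₂⟩ := hsh.inert_range σ hσ (ρ σ x.1)
    obtain ⟨b₃, hb₃⟩ := hNF.inert_quot σ hσ (X x.1)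
    have h1 : defAct ρ c σ x - x =
        ((a • v₀, a • X v₀ + (b₁ + b₂ - b₃) • v₀) : V × V) := by
      have e1 : ρ σ x.1 = x.1 + a • v₀ := by rw [← ha]; abel
      ext
      · show ρ σ x.1 - x.1 = a • v₀
        exact ha
      · show ρ σ x.2 + c σ (ρ σ x.1) - x.2 = a • X v₀ + (b₁ + b₂ - b₃) • v₀
        rw [hcf, hb₂]
        have e2 : X (ρ σ x.1) = X x.1 + a • X v₀ := by rw [e1, map_add, map_smul]
        have e3 : (b₁ + b₂ - b₃) • v₀ =
            (ρ σ x.2 - x.2) + b₂ • v₀ - (ρ σ (X x.1) - X x.1) := by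
          rw [sub_smul, add_smul, hb₁, hb₃]
        rw [e2, e3]
        abel
    rw [h1]
    exact hLmem _ _
  -- `I₁` is trivial on `L`
  have hfix : ∀ g ∈ inertia p, cycExp p g 1 → ∀ y ∈ L.toAddSubgroup, defAct ρ c g y = y := by
    intro g hgI hg1 y hy
    obtain ⟨a, b, rfl⟩ := hLex y hy
    have e0 : ρ g v₀ = v₀ := by
      rw [hNF.inert_line g hgI 1 hg1, Nat.cast_one, one_smul]
    have e1 : c g v₀ = X v₀ - ρ g (X v₀) := by
      have := hcf g v₀
      rw [e0, hsh.inert_zero g hgI, zero_add] at this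
      exact this
    ext
    · show ρ g (a • v₀) = a • v₀
      rw [map_smul, e0]
    · show ρ g (a • X v₀ + b • v₀) + c g (ρ g (a • v₀)) = a • X v₀ + b • v₀
      rw [map_smul, e0, map_add, map_smul, map_smul, e0, map_smul, e1, smul_sub]
      abel
  -- the character
  obtain ⟨lam, hlam⟩ := Module.Projective.exists_dual_eq_one k hNF.ne
  set ξ : V × V → Om p := fun x => ζ ^ (l (lam (x.2 - X x.1))).val with hξ
  have hξ0 : ξ 0 = 1 := by
    simp [hξ]
  have hξmul : ∀ x y, ξ (x + y) = ξ x * ξ y := by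
    intro x y
    simp only [hξ]
    have h1 : (x + y).2 - X (x + y).1 = (x.2 - X x.1) + (y.2 - X y.1) := by
      simp only [Prod.fst_add, Prod.snd_add, map_add]
      abel
    rw [h1, map_add, map_add, ← pow_add, ZMod.val_add, ← pow_eq_pow_mod _ hζ]
  have hpV : ∀ x : V × V, p • x = 0 := by
    intro x
    rw [← Nat.cast_smul_eq_nsmul k p x, CharP.cast_eq_zero k p, zero_smul]
  obtain ⟨β, hβ, hg⟩ := hU p hρ.odd (V × V) (defAct ρ c) hact hpV 𝓗 hnice.char L.toAddSubgroup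
    (fun σ hσ x => htriv σ hσ x) hfix
    (h4p_etale p hρ.odd k (V × V) (defAct ρ c) hact 𝓗 hnice.char hstab L htriv)
    ξ hξ0 hξmul ((v₁, X v₁) : V × V)
  refine ⟨β, hβ, fun g hgI hg1 b hb => ?_⟩
  rw [hg g hgI hg1]
  congr 1
  show ζ ^ (l (lam ((ρ g (X v₁) + c g (ρ g v₁) - X v₁) - X (ρ g v₁ - v₁)))).val = _
  have e0 : ρ g v₀ = v₀ := by
    rw [hNF.inert_line g hgI 1 hg1, Nat.cast_one, one_smul]
  obtain ⟨b₀, hb₀⟩ := hNF.inert_quot g hgI v₁
  have e1 : ρ g v₁ = v₁ + b₀ • v₀ := by rw [← hb₀]; abel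
  have e2 : (c - coB p ρ X) g (ρ g v₁) = b • v₀ := by
    rw [e1, map_add, map_smul, hb]
    have := hsh.inert_zero g hgI
    rw [this, smul_zero, add_zero]
  have e3 : (ρ g (X v₁) + c g (ρ g v₁) - X v₁) - X (ρ g v₁ - v₁) = b • v₀ := by
    rw [hcf, e2, map_sub]
    abel
  rw [e3, map_smul, hlam, smul_eq_mul, mul_one]

end Fermat.Agent.S56F
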