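import Fermat.Agent.S56F.IfaceHopf3
import Fermat.Agent.S56F.FLB8final_helper9
import Fermat.Agent.S56F.FLC5Final_helper89
import Fermat.Agent.S56F.FLC1_helper7
import Fermat.Agent.S56F.FLC0_helper34

/-!
# S56 / LOC-p-FL, leaf FL-O5 (helper4, prefix `h4o_`): `OrdPeuRep` from `UnitEigenP`

* `h4o_unit_of_trivial` (**étale quotients**): `𝓗` a character complete order over inertia on a
  finite `k`-module `M`, stable under `kˣ`; `π : M → Q` a surjective `k`-linear map onto a line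
  on which inertia acts trivially.  Then there is `X : Q → Om p` with `X ∘ π ∈ 𝓗`, `X 0 = 0` and
  `‖X y‖ = 1` for `y ≠ 0`  (quotient order FL-B8, rank one FL-C5 with `m = 0`).
* `h4o_ordPeuRep_of : UnitEigenP → OrdPeuRep`.
-/

set_option autoImplicit false
set_option linter.style.haveILetI false

open Fermat.Agent.PT.Loc

noncomputable section

namespace Fermat.Agent.S56F

/-- Rank one, unconditional. -/
theorem h4o_rankOne : RankOne := h89f_rankOne_of h7g_gaussNorm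

/-- A number with `p`-adic digits `0, 1` (at most `r` digits) divisible by `p ^ r - 1` is `0`
(`p ≥ 3`). -/
theorem h4o_digits_zero (p r : ℕ) (hp : 3 ≤ p) (S : Finset (Fin r)) (m : ℕ)
    (hm : m = ∑ i ∈ S, p ^ (i : ℕ)) (hdvd : (p ^ r - 1) ∣ m) : m = 0 := by
  have h1 : m ≤ ∑ i : Fin r, p ^ (i : ℕ) := by
    rw [hm]
    exact Finset.sum_le_sum_of_subset (Finset.subset_univ S)
  have h2 : ∑ i : Fin r, p ^ (i : ℕ) = ∑ i ∈ Finset.range r, p ^ i :=
    Fin.sum_univ_eq_sum_range (fun i => p ^ i) r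
  have h3 : (p - 1) * ∑ i ∈ Finset.range r, p ^ i = p ^ r - 1 := by
    have := Nat.geomSum_eq (m := p) (by omega) r
    rw [this]
    have h4 : (p - 1) ∣ p ^ r - 1 := by
      have := Nat.sub_dvd_pow_sub_pow p 1 r
      simpa using this
    exact Nat.mul_div_cancel' h4
  by_contra hne
  have hpos : 0 < m := Nat.pos_of_ne_zero hne
  have h5 : p ^ r - 1 ≤ m := Nat.le_of_dvd hpos hdvd
  have h6 : (p - 1) * m ≤ p ^ r - 1 := by
    rw [← h3]
    exact Nat.mul_le_mul_left _ (h1.trans (le_of_eq h2))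
  have h7 : 2 * m ≤ (p - 1) * m := Nat.mul_le_mul_right _ (by omega)
  omega

/-- **Étale quotients.** -/
theorem h4o_unit_of_trivial (p : ℕ) [Fact p.Prime] (hp2 : p ≠ 2) (k : Type) [Field k] [Finite k]
    [CharP k p] (M : Type) [AddCommGroup M] [Module k M] [Finite M] (act : Gq p → M → M)
    (hact : IsAct act) (𝓗 : FHO p (inertia p) M act) (hchar : 𝓗.CharComplete)
    (hstab : ∀ a : kˣ, 𝓗.StableUnder (fun x => a • x))
    (Q : Type) [AddCommGroup Q] [Module k Q] (hrank : Module.finrank k Q = 1)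
    (π : M →ₗ[k] Q) (hπ : Function.Surjective π)
    (htriv : ∀ σ ∈ inertia p, ∀ x, π (act σ x) = π x) :
    ∃ X : Q → Om p, (fun x => X (π x)) ∈ 𝓗.carrier ∧ X 0 = 0 ∧ ∀ y : Q, y ≠ 0 → ‖X y‖ = 1 := by
  classical
  letI : Fintype k := Fintype.ofFinite k
  have hpp : p.Prime := Fact.out
  have hp3 : 3 ≤ p := by
    have := hpp.two_le
    omega
  obtain ⟨𝓗Q, hmem, hcharQ⟩ := h9q_quotOrder p (inertia p) (p : Om p) (h45f_inertiaDiscrete p)
    M act hact 𝓗 Q (fun _ x => x) π.toAddMonoidHom hπ (fun σ hσ x => htriv σ hσ x)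
  have hstabQ : ∀ a : kˣ, 𝓗Q.StableUnder (fun x => a • x) := by
    intro a f hf
    rw [hmem]
    have h1 := hstab a _ ((hmem f).1 hf)
    have h2 : (fun x => f (a • x)) ∘ (π.toAddMonoidHom : M → Q) =
        fun x => (f ∘ (π.toAddMonoidHom : M → Q)) (a • x) := by
      funext x
      show f (a • π x) = f (π (a • x))
      rw [Units.smul_def, Units.smul_def, map_smul]
    rw [h2]
    exact h1
  obtain ⟨r, -, hcard⟩ := FiniteField.card k p
  obtain ⟨τ, hτ⟩ := h34t_teichExists p k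
  have hr1 : 1 < p ^ (r : ℕ) := Nat.one_lt_pow r.pos.ne' hpp.one_lt
  have hn0 : 0 < p ^ (r : ℕ) - 1 := by omega
  obtain ⟨π₀, hπ₀⟩ := IsAlgClosed.exists_pow_nat_eq (p : Om p) hn0
  obtain ⟨m, ⟨S, hS⟩, hχ, hX⟩ := h4o_rankOne p hp2 k r hcard Q hrank (fun _ x => x)
    (fun _ => 1) (fun σ _ x => (one_smul _ x).symm) 𝓗Q hstabQ (hcharQ hchar) τ hτ π₀ hπ₀
  -- `m = 0`
  have hm0 : m = 0 := by
    apply h4o_digits_zero p r hp3 S m hS
    haveI : NeZero ((p ^ (r : ℕ) - 1 : ℕ) : Om p) := ⟨by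
      have : (p ^ (r : ℕ) - 1 : ℕ) ≠ 0 := hn0.ne'
      exact_mod_cast this⟩
    obtain ⟨ζ₀, hζ₀⟩ := HasEnoughRootsOfUnity.exists_primitiveRoot (Om p) (p ^ (r : ℕ) - 1)
    have hndvd : ¬ p ∣ p ^ (r : ℕ) - 1 := by
      intro h
      have h1 : p ∣ p ^ (r : ℕ) := dvd_pow_self p r.pos.ne'
      have h2 : p ∣ p ^ (r : ℕ) - (p ^ (r : ℕ) - 1) := Nat.dvd_sub h1 h
      have h3 : p ^ (r : ℕ) - (p ^ (r : ℕ) - 1) = 1 := by omega
      rw [h3] at h2
      exact hpp.one_lt.ne' (Nat.dvd_one.1 h2)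
    obtain ⟨σ, hσ, hσπ⟩ := h89f_fundSurjective p (p ^ (r : ℕ) - 1) hn0 hndvd π₀ hπ₀ ζ₀
      hζ₀.pow_eq_one
    have hπne : π₀ ≠ 0 := by
      intro h
      rw [h, zero_pow hn0.ne'] at hπ₀
      have : (p : Om p) ≠ 0 := by exact_mod_cast hpp.ne_zero
      exact this hπ₀.symm
    have h1 := hχ σ hσ
    rw [map_one, Units.val_one, hσπ, mul_div_assoc, div_self hπne, mul_one] at h1
    exact hζ₀.dvd_of_pow_eq_one m h1.symm
  obtain ⟨X, hXmem, hX0, hXn⟩ := hX 0 r.pos
  refine ⟨X, (hmem X).1 hXmem, hX0, fun y hy => ?_⟩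
  have h1 := hXn y hy
  rw [hm0, mul_zero, Nat.zero_mod, pow_zero] at h1
  exact (pow_eq_one_iff_of_nonneg (norm_nonneg _) hn0.ne').1 h1

/-- **FL-O5** from `UnitEigenP`. -/
theorem h4o_ordPeuRep_of (hU : UnitEigenP) : OrdPeuRep := by
  intro p _ k _ _ _ V _ _ _ ρ hρ v₀ hNF hflat ζ hζ _ v₁ l
  classical
  have hpp : p.Prime := Fact.out
  obtain ⟨𝓗, hnice⟩ := hflat (inertia p)
  haveI : Finite V := Module.finite_of_finite k
  have hact : IsAct (fun (σ : Gq p) (v : V) => ρ σ v) :=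
    ⟨fun x => by simp, fun σ τ x => by simp [map_mul], fun σ x y => map_add _ x y⟩
  have hstab : ∀ a : kˣ, 𝓗.StableUnder (fun x => a • x) := by
    intro a
    exact hnice.aut (DistribMulAction.toAddEquiv V a) (fun σ _ x => by
      show a • ρ σ x = ρ σ (a • x)
      rw [Units.smul_def, Units.smul_def, map_smul])
  set L : Submodule k V := Submodule.span k {v₀} with hL
  have hrank : Module.finrank k (V ⧸ L) = 1 := by
    have h1 := Submodule.finrank_quotient_add_finrank L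
    have h2 : Module.finrank k L = 1 := finrank_span_singleton hNF.ne
    rw [hρ.rank, h2] at h1
    omega
  have hq : ∀ y : V, L.mkQ y = 0 ↔ y ∈ L := fun y => by
    rw [Submodule.mkQ_apply]
    exact Submodule.Quotient.mk_eq_zero L
  have hmemL : ∀ σ ∈ inertia p, ∀ x, ρ σ x - x ∈ L := by
    intro σ hσ x
    obtain ⟨b, hb⟩ := hNF.inert_quot σ hσ x
    rw [hb]
    exact Submodule.smul_mem _ _ (Submodule.mem_span_singleton_self v₀)
  obtain ⟨X, hXmem, hX0, hXn⟩ := h4o_unit_of_trivial p hρ.odd k V (fun σ v => ρ σ v) hact 𝓗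
    hnice.char hstab (V ⧸ L) hrank L.mkQ (Submodule.mkQ_surjective L) (fun σ hσ x => by
      show L.mkQ (ρ σ x) = L.mkQ x
      rw [← sub_eq_zero, ← map_sub]
      exact (hq _).2 (hmemL σ hσ x))
  -- the character
  obtain ⟨lam, hlam⟩ := Module.Projective.exists_dual_eq_one k hNF.ne
  set ξ : V → Om p := fun v => ζ ^ (l (lam v)).val with hξ
  have hξ0 : ξ 0 = 1 := by
    simp [hξ]
  have hξmul : ∀ x y, ξ (x + y) = ξ x * ξ y := by
    intro x y
    simp only [hξ]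
    rw [map_add, map_add, ← pow_add, ZMod.val_add, ← pow_eq_pow_mod _ hζ]
  have hpV : ∀ x : V, p • x = 0 := by
    intro x
    rw [← Nat.cast_smul_eq_nsmul k p x, CharP.cast_eq_zero k p, zero_smul]
  obtain ⟨β, hβ, hg⟩ := hU p hρ.odd V (fun σ v => ρ σ v) hact hpV 𝓗 hnice.char L.toAddSubgroup
    (fun σ hσ x => hmemL σ hσ x)
    (fun g hgI hg1 y hy => by
      obtain ⟨c, rfl⟩ := Submodule.mem_span_singleton.1 hy
      show ρ g (c • v₀) = c • v₀
      rw [map_smul, hNF.inert_line g hgI 1 hg1, Nat.cast_one, one_smul])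
    (fun x hx => by
      refine ⟨fun z => X (L.mkQ z), hXmem, fun y hy z => ?_, ?_⟩
      · show X (L.mkQ (z + y)) = X (L.mkQ z)
        rw [map_add, (hq y).2 hy, add_zero]
      · show ‖X (L.mkQ x) - X (L.mkQ 0)‖ = 1
        rw [map_zero, hX0, sub_zero]
        apply hXn
        intro h
        exact hx ((hq x).1 h))
    ξ hξ0 hξmul v₁
  refine ⟨β, hβ, fun g hgI hg1 b hb => ?_⟩
  rw [hg g hgI hg1]
  show ξ (ρ g v₁ - v₁) * β = _
  rw [hb]
  simp only [hξ]
  rw [map_smul, hlam, smul_eq_mul, mul_one]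

end Fermat.Agent.S56F
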