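import Fermat.Agent.S56F.IfaceO8
import Fermat.Agent.S56F.FLO3_helper84
import Fermat.Agent.S56F.FLC5Final_helper89
import Fermat.Agent.S56F.FLD4_helper7

/-!
# S56 / LOC-p-FL, row FL-O8a (helper84): `H34KCob`

A `ψ`-cocycle vanishing on `I₁ = {g ∈ inertia, g = 1 on μ_p}` is a coboundary.
-/

set_option autoImplicit false

open Fermat.Agent.PT.Loc

noncomputable section

namespace Fermat.Agent.S56F

/-- the commutator `τ⁻¹ σ₀⁻¹ τ σ₀` acts trivially on `μ_p`. -/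
theorem h84k_comm_cycExp {p : ℕ} [Fact p.Prime] (σ τ : Gq p) :
    cycExp p (τ⁻¹ * σ⁻¹ * τ * σ) 1 := by
  obtain ⟨a, ha⟩ := h84o_exists_cycExp σ
  obtain ⟨b, hb⟩ := h84o_exists_cycExp τ
  intro μ hμ
  rw [pow_one]
  have h1 : (τ * σ) μ = (σ * τ) μ := by
    rw [AlgEquiv.mul_apply, AlgEquiv.mul_apply, ha μ hμ, hb μ hμ, map_pow, map_pow, ha μ hμ,
      hb μ hμ, ← pow_mul, ← pow_mul, mul_comm]
  have h2 : τ⁻¹ * σ⁻¹ * τ * σ = (σ * τ)⁻¹ * (τ * σ) := by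
    rw [mul_inv_rev]
    group
  rw [h2, AlgEquiv.mul_apply, h1, ← AlgEquiv.mul_apply, inv_mul_cancel, AlgEquiv.one_apply]

/-- **FL-O8a.** -/
theorem h84k_kCob : H34KCob := by
  intro p _ hp2 k _ _ ψ hψ μ hμ hμ1
  obtain ⟨σ₀, hσ₀, a₀, ha₀, ha₀1⟩ :=
    h84o_exists_inert_ne_one h89f_fundSurjective h7c_cycFund hp2 k
  have hψσ₀ : ((ψ σ₀ : kˣ) : k) - 1 ≠ 0 := by
    rw [hψ σ₀ hσ₀ a₀ ha₀]
    exact sub_ne_zero.mpr ha₀1
  set x : k := μ σ₀ / (((ψ σ₀ : kˣ) : k) - 1) with hx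
  set μ' : Gq p → k := fun σ => μ σ - (((ψ σ : kˣ) : k) - 1) * x with hμ'
  have hcoc : ∀ σ τ, μ' (σ * τ) = μ' σ + ((ψ σ : kˣ) : k) * μ' τ := by
    intro σ τ
    simp only [hμ', hμ σ τ, map_mul, Units.val_mul]
    ring
  have hσ₀0 : μ' σ₀ = 0 := by
    simp only [hμ', hx]
    field_simp
    ring
  have hI1 : ∀ g ∈ inertia p, cycExp p g 1 → μ' g = 0 := by
    intro g hg hg1
    have h1 := hψ g hg 1 hg1
    simp only [hμ', hμ1 g hg hg1, h1, Nat.cast_one, sub_self, zero_mul]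
  refine ⟨x, fun τ => ?_⟩
  have hzero : μ' τ = 0 := by
    set h : Gq p := τ⁻¹ * σ₀⁻¹ * τ * σ₀ with hh
    have hhI : h ∈ inertia p := by
      have h1 : τ⁻¹ * σ₀⁻¹ * τ ∈ inertia p :=
        h84o_inertia_conj' τ ((inertia p).inv_mem hσ₀)
      exact (inertia p).mul_mem h1 hσ₀
    have hh0 : μ' h = 0 := hI1 h hhI (h84k_comm_cycExp σ₀ τ)
    have hrel : τ * σ₀ = σ₀ * (τ * h) := by
      rw [hh]
      group
    have e1 : μ' (τ * σ₀) = μ' τ := by rw [hcoc, hσ₀0, mul_zero, add_zero]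
    have e2 : μ' (σ₀ * (τ * h)) = ((ψ σ₀ : kˣ) : k) * μ' τ := by
      rw [hcoc, hσ₀0, zero_add, hcoc, hh0, mul_zero, add_zero]
    rw [hrel, e2] at e1
    have e3 : (((ψ σ₀ : kˣ) : k) - 1) * μ' τ = 0 := by
      rw [sub_mul, one_mul, e1, sub_self]
    rcases mul_eq_zero.1 e3 with h | h
    · exact absurd h hψσ₀
    · exact h
  have := hzero
  simp only [hμ'] at this
  exact sub_eq_zero.1 this

end Fermat.Agent.S56F
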