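import Fermat.Agent.S56F.IfaceO8

/-!
# S56 / LOC-p-FL, row FL-O8c (helper75): the semilinear count `H34KSemilin`

Pure algebra (Mathlib + the frozen interface).

* `h75s_core` : functions `v i : X → κ` (`κ` a field of characteristic `p`) with
  `v i (θ x) = v i x ^ p` for a surjective `θ : X → X` which are linearly independent over
  `𝔽_p` are linearly independent over `κ` (shortest relation, Frobenius twist, subtract).
* `h75s_finrank_le` : a finite dimensional `𝔽_p`-space of Frobenius-fixed `𝔽_p`-linear maps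
  `X → κ` has dimension `≤ dim_{𝔽_p} X`.
* `h75s_kSemilin : H34KSemilin` : with `X = Hom_{𝔽_p}(k, 𝔽_p)`, `θ l = l ∘ c`: the maps
  `x ↦ T (x • μ₀)` form an `𝔽_p`-space of dimension `dim k` (if `T μ₀ ≠ 0`), so every `T μ` is
  one of them.
-/

set_option autoImplicit false
set_option linter.style.haveILetI false

open Finset

namespace Fermat.Agent.S56F

/-- an element fixed by the Frobenius lies in the prime field. -/
theorem h75s_mem_prime {p : ℕ} [Fact p.Prime] {κ : Type*} [Field κ] [CharP κ p]
    [Algebra (ZMod p) κ] {b : κ} (hb : b ^ p = b) : ∃ n : ZMod p, algebraMap (ZMod p) κ n = b := by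
  have h1 : b ∈ (⊥ : Subfield κ) := (Subfield.mem_bot_iff_pow_eq_self κ p).mpr hb
  have h2 : (⊥ : Subfield κ) ≤ (algebraMap (ZMod p) κ).fieldRange := bot_le
  exact h2 h1

/-- **Frobenius-fixed functions**: `𝔽_p`-linearly independent functions `v i : X → κ` with
`v i (θ x) = v i x ^ p` (`θ` surjective) are `κ`-linearly independent. -/
theorem h75s_core {p : ℕ} [Fact p.Prime] {κ : Type*} [Field κ] [CharP κ p]
    [Algebra (ZMod p) κ] {X ι : Type*} (θ : X → X) (hθ : Function.Surjective θ)
    (v : ι → X → κ) (hv : ∀ i x, v i (θ x) = v i x ^ p)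
    (hind : ∀ (s : Finset ι) (n : ι → ZMod p),
      (∀ x, ∑ i ∈ s, algebraMap (ZMod p) κ (n i) * v i x = 0) → ∀ i ∈ s, n i = 0)
    (s : Finset ι) :
    ∀ a : ι → κ, (∀ x, ∑ i ∈ s, a i * v i x = 0) → ∀ i ∈ s, a i = 0 := by
  classical
  induction s using Finset.induction_on with
  | empty =>
    intro a _ i hi
    exact absurd hi (Finset.notMem_empty i)
  | insert i₀ s' hi₀ ih =>
    intro a ha
    have key : a i₀ = 0 := by
      by_contra h0
      have hb : ∀ x, v i₀ x + ∑ i ∈ s', (a i / a i₀) * v i x = 0 := by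
        intro x
        have h1 := ha x
        rw [Finset.sum_insert hi₀] at h1
        have h2 : v i₀ x + ∑ i ∈ s', (a i / a i₀) * v i x =
            (a i₀)⁻¹ * (a i₀ * v i₀ x + ∑ i ∈ s', a i * v i x) := by
          rw [mul_add, Finset.mul_sum, ← mul_assoc, inv_mul_cancel₀ h0, one_mul]
          congr 1
          refine Finset.sum_congr rfl fun i _ => ?_
          rw [div_eq_mul_inv]
          ring
        rw [h2, h1, mul_zero]
      have hb' : ∀ x, v i₀ x + ∑ i ∈ s', (a i / a i₀) ^ p * v i x = 0 := by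
        intro x
        obtain ⟨y, rfl⟩ := hθ x
        have h1 : (v i₀ y + ∑ i ∈ s', (a i / a i₀) * v i y) ^ p = 0 ^ p := by rw [hb y]
        rw [add_pow_char, sum_pow_char, zero_pow (Fact.out : p.Prime).ne_zero] at h1
        rw [hv, ← h1]
        congr 1
        refine Finset.sum_congr rfl fun i _ => ?_
        rw [mul_pow, hv]
      have hd : ∀ x, ∑ i ∈ s', ((a i / a i₀) ^ p - a i / a i₀) * v i x = 0 := by
        intro x
        have h1 := hb x
        have h2 := hb' x
        have h3 : ∑ i ∈ s', ((a i / a i₀) ^ p - a i / a i₀) * v i x =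
            (v i₀ x + ∑ i ∈ s', (a i / a i₀) ^ p * v i x) -
              (v i₀ x + ∑ i ∈ s', (a i / a i₀) * v i x) := by
          rw [add_sub_add_left_eq_sub, ← Finset.sum_sub_distrib]
          refine Finset.sum_congr rfl fun i _ => ?_
          ring
        rw [h3, h1, h2, sub_zero]
      have hfix : ∀ i ∈ s', (a i / a i₀) ^ p = a i / a i₀ := fun i hi =>
        sub_eq_zero.mp (ih _ hd i hi)
      have hex : ∀ i, ∃ n : ZMod p, i ∈ s' → algebraMap (ZMod p) κ n = a i / a i₀ := by
        intro i
        by_cases hi : i ∈ s'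
        · obtain ⟨n, hn⟩ := h75s_mem_prime (hfix i hi)
          exact ⟨n, fun _ => hn⟩
        · exact ⟨0, fun h => absurd h hi⟩
      choose n hn using hex
      have hrel : ∀ x, ∑ i ∈ insert i₀ s',
          algebraMap (ZMod p) κ (Function.update n i₀ 1 i) * v i x = 0 := by
        intro x
        rw [Finset.sum_insert hi₀, Function.update_self, map_one, one_mul, ← hb x]
        congr 1
        refine Finset.sum_congr rfl fun i hi => ?_
        have hne : i ≠ i₀ := fun h => hi₀ (h ▸ hi)
        rw [Function.update_of_ne hne, hn i hi]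
      have h1 := hind (insert i₀ s') (Function.update n i₀ 1) hrel i₀
        (Finset.mem_insert_self _ _)
      rw [Function.update_self] at h1
      exact one_ne_zero h1
    intro i hi
    rcases Finset.mem_insert.mp hi with rfl | hi'
    · exact key
    · refine ih a ?_ i hi'
      intro x
      have h1 := ha x
      rw [Finset.sum_insert hi₀, key, zero_mul, zero_add] at h1
      exact h1


/-- **dimension bound**: a finite dimensional `𝔽_p`-space `M` of Frobenius-fixed `𝔽_p`-linear
maps `X → κ` has `dim_{𝔽_p} M ≤ dim_{𝔽_p} X`. -/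
theorem h75s_finrank_le {p : ℕ} [Fact p.Prime] {κ : Type*} [Field κ] [CharP κ p]
    [Algebra (ZMod p) κ] {X : Type*} [AddCommGroup X] [Module (ZMod p) X]
    [Module.Finite (ZMod p) X] (θ : X → X) (hθ : Function.Surjective θ)
    (M : Submodule (ZMod p) (X →ₗ[ZMod p] κ)) [Module.Finite (ZMod p) M]
    (hM : ∀ F ∈ M, ∀ x, F (θ x) = F x ^ p) :
    Module.finrank (ZMod p) M ≤ Module.finrank (ZMod p) X := by
  classical
  set b := Module.finBasis (ZMod p) M with hbdef
  have hli : LinearIndependent κ (fun i => ((b i : M) : X →ₗ[ZMod p] κ)) := by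
    rw [linearIndependent_iff']
    intro s a ha
    refine h75s_core θ hθ (fun i x => ((b i : M) : X →ₗ[ZMod p] κ) x)
      (fun i x => hM _ (b i).2 x) ?_ s a ?_
    · intro s' n hn
      have h1 : ∑ i ∈ s', n i • b i = 0 := by
        apply Subtype.ext
        apply LinearMap.ext
        intro x
        rw [Submodule.coe_sum, LinearMap.sum_apply, Submodule.coe_zero, LinearMap.zero_apply,
          ← hn x]
        refine Finset.sum_congr rfl fun i _ => ?_
        rw [Submodule.coe_smul, LinearMap.smul_apply, Algebra.smul_def]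
      exact linearIndependent_iff'.mp b.linearIndependent s' n h1
    · intro x
      have h1 := congrArg (fun F : X →ₗ[ZMod p] κ => F x) ha
      simp only [LinearMap.sum_apply, LinearMap.smul_apply, smul_eq_mul,
        LinearMap.zero_apply] at h1
      exact h1
  have h2 := hli.fintype_card_le_finrank
  rw [Fintype.card_fin, Module.finrank_linearMap_self] at h2
  exact h2

/-- **FL-O8c**, the semilinear count. -/
theorem h75s_kSemilin : H34KSemilin := by
  intro p _ k _ _ _ κ _ _ S _ _ T c hadd1 hadd2 hsmul hfrob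
  classical
  letI : Algebra (ZMod p) k := ZMod.algebra k p
  letI : Algebra (ZMod p) κ := ZMod.algebra κ p
  haveI : Module.Finite (ZMod p) k := Module.Finite.of_finite
  -- elementary consequences of additivity
  have hT0 : ∀ μ, T μ 0 = 0 := by
    intro μ
    have h := hadd2 μ 0 0
    rw [add_zero] at h
    exact left_eq_add.mp h
  have hTsub : ∀ μ μ' l, T (μ - μ') l = T μ l - T μ' l := by
    intro μ μ' l
    have h := hadd1 (μ - μ') μ' l
    rw [sub_add_cancel] at h
    rw [h, add_sub_cancel_right]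
  -- the linear maps `Fv ν : Dual k → κ`
  let Fa : S → (Module.Dual (ZMod p) k) →+ κ := fun ν =>
    AddMonoidHom.mk' (fun l' => T ν l'.toAddMonoidHom) (fun l' l'' => by
      have h : (l' + l'').toAddMonoidHom = l'.toAddMonoidHom + l''.toAddMonoidHom := by
        ext y
        rfl
      rw [h]
      exact hadd2 ν _ _)
  let Fv : S → (Module.Dual (ZMod p) k) →ₗ[ZMod p] κ := fun ν => (Fa ν).toZModLinearMap p
  have hFv : ∀ ν l', Fv ν l' = T ν l'.toAddMonoidHom := fun _ _ => rfl
  have hFvl : ∀ ν (l : k →+ ZMod p), T ν l = Fv ν (l.toZModLinearMap p) := fun _ _ => rfl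
  have hFadd : ∀ ν ν', Fv (ν + ν') = Fv ν + Fv ν' := by
    intro ν ν'
    apply LinearMap.ext
    intro l'
    rw [LinearMap.add_apply, hFv, hFv, hFv, hadd1]
  have hFsmul : ∀ (x : k) ν l', Fv (x • ν) l' = Fv ν (l'.comp (LinearMap.mulLeft (ZMod p) x)) := by
    intro x ν l'
    rw [hFv, hFv, hsmul]
    rfl
  -- the Frobenius twist
  let θ : Module.Dual (ZMod p) k → Module.Dual (ZMod p) k :=
    fun l' => l'.comp (LinearMap.mulLeft (ZMod p) (c : k))
  have hθ : Function.Surjective θ := by
    intro l'
    refine ⟨l'.comp (LinearMap.mulLeft (ZMod p) ((c⁻¹ : kˣ) : k)), ?_⟩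
    apply LinearMap.ext
    intro y
    simp only [θ, LinearMap.comp_apply, LinearMap.mulLeft_apply]
    rw [← mul_assoc, Units.inv_mul, one_mul]
  have hFθ : ∀ ν l', Fv ν (θ l') = Fv ν l' ^ p := by
    intro ν l'
    rw [hFv, hFv, ← hfrob]
    rfl
  by_cases hex : ∃ μ₀, Fv μ₀ ≠ 0
  swap
  · refine ⟨0, fun μ => ⟨0, fun l => ?_⟩⟩
    have h1 : Fv (μ - (0 : k) • (0 : S)) = 0 := by
      by_contra h
      exact hex ⟨_, h⟩
    rw [hFvl, h1, LinearMap.zero_apply]
  obtain ⟨μ₀, hμ₀⟩ := hex
  refine ⟨μ₀, fun μ => ?_⟩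
  -- the map `x ↦ Fv (x • μ₀)`
  let g₁ : k →ₗ[ZMod p] (Module.Dual (ZMod p) k →ₗ[ZMod p] κ) :=
    (AddMonoidHom.mk' (fun x : k => Fv (x • μ₀))
      (fun x y => by rw [add_smul, hFadd])).toZModLinearMap p
  have hg₁ : ∀ x, g₁ x = Fv (x • μ₀) := fun _ => rfl
  have hinj : Function.Injective g₁ := by
    rw [← LinearMap.ker_eq_bot, LinearMap.ker_eq_bot']
    intro x hx
    by_contra hx0
    apply hμ₀
    apply LinearMap.ext
    intro l'
    have h1 := congrArg (fun F : Module.Dual (ZMod p) k →ₗ[ZMod p] κ =>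
      F (l'.comp (LinearMap.mulLeft (ZMod p) x⁻¹))) hx
    simp only [LinearMap.zero_apply] at h1
    rw [hg₁, hFsmul] at h1
    rw [LinearMap.zero_apply, ← h1]
    congr 1
    apply LinearMap.ext
    intro y
    simp only [LinearMap.comp_apply, LinearMap.mulLeft_apply]
    rw [← mul_assoc, inv_mul_cancel₀ hx0, one_mul]
  -- the space of Frobenius-fixed maps
  let E : Submodule (ZMod p) (Module.Dual (ZMod p) k →ₗ[ZMod p] κ) :=
    { carrier := {F | ∀ l', F (θ l') = F l' ^ p}
      add_mem' := by
        intro F F' hF hF' l'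
        rw [LinearMap.add_apply, LinearMap.add_apply, hF l', hF' l', add_pow_char]
      zero_mem' := by
        intro l'
        rw [LinearMap.zero_apply, LinearMap.zero_apply,
          zero_pow (Fact.out : p.Prime).ne_zero]
      smul_mem' := by
        intro n F hF l'
        have hn : algebraMap (ZMod p) κ n ^ p = algebraMap (ZMod p) κ n := by
          rw [← map_pow (algebraMap (ZMod p) κ) n p, ZMod.pow_card]
        rw [LinearMap.smul_apply, LinearMap.smul_apply, hF l', Algebra.smul_def,
          Algebra.smul_def, mul_pow, hn] }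
  have hrange : LinearMap.range g₁ ≤ E := by
    rintro _ ⟨x, rfl⟩ l'
    rw [hg₁]
    exact hFθ _ l'
  have hspan : Submodule.span (ZMod p) {Fv μ} ≤ E := by
    rw [Submodule.span_le, Set.singleton_subset_iff]
    exact fun l' => hFθ μ l'
  have hfin : Module.Finite (ZMod p) ↥(LinearMap.range g₁ ⊔ Submodule.span (ZMod p) {Fv μ}) :=
    inferInstance
  have h1 := h75s_finrank_le θ hθ (LinearMap.range g₁ ⊔ Submodule.span (ZMod p) {Fv μ})
    (fun F hF => (sup_le hrange hspan) hF)
  rw [Subspace.dual_finrank_eq, ← LinearMap.finrank_range_of_inj hinj] at h1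
  have h2 : LinearMap.range g₁ = LinearMap.range g₁ ⊔ Submodule.span (ZMod p) {Fv μ} :=
    Submodule.eq_of_le_of_finrank_le le_sup_left h1
  have h3 : Fv μ ∈ LinearMap.range g₁ := by
    rw [h2]
    exact Submodule.mem_sup_right (Submodule.mem_span_singleton_self _)
  obtain ⟨x, hx⟩ := h3
  refine ⟨x, fun l => ?_⟩
  rw [hTsub, hFvl μ, hFvl (x • μ₀), ← hx, hg₁, sub_self]

end Fermat.Agent.S56F
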