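import Fermat.Agent.S56F.FLO8_helper34
import Fermat.Agent.S56F.FLO8a_helper84
import Fermat.Agent.S56F.FLO8b_helper84
import Fermat.Agent.S56F.FLO8c_helper75
import Fermat.Agent.S56F.FLD0_helper89
import Fermat.Agent.S56F.FLD1_helper45
import Fermat.Agent.S56F.FLD2_helper89
import Fermat.Agent.S56F.FLD4_helper7
import Fermat.Agent.S56F.FLD5_helper96

/-!
# S56 / LOC-p-FL, row FL-O8 (helper34): `OrdKC`, unconditional

`h34k_ordKC : OrdKC` — the Kummer count: assembly `h34k_ordKC_of` with the landed leaves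
`h84k_kCob` (FL-O8a), `h84u_unitInv` (FL-O8b), `h75s_kSemilin` (FL-O8c),
`h89d0_inertiaIffRoots` (FL-D0), `h89d2_fundSurjective_of h45f_inertiaDiscrete` (FL-D2, FL-D1),
`h7c_cycFund` (FL-D4), `h96f_frobExists` (FL-D5).
-/

set_option autoImplicit false

namespace Fermat.Agent.S56F

/-- **FL-O8** (`OrdKC`, the Kummer count), unconditional. -/
theorem h34k_ordKC : OrdKC :=
  h34k_ordKC_of h84k_kCob h84u_unitInv h75s_kSemilin h89d0_inertiaIffRoots
    (h89d2_fundSurjective_of h45f_inertiaDiscrete) h7c_cycFund h96f_frobExists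

end Fermat.Agent.S56F
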