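import Fermat.Agent.S56F.FLO8Kum_helper34

/-!
# S56 / LOC-p-FL, row FL-O8 (helper34): assembly of `OrdKC`

`h34k_ordKC_of : H34KCob → H34KUnitInv → H34KSemilin → InertiaIffRoots → FundSurjective →
  CycFund → FrobExists → OrdKC`.

`S` = the `ψ`-cocycles all of whose `𝔽_p`-components have a unit Kummer generator on `I₁`
(a `k`-subspace); `T μ l = a (β ^ p)` for a Kummer generator `β` of `l ∘ μ` with `β ^ p` fixed by
inertia (`h34k_exists_KG0`, well defined by `h34k_inv_eq`); `T` is additive, `k`-compatible and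
Frobenius semilinear, so by `H34KSemilin` its image has rank `≤ 1`; its kernel consists of
cocycles vanishing on `I₁` (`h34k_eq_zero_of_inv`), i.e. of coboundaries (`H34KCob`).
-/

set_option autoImplicit false
set_option linter.style.haveILetI false
set_option linter.unusedSectionVars false

open Fermat.Agent.PT.Loc

noncomputable section

namespace Fermat.Agent.S56F

variable {p : ℕ} [Fact p.Prime]

/-- a primitive `p`-th root of unity. -/
theorem h34k_exists_primitiveRoot (p : ℕ) [Fact p.Prime] : ∃ ζ : Om p, IsPrimitiveRoot ζ p := by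
  have hp : p.Prime := Fact.out
  haveI : NeZero ((p : ℕ) : Om p) := ⟨by exact_mod_cast hp.ne_zero⟩
  have hdeg : (Polynomial.cyclotomic p (Om p)).degree ≠ 0 := by
    rw [Polynomial.degree_cyclotomic, Nat.totient_prime hp]
    have h2 := hp.two_le
    have h3 : (p - 1 : ℕ) ≠ 0 := by omega
    exact_mod_cast h3
  obtain ⟨ζ, hζ⟩ := IsAlgClosed.exists_root (Polynomial.cyclotomic p (Om p)) hdeg
  exact ⟨ζ, Polynomial.isRoot_cyclotomic_iff.mp hζ⟩

section Cocycle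

variable {k : Type} [Field k] (ψ : Gq p →* kˣ) {μ : Gq p → k}

theorem h34k_coc_one (hμ : ∀ σ τ, μ (σ * τ) = μ σ + (ψ σ : k) * μ τ) : μ 1 = 0 := by
  have h := hμ 1 1
  rw [mul_one, map_one, Units.val_one, one_mul] at h
  have h2 : μ 1 + 0 = μ 1 + μ 1 := by rw [add_zero]; exact h
  exact (add_left_cancel h2).symm

/-- conjugation formula for a cocycle on the kernel of `ψ`. -/
theorem h34k_coc_conj (hμ : ∀ σ τ, μ (σ * τ) = μ σ + (ψ σ : k) * μ τ) (σ g : Gq p)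
    (hg : ψ g = 1) : μ (σ⁻¹ * g * σ) = ((ψ σ)⁻¹ : kˣ) * μ g := by
  have h1 : μ (σ⁻¹ * σ) = 0 := by rw [inv_mul_cancel]; exact h34k_coc_one ψ hμ
  have hinv : ψ σ⁻¹ = (ψ σ)⁻¹ := map_inv ψ σ
  rw [hμ, hinv] at h1
  rw [mul_assoc, hμ, hμ, hg, Units.val_one, one_mul, hinv]
  linear_combination h1

end Cocycle

/-- additive functionals separate the points of a field of characteristic `p`. -/
theorem h34k_exists_functional {k : Type} [Field k] [CharP k p] {y : k} (hy : y ≠ 0) :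
    ∃ l : k →+ ZMod p, l y ≠ 0 := by
  letI : Algebra (ZMod p) k := ZMod.algebra k p
  by_contra hcon
  apply hy
  rw [← Module.forall_dual_apply_eq_zero_iff (ZMod p) y]
  intro f
  by_contra hf
  exact hcon ⟨f.toAddMonoidHom, hf⟩

section Main

variable {k : Type} [Field k] [CharP k p] (ψ : Gq p →* kˣ) {ζ : Om p}
  (hζ : IsPrimitiveRoot ζ p)

/-- the space of `ψ`-cocycles with unit Kummer classes. -/
def h34k_S : Submodule k (Gq p → k) where
  carrier := {μ | (∀ σ τ, μ (σ * τ) = μ σ + (ψ σ : k) * μ τ) ∧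
    ∀ l : k →+ ZMod p, ∃ β : Om p, h34k_KG ζ (fun g => l (μ g)) β}
  zero_mem' := by
    refine ⟨fun σ τ => by simp, fun l => ⟨1, ?_⟩⟩
    have h := (h34k_KG0.zero (p := p) ζ).1
    simpa using h
  add_mem' := by
    rintro μ μ' ⟨h1, h2⟩ ⟨h1', h2'⟩
    refine ⟨fun σ τ => ?_, fun l => ?_⟩
    · simp only [Pi.add_apply]
      rw [h1, h1']
      ring
    · obtain ⟨β, hβ⟩ := h2 l
      obtain ⟨β', hβ'⟩ := h2' l
      refine ⟨β * β', ?_⟩
      have h3 := h34k_KG.mul hζ hβ hβ'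
      refine h3.congr (fun g _ => ?_)
      simp only [Pi.add_apply, map_add]
  smul_mem' := by
    rintro x μ ⟨h1, h2⟩
    refine ⟨fun σ τ => ?_, fun l => ?_⟩
    · simp only [Pi.smul_apply, smul_eq_mul]
      rw [h1]
      ring
    · obtain ⟨β, hβ⟩ := h2 (l.comp (AddMonoidHom.mulLeft x))
      exact ⟨β, hβ.congr (fun g _ => rfl)⟩


variable {ψ}

/-- `ψ` is trivial on `I₁`. -/
theorem h34k_psi_I1 (hψI : ∀ σ ∈ inertia p, ∀ a : ℕ, cycExp p σ a → ((ψ σ : kˣ) : k) = (a : k))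
    {g : Gq p} (hg : h34k_I1 p g) : ψ g = 1 := by
  apply Units.ext
  rw [hψI g hg.1 1 hg.2, Nat.cast_one, Units.val_one]

/-- the components of a cocycle are admissible characters. -/
theorem h34k_adm (hψI : ∀ σ ∈ inertia p, ∀ a : ℕ, cycExp p σ a → ((ψ σ : kˣ) : k) = (a : k))
    {μ : Gq p → k} (hμ : ∀ σ τ, μ (σ * τ) = μ σ + (ψ σ : k) * μ τ) (l : k →+ ZMod p) :
    h34k_Adm hζ (fun g => l (μ g)) := by
  haveI : NeZero p := ⟨(Fact.out : p.Prime).ne_zero⟩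
  intro σ hσ g hg
  show l (μ (σ⁻¹ * g * σ)) * ((h34k_chi hζ σ : (ZMod p)ˣ) : ZMod p) = l (μ g)
  rw [h34k_coc_conj ψ hμ σ g (h34k_psi_I1 hψI hg)]
  set n : ℕ := ((h34k_chi hζ σ : (ZMod p)ˣ) : ZMod p).val with hn
  have h1 : ((ψ σ : kˣ) : k) = (n : k) := hψI σ hσ n (h34k_cycExp_val hζ σ)
  have h2 : ((h34k_chi hζ σ : (ZMod p)ˣ) : ZMod p) = (n : ZMod p) := by
    rw [hn, ZMod.natCast_zmod_val]
  rw [h2, mul_comm, ← nsmul_eq_mul, ← map_nsmul, nsmul_eq_mul, ← h1, ← mul_assoc,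
    ← Units.val_mul, mul_inv_cancel, Units.val_one, one_mul]

variable {κ : Type} [Field κ] [CharP κ p] {a : Om p → κ} {σ₀ : Gq p}

/-- existence of a Kummer generator with `p`-th power fixed by inertia, for the components of
the elements of `S`. -/
theorem h34k_exists_gen0 (hψI : ∀ σ ∈ inertia p, ∀ a : ℕ, cycExp p σ a →
    ((ψ σ : kˣ) : k) = (a : k)) (hgen : h34k_Gen hζ σ₀) (μ : h34k_S ψ hζ) (l : k →+ ZMod p) :
    ∃ β : Om p, h34k_KG0 ζ (fun g => l ((μ : Gq p → k) g)) β := by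
  obtain ⟨β, hβ⟩ := μ.2.2 l
  exact h34k_exists_KG0 hgen (h34k_adm hζ hψI μ.2.1 l) hβ

/-- the map `T`. -/
def h34k_T (a : Om p → κ) (hψI : ∀ σ ∈ inertia p, ∀ a : ℕ, cycExp p σ a →
    ((ψ σ : kˣ) : k) = (a : k)) (hgen : h34k_Gen hζ σ₀) (μ : h34k_S ψ hζ) (l : k →+ ZMod p) :
    κ :=
  a (Classical.choose (h34k_exists_gen0 hζ hψI hgen μ l) ^ p)

theorem h34k_T_eq (hp2 : p ≠ 2) (ha : h34k_IsInv p a) (hψI : ∀ σ ∈ inertia p, ∀ a : ℕ,
    cycExp p σ a → ((ψ σ : kˣ) : k) = (a : k)) (hgen : h34k_Gen hζ σ₀) (μ : h34k_S ψ hζ)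
    (l : k →+ ZMod p) {β : Om p} (hβ : h34k_KG0 ζ (fun g => l ((μ : Gq p → k) g)) β) :
    h34k_T hζ a hψI hgen μ l = a (β ^ p) :=
  h34k_inv_eq hp2 hgen ha (Classical.choose_spec (h34k_exists_gen0 hζ hψI hgen μ l)) hβ

theorem h34k_T_spec (hψI : ∀ σ ∈ inertia p, ∀ a : ℕ,
    cycExp p σ a → ((ψ σ : kˣ) : k) = (a : k)) (hgen : h34k_Gen hζ σ₀) (μ : h34k_S ψ hζ)
    (l : k →+ ZMod p) :
    ∃ β : Om p, h34k_KG0 ζ (fun g => l ((μ : Gq p → k) g)) β ∧
      h34k_T hζ a hψI hgen μ l = a (β ^ p) :=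
  ⟨_, Classical.choose_spec (h34k_exists_gen0 hζ hψI hgen μ l), rfl⟩

end Main

/-- **FL-O8, assembly.** -/
theorem h34k_ordKC_of (hCob : H34KCob) (hInv : H34KUnitInv) (hSemi : H34KSemilin)
    (hD0 : InertiaIffRoots) (hF : FundSurjective) (hC : CycFund) (hFr : FrobExists) :
    OrdKC := by
  intro p _ hp2 k _ _ _ ψ _ hψI
  classical
  have hp : p.Prime := Fact.out
  haveI : NeZero p := ⟨hp.ne_zero⟩
  obtain ⟨ζ, hζ⟩ := h34k_exists_primitiveRoot p
  obtain ⟨κ, _, _, a, ha1, ha2, ha3⟩ := hInv p hp2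
  have ha : h34k_IsInv p a := ⟨ha1, ha2, ha3⟩
  obtain ⟨σ₀, hσ₀, hord⟩ := h34k_exists_gen hp2 hF hC hζ
  have hgen : h34k_Gen hζ σ₀ := ⟨hσ₀, hord⟩
  obtain ⟨φ, hφχ, hφ⟩ := h34k_exists_frob hp2 hD0 hF hC hFr hζ
  -- the map `T` and its properties
  set T := h34k_T hζ a hψI hgen with hT
  have hTadd : ∀ μ μ' l, T (μ + μ') l = T μ l + T μ' l := by
    intro μ μ' l
    obtain ⟨β, hβ, h1⟩ := h34k_T_spec (a := a) hζ hψI hgen μ l
    obtain ⟨β', hβ', h1'⟩ := h34k_T_spec (a := a) hζ hψI hgen μ' l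
    have h2 : h34k_KG0 ζ (fun g => l (((μ + μ' : h34k_S ψ hζ) : Gq p → k) g)) (β * β') :=
      (hβ.mul hζ hβ').congr (fun g _ => by
        simp only [Submodule.coe_add, Pi.add_apply, map_add])
    rw [hT, h34k_T_eq hζ hp2 ha hψI hgen (μ + μ') l h2, h1, h1', h34k_inv_mul ha hβ hβ']
  have hTadd' : ∀ μ l l', T μ (l + l') = T μ l + T μ l' := by
    intro μ l l'
    obtain ⟨β, hβ, h1⟩ := h34k_T_spec (a := a) hζ hψI hgen μ l
    obtain ⟨β', hβ', h1'⟩ := h34k_T_spec (a := a) hζ hψI hgen μ l'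
    have h2 : h34k_KG0 ζ (fun g => (l + l') ((μ : Gq p → k) g)) (β * β') :=
      (hβ.mul hζ hβ').congr (fun g _ => by
        simp only [AddMonoidHom.add_apply])
    rw [hT, h34k_T_eq hζ hp2 ha hψI hgen μ (l + l') h2, h1, h1', h34k_inv_mul ha hβ hβ']
  have hTsmul : ∀ (x : k) μ l, T (x • μ) l = T μ (l.comp (AddMonoidHom.mulLeft x)) := by
    intro x μ l
    obtain ⟨β, hβ, h1⟩ := h34k_T_spec (a := a) hζ hψI hgen μ (l.comp (AddMonoidHom.mulLeft x))
    have h2 : h34k_KG0 ζ (fun g => l (((x • μ : h34k_S ψ hζ) : Gq p → k) g)) β :=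
      hβ.congr (fun g _ => rfl)
    rw [hT, h34k_T_eq hζ hp2 ha hψI hgen (x • μ) l h2, h1]
  have hTfrob : ∀ μ l, T μ (l.comp (AddMonoidHom.mulLeft (((ψ φ)⁻¹ : kˣ) : k))) = T μ l ^ p := by
    intro μ l
    obtain ⟨β, hβ, h1⟩ := h34k_T_spec (a := a) hζ hψI hgen μ l
    have h2 : h34k_KG0 ζ
        (fun g => (l.comp (AddMonoidHom.mulLeft (((ψ φ)⁻¹ : kˣ) : k))) ((μ : Gq p → k) g))
        (φ β) :=
      (hβ.frob hζ hφχ).congr (fun g hg => by
        show l ((μ : Gq p → k) (φ⁻¹ * g * φ)) = l ((((ψ φ)⁻¹ : kˣ) : k) * (μ : Gq p → k) g)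
        rw [h34k_coc_conj ψ μ.2.1 φ g (h34k_psi_I1 hψI hg)])
    rw [hT, h34k_T_eq hζ hp2 ha hψI hgen μ _ h2, h1, h34k_inv_frob ha hβ hφ]
  obtain ⟨μ₀, hμ₀⟩ := hSemi p k κ (h34k_S ψ hζ) T ((ψ φ)⁻¹) hTadd hTadd' hTsmul hTfrob
  -- the kernel of `T` consists of coboundaries
  have hker : ∀ ν : h34k_S ψ hζ, (∀ l, T ν l = 0) →
      ∃ y : k, ∀ σ, (ν : Gq p → k) σ = ((ψ σ : k) - 1) * y := by
    intro ν hν
    apply hCob p hp2 k ψ hψI _ ν.2.1
    intro g hg1 hg2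
    by_contra hne
    obtain ⟨l, hl⟩ := h34k_exists_functional (p := p) hne
    obtain ⟨β, hβ, h1⟩ := h34k_T_spec (a := a) hζ hψI hgen ν l
    have h0 : a (β ^ p) = 0 := by rw [← h1]; exact hν l
    exact hl (h34k_eq_zero_of_inv hζ ha hβ h0 g ⟨hg1, hg2⟩)
  -- the count
  set fψ : Gq p → k := fun σ => (ψ σ : k) - 1 with hfψ
  set W : Submodule k (Gq p → k) :=
    Submodule.span k (({(μ₀ : Gq p → k), fψ} : Finset (Gq p → k)) : Set (Gq p → k)) with hW
  have hle : h34k_S ψ hζ ≤ W := by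
    intro μ hμ
    obtain ⟨x, hx⟩ := hμ₀ ⟨μ, hμ⟩
    obtain ⟨y, hy⟩ := hker _ hx
    have h1 : μ = x • (μ₀ : Gq p → k) + y • fψ := by
      funext σ
      have h2 := hy σ
      simp only [Submodule.coe_sub, Submodule.coe_smul, Pi.sub_apply, Pi.smul_apply,
        smul_eq_mul] at h2
      simp only [Pi.add_apply, Pi.smul_apply, smul_eq_mul, hfψ]
      linear_combination h2
    rw [h1]
    apply Submodule.add_mem
    · exact Submodule.smul_mem _ _ (Submodule.subset_span (by simp))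
    · exact Submodule.smul_mem _ _ (Submodule.subset_span (by simp))
  have hWfin : Module.Finite k W := Module.Finite.span_finset k _
  have hWrank : Module.finrank k W ≤ 2 :=
    (finrank_span_finset_le_card _).trans Finset.card_le_two
  refine ⟨h34k_S ψ hζ, ?_, ?_, ?_⟩
  · exact Submodule.finiteDimensional_of_le hle
  · exact (Submodule.finrank_mono hle).trans hWrank
  · intro μ _ hμ hPR
    exact ⟨hμ, fun l => hPR ζ hζ.pow_eq_one (hζ.ne_one hp.one_lt) l⟩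

end Fermat.Agent.S56F
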