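import Fermat.Agent.S56F.FLS1Iface_helper7
import Fermat.Agent.S56F.FLD0_helper89
import Fermat.Agent.S56F.FLD3_helper78

/-!
# S56 / LOC-p-FL, block SS, leaf FL-S1a (helper78): `H7WildPow`

`h78w_wildPow : H7WildPow`: a wild element `s` with `s ^ m x = x`, `p ∤ m`, fixes `x`.

Proof.  Let `ω` be a primitive `m`-th root of unity (fixed by `s`, which lies in inertia) and
`y_j = ∑_{i < m} ω ^ (i j) s ^ i x`.  Then `ω ^ j · s y_j = y_j` (the sum wraps around since
`s ^ m x = x`), so for `y_j ≠ 0` the quotient `s y_j / y_j = (ω ^ j)⁻¹` is a root of unity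
congruent to `1`, hence `1`: `y_j = 0` for `0 < j < m`.  As `∑_j y_j = m x`, `m x = y_0` is
fixed by `s`.
-/

set_option autoImplicit false
set_option linter.style.haveILetI false

open Fermat.Agent.PT.Loc Polynomial

noncomputable section

namespace Fermat.Agent.S56F

variable {p : ℕ} [Fact p.Prime]

/-- primitive roots of unity exist in `Om p`. -/
theorem h78w_exists_prim (m : ℕ) (hm : 0 < m) : ∃ ω : Om p, IsPrimitiveRoot ω m := by
  haveI : NeZero (m : Om p) := ⟨by exact_mod_cast hm.ne'⟩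
  exact HasEnoughRootsOfUnity.exists_primitiveRoot (Om p) m

/-- the eigen-components of `x` for `s`. -/
def h78w_comp (s : Gq p) (x ω : Om p) (m j : ℕ) : Om p :=
  ∑ i ∈ Finset.range m, ω ^ (i * j) * (s ^ i) x

/-- `ω ^ j · s y_j = y_j`. -/
theorem h78w_comp_eigen {s : Gq p} {x ω : Om p} {m : ℕ} (hω : ω ^ m = 1) (hsω : s ω = ω)
    (hx : (s ^ m) x = x) (j : ℕ) :
    ω ^ j * s (h78w_comp s x ω m j) = h78w_comp s x ω m j := by
  unfold h78w_comp
  rw [map_sum, Finset.mul_sum]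
  have h1 : ∀ i ∈ Finset.range m, ω ^ j * s (ω ^ (i * j) * (s ^ i) x) =
      ω ^ ((i + 1) * j) * (s ^ (i + 1)) x := by
    intro i _
    rw [map_mul, map_pow, hsω, ← mul_assoc, ← pow_add, pow_succ' s i, AlgEquiv.mul_apply]
    congr 2
    ring
  rw [Finset.sum_congr rfl h1]
  have h2 := Finset.sum_range_succ' (fun i => ω ^ (i * j) * (s ^ i) x) m
  have h3 := Finset.sum_range_succ (fun i => ω ^ (i * j) * (s ^ i) x) m
  have h4 : ω ^ (m * j) * (s ^ m) x = ω ^ (0 * j) * (s ^ 0) x := by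
    rw [pow_mul, hω, one_pow, one_mul, hx, zero_mul, pow_zero, one_mul, pow_zero,
      AlgEquiv.one_apply]
  have h5 : ∑ i ∈ Finset.range m, ω ^ ((i + 1) * j) * (s ^ (i + 1)) x + ω ^ (0 * j) * (s ^ 0) x
      = ∑ i ∈ Finset.range m, ω ^ (i * j) * (s ^ i) x + ω ^ (m * j) * (s ^ m) x := by
    rw [← h2, h3]
  rw [h4] at h5
  exact add_right_cancel h5

/-- orthogonality: `∑_{j < m} ω ^ (i j) = 0` for `0 < i < m`. -/
theorem h78w_orth {ω : Om p} {m : ℕ} (hω : IsPrimitiveRoot ω m) {i : ℕ} (hi0 : 0 < i)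
    (him : i < m) : ∑ j ∈ Finset.range m, ω ^ (i * j) = 0 := by
  have hne : ω ^ i ≠ 1 := hω.pow_ne_one_of_pos_of_lt hi0.ne' him
  have h1 : ∑ j ∈ Finset.range m, ω ^ (i * j) = ∑ j ∈ Finset.range m, (ω ^ i) ^ j :=
    Finset.sum_congr rfl (fun j _ => pow_mul ω i j)
  rw [h1, geom_sum_eq hne, ← pow_mul, mul_comm, pow_mul, hω.pow_eq_one, one_pow, sub_self,
    zero_div]

/-- `∑_j y_j = m x`. -/
theorem h78w_sum_comp (s : Gq p) (x : Om p) {ω : Om p} {m : ℕ} (hm : 0 < m)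
    (hω : IsPrimitiveRoot ω m) :
    ∑ j ∈ Finset.range m, h78w_comp s x ω m j = (m : Om p) * x := by
  unfold h78w_comp
  rw [Finset.sum_comm]
  have h1 : ∀ i ∈ Finset.range m, ∑ j ∈ Finset.range m, ω ^ (i * j) * (s ^ i) x =
      if i = 0 then (m : Om p) * x else 0 := by
    intro i hi
    rw [← Finset.sum_mul]
    by_cases h0 : i = 0
    · subst h0
      simp
    · rw [if_neg h0, h78w_orth hω (Nat.pos_of_ne_zero h0) (Finset.mem_range.mp hi), zero_mul]
  rw [Finset.sum_congr rfl h1, Finset.sum_ite_eq' (Finset.range m) 0, if_pos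
    (Finset.mem_range.mpr hm)]

/-- **FL-S1a.** -/
theorem h78w_wildPow : H7WildPow := by
  intro p _ s hs x m hm hpm hx
  obtain ⟨ω, hω⟩ := h78w_exists_prim (p := p) m hm
  have hsω : s ω = ω := h89d0_fix_of_mem_inertia hs.1 ω m hm hpm hω.pow_eq_one
  have hω0 : ω ≠ 0 := hω.ne_zero hm.ne'
  -- the components `y_j`, `0 < j < m`, vanish
  have hvan : ∀ j ∈ Finset.range m, j ≠ 0 → h78w_comp s x ω m j = 0 := by
    intro j hj hj0
    by_contra hy
    have he := h78w_comp_eigen hω.pow_eq_one hsω hx j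
    have hq : s (h78w_comp s x ω m j) / h78w_comp s x ω m j = (ω ^ j)⁻¹ := by
      rw [div_eq_iff hy, ← he, ← mul_assoc, inv_mul_cancel₀ (pow_ne_zero j hω0), one_mul]
      rw [he]
    have hw := hs.2 _ hy
    rw [hq] at hw
    have hroot : ((ω ^ j)⁻¹) ^ m = 1 := by
      rw [inv_pow, ← pow_mul, mul_comm, pow_mul, hω.pow_eq_one, one_pow, inv_one]
    have h1 := h78f_root_eq_one hm hpm hroot hw
    rw [inv_eq_one] at h1
    exact hω.pow_ne_one_of_pos_of_lt hj0 (Finset.mem_range.mp hj) h1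
  have hsum := h78w_sum_comp s x hm hω
  rw [Finset.sum_eq_single_of_mem 0 (Finset.mem_range.mpr hm) hvan] at hsum
  have he := h78w_comp_eigen hω.pow_eq_one hsω hx 0
  rw [pow_zero, one_mul, hsum, map_mul, map_natCast] at he
  have hm0 : (m : Om p) ≠ 0 := by exact_mod_cast hm.ne'
  exact mul_left_cancel₀ hm0 he

end Fermat.Agent.S56F
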