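import Fermat.Agent.S56F.FLS1Iface_helper7
import Fermat.Agent.S56F.FLS1a_helper78
import Fermat.Agent.PT.Loc.H57ResInj

/-!
# S56 / LOC-p-FL, block SS, leaf FL-S1b (helper57): `H7WildTriv`

Wild inertia acts trivially on a continuous plane without stable line.

* `h57w_wild p` : the wild inertia subgroup; `h57w_wild_conj` : it is normal.
* `h57w_exists_pow_mem` : for `s` wild and `F` finite, `s ^ (p ^ b)` fixes `F` for some `b`
  (finite index of `G_F` + `H7WildPow`).
* `h57w_wildTriv_of : H7WildPow → H7WildTriv`, `h57w_wildTriv : H7WildTriv`: the image of the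
  wild subgroup is a `p`-group, which has a non-zero fixed vector in `V`; the fixed space is
  stable under `Gq p`, hence everything.
-/

set_option autoImplicit false

open Fermat.Agent.PT.Loc

noncomputable section

namespace Fermat.Agent.S56F

variable {p : ℕ} [Fact p.Prime]

theorem h57w_norm_map (g : Gq p) (x : Om p) : ‖g x‖ = ‖x‖ :=
  congrArg NNReal.toReal (nnnorm_padicAlgCl_algEquiv p g x)

theorem h57w_map_ne_zero (g : Gq p) {x : Om p} (hx : x ≠ 0) : g x ≠ 0 := by
  intro h
  exact hx ((map_eq_zero_iff g g.injective).mp h)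

theorem h57w_norm_lt_of {a b c : Om p} (ha : ‖a‖ < 1) (hb : ‖b‖ < 1) (hc : ‖c‖ < 1) :
    ‖a + b + c‖ < 1 :=
  lt_of_le_of_lt (IsUltrametricDist.norm_add_le_max _ _)
    (max_lt (lt_of_le_of_lt (IsUltrametricDist.norm_add_le_max _ _) (max_lt ha hb)) hc)

/-- the wild inertia subgroup. -/
def h57w_wild (p : ℕ) [Fact p.Prime] : Subgroup (Gq p) where
  carrier := {s | h7x_IsWild p s}
  one_mem' := by
    refine ⟨(inertia p).one_mem, fun z hz => ?_⟩
    rw [AlgEquiv.one_apply, div_self hz, sub_self, norm_zero]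
    exact zero_lt_one
  mul_mem' := by
    rintro s t ⟨hs, hs'⟩ ⟨ht, ht'⟩
    refine ⟨(inertia p).mul_mem hs ht, fun z hz => ?_⟩
    have htz : t z ≠ 0 := h57w_map_ne_zero t hz
    have h1 : (s * t) z / z - 1 = (s (t z) / t z - 1) * (t z / z - 1) + (s (t z) / t z - 1)
        + (t z / z - 1) := by
      rw [AlgEquiv.mul_apply]
      field_simp
      ring
    rw [h1]
    refine h57w_norm_lt_of ?_ (hs' _ htz) (ht' _ hz)
    rw [norm_mul]
    exact mul_lt_one_of_nonneg_of_lt_one_left (norm_nonneg _) (hs' _ htz) (ht' _ hz).le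
  inv_mem' := by
    rintro s ⟨hs, hs'⟩
    refine ⟨(inertia p).inv_mem hs, fun z hz => ?_⟩
    have hw : s⁻¹ z ≠ 0 := h57w_map_ne_zero s⁻¹ hz
    have hsw : s (s⁻¹ z) = z := by
      rw [← AlgEquiv.mul_apply, mul_inv_cancel, AlgEquiv.one_apply]
    have h1 := hs' _ hw
    rw [hsw] at h1
    have h2 : s⁻¹ z / z - 1 = -((z / s⁻¹ z - 1) * (s⁻¹ z / z)) := by
      field_simp
      ring
    rw [h2, norm_neg, norm_mul, norm_div, h57w_norm_map, div_self (norm_ne_zero_iff.mpr hz),
      mul_one]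
    exact h1

theorem h57w_mem_wild {s : Gq p} : s ∈ h57w_wild p ↔ h7x_IsWild p s := Iff.rfl

/-- the wild inertia subgroup is normal. -/
theorem h57w_wild_conj (g s : Gq p) (hs : h7x_IsWild p s) : h7x_IsWild p (g * s * g⁻¹) := by
  have hgg : ∀ x : Om p, g (g⁻¹ x) = x := fun x => by
    rw [← AlgEquiv.mul_apply, mul_inv_cancel, AlgEquiv.one_apply]
  refine ⟨fun x hx => ?_, fun z hz => ?_⟩
  · have h1 : (g * s * g⁻¹) x - x = g (s (g⁻¹ x) - g⁻¹ x) := by
      rw [map_sub, hgg, AlgEquiv.mul_apply, AlgEquiv.mul_apply]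
    rw [h1, h57w_norm_map]
    refine hs.1 _ ?_
    rw [h57w_norm_map]
    exact hx
  · have hw : g⁻¹ z ≠ 0 := h57w_map_ne_zero g⁻¹ hz
    have h1 : (g * s * g⁻¹) z / z - 1 = g (s (g⁻¹ z) / g⁻¹ z - 1) := by
      rw [map_sub, map_div₀, hgg, map_one, AlgEquiv.mul_apply, AlgEquiv.mul_apply]
    rw [h1, h57w_norm_map]
    exact hs.2 _ hw

theorem h57w_wild_pow {s : Gq p} (hs : h7x_IsWild p s) (n : ℕ) : h7x_IsWild p (s ^ n) :=
  (h57w_wild p).pow_mem hs n

/-- for `s` wild and `F` finite, some `s ^ (p ^ b)` fixes `F`. -/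
theorem h57w_exists_pow_mem (hWP : H7WildPow) (F : LF p) [FiniteDimensional ℚ_[p] F]
    (s : Gq p) (hs : h7x_IsWild p s) : ∃ b : ℕ, s ^ (p ^ b) ∈ GK F := by
  have hp : p.Prime := Fact.out
  have hGal := h57_isGalois_Om p
  have hidx : (GK F).index = Module.finrank ℚ_[p] F :=
    (IntermediateField.finrank_eq_fixingSubgroup_index (L := F)).symm
  have h0 : (GK F).index ≠ 0 := by
    rw [hidx]
    exact Module.finrank_pos.ne'
  obtain ⟨d, hd, -, hmem⟩ := Subgroup.exists_pow_mem_of_index_ne_zero h0 s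
  obtain ⟨b, m, hm, rfl⟩ := Nat.exists_eq_pow_mul_and_not_dvd hd.ne' p hp.ne_one
  refine ⟨b, ?_⟩
  have hm0 : 0 < m := by
    rcases Nat.eq_zero_or_pos m with h | h
    · exact absurd (h ▸ dvd_zero p) hm
    · exact h
  rw [IntermediateField.mem_fixingSubgroup_iff]
  intro x hx
  refine hWP p (s ^ p ^ b) (h57w_wild_pow hs _) x m hm0 hm ?_
  rw [← pow_mul]
  exact (IntermediateField.mem_fixingSubgroup_iff F _).mp hmem x hx

section Rep

variable {k : Type} [Field k] {V : Type} [AddCommGroup V] [Module k V]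

/-- the space fixed by wild inertia. -/
def h57w_fix (ρ : Gq p →* Module.End k V) : Submodule k V where
  carrier := {v | ∀ s : Gq p, h7x_IsWild p s → ρ s v = v}
  add_mem' := fun {a b} ha hb s hs => by rw [map_add, ha s hs, hb s hs]
  zero_mem' := fun s _ => map_zero _
  smul_mem' := fun c a ha s hs => by rw [map_smul, ha s hs]

theorem h57w_fix_stable (ρ : Gq p →* Module.End k V) (g : Gq p) {v : V}
    (hv : v ∈ h57w_fix ρ) : ρ g v ∈ h57w_fix ρ := by
  intro s hs
  have h1 : s * g = g * (g⁻¹ * s * g⁻¹⁻¹) := by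
    rw [inv_inv]
    group
  have h2 := hv _ (h57w_wild_conj g⁻¹ s hs)
  rw [← Module.End.mul_apply, ← map_mul, h1, map_mul, Module.End.mul_apply, h2]

end Rep

/-- **FL-S1b**, from `H7WildPow`. -/
theorem h57w_wildTriv_of (hWP : H7WildPow) : H7WildTriv := by
  intro p _ k _ _ _ V _ _ _ ρ hrank hcont hline
  have hp : p.Prime := Fact.out
  obtain ⟨F, hF, -, hρF⟩ := hcont
  have hGF : ∀ t ∈ GK F, ρ t = 1 := by
    intro t ht
    have h1 : ρ (1 * t) = ρ 1 := hρF 1 (Subgroup.one_mem _) t ht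
    rw [one_mul, map_one] at h1
    exact h1
  -- the image of the wild subgroup is a `p`-group
  have hpg : IsPGroup p ↥((h57w_wild p).map ρ.toHomUnits) := by
    rintro ⟨h, s, hs, rfl⟩
    obtain ⟨b, hb⟩ := h57w_exists_pow_mem hWP F s hs
    refine ⟨b, Subtype.ext (Units.ext ?_)⟩
    have h1 := hGF _ hb
    rw [map_pow] at h1
    simpa using h1
  have hfinV : Finite V := Module.finite_of_finite k
  have hcard : p ∣ Nat.card V := by
    rw [Module.natCard_eq_pow_finrank (K := k) (V := V), hrank]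
    have hk : p ∣ Nat.card k := by
      have := Fintype.ofFinite k
      obtain ⟨n, -, hn⟩ := FiniteField.card k p
      rw [Nat.card_eq_fintype_card, hn]
      exact dvd_pow_self p n.ne_zero
    exact dvd_pow hk two_ne_zero
  have h0 : (0 : V) ∈ MulAction.fixedPoints ↥((h57w_wild p).map ρ.toHomUnits) V := by
    intro h
    exact smul_zero h
  obtain ⟨v, hv, hv0⟩ := hpg.exists_fixed_point_of_prime_dvd_card_of_fixed_point V hcard h0
  have hvW : v ∈ h57w_fix ρ := by
    intro s hs
    exact hv ⟨ρ.toHomUnits s, s, hs, rfl⟩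
  -- the fixed space is everything
  have htop : h57w_fix ρ = ⊤ := by
    by_contra hne
    have hlt : Module.finrank k ↥(h57w_fix ρ) < 2 := hrank ▸ Submodule.finrank_lt hne
    have hpos : 0 < Module.finrank k ↥(h57w_fix ρ) := by
      rw [Module.finrank_pos_iff_exists_ne_zero]
      exact ⟨⟨v, hvW⟩, fun h => hv0 (congrArg Subtype.val h).symm⟩
    have hone : Module.finrank k ↥(h57w_fix ρ) = 1 := by omega
    have hspan : Submodule.span k {v} = h57w_fix ρ := by
      apply Submodule.eq_of_le_of_finrank_eq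
      · rw [Submodule.span_singleton_le_iff_mem]
        exact hvW
      · rw [hone, finrank_span_singleton (Ne.symm hv0)]
    apply hline
    refine ⟨v, Ne.symm hv0, fun σ => ?_⟩
    have h1 : ρ σ v ∈ Submodule.span k {v} := hspan ▸ h57w_fix_stable ρ σ hvW
    obtain ⟨a, ha⟩ := Submodule.mem_span_singleton.mp h1
    exact ⟨a, ha.symm⟩
  intro s hs
  apply LinearMap.ext
  intro w
  have hw : w ∈ h57w_fix ρ := htop ▸ Submodule.mem_top
  exact hw s hs

/-- **FL-S1b.** -/
theorem h57w_wildTriv : H7WildTriv := h57w_wildTriv_of h78w_wildPow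

end Fermat.Agent.S56F
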