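import Fermat.Agent.S56F.FLS1Iface_helper7

/-!
# S56 / LOC-p-FL, block SS, leaf FL-S1c (helper78): `H7TameAbel`

`h78w_tameAbel : H7TameAbel`: commutators of inertia are wild.

Proof.  For `z ≠ 0` put `a_g = g z / z` (norm `1`).  Then `a_{g h} = g (a_h) · a_g`, and
`‖g u - u‖ < 1` for `g` in inertia and `‖u‖ ≤ 1`: so `a_{g h} ≡ a_g a_h` modulo the maximal
ideal for `g` in inertia.  With `c = s t s⁻¹ t⁻¹` and `w = t s`: `a_w a_c ≡ a_{c w} = a_{s t} ≡
a_s a_t ≡ a_{t s} = a_w`, hence `a_c ≡ 1`.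
-/

set_option autoImplicit false
set_option linter.style.haveILetI false

open Fermat.Agent.PT.Loc Polynomial

noncomputable section

namespace Fermat.Agent.S56F

variable {p : ℕ} [Fact p.Prime]

/-- the elements of `Gq p` are isometries. -/
theorem h78w_norm_map (σ : Gq p) (x : Om p) : ‖σ x‖ = ‖x‖ :=
  congrArg NNReal.toReal (nnnorm_padicAlgCl_algEquiv p σ x)

/-- `‖g z / z‖ = 1`. -/
theorem h78w_quot_norm (g : Gq p) {z : Om p} (hz : z ≠ 0) : ‖g z / z‖ = 1 := by
  rw [norm_div, h78w_norm_map, div_self (norm_ne_zero_iff.mpr hz)]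

/-- the cocycle relation modulo the maximal ideal. -/
theorem h78w_cocycle {g : Gq p} (hg : g ∈ inertia p) (h : Gq p) {z : Om p} (hz : z ≠ 0) :
    ‖(g * h) z / z - (g z / z) * (h z / z)‖ < 1 := by
  have hgz : g z ≠ 0 := by
    intro h0
    exact hz (by simpa using h0)
  have e : (g * h) z / z - (g z / z) * (h z / z) = (g (h z / z) - h z / z) * (g z / z) := by
    rw [AlgEquiv.mul_apply, map_div₀]
    field_simp
  rw [e, norm_mul, h78w_quot_norm g hz, mul_one]
  exact hg _ (h78w_quot_norm h hz).le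

/-- **FL-S1c.** -/
theorem h78w_tameAbel : H7TameAbel := by
  intro p _ s t hs ht
  have hc : s * t * s⁻¹ * t⁻¹ ∈ inertia p :=
    mul_mem (mul_mem (mul_mem hs ht) (inv_mem hs)) (inv_mem ht)
  refine ⟨hc, fun z hz => ?_⟩
  set c : Gq p := s * t * s⁻¹ * t⁻¹ with hcdef
  have hcw : c * (t * s) = s * t := by
    rw [hcdef]
    group
  have h1 := h78w_cocycle hc (t * s) hz
  rw [hcw] at h1
  have h2 := h78w_cocycle hs t hz
  have h3 := h78w_cocycle ht s hz
  have hw1 : ‖(t * s) z / z‖ = 1 := h78w_quot_norm (t * s) hz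
  -- `a_w (a_c - 1)` is small
  have e : (t * s) z / z * (c z / z - 1) =
      -((s * t) z / z - c z / z * ((t * s) z / z)) + (((s * t) z / z - s z / z * (t z / z)) +
        -((t * s) z / z - t z / z * (s z / z))) := by
    ring
  have h4 : ‖(t * s) z / z * (c z / z - 1)‖ < 1 := by
    rw [e]
    refine lt_of_le_of_lt (IsUltrametricDist.norm_add_le_max _ _) (max_lt ?_ ?_)
    · rw [norm_neg]
      exact h1
    · refine lt_of_le_of_lt (IsUltrametricDist.norm_add_le_max _ _) (max_lt h2 ?_)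
      rw [norm_neg]
      exact h3
  rw [norm_mul, hw1, one_mul] at h4
  exact h4

end Fermat.Agent.S56F
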