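import Fermat.Agent.S56F.FLS1Iface_helper7

/-!
# S56 / FL-S1d (helper74): `H7DiagSwap` (pure algebra)

`h74d_diagSwap : H7DiagSwap`.  A normal subgroup `I` of `G` acting through commuting operators on
a plane without `G`-stable line (all characteristic polynomials split) acts diagonally in a basis
`v₁, v₂`; every element of `G` preserves or swaps the two lines, and `φ` swaps them.
-/

set_option autoImplicit false

open Polynomial

noncomputable section

namespace Fermat.Agent.S56F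

section Lin

variable {k : Type} [Field k] {V : Type} [AddCommGroup V] [Module k V]

/-- Cayley–Hamilton for a split characteristic polynomial of degree two. -/
theorem h74d_ch [Module.Finite k V] (f : Module.End k V) (a b : k)
    (h : LinearMap.charpoly f = (X - C a) * (X - C b)) (v : V) :
    f (f v - b • v) = a • (f v - b • v) := by
  have h1 := LinearMap.aeval_self_charpoly f
  rw [h] at h1
  have h2 := congrArg (fun g : Module.End k V => g v) h1
  simp only [map_mul, map_sub, aeval_X, aeval_C, Module.End.mul_apply, LinearMap.sub_apply,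
    Module.algebraMap_end_apply, LinearMap.zero_apply] at h2
  rw [map_sub, map_smul]
  rw [map_smul] at h2
  rw [← sub_eq_zero, ← h2]
  module

theorem h74d_ch' [Module.Finite k V] (f : Module.End k V) (a b : k)
    (h : LinearMap.charpoly f = (X - C a) * (X - C b)) (v : V) :
    f (f v - a • v) = b • (f v - a • v) :=
  h74d_ch f b a (by rw [h, mul_comm]) v

/-- an operator on a plane with split characteristic polynomial has an eigenvector. -/
theorem h74d_exists_eigen [Module.Finite k V] (hfr : Module.finrank k V = 2)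
    (f : Module.End k V)
    (h : ∃ a b : k, LinearMap.charpoly f = (X - C a) * (X - C b)) :
    ∃ v : V, v ≠ 0 ∧ ∃ c : k, f v = c • v := by
  obtain ⟨a, b, hab⟩ := h
  have : Nontrivial V := Module.nontrivial_of_finrank_pos (R := k) (by rw [hfr]; norm_num)
  obtain ⟨v, hv⟩ := exists_ne (0 : V)
  by_cases h1 : f v - b • v = 0
  · exact ⟨v, hv, b, sub_eq_zero.mp h1⟩
  · exact ⟨_, h1, a, h74d_ch f a b hab v⟩

/-- two independent vectors of a plane span it. -/
theorem h74d_span [Module.Finite k V] (hfr : Module.finrank k V = 2) {v w : V}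
    (hli : ∀ s t : k, s • v + t • w = 0 → s = 0 ∧ t = 0) (x : V) :
    ∃ α β : k, x = α • v + β • w := by
  have h : LinearIndependent k ![v, w] := LinearIndependent.pair_iff.mpr hli
  let B := basisOfLinearIndependentOfCardEqFinrank h (by simp [hfr])
  have hB : ⇑B = ![v, w] := coe_basisOfLinearIndependentOfCardEqFinrank h _
  refine ⟨B.repr x 0, B.repr x 1, ?_⟩
  have h1 := B.sum_repr x
  rw [Fin.sum_univ_two, hB] at h1
  simpa using h1.symm

theorem h74d_li_symm {v w : V} (hli : ∀ s t : k, s • v + t • w = 0 → s = 0 ∧ t = 0) :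
    ∀ s t : k, s • w + t • v = 0 → s = 0 ∧ t = 0 := by
  intro s t h
  have h1 := hli t s (by rw [add_comm]; exact h)
  exact ⟨h1.2, h1.1⟩

theorem h74d_span_symm {v w : V} (hsp : ∀ x : V, ∃ α β : k, x = α • v + β • w) :
    ∀ x : V, ∃ α β : k, x = α • w + β • v := by
  intro x
  obtain ⟨α, β, h⟩ := hsp x
  exact ⟨β, α, by rw [h, add_comm]⟩

/-- the eigenspace of `a` is the line of `v₁`. -/
theorem h74d_eigenspace (f : Module.End k V) {a b : k} (hab : a ≠ b) {v₁ v₂ : V}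
    (hli : ∀ s t : k, s • v₁ + t • v₂ = 0 → s = 0 ∧ t = 0)
    (hsp : ∀ x : V, ∃ α β : k, x = α • v₁ + β • v₂)
    (e1 : f v₁ = a • v₁) (e2 : f v₂ = b • v₂) (y : V) (hy : f y = a • y) :
    ∃ c : k, y = c • v₁ := by
  obtain ⟨α, β, rfl⟩ := hsp y
  rw [map_add, map_smul, map_smul, e1, e2] at hy
  have h : (0 : k) • v₁ + (β * (b - a)) • v₂ = 0 := by
    have h1 : α • a • v₁ + β • b • v₂ - a • (α • v₁ + β • v₂) = 0 := sub_eq_zero.mpr hy
    rw [← h1]
    module
  obtain ⟨-, h2⟩ := hli _ _ h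
  have hβ : β = 0 := by
    rcases mul_eq_zero.mp h2 with h3 | h3
    · exact h3
    · exact absurd (sub_eq_zero.mp h3).symm hab
  exact ⟨α, by rw [hβ, zero_smul, add_zero]⟩

/-- an eigenvector lies on one of the two eigenlines. -/
theorem h74d_dich (f : Module.End k V) {a b : k} (hab : a ≠ b) {v₁ v₂ : V}
    (hli : ∀ s t : k, s • v₁ + t • v₂ = 0 → s = 0 ∧ t = 0)
    (hsp : ∀ x : V, ∃ α β : k, x = α • v₁ + β • v₂)
    (e1 : f v₁ = a • v₁) (e2 : f v₂ = b • v₂) (y : V) (x : k) (hy : f y = x • y) :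
    (∃ c : k, y = c • v₁) ∨ (∃ c : k, y = c • v₂) := by
  obtain ⟨α, β, rfl⟩ := hsp y
  rw [map_add, map_smul, map_smul, e1, e2] at hy
  have h : (α * (a - x)) • v₁ + (β * (b - x)) • v₂ = 0 := by
    have h1 : α • a • v₁ + β • b • v₂ - x • (α • v₁ + β • v₂) = 0 := sub_eq_zero.mpr hy
    rw [← h1]
    module
  obtain ⟨h1, h2⟩ := hli _ _ h
  rcases mul_eq_zero.mp h1 with h3 | h3
  · right
    exact ⟨β, by rw [h3, zero_smul, zero_add]⟩
  · left
    have hax : a = x := sub_eq_zero.mp h3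
    rcases mul_eq_zero.mp h2 with h4 | h4
    · exact ⟨α, by rw [h4, zero_smul, add_zero]⟩
    · exact absurd (hax.trans (sub_eq_zero.mp h4).symm) hab

/-- eigenvectors for distinct eigenvalues are independent. -/
theorem h74d_indep (f : Module.End k V) {a b : k} (hab : a ≠ b) {v₁ v₂ : V}
    (h1 : v₁ ≠ 0) (h2 : v₂ ≠ 0) (e1 : f v₁ = a • v₁) (e2 : f v₂ = b • v₂) :
    ∀ s t : k, s • v₁ + t • v₂ = 0 → s = 0 ∧ t = 0 := by
  intro s t hst
  have h3 : f (s • v₁ + t • v₂) = 0 := by rw [hst, map_zero]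
  rw [map_add, map_smul, map_smul, e1, e2] at h3
  have h4 : (t * (b - a)) • v₂ = 0 := by
    have h5 : s • a • v₁ + t • b • v₂ - a • (s • v₁ + t • v₂) = 0 := by
      rw [h3, hst, smul_zero, sub_zero]
    rw [← h5]
    module
  have ht : t = 0 := by
    rcases smul_eq_zero.mp h4 with h6 | h6
    · rcases mul_eq_zero.mp h6 with h7 | h7
      · exact h7
      · exact absurd (sub_eq_zero.mp h7).symm hab
    · exact absurd h6 h2
  rw [ht, zero_smul, add_zero] at hst
  rcases smul_eq_zero.mp hst with h6 | h6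
  · exact ⟨h6, ht⟩
  · exact absurd h6 h1

/-- the Jordan case: the kernel line of `N = f - a` is stable under an injective operator `r`
which conjugates `f` to an operator `f'` commuting with `f`. -/
theorem h74d_jordan [Module.Finite k V] (hfr : Module.finrank k V = 2) (f : Module.End k V)
    (a : k) (hN : ∀ x : V, f (f x - a • x) = a • (f x - a • x)) (v₀ : V)
    (hv₀ : ∀ c : k, f v₀ ≠ c • v₀) (r f' : Module.End k V) (hr : ∀ v : V, r v = 0 → v = 0)
    (hconj : ∀ x : V, r (f' x) = f (r x)) (hc : ∀ x : V, f' (f x) = f (f' x)) :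
    ∃ c : k, r (f v₀ - a • v₀) = c • (f v₀ - a • v₀) := by
  obtain ⟨w, hw⟩ : ∃ w : V, w = f v₀ - a • v₀ := ⟨_, rfl⟩
  rw [← hw]
  have hfv : f v₀ = a • v₀ + w := by rw [hw]; abel
  have hfw : f w = a • w := by rw [hw]; exact hN v₀
  have hv0 : v₀ ≠ 0 := by
    intro h
    apply hv₀ 0
    rw [h, map_zero, smul_zero]
  have hli : ∀ s t : k, s • v₀ + t • w = 0 → s = 0 ∧ t = 0 := by
    intro s t hst
    have ht : t = 0 := by
      by_contra ht
      apply hv₀ (a - t⁻¹ * s)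
      have h1 : w = (-(t⁻¹ * s)) • v₀ := by
        have h2 : t⁻¹ • (s • v₀ + t • w) = 0 := by rw [hst, smul_zero]
        have h3 : t⁻¹ • (s • v₀ + t • w) = (t⁻¹ * s) • v₀ + w := by
          rw [smul_add, smul_smul, smul_smul, inv_mul_cancel₀ ht, one_smul]
        rw [h3] at h2
        rw [neg_smul]
        exact eq_neg_of_add_eq_zero_right h2
      rw [hfv, h1]
      module
    rw [ht, zero_smul, add_zero] at hst
    rcases smul_eq_zero.mp hst with h6 | h6
    · exact ⟨h6, ht⟩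
    · exact absurd h6 hv0
  have hsp := h74d_span hfr hli
  have hw0 : w ≠ 0 := by
    intro h
    apply hv₀ a
    rw [hfv, h, add_zero]
  -- `N x = α w`
  have hNx : ∀ (α β : k), f (α • v₀ + β • w) - a • (α • v₀ + β • w) = α • w := by
    intro α β
    rw [map_add, map_smul, map_smul, hfv, hfw]
    module
  -- `N x ∈ k w`
  have hNim : ∀ x : V, ∃ α : k, f x - a • x = α • w := by
    intro x
    obtain ⟨α, β, rfl⟩ := hsp x
    exact ⟨α, hNx α β⟩
  -- `ker N = k w`
  have hNker : ∀ x : V, f x - a • x = 0 → ∃ β : k, x = β • w := by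
    intro x hx
    obtain ⟨α, β, rfl⟩ := hsp x
    rw [hNx] at hx
    rcases smul_eq_zero.mp hx with h | h
    · exact ⟨β, by rw [h, zero_smul, zero_add]⟩
    · exact absurd h hw0
  -- `r ∘ N' = N ∘ r`
  have hrN : ∀ x : V, r (f' x - a • x) = f (r x) - a • r x := by
    intro x
    rw [map_sub, map_smul, hconj]
  -- `N'² = 0`
  have hN'2 : ∀ x : V, f' (f' x - a • x) - a • (f' x - a • x) = 0 := by
    intro x
    apply hr
    rw [hrN, hrN]
    exact sub_eq_zero.mpr (hN (r x))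
  -- `N' w ∈ k w`
  obtain ⟨α, hα⟩ : ∃ α : k, f' w - a • w = α • w := by
    obtain ⟨α, hα⟩ := hNim (f' v₀ - a • v₀)
    refine ⟨α, ?_⟩
    rw [← hα, hw, map_sub, map_sub, map_smul, map_smul, hc]
    module
  have hα0 : α = 0 := by
    have h1 := hN'2 w
    rw [hα, map_smul] at h1
    have h2 : α • f' w - a • α • w = α • (f' w - a • w) := by module
    rw [h2, hα, smul_smul] at h1
    rcases smul_eq_zero.mp h1 with h | h
    · exact mul_self_eq_zero.mp h
    · exact absurd h hw0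
  rw [hα0, zero_smul] at hα
  have h3 : f (r w) - a • r w = 0 := by
    rw [← hrN, hα, map_zero]
  exact hNker _ h3

end Lin

/-- **FL-S1d.** -/
theorem h74d_diagSwap : H7DiagSwap := by
  intro G _ I hnorm k _ V _ _ _ ρ hfr hcomm hsplit hno φ hφ
  have hmul : ∀ (g h : G) (v : V), ρ (g * h) v = ρ g (ρ h v) := by
    intro g h v
    rw [map_mul]
    rfl
  have hinv : ∀ (g : G) (v : V), ρ g⁻¹ (ρ g v) = v := by
    intro g v
    rw [← hmul, inv_mul_cancel, map_one]
    rfl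
  have hinj : ∀ (g : G) (v : V), ρ g v = 0 → v = 0 := by
    intro g v h
    have h1 := hinv g v
    rw [h, map_zero] at h1
    exact h1.symm
  have hnoIφ : ∀ v : V, v ≠ 0 → (∀ s ∈ I, ∃ a : k, ρ s v = a • v) →
      ∀ a : k, ρ φ v ≠ a • v := by
    intro v hv hI a ha
    exact hno ⟨v, hv, hφ v hv hI ⟨a, ha⟩⟩
  have hcomm' : ∀ s ∈ I, ∀ t ∈ I, ∀ v : V, ρ s (ρ t v) = ρ t (ρ s v) := by
    intro s hs t ht v
    have h1 := congrArg (fun g : Module.End k V => g v) (hcomm s hs t ht)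
    exact h1
  -- an eigenvector of `φ`
  obtain ⟨vφ, hvφ, cφ, hcφ⟩ := h74d_exists_eigen hfr (ρ φ) (hsplit φ)
  -- a non-scalar element of `I`
  obtain ⟨s₀, hs₀, v₀, hv₀⟩ : ∃ s₀ ∈ I, ∃ v₀ : V, ∀ c : k, ρ s₀ v₀ ≠ c • v₀ := by
    by_contra hcon
    push Not at hcon
    exact hnoIφ vφ hvφ (fun s hs => hcon s hs vφ) cφ hcφ
  obtain ⟨a, b, hab⟩ := hsplit s₀
  -- conjugation
  have hconjI : ∀ g : G, g⁻¹ * s₀ * g ∈ I := by
    intro g
    have h1 := hnorm g⁻¹ s₀ hs₀
    rwa [inv_inv] at h1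
  have hconj : ∀ (g : G) (v : V), ρ g (ρ (g⁻¹ * s₀ * g) v) = ρ s₀ (ρ g v) := by
    intro g v
    rw [← hmul, ← hmul]
    congr 2
    group
  -- the eigenvalues are distinct
  have hne : a ≠ b := by
    intro hE
    subst hE
    apply hno
    refine ⟨ρ s₀ v₀ - a • v₀, ?_, ?_⟩
    · intro h
      exact hv₀ a (sub_eq_zero.mp h)
    · intro g
      exact h74d_jordan hfr (ρ s₀) a (h74d_ch (ρ s₀) a a hab) v₀ hv₀ (ρ g)
        (ρ (g⁻¹ * s₀ * g)) (hinj g) (hconj g)
        (fun x => hcomm' _ (hconjI g) s₀ hs₀ x)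
  -- the eigenvectors
  obtain ⟨v₁, hv₁d⟩ : ∃ v₁ : V, v₁ = ρ s₀ v₀ - b • v₀ := ⟨_, rfl⟩
  obtain ⟨v₂, hv₂d⟩ : ∃ v₂ : V, v₂ = ρ s₀ v₀ - a • v₀ := ⟨_, rfl⟩
  have hv₁ : v₁ ≠ 0 := by
    rw [hv₁d]
    intro h
    exact hv₀ b (sub_eq_zero.mp h)
  have hv₂ : v₂ ≠ 0 := by
    rw [hv₂d]
    intro h
    exact hv₀ a (sub_eq_zero.mp h)
  have e1 : ρ s₀ v₁ = a • v₁ := by
    rw [hv₁d]
    exact h74d_ch (ρ s₀) a b hab v₀
  have e2 : ρ s₀ v₂ = b • v₂ := by
    rw [hv₂d]
    exact h74d_ch' (ρ s₀) a b hab v₀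
  have hli := h74d_indep (ρ s₀) hne hv₁ hv₂ e1 e2
  have hsp := h74d_span hfr hli
  have hli' := h74d_li_symm hli
  have hsp' := h74d_span_symm hsp
  -- `I` is diagonal
  have hI : ∀ s ∈ I, ∃ a' b' : k, ρ s v₁ = a' • v₁ ∧ ρ s v₂ = b' • v₂ := by
    intro t ht
    have c1 : ρ s₀ (ρ t v₁) = a • ρ t v₁ := by
      rw [hcomm' s₀ hs₀ t ht, e1, map_smul]
    have c2 : ρ s₀ (ρ t v₂) = b • ρ t v₂ := by
      rw [hcomm' s₀ hs₀ t ht, e2, map_smul]
    obtain ⟨a', ha'⟩ := h74d_eigenspace (ρ s₀) hne hli hsp e1 e2 _ c1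
    obtain ⟨b', hb'⟩ := h74d_eigenspace (ρ s₀) hne.symm hli' hsp' e2 e1 _ c2
    exact ⟨a', b', ha', hb'⟩
  -- `G` preserves or swaps
  have hG : ∀ g : G, (∃ a' b' : k, ρ g v₁ = a' • v₁ ∧ ρ g v₂ = b' • v₂) ∨
      (∃ a' b' : k, ρ g v₁ = a' • v₂ ∧ ρ g v₂ = b' • v₁) := by
    intro g
    obtain ⟨x, y, hx, hy⟩ := hI _ (hconjI g)
    have c1 : ρ s₀ (ρ g v₁) = x • ρ g v₁ := by rw [← hconj, hx, map_smul]
    have c2 : ρ s₀ (ρ g v₂) = y • ρ g v₂ := by rw [← hconj, hy, map_smul]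
    rcases h74d_dich (ρ s₀) hne hli hsp e1 e2 _ x c1 with ⟨α, hα⟩ | ⟨β, hβ⟩
    · rcases h74d_dich (ρ s₀) hne hli hsp e1 e2 _ y c2 with ⟨γ, hγ⟩ | ⟨δ, hδ⟩
      · exfalso
        have h0 : ρ g (γ • v₁ + (-α) • v₂) = 0 := by
          rw [map_add, map_smul, map_smul, hα, hγ]
          module
        have h1 := hli _ _ (hinj g _ h0)
        have hα0 : α = 0 := neg_eq_zero.mp h1.2
        rw [hα0, zero_smul] at hα
        exact hv₁ (hinj g _ hα)
      · left
        exact ⟨α, δ, hα, hδ⟩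
    · rcases h74d_dich (ρ s₀) hne hli hsp e1 e2 _ y c2 with ⟨γ, hγ⟩ | ⟨δ, hδ⟩
      · right
        exact ⟨β, γ, hβ, hγ⟩
      · exfalso
        have h0 : ρ g (δ • v₁ + (-β) • v₂) = 0 := by
          rw [map_add, map_smul, map_smul, hβ, hδ]
          module
        have h1 := hli _ _ (hinj g _ h0)
        have hβ0 : β = 0 := neg_eq_zero.mp h1.2
        rw [hβ0, zero_smul] at hβ
        exact hv₁ (hinj g _ hβ)
  refine ⟨v₁, v₂, LinearIndependent.pair_iff.mpr hli, hI, hG, ?_⟩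
  rcases hG φ with ⟨a', b', h1, -⟩ | h
  · exfalso
    exact hnoIφ v₁ hv₁ (fun s hs => by
      obtain ⟨a'', -, h2, -⟩ := hI s hs
      exact ⟨a'', h2⟩) a' h1
  · exact h

end Fermat.Agent.S56F
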