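import Fermat.Agent.S56F.FLS1Iface_helper7

/-!
# S56 / LOC-p-FL, block SS, row FL-S1e (helper99): `H7Digits`

`h99d_digits : H7Digits` (frozen Prop of `S56F/FLS1Iface_helper7.lean`), pure arithmetic.

`n = p ^ r - 1`, `N = 1 + p + … + p ^ (r - 1) = n / (p - 1)`, `m₁, m₂` with digits in `{0, 1}`.
* `m₁ + m₂ ≤ 2 N ≤ n` and `N < n`, so `m₁ + m₂ ≡ N` gives `m₁ + m₂ = N`; the digits of the sum
  are `≤ 2 < p`, so by uniqueness of the base `p` digits (`h99d_digits_unique`) the digits of
  `m₁`, `m₂` are complementary.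
* `p m₂ = (cyclic shift of m₂) + b_{r-1} (p ^ r - 1)` (`h99d_shift`), so `m₁` is the cyclic
  shift of `m₂`: `a_0 = b_{r-1}`, `a_{i+1} = b_i`.
* Hence `a_{i+1} = 1 - a_i` and `a_0 = 1 - a_{r-1}`: `r` is even and the digits alternate;
  `∑_{i even} p ^ i = (p ^ r - 1) / (p ^ 2 - 1)` (`h99d_even_sum`, `h99d_odd_sum`).
-/

set_option autoImplicit false

open Finset

noncomputable section

namespace Fermat.Agent.S56F

/-! ## Base `p` digits -/

/-- uniqueness of the digits in base `p`. -/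
theorem h99d_digits_unique (p : ℕ) (hp : 1 < p) :
    ∀ (r : ℕ) (f g : ℕ → ℕ), (∀ i < r, f i < p) → (∀ i < r, g i < p) →
      ∑ i ∈ range r, f i * p ^ i = ∑ i ∈ range r, g i * p ^ i → ∀ i < r, f i = g i := by
  intro r
  induction r with
  | zero => intro f g _ _ _ i hi; exact absurd hi (Nat.not_lt_zero i)
  | succ r ih =>
    intro f g hf hg h i hi
    rw [Finset.sum_range_succ', Finset.sum_range_succ'] at h
    simp only [pow_zero, mul_one, pow_succ] at h
    have e1 : ∀ u : ℕ → ℕ, ∑ k ∈ range r, u (k + 1) * (p ^ k * p) =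
        p * ∑ k ∈ range r, u (k + 1) * p ^ k := by
      intro u
      rw [Finset.mul_sum]
      refine Finset.sum_congr rfl fun k _ => ?_
      ring
    rw [e1 f, e1 g] at h
    have h0 : f 0 = g 0 := by
      have h1 := congrArg (· % p) h
      simp only [Nat.mul_add_mod] at h1
      rwa [Nat.mod_eq_of_lt (hf 0 (Nat.succ_pos r)), Nat.mod_eq_of_lt (hg 0 (Nat.succ_pos r))]
        at h1
    rw [h0] at h
    have h2 : ∑ k ∈ range r, f (k + 1) * p ^ k = ∑ k ∈ range r, g (k + 1) * p ^ k :=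
      Nat.eq_of_mul_eq_mul_left (by omega : 0 < p) (Nat.add_right_cancel h)
    have ih' := ih (fun k => f (k + 1)) (fun k => g (k + 1))
      (fun k hk => hf (k + 1) (Nat.succ_lt_succ hk))
      (fun k hk => hg (k + 1) (Nat.succ_lt_succ hk)) h2
    rcases Nat.eq_zero_or_pos i with rfl | hpos
    · exact h0
    · obtain ⟨j, rfl⟩ : ∃ j, i = j + 1 := ⟨i - 1, by omega⟩
      exact ih' j (Nat.lt_of_succ_lt_succ hi)

/-- the digit function of a subset of `Fin r`. -/
def h99d_dig {r : ℕ} (S : Finset (Fin r)) (i : ℕ) : ℕ :=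
  if h : i < r then (if (⟨i, h⟩ : Fin r) ∈ S then 1 else 0) else 0

theorem h99d_dig_le {r : ℕ} (S : Finset (Fin r)) (i : ℕ) : h99d_dig S i ≤ 1 := by
  unfold h99d_dig
  split_ifs <;> omega

theorem h99d_sum_eq {r : ℕ} (S : Finset (Fin r)) (p : ℕ) :
    ∑ i ∈ S, p ^ (i : ℕ) = ∑ i ∈ range r, h99d_dig S i * p ^ i := by
  rw [← Fin.sum_univ_eq_sum_range (fun i => h99d_dig S i * p ^ i) r]
  rw [← Finset.sum_filter_add_sum_filter_not Finset.univ (· ∈ S)
    (fun i : Fin r => h99d_dig S i * p ^ (i : ℕ))]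
  have h1 : ∑ i ∈ Finset.univ.filter (· ∈ S), h99d_dig S (i : ℕ) * p ^ (i : ℕ) =
      ∑ i ∈ S, p ^ (i : ℕ) := by
    have e : Finset.univ.filter (· ∈ S) = S := by
      ext i
      simp
    rw [e]
    refine Finset.sum_congr rfl fun i hi => ?_
    unfold h99d_dig
    rw [dif_pos i.2, if_pos (by simpa using hi), one_mul]
  have h2 : ∑ i ∈ Finset.univ.filter (fun i => ¬ i ∈ S), h99d_dig S (i : ℕ) * p ^ (i : ℕ) = 0 := by
    refine Finset.sum_eq_zero fun i hi => ?_
    have hi' : i ∉ S := (Finset.mem_filter.mp hi).2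
    unfold h99d_dig
    rw [dif_pos i.2, if_neg (by simpa using hi'), zero_mul]
  rw [h1, h2, add_zero]


/-- geometric sum: `(∑_{i<r} p^i) (p - 1) + 1 = p^r`. -/
theorem h99d_geom (p r : ℕ) (hp : 1 ≤ p) :
    (∑ i ∈ range r, p ^ i) * (p - 1) + 1 = p ^ r := by
  have h := geom_sum_mul_add (p - 1) r
  rwa [Nat.sub_add_cancel hp] at h

/-- a number with digits `≤ 1` is at most `1 + p + … + p^(r-1)`. -/
theorem h99d_le (p r : ℕ) (d : ℕ → ℕ) (hd : ∀ i, d i ≤ 1) :
    ∑ i ∈ range r, d i * p ^ i ≤ ∑ i ∈ range r, p ^ i := by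
  refine Finset.sum_le_sum fun i _ => ?_
  calc d i * p ^ i ≤ 1 * p ^ i := Nat.mul_le_mul_right _ (hd i)
    _ = p ^ i := one_mul _

/-- the sum over the even indices. -/
theorem h99d_even_sum (p : ℕ) : ∀ s : ℕ,
    ∑ i ∈ range (2 * s), (if i % 2 = 0 then 1 else 0) * p ^ i = ∑ j ∈ range s, (p ^ 2) ^ j := by
  intro s
  induction s with
  | zero => simp
  | succ s ih =>
    have e : 2 * (s + 1) = 2 * s + 1 + 1 := by ring
    rw [e, Finset.sum_range_succ, Finset.sum_range_succ, ih, Finset.sum_range_succ]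
    have h1 : (2 * s) % 2 = 0 := by omega
    have h2 : ¬ (2 * s + 1) % 2 = 0 := by omega
    rw [if_pos h1, if_neg h2, one_mul, zero_mul, add_zero, pow_mul]

/-- the sum over the odd indices. -/
theorem h99d_odd_sum (p : ℕ) : ∀ s : ℕ,
    ∑ i ∈ range (2 * s), (if i % 2 = 0 then 0 else 1) * p ^ i =
      p * ∑ j ∈ range s, (p ^ 2) ^ j := by
  intro s
  induction s with
  | zero => simp
  | succ s ih =>
    have e : 2 * (s + 1) = 2 * s + 1 + 1 := by ring
    rw [e, Finset.sum_range_succ, Finset.sum_range_succ, ih, Finset.sum_range_succ]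
    have h1 : (2 * s) % 2 = 0 := by omega
    have h2 : ¬ (2 * s + 1) % 2 = 0 := by omega
    rw [if_pos h1, if_neg h2, one_mul, zero_mul, add_zero]
    have h3 : p ^ (2 * s + 1) = p * (p ^ 2) ^ s := by
      rw [pow_succ, pow_mul]
      ring
    rw [h3]
    ring

/-- the cyclic shift: `p · ∑ b_i p^i = ∑ c_i p^i + b_{r-1} (p^r - 1)` with `c_0 = b_{r-1}`,
`c_{i+1} = b_i`. -/
theorem h99d_shift (p r : ℕ) (b : ℕ → ℕ) :
    p * ∑ i ∈ range (r + 1), b i * p ^ i + b r =
      ∑ i ∈ range (r + 1), (if i = 0 then b r else b (i - 1)) * p ^ i + b r * p ^ (r + 1) := by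
  rw [Finset.sum_range_succ' (fun i => (if i = 0 then b r else b (i - 1)) * p ^ i),
    Finset.sum_range_succ (fun i => b i * p ^ i)]
  have e1 : ∑ k ∈ range r, (if k + 1 = 0 then b r else b (k + 1 - 1)) * p ^ (k + 1) =
      ∑ k ∈ range r, b k * p ^ (k + 1) := by
    refine Finset.sum_congr rfl fun k _ => ?_
    rw [if_neg (Nat.succ_ne_zero k), Nat.add_sub_cancel]
  have e2 : p * ∑ i ∈ range r, b i * p ^ i = ∑ i ∈ range r, b i * p ^ (i + 1) := by
    rw [Finset.mul_sum]
    refine Finset.sum_congr rfl fun i _ => ?_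
    rw [pow_succ]
    ring
  rw [e1, if_pos rfl, pow_zero, mul_one, mul_add, e2, pow_succ]
  ring

/-- **FL-S1e**, in terms of digit functions. -/
theorem h99d_core (p r : ℕ) (hp : 3 ≤ p) (hr : 0 < r) (a b : ℕ → ℕ) (ha : ∀ i, a i ≤ 1)
    (hb : ∀ i, b i ≤ 1)
    (h1 : (∑ i ∈ range r, a i * p ^ i) + (∑ i ∈ range r, b i * p ^ i) ≡ (p ^ r - 1) / (p - 1)
      [MOD p ^ r - 1])
    (h2 : p * (∑ i ∈ range r, b i * p ^ i) ≡ ∑ i ∈ range r, a i * p ^ i [MOD p ^ r - 1]) :
    2 ∣ r ∧
      ((∑ i ∈ range r, a i * p ^ i = (p ^ r - 1) / (p ^ 2 - 1) ∧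
          ∑ i ∈ range r, b i * p ^ i = p * ((p ^ r - 1) / (p ^ 2 - 1))) ∨
        (∑ i ∈ range r, a i * p ^ i = p * ((p ^ r - 1) / (p ^ 2 - 1)) ∧
          ∑ i ∈ range r, b i * p ^ i = (p ^ r - 1) / (p ^ 2 - 1))) := by
  set m₁ := ∑ i ∈ range r, a i * p ^ i with hm₁
  set m₂ := ∑ i ∈ range r, b i * p ^ i with hm₂
  set N := ∑ i ∈ range r, p ^ i with hN
  have hp1 : 1 < p := by omega
  have hNeq : (p ^ r - 1) / (p - 1) = N := (Nat.geomSum_eq (by omega : 2 ≤ p) r).symm
  have hgeom : N * (p - 1) + 1 = p ^ r := h99d_geom p r (by omega)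
  have hn : p ^ r - 1 = N * (p - 1) := by omega
  have hNpos : 0 < N := by
    obtain ⟨r', rfl⟩ : ∃ r', r = r' + 1 := ⟨r - 1, by omega⟩
    rw [hN, Finset.sum_range_succ']
    simp
  have hNlt : N < p ^ r - 1 := by
    rw [hn]
    have : 2 ≤ p - 1 := by omega
    nlinarith
  have hm₁le : m₁ ≤ N := h99d_le p r a ha
  have hm₂le : m₂ ≤ N := h99d_le p r b hb
  rw [hNeq] at h1
  -- (1) `m₁ + m₂ = N`
  have hsum : m₁ + m₂ = N := by
    have hle : m₁ + m₂ ≤ p ^ r - 1 := by
      rw [hn]
      have : 2 ≤ p - 1 := by omega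
      nlinarith
    rcases Nat.lt_or_ge (m₁ + m₂) (p ^ r - 1) with hlt | hge
    · exact h1.eq_of_lt_of_lt hlt hNlt
    · exfalso
      have heq : m₁ + m₂ = p ^ r - 1 := le_antisymm hle hge
      rw [heq] at h1
      have h3 : N % (p ^ r - 1) = 0 := by
        have := h1.symm
        unfold Nat.ModEq at this
        rw [this, Nat.mod_self]
      rw [Nat.mod_eq_of_lt hNlt] at h3
      omega
  -- (2) complementary digits
  have hcompl : ∀ i < r, a i + b i = 1 := by
    have h3 : ∑ i ∈ range r, (a i + b i) * p ^ i = ∑ i ∈ range r, 1 * p ^ i := by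
      simp only [add_mul, one_mul, Finset.sum_add_distrib]
      exact hsum
    exact h99d_digits_unique p hp1 r (fun i => a i + b i) (fun _ => 1)
      (fun i _ => by have := ha i; have := hb i; omega) (fun _ _ => hp1) h3
  -- (3) the shift
  obtain ⟨r', rfl⟩ : ∃ r', r = r' + 1 := ⟨r - 1, by omega⟩
  set c : ℕ → ℕ := fun i => if i = 0 then b r' else b (i - 1) with hc
  have hcle : ∀ i, c i ≤ 1 := by
    intro i
    simp only [hc]
    split_ifs
    · exact hb _
    · exact hb _
  have hshift : p * m₂ + b r' =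
      ∑ i ∈ range (r' + 1), c i * p ^ i + b r' * p ^ (r' + 1) := h99d_shift p r' b
  have hmc : ∑ i ∈ range (r' + 1), c i * p ^ i = m₁ := by
    have hmcle : ∑ i ∈ range (r' + 1), c i * p ^ i ≤ N := h99d_le p (r' + 1) c hcle
    have h4 : p * m₂ = ∑ i ∈ range (r' + 1), c i * p ^ i + b r' * (p ^ (r' + 1) - 1) := by
      have h5 : p ^ (r' + 1) = (p ^ (r' + 1) - 1) + 1 := by omega
      have h6 : b r' * p ^ (r' + 1) = b r' * (p ^ (r' + 1) - 1) + b r' := by
        conv_lhs => rw [h5]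
        ring
      rw [h6] at hshift
      omega
    have h7 : ∑ i ∈ range (r' + 1), c i * p ^ i ≡ m₁ [MOD p ^ (r' + 1) - 1] := by
      have h8 : p * m₂ ≡ ∑ i ∈ range (r' + 1), c i * p ^ i [MOD p ^ (r' + 1) - 1] := by
        rw [h4]
        unfold Nat.ModEq
        rw [Nat.add_mul_mod_self_right]
      exact h8.symm.trans h2
    exact h7.eq_of_lt_of_lt (lt_of_le_of_lt hmcle hNlt) (lt_of_le_of_lt hm₁le hNlt)
  have hca : ∀ i < r' + 1, c i = a i :=
    h99d_digits_unique p hp1 (r' + 1) c a (fun i _ => lt_of_le_of_lt (hcle i) hp1)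
      (fun i _ => lt_of_le_of_lt (ha i) hp1) hmc
  have ha0 : a 0 = b r' := by
    have := hca 0 (Nat.succ_pos r')
    simp only [hc] at this
    rw [← this]
    simp
  have hasucc : ∀ i, i + 1 < r' + 1 → a (i + 1) = b i := by
    intro i hi
    have := hca (i + 1) hi
    simp only [hc] at this
    rw [← this]
    simp
  -- (4) alternating digits
  have halt : ∀ i, i < r' + 1 → (i % 2 = 0 → a i = a 0) ∧ (i % 2 = 1 → a i + a 0 = 1) := by
    intro i
    induction i with
    | zero => intro _; exact ⟨fun _ => rfl, fun h => by omega⟩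
    | succ i ih =>
      intro hi
      have hi' : i < r' + 1 := by omega
      obtain ⟨ih0, ih1⟩ := ih hi'
      have h3 := hasucc i hi
      have h4 := hcompl i hi'
      constructor
      · intro hpar
        have := ih1 (by omega)
        omega
      · intro hpar
        have := ih0 (by omega)
        omega
  have hlast : a r' + a 0 = 1 := by
    have := hcompl r' (Nat.lt_succ_self r')
    omega
  have hpar : (r' + 1) % 2 = 0 := by
    by_contra hodd
    have h3 := (halt r' (Nat.lt_succ_self r')).1 (by omega)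
    omega
  obtain ⟨s, hs⟩ : ∃ s, r' + 1 = 2 * s := ⟨(r' + 1) / 2, by omega⟩
  refine ⟨⟨s, hs⟩, ?_⟩
  -- (5) the values
  have hE : ∑ j ∈ range s, (p ^ 2) ^ j = (p ^ (r' + 1) - 1) / (p ^ 2 - 1) := by
    have h2p : 2 ≤ p ^ 2 := by nlinarith
    rw [Nat.geomSum_eq h2p s, ← pow_mul, ← hs]
  have ha01 : a 0 = 0 ∨ a 0 = 1 := by have := ha 0; omega
  rcases ha01 with h0 | h0
  · right
    constructor
    · rw [← hE, ← h99d_odd_sum p s, ← hs]
      refine Finset.sum_congr rfl fun i hi => ?_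
      have hi' := Finset.mem_range.mp hi
      obtain ⟨e0, e1⟩ := halt i hi'
      by_cases hpi : i % 2 = 0
      · rw [if_pos hpi, e0 hpi, h0]
      · rw [if_neg hpi]
        have := e1 (by omega)
        have : a i = 1 := by omega
        rw [this]
    · rw [← hE, ← h99d_even_sum p s, ← hs]
      refine Finset.sum_congr rfl fun i hi => ?_
      have hi' := Finset.mem_range.mp hi
      obtain ⟨e0, e1⟩ := halt i hi'
      have hab := hcompl i hi'
      by_cases hpi : i % 2 = 0
      · rw [if_pos hpi]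
        have := e0 hpi
        have : b i = 1 := by omega
        rw [this]
      · rw [if_neg hpi]
        have := e1 (by omega)
        have : b i = 0 := by omega
        rw [this]
  · left
    constructor
    · rw [← hE, ← h99d_even_sum p s, ← hs]
      refine Finset.sum_congr rfl fun i hi => ?_
      have hi' := Finset.mem_range.mp hi
      obtain ⟨e0, e1⟩ := halt i hi'
      by_cases hpi : i % 2 = 0
      · rw [if_pos hpi, e0 hpi, h0]
      · rw [if_neg hpi]
        have := e1 (by omega)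
        have : a i = 0 := by omega
        rw [this]
    · rw [← hE, ← h99d_odd_sum p s, ← hs]
      refine Finset.sum_congr rfl fun i hi => ?_
      have hi' := Finset.mem_range.mp hi
      obtain ⟨e0, e1⟩ := halt i hi'
      have hab := hcompl i hi'
      by_cases hpi : i % 2 = 0
      · rw [if_pos hpi]
        have := e0 hpi
        have : b i = 0 := by omega
        rw [this]
      · rw [if_neg hpi]
        have := e1 (by omega)
        have : b i = 1 := by omega
        rw [this]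

/-- **FL-S1e**: the exact frozen Prop `H7Digits` of `S56F/FLS1Iface_helper7.lean`. -/
theorem h99d_digits : H7Digits := by
  intro p r hp hp2 hr S₁ S₂ h1 h2
  have hp3 : 3 ≤ p := by
    have := hp.two_le
    omega
  rw [h99d_sum_eq S₁ p, h99d_sum_eq S₂ p] at h1 h2 ⊢
  exact h99d_core p r hp3 hr _ _ (h99d_dig_le S₁) (h99d_dig_le S₂) h1 h2

end Fermat.Agent.S56F
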