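import Fermat.Agent.S56F.FLS1Iface_helper7
import Fermat.Agent.S56F.FLD6_helper96
import Fermat.Agent.S56F.FLD0_helper89

/-!
# S56 / LOC-p-FL, block SS, row FL-S1f (helper45): `H7Gen`

`h45h_gen : H7Gen` — a subgroup `H` of `Gq p` containing the inertia group, an open subgroup
`G_F` and a Frobenius element is everything.

* `h45h_comm_on_roots` : two elements of `Gq p` commute on the roots of unity (they act on the
  cyclic group `μ_m` through power maps);
* `h45h_commutator_mem_inertia` : the commutators of `Gq p` lie in the inertia group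
  (`h89d0_mem_inertia_of_fix`);
* hence `H` is normal with commutative quotient, and `FrobGen` (`h96g_frobGen`), applied to
  `Gq p → Additive (Gq p ⧸ H)`, gives `H = ⊤`.
-/

set_option autoImplicit false
set_option linter.style.haveILetI false

open Fermat.Agent.PT.Loc

noncomputable section

namespace Fermat.Agent.S56F

variable (p : ℕ) [Fact p.Prime]

/-- Two elements of `Gq p` commute on the roots of unity. -/
theorem h45h_comm_on_roots (g h : Gq p) (w : Om p) (m : ℕ) (hm : 0 < m) (hw : w ^ m = 1) :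
    g (h w) = h (g w) := by
  haveI : NeZero m := ⟨hm.ne'⟩
  obtain ⟨a, ha⟩ := rootsOfUnity.integer_power_of_ringEquiv (L := Om p) m
    (g : Om p ≃+* Om p)
  obtain ⟨b, hb⟩ := rootsOfUnity.integer_power_of_ringEquiv (L := Om p) m
    (h : Om p ≃+* Om p)
  let t : rootsOfUnity m (Om p) := rootsOfUnity.mkOfPowEq w hw
  have htw : (((t : (Om p)ˣ)) : Om p) = w := rootsOfUnity.val_mkOfPowEq_coe w hw
  have ga : ∀ s : rootsOfUnity m (Om p), g (((s : (Om p)ˣ)) : Om p) =
      (((s : (Om p)ˣ) ^ a : (Om p)ˣ) : Om p) := fun s => ha s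
  have hb' : ∀ s : rootsOfUnity m (Om p), h (((s : (Om p)ˣ)) : Om p) =
      (((s : (Om p)ˣ) ^ b : (Om p)ˣ) : Om p) := fun s => hb s
  have e1 : g (h w) = ((((t : (Om p)ˣ) ^ b) ^ a : (Om p)ˣ) : Om p) := by
    rw [← htw, hb' t]
    have := ga (t ^ b)
    rwa [Subgroup.coe_zpow] at this
  have e2 : h (g w) = ((((t : (Om p)ˣ) ^ a) ^ b : (Om p)ˣ) : Om p) := by
    rw [← htw, ga t]
    have := hb' (t ^ a)
    rwa [Subgroup.coe_zpow] at this
  rw [e1, e2, ← zpow_mul, ← zpow_mul, mul_comm]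

/-- The commutators of `Gq p` lie in the inertia group. -/
theorem h45h_commutator_mem_inertia (g h : Gq p) : g * h * g⁻¹ * h⁻¹ ∈ inertia p := by
  apply h89d0_mem_inertia_of_fix
  intro w m hm _ hw
  have hw1 : (h⁻¹ w) ^ m = 1 := by rw [← map_pow, hw, map_one]
  have e := h45h_comm_on_roots p h g⁻¹ (h⁻¹ w) m hm hw1
  have e2 : h (h⁻¹ w) = w := by
    rw [← AlgEquiv.mul_apply, mul_inv_cancel, AlgEquiv.one_apply]
  simp only [AlgEquiv.mul_apply]
  rw [e, e2, ← AlgEquiv.mul_apply, mul_inv_cancel, AlgEquiv.one_apply]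

/-- **FL-S1f.** -/
theorem h45h_gen : H7Gen := by
  intro p _ H hI hopen φ hφ hφH
  obtain ⟨F, hF, hFH⟩ := hopen
  have hcomm : ∀ g h : Gq p, g * h * g⁻¹ * h⁻¹ ∈ H := fun g h =>
    hI (h45h_commutator_mem_inertia p g h)
  haveI hN : H.Normal := ⟨fun n hn g => by
    have h1 := H.mul_mem (hcomm g n) hn
    have h2 : g * n * g⁻¹ * n⁻¹ * n = g * n * g⁻¹ := by group
    rwa [h2] at h1⟩
  letI : CommGroup (Gq p ⧸ H) :=
    { (inferInstance : Group (Gq p ⧸ H)) with
      mul_comm := by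
        intro a b
        obtain ⟨a, rfl⟩ := QuotientGroup.mk_surjective a
        obtain ⟨b, rfl⟩ := QuotientGroup.mk_surjective b
        rw [← QuotientGroup.mk_mul, ← QuotientGroup.mk_mul, QuotientGroup.eq]
        have h1 := hcomm b⁻¹ a⁻¹
        have h2 : b⁻¹ * a⁻¹ * b⁻¹⁻¹ * a⁻¹⁻¹ = (a * b)⁻¹ * (b * a) := by group
        rwa [h2] at h1 }
  let h : Gq p → Additive (Gq p ⧸ H) := fun σ => Additive.ofMul (σ : Gq p ⧸ H)
  have hmk : ∀ σ : Gq p, h σ = 0 ↔ σ ∈ H := by
    intro σ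
    constructor
    · intro h0
      exact (QuotientGroup.eq_one_iff σ).1 (Additive.ofMul.injective h0)
    · intro hσ
      exact congrArg Additive.ofMul ((QuotientGroup.eq_one_iff σ).2 hσ)
  have hadd : ∀ σ τ, h (σ * τ) = h σ + h τ := fun σ τ => rfl
  have hcont : Cont1 (⊥ : LF p) h := by
    refine ⟨F, hF, bot_le, fun g _ s hs => ?_⟩
    rw [hadd, (hmk s).2 (hFH hs), add_zero]
  have hin : ∀ σ ∈ inertia p, h σ = 0 := fun σ hσ => (hmk σ).2 (hI hσ)
  have hall := h96g_frobGen p (Additive (Gq p ⧸ H)) h hcont hadd hin φ hφ ((hmk φ).2 hφH)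
  rw [eq_top_iff]
  intro σ _
  exact (hmk σ).1 (hall σ)

end Fermat.Agent.S56F
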