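import Fermat.Agent.S56F.FLS1g_helper7
import Fermat.Agent.S56F.FLC5Final_helper89
import Fermat.Agent.S56F.FLC1_helper7
import Fermat.Agent.S56F.FLB7_helper87

/-!
# S56 / LOC-p-FL, block SS, leaf FL-S1g (helper7): unconditional `H7LineChar`
-/

set_option autoImplicit false

namespace Fermat.Agent.S56F

/-- **FL-S1g**, unconditional. -/
theorem h7x_lineChar : H7LineChar :=
  h7x_lineChar_of (h89f_rankOne_of h7g_gaussNorm) h87f_subOrder

end Fermat.Agent.S56F
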