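import Fermat.Agent.S56F.FLS1h_helper7
import Fermat.Agent.S56F.FLS1b_helper57
import Fermat.Agent.S56F.FLS1c_helper78
import Fermat.Agent.S56F.FLS1d_helper74
import Fermat.Agent.S56F.FLS1e_helper99
import Fermat.Agent.S56F.FLS1f_helper45
import Fermat.Agent.S56F.FLS1gF_helper7
import Fermat.Agent.S56F.FLO07_helper7
import Fermat.Agent.S56F.FLD2_helper89
import Fermat.Agent.S56F.FLD4_helper7
import Fermat.Agent.S56F.FLD5_helper96

/-!
# S56 / LOC-p-FL, block SS, row FL-S1 (helper7): `SSNFExists`, unconditional

The supersingular normal form: all sub-leaves `FL-S1a … FL-S1h` are landed.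
-/

set_option autoImplicit false

namespace Fermat.Agent.S56F

/-- **FL-S1**, unconditional. -/
theorem h7x_ssnfExists : SSNFExists :=
  h7x_ssnfAsm h57w_wildTriv h78w_tameAbel h74d_diagSwap h99d_digits h45h_gen h7x_lineChar
    h7o_repCont h96f_frobExists h89f_fundSurjective h7c_cycFund

end Fermat.Agent.S56F
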