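import Fermat.Agent.S56F.IfaceSS

/-!
# S56 / LOC-p-FL, block SS, row FL-S1 (`SSNFExists`): frozen sub-leaves (owner helper7)

Every declaration is a definition or a frozen `Prop`; nothing is assumed.  Rows `FL-S1a … FL-S1h`
on `s56_tasks`.  Prove each as `theorem <prefix>_<name> : <Name>` in your own file
`Fermat/Agent/S56F/FLS1<x>_<seat>.lean` (import this file).  Do NOT edit this file.

Chain (`ρ : Gq p → GL(V)`, `dim V = 2`, no stable line, `V` `LocFlat`):

* `H7WildPow`   : a wild element `s` fixing `x` after a prime-to-`p` power fixes `x`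
                  (eigen-decomposition `x = ∑_ζ y_ζ`, `s y_ζ = ζ y_ζ`, `‖ζ - 1‖ = 1` for `ζ ≠ 1`);
* `H7WildTriv`  : wild inertia acts trivially on `V` (`ρ(P)` is a `p`-group: restriction to a
                  finite normal `F` + `H7WildPow`; a `p`-group has a non-zero fixed vector; the
                  fixed space is `Gq p`-stable);
* `H7TameAbel`  : commutators of inertia are wild (`σ ↦ σ z / z mod 𝔪` is a homomorphism);
* `H7DiagSwap`  : PURE ALGEBRA: a commuting normal subgroup acts diagonally in a basis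
                  `v₁, v₂`, every element preserves or swaps the two lines, `φ` swaps;
* `H7Gen`       : a subgroup of `Gq p` containing inertia, a Frobenius and an open subgroup is
                  everything (from `FrobGen`; commutators of `Gq p` are in inertia);
* `H7LineChar`  : Raynaud's rank one on an eigenline: `τ ∘ χ₁ = Ψ ^ m`, digits of `m` in `{0,1}`
                  (`SubOrder` along `x ↦ x • v₁`, stability under `diag(a, 1)` from `Nice.aut`);
* `H7Digits`    : PURE ARITHMETIC: `m₁ + m₂ ≡ (q-1)/(p-1)` and `p m₂ ≡ m₁` modulo `q - 1` with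
                  digits in `{0,1}` force `m₁, m₂ ∈ {(q-1)/(p²-1), p (q-1)/(p²-1)}`;
* assembly (helper7).
-/

set_option autoImplicit false
set_option linter.style.haveILetI false

open Fermat.Agent.PT.Loc Polynomial

noncomputable section

namespace Fermat.Agent.S56F

/-- `s` is in the wild inertia group. -/
def h7x_IsWild (p : ℕ) [Fact p.Prime] (s : Gq p) : Prop :=
  s ∈ inertia p ∧ ∀ z : Om p, z ≠ 0 → ‖s z / z - 1‖ < 1

/-- `φ` is a Frobenius element. -/
def h7x_IsFrob (p : ℕ) [Fact p.Prime] (φ : Gq p) : Prop :=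
  ∀ (w : Om p) (m : ℕ), 0 < m → ¬ p ∣ m → w ^ m = 1 → φ w = w ^ p

/-- **FL-S1a.**  A wild element which fixes `x` after a power prime to `p` fixes `x`. -/
def H7WildPow : Prop :=
  ∀ (p : ℕ) [Fact p.Prime] (s : Gq p), h7x_IsWild p s →
    ∀ (x : Om p) (m : ℕ), 0 < m → ¬ p ∣ m → (s ^ m) x = x → s x = x

/-- **FL-S1b.**  Wild inertia acts trivially on a continuous two-dimensional representation
without stable line. -/
def H7WildTriv : Prop :=
  ∀ (p : ℕ) [Fact p.Prime] (k : Type) [Field k] [Finite k] [CharP k p] (V : Type)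
    [AddCommGroup V] [Module k V] [Module.Finite k V] (ρ : Gq p →* Module.End k V),
    Module.finrank k V = 2 → Cont1 (⊥ : LF p) (fun σ => ρ σ) →
    (¬ ∃ v : V, v ≠ 0 ∧ ∀ σ : Gq p, ∃ a : k, ρ σ v = a • v) →
    ∀ s : Gq p, h7x_IsWild p s → ρ s = 1

/-- **FL-S1c.**  Commutators of inertia are wild. -/
def H7TameAbel : Prop :=
  ∀ (p : ℕ) [Fact p.Prime] (s t : Gq p), s ∈ inertia p → t ∈ inertia p →
    h7x_IsWild p (s * t * s⁻¹ * t⁻¹)

/-- **FL-S1d** (pure algebra).  `I` a normal subgroup of `G` acting through commuting operators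
on the plane `V` without `G`-stable line, all characteristic polynomials split; `φ` an element
such that a line stable under `I` and `φ` is stable under `G`.  Then `I` acts diagonally in a
basis `v₁, v₂`, every element of `G` preserves or swaps the two lines, and `φ` swaps them. -/
def H7DiagSwap : Prop :=
  ∀ (G : Type) [Group G] (I : Subgroup G), (∀ g : G, ∀ s ∈ I, g * s * g⁻¹ ∈ I) →
  ∀ (k : Type) [Field k] (V : Type) [AddCommGroup V] [Module k V] [Module.Finite k V]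
    (ρ : G →* Module.End k V), Module.finrank k V = 2 →
    (∀ s ∈ I, ∀ t ∈ I, ρ s * ρ t = ρ t * ρ s) →
    (∀ g : G, ∃ α β : k, LinearMap.charpoly (ρ g) = (X - C α) * (X - C β)) →
    (¬ ∃ v : V, v ≠ 0 ∧ ∀ g : G, ∃ a : k, ρ g v = a • v) →
    ∀ φ : G, (∀ v : V, v ≠ 0 → (∀ s ∈ I, ∃ a : k, ρ s v = a • v) → (∃ a : k, ρ φ v = a • v) →
        ∀ g : G, ∃ a : k, ρ g v = a • v) →
      ∃ v₁ v₂ : V, LinearIndependent k ![v₁, v₂] ∧
        (∀ s ∈ I, ∃ a b : k, ρ s v₁ = a • v₁ ∧ ρ s v₂ = b • v₂) ∧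
        (∀ g : G, (∃ a b : k, ρ g v₁ = a • v₁ ∧ ρ g v₂ = b • v₂) ∨
          (∃ a b : k, ρ g v₁ = a • v₂ ∧ ρ g v₂ = b • v₁)) ∧
        (∃ a b : k, ρ φ v₁ = a • v₂ ∧ ρ φ v₂ = b • v₁)

/-- **FL-S1e** (pure arithmetic).  Digits in `{0, 1}`, `m₁ + m₂ ≡ 1 + p + … + p^(r-1)` and
`p m₂ ≡ m₁` modulo `p ^ r - 1`: then `r` is even and `{m₁, m₂}` are the two numbers with
alternating digits. -/
def H7Digits : Prop :=
  ∀ (p r : ℕ), p.Prime → p ≠ 2 → 0 < r → ∀ S₁ S₂ : Finset (Fin r),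
    (∑ i ∈ S₁, p ^ (i : ℕ)) + (∑ i ∈ S₂, p ^ (i : ℕ)) ≡ (p ^ r - 1) / (p - 1)
      [MOD p ^ r - 1] →
    p * (∑ i ∈ S₂, p ^ (i : ℕ)) ≡ ∑ i ∈ S₁, p ^ (i : ℕ) [MOD p ^ r - 1] →
    2 ∣ r ∧
      ((∑ i ∈ S₁, p ^ (i : ℕ) = (p ^ r - 1) / (p ^ 2 - 1) ∧
          ∑ i ∈ S₂, p ^ (i : ℕ) = p * ((p ^ r - 1) / (p ^ 2 - 1))) ∨
        (∑ i ∈ S₁, p ^ (i : ℕ) = p * ((p ^ r - 1) / (p ^ 2 - 1)) ∧
          ∑ i ∈ S₂, p ^ (i : ℕ) = (p ^ r - 1) / (p ^ 2 - 1)))

/-- **FL-S1f.**  A subgroup of `Gq p` containing inertia, an open subgroup and a Frobenius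
element is everything. -/
def H7Gen : Prop :=
  ∀ (p : ℕ) [Fact p.Prime] (H : Subgroup (Gq p)), inertia p ≤ H →
    (∃ F : LF p, FiniteDimensional ℚ_[p] F ∧ GK F ≤ H) →
    ∀ φ : Gq p, h7x_IsFrob p φ → φ ∈ H → H = ⊤

/-- **FL-S1g.**  Rank one on an eigenline of inertia in a `LocFlat` plane: the character of
inertia on the line `k v₁` is a power `Ψ ^ m` of the fundamental character of level
`q - 1 = p ^ r - 1`, and the `p`-adic digits of `m` are `0` or `1`. -/
def H7LineChar : Prop :=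
  ∀ (p : ℕ) [Fact p.Prime], p ≠ 2 → ∀ (k : Type) [Field k] [Fintype k] [CharP k p] (r : ℕ),
    Fintype.card k = p ^ r →
  ∀ (V : Type) [AddCommGroup V] [Module k V] [Module.Finite k V]
    (ρ : Gq p →* Module.End k V), Module.finrank k V = 2 →
    LocFlat p V (fun σ v => ρ σ v) →
    ∀ v₁ v₂ : V, LinearIndependent k ![v₁, v₂] →
    ∀ χ₁ χ₂ : Gq p → kˣ,
      (∀ σ ∈ inertia p, ρ σ v₁ = (χ₁ σ : k) • v₁ ∧ ρ σ v₂ = (χ₂ σ : k) • v₂) →
    ∀ (τ : kˣ →* (Om p)ˣ), IsTeich p τ → ∀ π : Om p, π ^ (p ^ r - 1) = p →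
      ∃ S : Finset (Fin r), ∀ σ ∈ inertia p,
        ((τ (χ₁ σ) : (Om p)ˣ) : Om p) = (σ π / π) ^ (∑ i ∈ S, p ^ (i : ℕ))

/-- **FL-S1h** (assembly). -/
def H7SSNFAsm : Prop :=
  H7WildTriv → H7TameAbel → H7DiagSwap → H7Digits → H7Gen → H7LineChar → RepCont →
    FrobExists → FundSurjective → CycFund → SSNFExists

end Fermat.Agent.S56F
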