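import Fermat.Agent.S56F.FLS1Iface_helper7

/-!
# S56 / LOC-p-FL, block SS, leaf FL-S1g (helper7): rank one on an eigenline

`h7x_lineChar_of : RankOne → SubOrder → H7LineChar`.

Proof.  `𝓗` a nice order of `V` over inertia; pull it back along `j : k → V`, `x ↦ x • v₁`
(`SubOrder`); the pull-back is stable under `kˣ` because `𝓗` is stable under `diag(a, 1)`
(`Nice.aut`; `diag(a, 1)` commutes with the diagonal action of inertia); `RankOne`.
-/

set_option autoImplicit false
set_option linter.unusedSectionVars false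
set_option linter.style.haveILetI false

open Fermat.Agent.PT.Loc

noncomputable section

namespace Fermat.Agent.S56F

section Diag

variable {k : Type} [Field k] {V : Type} [AddCommGroup V] [Module k V]

/-- the linear map `diag(a, c)` in the basis `b`. -/
def h7x_diagMap (b : Module.Basis (Fin 2) k V) (a c : k) : V →ₗ[k] V :=
  b.constr k ![a • b 0, c • b 1]

theorem h7x_diagMap_zero (b : Module.Basis (Fin 2) k V) (a c : k) :
    h7x_diagMap b a c (b 0) = a • b 0 := by
  simp [h7x_diagMap]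

theorem h7x_diagMap_one (b : Module.Basis (Fin 2) k V) (a c : k) :
    h7x_diagMap b a c (b 1) = c • b 1 := by
  simp [h7x_diagMap]

theorem h7x_diagMap_comp (b : Module.Basis (Fin 2) k V) (a c a' c' : k) :
    (h7x_diagMap b a c).comp (h7x_diagMap b a' c') = h7x_diagMap b (a * a') (c * c') := by
  apply b.ext
  intro i
  fin_cases i
  · simp [h7x_diagMap_zero, mul_smul, smul_comm a a']
  · simp [h7x_diagMap_one, mul_smul, smul_comm c c']

theorem h7x_diagMap_one_one (b : Module.Basis (Fin 2) k V) :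
    h7x_diagMap b 1 1 = LinearMap.id := by
  apply b.ext
  intro i
  fin_cases i
  · simp [h7x_diagMap_zero]
  · simp [h7x_diagMap_one]

/-- `diag(a, c)` as a linear equivalence, `a, c ≠ 0`. -/
def h7x_diagEquiv (b : Module.Basis (Fin 2) k V) (a c : kˣ) : V ≃ₗ[k] V :=
  LinearEquiv.ofLinearMap (h7x_diagMap b a c) (h7x_diagMap b (a⁻¹ : kˣ) (c⁻¹ : kˣ))
    (by rw [h7x_diagMap_comp]; simp [h7x_diagMap_one_one])
    (by rw [h7x_diagMap_comp]; simp [h7x_diagMap_one_one])

theorem h7x_diagEquiv_apply (b : Module.Basis (Fin 2) k V) (a c : kˣ) (x : V) :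
    h7x_diagEquiv b a c x = h7x_diagMap b a c x := rfl

/-- `diag(a, c)` commutes with every operator which is diagonal in the basis `b`. -/
theorem h7x_diagMap_comm (b : Module.Basis (Fin 2) k V) (a c : k) (f : V →ₗ[k] V) {x y : k}
    (h0 : f (b 0) = x • b 0) (h1 : f (b 1) = y • b 1) (v : V) :
    h7x_diagMap b a c (f v) = f (h7x_diagMap b a c v) := by
  have h : (h7x_diagMap b a c).comp f = f.comp (h7x_diagMap b a c) := by
    apply b.ext
    intro i
    fin_cases i
    · simp [h0, h7x_diagMap_zero, smul_comm a x]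
    · simp [h1, h7x_diagMap_one, smul_comm c y]
  exact congrArg (fun g : V →ₗ[k] V => g v) h

end Diag

/-- **FL-S1g.** -/
theorem h7x_lineChar_of (hR : RankOne) (hS : SubOrder) : H7LineChar := by
  intro p _ hp2 k _ _ _ r hcard V _ _ _ ρ hrank hflat v₁ v₂ hind χ₁ χ₂ hχ τ hτ π hπ
  haveI : Finite V := Module.finite_of_finite k
  obtain ⟨𝓗, hnice⟩ := hflat (inertia p)
  -- the basis
  have hcardfin : Fintype.card (Fin 2) = Module.finrank k V := by
    rw [hrank]
    rfl
  let b : Module.Basis (Fin 2) k V := basisOfLinearIndependentOfCardEqFinrank hind hcardfin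
  have hb0 : b 0 = v₁ := by
    simp [b, coe_basisOfLinearIndependentOfCardEqFinrank]
  have hb1 : b 1 = v₂ := by
    simp [b, coe_basisOfLinearIndependentOfCardEqFinrank]
  have hv₁ : v₁ ≠ 0 := by
    have := hind.ne_zero 0
    simpa using this
  -- the inclusion of the line
  let j : k →+ V := (LinearMap.toSpanSingleton k V v₁).toAddMonoidHom
  have hjapp : ∀ x : k, j x = x • v₁ := fun x => rfl
  have hj : Function.Injective j := by
    intro x y hxy
    rw [hjapp, hjapp] at hxy
    exact smul_left_injective k hv₁ hxy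
  let actN : Gq p → k → k := fun σ x => χ₁ σ • x
  have hequiv : ∀ σ ∈ inertia p, ∀ x : k, j (actN σ x) = ρ σ (j x) := by
    intro σ hσ x
    rw [hjapp, hjapp, map_smul, (hχ σ hσ).1]
    show (χ₁ σ • x) • v₁ = x • ((χ₁ σ : k) • v₁)
    rw [Units.smul_def, smul_eq_mul, mul_smul, smul_comm]
  obtain ⟨𝓗N, hN, hcc⟩ := hS p (inertia p) V (fun σ v => ρ σ v) 𝓗 k actN j hj hequiv
  have hstable : ∀ a : kˣ, 𝓗N.StableUnder (fun x => a • x) := by
    intro a g hg
    obtain ⟨f, hf, rfl⟩ := (hN g).mp hg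
    have hcomm : ∀ σ ∈ inertia p, ∀ x : V,
        (h7x_diagEquiv b a 1).toAddEquiv ((fun σ v => ρ σ v) σ x) =
          (fun σ v => ρ σ v) σ ((h7x_diagEquiv b a 1).toAddEquiv x) := by
      intro σ hσ x
      show h7x_diagMap b a 1 (ρ σ x) = ρ σ (h7x_diagMap b a 1 x)
      refine h7x_diagMap_comm b a 1 (ρ σ) (x := (χ₁ σ : k)) (y := (χ₂ σ : k)) ?_ ?_ x
      · rw [hb0]
        exact (hχ σ hσ).1
      · rw [hb1]
        exact (hχ σ hσ).2
    have h1 := hnice.aut (h7x_diagEquiv b a 1).toAddEquiv hcomm f hf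
    refine (hN _).mpr ⟨_, h1, ?_⟩
    funext x
    show f (j (a • x)) = f ((h7x_diagEquiv b a 1) (j x))
    congr 1
    rw [h7x_diagEquiv_apply, hjapp, hjapp, map_smul, ← hb0, h7x_diagMap_zero, Units.smul_def,
      smul_eq_mul, mul_smul, smul_comm]
  obtain ⟨m, ⟨S, hSm⟩, hchar, -⟩ := hR p hp2 k r hcard k (Module.finrank_self k) actN χ₁
    (fun σ _ x => rfl) 𝓗N hstable (hcc hnice.char) τ hτ π hπ
  exact ⟨S, fun σ hσ => by rw [← hSm]; exact hchar σ hσ⟩

end Fermat.Agent.S56F
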