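import Fermat.Agent.S56F.FLS1Iface_helper7
import Fermat.Agent.S56F.FLO2_helper89

/-!
# S56 / LOC-p-FL, block SS, leaf FL-S1h (helper7): assembly of the supersingular normal form

`h7x_ssnfAsm : H7SSNFAsm`.

Steps.  (1) `ρ` is continuous (`RepCont`), wild inertia acts trivially (`H7WildTriv`), the
commutators of inertia are wild (`H7TameAbel`): `ρ(inertia)` is commutative.  (2) A line stable
under inertia and a Frobenius `φ` is stable under `Gq p` (`H7Gen` for the stabiliser of the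
line).  (3) `H7DiagSwap`: basis `v₁, v₂`, inertia acts through `χ₁, χ₂`, `φ` swaps the lines.
(4) `H7LineChar` on both lines: `τ ∘ χ_i = Ψ ^ m_i` with digits in `{0, 1}` (`Ψ σ = σ π / π`,
`π ^ (p ^ r - 1) = p`).  (5) `det ρ = ω` and `CycFund`: `m₁ + m₂ ≡ n / (p - 1)`; `φ` swaps:
`p m₂ ≡ m₁` modulo `n = p ^ r - 1` (`Ψ` is onto `μ_n`).  (6) `H7Digits`: `2 ∣ r` and
`{m₁, m₂} = {N, p N}`, `N = n / (p² - 1)`; with `π_n ^ N = π` this is the normal form.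
-/

set_option autoImplicit false
set_option linter.unusedSectionVars false
set_option linter.style.haveILetI false

open Fermat.Agent.PT.Loc Polynomial

noncomputable section

namespace Fermat.Agent.S56F

section Prelim

variable {p : ℕ} [Fact p.Prime]

/-- two roots of unity of order prime to `p` which are congruent are equal. -/
theorem h7x_root_eq {n : ℕ} (hn0 : 0 < n) (hn : ¬ p ∣ n) {x y : Om p} (hx : x ^ n = 1)
    (hy : y ^ n = 1) (h : ‖x - y‖ < 1) : x = y := by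
  have : FiniteDimensional ℚ_[p] (IntermediateField.adjoin ℚ_[p] ({x, y} : Set (Om p))) :=
    h89d0_finiteDimensional_adjoin _ (Set.toFinite _)
  exact h34lf_teich_unique_K (IntermediateField.adjoin ℚ_[p] ({x, y} : Set (Om p))) hn hn hn0
    (IntermediateField.subset_adjoin _ _ (by simp))
    (IntermediateField.subset_adjoin _ _ (by simp)) hx hy h

/-- equal powers of a primitive root have congruent exponents. -/
theorem h7x_modEq_of_pow_eq {n : ℕ} {ζ : Om p} (hζ : IsPrimitiveRoot ζ n) (hn : 0 < n)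
    {x y : ℕ} (h : ζ ^ x = ζ ^ y) : x ≡ y [MOD n] := by
  have hz : ζ ≠ 0 := hζ.ne_zero hn.ne'
  have key : ∀ a b : ℕ, a ≤ b → ζ ^ a = ζ ^ b → a ≡ b [MOD n] := by
    intro a b hab hpow
    have h1 : ζ ^ a * ζ ^ (b - a) = ζ ^ a * 1 := by
      rw [← pow_add, Nat.add_sub_cancel' hab, mul_one, hpow]
    have h2 : ζ ^ (b - a) = 1 := mul_left_cancel₀ (pow_ne_zero _ hz) h1
    exact (Nat.modEq_iff_dvd' hab).mpr (hζ.dvd_of_pow_eq_one _ h2)
  rcases le_total x y with hxy | hxy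
  · exact key x y hxy h
  · exact (key y x hxy h.symm).symm

variable {k : Type} [Field k] {V : Type} [AddCommGroup V] [Module k V]

/-- `ρ g⁻¹` is a left inverse of `ρ g`. -/
theorem h7x_inv_apply (ρ : Gq p →* Module.End k V) (g : Gq p) (v : V) :
    ρ g⁻¹ (ρ g v) = v := by
  rw [← Module.End.mul_apply, ← map_mul, inv_mul_cancel, map_one, Module.End.one_apply]

/-- `ρ g` is a left inverse of `ρ g⁻¹`. -/
theorem h7x_apply_inv (ρ : Gq p →* Module.End k V) (g : Gq p) (v : V) :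
    ρ g (ρ g⁻¹ v) = v := by
  rw [← Module.End.mul_apply, ← map_mul, mul_inv_cancel, map_one, Module.End.one_apply]

/-- eigenvalues are non-zero. -/
theorem h7x_eig_ne_zero (ρ : Gq p →* Module.End k V) (g : Gq p) {v w : V} (hv : v ≠ 0) {a : k}
    (h : ρ g v = a • w) : a ≠ 0 := by
  intro h0
  have h1 := h7x_inv_apply ρ g v
  rw [h, h0, zero_smul, map_zero] at h1
  exact hv h1.symm

/-- `ρ(inertia)` is commutative when wild inertia acts trivially. -/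
theorem h7x_comm_of_triv (hTA : H7TameAbel) (ρ : Gq p →* Module.End k V)
    (h : ∀ s : Gq p, h7x_IsWild p s → ρ s = 1) :
    ∀ s ∈ inertia p, ∀ t ∈ inertia p, ρ s * ρ t = ρ t * ρ s := by
  intro s hs t ht
  have h1 := h (s * t * s⁻¹ * t⁻¹) (hTA p s t hs ht)
  have h2 : s * t = (s * t * s⁻¹ * t⁻¹) * (t * s) := by group
  rw [← map_mul, h2, map_mul, h1, one_mul, map_mul]

/-- the stabiliser of the line `k v`. -/
def h7x_stab (ρ : Gq p →* Module.End k V) (v : V) (hv : v ≠ 0) : Subgroup (Gq p) where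
  carrier := {g | ∃ a : k, ρ g v = a • v}
  one_mem' := ⟨1, by simp⟩
  mul_mem' := by
    rintro g h ⟨a, ha⟩ ⟨b, hb⟩
    refine ⟨b * a, ?_⟩
    rw [map_mul, Module.End.mul_apply, hb, map_smul, ha, smul_smul]
  inv_mem' := by
    rintro g ⟨a, ha⟩
    have ha0 : a ≠ 0 := h7x_eig_ne_zero ρ g hv ha
    have hinv := h7x_inv_apply ρ g v
    rw [ha, map_smul] at hinv
    refine ⟨a⁻¹, ?_⟩
    calc ρ g⁻¹ v = a⁻¹ • (a • ρ g⁻¹ v) := by rw [smul_smul, inv_mul_cancel₀ ha0, one_smul]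
      _ = a⁻¹ • v := by rw [hinv]

/-- a line stable under inertia and a Frobenius is stable under `Gq p`. -/
theorem h7x_line_stable (hGen : H7Gen) (ρ : Gq p →* Module.End k V)
    (hcont : Cont1 (⊥ : LF p) (fun σ => ρ σ)) (φ : Gq p) (hφ : h7x_IsFrob p φ) (v : V)
    (hv : v ≠ 0) (hI : ∀ s ∈ inertia p, ∃ a : k, ρ s v = a • v) (hφv : ∃ a : k, ρ φ v = a • v)
    (g : Gq p) : ∃ a : k, ρ g v = a • v := by
  obtain ⟨F, hF, -, hFρ⟩ := hcont
  have hH : h7x_stab ρ v hv = ⊤ := by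
    refine hGen p (h7x_stab ρ v hv) (fun s hs => hI s hs) ⟨F, hF, fun s hs => ?_⟩ φ hφ hφv
    have h1 := hFρ 1 (one_mem _) s hs
    simp only [one_mul, map_one] at h1
    exact ⟨1, by rw [h1, one_smul, Module.End.one_apply]⟩
  have h2 : g ∈ h7x_stab ρ v hv := by
    rw [hH]
    exact Subgroup.mem_top g
  exact h2

end Prelim

section Core

variable {p : ℕ} [Fact p.Prime]
variable {k : Type} [Field k] [Fintype k] [CharP k p] {V : Type} [AddCommGroup V] [Module k V]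
  [Module.Finite k V]

/-- swapping the two vectors of a basis. -/
theorem h7x_indep_swap {v₁ v₂ : V} (h : LinearIndependent k ![v₁, v₂]) :
    LinearIndependent k ![v₂, v₁] := by
  rw [LinearIndependent.pair_iff] at h ⊢
  intro s t hst
  have := h t s (by rw [add_comm]; exact hst)
  exact ⟨this.2, this.1⟩

/-- the two exponents: the congruences and the digits. -/
theorem h7x_core (hDig : H7Digits) (hLC : H7LineChar) (hFS : FundSurjective) (hCF : CycFund)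
    (r : ℕ) (hr : 0 < r) (hcard : Fintype.card k = p ^ r)
    (ρ : Gq p →* Module.End k V) (hρ : LocHyp p ρ) (hflat : LocFlat p V (fun σ v => ρ σ v))
    (v₁ v₂ : V) (hind : LinearIndependent k ![v₁, v₂]) (χ₁ χ₂ : Gq p → kˣ)
    (hχ : ∀ σ ∈ inertia p, ρ σ v₁ = (χ₁ σ : k) • v₁ ∧ ρ σ v₂ = (χ₂ σ : k) • v₂)
    (φ : Gq p) (hφ : h7x_IsFrob p φ) (hswap : ∃ a b : k, ρ φ v₁ = a • v₂ ∧ ρ φ v₂ = b • v₁)
    (τ : kˣ →* (Om p)ˣ) (hτ : IsTeich p τ) (π : Om p) (hπ : π ^ (p ^ r - 1) = p) :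
    2 ∣ r ∧
      ((∀ σ ∈ inertia p,
          ((τ (χ₁ σ) : (Om p)ˣ) : Om p) = (σ π / π) ^ ((p ^ r - 1) / (p ^ 2 - 1)) ∧
          ((τ (χ₂ σ) : (Om p)ˣ) : Om p) = (σ π / π) ^ (p * ((p ^ r - 1) / (p ^ 2 - 1)))) ∨
        (∀ σ ∈ inertia p,
          ((τ (χ₁ σ) : (Om p)ˣ) : Om p) = (σ π / π) ^ (p * ((p ^ r - 1) / (p ^ 2 - 1))) ∧
          ((τ (χ₂ σ) : (Om p)ˣ) : Om p) = (σ π / π) ^ ((p ^ r - 1) / (p ^ 2 - 1)))) := by
  classical
  have hp : p.Prime := Fact.out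
  have hn := h89o_pow_sub_one_pos (p := p) r hr
  have hpn := h89o_not_dvd_pow_sub_one (p := p) r hr
  have hp0 : ((p : ℕ) : Om p) ≠ 0 := by exact_mod_cast hp.ne_zero
  have hπ0 : π ≠ 0 := by
    intro h
    rw [h, zero_pow hn.ne'] at hπ
    exact hp0 hπ.symm
  have hdvd : (p - 1) ∣ p ^ r - 1 := by
    have := Nat.sub_dvd_pow_sub_pow p 1 r
    simpa using this
  have hv₁ : v₁ ≠ 0 := by
    have := hind.ne_zero 0
    simpa using this
  -- the characters of the two lines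
  obtain ⟨S₁, hS₁⟩ := hLC p hρ.odd k r hcard V ρ hρ.rank hflat v₁ v₂ hind χ₁ χ₂ hχ τ hτ π hπ
  obtain ⟨S₂, hS₂⟩ := hLC p hρ.odd k r hcard V ρ hρ.rank hflat v₂ v₁ (h7x_indep_swap hind)
    χ₂ χ₁ (fun σ hσ => ⟨(hχ σ hσ).2, (hχ σ hσ).1⟩) τ hτ π hπ
  -- a generator of tame inertia
  obtain ⟨ζ, hζ⟩ := h89o_exists_primitiveRoot (p := p) (p ^ r - 1) hn
  obtain ⟨σ, hσ, hσπ⟩ := hFS p _ hn hpn π hπ ζ hζ.pow_eq_one
  have hψ : σ π / π = ζ := by rw [hσπ, mul_div_assoc, div_self hπ0, mul_one]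
  have h1 := hS₁ σ hσ
  have h2 := hS₂ σ hσ
  rw [hψ] at h1 h2
  -- (a) the determinant
  have hA : (∑ i ∈ S₁, p ^ (i : ℕ)) + (∑ i ∈ S₂, p ^ (i : ℕ)) ≡ (p ^ r - 1) / (p - 1)
      [MOD p ^ r - 1] := by
    obtain ⟨a, ha⟩ := h89o_exists_cycExp σ
    have hdet : LinearMap.det (ρ σ) = (a : k) := hρ.det σ a ha
    have hdet' : LinearMap.det (ρ σ) = (χ₁ σ : k) * (χ₂ σ : k) :=
      h89o_det_tri hρ.rank v₁ v₂ hind (ρ σ) (χ₁ σ) 0 (χ₂ σ) (hχ σ hσ).1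
        (by rw [zero_smul, zero_add]; exact (hχ σ hσ).2)
    have hcf := hCF p hρ.odd (p ^ r - 1) hn hpn hdvd π hπ σ hσ a ha
    rw [hψ] at hcf
    have h12 : ((χ₁ σ * χ₂ σ : kˣ) : k) = (a : k) := by rw [Units.val_mul, ← hdet', hdet]
    have h3 := h7g_lift_natCast τ hτ.1 hτ.2 a
    rw [← h12, h7g_lift_unit, map_mul, Units.val_mul, h1, h2] at h3
    have h4 : ‖ζ ^ (∑ i ∈ S₁, p ^ (i : ℕ)) * ζ ^ (∑ i ∈ S₂, p ^ (i : ℕ)) -
        ζ ^ ((p ^ r - 1) / (p - 1))‖ < 1 := by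
      have e : ζ ^ (∑ i ∈ S₁, p ^ (i : ℕ)) * ζ ^ (∑ i ∈ S₂, p ^ (i : ℕ)) -
          ζ ^ ((p ^ r - 1) / (p - 1)) =
          (ζ ^ (∑ i ∈ S₁, p ^ (i : ℕ)) * ζ ^ (∑ i ∈ S₂, p ^ (i : ℕ)) - (a : Om p)) -
            (ζ ^ ((p ^ r - 1) / (p - 1)) - (a : Om p)) := by ring
      rw [e]
      exact lt_of_le_of_lt (h89o_norm_sub_le_max _ _) (max_lt h3 hcf)
    have h5 : ζ ^ ((∑ i ∈ S₁, p ^ (i : ℕ)) + (∑ i ∈ S₂, p ^ (i : ℕ))) =
        ζ ^ ((p ^ r - 1) / (p - 1)) := by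
      rw [pow_add]
      refine h7x_root_eq hn hpn ?_ ?_ h4
      · rw [← pow_add, ← pow_mul, mul_comm, pow_mul, hζ.pow_eq_one, one_pow]
      · rw [← pow_mul, mul_comm, pow_mul, hζ.pow_eq_one, one_pow]
    exact h7x_modEq_of_pow_eq hζ hn h5
  -- (b) the Frobenius swaps the lines
  have hB : p * (∑ i ∈ S₂, p ^ (i : ℕ)) ≡ ∑ i ∈ S₁, p ^ (i : ℕ) [MOD p ^ r - 1] := by
    obtain ⟨a', b', hφ1, hφ2⟩ := hswap
    have hσ' : φ⁻¹ * σ * φ ∈ inertia p := h89o_conj_mem_inertia' hσ φ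
    have hconj : φ * (φ⁻¹ * σ * φ) * φ⁻¹ = σ := by group
    have hfc := h89o_frob_conj hφ hσ' hn hpn hπ
    rw [hconj, hψ] at hfc
    -- `χ₁ (φ⁻¹ σ φ) = χ₂ σ`
    have e1 : ρ (φ⁻¹ * σ * φ) v₁ = (χ₂ σ : k) • v₁ := by
      rw [map_mul, map_mul, Module.End.mul_apply, Module.End.mul_apply, hφ1, map_smul,
        (hχ σ hσ).2, smul_comm, map_smul, ← hφ1, h7x_inv_apply]
    have e2 : χ₁ (φ⁻¹ * σ * φ) = χ₂ σ := by
      have e3 := (hχ _ hσ').1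
      rw [e1] at e3
      have e4 : ((χ₂ σ : k) - (χ₁ (φ⁻¹ * σ * φ) : k)) • v₁ = 0 := by
        rw [sub_smul, e3, sub_self]
      have e5 := (smul_eq_zero.mp e4).resolve_right hv₁
      exact Units.ext (sub_eq_zero.mp e5).symm
    have h3 := hS₁ _ hσ'
    rw [e2, h2] at h3
    have h4 : ζ ^ (p * (∑ i ∈ S₂, p ^ (i : ℕ))) = ζ ^ (∑ i ∈ S₁, p ^ (i : ℕ)) := by
      rw [mul_comm, pow_mul, h3, ← pow_mul, mul_comm, pow_mul, ← hfc]
    exact h7x_modEq_of_pow_eq hζ hn h4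
  obtain ⟨h2r, hcase⟩ := hDig p r hp hρ.odd hr S₁ S₂ hA hB
  refine ⟨h2r, ?_⟩
  rcases hcase with ⟨e1, e2⟩ | ⟨e1, e2⟩
  · left
    intro g hg
    exact ⟨by rw [hS₁ g hg, e1], by rw [hS₂ g hg, e2]⟩
  · right
    intro g hg
    exact ⟨by rw [hS₁ g hg, e1], by rw [hS₂ g hg, e2]⟩

end Core

/-- **FL-S1h** (assembly). -/
theorem h7x_ssnfAsm : H7SSNFAsm := by
  intro hWT hTA hDS hDig hGen hLC hRC hFE hFS hCF p _ k _ _ _ V _ _ _ ρ hρ hline hflat τ hτ π hπ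
  classical
  letI : Fintype k := Fintype.ofFinite k
  have hp : p.Prime := Fact.out
  obtain ⟨r, -, hcard⟩ := FiniteField.card k p
  have hr : 0 < (r : ℕ) := r.pos
  have hn := h89o_pow_sub_one_pos (p := p) (r : ℕ) hr
  have hcont := hRC p k V ρ hflat
  have hcomm := h7x_comm_of_triv hTA ρ (hWT p k V ρ hρ.rank hcont hline)
  obtain ⟨φ, hφ⟩ := hFE p
  obtain ⟨v₁, v₂, hind, hdiag, hsw, hφsw⟩ := hDS (Gq p) (inertia p)
    (fun g s hs => h89o_conj_mem_inertia hs g) k V ρ hρ.rank hcomm hρ.split hline φ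
    (fun v hv hI hφv g => h7x_line_stable hGen ρ hcont φ hφ v hv hI hφv g)
  have hv₁ : v₁ ≠ 0 := by
    have := hind.ne_zero 0
    simpa using this
  have hv₂ : v₂ ≠ 0 := by
    have := hind.ne_zero 1
    simpa using this
  -- the two characters
  have hex : ∀ σ : Gq p, ∃ u : kˣ × kˣ, σ ∈ inertia p →
      ρ σ v₁ = (u.1 : k) • v₁ ∧ ρ σ v₂ = (u.2 : k) • v₂ := by
    intro σ
    by_cases hσ : σ ∈ inertia p
    · obtain ⟨a, b, ha, hb⟩ := hdiag σ hσ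
      have ha0 : a ≠ 0 := h7x_eig_ne_zero ρ σ hv₁ ha
      have hb0 : b ≠ 0 := h7x_eig_ne_zero ρ σ hv₂ hb
      exact ⟨(Units.mk0 a ha0, Units.mk0 b hb0), fun _ => ⟨ha, hb⟩⟩
    · exact ⟨(1, 1), fun h => (hσ h).elim⟩
  choose u hu using hex
  -- first pass: `r` is even
  obtain ⟨π₀, hπ₀⟩ := exists_root p (p ^ (r : ℕ) - 1) hn
  obtain ⟨h2r, -⟩ := h7x_core hDig hLC hFS hCF (r : ℕ) hr hcard ρ hρ hflat v₁ v₂ hind
    (fun σ => (u σ).1) (fun σ => (u σ).2) hu φ hφ hφsw τ hτ π₀ hπ₀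
  have hp2 : 0 < p ^ 2 - 1 := by
    have := hp.two_le
    have : 4 ≤ p ^ 2 := by nlinarith
    omega
  have hdvd2 : p ^ 2 - 1 ∣ p ^ (r : ℕ) - 1 := by
    obtain ⟨s, hs⟩ := h2r
    rw [hs, pow_mul]
    have := Nat.sub_dvd_pow_sub_pow (p ^ 2) 1 s
    simpa using this
  have hN : (p ^ (r : ℕ) - 1) / (p ^ 2 - 1) * (p ^ 2 - 1) = p ^ (r : ℕ) - 1 :=
    Nat.div_mul_cancel hdvd2
  have hNpos : 0 < (p ^ (r : ℕ) - 1) / (p ^ 2 - 1) :=
    Nat.div_pos (Nat.le_of_dvd hn hdvd2) hp2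
  -- second pass, with a root of `π`
  obtain ⟨πn, hπn⟩ := IsAlgClosed.exists_pow_nat_eq π hNpos
  have hπn' : πn ^ (p ^ (r : ℕ) - 1) = p := by
    rw [← hN, pow_mul, hπn, hπ]
  obtain ⟨-, hcase⟩ := h7x_core hDig hLC hFS hCF (r : ℕ) hr hcard ρ hρ hflat v₁ v₂ hind
    (fun σ => (u σ).1) (fun σ => (u σ).2) hu φ hφ hφsw τ hτ πn hπn'
  have hΨ : ∀ σ : Gq p, (σ πn / πn) ^ ((p ^ (r : ℕ) - 1) / (p ^ 2 - 1)) = σ π / π := by
    intro σ
    rw [div_pow, ← map_pow, hπn]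
  rcases hcase with h | h
  · refine ⟨v₁, v₂, hind, ?_, ?_, hsw⟩
    · intro σ hσ
      exact ⟨(u σ).1, (hu σ hσ).1, by rw [(h σ hσ).1, hΨ]⟩
    · intro σ hσ
      exact ⟨(u σ).2, (hu σ hσ).2, by rw [(h σ hσ).2, mul_comm, pow_mul, hΨ]⟩
  · refine ⟨v₂, v₁, h7x_indep_swap hind, ?_, ?_, ?_⟩
    · intro σ hσ
      exact ⟨(u σ).2, (hu σ hσ).2, by rw [(h σ hσ).2, hΨ]⟩
    · intro σ hσ
      exact ⟨(u σ).1, (hu σ hσ).1, by rw [(h σ hσ).1, mul_comm, pow_mul, hΨ]⟩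
    · intro σ
      rcases hsw σ with ⟨a, b, ha, hb⟩ | ⟨a, b, ha, hb⟩
      · exact Or.inl ⟨b, a, hb, ha⟩
      · exact Or.inr ⟨b, a, hb, ha⟩

end Fermat.Agent.S56F
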