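import Fermat.Agent.S56F.FLS4KumIface_helper61
import Fermat.Agent.S56F.FLD0_helper89
import Fermat.Agent.PT.Loc.H96RDBase

/-!
# S56 / LOC-p-FL, row FL-S4K6 (helper33): `H61KFrob`

`h33k_kFrob : H61KFrob`: conjugation by a Frobenius `s₀` of `ℚ_{p²}` fixing `π` sends a
coefficient `a` at level `j` to the coefficient `n a ^ (p²)`.

Proof.  `β' = (s₀ β) ^ n` generates `g ↦ χ (s₀⁻¹ g s₀)`: `s₀⁻¹ g s₀ ∈ I_K` (the inertia group is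
normal by its definition, `s₀ π = π`), `g (s₀ β) = s₀ ((s₀⁻¹ g s₀) β) = ζ ^ (m v) s₀ β` and
`ζ ^ (m v n) = ζ ^ v`.  With `x = β ^ p`, `y = s₀ x - 1`, `c = a ^ (p²)`:
`y - c π ^ j = s₀ (x - 1 - a π ^ j) + (s₀ a - c) π ^ j`, `‖s₀ a - c‖ < 1` (Teichmüller
representative), and `(1 + y) ^ n - 1 - n y` has norm `≤ ‖y‖ ^ 2 < ‖π‖ ^ j`.

Reusable:
* `h33k_norm_sub_le`, `h33k_norm_add_lt`, `h33k_norm_add_le`, `h33k_norm_natCast_le`;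
* `h33k_norm_pow_sub_pow_le` : `‖u ^ N - v ^ N‖ ≤ ‖u - v‖` for integers `u`, `v`;
* `h33k_norm_one_add_pow` : `‖(1 + y) ^ n - 1 - n y‖ ≤ ‖y‖ ^ 2` for an integer `y`;
* `h33k_frob_int` : `‖s₀ a - a ^ N‖ < 1` for an integer `a` if `s₀ w = w ^ N` on the roots of
  unity of order prime to `p`;
* `h33k_conj_mem_IK` : `s₀⁻¹ g s₀ ∈ I_K` for `g ∈ I_K`, `s₀ π = π`;
* `h33k_pow_eq_of_modEq` : `ζ ^ a = ζ ^ b` if `a ≡ b mod p`, `ζ ^ p = 1`.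
-/

set_option autoImplicit false

open Fermat.Agent.PT.Loc

noncomputable section

namespace Fermat.Agent.S56F

variable {p : ℕ} [Fact p.Prime]

theorem h33k_norm_sub_le (x y : Om p) : ‖x - y‖ ≤ max ‖x‖ ‖y‖ := by
  have := IsUltrametricDist.norm_add_le_max x (-y)
  rwa [norm_neg, ← sub_eq_add_neg] at this

theorem h33k_norm_add_lt {x y : Om p} {r : ℝ} (hx : ‖x‖ < r) (hy : ‖y‖ < r) : ‖x + y‖ < r :=
  lt_of_le_of_lt (IsUltrametricDist.norm_add_le_max x y) (max_lt hx hy)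

theorem h33k_norm_add_le {x y : Om p} {r : ℝ} (hx : ‖x‖ ≤ r) (hy : ‖y‖ ≤ r) : ‖x + y‖ ≤ r :=
  (IsUltrametricDist.norm_add_le_max x y).trans (max_le hx hy)

/-- natural numbers are integers of `Om p`. -/
theorem h33k_norm_natCast_le (n : ℕ) : ‖(n : Om p)‖ ≤ 1 := by
  induction n with
  | zero => simp
  | succ k ih =>
    rw [Nat.cast_succ]
    exact h33k_norm_add_le ih (by rw [norm_one])

/-- `‖u ^ N - v ^ N‖ ≤ ‖u - v‖` for integers `u`, `v`. -/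
theorem h33k_norm_pow_sub_pow_le {u v : Om p} (hu : ‖u‖ ≤ 1) (hv : ‖v‖ ≤ 1) (N : ℕ) :
    ‖u ^ N - v ^ N‖ ≤ ‖u - v‖ := by
  induction N with
  | zero => simp
  | succ k ih =>
    have h1 : u ^ (k + 1) - v ^ (k + 1) = u * (u ^ k - v ^ k) + (u - v) * v ^ k := by ring
    rw [h1]
    refine h33k_norm_add_le ?_ ?_
    · rw [norm_mul]
      calc ‖u‖ * ‖u ^ k - v ^ k‖ ≤ 1 * ‖u - v‖ := mul_le_mul hu ih (norm_nonneg _) zero_le_one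
        _ = ‖u - v‖ := one_mul _
    · rw [norm_mul, norm_pow]
      calc ‖u - v‖ * ‖v‖ ^ k ≤ ‖u - v‖ * 1 :=
            mul_le_mul_of_nonneg_left (pow_le_one₀ (norm_nonneg _) hv) (norm_nonneg _)
        _ = ‖u - v‖ := mul_one _

/-- `‖(1 + y) ^ n - 1 - n y‖ ≤ ‖y‖ ^ 2` for an integer `y`. -/
theorem h33k_norm_one_add_pow {y : Om p} (hy : ‖y‖ ≤ 1) (n : ℕ) :
    ‖(1 + y) ^ n - 1 - (n : Om p) * y‖ ≤ ‖y‖ ^ 2 := by
  induction n with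
  | zero => simp
  | succ k ih =>
    have h1 : (1 + y) ^ (k + 1) - 1 - ((k + 1 : ℕ) : Om p) * y
        = (1 + y) * ((1 + y) ^ k - 1 - (k : Om p) * y) + (k : Om p) * y ^ 2 := by
      push_cast; ring
    rw [h1]
    refine h33k_norm_add_le ?_ ?_
    · rw [norm_mul]
      have h2 : ‖1 + y‖ ≤ 1 := h33k_norm_add_le (by rw [norm_one]) hy
      calc ‖1 + y‖ * ‖(1 + y) ^ k - 1 - (k : Om p) * y‖ ≤ 1 * ‖y‖ ^ 2 :=
            mul_le_mul h2 ih (norm_nonneg _) zero_le_one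
        _ = ‖y‖ ^ 2 := one_mul _
    · rw [norm_mul, norm_pow]
      calc ‖(k : Om p)‖ * ‖y‖ ^ 2 ≤ 1 * ‖y‖ ^ 2 :=
            mul_le_mul_of_nonneg_right (h33k_norm_natCast_le k) (by positivity)
        _ = ‖y‖ ^ 2 := one_mul _

/-- a unit of `Om p` is congruent to a root of unity of order prime to `p`. -/
theorem h33k_teich {u : Om p} (hu : ‖u‖ = 1) :
    ∃ (w : Om p) (m : ℕ), 0 < m ∧ ¬ p ∣ m ∧ w ^ m = 1 ∧ ‖u - w‖ < 1 := by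
  have hfd : FiniteDimensional ℚ_[p] (IntermediateField.adjoin ℚ_[p] ({u} : Set (Om p))) :=
    h89d0_finiteDimensional_adjoin _ (Set.toFinite _)
  have huK : u ∈ IntermediateField.adjoin ℚ_[p] ({u} : Set (Om p)) :=
    IntermediateField.subset_adjoin ℚ_[p] {u} (Set.mem_singleton u)
  obtain ⟨-, -, -, hteich, -⟩ := h34lf_lfTeich p (IntermediateField.adjoin ℚ_[p] {u})
  obtain ⟨w, ⟨-, m, hm, hpm, hw⟩, hxw⟩ := hteich u huK hu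
  exact ⟨w, m, hm, hpm, hw, hxw⟩

/-- if `s₀` acts on the roots of unity of order prime to `p` by `N`-th powers, it acts on all
integers by `N`-th powers modulo the maximal ideal. -/
theorem h33k_frob_int {s₀ : Gq p} {N : ℕ} (hN : 0 < N)
    (hs₀ : ∀ (w : Om p) (m : ℕ), 0 < m → ¬ p ∣ m → w ^ m = 1 → s₀ w = w ^ N)
    {a : Om p} (ha : ‖a‖ ≤ 1) : ‖s₀ a - a ^ N‖ < 1 := by
  rcases lt_or_eq_of_le ha with hlt | heq
  · have h1 : ‖s₀ a‖ < 1 := by rw [h89d0_norm_map]; exact hlt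
    have h2 : ‖a ^ N‖ < 1 := by
      rw [norm_pow]
      exact pow_lt_one₀ (norm_nonneg _) hlt hN.ne'
    exact lt_of_le_of_lt (h33k_norm_sub_le _ _) (max_lt h1 h2)
  · obtain ⟨w, m, hm0, hm, hw, haw⟩ := h33k_teich heq
    have hw1 : ‖w‖ = 1 := h89d0_norm_of_pow_eq_one hm0 hw
    have h1 : s₀ a - a ^ N = s₀ (a - w) + (w ^ N - a ^ N) := by
      rw [map_sub, hs₀ w m hm0 hm hw]; ring
    rw [h1]
    refine h33k_norm_add_lt ?_ ?_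
    · rw [h89d0_norm_map]; exact haw
    · refine lt_of_le_of_lt (h33k_norm_pow_sub_pow_le hw1.le ha N) ?_
      rw [← norm_neg, neg_sub]; exact haw

theorem h33k_inv_apply (s : Gq p) (x : Om p) : s⁻¹ (s x) = x := by
  rw [← AlgEquiv.mul_apply, inv_mul_cancel, AlgEquiv.one_apply]

theorem h33k_apply_inv (s : Gq p) (x : Om p) : s (s⁻¹ x) = x := by
  rw [← AlgEquiv.mul_apply, mul_inv_cancel, AlgEquiv.one_apply]

/-- conjugation by an element fixing `π` preserves `I_K`. -/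
theorem h33k_conj_mem_IK {π : Om p} {s₀ : Gq p} (hs : s₀ π = π) {g : Gq p}
    (hg : g ∈ h89s_IK p π) : s₀⁻¹ * g * s₀ ∈ h89s_IK p π := by
  refine ⟨?_, ?_⟩
  · intro x hx
    have hsx : ‖s₀ x‖ ≤ 1 := by rw [h89d0_norm_map]; exact hx
    have h1 := hg.1 (s₀ x) hsx
    have h2 : (s₀⁻¹ * g * s₀) x - x = s₀⁻¹ (g (s₀ x) - s₀ x) := by
      rw [map_sub, h33k_inv_apply, AlgEquiv.mul_apply, AlgEquiv.mul_apply]
    rw [h2, h89d0_norm_map]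
    exact h1
  · rw [AlgEquiv.mul_apply, AlgEquiv.mul_apply, hs, hg.2]
    calc s₀⁻¹ π = s₀⁻¹ (s₀ π) := by rw [hs]
      _ = π := h33k_inv_apply s₀ π

/-- `ζ ^ a = ζ ^ b` if `a ≡ b mod p` and `ζ ^ p = 1`. -/
theorem h33k_pow_eq_of_modEq {ζ : Om p} (hζ : ζ ^ p = 1) {a b : ℕ} (h : a ≡ b [MOD p]) :
    ζ ^ a = ζ ^ b := by
  have key : ∀ c : ℕ, ζ ^ c = ζ ^ (c % p) := by
    intro c
    conv_lhs => rw [← Nat.div_add_mod c p]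
    rw [pow_add, pow_mul, hζ, one_pow, one_mul]
  rw [key a, key b, h]

/-- the generator of the conjugate character. -/
theorem h33k_gen {π ζ : Om p} (hζ : ζ ^ p = 1) {s₀ : Gq p} (hs : s₀ π = π) {m n : ℕ}
    (hm : cycExp p s₀ m) (hnm : n * m ≡ 1 [MOD p]) {χ : Gq p → ZMod p} {β : Om p}
    (hβ : h61k_Gen p π ζ χ β) :
    h61k_Gen p π ζ (fun g => χ (s₀⁻¹ * g * s₀)) ((s₀ β) ^ n) := by
  intro g hg
  have h1 := hβ _ (h33k_conj_mem_IK hs hg)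
  have h2 : g (s₀ β) = s₀ ((s₀⁻¹ * g * s₀) β) := by
    rw [AlgEquiv.mul_apply, AlgEquiv.mul_apply, h33k_apply_inv]
  have h3 : m * ((χ (s₀⁻¹ * g * s₀)).val * n) ≡ (χ (s₀⁻¹ * g * s₀)).val [MOD p] := by
    have h4 : n * m * (χ (s₀⁻¹ * g * s₀)).val ≡ 1 * (χ (s₀⁻¹ * g * s₀)).val [MOD p] :=
      hnm.mul_right _
    rw [one_mul] at h4
    have e : m * ((χ (s₀⁻¹ * g * s₀)).val * n) = n * m * (χ (s₀⁻¹ * g * s₀)).val := by ring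
    rw [e]; exact h4
  rw [map_pow, h2, h1, map_mul, map_pow, hm ζ hζ, mul_pow, ← pow_mul, ← pow_mul,
    h33k_pow_eq_of_modEq hζ h3]

theorem h33k_pi_ne_zero {π : Om p} (hπ : π ^ (p ^ 2 - 1) = p) : π ≠ 0 := by
  have hpp : p.Prime := Fact.out
  rintro rfl
  have h2 : 2 ≤ p := hpp.two_le
  have h4 : p ^ 2 - 1 ≠ 0 := by
    have : 4 ≤ p ^ 2 := by nlinarith
    omega
  rw [zero_pow h4] at hπ
  exact h96b_q_ne_zero (q := p) hπ.symm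

theorem h33k_norm_pi_lt_one {π : Om p} (hπ : π ^ (p ^ 2 - 1) = p) : ‖π‖ < 1 := by
  have hpp : p.Prime := Fact.out
  have h1 : ‖π‖ ^ (p ^ 2 - 1) = (p : ℝ)⁻¹ := by rw [← norm_pow, hπ]; exact h96b_norm_q p
  by_contra hge
  push Not at hge
  have h2 : 1 ≤ ‖π‖ ^ (p ^ 2 - 1) := one_le_pow₀ hge
  rw [h1] at h2
  have h3 : (p : ℝ)⁻¹ < 1 := inv_lt_one_of_one_lt₀ (by exact_mod_cast hpp.one_lt)
  linarith

/-- **FL-S4K6.** -/
theorem h33k_kFrob : H61KFrob := by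
  intro p _ _ π ζ hπ hζ _ s₀ hs hs₀w m n hm hnm χ j a hj ha hcoef
  obtain ⟨β, hβ, hnorm⟩ := hcoef
  refine ⟨(s₀ β) ^ n, h33k_gen hζ hs hm hnm hβ, ?_⟩
  have hpp : p.Prime := Fact.out
  have hN : 0 < p ^ 2 := pow_pos hpp.pos 2
  have hπ0 : π ≠ 0 := h33k_pi_ne_zero hπ
  have hπlt : ‖π‖ < 1 := h33k_norm_pi_lt_one hπ
  have hπpos : 0 < ‖π‖ := norm_pos_iff.mpr hπ0
  have hπj : 0 < ‖π‖ ^ j := pow_pos hπpos j
  have hc1 : ‖a ^ (p ^ 2)‖ ≤ 1 := by rw [norm_pow]; exact pow_le_one₀ (norm_nonneg _) ha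
  have hfr : ‖s₀ a - a ^ (p ^ 2)‖ < 1 := h33k_frob_int hN hs₀w ha
  have hy1 : s₀ (β ^ p) - 1 - a ^ (p ^ 2) * π ^ j
      = s₀ (β ^ p - 1 - a * π ^ j) + (s₀ a - a ^ (p ^ 2)) * π ^ j := by
    rw [map_sub, map_sub, map_one, map_mul, map_pow s₀ π, hs]; ring
  have hy2 : ‖s₀ (β ^ p) - 1 - a ^ (p ^ 2) * π ^ j‖ < ‖π‖ ^ j := by
    rw [hy1]
    refine h33k_norm_add_lt ?_ ?_
    · rw [h89d0_norm_map]; exact hnorm
    · rw [norm_mul, norm_pow]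
      calc ‖s₀ a - a ^ (p ^ 2)‖ * ‖π‖ ^ j < 1 * ‖π‖ ^ j := mul_lt_mul_of_pos_right hfr hπj
        _ = ‖π‖ ^ j := one_mul _
  have hy3 : ‖s₀ (β ^ p) - 1‖ ≤ ‖π‖ ^ j := by
    have e : s₀ (β ^ p) - 1 = (s₀ (β ^ p) - 1 - a ^ (p ^ 2) * π ^ j) + a ^ (p ^ 2) * π ^ j := by
      ring
    rw [e]
    refine h33k_norm_add_le hy2.le ?_
    rw [norm_mul, norm_pow π]
    calc ‖a ^ (p ^ 2)‖ * ‖π‖ ^ j ≤ 1 * ‖π‖ ^ j := mul_le_mul_of_nonneg_right hc1 hπj.le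
      _ = ‖π‖ ^ j := one_mul _
  have hy4 : ‖s₀ (β ^ p) - 1‖ ≤ 1 := hy3.trans (pow_le_one₀ (norm_nonneg _) hπlt.le)
  have hy5 : ‖s₀ (β ^ p) - 1‖ ^ 2 < ‖π‖ ^ j := by
    calc ‖s₀ (β ^ p) - 1‖ ^ 2 ≤ (‖π‖ ^ j) ^ 2 := pow_le_pow_left₀ (norm_nonneg _) hy3 2
      _ = ‖π‖ ^ j * ‖π‖ ^ j := sq _
      _ < ‖π‖ ^ j * 1 :=
          mul_lt_mul_of_pos_left (pow_lt_one₀ (norm_nonneg _) hπlt (by omega)) hπj
      _ = ‖π‖ ^ j := mul_one _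
  have hpow : ((s₀ β) ^ n) ^ p = (1 + (s₀ (β ^ p) - 1)) ^ n := by
    rw [map_pow, ← pow_mul, mul_comm n p, pow_mul]
    congr 1
    ring
  have hfin : ((s₀ β) ^ n) ^ p - 1 - (n : Om p) * a ^ (p ^ 2) * π ^ j
      = ((1 + (s₀ (β ^ p) - 1)) ^ n - 1 - (n : Om p) * (s₀ (β ^ p) - 1))
        + (n : Om p) * (s₀ (β ^ p) - 1 - a ^ (p ^ 2) * π ^ j) := by
    rw [hpow]; ring
  rw [hfin]
  refine h33k_norm_add_lt ?_ ?_
  · exact lt_of_le_of_lt (h33k_norm_one_add_pow hy4 n) hy5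
  · rw [norm_mul]
    calc ‖(n : Om p)‖ * ‖s₀ (β ^ p) - 1 - a ^ (p ^ 2) * π ^ j‖
        ≤ 1 * ‖s₀ (β ^ p) - 1 - a ^ (p ^ 2) * π ^ j‖ :=
          mul_le_mul_of_nonneg_right (h33k_norm_natCast_le n) (norm_nonneg _)
      _ = ‖s₀ (β ^ p) - 1 - a ^ (p ^ 2) * π ^ j‖ := one_mul _
      _ < ‖π‖ ^ j := hy2

end Fermat.Agent.S56F
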