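import Fermat.Agent.S56F.IfaceKum
import Fermat.Agent.S56F.FLS4K6_helper33
import Fermat.Agent.S56F.FLC2_helper68
import Fermat.Agent.S56F.FLO2_helper89
import Fermat.Agent.S56F.FLC5Final_helper89

/-!
# S56 / LOC-p-FL, leaf FL-S2A (`SSClaimA`), parts C5 + E2 (helper79, prefix `h79a_`)

* `h79a_frobCoef` (C5, GENERAL): `π ≠ 0`, `‖π‖ < 1`, `s₀ π = π`, `s₀ w = w ^ N` on the roots of
  unity of order prime to `p`, `s₀ ζ = ζ ^ m`, `n m ≡ 1 mod p`.  If `β` generates `χ` on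
  `I_K = IK p π` and `‖β ^ p - 1 - a π ^ j‖ < ‖π‖ ^ j` (`j ≥ 1`, `‖a‖ ≤ 1`), then `(s₀ β) ^ n`
  generates `g ↦ χ (s₀⁻¹ g s₀)` and `‖((s₀ β) ^ n) ^ p - 1 - n a ^ N π ^ j‖ < ‖π‖ ^ j`.
  (Same proof as `h33k_kFrob` of helper33, whose lemmas are reused.)
* `h79a_frobCoef_one` : the case `j = 1`, in the shape `‖β ^ p - 1 - a * π‖ < ‖π‖`.
* `h79a_exists_frob_fix` (E2): for a Frobenius `φ` and `π ^ n = p`, `p ∤ n`, there is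
  `t₀ ∈ inertia` such that `t₀ φ` fixes `π` (and is still a Frobenius).
* `h79a_anti` (E2): anti-invariance of `h` under `φ` passes to `t₀ φ` and to its inverse.
* `h79a_exists_cycExp_inv` : `s ζ = ζ ^ m` with `n m ≡ 1 mod p`.
* `h79a_frob_package` : all of E2 in one statement.
* `h79a_frobRel` : the resulting relation: a coefficient `a` of `l ∘ h` at level `j` gives the
  coefficient `n a ^ p` of `(-l) ∘ h` at level `j`.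
-/

set_option autoImplicit false
set_option linter.style.haveILetI false
set_option linter.unusedSectionVars false

open Fermat.Agent.PT.Loc

noncomputable section

namespace Fermat.Agent.S56F

variable {p : ℕ} [Fact p.Prime]

/-- **C5, general form.** -/
theorem h79a_frobCoef {π ζ : Om p} (hπ0 : π ≠ 0) (hπ1 : ‖π‖ < 1) (hζ : ζ ^ p = 1)
    {s₀ : Gq p} (hs : s₀ π = π) {N : ℕ} (hN : 0 < N)
    (hs₀w : ∀ (w : Om p) (m : ℕ), 0 < m → ¬ p ∣ m → w ^ m = 1 → s₀ w = w ^ N)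
    {m n : ℕ} (hm : cycExp p s₀ m) (hnm : n * m ≡ 1 [MOD p])
    {χ : Gq p → ZMod p} {j : ℕ} (hj : 1 ≤ j) {a : Om p} (ha : ‖a‖ ≤ 1) {β : Om p}
    (hβ : ∀ g ∈ IK p π, g β = ζ ^ (χ g).val * β)
    (hnorm : ‖β ^ p - 1 - a * π ^ j‖ < ‖π‖ ^ j) :
    (∀ g ∈ IK p π, g ((s₀ β) ^ n) = ζ ^ (χ (s₀⁻¹ * g * s₀)).val * (s₀ β) ^ n) ∧
      ‖((s₀ β) ^ n) ^ p - 1 - ((n : Om p) * a ^ N) * π ^ j‖ < ‖π‖ ^ j := by
  have hgen : h61k_Gen p π ζ χ β := fun g hg => hβ g hg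
  have hgen' := h33k_gen hζ hs hm hnm hgen
  refine ⟨fun g hg => hgen' g hg, ?_⟩
  have hπpos : 0 < ‖π‖ := norm_pos_iff.mpr hπ0
  have hπj : 0 < ‖π‖ ^ j := pow_pos hπpos j
  have hc1 : ‖a ^ N‖ ≤ 1 := by rw [norm_pow]; exact pow_le_one₀ (norm_nonneg _) ha
  have hfr : ‖s₀ a - a ^ N‖ < 1 := h33k_frob_int hN hs₀w ha
  have hy1 : s₀ (β ^ p) - 1 - a ^ N * π ^ j
      = s₀ (β ^ p - 1 - a * π ^ j) + (s₀ a - a ^ N) * π ^ j := by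
    rw [map_sub, map_sub, map_one, map_mul, map_pow s₀ π, hs]; ring
  have hy2 : ‖s₀ (β ^ p) - 1 - a ^ N * π ^ j‖ < ‖π‖ ^ j := by
    rw [hy1]
    refine h33k_norm_add_lt ?_ ?_
    · rw [h89d0_norm_map]; exact hnorm
    · rw [norm_mul, norm_pow]
      calc ‖s₀ a - a ^ N‖ * ‖π‖ ^ j < 1 * ‖π‖ ^ j := mul_lt_mul_of_pos_right hfr hπj
        _ = ‖π‖ ^ j := one_mul _
  have hy3 : ‖s₀ (β ^ p) - 1‖ ≤ ‖π‖ ^ j := by
    have e : s₀ (β ^ p) - 1 = (s₀ (β ^ p) - 1 - a ^ N * π ^ j) + a ^ N * π ^ j := by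
      ring
    rw [e]
    refine h33k_norm_add_le hy2.le ?_
    rw [norm_mul, norm_pow π]
    calc ‖a ^ N‖ * ‖π‖ ^ j ≤ 1 * ‖π‖ ^ j := mul_le_mul_of_nonneg_right hc1 hπj.le
      _ = ‖π‖ ^ j := one_mul _
  have hy4 : ‖s₀ (β ^ p) - 1‖ ≤ 1 := hy3.trans (pow_le_one₀ (norm_nonneg _) hπ1.le)
  have hy5 : ‖s₀ (β ^ p) - 1‖ ^ 2 < ‖π‖ ^ j := by
    calc ‖s₀ (β ^ p) - 1‖ ^ 2 ≤ (‖π‖ ^ j) ^ 2 := pow_le_pow_left₀ (norm_nonneg _) hy3 2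
      _ = ‖π‖ ^ j * ‖π‖ ^ j := sq _
      _ < ‖π‖ ^ j * 1 :=
          mul_lt_mul_of_pos_left (pow_lt_one₀ (norm_nonneg _) hπ1 (by omega)) hπj
      _ = ‖π‖ ^ j := mul_one _
  have hpow : ((s₀ β) ^ n) ^ p = (1 + (s₀ (β ^ p) - 1)) ^ n := by
    rw [map_pow, ← pow_mul, mul_comm n p, pow_mul]
    congr 1
    ring
  have hfin : ((s₀ β) ^ n) ^ p - 1 - (n : Om p) * a ^ N * π ^ j
      = ((1 + (s₀ (β ^ p) - 1)) ^ n - 1 - (n : Om p) * (s₀ (β ^ p) - 1))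
        + (n : Om p) * (s₀ (β ^ p) - 1 - a ^ N * π ^ j) := by
    rw [hpow]; ring
  rw [hfin]
  refine h33k_norm_add_lt ?_ ?_
  · exact lt_of_le_of_lt (h33k_norm_one_add_pow hy4 n) hy5
  · rw [norm_mul]
    calc ‖(n : Om p)‖ * ‖s₀ (β ^ p) - 1 - a ^ N * π ^ j‖
        ≤ 1 * ‖s₀ (β ^ p) - 1 - a ^ N * π ^ j‖ :=
          mul_le_mul_of_nonneg_right (h33k_norm_natCast_le n) (norm_nonneg _)
      _ = ‖s₀ (β ^ p) - 1 - a ^ N * π ^ j‖ := one_mul _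
      _ < ‖π‖ ^ j := hy2

/-- **C5 at level one**, in the shape `‖β ^ p - 1 - a * π‖ < ‖π‖`. -/
theorem h79a_frobCoef_one {π ζ : Om p} (hπ0 : π ≠ 0) (hπ1 : ‖π‖ < 1) (hζ : ζ ^ p = 1)
    {s₀ : Gq p} (hs : s₀ π = π) {N : ℕ} (hN : 0 < N)
    (hs₀w : ∀ (w : Om p) (m : ℕ), 0 < m → ¬ p ∣ m → w ^ m = 1 → s₀ w = w ^ N)
    {m n : ℕ} (hm : cycExp p s₀ m) (hnm : n * m ≡ 1 [MOD p])
    {χ : Gq p → ZMod p} {a : Om p} (ha : ‖a‖ ≤ 1)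
    (h : ∃ β : Om p, (∀ g ∈ IK p π, g β = ζ ^ (χ g).val * β) ∧ ‖β ^ p - 1 - a * π‖ < ‖π‖) :
    ∃ β : Om p, (∀ g ∈ IK p π, g β = ζ ^ (χ (s₀⁻¹ * g * s₀)).val * β) ∧
      ‖β ^ p - 1 - ((n : Om p) * a ^ N) * π‖ < ‖π‖ := by
  obtain ⟨β, hβ, hnorm⟩ := h
  have hnorm' : ‖β ^ p - 1 - a * π ^ 1‖ < ‖π‖ ^ 1 := by rw [pow_one, pow_one]; exact hnorm
  obtain ⟨h1, h2⟩ := h79a_frobCoef hπ0 hπ1 hζ hs hN hs₀w hm hnm le_rfl ha hβ hnorm'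
  rw [pow_one, pow_one] at h2
  exact ⟨(s₀ β) ^ n, h1, h2⟩

/-- **E2**: a Frobenius can be corrected by inertia so as to fix `π`. -/
theorem h79a_exists_frob_fix (n : ℕ) (hn : 0 < n) (hpn : ¬ p ∣ n) {π : Om p} (hπ : π ^ n = p)
    {φ : Gq p} (hφ : ∀ (w : Om p) (m : ℕ), 0 < m → ¬ p ∣ m → w ^ m = 1 → φ w = w ^ p) :
    ∃ t₀ ∈ inertia p, (t₀ * φ) π = π ∧
      ∀ (w : Om p) (m : ℕ), 0 < m → ¬ p ∣ m → w ^ m = 1 → (t₀ * φ) w = w ^ p := by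
  have hpp : p.Prime := Fact.out
  have hp0 : ((p : ℕ) : Om p) ≠ 0 := by exact_mod_cast hpp.ne_zero
  have hπ0 : π ≠ 0 := by
    rintro rfl
    rw [zero_pow hn.ne'] at hπ
    exact hp0 hπ.symm
  set η : Om p := φ π / π with hη
  have hηn : η ^ n = 1 := by
    rw [hη, div_pow, ← map_pow, hπ, map_natCast]
    exact div_self hp0
  have hη0 : η ≠ 0 := by
    intro h0
    rw [h0, zero_pow hn.ne'] at hηn
    exact zero_ne_one hηn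
  have hηinv : (η⁻¹) ^ n = 1 := by rw [inv_pow, hηn, inv_one]
  obtain ⟨σ, hσ, hσπ⟩ := h89f_fundSurjective p n hn hpn π hπ η⁻¹ hηinv
  have hφπ : φ π = η * π := by rw [hη, div_mul_cancel₀ _ hπ0]
  refine ⟨σ, hσ, ?_, ?_⟩
  · rw [AlgEquiv.mul_apply, hφπ, map_mul, h68e_inertia_fix_root hσ hn hpn hηn, hσπ,
      ← mul_assoc, mul_inv_cancel₀ hη0, one_mul]
  · intro w m hm hpm hw
    rw [AlgEquiv.mul_apply, hφ w m hm hpm hw]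
    refine h68e_inertia_fix_root hσ hm hpm ?_
    rw [← pow_mul, mul_comm, pow_mul, hw, one_pow]

/-- an additive function on inertia: `h 1 = 0`, `h σ⁻¹ = - h σ`, conjugation invariance. -/
theorem h79a_add_basic {A : Type} [AddCommGroup A] (h : Gq p → A)
    (hadd : ∀ σ ∈ inertia p, ∀ τ ∈ inertia p, h (σ * τ) = h σ + h τ) :
    h 1 = 0 ∧ (∀ σ ∈ inertia p, h σ⁻¹ = - h σ) ∧
      ∀ t ∈ inertia p, ∀ σ ∈ inertia p, h (t * σ * t⁻¹) = h σ := by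
  have h1 : h 1 = 0 := by
    have := hadd 1 (inertia p).one_mem 1 (inertia p).one_mem
    rw [mul_one] at this
    have h2 : h 1 + h 1 = h 1 + 0 := by rw [add_zero]; exact this.symm
    exact add_left_cancel h2
  have hinv : ∀ σ ∈ inertia p, h σ⁻¹ = - h σ := by
    intro σ hσ
    have := hadd σ hσ σ⁻¹ ((inertia p).inv_mem hσ)
    rw [mul_inv_cancel, h1] at this
    exact eq_neg_of_add_eq_zero_right this.symm
  refine ⟨h1, hinv, fun t ht σ hσ => ?_⟩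
  rw [hadd (t * σ) ((inertia p).mul_mem ht hσ) t⁻¹ ((inertia p).inv_mem ht), hadd t ht σ hσ,
    hinv t ht]
  abel

/-- **E2**: anti-invariance under `φ` passes to `t₀ φ` and to its inverse. -/
theorem h79a_anti {A : Type} [AddCommGroup A] (h : Gq p → A)
    (hadd : ∀ σ ∈ inertia p, ∀ τ ∈ inertia p, h (σ * τ) = h σ + h τ)
    {φ : Gq p} (hanti : ∀ σ ∈ inertia p, h (φ * σ * φ⁻¹) = - h σ) {t₀ : Gq p}
    (ht₀ : t₀ ∈ inertia p) :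
    (∀ σ ∈ inertia p, h ((t₀ * φ) * σ * (t₀ * φ)⁻¹) = - h σ) ∧
      (∀ σ ∈ inertia p, h ((t₀ * φ)⁻¹ * σ * (t₀ * φ)) = - h σ) := by
  obtain ⟨-, -, hconj⟩ := h79a_add_basic h hadd
  have hA : ∀ σ ∈ inertia p, h ((t₀ * φ) * σ * (t₀ * φ)⁻¹) = - h σ := by
    intro σ hσ
    have e : (t₀ * φ) * σ * (t₀ * φ)⁻¹ = t₀ * (φ * σ * φ⁻¹) * t₀⁻¹ := by
      rw [mul_inv_rev]; group
    rw [e, hconj t₀ ht₀ _ (h89o_conj_mem_inertia hσ φ), hanti σ hσ]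
  refine ⟨hA, fun σ hσ => ?_⟩
  have hσ' : (t₀ * φ)⁻¹ * σ * (t₀ * φ) ∈ inertia p := h89o_conj_mem_inertia' hσ (t₀ * φ)
  have h1 := hA _ hσ'
  have e : (t₀ * φ) * ((t₀ * φ)⁻¹ * σ * (t₀ * φ)) * (t₀ * φ)⁻¹ = σ := by group
  rw [e] at h1
  rw [h1, neg_neg]

/-- every element acts on `μ_p` by an exponent invertible modulo `p`. -/
theorem h79a_exists_cycExp_inv (s : Gq p) :
    ∃ m n : ℕ, cycExp p s m ∧ n * m ≡ 1 [MOD p] := by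
  have hpp : p.Prime := Fact.out
  obtain ⟨a, ha⟩ := h89o_exists_cycExp s
  obtain ⟨ζ, hζ⟩ := h7c_exists_primitiveRoot p
  have hndvd : ¬ p ∣ a := by
    intro hdvd
    obtain ⟨c, rfl⟩ := hdvd
    have h1 := ha ζ hζ.pow_eq_one
    rw [pow_mul, hζ.pow_eq_one, one_pow] at h1
    have h2 : ζ = 1 := s.injective (h1.trans (map_one s).symm)
    exact hζ.ne_one hpp.one_lt h2
  have hcop : Nat.Coprime a p := ((Nat.Prime.coprime_iff_not_dvd hpp).mpr hndvd).symm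
  obtain ⟨n, -, hn⟩ := Nat.exists_mul_mod_eq_one_of_coprime hcop hpp.one_lt
  refine ⟨a, n, ha, ?_⟩
  show n * a % p = 1 % p
  rw [mul_comm, hn, Nat.mod_eq_of_lt hpp.one_lt]

/-- **E2, package.**  There is a Frobenius `s₀` fixing `π` under which `h` is anti-invariant
(in the form needed for the coefficients), with its cyclotomic exponent. -/
theorem h79a_frob_package (n : ℕ) (hn : 0 < n) (hpn : ¬ p ∣ n) {π : Om p} (hπ : π ^ n = p)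
    {A : Type} [AddCommGroup A] (h : Gq p → A)
    (hadd : ∀ σ ∈ inertia p, ∀ τ ∈ inertia p, h (σ * τ) = h σ + h τ)
    {φ : Gq p} (hφ : ∀ (w : Om p) (m : ℕ), 0 < m → ¬ p ∣ m → w ^ m = 1 → φ w = w ^ p)
    (hanti : ∀ σ ∈ inertia p, h (φ * σ * φ⁻¹) = - h σ) :
    ∃ s₀ : Gq p, s₀ π = π ∧
      (∀ (w : Om p) (m : ℕ), 0 < m → ¬ p ∣ m → w ^ m = 1 → s₀ w = w ^ p) ∧
      (∀ σ ∈ inertia p, h (s₀ * σ * s₀⁻¹) = - h σ) ∧
      (∀ σ ∈ inertia p, h (s₀⁻¹ * σ * s₀) = - h σ) ∧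
      ∃ m n' : ℕ, cycExp p s₀ m ∧ n' * m ≡ 1 [MOD p] := by
  obtain ⟨t₀, ht₀, hfix, hfrob⟩ := h79a_exists_frob_fix n hn hpn hπ hφ
  obtain ⟨h1, h2⟩ := h79a_anti h hadd hanti ht₀
  exact ⟨t₀ * φ, hfix, hfrob, h1, h2, h79a_exists_cycExp_inv _⟩

/-- **The Frobenius relation on the coefficients.**  With `s₀` as in `h79a_frob_package`:
a coefficient `a` at level `j` of `l ∘ h` gives the coefficient `n' a ^ p` of `(-l) ∘ h`. -/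
theorem h79a_frobRel {π ζ : Om p} (hπ0 : π ≠ 0) (hπ1 : ‖π‖ < 1) (hζ : ζ ^ p = 1)
    {k : Type} [AddCommGroup k] (h : Gq p → k)
    {s₀ : Gq p} (hs : s₀ π = π)
    (hs₀w : ∀ (w : Om p) (m : ℕ), 0 < m → ¬ p ∣ m → w ^ m = 1 → s₀ w = w ^ p)
    (hanti : ∀ σ ∈ inertia p, h (s₀⁻¹ * σ * s₀) = - h σ)
    {m n : ℕ} (hm : cycExp p s₀ m) (hnm : n * m ≡ 1 [MOD p])
    (l : k →+ ZMod p) {j : ℕ} (hj : 1 ≤ j) {a : Om p} (ha : ‖a‖ ≤ 1)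
    (hc : ∃ β : Om p, (∀ g ∈ IK p π, g β = ζ ^ (l (h g)).val * β) ∧
      ‖β ^ p - 1 - a * π ^ j‖ < ‖π‖ ^ j) :
    ∃ β : Om p, (∀ g ∈ IK p π, g β = ζ ^ ((-l) (h g)).val * β) ∧
      ‖β ^ p - 1 - ((n : Om p) * a ^ p) * π ^ j‖ < ‖π‖ ^ j := by
  have hpp : p.Prime := Fact.out
  obtain ⟨β, hβ, hnorm⟩ := hc
  obtain ⟨h1, h2⟩ := h79a_frobCoef (χ := fun g => l (h g)) hπ0 hπ1 hζ hs hpp.pos hs₀w hm hnm hj
    ha hβ hnorm
  refine ⟨(s₀ β) ^ n, fun g hg => ?_, h2⟩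
  rw [h1 g hg]
  have e : l (h (s₀⁻¹ * g * s₀)) = (-l) (h g) := by
    rw [hanti g (mem_IK.mp hg).1, map_neg, AddMonoidHom.neg_apply]
  rw [e]

end Fermat.Agent.S56F
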