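import Fermat.Agent.S56F.FLS2AKer_helper1
import Fermat.Agent.S56F.FLS2AFrob_helper79

/-!
# S56 / LOC-p-FL, row FL-S2A (helper1): assembly of `SSClaimA`

`h1a_claimA_of : H1aExists → SSClaimA`, where `H1aExists` (C1) is the existence of a level-one
coefficient for every continuous character of inertia.  Inputs: uniqueness / additivity / kernel
(`FLS2A_helper1`, `FLS2AKer_helper1`), the Frobenius relation (`FLS2AFrob_helper79`), the
pure-algebra endgame (`FLS2Aend_helper39`).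
-/

set_option autoImplicit false
set_option linter.style.haveILetI false
set_option linter.unusedSectionVars false

open Fermat.Agent.PT.Loc

noncomputable section

namespace Fermat.Agent.S56F

/-- **C1** (existence of the level-one coefficient): every continuous character of inertia has
a Kummer generator over `K₁ = ℚ_p^ur(π)`, `π ^ (p - 1) = p`, whose `p`-th power is
`≡ 1 + a π`. -/
def H1aExists : Prop :=
  ∀ (p : ℕ) [Fact p.Prime], p ≠ 2 → ∀ π ζ : Om p, π ^ (p - 1) = p → IsPrimitiveRoot ζ p →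
    ∀ χ : Gq p → ZMod p, (∀ σ ∈ inertia p, ∀ τ ∈ inertia p, χ (σ * τ) = χ σ + χ τ) →
      (∃ F : LF p, FiniteDimensional ℚ_[p] F ∧ ∀ s ∈ inertia p, s ∈ GK F → χ s = 0) →
      ∃ a : Om p, ‖a‖ ≤ 1 ∧ h1a_Coef p π ζ χ a

/-- **Assembly of Claim A.** -/
theorem h1a_claimA_of (hE : H1aExists) : SSClaimA := by
  intro p _ hp2 k _ _ _ h φ hadd hcont hφ hanti
  have hp := (Fact.out : p.Prime)
  obtain ⟨π, hπ⟩ := exists_root p (p - 1) (h1a_n_pos p)
  obtain ⟨ζ, hζ⟩ := h7c_exists_primitiveRoot p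
  have hχadd : ∀ l : k →+ ZMod p, ∀ σ ∈ inertia p, ∀ τ ∈ inertia p,
      l (h (σ * τ)) = l (h σ) + l (h τ) := fun l σ hσ τ hτ => by
    rw [hadd σ hσ τ hτ, map_add]
  have hχcont : ∀ l : k →+ ZMod p, ∃ F : LF p, FiniteDimensional ℚ_[p] F ∧
      ∀ s ∈ inertia p, s ∈ GK F → l (h s) = 0 := fun l => by
    obtain ⟨F, hF, hs⟩ := hcont
    exact ⟨F, hF, fun s hs1 hs2 => by rw [hs s hs1 hs2, map_zero]⟩
  have hex : ∀ l : k →+ ZMod p, ∃ a : Om p, ‖a‖ ≤ 1 ∧
      h1a_Coef p π ζ (fun g => l (h g)) a := fun l =>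
    hE p hp2 π ζ hπ hζ _ (hχadd l) (hχcont l)
  choose A hA1 hAc using hex
  obtain ⟨s₀, hs₀π, hs₀w, -, hs₀anti, m, n', hm, hnm⟩ :=
    h79a_frob_package (p - 1) (h1a_n_pos p) (h1a_not_dvd p) hπ h hadd hφ hanti
  haveI := h84u_charP p
  have hsum : ∀ l l' : k →+ ZMod p, ‖A l + A l'‖ ≤ 1 := fun l l' =>
    h84u_norm_add_le (hA1 l) (hA1 l')
  refine h39e_claimA_end p k (κ := h84u_kappa p) (inertia p : Set (Gq p)) h
    (fun l => h84u_res (A l)) (h84u_res ((n' : ℕ) : Om p)) ?_ ?_ ?_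
  · intro l l'
    have h1 := h1a_coef_add hπ hζ.pow_eq_one (hA1 l) (hA1 l') (hAc l) (hAc l')
    have h2 : h1a_Coef p π ζ (fun g => (l + l') (h g)) (A l + A l') :=
      h1a_coef_ext (fun g _ => (AddMonoidHom.add_apply l l' (h g)).symm) h1
    have h3 := h1a_coef_uniq hπ hζ.pow_eq_one (hA1 (l + l')) (hsum l l') (hAc (l + l')) h2
    change h84u_res (A (l + l')) = h84u_res (A l) + h84u_res (A l')
    rw [h84u_res_eq_of_norm_sub_lt (hsum l l') h3, h84u_res_add (hA1 l) (hA1 l')]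
  · intro l hl s hs
    have h1 : ‖A l‖ < 1 := (h84u_res_eq_zero_iff (hA1 l)).mp hl
    exact h1a_coef_ker hp2 hπ hζ (hχadd l) h1 (hAc l) s hs
  · intro l
    have h1 := h79a_frobCoef_one (h1a_pi_ne_zero hπ) (h1a_pi_lt_one hπ) hζ.pow_eq_one hs₀π
      hp.pos hs₀w hm hnm (χ := fun g => l (h g)) (hA1 l) (hAc l)
    have h2 : h1a_Coef p π ζ (fun g => (-l) (h g)) (((n' : ℕ) : Om p) * A l ^ p) := by
      obtain ⟨β, hβ, hn⟩ := h1
      refine ⟨β, fun g hg => ?_, hn⟩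
      rw [hβ g hg, hs₀anti g (mem_IK.mp hg).1, map_neg]
      rfl
    have hnorm : ‖((n' : ℕ) : Om p) * A l ^ p‖ ≤ 1 :=
      h84u_norm_mul_le (h34k_norm_natCast_le n') (h84u_norm_pow_le (hA1 l) p)
    have h3 := h1a_coef_uniq hπ hζ.pow_eq_one (hA1 (-l)) hnorm (hAc (-l)) h2
    have h4 : h84u_res (A (-l)) + h84u_res (A l) = 0 := by
      have h5 := h1a_coef_add hπ hζ.pow_eq_one (hA1 (-l)) (hA1 l) (hAc (-l)) (hAc l)
      have h6 : h1a_Coef p π ζ (fun _ => 0) (A (-l) + A l) :=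
        h1a_coef_ext (fun g _ => by rw [AddMonoidHom.neg_apply, neg_add_cancel]) h5
      have h7 := h1a_coef_uniq hπ hζ.pow_eq_one (hsum (-l) l)
        (by rw [norm_zero]; exact zero_le_one) h6 (h1a_coef_zero hπ)
      rw [sub_zero] at h7
      rw [← h84u_res_add (hA1 (-l)) (hA1 l)]
      exact (h84u_res_eq_zero_iff (hsum (-l) l)).mpr h7
    have h8 : h84u_res (A (-l)) = h84u_res ((n' : ℕ) : Om p) * h84u_res (A l) ^ p := by
      rw [h84u_res_eq_of_norm_sub_lt hnorm h3,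
        h84u_res_mul (h34k_norm_natCast_le n') (h84u_norm_pow_le (hA1 l) p),
        h84u_res_pow (hA1 l)]
    change h84u_res ((n' : ℕ) : Om p) * h84u_res (A l) ^ p + h84u_res (A l) = 0
    rw [← h8]
    exact h4

end Fermat.Agent.S56F
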