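import Fermat.Agent.S56F.FLS2AAsm_helper1

/-!
# S56 / LOC-p-FL, row FL-S2A (helper1): existence of the level-one coefficient (C1), `SSClaimA`

`h1a_exists : H1aExists`: Kummer generator (FL-K1), normal form `β ^ p = π ^ m₀ c ^ p u`
(FL-K2), eigen-step `m₀ = 0` (`γ = (t β) ^ n / β ∈ K₁`, `‖γ‖ ^ p = ‖π‖ ^ (m₀ (n - 1))`,
`n ≢ 1 mod p`), discreteness.  Then `h1a_claimA : SSClaimA` and `h1a_ssDiagZero`.
-/

set_option autoImplicit false
set_option linter.style.haveILetI false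
set_option linter.unusedSectionVars false

open Fermat.Agent.PT.Loc

noncomputable section

namespace Fermat.Agent.S56F

/-- **C1**: existence of the level-one coefficient. -/
theorem h1a_exists : H1aExists := by
  intro p _ hp2 π ζ hπ hζ χ hadd hcont
  have hp := (Fact.out : p.Prime)
  haveI : NeZero p := ⟨hp.ne_zero⟩
  have hp3 : 3 ≤ p := by
    have := hp.two_le
    omega
  have hK : IsKChar p π χ :=
    ⟨fun g hg h hh => hadd g (mem_IK.mp hg).1 h (mem_IK.mp hh).1, by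
      obtain ⟨F, hF, hs⟩ := hcont
      exact ⟨F, hF, fun s hs1 hs2 => hs s (mem_IK.mp hs1).1 hs2⟩⟩
  obtain ⟨β, hβ0, hβ⟩ := h10g_kummerGen p π ζ hζ.pow_eq_one
    (fun g hg => h1a_IK_fix_root hp2 hπ hg hζ.pow_eq_one) χ hK
  have hβgen : h1a_Gen p π ζ χ β := hβ
  have hxfix := h1a_gen_pow_fix hζ.pow_eq_one hβgen
  obtain ⟨m₀, c, u, hm₀, hc0, hcfix, hufix, hu1, hb⟩ := h83k_unitNF p (p - 1) (h1a_n_pos p)
    (h1a_not_dvd p) π hπ (β ^ p) (pow_ne_zero _ hβ0) hxfix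
  have hβ₁0 : β / c ≠ 0 := div_ne_zero hβ0 hc0
  have hβ₁ : h1a_Gen p π ζ χ (β / c) := fun g hg => by
    rw [map_div₀, hβ g hg, hcfix g hg, mul_div_assoc]
  have hβ₁p : (β / c) ^ p = π ^ m₀ * u := by
    rw [div_pow, hb]
    field_simp
  have hun : ‖u‖ = 1 := h1a_norm_eq_one hu1
  obtain ⟨t, w, m, n, ht, hw, htπ, hcyc, hmn, hnw⟩ := h1a_exists_t hp2 hπ
  have hwMu : h84u_IsMu p w := ⟨p - 1, h1a_n_pos p, h1a_not_dvd p, hw.pow_eq_one⟩
  have hgen2 : h1a_Gen p π ζ χ ((t (β / c)) ^ n) :=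
    h1a_gen_ext (fun g hg => h1a_chi_conj hadd ht (mem_IK.mp hg).1)
      (h1a_gen_conj hζ.pow_eq_one hwMu htπ hcyc hmn hβ₁)
  have hγ := h1a_gen_div_fix hζ.pow_eq_one hβ₁ hgen2
  have htβ0 : t (β / c) ≠ 0 := (map_ne_zero t).mpr hβ₁0
  have hγ0 : (t (β / c)) ^ n / (β / c) ≠ 0 := div_ne_zero (pow_ne_zero _ htβ0) hβ₁0
  have hr0 : 0 < ‖π‖ := h1a_pi_pos hπ
  have hr1 : ‖π‖ ≠ 1 := (h1a_pi_lt_one hπ).ne
  have hnormx : ‖(β / c) ^ p‖ = ‖π‖ ^ m₀ := by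
    rw [hβ₁p, norm_mul, norm_pow, hun, mul_one]
  have hγp : ‖(t (β / c)) ^ n / (β / c)‖ ^ p = (‖π‖ ^ m₀) ^ n / ‖π‖ ^ m₀ := by
    rw [← norm_pow, div_pow, norm_div, ← pow_mul, mul_comm n p, pow_mul, norm_pow, ← map_pow,
      h34k_norm_map, hnormx]
  obtain ⟨Z, v, hv1, -, hγv⟩ := h83k_zpow_unit (h1a_disc hπ) _ hγ0 hγ
  have hγn : ‖(t (β / c)) ^ n / (β / c)‖ = ‖π‖ ^ Z := by
    rw [hγv, norm_mul, norm_zpow, hv1, mul_one]
  have hZ : ‖π‖ ^ (Z * (p : ℤ)) = ‖π‖ ^ ((m₀ : ℤ) * (n : ℤ) - (m₀ : ℤ)) := by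
    rw [zpow_mul, zpow_natCast, ← hγn, hγp, zpow_sub₀ hr0.ne', zpow_mul, zpow_natCast,
      zpow_natCast]
  have hZ' : Z * (p : ℤ) = (m₀ : ℤ) * (n : ℤ) - (m₀ : ℤ) := zpow_right_injective₀ hr0 hr1 hZ
  have hn1 : (n : ZMod p) ≠ 1 := by
    intro h1
    have h2 : ‖((n : ℕ) : Om p) - ((1 : ℕ) : Om p)‖ < 1 :=
      h34k_norm_natCast_sub_lt (by rw [h1, Nat.cast_one])
    rw [Nat.cast_one] at h2
    have hw1 : ‖w‖ = 1 := h84u_isMu_norm hwMu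
    have h3 : w - 1 = ((n : Om p) * w - 1) - ((n : Om p) - 1) * w := by ring
    have h4 : ‖w - 1‖ < 1 := by
      rw [h3]
      refine lt_of_le_of_lt (h34k_norm_sub_le_max _ _) (max_lt hnw ?_)
      rw [norm_mul, hw1, mul_one]
      exact h2
    have h5 : w = 1 := h34k_root_eq_one (h1a_not_dvd p) hw.pow_eq_one h4
    exact hw.ne_one (by omega) h5
  have hm0 : m₀ = 0 := by
    have h1 := congrArg (fun z : ℤ => (z : ZMod p)) hZ'
    simp only [Int.cast_mul, Int.cast_natCast, Int.cast_sub, ZMod.natCast_self, mul_zero] at h1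
    have h2 : (m₀ : ZMod p) * ((n : ZMod p) - 1) = 0 := by linear_combination h1.symm
    rcases mul_eq_zero.mp h2 with h3 | h3
    · rw [ZMod.natCast_eq_zero_iff] at h3
      exact Nat.eq_zero_of_dvd_of_lt h3 hm₀
    · exact absurd (sub_eq_zero.mp h3) hn1
  rw [hm0, pow_zero, one_mul] at hβ₁p
  have hufix' : ∀ g ∈ IK p π, g (u - 1) = u - 1 := fun g hg => by
    rw [map_sub, map_one, hufix g hg]
  have hu2 : ‖u - 1‖ ≤ ‖π‖ ^ (0 + 1) :=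
    h1a_disc_step hπ hufix' (by rw [pow_zero]; exact hu1)
  rw [zero_add, pow_one] at hu2
  have hπ0 := h1a_pi_ne_zero hπ
  refine ⟨(u - 1) / π, ?_, β / c, hβ₁, ?_⟩
  · rw [norm_div]
    exact div_le_one_of_le₀ hu2 (norm_nonneg _)
  · rw [hβ₁p, div_mul_cancel₀ _ hπ0, sub_self, norm_zero]
    exact hr0

/-- **FL-S2A** (exact frozen Prop). -/
theorem h1a_claimA : SSClaimA := h1a_claimA_of h1a_exists

end Fermat.Agent.S56F
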