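import Fermat.Agent.S56F.FLS2A_helper1

/-!
# S56 / LOC-p-FL, row FL-S2A (helper1): the kernel of the level-one coefficient (C4)

* `h1a_lev_step` : eigen-exclusion, level `≥ j` with `2 ≤ j ≤ p - 1` implies level `≥ j + 1`;
* `h1a_coef_ker` : a character of inertia with level-one coefficient `≡ 0` is trivial on inertia.
-/

set_option autoImplicit false
set_option linter.style.haveILetI false
set_option linter.unusedSectionVars false

open Fermat.Agent.PT.Loc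

noncomputable section

namespace Fermat.Agent.S56F

variable {p : ℕ} [Fact p.Prime]

/-- the congruence for `γ ^ p`, `γ = (t β) ^ n / β`: with `x = β ^ p = 1 + y`, `‖y‖ ≤ ‖π‖ ^ j`,
`‖(t x) ^ n - x - (n w ^ j - 1) y‖ < ‖π‖ ^ j`. -/
theorem h1a_twist_congr {π : Om p} (hπ : π ^ (p - 1) = p) {t : Gq p} (ht : t ∈ inertia p)
    {w : Om p} (hw1 : ‖w‖ = 1) (htπ : t π = w * π) (n : ℕ) {j : ℕ} (hj : 1 ≤ j) {y : Om p}
    (hy : ‖y‖ ≤ ‖π‖ ^ j) :
    ‖(1 + t y) ^ n - (1 + y) - ((n : Om p) * w ^ j - 1) * y‖ < ‖π‖ ^ j := by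
  have hπ0 := h1a_pi_ne_zero hπ
  have hπj0 : π ^ j ≠ 0 := pow_ne_zero _ hπ0
  have hr := h1a_pi_pow_pos hπ j
  have hr1 : ‖π‖ ^ j < 1 := pow_lt_one₀ (norm_nonneg _) (h1a_pi_lt_one hπ) (by omega)
  set a : Om p := y / π ^ j with ha
  have ha1 : ‖a‖ ≤ 1 := by
    rw [ha, norm_div, norm_pow]
    exact div_le_one_of_le₀ hy hr.le
  have hya : y = a * π ^ j := by rw [ha, div_mul_cancel₀ _ hπj0]
  have hta : ‖t a - a‖ < 1 := ht a ha1
  have hty : t y - w ^ j * y = (t a - a) * (w ^ j * π ^ j) := by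
    rw [hya, map_mul, map_pow, htπ, mul_pow]
    ring
  have hty' : ‖t y - w ^ j * y‖ < ‖π‖ ^ j := by
    rw [hty, norm_mul, norm_mul, norm_pow, norm_pow, hw1, one_pow, one_mul]
    calc ‖t a - a‖ * ‖π‖ ^ j < 1 * ‖π‖ ^ j := mul_lt_mul_of_pos_right hta hr
      _ = ‖π‖ ^ j := one_mul _
  have hz : ‖t y‖ ≤ ‖π‖ ^ j := by rw [h34k_norm_map]; exact hy
  have hz1 : ‖t y‖ ≤ 1 := hz.trans hr1.le
  have hb := h1a_binom_lin hz1 n
  have hb' : ‖(1 + t y) ^ n - 1 - (n : Om p) * t y‖ < ‖π‖ ^ j := by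
    refine lt_of_le_of_lt hb ?_
    calc ‖t y‖ ^ 2 ≤ (‖π‖ ^ j) ^ 2 := pow_le_pow_left₀ (norm_nonneg _) hz 2
      _ = ‖π‖ ^ j * ‖π‖ ^ j := sq _
      _ < ‖π‖ ^ j * 1 := mul_lt_mul_of_pos_left hr1 hr
      _ = ‖π‖ ^ j := mul_one _
  have h1 : (1 + t y) ^ n - (1 + y) - ((n : Om p) * w ^ j - 1) * y =
      ((1 + t y) ^ n - 1 - (n : Om p) * t y) + (n : Om p) * (t y - w ^ j * y) := by ring
  rw [h1]
  refine lt_of_le_of_lt (IsUltrametricDist.norm_add_le_max _ _) (max_lt hb' ?_)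
  rw [norm_mul]
  calc ‖(n : Om p)‖ * ‖t y - w ^ j * y‖ ≤ 1 * ‖t y - w ^ j * y‖ :=
        mul_le_mul_of_nonneg_right (h34k_norm_natCast_le n) (norm_nonneg _)
    _ < ‖π‖ ^ j := by rw [one_mul]; exact hty'

/-- **eigen-exclusion**: level `≥ j`, `2 ≤ j ≤ p - 1` implies level `≥ j + 1`. -/
theorem h1a_lev_step (hp2 : p ≠ 2) {π ζ : Om p} (hπ : π ^ (p - 1) = p) (hζ : ζ ^ p = 1)
    {χ : Gq p → ZMod p}
    (hadd : ∀ σ ∈ inertia p, ∀ τ ∈ inertia p, χ (σ * τ) = χ σ + χ τ)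
    {j : ℕ} (hj2 : 2 ≤ j) (hjp : j ≤ p - 1) (h : h1a_Lev p π ζ χ j) :
    h1a_Lev p π ζ χ (j + 1) := by
  have hp := (Fact.out : p.Prime)
  obtain ⟨β, hβ, hx⟩ := h
  refine ⟨β, hβ, ?_⟩
  by_contra hcon
  have hr := h1a_pi_pow_pos hπ j
  have hr1 : ‖π‖ ^ j < 1 := pow_lt_one₀ (norm_nonneg _) (h1a_pi_lt_one hπ) (by omega)
  have hyfix : ∀ g ∈ IK p π, g (β ^ p - 1) = β ^ p - 1 := fun g hg => by
    rw [map_sub, map_one, h1a_gen_pow_fix hζ hβ g hg]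
  have hy : ‖β ^ p - 1‖ = ‖π‖ ^ j := by
    refine le_antisymm hx (not_lt.mp fun hlt => hcon (h1a_disc_step hπ hyfix hlt))
  obtain ⟨t, w, m, n, ht, hw, htπ, hcyc, hmn, hnw⟩ := h1a_exists_t hp2 hπ
  have hwMu : h84u_IsMu p w := ⟨p - 1, h1a_n_pos p, h1a_not_dvd p, hw.pow_eq_one⟩
  have hw1 : ‖w‖ = 1 := h84u_isMu_norm hwMu
  have hgen2 : h1a_Gen p π ζ χ ((t β) ^ n) :=
    h1a_gen_ext (fun g hg => h1a_chi_conj hadd ht (mem_IK.mp hg).1)
      (h1a_gen_conj hζ hwMu htπ hcyc hmn hβ)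
  have hγ := h1a_gen_div_fix hζ hβ hgen2
  have hβ0 : β ≠ 0 := h1a_gen_ne_zero (lt_of_le_of_lt hx hr1)
  have hx1 : ‖β ^ p‖ = 1 := h1a_norm_eq_one (lt_of_le_of_lt hx hr1)
  have hxne : β ^ p ≠ 0 := pow_ne_zero _ hβ0
  have hcong := h1a_twist_congr hπ ht hw1 htπ n (by omega : 1 ≤ j) hx
  have htx : (1 : Om p) + t (β ^ p - 1) = (t β) ^ p := by
    rw [map_sub, map_one, map_pow]
    ring
  have hxx : (1 : Om p) + (β ^ p - 1) = β ^ p := by ring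
  rw [htx, hxx] at hcong
  have hγp : ((t β) ^ n / β) ^ p - 1 = (((t β) ^ p) ^ n - β ^ p) / β ^ p := by
    rw [div_pow, ← pow_mul, ← pow_mul, mul_comm n p]
    field_simp
  have hnw1 : ‖(n : Om p) * w ^ j - 1‖ ≤ 1 := by
    refine (h34k_norm_sub_le_max _ _).trans (max_le ?_ (by rw [norm_one]))
    rw [norm_mul, norm_pow, hw1, one_pow, mul_one]
    exact h34k_norm_natCast_le n
  have hE : ‖((n : Om p) * w ^ j - 1) * (β ^ p - 1)‖ ≤ ‖π‖ ^ j := by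
    rw [norm_mul, hy]
    calc ‖(n : Om p) * w ^ j - 1‖ * ‖π‖ ^ j ≤ 1 * ‖π‖ ^ j :=
          mul_le_mul_of_nonneg_right hnw1 hr.le
      _ = ‖π‖ ^ j := one_mul _
  have hD : ‖((t β) ^ p) ^ n - β ^ p‖ ≤ ‖π‖ ^ j := by
    have h1 : ((t β) ^ p) ^ n - β ^ p =
        (((t β) ^ p) ^ n - β ^ p - ((n : Om p) * w ^ j - 1) * (β ^ p - 1)) +
          ((n : Om p) * w ^ j - 1) * (β ^ p - 1) := by ring
    rw [h1]
    exact (IsUltrametricDist.norm_add_le_max _ _).trans (max_le hcong.le hE)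
  have hc1 : ‖((t β) ^ n / β) ^ p - 1‖ ≤ ‖π‖ ^ j := by
    rw [hγp, norm_div, hx1, div_one]
    exact hD
  have hjm : j < p * ((p - 1) / (p - 1)) := by
    rw [Nat.div_self (h1a_n_pos p), mul_one]
    omega
  have hjd : ¬ p ∣ j := fun hd => by
    have := Nat.le_of_dvd (by omega) hd
    omega
  have hc2 := h97k_powLevel (h1a_n_pos p) (h1a_not_dvd p) dvd_rfl hπ _ hγ j hjd hjm hc1
  rw [hγp, norm_div, hx1, div_one] at hc2
  have hD' : ‖((t β) ^ p) ^ n - β ^ p‖ < ‖π‖ ^ j :=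
    lt_of_le_of_lt hc2 (h1a_pi_pow_succ_lt hπ j)
  have hE' : ‖((n : Om p) * w ^ j - 1) * (β ^ p - 1)‖ < ‖π‖ ^ j := by
    have h1 : ((n : Om p) * w ^ j - 1) * (β ^ p - 1) = (((t β) ^ p) ^ n - β ^ p) -
        (((t β) ^ p) ^ n - β ^ p - ((n : Om p) * w ^ j - 1) * (β ^ p - 1)) := by ring
    rw [h1]
    exact lt_of_le_of_lt (h34k_norm_sub_le_max _ _) (max_lt hD' hcong)
  rw [norm_mul, hy] at hE'
  have hlt : ‖(n : Om p) * w ^ j - 1‖ < 1 := by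
    by_contra hge
    rw [not_lt] at hge
    have : ‖π‖ ^ j ≤ ‖(n : Om p) * w ^ j - 1‖ * ‖π‖ ^ j := by
      calc ‖π‖ ^ j = 1 * ‖π‖ ^ j := (one_mul _).symm
        _ ≤ ‖(n : Om p) * w ^ j - 1‖ * ‖π‖ ^ j := mul_le_mul_of_nonneg_right hge hr.le
    exact absurd hE' (not_lt.mpr this)
  have hdvd := h1a_eigen_dvd hw hnw (by omega : 1 ≤ j) hlt
  have := Nat.le_of_dvd (by omega) hdvd
  omega

/-- climbing the levels `2, …, p`. -/
theorem h1a_lev_climb (hp2 : p ≠ 2) {π ζ : Om p} (hπ : π ^ (p - 1) = p) (hζ : ζ ^ p = 1)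
    {χ : Gq p → ZMod p}
    (hadd : ∀ σ ∈ inertia p, ∀ τ ∈ inertia p, χ (σ * τ) = χ σ + χ τ)
    (h : h1a_Lev p π ζ χ 2) : h1a_Lev p π ζ χ p := by
  have hp := (Fact.out : p.Prime)
  have hp3 : 3 ≤ p := by
    have := hp.two_le
    omega
  have key : ∀ j : ℕ, 2 ≤ j → j ≤ p → h1a_Lev p π ζ χ j := by
    intro j hj
    induction j, hj using Nat.le_induction with
    | base => exact fun _ => h
    | succ j hj ih =>
      intro hjp
      exact h1a_lev_step hp2 hπ hζ hadd hj (by omega) (ih (by omega))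
  exact key p (by omega) le_rfl

/-- `σ ^ (p - 1) ∈ I_K` for `σ` in inertia. -/
theorem h1a_pow_mem_IK {π : Om p} (hπ : π ^ (p - 1) = p) {σ : Gq p} (hσ : σ ∈ inertia p) :
    σ ^ (p - 1) ∈ IK p π := by
  have hπ0 := h1a_pi_ne_zero hπ
  set u : Om p := σ π / π with hu
  have hσπ : σ π = u * π := by rw [hu, div_mul_cancel₀ _ hπ0]
  have hu1 : u ^ (p - 1) = 1 := by
    rw [hu, div_pow, ← map_pow, hπ, map_natCast, div_self]
    exact_mod_cast (Fact.out : p.Prime).ne_zero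
  have huMu : h84u_IsMu p u := ⟨p - 1, h1a_n_pos p, h1a_not_dvd p, hu1⟩
  have key : ∀ k : ℕ, (σ ^ k) π = u ^ k * π := by
    intro k
    induction k with
    | zero => simp
    | succ k ih =>
      rw [pow_succ, AlgEquiv.mul_apply, hσπ, map_mul,
        h84u_isMu_fix huMu ((inertia p).pow_mem hσ k), ih]
      ring
  refine mem_IK.mpr ⟨(inertia p).pow_mem hσ _, ?_⟩
  rw [key, hu1, one_mul]

/-- **the kernel**: a character of inertia whose level-one coefficient is `≡ 0` is trivial on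
inertia. -/
theorem h1a_coef_ker (hp2 : p ≠ 2) {π ζ : Om p} (hπ : π ^ (p - 1) = p)
    (hζ : IsPrimitiveRoot ζ p) {χ : Gq p → ZMod p}
    (hadd : ∀ σ ∈ inertia p, ∀ τ ∈ inertia p, χ (σ * τ) = χ σ + χ τ)
    {a : Om p} (ha : ‖a‖ < 1) (h : h1a_Coef p π ζ χ a) : ∀ σ ∈ inertia p, χ σ = 0 := by
  have hp := (Fact.out : p.Prime)
  obtain ⟨β, hβ, hx⟩ := h
  have hyfix : ∀ g ∈ IK p π, g (β ^ p - 1) = β ^ p - 1 := fun g hg => by
    rw [map_sub, map_one, h1a_gen_pow_fix hζ.pow_eq_one hβ g hg]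
  have h1 : ‖β ^ p - 1‖ < ‖π‖ ^ 1 := by
    rw [pow_one]
    have h2 : β ^ p - 1 = (β ^ p - 1 - a * π) + a * π := by ring
    rw [h2]
    refine lt_of_le_of_lt (IsUltrametricDist.norm_add_le_max _ _) (max_lt hx ?_)
    rw [norm_mul]
    calc ‖a‖ * ‖π‖ < 1 * ‖π‖ := mul_lt_mul_of_pos_right ha (h1a_pi_pos hπ)
      _ = ‖π‖ := one_mul _
  have hlev2 : h1a_Lev p π ζ χ 2 := ⟨β, hβ, h1a_disc_step hπ hyfix h1⟩
  have hlevp := h1a_lev_climb hp2 hπ hζ.pow_eq_one hadd hlev2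
  have hIK := h1a_lev_top hp2 hπ hζ hlevp
  have h0 : χ 1 = 0 := by
    have := hadd 1 (inertia p).one_mem 1 (inertia p).one_mem
    rw [mul_one] at this
    exact add_eq_left.mp this.symm
  intro σ hσ
  have hpow : ∀ k : ℕ, χ (σ ^ k) = (k : ZMod p) * χ σ := by
    intro k
    induction k with
    | zero => simp [h0]
    | succ k ih =>
      rw [pow_succ, hadd _ ((inertia p).pow_mem hσ k) _ hσ, ih]
      push_cast
      ring
  have h3 := hIK _ (h1a_pow_mem_IK hπ hσ)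
  rw [hpow] at h3
  rcases mul_eq_zero.mp h3 with h4 | h4
  · exfalso
    rw [ZMod.natCast_eq_zero_iff] at h4
    exact h1a_not_dvd p h4
  · exact h4

end Fermat.Agent.S56F
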