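import Mathlib

/-!
# S56 / LOC-p-FL, block SS, Claim A (FL-S2A): the pure-algebra endgame (helper39)

`k` a finite field of characteristic `p`, `κ` a field of characteristic `p`, `h : G → k` any
function, `I ⊆ G`.  Suppose an additive map `a : (k →+ 𝔽_p) → κ` is given with

* `a l = 0 → l (h s) = 0` for all `s ∈ I` (injectivity modulo the functionals killing `h(I)`),
* `c₁ (a l) ^ p + a l = 0` for all `l` (Frobenius relation, one fixed `c₁`).

Then `h(I)` lies on an `𝔽_p`-line: `h s = (χ s).val • a₀` for `s ∈ I`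
(`h39e_claimA_end`, the exact conclusion of `SSClaimA`).

Proof: the roots of `c₁ X ^ p + X` are at most `p`; if `x₀ = h s₀ ≠ 0` and `y = h s` is not an
`𝔽_p`-multiple of `x₀`, choose functionals `f, f'` with `f x₀ = 1, f y = 0, f' x₀ = 0, f' y = 1`;
then `(i, j) ↦ a (i f + j f')` is injective from `𝔽_p²` into the roots.
-/

set_option autoImplicit false
set_option linter.style.haveILetI false

open Polynomial

noncomputable section

namespace Fermat.Agent.S56F

/-- The roots of `c X ^ p + X` are at most `p`. -/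
theorem h39e_roots_finite (p : ℕ) [Fact p.Prime] {κ : Type*} [Field κ] (c : κ) :
    ∃ R : Finset κ, R.card ≤ p ∧ ∀ x : κ, c * x ^ p + x = 0 → x ∈ R := by
  classical
  have hpp : p.Prime := Fact.out
  set P : κ[X] := C c * X ^ p + X with hP
  have hP0 : P ≠ 0 := by
    intro h0
    have h1 := congrArg (fun q : κ[X] => q.coeff 1) h0
    simp only [hP, coeff_add, coeff_C_mul, coeff_X_pow, coeff_X_one, coeff_zero] at h1
    have hne : (1 : ℕ) ≠ p := hpp.one_lt.ne
    rw [if_neg hne, mul_zero, zero_add] at h1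
    exact one_ne_zero h1
  have hdeg : P.natDegree ≤ p := by
    rw [hP]
    refine (natDegree_add_le _ _).trans (max_le ?_ ?_)
    · exact (natDegree_C_mul_le _ _).trans (natDegree_X_pow_le p)
    · exact natDegree_X_le.trans hpp.one_lt.le
  refine ⟨P.roots.toFinset, ?_, fun x hx => ?_⟩
  · exact (Multiset.toFinset_card_le _).trans ((card_roots' P).trans hdeg)
  · rw [Multiset.mem_toFinset, mem_roots hP0, IsRoot.def, hP]
    simp only [eval_add, eval_mul, eval_C, eval_pow, eval_X]
    exact hx

section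

variable (p : ℕ) [Fact p.Prime] (k : Type) [Field k] [CharP k p]

/-- Functionals separate a vector from a line not containing it. -/
theorem h39e_exists_functional (x₀ y : k) (hy : ∀ n : ℕ, y ≠ (n : k) * x₀) :
    ∃ l : k →+ ZMod p, l x₀ = 0 ∧ l y = 1 := by
  letI : Algebra (ZMod p) k := ZMod.algebra k p
  have hmem : y ∉ Submodule.span (ZMod p) ({x₀} : Set k) := by
    intro hmem
    rw [Submodule.mem_span_singleton] at hmem
    obtain ⟨c, hc⟩ := hmem
    apply hy c.val
    rw [← hc, Algebra.smul_def]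
    congr 1
    have h1 : (algebraMap (ZMod p) k) c = (ZMod.cast c : k) := rfl
    rw [h1]
    exact (ZMod.natCast_val c).symm
  obtain ⟨f, hf, hW⟩ := Submodule.exists_dual_map_eq_bot_of_notMem hmem inferInstance
  have hx0 : f x₀ = 0 := by
    have h1 : f x₀ ∈ (Submodule.span (ZMod p) ({x₀} : Set k)).map f :=
      Submodule.mem_map_of_mem (Submodule.mem_span_singleton_self x₀)
    rw [hW] at h1
    exact (Submodule.mem_bot _).mp h1
  refine ⟨((f y)⁻¹ • f).toAddMonoidHom, ?_, ?_⟩
  · show ((f y)⁻¹ • f) x₀ = 0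
    rw [LinearMap.smul_apply, hx0, smul_zero]
  · show ((f y)⁻¹ • f) y = 1
    rw [LinearMap.smul_apply, smul_eq_mul, inv_mul_cancel₀ hf]

end

/-- **Endgame of Claim A.** -/
theorem h39e_claimA_end (p : ℕ) [Fact p.Prime] (k : Type) [Field k] [Finite k] [CharP k p]
    {κ : Type*} [Field κ] [CharP κ p] {G : Type*} (I : Set G) (h : G → k)
    (a : (k →+ ZMod p) → κ) (c₁ : κ)
    (ha : ∀ l l' : k →+ ZMod p, a (l + l') = a l + a l')
    (hinj : ∀ l : k →+ ZMod p, a l = 0 → ∀ s ∈ I, l (h s) = 0)
    (hrel : ∀ l : k →+ ZMod p, c₁ * a l ^ p + a l = 0) :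
    ∃ (a₀ : k) (χ : G → ZMod p), ∀ σ ∈ I, h σ = (((χ σ).val : ℕ) : k) * a₀ := by
  classical
  have hpp : p.Prime := Fact.out
  haveI : NeZero p := ⟨hpp.ne_zero⟩
  by_cases hex : ∃ s₀ ∈ I, h s₀ ≠ 0
  swap
  · push Not at hex
    exact ⟨0, fun _ => 0, fun σ hσ => by rw [hex σ hσ, mul_zero]⟩
  obtain ⟨s₀, hs₀, hne⟩ := hex
  set x₀ := h s₀ with hx₀
  -- every value is a multiple of `x₀`
  have key : ∀ σ ∈ I, ∃ n : ℕ, h σ = (n : k) * x₀ := by
    intro σ hσ
    by_contra hcon
    push Not at hcon
    set y := h σ with hy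
    -- `x₀` is not a multiple of `y`
    have hcon' : ∀ n : ℕ, x₀ ≠ (n : k) * y := by
      intro n hn
      have hn0 : (n : k) ≠ 0 := by
        intro h0
        rw [h0, zero_mul] at hn
        exact hne hn
      -- invert `n` modulo `p`
      have hnp : ¬ p ∣ n := fun hd => hn0 ((CharP.cast_eq_zero_iff k p n).mpr hd)
      have hnz : (n : ZMod p) ≠ 0 := by
        intro h0
        exact hnp ((ZMod.natCast_eq_zero_iff n p).mp h0)
      set m : ℕ := ((n : ZMod p)⁻¹).val with hm
      have hmz : ((n * m : ℕ) : ZMod p) = ((1 : ℕ) : ZMod p) := by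
        rw [Nat.cast_mul, hm, ZMod.natCast_zmod_val, mul_inv_cancel₀ hnz, Nat.cast_one]
      have hmk : ((n * m : ℕ) : k) = 1 := by
        have h1 : ((n * m : ℕ) : k) = ((1 : ℕ) : k) := by
          rw [(CharP.natCast_eq_natCast k p)]
          exact (ZMod.natCast_eq_natCast_iff _ _ p).mp hmz
        rw [h1, Nat.cast_one]
      apply hcon m
      rw [hn, ← mul_assoc, ← Nat.cast_mul, mul_comm m n, hmk, one_mul]
    obtain ⟨f', hf'0, hf'1⟩ := h39e_exists_functional p k x₀ y hcon
    obtain ⟨f, hf0, hf1⟩ := h39e_exists_functional p k y x₀ hcon'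
    -- `f x₀ = 1, f y = 0, f' x₀ = 0, f' y = 1`
    obtain ⟨R, hRcard, hR⟩ := h39e_roots_finite p c₁
    let Φ : ZMod p × ZMod p → R := fun ij =>
      ⟨a (ij.1.val • f + ij.2.val • f'), hR _ (hrel _)⟩
    have hzero : a 0 = 0 := by
      have := ha 0 0
      rw [add_zero] at this
      exact left_eq_add.mp this
    have hneg : ∀ l, a (-l) = - a l := by
      intro l
      have := ha l (-l)
      rw [add_neg_cancel, hzero] at this
      exact eq_neg_of_add_eq_zero_right this.symm
    have hΦ : Function.Injective Φ := by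
      rintro ⟨i, j⟩ ⟨i', j'⟩ hEq
      have h1 : a (i.val • f + j.val • f') = a (i'.val • f + j'.val • f') :=
        congrArg Subtype.val hEq
      have h2 : a ((i.val • f + j.val • f') + -(i'.val • f + j'.val • f')) = 0 := by
        rw [ha, hneg, h1, add_neg_cancel]
      have h3 := hinj _ h2 s₀ hs₀
      have h4 := hinj _ h2 σ hσ
      rw [← hx₀] at h3
      rw [← hy] at h4
      simp only [AddMonoidHom.add_apply, AddMonoidHom.neg_apply, AddMonoidHom.coe_smul,
        Pi.smul_apply, hf0, hf1, hf'0, hf'1, smul_zero, add_zero, zero_add, nsmul_eq_mul,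
        mul_one, ZMod.natCast_val, ZMod.cast_id', id_eq] at h3 h4
      have hi : i = i' := by
        rw [← sub_eq_add_neg] at h3
        exact sub_eq_zero.mp h3
      have hj : j = j' := by
        rw [← sub_eq_add_neg] at h4
        exact sub_eq_zero.mp h4
      rw [hi, hj]
    have hcard := Fintype.card_le_of_injective Φ hΦ
    rw [Fintype.card_prod, ZMod.card, Fintype.card_coe] at hcard
    have : p * p ≤ p := hcard.trans hRcard
    have h2 := hpp.two_le
    nlinarith
  choose! n hn using key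
  refine ⟨x₀, fun σ => (n σ : ZMod p), fun σ hσ => ?_⟩
  rw [hn σ hσ]
  congr 1
  rw [ZMod.val_natCast, (CharP.natCast_eq_natCast k p)]
  exact (Nat.mod_modEq _ _).symm

end Fermat.Agent.S56F
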