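import Fermat.Agent.S56F.KumPow_helper97
import Fermat.Agent.S56F.FLO8Kum_helper34
import Fermat.Agent.S56F.FLK1_helper10
import Fermat.Agent.S56F.FLK2_helper83
import Fermat.Agent.S56F.FLC5Final_helper89
import Fermat.Agent.S56F.FLD4_helper7
import Fermat.Agent.S56F.FLS2Aend_helper39

/-!
# S56 / LOC-p-FL, row FL-S2A (helper1): the level-one coefficient calculus over `K₁`

`K₁ = ℚ_p^ur(π)`, `π ^ (p - 1) = p`, `I_K = IK p π`, `ζ` a primitive `p`-th root of unity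
(fixed by `I_K`).  For a character `χ` of inertia (additive on inertia, continuous):

* `h1a_Gen π ζ χ β`  : `β` is a Kummer generator of `χ` on `I_K`;
* `h1a_Lev π ζ χ j`  : a generator with `‖β ^ p - 1‖ ≤ ‖π‖ ^ j`;
* `h1a_Coef π ζ χ a` : a generator with `‖β ^ p - 1 - a π‖ < ‖π‖` (level-one coefficient).
-/

set_option autoImplicit false
set_option linter.style.haveILetI false
set_option linter.unusedSectionVars false

open Fermat.Agent.PT.Loc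

noncomputable section

namespace Fermat.Agent.S56F

variable {p : ℕ} [Fact p.Prime]

/-! ## Basic facts -/

theorem h1a_n_pos (p : ℕ) [Fact p.Prime] : 0 < p - 1 := by
  have := (Fact.out : p.Prime).two_le
  omega

theorem h1a_not_dvd (p : ℕ) [Fact p.Prime] : ¬ p ∣ p - 1 := fun h => by
  have h1 := Nat.le_of_dvd (h1a_n_pos p) h
  have := (Fact.out : p.Prime).two_le
  omega

theorem h1a_pi_pos {π : Om p} (hπ : π ^ (p - 1) = p) : 0 < ‖π‖ := h97k_norm_pi_pos hπ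

theorem h1a_pi_lt_one {π : Om p} (hπ : π ^ (p - 1) = p) : ‖π‖ < 1 := h97k_norm_pi_lt_one hπ

theorem h1a_pi_ne_zero {π : Om p} (hπ : π ^ (p - 1) = p) : π ≠ 0 :=
  norm_pos_iff.mp (h1a_pi_pos hπ)

theorem h1a_pi_pow_pos {π : Om p} (hπ : π ^ (p - 1) = p) (j : ℕ) : 0 < ‖π‖ ^ j :=
  pow_pos (h1a_pi_pos hπ) j

theorem h1a_pi_pow_anti {π : Om p} (hπ : π ^ (p - 1) = p) {i j : ℕ} (h : i ≤ j) :
    ‖π‖ ^ j ≤ ‖π‖ ^ i :=
  pow_le_pow_of_le_one (norm_nonneg _) (h1a_pi_lt_one hπ).le h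

theorem h1a_pi_pow_succ_lt {π : Om p} (hπ : π ^ (p - 1) = p) (j : ℕ) :
    ‖π‖ ^ (j + 1) < ‖π‖ ^ j := by
  rw [pow_succ]
  calc ‖π‖ ^ j * ‖π‖ < ‖π‖ ^ j * 1 :=
        mul_lt_mul_of_pos_left (h1a_pi_lt_one hπ) (h1a_pi_pow_pos hπ j)
    _ = ‖π‖ ^ j := mul_one _

/-- the integers of `K₁` are discrete with uniformiser `π`. -/
theorem h1a_disc {π : Om p} (hπ : π ^ (p - 1) = p) : IsDiscrete p (IK p π) π :=
  h45g_tameDiscrete p (p - 1) (h1a_n_pos p) (h1a_not_dvd p) π hπ (IK p π) (fun _ => mem_IK)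

/-- discreteness: an element fixed by `I_K` of norm `< ‖π‖ ^ j` has norm `≤ ‖π‖ ^ (j + 1)`. -/
theorem h1a_disc_step {π : Om p} (hπ : π ^ (p - 1) = p) {x : Om p}
    (hfix : ∀ g ∈ IK p π, g x = x) {j : ℕ} (hx : ‖x‖ < ‖π‖ ^ j) :
    ‖x‖ ≤ ‖π‖ ^ (j + 1) := by
  obtain ⟨-, hπ1, hπ0, hdisc⟩ := h1a_disc hπ
  by_cases hx0 : x = 0
  · rw [hx0, norm_zero]
    exact (h1a_pi_pow_pos hπ _).le
  · have hx1 : ‖x‖ ≤ 1 := hx.le.trans (pow_le_one₀ (norm_nonneg _) hπ1.le)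
    obtain ⟨n, u, -, hu, rfl⟩ := hdisc x ⟨hx1, hfix⟩ hx0
    rw [norm_mul, hu, mul_one, norm_pow] at hx ⊢
    have hn : j < n := by
      by_contra hle
      rw [not_lt] at hle
      exact absurd hx (not_lt.mpr (h1a_pi_pow_anti hπ hle))
    exact h1a_pi_pow_anti hπ hn

/-- a natural number congruent to `1` modulo the maximal ideal is `1` modulo `p`. -/
theorem h1a_natCast_eq_of_norm_lt {a b : ℕ} (h : ‖(a : Om p) - (b : Om p)‖ < 1) :
    (a : ZMod p) = (b : ZMod p) := by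
  have h1 : (a : Om p) - (b : Om p) = algebraMap ℚ_[p] (Om p) (((a : ℤ) - (b : ℤ) : ℤ) : ℚ_[p]) := by
    simp
  rw [h1, norm_algebraMap', Padic.norm_intCast_lt_one_iff] at h
  have h2 : (((a : ℤ) - (b : ℤ) : ℤ) : ZMod p) = 0 :=
    (ZMod.intCast_zmod_eq_zero_iff_dvd _ p).mpr h
  push_cast at h2
  exact sub_eq_zero.mp h2

/-- `I_K` fixes the `p`-th roots of unity. -/
theorem h1a_IK_cycExp (hp2 : p ≠ 2) {π : Om p} (hπ : π ^ (p - 1) = p) {g : Gq p}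
    (hg : g ∈ IK p π) : cycExp p g 1 := by
  obtain ⟨ζ, hζ⟩ := h7c_exists_primitiveRoot p
  have hcyc := h34k_cycExp_val hζ g
  have h1 := h7c_cycFund p hp2 (p - 1) (h1a_n_pos p) (h1a_not_dvd p) dvd_rfl π hπ g
    (mem_IK.mp hg).1 _ hcyc
  rw [Nat.div_self (h1a_n_pos p), pow_one, (mem_IK.mp hg).2, div_self (h1a_pi_ne_zero hπ)] at h1
  rw [h34k_cycExp_iff hζ]
  have h2 : ‖((1 : ℕ) : Om p) - ((((h34k_chi hζ g : (ZMod p)ˣ) : ZMod p).val : ℕ) : Om p)‖ < 1 := by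
    rw [Nat.cast_one]
    exact h1
  have h3 := h1a_natCast_eq_of_norm_lt h2
  rw [h3, ZMod.natCast_zmod_val]

theorem h1a_IK_fix_root (hp2 : p ≠ 2) {π : Om p} (hπ : π ^ (p - 1) = p) {g : Gq p}
    (hg : g ∈ IK p π) {μ : Om p} (hμ : μ ^ p = 1) : g μ = μ :=
  h34k_cycExp_one_fix (h1a_IK_cycExp hp2 hπ hg) hμ

/-! ## Generators, levels, coefficients -/

/-- `β` is a Kummer generator (with respect to `ζ`) of the character `χ` on `I_K`. -/
def h1a_Gen (p : ℕ) [Fact p.Prime] (π ζ : Om p) (χ : Gq p → ZMod p) (β : Om p) : Prop :=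
  ∀ g ∈ IK p π, g β = ζ ^ (χ g).val * β

/-- `χ` has level `≥ j`. -/
def h1a_Lev (p : ℕ) [Fact p.Prime] (π ζ : Om p) (χ : Gq p → ZMod p) (j : ℕ) : Prop :=
  ∃ β : Om p, h1a_Gen p π ζ χ β ∧ ‖β ^ p - 1‖ ≤ ‖π‖ ^ j

/-- `a` is a coefficient of `χ` at level one. -/
def h1a_Coef (p : ℕ) [Fact p.Prime] (π ζ : Om p) (χ : Gq p → ZMod p) (a : Om p) : Prop :=
  ∃ β : Om p, h1a_Gen p π ζ χ β ∧ ‖β ^ p - 1 - a * π‖ < ‖π‖

theorem h1a_gen_ext {π ζ : Om p} {χ χ' : Gq p → ZMod p}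
    (h : ∀ g ∈ IK p π, χ g = χ' g) {β : Om p} (hβ : h1a_Gen p π ζ χ β) :
    h1a_Gen p π ζ χ' β := by
  intro g hg
  rw [← h g hg]
  exact hβ g hg

theorem h1a_coef_ext {π ζ : Om p} {χ χ' : Gq p → ZMod p}
    (h : ∀ g ∈ IK p π, χ g = χ' g) {a : Om p} (hl : h1a_Coef p π ζ χ a) :
    h1a_Coef p π ζ χ' a := by
  obtain ⟨β, hβ, hx⟩ := hl
  exact ⟨β, h1a_gen_ext h hβ, hx⟩

/-- `β ^ p` is fixed by `I_K` for a generator `β`. -/
theorem h1a_gen_pow_fix {π ζ : Om p} (hζ : ζ ^ p = 1) {χ : Gq p → ZMod p} {β : Om p}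
    (hβ : h1a_Gen p π ζ χ β) : ∀ g ∈ IK p π, g (β ^ p) = β ^ p := by
  intro g hg
  rw [map_pow, hβ g hg, mul_pow, ← pow_mul, mul_comm (χ g).val p, pow_mul, hζ, one_pow,
    one_mul]

/-- a coefficient gives level one. -/
theorem h1a_coef_norm {π : Om p} {a x : Om p}
    (ha : ‖a‖ ≤ 1) (hx : ‖x - 1 - a * π‖ < ‖π‖) : ‖x - 1‖ ≤ ‖π‖ := by
  have h1 : x - 1 = (x - 1 - a * π) + a * π := by ring
  rw [h1]
  refine (IsUltrametricDist.norm_add_le_max _ _).trans (max_le hx.le ?_)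
  rw [norm_mul]
  calc ‖a‖ * ‖π‖ ≤ 1 * ‖π‖ := mul_le_mul_of_nonneg_right ha (norm_nonneg _)
    _ = ‖π‖ := one_mul _

/-- an element close to `1` has norm `1`. -/
theorem h1a_norm_eq_one {x : Om p} (h : ‖x - 1‖ < 1) : ‖x‖ = 1 := by
  have h1 : ‖x - 1‖ ≠ ‖(1 : Om p)‖ := by rw [norm_one]; exact h.ne
  have h2 := IsUltrametricDist.norm_add_eq_max_of_norm_ne_norm h1
  rw [sub_add_cancel, norm_one, max_eq_right h.le] at h2
  exact h2

theorem h1a_norm_eq_one_of_le {π : Om p} (hπ : π ^ (p - 1) = p) {x : Om p}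
    (h : ‖x - 1‖ ≤ ‖π‖) : ‖x‖ = 1 :=
  h1a_norm_eq_one (lt_of_le_of_lt h (h1a_pi_lt_one hπ))

/-- the coefficient only matters modulo the maximal ideal. -/
theorem h1a_coef_congr {π ζ : Om p} (hπ : π ^ (p - 1) = p) {χ : Gq p → ZMod p}
    {a a' : Om p} (h : h1a_Coef p π ζ χ a) (haa : ‖a - a'‖ < 1) :
    h1a_Coef p π ζ χ a' := by
  obtain ⟨β, hβ, hx⟩ := h
  refine ⟨β, hβ, ?_⟩
  have h1 : β ^ p - 1 - a' * π = (β ^ p - 1 - a * π) + (a - a') * π := by ring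
  rw [h1]
  refine lt_of_le_of_lt (IsUltrametricDist.norm_add_le_max _ _) (max_lt hx ?_)
  rw [norm_mul]
  calc ‖a - a'‖ * ‖π‖ < 1 * ‖π‖ := mul_lt_mul_of_pos_right haa (h1a_pi_pos hπ)
    _ = ‖π‖ := one_mul _

/-- powers of `ζ` add. -/
theorem h1a_zeta_add {ζ : Om p} (hζ : ζ ^ p = 1) (c d : ZMod p) :
    ζ ^ (c + d).val = ζ ^ c.val * ζ ^ d.val := by
  haveI : NeZero p := ⟨(Fact.out : p.Prime).ne_zero⟩
  rw [ZMod.val_add, ← pow_add]
  exact (h34k_pow_mod hζ _).symm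

/-- **additivity** of the level-one coefficient. -/
theorem h1a_coef_add {π ζ : Om p} (hπ : π ^ (p - 1) = p) (hζ : ζ ^ p = 1)
    {χ χ' : Gq p → ZMod p} {a a' : Om p} (ha : ‖a‖ ≤ 1) (ha' : ‖a'‖ ≤ 1)
    (h : h1a_Coef p π ζ χ a) (h' : h1a_Coef p π ζ χ' a') :
    h1a_Coef p π ζ (fun g => χ g + χ' g) (a + a') := by
  obtain ⟨β, hβ, hx⟩ := h
  obtain ⟨β', hβ', hx'⟩ := h'
  refine ⟨β * β', ?_, ?_⟩
  · intro g hg
    rw [map_mul, hβ g hg, hβ' g hg, h1a_zeta_add hζ]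
    ring
  · have h1 : (β * β') ^ p - 1 - (a + a') * π =
        (β ^ p - 1 - a * π) + (β' ^ p - 1 - a' * π) + (β ^ p - 1) * (β' ^ p - 1) := by
      ring
    rw [h1]
    have h2 : ‖(β ^ p - 1) * (β' ^ p - 1)‖ < ‖π‖ := by
      rw [norm_mul]
      have hA := h1a_coef_norm ha hx
      have hB := h1a_coef_norm ha' hx'
      calc ‖β ^ p - 1‖ * ‖β' ^ p - 1‖ ≤ ‖π‖ * ‖π‖ :=
            mul_le_mul hA hB (norm_nonneg _) (norm_nonneg _)
        _ < ‖π‖ * 1 := mul_lt_mul_of_pos_left (h1a_pi_lt_one hπ) (h1a_pi_pos hπ)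
        _ = ‖π‖ := mul_one _
    refine lt_of_le_of_lt (IsUltrametricDist.norm_add_le_max _ _) (max_lt ?_ h2)
    exact lt_of_le_of_lt (IsUltrametricDist.norm_add_le_max _ _) (max_lt hx hx')

/-- the zero character has coefficient `0`. -/
theorem h1a_coef_zero {π ζ : Om p} (hπ : π ^ (p - 1) = p) :
    h1a_Coef p π ζ (fun _ => 0) 0 := by
  refine ⟨1, fun g _ => ?_, ?_⟩
  · rw [map_one, ZMod.val_zero, pow_zero, one_mul]
  · rw [one_pow, sub_self, zero_mul, sub_zero, norm_zero]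
    exact h1a_pi_pos hπ

/-- a generator whose `p`-th power is close to `1` is not zero. -/
theorem h1a_gen_ne_zero {β : Om p} (h : ‖β ^ p - 1‖ < 1) : β ≠ 0 := by
  rintro rfl
  have hp := (Fact.out : p.Prime)
  rw [zero_pow hp.ne_zero, zero_sub, norm_neg, norm_one] at h
  exact lt_irrefl _ h

/-- the quotient of two generators of the same character is fixed by `I_K`. -/
theorem h1a_gen_div_fix {π ζ : Om p} (hζ : ζ ^ p = 1) {χ : Gq p → ZMod p} {β β' : Om p}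
    (hβ : h1a_Gen p π ζ χ β) (hβ' : h1a_Gen p π ζ χ β') :
    ∀ g ∈ IK p π, g (β' / β) = β' / β := by
  intro g hg
  have hζ0 : ζ ≠ 0 := by
    rintro rfl
    rw [zero_pow (Fact.out : p.Prime).ne_zero] at hζ
    exact zero_ne_one hζ
  rw [map_div₀, hβ g hg, hβ' g hg, mul_div_mul_left _ _ (pow_ne_zero _ hζ0)]

/-- **uniqueness** of the level-one coefficient modulo the maximal ideal. -/
theorem h1a_coef_uniq {π ζ : Om p} (hπ : π ^ (p - 1) = p) (hζ : ζ ^ p = 1)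
    {χ : Gq p → ZMod p} {a a' : Om p} (ha : ‖a‖ ≤ 1) (ha' : ‖a'‖ ≤ 1)
    (h : h1a_Coef p π ζ χ a) (h' : h1a_Coef p π ζ χ a') : ‖a - a'‖ < 1 := by
  have hp := (Fact.out : p.Prime)
  obtain ⟨β, hβ, hx⟩ := h
  obtain ⟨β', hβ', hx'⟩ := h'
  have hA := h1a_coef_norm ha hx
  have hB := h1a_coef_norm ha' hx'
  have hx1 : ‖β ^ p‖ = 1 := h1a_norm_eq_one_of_le hπ hA
  have hβ0 : β ≠ 0 := h1a_gen_ne_zero (lt_of_le_of_lt hA (h1a_pi_lt_one hπ))
  have hxne : β ^ p ≠ 0 := pow_ne_zero _ hβ0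
  have hcfix := h1a_gen_div_fix hζ hβ hβ'
  have hcp : (β' / β) ^ p - 1 = (β' ^ p - β ^ p) / β ^ p := by
    rw [div_pow]
    field_simp
  have hd : ‖β' ^ p - β ^ p‖ ≤ ‖π‖ := by
    have h1 : β' ^ p - β ^ p = (β' ^ p - 1) - (β ^ p - 1) := by ring
    rw [h1]
    exact (h34k_norm_sub_le_max _ _).trans (max_le hB hA)
  have hc1 : ‖(β' / β) ^ p - 1‖ ≤ ‖π‖ ^ 1 := by
    rw [hcp, norm_div, hx1, div_one, pow_one]
    exact hd
  have hjm : 1 < p * ((p - 1) / (p - 1)) := by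
    rw [Nat.div_self (h1a_n_pos p), mul_one]
    exact hp.one_lt
  have hc2 := h97k_powLevel (h1a_n_pos p) (h1a_not_dvd p) dvd_rfl hπ (β' / β) hcfix 1
    (fun h => hp.one_lt.ne' (Nat.dvd_one.mp h)) hjm hc1
  rw [hcp, norm_div, hx1, div_one] at hc2
  have hd2 : ‖β' ^ p - β ^ p‖ < ‖π‖ := lt_of_le_of_lt hc2 (by
    have := h1a_pi_pow_succ_lt hπ 1
    rwa [pow_one] at this)
  have h3 : (a' - a) * π = (β' ^ p - β ^ p) - (β' ^ p - 1 - a' * π) + (β ^ p - 1 - a * π) := by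
    ring
  have h4 : ‖(a' - a) * π‖ < ‖π‖ := by
    rw [h3]
    refine lt_of_le_of_lt (IsUltrametricDist.norm_add_le_max _ _) (max_lt ?_ hx)
    exact lt_of_le_of_lt (h34k_norm_sub_le_max _ _) (max_lt hd2 hx')
  rw [norm_mul, norm_sub_rev] at h4
  by_contra hge
  rw [not_lt] at hge
  have : ‖π‖ ≤ ‖a - a'‖ * ‖π‖ := by
    calc ‖π‖ = 1 * ‖π‖ := (one_mul _).symm
      _ ≤ ‖a - a'‖ * ‖π‖ := mul_le_mul_of_nonneg_right hge (norm_nonneg _)
  exact absurd h4 (not_lt.mpr this)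

/-- **the top**: level `≥ p` means `χ = 0` on `I_K`. -/
theorem h1a_lev_top (hp2 : p ≠ 2) {π ζ : Om p} (hπ : π ^ (p - 1) = p)
    (hζ : IsPrimitiveRoot ζ p) {χ : Gq p → ZMod p} (h : h1a_Lev p π ζ χ p) :
    ∀ g ∈ IK p π, χ g = 0 := by
  have hp := (Fact.out : p.Prime)
  haveI : NeZero p := ⟨hp.ne_zero⟩
  obtain ⟨β, hβ, hx⟩ := h
  have hx' : ‖β ^ p - 1‖ ≤ ‖π‖ ^ (p * ((p - 1) / (p - 1))) := by
    rw [Nat.div_self (h1a_n_pos p), mul_one]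
    exact hx
  have hlt : ‖β ^ p - 1‖ < 1 :=
    lt_of_le_of_lt hx (pow_lt_one₀ (norm_nonneg _) (h1a_pi_lt_one hπ) hp.ne_zero)
  have hβ0 : β ≠ 0 := h1a_gen_ne_zero hlt
  obtain ⟨b, hb, hbp⟩ := h97k_topLevel (h1a_n_pos p) (h1a_not_dvd p) dvd_rfl hπ (β ^ p)
    (h1a_gen_pow_fix hζ.pow_eq_one hβ) hx'
  have hb0 : b ≠ 0 := by
    rintro rfl
    rw [zero_pow hp.ne_zero] at hbp
    exact pow_ne_zero _ hβ0 hbp.symm
  have hμ : (β / b) ^ p = 1 := by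
    rw [div_pow, hbp, div_self (pow_ne_zero _ hβ0)]
  intro g hg
  have h1 : g (β / b) = β / b := h1a_IK_fix_root hp2 hπ hg hμ
  rw [map_div₀, hb g hg, hβ g hg, mul_div_assoc] at h1
  have h2 : β / b ≠ 0 := div_ne_zero hβ0 hb0
  have h3 : ζ ^ (χ g).val = 1 := by
    have := mul_right_cancel₀ h2 (h1.trans (one_mul _).symm)
    exact this
  have h4 := (h34k_pow_eq_iff hζ (χ g).val 0).mp (by rw [h3, pow_zero])
  rw [ZMod.natCast_zmod_val, Nat.cast_zero] at h4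
  exact h4

/-! ## Conjugation -/

/-- conjugation: if `s π = w π` (`w` a root of unity of order prime to `p`), `s` acts on `μ_p`
through `m` and `n m ≡ 1 mod p`, then `(s β) ^ n` generates `g ↦ χ (s⁻¹ g s)`. -/
theorem h1a_gen_conj {π ζ : Om p} (hζ : ζ ^ p = 1) {s : Gq p} {w : Om p}
    (hw : h84u_IsMu p w) (hs : s π = w * π) {m n : ℕ} (hm : cycExp p s m)
    (hmn : ((n * m : ℕ) : ZMod p) = 1) {χ : Gq p → ZMod p} {β : Om p}
    (hβ : h1a_Gen p π ζ χ β) :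
    h1a_Gen p π ζ (fun g => χ (s⁻¹ * g * s)) ((s β) ^ n) := by
  intro g hg
  have hg' : s⁻¹ * g * s ∈ IK p π := by
    refine mem_IK.mpr ⟨h34k_conj_mem_inertia' (mem_IK.mp hg).1 s, ?_⟩
    rw [AlgEquiv.mul_apply, AlgEquiv.mul_apply, hs, map_mul, h84u_isMu_fix hw (mem_IK.mp hg).1,
      (mem_IK.mp hg).2, ← hs, h34k_inv_apply']
  have h1 : g (s β) = s ((s⁻¹ * g * s) β) := by
    rw [← AlgEquiv.mul_apply, ← AlgEquiv.mul_apply]
    congr 1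
    group
  have h2 : g (s β) = (ζ ^ m) ^ (χ (s⁻¹ * g * s)).val * s β := by
    rw [h1, hβ _ hg', map_mul, map_pow, hm ζ hζ]
  rw [map_pow, h2, mul_pow]
  congr 1
  rw [← pow_mul, ← pow_mul]
  apply h34k_root_pow_eq hζ
  change ((m * ((χ (s⁻¹ * g * s)).val * n) : ℕ) : ZMod p) =
    (((χ (s⁻¹ * g * s)).val : ℕ) : ZMod p)
  have hmn' := hmn
  rw [Nat.cast_mul] at hmn'
  rw [Nat.cast_mul, Nat.cast_mul]
  linear_combination ((((χ (s⁻¹ * g * s)).val : ℕ) : ZMod p)) * hmn'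

/-- a character which is additive on inertia is invariant under conjugation by inertia. -/
theorem h1a_chi_conj {χ : Gq p → ZMod p}
    (hadd : ∀ σ ∈ inertia p, ∀ τ ∈ inertia p, χ (σ * τ) = χ σ + χ τ) {t g : Gq p}
    (ht : t ∈ inertia p) (hg : g ∈ inertia p) : χ (t⁻¹ * g * t) = χ g := by
  have ht' := (inertia p).inv_mem ht
  rw [hadd _ ((inertia p).mul_mem ht' hg) _ ht, hadd _ ht' _ hg]
  have h1 := hadd t⁻¹ ht' t ht
  have h0 : χ 1 = 0 := by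
    have := hadd 1 (inertia p).one_mem 1 (inertia p).one_mem
    rw [mul_one] at this
    exact add_eq_left.mp this.symm
  rw [inv_mul_cancel, h0] at h1
  have h2 : χ t⁻¹ + χ g + χ t = χ g + (χ t⁻¹ + χ t) := by ring
  rw [h2, ← h1, add_zero]

/-- the binomial estimate `‖(1 + z) ^ n - 1 - n z‖ ≤ ‖z‖ ^ 2`. -/
theorem h1a_binom_lin {z : Om p} (hz : ‖z‖ ≤ 1) (n : ℕ) :
    ‖(1 + z) ^ n - 1 - (n : Om p) * z‖ ≤ ‖z‖ ^ 2 := by
  induction n with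
  | zero => simp
  | succ n ih =>
    have h1 : (1 + z) ^ (n + 1) - 1 - ((n + 1 : ℕ) : Om p) * z =
        (1 + z) * ((1 + z) ^ n - 1 - (n : Om p) * z) + (n : Om p) * z ^ 2 := by
      push_cast
      ring
    rw [h1]
    refine (IsUltrametricDist.norm_add_le_max _ _).trans (max_le ?_ ?_)
    · rw [norm_mul]
      have h2 : ‖1 + z‖ ≤ 1 :=
        (IsUltrametricDist.norm_add_le_max _ _).trans (max_le (by rw [norm_one]) hz)
      calc ‖1 + z‖ * ‖(1 + z) ^ n - 1 - (n : Om p) * z‖ ≤ 1 * ‖z‖ ^ 2 :=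
            mul_le_mul h2 ih (norm_nonneg _) zero_le_one
        _ = ‖z‖ ^ 2 := one_mul _
    · rw [norm_mul, norm_pow]
      calc ‖(n : Om p)‖ * ‖z‖ ^ 2 ≤ 1 * ‖z‖ ^ 2 :=
            mul_le_mul_of_nonneg_right (h34k_norm_natCast_le n) (pow_nonneg (norm_nonneg _) _)
        _ = ‖z‖ ^ 2 := one_mul _

/-- a generator `t` of the tame quotient: `t π = w π` with `w` a primitive `(p - 1)`-th root of
unity, `t` acts on `μ_p` through `m ≡ w`, and `n m ≡ 1`. -/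
theorem h1a_exists_t (hp2 : p ≠ 2) {π : Om p} (hπ : π ^ (p - 1) = p) :
    ∃ (t : Gq p) (w : Om p) (m n : ℕ), t ∈ inertia p ∧ IsPrimitiveRoot w (p - 1) ∧
      t π = w * π ∧ cycExp p t m ∧ ((n * m : ℕ) : ZMod p) = 1 ∧
      ‖(n : Om p) * w - 1‖ < 1 := by
  have hp := (Fact.out : p.Prime)
  haveI : NeZero p := ⟨hp.ne_zero⟩
  have hn := h1a_n_pos p
  have hdeg : (Polynomial.cyclotomic (p - 1) (Om p)).degree ≠ 0 := by
    rw [Polynomial.degree_cyclotomic]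
    have h3 : Nat.totient (p - 1) ≠ 0 := (Nat.totient_pos.mpr hn).ne'
    exact_mod_cast h3
  haveI : NeZero (((p - 1 : ℕ)) : Om p) := ⟨by
    have h1 : (((p - 1 : ℕ)) : Om p) = algebraMap ℚ_[p] (Om p) ((p - 1 : ℕ) : ℚ_[p]) := by simp
    rw [h1]
    intro h0
    have h2 : ((p - 1 : ℕ) : ℚ_[p]) = 0 :=
      (map_eq_zero_iff _ (algebraMap ℚ_[p] (Om p)).injective).mp h0
    exact hn.ne' (by exact_mod_cast h2)⟩
  obtain ⟨w, hw'⟩ := IsAlgClosed.exists_root (Polynomial.cyclotomic (p - 1) (Om p)) hdeg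
  have hw : IsPrimitiveRoot w (p - 1) := Polynomial.isRoot_cyclotomic_iff.mp hw'
  obtain ⟨t, ht, htπ⟩ := h89f_fundSurjective p (p - 1) hn (h1a_not_dvd p) π hπ w hw.pow_eq_one
  obtain ⟨ζ, hζ⟩ := h7c_exists_primitiveRoot p
  set c : (ZMod p)ˣ := h34k_chi hζ t with hc
  have hcyc : cycExp p t ((c : ZMod p)).val := h34k_cycExp_val hζ t
  have h1 := h7c_cycFund p hp2 (p - 1) hn (h1a_not_dvd p) dvd_rfl π hπ t ht _ hcyc
  rw [Nat.div_self hn, pow_one, htπ, mul_div_assoc, div_self (h1a_pi_ne_zero hπ), mul_one] at h1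
  have hmn : (((((c⁻¹ : (ZMod p)ˣ) : ZMod p)).val * ((c : ZMod p)).val : ℕ) : ZMod p) = 1 := by
    rw [Nat.cast_mul, ZMod.natCast_zmod_val, ZMod.natCast_zmod_val, ← Units.val_mul,
      inv_mul_cancel, Units.val_one]
  refine ⟨t, w, ((c : ZMod p)).val, (((c⁻¹ : (ZMod p)ˣ) : ZMod p)).val, ht, hw, htπ, hcyc,
    hmn, ?_⟩
  set m := ((c : ZMod p)).val
  set n := (((c⁻¹ : (ZMod p)ˣ) : ZMod p)).val
  have h2 : (n : Om p) * w - 1 = (n : Om p) * (w - (m : Om p)) +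
      (((n * m : ℕ) : Om p) - ((1 : ℕ) : Om p)) := by
    push_cast
    ring
  rw [h2]
  refine lt_of_le_of_lt (IsUltrametricDist.norm_add_le_max _ _) (max_lt ?_ ?_)
  · rw [norm_mul]
    calc ‖(n : Om p)‖ * ‖w - (m : Om p)‖ ≤ 1 * ‖w - (m : Om p)‖ :=
          mul_le_mul_of_nonneg_right (h34k_norm_natCast_le n) (norm_nonneg _)
      _ < 1 := by rw [one_mul]; exact h1
  · apply h34k_norm_natCast_sub_lt
    rw [hmn, Nat.cast_one]

/-- the eigencharacter at level `j` is `ω` only for `j ≡ 1 mod p - 1`. -/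
theorem h1a_eigen_dvd {w : Om p} (hw : IsPrimitiveRoot w (p - 1)) {n : ℕ}
    (hnw : ‖(n : Om p) * w - 1‖ < 1) {j : ℕ} (hj : 1 ≤ j)
    (h : ‖(n : Om p) * w ^ j - 1‖ < 1) : (p - 1) ∣ (j - 1) := by
  have hw1 : ‖w‖ = 1 := h36u_norm_eq_one_of_pow (h1a_n_pos p) hw.pow_eq_one
  have h1 : w ^ (j - 1) - 1 = ((n : Om p) * w ^ j - 1) - ((n : Om p) * w - 1) * w ^ (j - 1) := by
    obtain ⟨i, rfl⟩ : ∃ i, j = i + 1 := ⟨j - 1, by omega⟩
    rw [Nat.add_sub_cancel, pow_succ]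
    ring
  have h2 : ‖w ^ (j - 1) - 1‖ < 1 := by
    rw [h1]
    refine lt_of_le_of_lt (h34k_norm_sub_le_max _ _) (max_lt h ?_)
    rw [norm_mul, norm_pow, hw1, one_pow, mul_one]
    exact hnw
  have h3 : (w ^ (j - 1)) ^ (p - 1) = 1 := by
    rw [← pow_mul, mul_comm, pow_mul, hw.pow_eq_one, one_pow]
  have h4 : w ^ (j - 1) = 1 := h34k_root_eq_one (h1a_not_dvd p) h3 h2
  exact (hw.pow_eq_one_iff_dvd (j - 1)).mp h4

end Fermat.Agent.S56F
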