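import Fermat.Agent.S56F.IfaceKum
import Fermat.Agent.S56F.FLK1_helper10
import Fermat.Agent.S56F.FLK2_helper83
import Fermat.Agent.S56F.FLD4_helper7
import Fermat.Agent.S56F.FLD7_helper45
import Fermat.Agent.S56F.FLC5Final_helper89
import Fermat.Agent.S56F.FLO8_helper34
import Fermat.Agent.S56F.FLO8b_helper84

/-!
# S56 / LOC-p-FL, row FL-S2A (helper49): Claim A

`h49a_ssClaimA : SSClaimA` : a continuous homomorphism `h : inertia → k` which is anti-invariant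
under a Frobenius has its image in an `𝔽_p`-line.

Route (norm-based Kummer level calculus over `K = ℚ_p^ur(π)`, `π ^ (p-1) = p`, `q = ‖π‖`):
* reduction to `I_K` (`σ ^ (p-1) ∈ I_K`) and to pairs of characters `l ∘ h` (functionals
  separate points);
* Kummer generators (FL-K1), normal form (FL-K2), `m = 0` by the eigen-property under a
  generator `t₀` of `inertia / I_K` and discreteness (FL-D7);
* levels `2 .. p-1` are excluded by the eigen-property (`θ(t₀) ^ j ≡ ω(t₀)` forces `j = 1`),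
  level `≥ p` is trivial (some root of `X ^ p = u` is `≡ 1` modulo `π`, and inertia acts
  trivially on residues);
* Frobenius: the ratio of two level-one coefficients is fixed by Frobenius modulo `𝔪`, hence
  congruent to an integer.
-/

set_option autoImplicit false
set_option linter.style.haveILetI false
set_option linter.unusedSectionVars false
set_option linter.unusedVariables false

open Fermat.Agent.PT.Loc

noncomputable section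

namespace Fermat.Agent.S56F

variable {p : ℕ} [Fact p.Prime]

/-! ## Basic facts -/

theorem h49a_pm1_pos : 0 < p - 1 := by
  have := (Fact.out : p.Prime).two_le
  omega

theorem h49a_not_dvd_pm1 : ¬ p ∣ p - 1 := fun h => by
  have h1 := Nat.le_of_dvd (h49a_pm1_pos (p := p)) h
  have := (Fact.out : p.Prime).two_le
  omega

theorem h49a_p_ne_zero : (p : Om p) ≠ 0 := by
  exact_mod_cast (Fact.out : p.Prime).ne_zero

/-- natural numbers congruent modulo `𝔪` are congruent modulo `p`. -/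
theorem h49a_natCast_eq_of_norm_sub_lt {a b : ℕ} (h : ‖(a : Om p) - (b : Om p)‖ < 1) :
    (a : ZMod p) = (b : ZMod p) := by
  have h1 : (a : Om p) - (b : Om p) =
      algebraMap ℚ_[p] (Om p) ((((a : ℤ) - (b : ℤ) : ℤ)) : ℚ_[p]) := by
    push_cast
    simp
  rw [h1, norm_algebraMap', Padic.norm_intCast_lt_one_iff] at h
  have h2 : ((((a : ℤ) - (b : ℤ) : ℤ)) : ZMod p) = 0 :=
    (ZMod.intCast_zmod_eq_zero_iff_dvd _ _).mpr h
  push_cast at h2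
  exact sub_eq_zero.mp h2

theorem h49a_norm_add_le {x y : Om p} {r : ℝ} (hx : ‖x‖ ≤ r) (hy : ‖y‖ ≤ r) : ‖x + y‖ ≤ r :=
  (IsUltrametricDist.norm_add_le_max x y).trans (max_le hx hy)

theorem h49a_norm_sub_le {x y : Om p} {r : ℝ} (hx : ‖x‖ ≤ r) (hy : ‖y‖ ≤ r) : ‖x - y‖ ≤ r :=
  (h34k_norm_sub_le_max x y).trans (max_le hx hy)

theorem h49a_norm_add_lt {x y : Om p} {r : ℝ} (hx : ‖x‖ < r) (hy : ‖y‖ < r) : ‖x + y‖ < r :=
  lt_of_le_of_lt (IsUltrametricDist.norm_add_le_max x y) (max_lt hx hy)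

theorem h49a_norm_sub_lt {x y : Om p} {r : ℝ} (hx : ‖x‖ < r) (hy : ‖y‖ < r) : ‖x - y‖ < r :=
  lt_of_le_of_lt (h34k_norm_sub_le_max x y) (max_lt hx hy)

/-- `‖x - 1‖ < 1` implies `‖x‖ = 1`. -/
theorem h49a_norm_eq_one {x : Om p} (h : ‖x - 1‖ < 1) : ‖x‖ = 1 := by
  have h2 : x = 1 + (x - 1) := by ring
  rw [h2]
  have h3 := IsUltrametricDist.norm_add_eq_max_of_norm_ne_norm
    (x := (1 : Om p)) (y := x - 1) (by rw [norm_one]; exact h.ne')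
  rw [h3, norm_one]
  exact max_eq_left h.le

/-- the first-order binomial expansion over the integers of `Om p`. -/
theorem h49a_binom {x : Om p} (hx : ‖x‖ ≤ 1) :
    ∃ r : Om p, ‖r‖ ≤ 1 ∧ (x + 1) ^ p = x ^ p + 1 + (p : Om p) * x * r := by
  have hp : p.Prime := Fact.out
  obtain ⟨r, hr⟩ := exists_add_pow_prime_eq hp
    (⟨x, hx, fun σ hσ => by rw [Subgroup.mem_bot.mp hσ, AlgEquiv.one_apply]⟩ : intOm p) 1
  refine ⟨(r : Om p), r.2.1, ?_⟩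
  have h := congrArg (fun z : intOm p => (z : Om p)) hr
  simpa using h

/-- `‖(1 + x) ^ a - 1 - a x‖ ≤ ‖x‖ ^ 2` for integral `x`. -/
theorem h49a_pow_expand {x : Om p} (hx : ‖x‖ ≤ 1) (a : ℕ) :
    ‖(1 + x) ^ a - 1 - (a : Om p) * x‖ ≤ ‖x‖ ^ 2 := by
  induction a with
  | zero => simp
  | succ a ih =>
    have h1 : (1 + x) ^ (a + 1) - 1 - ((a + 1 : ℕ) : Om p) * x =
        ((1 + x) ^ a - 1 - (a : Om p) * x) * (1 + x) + (a : Om p) * (x * x) := by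
      push_cast
      ring
    rw [h1]
    have h1x : ‖1 + x‖ ≤ 1 := h49a_norm_add_le (by rw [norm_one]) hx
    apply h49a_norm_add_le
    · rw [norm_mul]
      calc ‖(1 + x) ^ a - 1 - (a : Om p) * x‖ * ‖1 + x‖
          ≤ ‖x‖ ^ 2 * 1 := mul_le_mul ih h1x (norm_nonneg _) (by positivity)
        _ = ‖x‖ ^ 2 := mul_one _
    · rw [norm_mul, norm_mul, ← pow_two]
      calc ‖(a : Om p)‖ * ‖x‖ ^ 2 ≤ 1 * ‖x‖ ^ 2 :=
            mul_le_mul_of_nonneg_right (h34k_norm_natCast_le a) (by positivity)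
        _ = ‖x‖ ^ 2 := one_mul _

section Basic

variable {π : Om p}

theorem h49a_pi_ne_zero (hπ : π ^ (p - 1) = p) : π ≠ 0 := by
  intro h
  rw [h, zero_pow (h49a_pm1_pos (p := p)).ne'] at hπ
  exact h49a_p_ne_zero hπ.symm

theorem h49a_norm_pi_pow (hπ : π ^ (p - 1) = p) : ‖π‖ ^ (p - 1) = ‖(p : Om p)‖ := by
  rw [← norm_pow, hπ]

theorem h49a_norm_pi_pos (hπ : π ^ (p - 1) = p) : 0 < ‖π‖ :=
  norm_pos_iff.mpr (h49a_pi_ne_zero hπ)

theorem h49a_norm_pi_lt (hπ : π ^ (p - 1) = p) : ‖π‖ < 1 := by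
  by_contra hge
  rw [not_lt] at hge
  have h1 : (1 : ℝ) ≤ ‖π‖ ^ (p - 1) := one_le_pow₀ hge
  rw [h49a_norm_pi_pow hπ] at h1
  have h2 := h34t_norm_p_lt_one p
  linarith

theorem h49a_norm_pi_pow_p (hπ : π ^ (p - 1) = p) : ‖(p : Om p)‖ * ‖π‖ = ‖π‖ ^ p := by
  rw [← h49a_norm_pi_pow hπ, ← pow_succ]
  congr 1
  have := h49a_pm1_pos (p := p)
  omega

/-- a non-trivial `p`-th root of unity has `‖μ - 1‖ = ‖π‖`. -/
theorem h49a_norm_zeta (hπ : π ^ (p - 1) = p) {μ : Om p} (hμ : μ ^ p = 1) (hμ1 : μ ≠ 1) :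
    ‖μ - 1‖ = ‖π‖ := by
  have hord : orderOf μ = p := orderOf_eq_prime hμ hμ1
  have hprim : IsPrimitiveRoot μ p := by
    have := IsPrimitiveRoot.orderOf μ
    rwa [hord] at this
  have hn := h7g_norm_zeta_sub_one (K := Om p) hprim
  rw [← h49a_norm_pi_pow hπ] at hn
  exact (pow_left_inj₀ (norm_nonneg _) (norm_nonneg _) (h49a_pm1_pos (p := p)).ne').mp hn

theorem h49a_xi (hπ : π ^ (p - 1) = p) (τ : Gq p) : (τ π / π) ^ (p - 1) = 1 := by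
  rw [div_pow, ← map_pow, hπ, map_natCast, div_self h49a_p_ne_zero]

theorem h49a_xi_fix (hπ : π ^ (p - 1) = p) (τ : Gq p) {g : Gq p} (hg : g ∈ inertia p) :
    g (τ π / π) = τ π / π :=
  h89d0_fix_of_mem_inertia hg _ (p - 1) h49a_pm1_pos h49a_not_dvd_pm1 (h49a_xi hπ τ)

theorem h49a_xi_norm (hπ : π ^ (p - 1) = p) (τ : Gq p) : ‖τ π / π‖ = 1 := by
  rw [norm_div, h34k_norm_map, div_self (h49a_norm_pi_pos hπ).ne']

/-- `I_K` is normal in `Gq p`. -/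
theorem h49a_IK_conj (hπ : π ^ (p - 1) = p) {g : Gq p} (hg : g ∈ IK p π) (τ : Gq p) :
    τ⁻¹ * g * τ ∈ IK p π := by
  refine ⟨h34k_conj_mem_inertia' hg.1 τ, ?_⟩
  have hπ0 := h49a_pi_ne_zero hπ
  have h1 : τ π = (τ π / π) * π := by rw [div_mul_cancel₀ _ hπ0]
  have h2 : g (τ π) = τ π := by
    conv_lhs => rw [h1]
    rw [map_mul, hg.2, h49a_xi_fix hπ τ hg.1, div_mul_cancel₀ _ hπ0]
  rw [AlgEquiv.mul_apply, AlgEquiv.mul_apply, h2, h34k_inv_apply']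

/-- `I_K` acts trivially on `μ_p`. -/
theorem h49a_IK_fix_zeta (hp2 : p ≠ 2) (hπ : π ^ (p - 1) = p) {ζ : Om p}
    (hζ : IsPrimitiveRoot ζ p) {g : Gq p} (hg : g ∈ IK p π) : g ζ = ζ := by
  have hcyc := h34k_cycExp_val hζ g
  set a := ((h34k_chi hζ g : (ZMod p)ˣ) : ZMod p).val with ha
  have h1 := h7c_cycFund p hp2 (p - 1) h49a_pm1_pos h49a_not_dvd_pm1 dvd_rfl π hπ g hg.1 a hcyc
  rw [Nat.div_self h49a_pm1_pos, pow_one, hg.2, div_self (h49a_pi_ne_zero hπ)] at h1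
  have h2 : ((1 : ℕ) : ZMod p) = (a : ZMod p) :=
    h49a_natCast_eq_of_norm_sub_lt (by simpa using h1)
  rw [h34k_chi_spec hζ g, ← ha]
  have h3 := h34k_root_pow_eq hζ.pow_eq_one h2
  rw [pow_one] at h3
  exact h3.symm

theorem h49a_IK_fix_root (hp2 : p ≠ 2) (hπ : π ^ (p - 1) = p) {ζ : Om p}
    (hζ : IsPrimitiveRoot ζ p) {g : Gq p} (hg : g ∈ IK p π) {μ : Om p} (hμ : μ ^ p = 1) :
    g μ = μ := by
  obtain ⟨i, -, rfl⟩ := hζ.eq_pow_of_pow_eq_one hμ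
  rw [map_pow, h49a_IK_fix_zeta hp2 hπ hζ hg]

/-- `σ ^ (p - 1) ∈ I_K` for `σ` in inertia. -/
theorem h49a_pow_mem_IK (hπ : π ^ (p - 1) = p) {σ : Gq p} (hσ : σ ∈ inertia p) :
    σ ^ (p - 1) ∈ IK p π := by
  refine ⟨(inertia p).pow_mem hσ _, ?_⟩
  have hπ0 := h49a_pi_ne_zero hπ
  have key : ∀ j : ℕ, (σ ^ j) π = (σ π / π) ^ j * π := by
    intro j
    induction j with
    | zero => simp
    | succ j ih =>
      rw [pow_succ', AlgEquiv.mul_apply, ih, map_mul, map_pow, h49a_xi_fix hπ σ hσ, pow_succ,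
        mul_assoc, div_mul_cancel₀ _ hπ0]
  rw [key, h49a_xi hπ σ, one_mul]

end Basic

/-! ## Reductions on the side of `h` -/

section Reduce

variable {π : Om p} {k : Type} [Field k] [CharP k p] {h : Gq p → k}

theorem h49a_h_one (hadd : ∀ σ ∈ inertia p, ∀ τ ∈ inertia p, h (σ * τ) = h σ + h τ) :
    h 1 = 0 := by
  have h1 := hadd 1 (inertia p).one_mem 1 (inertia p).one_mem
  rw [mul_one] at h1
  have h2 : h 1 + 0 = h 1 + h 1 := by rw [add_zero]; exact h1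
  exact (add_left_cancel h2).symm

theorem h49a_h_inv (hadd : ∀ σ ∈ inertia p, ∀ τ ∈ inertia p, h (σ * τ) = h σ + h τ)
    {σ : Gq p} (hσ : σ ∈ inertia p) : h σ⁻¹ = - h σ := by
  have h1 := hadd σ⁻¹ ((inertia p).inv_mem hσ) σ hσ
  rw [inv_mul_cancel, h49a_h_one hadd] at h1
  exact eq_neg_of_add_eq_zero_left h1.symm

theorem h49a_h_conj (hadd : ∀ σ ∈ inertia p, ∀ τ ∈ inertia p, h (σ * τ) = h σ + h τ)
    {t g : Gq p} (ht : t ∈ inertia p) (hg : g ∈ inertia p) : h (t⁻¹ * g * t) = h g := by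
  rw [hadd _ ((inertia p).mul_mem ((inertia p).inv_mem ht) hg) _ ht,
    hadd _ ((inertia p).inv_mem ht) _ hg, h49a_h_inv hadd ht]
  ring

theorem h49a_h_pow (hadd : ∀ σ ∈ inertia p, ∀ τ ∈ inertia p, h (σ * τ) = h σ + h τ)
    {σ : Gq p} (hσ : σ ∈ inertia p) (n : ℕ) : h (σ ^ n) = n • h σ := by
  induction n with
  | zero => rw [pow_zero, zero_smul]; exact h49a_h_one hadd
  | succ n ih => rw [pow_succ, hadd _ ((inertia p).pow_mem hσ n) _ hσ, ih, succ_nsmul]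

/-- reduction from inertia to `I_K`. -/
theorem h49a_of_IK (hπ : π ^ (p - 1) = p)
    (hadd : ∀ σ ∈ inertia p, ∀ τ ∈ inertia p, h (σ * τ) = h σ + h τ)
    (H : ∃ (a₀ : k) (χ : Gq p → ZMod p), ∀ g ∈ IK p π, h g = ((χ g).val : k) * a₀) :
    ∃ (a₀ : k) (χ : Gq p → ZMod p), ∀ σ ∈ inertia p, h σ = ((χ σ).val : k) * a₀ := by
  haveI : NeZero p := ⟨(Fact.out : p.Prime).ne_zero⟩
  obtain ⟨a₀, χ, hχ⟩ := H
  refine ⟨a₀, fun σ => - χ (σ ^ (p - 1)), fun σ hσ => ?_⟩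
  have h1 := hχ _ (h49a_pow_mem_IK hπ hσ)
  rw [h49a_h_pow hadd hσ] at h1
  have h2 : ((p - 1 : ℕ) : k) = -1 := by
    rw [Nat.cast_sub (Fact.out : p.Prime).one_le, CharP.cast_eq_zero]
    simp
  rw [nsmul_eq_mul, h2] at h1
  have h3 : (((- χ (σ ^ (p - 1))).val : ℕ) : k) = - ((χ (σ ^ (p - 1))).val : k) := by
    rw [ZMod.natCast_val, ZMod.natCast_val, ZMod.cast_neg (dvd_refl p)]
  rw [h3]
  linear_combination -h1

/-- reduction to pairs of characters `l ∘ h`. -/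
theorem h49a_line_of_dep (π : Om p)
    (H : ∀ (l₁ l₂ : k →+ ZMod p) (g₀ : Gq p), g₀ ∈ IK p π → l₁ (h g₀) = 1 →
      ∀ g ∈ IK p π, l₂ (h g) = l₂ (h g₀) * l₁ (h g)) :
    ∃ (a₀ : k) (χ : Gq p → ZMod p), ∀ g ∈ IK p π, h g = ((χ g).val : k) * a₀ := by
  haveI : NeZero p := ⟨(Fact.out : p.Prime).ne_zero⟩
  by_cases h0 : ∀ g ∈ IK p π, h g = 0
  · exact ⟨0, fun _ => 0, fun g hg => by rw [h0 g hg, mul_zero]⟩
  push Not at h0
  obtain ⟨g₀, hg₀, hne⟩ := h0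
  obtain ⟨l, hl⟩ := h34k_exists_functional (p := p) hne
  set l₁ : k →+ ZMod p := (AddMonoidHom.mulLeft (l (h g₀))⁻¹).comp l with hl₁
  have hl₁1 : l₁ (h g₀) = 1 := by
    simp only [hl₁, AddMonoidHom.coe_comp, Function.comp_apply, AddMonoidHom.coe_mulLeft]
    exact inv_mul_cancel₀ hl
  refine ⟨h g₀, fun g => l₁ (h g), fun g hg => ?_⟩
  by_contra hcon
  have hne2 : h g - ((l₁ (h g)).val : k) * h g₀ ≠ 0 := sub_ne_zero.mpr hcon
  obtain ⟨l₂, hl₂⟩ := h34k_exists_functional (p := p) hne2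
  apply hl₂
  have h3 : l₂ (((l₁ (h g)).val : k) * h g₀) = (l₁ (h g)) * l₂ (h g₀) := by
    rw [← nsmul_eq_mul, map_nsmul, nsmul_eq_mul, ZMod.natCast_zmod_val]
  rw [map_sub, H l₁ l₂ g₀ hg₀ hl₁1 g hg, h3]
  ring

end Reduce

/-! ## Kummer generators on `I_K` -/

/-- `x` is fixed by `I_K`. -/
def h49a_Fix (π x : Om p) : Prop := ∀ g ∈ IK p π, g x = x

/-- `β` is a Kummer generator of `θ` on `I_K`. -/
def h49a_KG (π ζ : Om p) (θ : Gq p → ZMod p) (β : Om p) : Prop :=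
  β ≠ 0 ∧ ∀ g ∈ IK p π, g β = ζ ^ (θ g).val * β

section Fix

variable {π : Om p}

theorem h49a_Fix.mul {x y : Om p} (hx : h49a_Fix π x) (hy : h49a_Fix π y) :
    h49a_Fix π (x * y) := fun g hg => by rw [map_mul, hx g hg, hy g hg]

theorem h49a_Fix.div {x y : Om p} (hx : h49a_Fix π x) (hy : h49a_Fix π y) :
    h49a_Fix π (x / y) := fun g hg => by rw [map_div₀, hx g hg, hy g hg]

theorem h49a_Fix.inv {x : Om p} (hx : h49a_Fix π x) :
    h49a_Fix π x⁻¹ := fun g hg => by rw [map_inv₀, hx g hg]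

theorem h49a_Fix.pow {x : Om p} (hx : h49a_Fix π x) (n : ℕ) :
    h49a_Fix π (x ^ n) := fun g hg => by rw [map_pow, hx g hg]

theorem h49a_Fix.add {x y : Om p} (hx : h49a_Fix π x) (hy : h49a_Fix π y) :
    h49a_Fix π (x + y) := fun g hg => by rw [map_add, hx g hg, hy g hg]

theorem h49a_Fix.sub {x y : Om p} (hx : h49a_Fix π x) (hy : h49a_Fix π y) :
    h49a_Fix π (x - y) := fun g hg => by rw [map_sub, hx g hg, hy g hg]

theorem h49a_Fix.one : h49a_Fix π (1 : Om p) := fun g _ => map_one g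

theorem h49a_Fix.natCast (n : ℕ) : h49a_Fix π (n : Om p) := fun g _ => map_natCast g n

theorem h49a_Fix.pi : h49a_Fix π π := fun g hg => hg.2

/-- discreteness: a fixed element of norm `< ‖π‖ ^ j` has norm `≤ ‖π‖ ^ (j + 1)`. -/
theorem h49a_disc (hπ : π ^ (p - 1) = p) {x : Om p} (hx : h49a_Fix π x) {j : ℕ}
    (hlt : ‖x‖ < ‖π‖ ^ j) : ‖x‖ ≤ ‖π‖ ^ (j + 1) := by
  have hq0 := h49a_norm_pi_pos hπ
  have hq1 := h49a_norm_pi_lt hπ
  by_cases hx0 : x = 0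
  · rw [hx0, norm_zero]
    positivity
  have hD : IsDiscrete p (IK p π) π :=
    h45g_tameDiscrete p (p - 1) h49a_pm1_pos h49a_not_dvd_pm1 π hπ (IK p π) (fun σ => mem_IK)
  have hle : ‖x‖ ≤ 1 := hlt.le.trans (pow_le_one₀ hq0.le hq1.le)
  obtain ⟨n, v, hv, hv1, hxv⟩ := hD.2.2.2 x ⟨hle, hx⟩ hx0
  have hn : ‖x‖ = ‖π‖ ^ n := by rw [hxv, norm_mul, norm_pow, hv1, mul_one]
  rw [hn] at hlt ⊢
  have h1 : j < n := (pow_lt_pow_iff_right_of_lt_one₀ hq0 hq1).mp hlt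
  exact pow_le_pow_of_le_one hq0.le hq1.le h1

/-- discreteness: a non-zero fixed integer is `π ^ n * v` with a fixed unit `v`. -/
theorem h49a_decomp (hπ : π ^ (p - 1) = p) {x : Om p} (hx : h49a_Fix π x) (hx0 : x ≠ 0)
    (hle : ‖x‖ ≤ 1) : ∃ (n : ℕ) (v : Om p), h49a_Fix π v ∧ ‖v‖ = 1 ∧ x = π ^ n * v := by
  have hD : IsDiscrete p (IK p π) π :=
    h45g_tameDiscrete p (p - 1) h49a_pm1_pos h49a_not_dvd_pm1 π hπ (IK p π) (fun σ => mem_IK)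
  obtain ⟨n, v, hv, hv1, hxv⟩ := hD.2.2.2 x ⟨hle, hx⟩ hx0
  exact ⟨n, v, hv.2, hv1, hxv⟩

end Fix

section KG

variable {π ζ : Om p}

theorem h49a_zeta_ne_zero (hζ : IsPrimitiveRoot ζ p) : ζ ≠ 0 :=
  hζ.ne_zero (Fact.out : p.Prime).ne_zero

theorem h49a_KG.pow_fixed (hζ : IsPrimitiveRoot ζ p) {θ : Gq p → ZMod p} {β : Om p}
    (h : h49a_KG π ζ θ β) : h49a_Fix π (β ^ p) := fun g hg => by
  rw [map_pow, h.2 g hg, mul_pow, ← pow_mul, mul_comm _ p, pow_mul, hζ.pow_eq_one,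
    one_pow, one_mul]

theorem h49a_KG.div_fix {θ : Gq p → ZMod p} {β c : Om p}
    (h : h49a_KG π ζ θ β) (hc0 : c ≠ 0) (hc : h49a_Fix π c) : h49a_KG π ζ θ (β / c) :=
  ⟨div_ne_zero h.1 hc0, fun g hg => by rw [map_div₀, h.2 g hg, hc g hg, mul_div_assoc]⟩

/-- the generator `β₂ / β₁ ^ n` of `θ₂ - n θ₁`. -/
theorem h49a_KG.comb (hζ : IsPrimitiveRoot ζ p) {θ₁ θ₂ : Gq p → ZMod p} {β₁ β₂ : Om p}
    (h₁ : h49a_KG π ζ θ₁ β₁) (h₂ : h49a_KG π ζ θ₂ β₂) (n : ℕ) :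
    h49a_KG π ζ (fun g => θ₂ g - (n : ZMod p) * θ₁ g) (β₂ / β₁ ^ n) := by
  haveI : NeZero p := ⟨(Fact.out : p.Prime).ne_zero⟩
  have hζ0 := h49a_zeta_ne_zero hζ
  refine ⟨div_ne_zero h₂.1 (pow_ne_zero _ h₁.1), fun g hg => ?_⟩
  rw [map_div₀, map_pow, h₂.2 g hg, h₁.2 g hg, mul_pow, ← pow_mul]
  have h1 : ζ ^ (θ₂ g).val = ζ ^ ((θ₂ g - (n : ZMod p) * θ₁ g).val + (θ₁ g).val * n) := by
    apply h34k_root_pow_eq hζ.pow_eq_one
    push_cast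
    rw [ZMod.natCast_zmod_val, ZMod.natCast_zmod_val, ZMod.natCast_zmod_val]
    ring
  rw [h1, pow_add]
  have h2 : ζ ^ ((θ₁ g).val * n) ≠ 0 := pow_ne_zero _ hζ0
  have h3 : β₁ ^ n ≠ 0 := pow_ne_zero _ h₁.1
  field_simp

/-- the translate `τ β` generates `ω(τ) θ(τ⁻¹ · τ)`. -/
theorem h49a_KG.translate (hζ : IsPrimitiveRoot ζ p) (hπ : π ^ (p - 1) = p)
    {θ : Gq p → ZMod p} {β : Om p} (h : h49a_KG π ζ θ β) (τ : Gq p) (e : ℕ)
    (he : ∀ g ∈ IK p π, ((h34k_chi hζ τ : (ZMod p)ˣ) : ZMod p) * θ (τ⁻¹ * g * τ) =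
      (e : ZMod p) * θ g) :
    h49a_Fix π (τ β / β ^ e) := by
  haveI : NeZero p := ⟨(Fact.out : p.Prime).ne_zero⟩
  intro g hg
  have hconj := h49a_IK_conj hπ hg τ
  have h1 : g (τ β) = τ ((τ⁻¹ * g * τ) β) := by
    rw [AlgEquiv.mul_apply, AlgEquiv.mul_apply, h34k_inv_apply]
  rw [map_div₀, map_pow, h1, h.2 _ hconj, h.2 g hg, map_mul, map_pow, h34k_chi_spec hζ τ,
    ← pow_mul, mul_pow, ← pow_mul]
  have h2 : ζ ^ (((h34k_chi hζ τ : (ZMod p)ˣ) : ZMod p).val * (θ (τ⁻¹ * g * τ)).val) =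
      ζ ^ ((θ g).val * e) := by
    apply h34k_root_pow_eq hζ.pow_eq_one
    push_cast
    rw [ZMod.natCast_zmod_val, ZMod.natCast_zmod_val, ZMod.natCast_zmod_val, he g hg]
    ring
  rw [h2, mul_div_mul_left _ _ (pow_ne_zero _ (h49a_zeta_ne_zero hζ))]

end KG

/-! ## The level calculus -/

section Level

variable {π ζ : Om p}

/-- `p`-th powers of units of `K` which are `≡ 1` modulo `𝔪` are `≡ 1` modulo `π ^ p`. -/
theorem h49a_unit_pow (hπ : π ^ (p - 1) = p) {d : Om p} (hd : h49a_Fix π d)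
    (h1 : ‖d ^ p - 1‖ < 1) : ‖d ^ p - 1‖ ≤ ‖π‖ ^ p := by
  have hp : p.Prime := Fact.out
  have hq0 := h49a_norm_pi_pos hπ
  have hdp : ‖d ^ p‖ = 1 := h49a_norm_eq_one h1
  have hd1 : ‖d‖ = 1 := by
    rw [norm_pow] at hdp
    exact (pow_eq_one_iff_of_nonneg (norm_nonneg d) hp.ne_zero).mp hdp
  set x := d - 1 with hx
  have hx1 : ‖x‖ ≤ 1 := h49a_norm_sub_le hd1.le (by rw [norm_one])
  obtain ⟨r, hr, hbin⟩ := h49a_binom hx1
  have hdx : x + 1 = d := by rw [hx]; ring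
  rw [hdx] at hbin
  have e1 : x ^ p = (d ^ p - 1) - (p : Om p) * x * r := by rw [hbin]; ring
  have hpxr : ‖(p : Om p) * x * r‖ ≤ ‖(p : Om p)‖ * ‖x‖ := by
    rw [norm_mul, norm_mul]
    calc ‖(p : Om p)‖ * ‖x‖ * ‖r‖ ≤ ‖(p : Om p)‖ * ‖x‖ * 1 :=
          mul_le_mul_of_nonneg_left hr (by positivity)
      _ = ‖(p : Om p)‖ * ‖x‖ := mul_one _
  have hxlt : ‖x‖ < 1 := by
    have h2 : ‖x ^ p‖ < 1 := by
      rw [e1]
      apply h49a_norm_sub_lt h1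
      calc ‖(p : Om p) * x * r‖ ≤ ‖(p : Om p)‖ * ‖x‖ := hpxr
        _ ≤ ‖(p : Om p)‖ * 1 := mul_le_mul_of_nonneg_left hx1 (norm_nonneg _)
        _ < 1 := by rw [mul_one]; exact h34t_norm_p_lt_one p
    rw [norm_pow] at h2
    exact (pow_lt_one_iff_of_nonneg (norm_nonneg _) hp.ne_zero).mp h2
  have hxq : ‖x‖ ≤ ‖π‖ := by
    have := h49a_disc hπ (hd.sub h49a_Fix.one) (j := 0) (by rw [pow_zero]; exact hxlt)
    simpa using this
  have e2 : d ^ p - 1 = x ^ p + (p : Om p) * x * r := by rw [hbin]; ring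
  rw [e2]
  apply h49a_norm_add_le
  · rw [norm_pow]
    exact pow_le_pow_left₀ (norm_nonneg _) hxq p
  · calc ‖(p : Om p) * x * r‖ ≤ ‖(p : Om p)‖ * ‖x‖ := hpxr
      _ ≤ ‖(p : Om p)‖ * ‖π‖ := mul_le_mul_of_nonneg_left hxq (norm_nonneg _)
      _ = ‖π‖ ^ p := h49a_norm_pi_pow_p hπ

/-- a class of level `≥ p` is trivial. -/
theorem h49a_trivial_of_level_p (hp2 : p ≠ 2) (hπ : π ^ (p - 1) = p)
    (hζ : IsPrimitiveRoot ζ p) {θ : Gq p → ZMod p} {β u : Om p} (h : h49a_KG π ζ θ β)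
    (hu : β ^ p = u) (hlev : ‖u - 1‖ ≤ ‖π‖ ^ p) : ∀ g ∈ IK p π, θ g = 0 := by
  classical
  have hp : p.Prime := Fact.out
  haveI : NeZero p := ⟨hp.ne_zero⟩
  have hq0 := h49a_norm_pi_pos hπ
  have hq1 := h49a_norm_pi_lt hπ
  have hπ0 := h49a_pi_ne_zero hπ
  have hprod := hζ.pow_sub_pow_eq_prod_sub_mul β 1 hp.pos
  rw [one_pow, hu] at hprod
  have hex : ∃ μ ∈ Polynomial.nthRootsFinset p (1 : Om p), ‖β - μ‖ ≤ ‖π‖ := by
    by_contra hcon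
    simp only [not_exists, not_and, not_le] at hcon
    have h1 : ‖u - 1‖ = ∏ μ ∈ Polynomial.nthRootsFinset p (1 : Om p), ‖β - μ‖ := by
      rw [hprod, norm_prod]
      refine Finset.prod_congr rfl fun μ _ => ?_
      rw [mul_one]
    have hne : (Polynomial.nthRootsFinset p (1 : Om p)).Nonempty :=
      ⟨1, (Polynomial.mem_nthRootsFinset hp.pos 1).2 (one_pow _)⟩
    have h2 : ∏ _μ ∈ Polynomial.nthRootsFinset p (1 : Om p), ‖π‖ <
        ∏ μ ∈ Polynomial.nthRootsFinset p (1 : Om p), ‖β - μ‖ :=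
      Finset.prod_lt_prod_of_nonempty (fun _ _ => hq0) (fun μ hμ => hcon μ hμ) hne
    rw [Finset.prod_const, hζ.card_nthRootsFinset, ← h1] at h2
    linarith
  obtain ⟨μ, hμ, hμn⟩ := hex
  have hμp : μ ^ p = 1 := (Polynomial.mem_nthRootsFinset hp.pos 1).1 hμ
  intro g hg
  by_contra hne
  set x := (β - μ) / π with hx
  have hx1 : ‖x‖ ≤ 1 := by
    rw [hx, norm_div]
    exact div_le_one_of_le₀ hμn (norm_nonneg _)
  have h3 := hg.1 x hx1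
  have h4 : g x - x = (ζ ^ (θ g).val - 1) * β / π := by
    rw [hx, map_div₀, map_sub, hg.2, h49a_IK_fix_root hp2 hπ hζ hg hμp, h.2 g hg]
    field_simp
    ring
  have hβ1 : ‖β‖ = 1 := by
    have hu1 : ‖u‖ = 1 :=
      h49a_norm_eq_one (lt_of_le_of_lt hlev (pow_lt_one₀ hq0.le hq1 hp.ne_zero))
    rw [← hu, norm_pow] at hu1
    exact (pow_eq_one_iff_of_nonneg (norm_nonneg β) hp.ne_zero).mp hu1
  have hz1 : ζ ^ (θ g).val ≠ 1 := by
    intro h5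
    have h6 : ζ ^ (θ g).val = ζ ^ 0 := by rw [h5, pow_zero]
    have h7 := (h34k_pow_eq_iff hζ _ _).mp h6
    rw [ZMod.natCast_zmod_val, Nat.cast_zero] at h7
    exact hne h7
  have hz2 : (ζ ^ (θ g).val) ^ p = 1 := by
    rw [← pow_mul, mul_comm, pow_mul, hζ.pow_eq_one, one_pow]
  rw [h4, norm_div, norm_mul, hβ1, mul_one, h49a_norm_zeta hπ hz2 hz1, div_self hq0.ne'] at h3
  exact lt_irrefl _ h3

/-- the levels `2 .. p - 1` do not occur in the `ω`-eigenspace. -/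
theorem h49a_level_p (hp2 : p ≠ 2) (hπ : π ^ (p - 1) = p) (hζ : IsPrimitiveRoot ζ p)
    {u : Om p} (hu : h49a_Fix π u) (hlev : ‖u - 1‖ ≤ ‖π‖ ^ 2)
    {t₀ : Gq p} (ht₀ : t₀ ∈ inertia p) (hord : orderOf (h34k_chi hζ t₀) = p - 1)
    {d : Om p} (hd : h49a_Fix π d)
    (heig : t₀ u = d ^ p * u ^ ((h34k_chi hζ t₀ : (ZMod p)ˣ) : ZMod p).val) :
    ‖u - 1‖ ≤ ‖π‖ ^ p := by
  have hp : p.Prime := Fact.out
  haveI : NeZero p := ⟨hp.ne_zero⟩
  have hq0 := h49a_norm_pi_pos hπ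
  have hq1 := h49a_norm_pi_lt hπ
  have hπ0 := h49a_pi_ne_zero hπ
  set a : ℕ := ((h34k_chi hζ t₀ : (ZMod p)ˣ) : ZMod p).val with ha
  set x := u - 1 with hx
  have hux : u = 1 + x := by rw [hx]; ring
  have hxlt : ‖x‖ < 1 := lt_of_le_of_lt hlev (pow_lt_one₀ hq0.le hq1 (by norm_num))
  have hu1 : ‖u‖ = 1 := h49a_norm_eq_one hxlt
  have hua1 : ‖u ^ a‖ = 1 := by rw [norm_pow, hu1, one_pow]
  have htx : ‖t₀ u - 1‖ < 1 := by
    have : t₀ u - 1 = t₀ x := by rw [hx, map_sub, map_one]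
    rw [this, h34k_norm_map]
    exact hxlt
  have hua : ‖u ^ a - 1‖ < 1 := by
    have := h34k_norm_pow_sub_pow_lt hu1.le (by rw [norm_one] : ‖(1 : Om p)‖ ≤ 1) hxlt a
    rwa [one_pow] at this
  have hua0 : u ^ a ≠ 0 := h34k_norm_ne_zero hua1
  have hdp : d ^ p - 1 = (t₀ u - u ^ a) / u ^ a := by
    rw [heig]
    field_simp
  have hdiff : ‖t₀ u - u ^ a‖ ≤ ‖π‖ ^ p := by
    have h1 : ‖d ^ p - 1‖ < 1 := by
      rw [hdp, norm_div, hua1, div_one]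
      have : t₀ u - u ^ a = (t₀ u - 1) - (u ^ a - 1) := by ring
      rw [this]
      exact h49a_norm_sub_lt htx hua
    have h2 := h49a_unit_pow hπ hd h1
    rwa [hdp, norm_div, hua1, div_one] at h2
  by_contra hcon
  rw [not_le] at hcon
  have hx0 : x ≠ 0 := by
    intro h0
    rw [h0, norm_zero] at hcon
    exact absurd hcon (not_lt.mpr (by positivity))
  obtain ⟨j, v, hv, hv1, hxv'⟩ := h49a_decomp hπ (hu.sub h49a_Fix.one) hx0 hxlt.le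
  have hxv : x = π ^ j * v := hxv'
  clear_value x
  have hxn : ‖x‖ = ‖π‖ ^ j := by rw [hxv, norm_mul, norm_pow, hv1, mul_one]
  have hj2 : 2 ≤ j := by
    rw [hxn] at hlev
    exact (pow_le_pow_iff_right_of_lt_one₀ hq0 hq1).mp hlev
  have hjp : j < p := by
    rw [hxn] at hcon
    exact (pow_lt_pow_iff_right_of_lt_one₀ hq0 hq1).mp hcon
  set ξ := t₀ π / π with hξ
  have hξπ : t₀ π = ξ * π := by rw [hξ, div_mul_cancel₀ _ hπ0]
  have hξ1 : ‖ξ‖ = 1 := h49a_xi_norm hπ t₀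
  -- the expansion of `u ^ a`
  have hE : ‖u ^ a - 1 - (a : Om p) * x‖ ≤ ‖π‖ ^ (j + 1) := by
    have h1 := h49a_pow_expand hxlt.le a
    rw [← hux, hxn, ← pow_mul] at h1
    exact h1.trans (pow_le_pow_of_le_one hq0.le hq1.le (by omega))
  have hkey : π ^ j * (ξ ^ j * t₀ v - (a : Om p) * v) =
      (t₀ u - u ^ a) + (u ^ a - 1 - (a : Om p) * x) := by
    have h1 : t₀ u = 1 + t₀ x := by rw [hux, map_add, map_one]
    have h2 : t₀ x = ξ ^ j * π ^ j * t₀ v := by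
      rw [hxv, map_mul, map_pow, hξπ, mul_pow]
    rw [h1, h2]
    conv_rhs => rw [hxv]
    ring
  have hn1 : ‖ξ ^ j * t₀ v - (a : Om p) * v‖ < 1 := by
    have h1 : ‖π ^ j * (ξ ^ j * t₀ v - (a : Om p) * v)‖ ≤ ‖π‖ ^ (j + 1) := by
      rw [hkey]
      exact h49a_norm_add_le
        (hdiff.trans (pow_le_pow_of_le_one hq0.le hq1.le (by omega))) hE
    rw [norm_mul, norm_pow, pow_succ] at h1
    have h2 : ‖ξ ^ j * t₀ v - (a : Om p) * v‖ ≤ ‖π‖ :=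
      le_of_mul_le_mul_left h1 (pow_pos hq0 j)
    exact lt_of_le_of_lt h2 hq1
  -- `ξ ≡ a`, `t₀ v ≡ v`
  have hcyc := h34k_cycExp_val hζ t₀
  have hξa : ‖ξ - (a : Om p)‖ < 1 := by
    have h1 := h7c_cycFund p hp2 (p - 1) h49a_pm1_pos h49a_not_dvd_pm1 dvd_rfl π hπ t₀ ht₀ a hcyc
    rwa [Nat.div_self h49a_pm1_pos, pow_one] at h1
  have hξaj : ‖ξ ^ j - (a : Om p) ^ j‖ < 1 :=
    h34k_norm_pow_sub_pow_lt hξ1.le (h34k_norm_natCast_le a) hξa j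
  have htv : ‖t₀ v - v‖ < 1 := ht₀ v hv1.le
  have htv1 : ‖t₀ v‖ = 1 := by rw [h34k_norm_map, hv1]
  have hn2 : ‖ξ ^ j * t₀ v - (a : Om p) ^ j * v‖ < 1 := by
    have e : ξ ^ j * t₀ v - (a : Om p) ^ j * v =
        (ξ ^ j - (a : Om p) ^ j) * t₀ v + (a : Om p) ^ j * (t₀ v - v) := by ring
    rw [e]
    apply h49a_norm_add_lt
    · rw [norm_mul, htv1, mul_one]
      exact hξaj
    · rw [norm_mul]
      calc ‖(a : Om p) ^ j‖ * ‖t₀ v - v‖ ≤ 1 * ‖t₀ v - v‖ :=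
            mul_le_mul_of_nonneg_right
              (by rw [norm_pow]; exact pow_le_one₀ (norm_nonneg _) (h34k_norm_natCast_le a))
              (norm_nonneg _)
        _ < 1 := by rw [one_mul]; exact htv
  have hn3 : ‖((a ^ j : ℕ) : Om p) - ((a : ℕ) : Om p)‖ < 1 := by
    have e : ((a ^ j : ℕ) : Om p) - ((a : ℕ) : Om p) =
        ((ξ ^ j * t₀ v - (a : Om p) * v) - (ξ ^ j * t₀ v - (a : Om p) ^ j * v)) * v⁻¹ := by
      have hv0 : v ≠ 0 := h34k_norm_ne_zero hv1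
      push_cast
      field_simp
      ring
    rw [e, norm_mul, norm_inv, hv1, inv_one, mul_one]
    exact h49a_norm_sub_lt hn1 hn2
  have h5 := h49a_natCast_eq_of_norm_sub_lt hn3
  -- `ω ^ (j - 1) = 1`
  have h6 : (h34k_chi hζ t₀) ^ (j - 1) = 1 := by
    apply Units.ext
    have h7 : ((h34k_chi hζ t₀ : (ZMod p)ˣ) : ZMod p) ^ j = ((h34k_chi hζ t₀ : (ZMod p)ˣ) : ZMod p) := by
      have := h5
      push_cast at this
      rwa [ha, ZMod.natCast_zmod_val] at this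
    have h8 : ((h34k_chi hζ t₀ : (ZMod p)ˣ) : ZMod p) ≠ 0 := Units.ne_zero _
    have h9 : j = (j - 1) + 1 := by omega
    rw [h9, pow_succ] at h7
    rw [Units.val_pow_eq_pow_val, Units.val_one]
    exact mul_right_cancel₀ h8 (by rw [one_mul]; exact h7)
  have h10 := orderOf_dvd_of_pow_eq_one h6
  rw [hord] at h10
  have h11 := Nat.le_of_dvd (by omega) h10
  omega

end Level

/-! ## Normal form, Frobenius, assembly -/

section Main

variable {π ζ : Om p}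

theorem h49a_gen_val (hp2 : p ≠ 2) (hζ : IsPrimitiveRoot ζ p) {t₀ : Gq p}
    (hord : orderOf (h34k_chi hζ t₀) = p - 1) :
    2 ≤ ((h34k_chi hζ t₀ : (ZMod p)ˣ) : ZMod p).val ∧
      ((h34k_chi hζ t₀ : (ZMod p)ˣ) : ZMod p).val < p := by
  have hp : p.Prime := Fact.out
  haveI : NeZero p := ⟨hp.ne_zero⟩
  set a : ℕ := ((h34k_chi hζ t₀ : (ZMod p)ˣ) : ZMod p).val with ha
  have ha0 : a ≠ 0 := by
    intro h0
    have : ((h34k_chi hζ t₀ : (ZMod p)ˣ) : ZMod p) = 0 := (ZMod.val_eq_zero _).mp h0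
    exact Units.ne_zero _ this
  have ha1 : a ≠ 1 := by
    intro h1
    have h2 : ((h34k_chi hζ t₀ : (ZMod p)ˣ) : ZMod p) = 1 := by
      have := ZMod.natCast_zmod_val ((h34k_chi hζ t₀ : (ZMod p)ˣ) : ZMod p)
      rw [← ha, h1, Nat.cast_one] at this
      exact this.symm
    have h3 : h34k_chi hζ t₀ = 1 := Units.ext h2
    rw [h3, orderOf_one] at hord
    have := hp.two_le
    omega
  exact ⟨by omega, ZMod.val_lt _⟩

/-- the normal form: a generator with `β ^ p ≡ 1` modulo `𝔪`. -/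
theorem h49a_normalise (hp2 : p ≠ 2) (hπ : π ^ (p - 1) = p) (hζ : IsPrimitiveRoot ζ p)
    {θ : Gq p → ZMod p} {β : Om p} (h : h49a_KG π ζ θ β)
    (hinv : ∀ t ∈ inertia p, ∀ g ∈ IK p π, θ (t⁻¹ * g * t) = θ g) :
    ∃ β' : Om p, h49a_KG π ζ θ β' ∧ ‖β' ^ p - 1‖ < 1 := by
  have hp : p.Prime := Fact.out
  haveI : NeZero p := ⟨hp.ne_zero⟩
  have hq0 := h49a_norm_pi_pos hπ
  have hq1 := h49a_norm_pi_lt hπ
  have hπ0 := h49a_pi_ne_zero hπ
  obtain ⟨m, c, u, hm, hc0, hc, hu, hu1, hb⟩ :=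
    h83k_unitNF p (p - 1) h49a_pm1_pos h49a_not_dvd_pm1 π hπ (β ^ p) (pow_ne_zero _ h.1)
      (h.pow_fixed hζ)
  have h₁ : h49a_KG π ζ θ (β / c) := h.div_fix hc0 hc
  have hβ₁ : (β / c) ^ p = π ^ m * u := by
    rw [div_pow, hb]
    have := pow_ne_zero p hc0
    field_simp
  set β₁ := β / c with hβ₁def
  clear_value β₁
  have hun : ‖u‖ = 1 := h49a_norm_eq_one hu1
  have hβn : ‖β₁‖ ^ p = ‖π‖ ^ m := by
    rw [← norm_pow, hβ₁, norm_mul, norm_pow, hun, mul_one]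
  have hβpos : 0 < ‖β₁‖ := norm_pos_iff.mpr h₁.1
  have hβle : ‖β₁‖ ≤ 1 := by
    by_contra hgt
    rw [not_le] at hgt
    have h2 : 1 < ‖β₁‖ ^ p := one_lt_pow₀ hgt hp.ne_zero
    rw [hβn] at h2
    exact absurd h2 (not_lt.mpr (pow_le_one₀ hq0.le hq1.le))
  obtain ⟨t₀, ht₀, hord⟩ := h34k_exists_gen hp2 h89f_fundSurjective h7c_cycFund hζ
  obtain ⟨ha2, hap⟩ := h49a_gen_val hp2 hζ hord
  set a : ℕ := ((h34k_chi hζ t₀ : (ZMod p)ˣ) : ZMod p).val with ha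
  have hfix : h49a_Fix π (t₀ β₁ / β₁ ^ a) := by
    apply h₁.translate hζ hπ t₀ a
    intro g hg
    rw [hinv t₀ ht₀ g hg, ha, ZMod.natCast_zmod_val]
  have hd'fix : h49a_Fix π (β₁ ^ a / t₀ β₁) := by
    have := hfix.inv
    rwa [inv_div] at this
  have hd'n : ‖β₁ ^ a / t₀ β₁‖ = ‖β₁‖ ^ (a - 1) := by
    rw [norm_div, norm_pow, h34k_norm_map]
    have e : a = (a - 1) + 1 := by omega
    conv_lhs => rw [e, pow_succ]
    field_simp
  have hd'0 : β₁ ^ a / t₀ β₁ ≠ 0 := by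
    rw [← norm_pos_iff, hd'n]
    positivity
  have hd'le : ‖β₁ ^ a / t₀ β₁‖ ≤ 1 := by
    rw [hd'n]
    exact pow_le_one₀ hβpos.le hβle
  obtain ⟨z, v, -, hv1, hzv⟩ := h49a_decomp hπ hd'fix hd'0 hd'le
  have h3 : ‖π‖ ^ (z * p) = ‖π‖ ^ (m * (a - 1)) := by
    have h4 : ‖β₁ ^ a / t₀ β₁‖ = ‖π‖ ^ z := by rw [hzv, norm_mul, norm_pow, hv1, mul_one]
    rw [pow_mul, ← h4, hd'n, ← pow_mul, mul_comm (a - 1) p, pow_mul, hβn, ← pow_mul]
  have h5 : z * p = m * (a - 1) := pow_right_injective₀ hq0 hq1.ne h3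
  have h6 : p ∣ m * (a - 1) := ⟨z, by rw [← h5, mul_comm]⟩
  have hm0 : m = 0 := by
    rcases (Nat.Prime.dvd_mul hp).mp h6 with h7 | h7
    · exact Nat.eq_zero_of_dvd_of_lt h7 hm
    · have := Nat.le_of_dvd (by omega) h7
      omega
  rw [hm0, pow_zero, one_mul] at hβ₁
  exact ⟨β₁, h₁, by rw [hβ₁]; exact hu1⟩

/-- first-order effect of an eigen-relation `τ u = d ^ p * u ^ e`. -/
theorem h49a_first_order (hπ : π ^ (p - 1) = p) (τ : Gq p) (e : ℕ) {u d : Om p}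
    (hd : h49a_Fix π d) (hτ : τ u = d ^ p * u ^ e) (hn : ‖u - 1‖ ≤ ‖π‖) :
    ‖τ u - 1 - (e : Om p) * (u - 1)‖ ≤ ‖π‖ ^ 2 := by
  have hp : p.Prime := Fact.out
  have hq0 := h49a_norm_pi_pos hπ
  have hq1 := h49a_norm_pi_lt hπ
  have hxlt : ‖u - 1‖ < 1 := lt_of_le_of_lt hn hq1
  have hu1 : ‖u‖ = 1 := h49a_norm_eq_one hxlt
  have hue1 : ‖u ^ e‖ = 1 := by rw [norm_pow, hu1, one_pow]
  have hue0 : u ^ e ≠ 0 := h34k_norm_ne_zero hue1
  have htx : ‖τ u - 1‖ < 1 := by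
    have : τ u - 1 = τ (u - 1) := by rw [map_sub, map_one]
    rw [this, h34k_norm_map]
    exact hxlt
  have hue : ‖u ^ e - 1‖ < 1 := by
    have := h34k_norm_pow_sub_pow_lt hu1.le (by rw [norm_one] : ‖(1 : Om p)‖ ≤ 1) hxlt e
    rwa [one_pow] at this
  have hdp : d ^ p - 1 = (τ u - u ^ e) / u ^ e := by
    rw [hτ]
    field_simp
  have h1 : ‖d ^ p - 1‖ < 1 := by
    rw [hdp, norm_div, hue1, div_one]
    have : τ u - u ^ e = (τ u - 1) - (u ^ e - 1) := by ring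
    rw [this]
    exact h49a_norm_sub_lt htx hue
  have h2 : ‖d ^ p - 1‖ ≤ ‖π‖ ^ 2 :=
    (h49a_unit_pow hπ hd h1).trans (pow_le_pow_of_le_one hq0.le hq1.le hp.two_le)
  have h3 : ‖u ^ e - 1 - (e : Om p) * (u - 1)‖ ≤ ‖π‖ ^ 2 := by
    have h4 := h49a_pow_expand hxlt.le e
    have h5 : (1 : Om p) + (u - 1) = u := by ring
    rw [h5] at h4
    exact h4.trans (pow_le_pow_left₀ (norm_nonneg _) hn 2)
  have e1 : τ u - 1 - (e : Om p) * (u - 1) =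
      (d ^ p - 1) * u ^ e + (u ^ e - 1 - (e : Om p) * (u - 1)) := by
    rw [hτ]
    ring
  rw [e1]
  apply h49a_norm_add_le _ h3
  rw [norm_mul, hue1, mul_one]
  exact h2

/-- **Frobenius**: the ratio of two level-one coefficients is congruent to an integer. -/
theorem h49a_frob (hp2 : p ≠ 2) (hπ : π ^ (p - 1) = p) (hζ : IsPrimitiveRoot ζ p) {φ : Gq p}
    (hφ : ∀ (w : Om p) (m : ℕ), 0 < m → ¬ p ∣ m → w ^ m = 1 → φ w = w ^ p)
    {u₁ u₂ d₁ d₂ : Om p} (e : ℕ) (hd₁ : h49a_Fix π d₁) (hd₂ : h49a_Fix π d₂)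
    (h1 : φ u₁ = d₁ ^ p * u₁ ^ e) (h2 : φ u₂ = d₂ ^ p * u₂ ^ e)
    (hn1 : ‖u₁ - 1‖ = ‖π‖) (hn2 : ‖u₂ - 1‖ ≤ ‖π‖) :
    ∃ n : ℕ, ‖(u₂ - 1) - (n : Om p) * (u₁ - 1)‖ < ‖π‖ := by
  have hp : p.Prime := Fact.out
  haveI : NeZero p := ⟨hp.ne_zero⟩
  have hq0 := h49a_norm_pi_pos hπ
  have hq1 := h49a_norm_pi_lt hπ
  have hπ0 := h49a_pi_ne_zero hπ
  set ξ := φ π / π with hξ
  have hξπ : φ π = ξ * π := by rw [hξ, div_mul_cancel₀ _ hπ0]
  have hξ1 : ‖ξ‖ = 1 := h49a_xi_norm hπ φ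
  have hξ0 : ξ ≠ 0 := h34k_norm_ne_zero hξ1
  -- the coefficients
  have hcoef : ∀ {u d : Om p}, h49a_Fix π d → φ u = d ^ p * u ^ e → ‖u - 1‖ ≤ ‖π‖ →
      ‖ξ * φ ((u - 1) / π) - (e : Om p) * ((u - 1) / π)‖ < 1 := by
    intro u d hd hτ hn
    have h3 := h49a_first_order hπ φ e hd hτ hn
    have e1 : φ u - 1 - (e : Om p) * (u - 1) =
        π * (ξ * φ ((u - 1) / π) - (e : Om p) * ((u - 1) / π)) := by
      rw [map_div₀, hξπ, map_sub, map_one]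
      field_simp
    rw [e1, norm_mul, pow_two] at h3
    have h4 := le_of_mul_le_mul_left h3 hq0
    exact lt_of_le_of_lt h4 hq1
  set y₁ := (u₁ - 1) / π with hy₁
  set y₂ := (u₂ - 1) / π with hy₂
  have hc1 := hcoef hd₁ h1 hn1.le
  have hc2 := hcoef hd₂ h2 hn2
  rw [← hy₁] at hc1
  rw [← hy₂] at hc2
  have hy₁n : ‖y₁‖ = 1 := by rw [hy₁, norm_div, hn1, div_self hq0.ne']
  have hy₂n : ‖y₂‖ ≤ 1 := by
    rw [hy₂, norm_div]
    exact div_le_one_of_le₀ hn2 (norm_nonneg _)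
  have hy₁0 : y₁ ≠ 0 := h34k_norm_ne_zero hy₁n
  have hφy₁n : ‖φ y₁‖ = 1 := by rw [h34k_norm_map, hy₁n]
  have hφy₁0 : φ y₁ ≠ 0 := h34k_norm_ne_zero hφy₁n
  have hu₁ : u₁ - 1 = π * y₁ := by rw [hy₁]; field_simp
  have hu₂ : u₂ - 1 = π * y₂ := by rw [hy₂]; field_simp
  set r := y₂ / y₁ with hr
  have hrn : ‖r‖ ≤ 1 := by rw [hr, norm_div, hy₁n, div_one]; exact hy₂n
  have hy₂r : y₂ = r * y₁ := by rw [hr, div_mul_cancel₀ _ hy₁0]
  have hconc : ∀ n : ℕ, ‖r - (n : Om p)‖ < 1 → ‖(u₂ - 1) - (n : Om p) * (u₁ - 1)‖ < ‖π‖ := by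
    intro n hn
    have e1 : (u₂ - 1) - (n : Om p) * (u₁ - 1) = π * (y₁ * (r - (n : Om p))) := by
      rw [hu₁, hu₂, hy₂r]
      ring
    rw [e1, norm_mul, norm_mul, hy₁n, one_mul]
    calc ‖π‖ * ‖r - (n : Om p)‖ < ‖π‖ * 1 := mul_lt_mul_of_pos_left hn hq0
      _ = ‖π‖ := mul_one _
  -- Frobenius fixes `r` modulo `𝔪`
  have hφr : ‖φ r - r‖ < 1 := by
    have e1 : φ r - r = ((ξ * φ y₂ - (e : Om p) * y₂) * y₁ -
        y₂ * (ξ * φ y₁ - (e : Om p) * y₁)) * (ξ * φ y₁ * y₁)⁻¹ := by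
      rw [hr, map_div₀]
      field_simp
      ring
    rw [e1, norm_mul, norm_inv, norm_mul, norm_mul, hξ1, hφy₁n, hy₁n, one_mul, one_mul,
      inv_one, mul_one]
    apply h49a_norm_sub_lt
    · rw [norm_mul, hy₁n, mul_one]
      exact hc2
    · rw [norm_mul]
      calc ‖y₂‖ * ‖ξ * φ y₁ - (e : Om p) * y₁‖ ≤ 1 * ‖ξ * φ y₁ - (e : Om p) * y₁‖ :=
            mul_le_mul_of_nonneg_right hy₂n (norm_nonneg _)
        _ < 1 := by rw [one_mul]; exact hc1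
  rcases lt_or_eq_of_le hrn with hlt | heq
  · exact ⟨0, hconc 0 (by rw [Nat.cast_zero, sub_zero]; exact hlt)⟩
  obtain ⟨w, hw, hrw⟩ := h84u_teich heq
  have hw1 : ‖w‖ = 1 := h84u_isMu_norm hw
  have hφw : φ w = w ^ p := by
    obtain ⟨m, hm0, hm, hwm⟩ := hw
    exact hφ w m hm0 hm hwm
  have h3 : ‖w ^ p - w‖ < 1 := by
    have e1 : w ^ p - w = (φ (w - r) + (φ r - r)) + (r - w) := by
      rw [map_sub, hφw]
      ring
    rw [e1]
    apply h49a_norm_add_lt (h49a_norm_add_lt _ hφr) hrw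
    rw [h34k_norm_map, ← norm_neg, neg_sub]
    exact hrw
  have h4 : ‖w ^ (p - 1) - 1‖ < 1 := by
    have e0 : w ^ (p - 1) * w = w ^ p := by rw [← pow_succ, Nat.sub_add_cancel hp.one_le]
    have e1 : w ^ p - w = w * (w ^ (p - 1) - 1) := by
      rw [← e0]
      ring
    rw [e1, norm_mul, hw1, one_mul] at h3
    exact h3
  have h5 : w ^ (p - 1) = 1 :=
    h84u_isMu_eq (h84u_isMu_pow hw _) ⟨1, one_pos, fun h => hp.one_lt.ne' (Nat.dvd_one.mp h),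
      one_pow _⟩ h4
  obtain ⟨σ, hσ, hσπ⟩ := h89f_fundSurjective p (p - 1) h49a_pm1_pos h49a_not_dvd_pm1 π hπ w h5
  have hcyc := h34k_cycExp_val hζ σ
  set a : ℕ := ((h34k_chi hζ σ : (ZMod p)ˣ) : ZMod p).val with ha
  have h6 := h7c_cycFund p hp2 (p - 1) h49a_pm1_pos h49a_not_dvd_pm1 dvd_rfl π hπ σ hσ a hcyc
  rw [Nat.div_self h49a_pm1_pos, pow_one, hσπ, mul_div_assoc, div_self hπ0, mul_one] at h6
  refine ⟨a, hconc a ?_⟩
  have e1 : r - (a : Om p) = (r - w) + (w - (a : Om p)) := by ring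
  rw [e1]
  exact h49a_norm_add_lt hrw h6

/-- the level of a fixed one-unit: `‖u - 1‖ ≤ ‖π‖`. -/
theorem h49a_level_one (hπ : π ^ (p - 1) = p) {u : Om p} (hu : h49a_Fix π u)
    (h1 : ‖u - 1‖ < 1) : ‖u - 1‖ ≤ ‖π‖ := by
  have := h49a_disc hπ (hu.sub h49a_Fix.one) (j := 0) (by rw [pow_zero]; exact h1)
  simpa using this

/-- **the level theorem**: a character of `I_K` in the `ω`-eigenspace whose class has level
`≥ 2` is trivial. -/
theorem h49a_level (hp2 : p ≠ 2) (hπ : π ^ (p - 1) = p) (hζ : IsPrimitiveRoot ζ p)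
    {θ : Gq p → ZMod p} {β : Om p} (h : h49a_KG π ζ θ β) (hlev : ‖β ^ p - 1‖ ≤ ‖π‖ ^ 2)
    {t₀ : Gq p} (ht₀ : t₀ ∈ inertia p) (hord : orderOf (h34k_chi hζ t₀) = p - 1)
    (heig : h49a_Fix π (t₀ β / β ^ ((h34k_chi hζ t₀ : (ZMod p)ˣ) : ZMod p).val)) :
    ∀ g ∈ IK p π, θ g = 0 := by
  set a : ℕ := ((h34k_chi hζ t₀ : (ZMod p)ˣ) : ZMod p).val with ha
  have hβa : β ^ a ≠ 0 := pow_ne_zero _ h.1
  have h1 : t₀ (β ^ p) = (t₀ β / β ^ a) ^ p * (β ^ p) ^ a := by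
    rw [map_pow, div_pow, ← pow_mul, ← pow_mul, mul_comm p a]
    have := pow_ne_zero (a * p) h.1
    field_simp
  exact h49a_trivial_of_level_p hp2 hπ hζ h rfl
    (h49a_level_p hp2 hπ hζ (h.pow_fixed hζ) hlev ht₀ hord heig h1)

/-- **dependence** of the characters `l ∘ h` on `I_K`. -/
theorem h49a_dep (hp2 : p ≠ 2) (hπ : π ^ (p - 1) = p) (hζ : IsPrimitiveRoot ζ p)
    {k : Type} [Field k] [CharP k p] {h : Gq p → k} {φ : Gq p}
    (hadd : ∀ σ ∈ inertia p, ∀ τ ∈ inertia p, h (σ * τ) = h σ + h τ)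
    (hcont : ∃ F : LF p, FiniteDimensional ℚ_[p] F ∧ ∀ s ∈ inertia p, s ∈ GK F → h s = 0)
    (hφ : ∀ (w : Om p) (m : ℕ), 0 < m → ¬ p ∣ m → w ^ m = 1 → φ w = w ^ p)
    (hanti : ∀ σ ∈ inertia p, h (φ * σ * φ⁻¹) = - h σ)
    (l₁ l₂ : k →+ ZMod p) (g₀ : Gq p) (hg₀ : g₀ ∈ IK p π) (hl : l₁ (h g₀) = 1) :
    ∀ g ∈ IK p π, l₂ (h g) = l₂ (h g₀) * l₁ (h g) := by
  have hp : p.Prime := Fact.out
  haveI : NeZero p := ⟨hp.ne_zero⟩
  have hq0 := h49a_norm_pi_pos hπ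
  have hq1 := h49a_norm_pi_lt hπ
  -- the characters
  have hchar : ∀ l : k →+ ZMod p, IsKChar p π (fun g => l (h g)) := by
    intro l
    refine ⟨fun g hg g' hg' => ?_, ?_⟩
    · show l (h (g * g')) = l (h g) + l (h g')
      rw [hadd g hg.1 g' hg'.1, map_add]
    · obtain ⟨F, hF, hFz⟩ := hcont
      exact ⟨F, hF, fun s hs hsF => by
        show l (h s) = 0
        rw [hFz s hs.1 hsF, map_zero]⟩
  have hinv : ∀ l : k →+ ZMod p, ∀ t ∈ inertia p, ∀ g ∈ IK p π,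
      l (h (t⁻¹ * g * t)) = l (h g) := by
    intro l t ht g hg
    rw [h49a_h_conj hadd ht hg.1]
  have hgen : ∀ l : k →+ ZMod p, ∃ β : Om p, h49a_KG π ζ (fun g => l (h g)) β ∧
      ‖β ^ p - 1‖ < 1 := by
    intro l
    obtain ⟨β, hβ0, hβ⟩ := h10g_kummerGen p π ζ hζ.pow_eq_one
      (fun g hg => h49a_IK_fix_zeta hp2 hπ hζ hg) (fun g => l (h g)) (hchar l)
    exact h49a_normalise hp2 hπ hζ ⟨hβ0, hβ⟩ (fun t ht g hg => hinv l t ht g hg)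
  obtain ⟨β₁, hK₁, hβ₁⟩ := hgen l₁
  obtain ⟨β₂, hK₂, hβ₂⟩ := hgen l₂
  -- the generator of `inertia / I_K`
  obtain ⟨t₀, ht₀, hord⟩ := h34k_exists_gen hp2 h89f_fundSurjective h7c_cycFund hζ
  set a : ℕ := ((h34k_chi hζ t₀ : (ZMod p)ˣ) : ZMod p).val with ha
  have heig : ∀ (l : k →+ ZMod p) (β : Om p), h49a_KG π ζ (fun g => l (h g)) β →
      h49a_Fix π (t₀ β / β ^ a) := by
    intro l β hK
    apply hK.translate hζ hπ t₀ a
    intro g hg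
    rw [hinv l t₀ ht₀ g hg, ha, ZMod.natCast_zmod_val]
  -- the Frobenius
  set e : ℕ := (- ((h34k_chi hζ φ : (ZMod p)ˣ) : ZMod p)).val with he
  have hfrob : ∀ (l : k →+ ZMod p) (β : Om p), h49a_KG π ζ (fun g => l (h g)) β →
      h49a_Fix π (φ β / β ^ e) := by
    intro l β hK
    apply hK.translate hζ hπ φ e
    intro g hg
    show _ * l (h (φ⁻¹ * g * φ)) = _ * l (h g)
    have h1 := hanti (φ⁻¹ * g * φ) (h34k_conj_mem_inertia' hg.1 φ)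
    have h2 : φ * (φ⁻¹ * g * φ) * φ⁻¹ = g := by group
    rw [h2] at h1
    rw [h1, map_neg, he, ZMod.natCast_zmod_val]
    ring
  have hpowrel : ∀ (τ : Gq p) (n : ℕ) (β : Om p), β ≠ 0 →
      τ (β ^ p) = (τ β / β ^ n) ^ p * (β ^ p) ^ n := by
    intro τ n β hβ0
    rw [map_pow, div_pow, ← pow_mul, ← pow_mul, mul_comm p n]
    have := pow_ne_zero (n * p) hβ0
    field_simp
  have hu₁fix := hK₁.pow_fixed hζ
  have hu₂fix := hK₂.pow_fixed hζ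
  -- the level of `β₁` is one
  have hlev1 : ‖β₁ ^ p - 1‖ = ‖π‖ := by
    apply le_antisymm (h49a_level_one hπ hu₁fix hβ₁)
    by_contra hcon
    rw [not_le] at hcon
    have h1 : ‖β₁ ^ p - 1‖ ≤ ‖π‖ ^ 2 := by
      have := h49a_disc hπ (hu₁fix.sub h49a_Fix.one) (j := 1) (by rw [pow_one]; exact hcon)
      simpa using this
    have h2 := h49a_level hp2 hπ hζ hK₁ h1 ht₀ hord (heig l₁ β₁ hK₁) g₀ hg₀
    have h3 : l₁ (h g₀) = 0 := h2
    rw [hl] at h3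
    exact one_ne_zero h3
  have hlev2 : ‖β₂ ^ p - 1‖ ≤ ‖π‖ := h49a_level_one hπ hu₂fix hβ₂
  obtain ⟨n, hn⟩ := h49a_frob hp2 hπ hζ hφ e (hfrob l₁ β₁ hK₁) (hfrob l₂ β₂ hK₂)
    (hpowrel φ e β₁ hK₁.1) (hpowrel φ e β₂ hK₂.1) hlev1 hlev2
  -- the combination
  have hK := hK₁.comb hζ hK₂ n
  have hu₁n : ‖β₁ ^ p‖ = 1 := h49a_norm_eq_one hβ₁
  have hβ₁n0 : (β₁ ^ n) ^ p ≠ 0 := pow_ne_zero _ (pow_ne_zero _ hK₁.1)
  have hlevK : ‖(β₂ / β₁ ^ n) ^ p - 1‖ ≤ ‖π‖ ^ 2 := by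
    have e1 : (β₂ / β₁ ^ n) ^ p - 1 =
        (((β₂ ^ p - 1) - (n : Om p) * (β₁ ^ p - 1)) -
          ((β₁ ^ p) ^ n - 1 - (n : Om p) * (β₁ ^ p - 1))) / (β₁ ^ p) ^ n := by
      rw [div_pow, ← pow_mul, ← pow_mul, mul_comm p n]
      have := pow_ne_zero (n * p) hK₁.1
      field_simp
      ring
    rw [e1, norm_div, norm_pow, hu₁n, one_pow, div_one]
    apply h49a_norm_sub_le
    · have hfix : h49a_Fix π ((β₂ ^ p - 1) - (n : Om p) * (β₁ ^ p - 1)) :=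
        (hu₂fix.sub h49a_Fix.one).sub ((h49a_Fix.natCast n).mul (hu₁fix.sub h49a_Fix.one))
      have := h49a_disc hπ hfix (j := 1) (by rw [pow_one]; exact hn)
      simpa using this
    · have h4 := h49a_pow_expand (x := β₁ ^ p - 1) hβ₁.le n
      have h5 : (1 : Om p) + (β₁ ^ p - 1) = β₁ ^ p := by ring
      rw [h5, hlev1] at h4
      exact h4
  have heigK : h49a_Fix π (t₀ (β₂ / β₁ ^ n) / (β₂ / β₁ ^ n) ^ a) := by
    have e1 : t₀ (β₂ / β₁ ^ n) / (β₂ / β₁ ^ n) ^ a =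
        (t₀ β₂ / β₂ ^ a) / (t₀ β₁ / β₁ ^ a) ^ n := by
      rw [map_div₀, map_pow, div_pow, div_pow, ← pow_mul, ← pow_mul, mul_comm n a]
      have h6 : t₀ β₁ ≠ 0 := by
        rw [← norm_pos_iff, h34k_norm_map]
        exact norm_pos_iff.mpr hK₁.1
      have h7 := hK₁.1
      have h8 := hK₂.1
      have h9 := pow_ne_zero (a * n) h7
      field_simp
    rw [e1]
    exact (heig l₂ β₂ hK₂).div ((heig l₁ β₁ hK₁).pow n)
  have hzero := h49a_level hp2 hπ hζ hK hlevK ht₀ hord heigK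
  have h0 : l₂ (h g₀) = (n : ZMod p) := by
    have := hzero g₀ hg₀
    simp only [hl, mul_one] at this
    exact sub_eq_zero.mp this
  intro g hg
  have := hzero g hg
  rw [h0]
  exact sub_eq_zero.mp this

end Main

/-- **FL-S2A** (Claim A). -/
theorem h49a_ssClaimA : SSClaimA := by
  intro p _ hp2 k _ _ _ h φ hadd hcont hφ hanti
  obtain ⟨π, hπ⟩ := exists_root p (p - 1) h49a_pm1_pos
  obtain ⟨ζ, hζ⟩ := h34k_exists_primitiveRoot p
  exact h49a_of_IK hπ hadd (h49a_line_of_dep π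
    (fun l₁ l₂ g₀ hg₀ hl => h49a_dep hp2 hπ hζ hadd hcont hφ hanti l₁ l₂ g₀ hg₀ hl))

end Fermat.Agent.S56F
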