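import Fermat.Agent.S56F.FLS2Aend_helper39

/-!
# S56 / LOC-p-FL, Claim A (FL-S2A): the endgame with the relation `a ^ p = c' * a` (helper39)

Variant of `h39e_claimA_end` with the Frobenius relation in the form `a l ^ p = c' * a l`.
-/

set_option autoImplicit false

noncomputable section

namespace Fermat.Agent.S56F

/-- **Endgame of Claim A**, relation `a l ^ p = c' * a l`. -/
theorem h39e_claimA_end_pow (p : ℕ) [Fact p.Prime] (k : Type) [Field k] [Finite k] [CharP k p]
    {κ : Type*} [Field κ] [CharP κ p] {G : Type*} (I : Set G) (h : G → k)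
    (a : (k →+ ZMod p) → κ) (c' : κ)
    (ha : ∀ l l' : k →+ ZMod p, a (l + l') = a l + a l')
    (hinj : ∀ l : k →+ ZMod p, a l = 0 → ∀ s ∈ I, l (h s) = 0)
    (hrel : ∀ l : k →+ ZMod p, a l ^ p = c' * a l) :
    ∃ (a₀ : k) (χ : G → ZMod p), ∀ σ ∈ I, h σ = (((χ σ).val : ℕ) : k) * a₀ := by
  have hpp : p.Prime := Fact.out
  by_cases hc : c' = 0
  · refine h39e_claimA_end p k I h a 0 ha hinj (fun l => ?_)
    have h1 := hrel l
    rw [hc, zero_mul] at h1
    have h2 : a l = 0 := pow_eq_zero_iff hpp.ne_zero |>.mp h1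
    rw [h2]
    simp
  · refine h39e_claimA_end p k I h a (-c'⁻¹) ha hinj (fun l => ?_)
    rw [hrel l]
    field_simp
    ring

end Fermat.Agent.S56F
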