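import Fermat.Agent.S56F.IfaceKum
import Fermat.Agent.S56F.FLC5Final_helper89

/-!
# S56 / LOC-p-FL, leaf FL-S2B (helper43): Claim B

`h43b_ssClaimB : SSClaimB`: for a character `χ : inertia → 𝔽_p` every integer `z` of the field
cut out by `χ` over `K = ℚ_p^ur(π)` (`π ^ n = p`, `p ∤ n`) has `‖g z - z‖ ^ p ≤ ‖p‖` for
`g ∈ I_K`.

Proof.  `A = ker χ ≤ inertia`.  If `χ ≠ 0`, fix `g₁ ∈ inertia` with `χ g₁ ≠ 0`.
* `h43b_norm_pow` : an element `x ≠ 0` fixed by `A` has `‖x‖ ^ p ∈ p ^ ℤ`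
  (`∏_{i<p} g₁ ^ i x` is fixed by inertia; FL-D1).
* `h43b_lt` : for such `y` and `g ∈ inertia`: `‖g y - y‖ < ‖y‖`
  (`v = y ^ p / p ^ j` is a unit, `‖g v - v‖ < 1`, and `(u - 1) ^ p ≡ u ^ p - 1 mod p`).
* `h43b_le` : hence `‖g y - y‖ ^ p ≤ p⁻¹ ‖y‖ ^ p` (`g y - y` is fixed by `A` as well).
* eigen-decomposition `z = ∑_{i<n} z_i`, `z_i = n⁻¹ ∑_{ε ∈ μ_n} ε ^ (-i) t_ε z` with `t_ε ∈ A`,
  `t_ε π = ε π` (FL-D2 and the Chinese remainder theorem); `z_i / π ^ i` is fixed by `A`.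
-/

set_option autoImplicit false
set_option linter.style.haveILetI false
set_option linter.unusedSectionVars false

open Fermat.Agent.PT.Loc

noncomputable section

namespace Fermat.Agent.S56F

section Basic

variable {p : ℕ} [Fact p.Prime]

theorem h43b_norm_map (σ : Gq p) (x : Om p) : ‖σ x‖ = ‖x‖ :=
  congrArg NNReal.toReal (nnnorm_padicAlgCl_algEquiv p σ x)

theorem h43b_norm_p : ‖(p : Om p)‖ = (p : ℝ)⁻¹ := by
  have h1 : (p : Om p) = algebraMap ℚ_[p] (Om p) (p : ℚ_[p]) := by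
    rw [map_natCast]
  rw [h1, PadicAlgCl.norm_extends, Padic.norm_p]

theorem h43b_norm_natCast_eq_one {n : ℕ} (hn : ¬ p ∣ n) : ‖(n : Om p)‖ = 1 := by
  have h1 : (n : Om p) = algebraMap ℚ_[p] (Om p) (n : ℚ_[p]) := by
    rw [map_natCast]
  rw [h1, PadicAlgCl.norm_extends, Padic.norm_natCast_eq_one_iff]
  exact (Nat.Prime.coprime_iff_not_dvd Fact.out).mpr hn

theorem h43b_norm_sub_le_max (a b : Om p) : ‖a - b‖ ≤ max ‖a‖ ‖b‖ := by
  have h := IsUltrametricDist.norm_add_le_max a (-b)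
  rwa [norm_neg, ← sub_eq_add_neg] at h

theorem h43b_p_inv_pos : (0 : ℝ) < (p : ℝ)⁻¹ := by
  have hp : p.Prime := Fact.out
  exact inv_pos.mpr (by exact_mod_cast hp.pos)

theorem h43b_p_inv_lt_one : (p : ℝ)⁻¹ < 1 := by
  have hp : p.Prime := Fact.out
  exact inv_lt_one_of_one_lt₀ (by exact_mod_cast hp.one_lt)

/-- `‖u ^ p - 1‖ < 1` implies `‖u - 1‖ < 1` for `‖u‖ ≤ 1`. -/
theorem h43b_root_cong {u : Om p} (hu : ‖u‖ ≤ 1) (h : ‖u ^ p - 1‖ < 1) : ‖u - 1‖ < 1 := by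
  have hp : p.Prime := Fact.out
  have hu1 : ‖u - 1‖ ≤ 1 := by
    refine (h43b_norm_sub_le_max u 1).trans ?_
    rw [norm_one]
    exact max_le hu le_rfl
  -- in the ring of integers
  have hmem : u - 1 ∈ intOm p := ⟨hu1, fun σ hσ => by
    rw [Subgroup.mem_bot] at hσ
    rw [hσ]
    rfl⟩
  obtain ⟨r, hr⟩ := exists_add_pow_prime_eq hp (⟨u - 1, hmem⟩ : intOm p) 1
  have hr' : u ^ p = (u - 1) ^ p + 1 + (p : Om p) * (u - 1) * 1 * (r : Om p) := by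
    have := congrArg (fun x : intOm p => (x : Om p)) hr
    simpa using this
  have hrn : ‖(r : Om p)‖ ≤ 1 := r.2.1
  have h2 : (u - 1) ^ p = (u ^ p - 1) - (p : Om p) * (u - 1) * 1 * (r : Om p) := by
    rw [hr']
    ring
  have h3 : ‖(p : Om p) * (u - 1) * 1 * (r : Om p)‖ < 1 := by
    rw [norm_mul, norm_mul, norm_mul, norm_one, mul_one, h43b_norm_p]
    calc (p : ℝ)⁻¹ * ‖u - 1‖ * ‖(r : Om p)‖ ≤ (p : ℝ)⁻¹ * 1 * 1 := by
          gcongr
      _ < 1 := by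
          rw [mul_one, mul_one]
          exact h43b_p_inv_lt_one
  have h4 : ‖(u - 1) ^ p‖ < 1 := by
    rw [h2]
    exact lt_of_le_of_lt (h43b_norm_sub_le_max _ _) (max_lt h h3)
  rw [norm_pow] at h4
  by_contra hcon
  have h5 : 1 ≤ ‖u - 1‖ := not_lt.mp hcon
  have h6 : (1 : ℝ) ≤ ‖u - 1‖ ^ p := one_le_pow₀ h5
  linarith

end Basic

/-! ## The character `χ` -/

section Char

variable {p : ℕ} [Fact p.Prime] (χ : Gq p → ZMod p)
  (hχ : ∀ σ ∈ inertia p, ∀ τ ∈ inertia p, χ (σ * τ) = χ σ + χ τ)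

include hχ in
theorem h43b_chi_one : χ 1 = 0 := by
  have h := hχ 1 (inertia p).one_mem 1 (inertia p).one_mem
  rw [mul_one] at h
  exact left_eq_add.mp h

include hχ in
theorem h43b_chi_inv {σ : Gq p} (hσ : σ ∈ inertia p) : χ σ⁻¹ = - χ σ := by
  have h := hχ σ hσ σ⁻¹ ((inertia p).inv_mem hσ)
  rw [mul_inv_cancel, h43b_chi_one χ hχ] at h
  exact eq_neg_of_add_eq_zero_right h.symm

include hχ in
theorem h43b_chi_pow {σ : Gq p} (hσ : σ ∈ inertia p) (m : ℕ) : χ (σ ^ m) = (m : ZMod p) * χ σ := by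
  induction m with
  | zero => rw [pow_zero, h43b_chi_one χ hχ, Nat.cast_zero, zero_mul]
  | succ m ih =>
    rw [pow_succ, hχ _ ((inertia p).pow_mem hσ m) _ hσ, ih, Nat.cast_succ]
    ring

include hχ in
theorem h43b_chi_pow_p {σ : Gq p} (hσ : σ ∈ inertia p) : χ (σ ^ p) = 0 := by
  rw [h43b_chi_pow χ hχ hσ, ZMod.natCast_self, zero_mul]

include hχ in
theorem h43b_chi_conj {σ τ : Gq p} (hσ : σ ∈ inertia p) (hτ : τ ∈ inertia p) :
    χ (τ⁻¹ * σ * τ) = χ σ := by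
  rw [hχ _ ((inertia p).mul_mem ((inertia p).inv_mem hτ) hσ) _ hτ,
    hχ _ ((inertia p).inv_mem hτ) _ hσ, h43b_chi_inv χ hχ hτ]
  ring

/-- `x` is fixed by `A = ker χ`. -/
def h43b_Fix (χ : Gq p → ZMod p) (x : Om p) : Prop :=
  ∀ t ∈ inertia p, χ t = 0 → t x = x

include hχ in
/-- conjugates of `A`-fixed elements by inertia are `A`-fixed. -/
theorem h43b_fix_map {x : Om p} (hx : h43b_Fix χ x) {σ : Gq p} (hσ : σ ∈ inertia p) :
    h43b_Fix χ (σ x) := by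
  intro t ht h0
  have h1 : σ⁻¹ * t * σ ∈ inertia p :=
    (inertia p).mul_mem ((inertia p).mul_mem ((inertia p).inv_mem hσ) ht) hσ
  have h2 : χ (σ⁻¹ * t * σ) = 0 := by rw [h43b_chi_conj χ hχ ht hσ, h0]
  have h3 := hx _ h1 h2
  have h4 : t (σ x) = σ ((σ⁻¹ * t * σ) x) := by
    simp only [AlgEquiv.mul_apply]
    rw [← AlgEquiv.mul_apply σ σ⁻¹, mul_inv_cancel, AlgEquiv.one_apply]
  rw [h4, h3]

include hχ in
theorem h43b_fix_sub {x : Om p} (hx : h43b_Fix χ x) {σ : Gq p} (hσ : σ ∈ inertia p) :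
    h43b_Fix χ (σ x - x) := by
  intro t ht h0
  rw [map_sub, h43b_fix_map χ hχ hx hσ t ht h0, hx t ht h0]

include hχ in
/-- the norm `∏_{i<p} g₁ ^ i x` of an `A`-fixed element is fixed by inertia. -/
theorem h43b_prod_fixed {g₁ : Gq p} (hg₁ : g₁ ∈ inertia p) (hχ₁ : χ g₁ ≠ 0) {x : Om p}
    (hx0 : x ≠ 0) (hx : h43b_Fix χ x) (g : Gq p) (hg : g ∈ inertia p) :
    g (∏ i ∈ Finset.range p, (g₁ ^ i) x) = ∏ i ∈ Finset.range p, (g₁ ^ i) x := by
  have hp : p.Prime := Fact.out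
  set N : Om p := ∏ i ∈ Finset.range p, (g₁ ^ i) x with hN
  -- `A` fixes `N`
  have hA : h43b_Fix χ N := by
    intro t ht h0
    rw [hN, map_prod]
    refine Finset.prod_congr rfl (fun i _ => ?_)
    exact h43b_fix_map χ hχ hx ((inertia p).pow_mem hg₁ i) t ht h0
  -- `g₁` fixes `N`
  have h1 : g₁ N = N := by
    rw [hN, map_prod]
    have e1 : ∀ i, g₁ ((g₁ ^ i) x) = (g₁ ^ (i + 1)) x := by
      intro i
      rw [pow_succ', AlgEquiv.mul_apply]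
    simp only [e1]
    have e2 := Finset.prod_range_succ' (fun i => (g₁ ^ i) x) p
    have e3 := Finset.prod_range_succ (fun i => (g₁ ^ i) x) p
    rw [e3] at e2
    have e4 : (g₁ ^ p) x = x :=
      hx _ ((inertia p).pow_mem hg₁ p) (h43b_chi_pow_p χ hχ hg₁)
    rw [e4, pow_zero, AlgEquiv.one_apply] at e2
    exact (mul_right_cancel₀ hx0 e2).symm
  have h1' : ∀ m : ℕ, (g₁ ^ m) N = N := by
    intro m
    induction m with
    | zero => rw [pow_zero, AlgEquiv.one_apply]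
    | succ m ih => rw [pow_succ, AlgEquiv.mul_apply, h1, ih]
  -- `g = g₁ ^ m * a`
  set m : ℕ := (χ g / χ g₁).val with hm
  have ha : (g₁ ^ m)⁻¹ * g ∈ inertia p :=
    (inertia p).mul_mem ((inertia p).inv_mem ((inertia p).pow_mem hg₁ m)) hg
  have hχa : χ ((g₁ ^ m)⁻¹ * g) = 0 := by
    rw [hχ _ ((inertia p).inv_mem ((inertia p).pow_mem hg₁ m)) _ hg,
      h43b_chi_inv χ hχ ((inertia p).pow_mem hg₁ m), h43b_chi_pow χ hχ hg₁, hm,
      ZMod.natCast_zmod_val, div_mul_cancel₀ _ hχ₁]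
    ring
  have h2 : g N = (g₁ ^ m) (((g₁ ^ m)⁻¹ * g) N) := by
    rw [← AlgEquiv.mul_apply, mul_inv_cancel_left]
  rw [h2, hA _ ha hχa, h1']

include hχ in
/-- an `A`-fixed element `x ≠ 0` has `‖x‖ ^ p ∈ p ^ ℤ`. -/
theorem h43b_norm_pow {g₁ : Gq p} (hg₁ : g₁ ∈ inertia p) (hχ₁ : χ g₁ ≠ 0) {x : Om p}
    (hx0 : x ≠ 0) (hx : h43b_Fix χ x) : ∃ j : ℤ, ‖x‖ ^ p = ((p : ℝ)⁻¹) ^ j := by
  have hN0 : (∏ i ∈ Finset.range p, (g₁ ^ i) x) ≠ 0 := by
    rw [Finset.prod_ne_zero_iff]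
    intro i _
    exact (map_ne_zero _).mpr hx0
  obtain ⟨j, hj⟩ := h45f_norm_of_fixed p hN0
    (fun σ hσ => h43b_prod_fixed χ hχ hg₁ hχ₁ hx0 hx σ hσ)
  refine ⟨j, ?_⟩
  rw [← hj, norm_prod]
  simp only [h43b_norm_map]
  rw [Finset.prod_const, Finset.card_range]

include hχ in
/-- `‖g y - y‖ < ‖y‖` for `y ≠ 0` fixed by `A`, `g ∈ inertia`. -/
theorem h43b_lt {g₁ : Gq p} (hg₁ : g₁ ∈ inertia p) (hχ₁ : χ g₁ ≠ 0) {y : Om p}
    (hy0 : y ≠ 0) (hy : h43b_Fix χ y) {g : Gq p} (hg : g ∈ inertia p) :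
    ‖g y - y‖ < ‖y‖ := by
  have hp : p.Prime := Fact.out
  obtain ⟨j, hj⟩ := h43b_norm_pow χ hχ hg₁ hχ₁ hy0 hy
  have hp0 : (p : Om p) ≠ 0 := by
    exact_mod_cast hp.ne_zero
  have hpj0 : (p : Om p) ^ j ≠ 0 := zpow_ne_zero _ hp0
  have hnpj : ‖(p : Om p) ^ j‖ = ‖y‖ ^ p := by
    rw [norm_zpow, h43b_norm_p, hj]
  have hypos : 0 < ‖y‖ := norm_pos_iff.mpr hy0
  -- the unit `v`
  have hv : ‖y ^ p / (p : Om p) ^ j‖ ≤ 1 := by
    rw [norm_div, norm_pow, hnpj, div_self (pow_pos hypos p).ne']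
  have h1 := hg _ hv
  have hgp : g ((p : Om p) ^ j) = (p : Om p) ^ j := by
    rw [map_zpow₀, map_natCast]
  rw [map_div₀, map_pow, hgp, ← sub_div, norm_div, hnpj,
    div_lt_one (pow_pos hypos p)] at h1
  -- `u = g y / y`
  have hu : ‖g y / y‖ ≤ 1 := by
    rw [norm_div, h43b_norm_map, div_self hypos.ne']
  have h2 : ‖(g y / y) ^ p - 1‖ < 1 := by
    have e : (g y / y) ^ p - 1 = ((g y) ^ p - y ^ p) / y ^ p := by
      rw [div_pow, sub_div, div_self (pow_ne_zero p hy0)]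
    rw [e, norm_div, norm_pow, div_lt_one (pow_pos hypos p)]
    exact h1
  have h3 := h43b_root_cong hu h2
  have e : g y / y - 1 = (g y - y) / y := by
    rw [sub_div, div_self hy0]
  rw [e, norm_div, div_lt_one hypos] at h3
  exact h3

include hχ in
/-- `‖g y - y‖ ^ p ≤ p⁻¹ ‖y‖ ^ p` for `y` fixed by `A`, `g ∈ inertia`. -/
theorem h43b_le {g₁ : Gq p} (hg₁ : g₁ ∈ inertia p) (hχ₁ : χ g₁ ≠ 0) {y : Om p}
    (hy : h43b_Fix χ y) {g : Gq p} (hg : g ∈ inertia p) :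
    ‖g y - y‖ ^ p ≤ (p : ℝ)⁻¹ * ‖y‖ ^ p := by
  have hp : p.Prime := Fact.out
  by_cases hy0 : y = 0
  · rw [hy0, map_zero, sub_zero, norm_zero, zero_pow hp.ne_zero, mul_zero]
  by_cases hw0 : g y - y = 0
  · rw [hw0, norm_zero, zero_pow hp.ne_zero]
    exact mul_nonneg (h43b_p_inv_pos (p := p)).le (pow_nonneg (norm_nonneg _) _)
  obtain ⟨j, hj⟩ := h43b_norm_pow χ hχ hg₁ hχ₁ hy0 hy
  obtain ⟨j', hj'⟩ := h43b_norm_pow χ hχ hg₁ hχ₁ hw0 (h43b_fix_sub χ hχ hy hg)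
  have hlt := h43b_lt χ hχ hg₁ hχ₁ hy0 hy hg
  have hlt' : ‖g y - y‖ ^ p < ‖y‖ ^ p :=
    pow_lt_pow_left₀ hlt (norm_nonneg _) hp.ne_zero
  rw [hj, hj'] at hlt' ⊢
  -- `(p⁻¹) ^ j' < (p⁻¹) ^ j` gives `j < j'`
  have hjj : j < j' := by
    by_contra hcon
    have hle : j' ≤ j := not_lt.mp hcon
    have := zpow_le_zpow_right_of_le_one₀ (h43b_p_inv_pos (p := p))
      (h43b_p_inv_lt_one (p := p)).le hle
    linarith
  have h1 : ((p : ℝ)⁻¹) ^ j' ≤ ((p : ℝ)⁻¹) ^ (j + 1) :=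
    zpow_le_zpow_right_of_le_one₀ (h43b_p_inv_pos (p := p))
      (h43b_p_inv_lt_one (p := p)).le (by omega)
  rw [zpow_add_one₀ (h43b_p_inv_pos (p := p)).ne', mul_comm] at h1
  exact h1

end Char

/-! ## The eigen-decomposition -/

section Eigen

variable {p : ℕ} [Fact p.Prime]

theorem h43b_pow_mod' {ε : Om p} {n : ℕ} (hε : ε ^ n = 1) (a : ℕ) : ε ^ (a % n) = ε ^ a := by
  conv_rhs => rw [← Nat.mod_add_div a n, pow_add, pow_mul, hε, one_pow, mul_one]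

theorem h43b_pow_modEq {ε : Om p} {n : ℕ} (hε : ε ^ n = 1) {a b : ℕ} (h : a ≡ b [MOD n]) :
    ε ^ a = ε ^ b := by
  rw [← h43b_pow_mod' hε a, ← h43b_pow_mod' hε b, h]

/-- inertia fixes the `n`-th roots of unity. -/
theorem h43b_fix_root {n : ℕ} (hn : 0 < n) (hpn : ¬ p ∣ n) {ε : Om p} (hε : ε ^ n = 1)
    {σ : Gq p} (hσ : σ ∈ inertia p) : σ ε = ε :=
  h89d0_fix_of_mem_inertia hσ ε n hn hpn hε

theorem h43b_pow_apply {n : ℕ} (hn : 0 < n) (hpn : ¬ p ∣ n) {ε π : Om p} (hε : ε ^ n = 1)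
    {σ : Gq p} (hσ : σ ∈ inertia p) (h : σ π = ε * π) (m : ℕ) : (σ ^ m) π = ε ^ m * π := by
  induction m with
  | zero => rw [pow_zero, pow_zero, one_mul, AlgEquiv.one_apply]
  | succ m ih =>
    rw [pow_succ', AlgEquiv.mul_apply, ih, map_mul, map_pow, h43b_fix_root hn hpn hε hσ, h,
      pow_succ]
    ring

variable (χ : Gq p → ZMod p)
  (hχ : ∀ σ ∈ inertia p, ∀ τ ∈ inertia p, χ (σ * τ) = χ σ + χ τ)

include hχ in
/-- `A → μ_n` is onto. -/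
theorem h43b_exists_t {n : ℕ} (hn : 0 < n) (hpn : ¬ p ∣ n) {π : Om p} (hπ : π ^ n = p)
    {ε : Om p} (hε : ε ^ n = 1) : ∃ t ∈ inertia p, χ t = 0 ∧ t π = ε * π := by
  have hp : p.Prime := Fact.out
  obtain ⟨σ, hσ, hσπ⟩ := h89f_fundSurjective p n hn hpn π hπ ε hε
  have hco : Nat.Coprime p n := (Nat.Prime.coprime_iff_not_dvd hp).mpr hpn
  obtain ⟨k, hk0, hk1⟩ := Nat.chineseRemainder hco 0 1
  refine ⟨σ ^ k, (inertia p).pow_mem hσ k, ?_, ?_⟩
  · rw [h43b_chi_pow χ hχ hσ]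
    have : (k : ZMod p) = 0 := by
      rw [ZMod.natCast_eq_zero_iff]
      exact (Nat.modEq_zero_iff_dvd).mp hk0
    rw [this, zero_mul]
  · rw [h43b_pow_apply hn hpn hε hσ hσπ, h43b_pow_modEq hε hk1, pow_one]

end Eigen

/-- **FL-S2B** (Claim B). -/
theorem h43b_ssClaimB : SSClaimB := by
  intro p _ hp2 n hn hpn π hπ χ hχ g hg z hz hfix
  classical
  have hp : p.Prime := Fact.out
  by_cases h0 : ∀ σ ∈ inertia p, χ σ = 0
  · rw [hfix g hg (h0 g hg.1), sub_self, norm_zero, zero_pow hp.ne_zero]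
    exact norm_nonneg _
  have h0' : ∃ g₁ ∈ inertia p, χ g₁ ≠ 0 := by
    by_contra hcon
    apply h0
    intro σ hσ
    by_contra hne
    exact hcon ⟨σ, hσ, hne⟩
  obtain ⟨g₁, hg₁, hχ₁⟩ := h0'
  have hp0 : (p : Om p) ≠ 0 := by exact_mod_cast hp.ne_zero
  have hπ0 : π ≠ 0 := by
    intro h
    rw [h, zero_pow hn.ne'] at hπ
    exact hp0 hπ.symm
  have hn0 : (n : Om p) ≠ 0 := by exact_mod_cast hn.ne'
  -- the roots of unity
  set μ : Finset (Om p) := Polynomial.nthRootsFinset n (1 : Om p) with hμ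
  have hmem : ∀ ε : Om p, ε ∈ μ ↔ ε ^ n = 1 := fun ε => Polynomial.mem_nthRootsFinset hn 1
  have hε0 : ∀ ε ∈ μ, ε ≠ 0 := by
    intro ε hε h
    rw [hmem, h, zero_pow hn.ne'] at hε
    exact zero_ne_one hε
  have hεn : ∀ ε ∈ μ, ‖ε‖ = 1 := by
    intro ε hε
    have h2 : ‖ε‖ ^ n = 1 := by rw [← norm_pow, (hmem ε).mp hε, norm_one]
    exact (pow_eq_one_iff_of_nonneg (norm_nonneg ε) hn.ne').mp h2
  -- the lifts `t ε ∈ A`
  have hex : ∀ ε : Om p, ∃ t : Gq p, ε ∈ μ → t ∈ inertia p ∧ χ t = 0 ∧ t π = ε * π := by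
    intro ε
    by_cases hε : ε ∈ μ
    · obtain ⟨t, h1, h2, h3⟩ := h43b_exists_t χ hχ hn hpn hπ ((hmem ε).mp hε)
      exact ⟨t, fun _ => ⟨h1, h2, h3⟩⟩
    · exact ⟨1, fun h => (hε h).elim⟩
  choose t ht using hex
  -- the action of `A` on `π`
  have hδ : ∀ s ∈ inertia p, s π / π ∈ μ := by
    intro s _
    rw [hmem, div_pow, ← map_pow, hπ, map_natCast, div_self hp0]
  have hsπ : ∀ s : Gq p, s π = s π / π * π := fun s => by
    rw [div_mul_cancel₀ _ hπ0]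
  -- `s (t ε z) = t (δ ε) z`
  have hkey : ∀ s ∈ inertia p, χ s = 0 → ∀ ε ∈ μ,
      s (t ε z) = t (s π / π * ε) z := by
    intro s hs hs0 ε hε
    have hδε : s π / π * ε ∈ μ := by
      rw [hmem, mul_pow, (hmem _).mp (hδ s hs), (hmem ε).mp hε, one_mul]
    obtain ⟨a1, a2, a3⟩ := ht ε hε
    obtain ⟨b1, b2, b3⟩ := ht _ hδε
    have hu : (t (s π / π * ε))⁻¹ * s * t ε ∈ IK p π := by
      refine ⟨(inertia p).mul_mem ((inertia p).mul_mem ((inertia p).inv_mem b1) hs) a1, ?_⟩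
      rw [AlgEquiv.mul_apply, AlgEquiv.mul_apply, a3, map_mul,
        h43b_fix_root hn hpn ((hmem ε).mp hε) hs]
      have e1 : ε * s π = t (s π / π * ε) π := by
        rw [b3]
        conv_lhs => rw [hsπ s]
        ring
      rw [e1, ← AlgEquiv.mul_apply, inv_mul_cancel, AlgEquiv.one_apply]
    have hu0 : χ ((t (s π / π * ε))⁻¹ * s * t ε) = 0 := by
      rw [hχ _ ((inertia p).mul_mem ((inertia p).inv_mem b1) hs) _ a1,
        hχ _ ((inertia p).inv_mem b1) _ hs, h43b_chi_inv χ hχ b1, a2, b2, hs0]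
      ring
    have h1 := hfix _ hu hu0
    have h2 : s (t ε z) = t (s π / π * ε) (((t (s π / π * ε))⁻¹ * s * t ε) z) := by
      simp only [AlgEquiv.mul_apply]
      rw [← AlgEquiv.mul_apply (t (s π / π * ε)) (t (s π / π * ε))⁻¹, mul_inv_cancel,
        AlgEquiv.one_apply]
    rw [h2, h1]
  -- the components
  set zi : ℕ → Om p := fun i => (n : Om p)⁻¹ * ∑ ε ∈ μ, (ε⁻¹) ^ i * t ε z with hzi
  -- (Z1) the eigen-property
  have hZ1 : ∀ s ∈ inertia p, χ s = 0 → ∀ i, s (zi i) = (s π / π) ^ i * zi i := by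
    intro s hs hs0 i
    have hδμ := hδ s hs
    have hδ0 : s π / π ≠ 0 := hε0 _ hδμ
    simp only [hzi]
    have e1 : ∀ ε ∈ μ, s ((ε⁻¹) ^ i * t ε z) = (ε⁻¹) ^ i * t (s π / π * ε) z := by
      intro ε hε
      rw [map_mul, map_pow, map_inv₀, h43b_fix_root hn hpn ((hmem ε).mp hε) hs,
        hkey s hs hs0 ε hε]
    rw [map_mul, map_inv₀, map_natCast, map_sum, Finset.sum_congr rfl e1, mul_left_comm,
      Finset.mul_sum μ _ ((s π / π) ^ i)]
    congr 1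
    refine Finset.sum_nbij' (fun ε => s π / π * ε) (fun ε => (s π / π)⁻¹ * ε) ?_ ?_ ?_ ?_ ?_
    · intro ε hε
      rw [hmem, mul_pow, (hmem _).mp hδμ, (hmem ε).mp hε, one_mul]
    · intro ε hε
      rw [hmem, mul_pow, inv_pow, (hmem _).mp hδμ, (hmem ε).mp hε, inv_one, one_mul]
    · intro ε _
      rw [← mul_assoc, inv_mul_cancel₀ hδ0, one_mul]
    · intro ε _
      rw [← mul_assoc, mul_inv_cancel₀ hδ0, one_mul]
    · intro ε hε
      rw [mul_inv, mul_pow, inv_pow (s π / π), ← mul_assoc, ← mul_assoc,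
        mul_inv_cancel₀ (pow_ne_zero i hδ0), one_mul]
  -- (Z2) the sum
  have h1μ : (1 : Om p) ∈ μ := by rw [hmem, one_pow]
  have hZ2 : ∑ i ∈ Finset.range n, zi i = z := by
    simp only [hzi]
    rw [← Finset.mul_sum, Finset.sum_comm]
    have e1 : ∀ ε ∈ μ, ∑ i ∈ Finset.range n, (ε⁻¹) ^ i * t ε z
        = if ε = 1 then (n : Om p) * z else 0 := by
      intro ε hε
      rw [← Finset.sum_mul]
      by_cases h1 : ε = 1
      · rw [if_pos h1, h1, inv_one]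
        simp only [one_pow, Finset.sum_const, Finset.card_range, nsmul_eq_mul, mul_one]
        congr 1
        obtain ⟨a1, a2, a3⟩ := ht 1 h1μ
        exact hfix _ ⟨a1, by rw [a3, one_mul]⟩ a2
      · rw [if_neg h1]
        have h2 := mul_geom_sum (ε⁻¹) n
        rw [inv_pow, (hmem ε).mp hε, inv_one, sub_self] at h2
        have h3 : ε⁻¹ - 1 ≠ 0 := by
          intro h
          apply h1
          have : ε⁻¹ = 1 := sub_eq_zero.mp h
          rw [← inv_inv ε, this, inv_one]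
        rcases mul_eq_zero.mp h2 with h | h
        · exact absurd h h3
        · rw [h, zero_mul]
    rw [Finset.sum_congr rfl e1, Finset.sum_ite_eq' μ 1, if_pos h1μ, ← mul_assoc,
      inv_mul_cancel₀ hn0, one_mul]
  -- (Z3) the norms
  have hZ3 : ∀ i, ‖zi i‖ ≤ 1 := by
    intro i
    simp only [hzi]
    rw [norm_mul, norm_inv, h43b_norm_natCast_eq_one hpn, inv_one, one_mul]
    obtain ⟨ε, hε, hle⟩ := IsUltrametricDist.exists_norm_finsetSum_le_of_nonempty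
      (t := μ) ⟨1, h1μ⟩ (fun ε => (ε⁻¹) ^ i * t ε z)
    refine hle.trans ?_
    rw [norm_mul, norm_pow, norm_inv, hεn ε hε, inv_one, one_pow, one_mul, h43b_norm_map]
    exact hz
  -- the components divided by `π ^ i` are fixed by `A`
  have hfixy : ∀ i, h43b_Fix χ (zi i / π ^ i) := by
    intro i s hs hs0
    have hδ0 : s π / π ≠ 0 := hε0 _ (hδ s hs)
    have e : (s π) ^ i = (s π / π) ^ i * π ^ i := by
      rw [← mul_pow, div_mul_cancel₀ _ hπ0]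
    rw [map_div₀, map_pow, hZ1 s hs hs0 i, e, mul_div_mul_left _ _ (pow_ne_zero i hδ0)]
  -- the estimate
  have hterm : ∀ i, ‖g (zi i) - zi i‖ ^ p ≤ ‖(p : Om p)‖ := by
    intro i
    have hπi : π ^ i ≠ 0 := pow_ne_zero i hπ0
    have e1 : g (zi i) - zi i = π ^ i * (g (zi i / π ^ i) - zi i / π ^ i) := by
      rw [map_div₀, map_pow, hg.2]
      field_simp
    have h1 := h43b_le χ hχ hg₁ hχ₁ (hfixy i) hg.1
    rw [e1, norm_mul, mul_pow, h43b_norm_p]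
    calc ‖π ^ i‖ ^ p * ‖g (zi i / π ^ i) - zi i / π ^ i‖ ^ p
        ≤ ‖π ^ i‖ ^ p * ((p : ℝ)⁻¹ * ‖zi i / π ^ i‖ ^ p) := by gcongr
      _ = (p : ℝ)⁻¹ * ‖zi i‖ ^ p := by
          rw [norm_div, div_pow]
          have : ‖π ^ i‖ ^ p ≠ 0 := pow_ne_zero p (norm_ne_zero_iff.mpr hπi)
          field_simp
      _ ≤ (p : ℝ)⁻¹ * 1 := by
          gcongr
          exact pow_le_one₀ (norm_nonneg _) (hZ3 i)
      _ = (p : ℝ)⁻¹ := mul_one _
  have e2 : g z - z = ∑ i ∈ Finset.range n, (g (zi i) - zi i) := by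
    rw [Finset.sum_sub_distrib, ← map_sum, hZ2]
  obtain ⟨i, -, hle⟩ := IsUltrametricDist.exists_norm_finsetSum_le_of_nonempty
    (t := Finset.range n) ⟨0, Finset.mem_range.mpr hn⟩ (fun i => g (zi i) - zi i)
  rw [e2]
  exact (pow_le_pow_left₀ (norm_nonneg _) hle p).trans (hterm i)

end Fermat.Agent.S56F
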