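import Fermat.Agent.S56F.IfaceKum
import Fermat.Agent.S56F.FLO4_helper4
import Fermat.Agent.S56F.FLO2_helper89
import Fermat.Agent.S56F.FLB7_helper87
import Fermat.Agent.S56F.FLB56_helper87
import Fermat.Agent.S56F.FLD0_helper89

/-!
# S56 / LOC-p-FL, leaf FL-S2F (helper4, prefix `h4f_`): `h4f_ssFlatDiag : SSFlatDiag`

The flat side of the diagonal part in the supersingular case.  `𝓗` a nice order over inertia on
`V × V` (deformed action).  Quotient `M' = (V × V) / (0 × k v₂) = V × k` (FL-B8), the line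
`{(0, y)}` in `M'` (FL-B7) with inertia acting through `χ₁`, `τ ∘ χ₁ = Ψ` (`Ψ σ = σ π / π`,
`π ^ (p² - 1) = p`); rank one (FL-C5): a function `X` with `‖X y‖ = ‖π‖` for `y ≠ 0`; the
ramification bound (FL-B6) at the point `(v₁, 0)` of `M'`, which `g ∈ I_K` moves by `(0, h g)`.
-/

set_option autoImplicit false
set_option linter.style.haveILetI false

open Fermat.Agent.PT.Loc

noncomputable section

namespace Fermat.Agent.S56F

/-- The exponent of the fundamental character of level `2` in level `n = q - 1`: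
if `τ ∘ χ = Ψ_π` (`π ^ (p² - 1) = p`) and `τ ∘ χ = Ψ_{π_N} ^ m` (`π_N ^ n = p`) on inertia, then
`(p² - 1) ∣ n` and `m % n = n / (p² - 1)`. -/
theorem h4f_exponent (p : ℕ) [Fact p.Prime] (hp2 : p ≠ 2) {k : Type} [Field k] [Fintype k]
    (τ : kˣ →* (Om p)ˣ) (χ : Gq p → kˣ) (π πN : Om p) (n m : ℕ)
    (hn : n = Fintype.card k - 1) (hn0 : 0 < n) (hpn : ¬ p ∣ n)
    (hπ : π ^ (p ^ 2 - 1) = p) (hπN : πN ^ n = p)
    (h1 : ∀ σ ∈ inertia p, ((τ (χ σ) : (Om p)ˣ) : Om p) = σ π / π)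
    (h2 : ∀ σ ∈ inertia p, ((τ (χ σ) : (Om p)ˣ) : Om p) = (σ πN / πN) ^ m) :
    (p ^ 2 - 1) ∣ n ∧ m % n = n / (p ^ 2 - 1) := by
  have hpp : p.Prime := Fact.out
  have hp3 : 3 ≤ p := by
    have := hpp.two_le
    omega
  have hp0 : (p : Om p) ≠ 0 := by exact_mod_cast hpp.ne_zero
  have hd0 : 0 < p ^ 2 - 1 := h89o_pow_sub_one_pos (p := p) 2 (by norm_num)
  have hd1 : 1 < p ^ 2 - 1 := by
    have : 9 ≤ p ^ 2 := by nlinarith
    omega
  have hπ0 : π ≠ 0 := by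
    intro h
    rw [h, zero_pow hd0.ne'] at hπ
    exact hp0 hπ.symm
  have hπN0 : πN ≠ 0 := by
    intro h
    rw [h, zero_pow hn0.ne'] at hπN
    exact hp0 hπN.symm
  -- (i) divisibility
  have hdvd : (p ^ 2 - 1) ∣ n := by
    obtain ⟨ζ₂, hζ₂⟩ := h89o_exists_primitiveRoot (p := p) (p ^ 2 - 1) hd0
    obtain ⟨σ, hσ, hσπ⟩ := h89f_fundSurjective p (p ^ 2 - 1) hd0
      (h89o_not_dvd_pow_sub_one (p := p) 2 (by norm_num)) π hπ ζ₂ hζ₂.pow_eq_one
    have e1 := h1 σ hσ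
    rw [hσπ, mul_div_assoc, div_self hπ0, mul_one] at e1
    have e2 := h89c5_tau_pow τ (χ σ)
    rw [e1, ← hn] at e2
    exact hζ₂.dvd_of_pow_eq_one n e2
  refine ⟨hdvd, ?_⟩
  obtain ⟨e, he⟩ := hdvd
  have he' : n / (p ^ 2 - 1) = e := by
    rw [he, Nat.mul_div_cancel_left e hd0]
  rw [he']
  have helt : e < n := by
    rw [← he']
    exact Nat.div_lt_self hn0 hd1
  -- (ii) the exponent
  obtain ⟨ζ, hζ⟩ := h89o_exists_primitiveRoot (p := p) n hn0
  obtain ⟨σ, hσ, hσπ⟩ := h89f_fundSurjective p n hn0 hpn πN hπN ζ hζ.pow_eq_one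
  have e1 := h2 σ hσ
  rw [hσπ, mul_div_assoc, div_self hπN0, mul_one] at e1
  have e2 := h1 σ hσ
  -- `π = ε πN ^ e` with `ε` a root of unity of order prime to `p`
  set ε : Om p := π / πN ^ e with hε
  have hε1 : ε ^ (p ^ 2 - 1) = 1 := by
    rw [hε, div_pow, hπ, ← pow_mul, mul_comm e, ← he, hπN, div_self hp0]
  have hσε : σ ε = ε :=
    (h89d0_inertiaIffRoots p σ).1 hσ ε (p ^ 2 - 1) hd0
      (h89o_not_dvd_pow_sub_one (p := p) 2 (by norm_num)) hε1
  have hπε : π = ε * πN ^ e := by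
    rw [hε, div_mul_cancel₀ _ (pow_ne_zero e hπN0)]
  have e3 : σ π / π = ζ ^ e := by
    have : σ π = ζ ^ e * π := by
      conv_lhs => rw [hπε]
      rw [map_mul, map_pow, hσε, hσπ, mul_pow]
      conv_rhs => rw [hπε]
      ring
    rw [this, mul_div_assoc, div_self hπ0, mul_one]
  rw [e3] at e2
  have e4 : ζ ^ (m % n) = ζ ^ e := by
    rw [← pow_eq_pow_mod m hζ.pow_eq_one, ← e1, e2]
  exact hζ.pow_inj (Nat.mod_lt m hn0) helt e4

/-- **FL-S2F.** -/
theorem h4f_ssFlatDiag : SSFlatDiag := by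
  intro p _ k _ _ _ V _ _ _ ρ hρ τ hτ π hπ v₁ v₂ hNF c hc h hh g hg hhg t ht
  classical
  letI : Fintype k := Fintype.ofFinite k
  have hpp : p.Prime := Fact.out
  have hp0 : (p : Om p) ≠ 0 := by exact_mod_cast hpp.ne_zero
  have hd0 : 0 < p ^ 2 - 1 := h89o_pow_sub_one_pos (p := p) 2 (by norm_num)
  have hπ0 : π ≠ 0 := by
    intro h0
    rw [h0, zero_pow hd0.ne'] at hπ
    exact hp0 hπ.symm
  haveI : Finite V := Module.finite_of_finite k
  -- coordinates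
  have hcard : Fintype.card (Fin 2) = Module.finrank k V := by
    rw [hρ.rank]
    rfl
  set b : Module.Basis (Fin 2) k V := basisOfLinearIndependentOfCardEqFinrank hNF.indep hcard
    with hb
  have hb0 : b 0 = v₁ := by
    rw [hb, coe_basisOfLinearIndependentOfCardEqFinrank]
    rfl
  have hb1 : b 1 = v₂ := by
    rw [hb, coe_basisOfLinearIndependentOfCardEqFinrank]
    rfl
  set ℓ : V →ₗ[k] k := b.coord 0 with hℓ
  have hℓ1 : ℓ v₁ = 1 := by
    rw [hℓ, ← hb0, Module.Basis.coord_apply, Module.Basis.repr_self]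
    simp
  have hℓ2 : ℓ v₂ = 0 := by
    rw [hℓ, ← hb1, Module.Basis.coord_apply, Module.Basis.repr_self]
    simp
  have hexp : ∀ w : V, w = ℓ w • v₁ + b.coord 1 w • v₂ := by
    intro w
    conv_lhs => rw [← b.sum_repr w]
    rw [Fin.sum_univ_two, hb0, hb1]
    rfl
  -- the character `χ₁`
  set χ : Gq p → kˣ := fun σ =>
    if hσ : ℓ (ρ σ v₁) ≠ 0 then Units.mk0 _ hσ else 1 with hχdef
  have hχ : ∀ σ ∈ inertia p,
      ρ σ v₁ = ((χ σ : kˣ) : k) • v₁ ∧ ((τ (χ σ) : (Om p)ˣ) : Om p) = σ π / π := by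
    intro σ hσ
    obtain ⟨a, ha, hτa⟩ := hNF.inert₁ σ hσ
    have h1 : ℓ (ρ σ v₁) = (a : k) := by
      rw [ha, map_smul, hℓ1, smul_eq_mul, mul_one]
    have h2 : χ σ = a := by
      apply Units.ext
      simp only [hχdef]
      rw [dif_pos (by rw [h1]; exact a.ne_zero)]
      exact h1
    rw [h2]
    exact ⟨ha, hτa⟩
  have hℓρ : ∀ σ ∈ inertia p, ∀ w : V, ℓ (ρ σ w) = ((χ σ : kˣ) : k) * ℓ w := by
    intro σ hσ w
    obtain ⟨a₂, ha₂, -⟩ := hNF.inert₂ σ hσ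
    conv_lhs => rw [hexp w]
    rw [map_add, map_smul, map_smul, (hχ σ hσ).1, ha₂, map_add, map_smul, map_smul, map_smul,
      map_smul, hℓ1, hℓ2]
    simp only [smul_eq_mul, mul_one, mul_zero, add_zero]
    ring
  -- on `I_K`
  have hIK : ∀ s ∈ IK p π, χ s = 1 ∧ ρ s v₁ = v₁ ∧ ℓ (c s (ρ s v₁)) = h s := by
    intro s hs
    have h1 := (hχ s hs.1).2
    rw [hs.2, div_self hπ0] at h1
    have h2 : χ s = 1 := by
      apply h89c5_tau_injective τ hτ
      apply Units.ext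
      rw [h1, map_one, Units.val_one]
    have h3 : ρ s v₁ = v₁ := by
      rw [(hχ s hs.1).1, h2, Units.val_one, one_smul]
    refine ⟨h2, h3, ?_⟩
    obtain ⟨b', hb'⟩ := hh s hs
    rw [h3, hb', map_add, map_smul, map_smul, hℓ1, hℓ2]
    simp
  -- the order on `V × V`
  obtain ⟨𝓗, hnice⟩ := hc.flat (inertia p)
  have hact : IsAct (defAct ρ c) := h4p_isAct p ρ c hc.cocycle
  have hstab : ∀ a : kˣ, 𝓗.StableUnder (fun x => a • x) := by
    intro a
    exact hnice.aut (DistribMulAction.toAddEquiv (V × V) a) (fun σ _ x => by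
      show a • defAct ρ c σ x = defAct ρ c σ (a • x)
      simp only [defAct, Units.smul_def, Prod.smul_fst, Prod.smul_snd, map_smul, Prod.smul_mk,
        smul_add])
  -- the quotient `M' = V × k`
  set actM : Gq p → V × k → V × k :=
    fun σ x => (ρ σ x.1, ((χ σ : kˣ) : k) * x.2 + ℓ (c σ (ρ σ x.1))) with hactM
  set q : (V × V) →ₗ[k] (V × k) := LinearMap.prodMap LinearMap.id ℓ with hq
  have hqs : Function.Surjective q := by
    rintro ⟨u, y⟩
    refine ⟨(u, y • v₁), ?_⟩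
    show ((u, ℓ (y • v₁)) : V × k) = (u, y)
    rw [map_smul, hℓ1, smul_eq_mul, mul_one]
  obtain ⟨𝓗', hmem', hchar'⟩ := h9q_quotOrder p (inertia p) (p : Om p)
    (h45f_inertiaDiscrete p) (V × V) (defAct ρ c) hact 𝓗 (V × k) actM q.toAddMonoidHom hqs
    (fun σ hσ x => by
      show ((ρ σ x.1, ℓ (ρ σ x.2 + c σ (ρ σ x.1))) : V × k) =
        (ρ σ x.1, ((χ σ : kˣ) : k) * ℓ x.2 + ℓ (c σ (ρ σ x.1)))
      rw [map_add, hℓρ σ hσ])
  have hstab' : ∀ a : kˣ, 𝓗'.StableUnder (fun x => a • x) := by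
    intro a f hf
    rw [hmem']
    have h1 := hstab a _ ((hmem' f).1 hf)
    have h2 : (fun z => f (a • z)) ∘ (q.toAddMonoidHom : V × V → V × k) =
        fun y => (f ∘ (q.toAddMonoidHom : V × V → V × k)) (a • y) := by
      funext y
      show f (a • q y) = f (q (a • y))
      rw [Units.smul_def, Units.smul_def, map_smul]
    rw [h2]
    exact h1
  -- the line `{(0, y)}`
  set j : k →ₗ[k] (V × k) := LinearMap.inr k V k with hj
  obtain ⟨𝓗L, hmemL, hcharL⟩ := h87f_subOrder p (inertia p) (V × k) actM 𝓗' k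
    (fun σ y => χ σ • y) j.toAddMonoidHom LinearMap.inr_injective
    (fun σ _ y => by
      show ((0, χ σ • y) : V × k) = (ρ σ 0, ((χ σ : kˣ) : k) * y + ℓ (c σ (ρ σ 0)))
      rw [map_zero, map_zero, map_zero, add_zero, Units.smul_def, smul_eq_mul])
  have hstabL : ∀ a : kˣ, 𝓗L.StableUnder (fun z => a • z) := by
    intro a f hf
    obtain ⟨f', hf', rfl⟩ := (hmemL f).1 hf
    rw [hmemL]
    refine ⟨fun z => f' (a • z), hstab' a f' hf', ?_⟩
    funext y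
    show f' (j (a • y)) = f' (a • j y)
    rw [Units.smul_def, Units.smul_def, map_smul]
  -- rank one
  obtain ⟨r, -, hcardk⟩ := FiniteField.card k p
  have hn0 : 0 < p ^ (r : ℕ) - 1 := h89o_pow_sub_one_pos (p := p) r r.pos
  obtain ⟨πN, hπN⟩ := IsAlgClosed.exists_pow_nat_eq (p : Om p) hn0
  obtain ⟨m, -, hχm, hX⟩ := h4o_rankOne p hρ.odd k r hcardk k (Module.finrank_self k)
    (fun σ y => χ σ • y) χ (fun σ _ y => rfl) 𝓗L hstabL (hcharL (hchar' hnice.char)) τ hτ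
    πN hπN
  obtain ⟨hdvd, hmod⟩ := h4f_exponent p hρ.odd τ χ π πN (p ^ (r : ℕ) - 1) m
    (by rw [hcardk]) hn0 (h89o_not_dvd_pow_sub_one (p := p) r r.pos) hπ hπN
    (fun σ hσ => (hχ σ hσ).2) hχm
  obtain ⟨X, hXmem, hX0, hXn⟩ := hX 0 r.pos
  have hXπ : ∀ y : k, y ≠ 0 → ‖X y‖ = ‖π‖ := by
    intro y hy
    have h1 := hXn y hy
    rw [pow_zero, one_mul, hmod] at h1
    have h2 : ‖π‖ ^ (p ^ (r : ℕ) - 1) = ‖(p : Om p)‖ ^ ((p ^ (r : ℕ) - 1) / (p ^ 2 - 1)) := by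
      obtain ⟨e, he⟩ := hdvd
      rw [he, Nat.mul_div_cancel_left e hd0, pow_mul, ← norm_pow, hπ]
    rw [← h2] at h1
    exact (pow_left_inj₀ (norm_nonneg _) (norm_nonneg _) hn0.ne').1 h1
  obtain ⟨f', hf', hXf⟩ := (hmemL X).1 hXmem
  have hXf' : ∀ y : k, X y = f' ((0, y) : V × k) := fun y => congrFun hXf y
  -- the ramification bound
  have hmove : ∀ s ∈ IK p π, actM s ((v₁, 0) : V × k) = ((v₁, h s) : V × k) := by
    intro s hs
    obtain ⟨e1, e2, e3⟩ := hIK s hs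
    show ((ρ s v₁, ((χ s : kˣ) : k) * 0 + ℓ (c s (ρ s v₁))) : V × k) = (v₁, h s)
    rw [e3, mul_zero, zero_add, e2]
  have hnot : ¬ 𝓗'.PtLE (actM g ((v₁, 0) : V × k) - ((v₁, 0) : V × k)) t := by
    intro hle
    have h1 := hle f' hf'
    rw [hmove g hg] at h1
    have h2 : ((v₁, h g) : V × k) - ((v₁, 0) : V × k) = ((0, h g) : V × k) := by
      ext <;> simp
    have h3 : f' (0 : V × k) = X 0 := (hXf' 0).symm
    rw [h2, ← hXf', h3, hX0, sub_zero, hXπ _ hhg] at h1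
    exact absurd ht (not_lt.2 h1)
  obtain ⟨z, hz1, hz2, hz3⟩ := h87f_ramBound p (inertia p) (V × k) actM 𝓗' g hg.1
    ((v₁, 0) : V × k) t hnot
  refine ⟨z, hz1, fun s hs hs0 => hz2 s hs.1 ?_, hz3⟩
  rw [hmove s hs, hs0]

end Fermat.Agent.S56F
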