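import Fermat.Agent.S56F.IfaceKum
import Fermat.Agent.S56F.FLS1f_helper45
import Fermat.Agent.S56F.FLD5_helper96
import Fermat.Agent.S56F.FLD2_helper89
import Fermat.Agent.S56F.FLD1_helper45

/-!
# S56 / LOC-p-FL, leaf FL-S2U (helper91): `SSUnrZero`

If the diagonal part of a trace-zero cocycle vanishes on inertia, it vanishes on the stabiliser
`D'` of the two lines of the supersingular normal form.

Proof.  In the basis `v₁, v₂` put `h s = (f s)₁₁`, so `(f s)₂₂ = - h s` (trace zero).  Then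
`h (s t) = h s + h t` if `s` preserves the lines and `h (s t) = h s - h t` if `s` swaps them.
A Frobenius `φ` swaps the lines (`Ψ (φ t φ⁻¹) = Ψ t ^ p`, and `Ψ` is onto `μ_{p²-1}` on inertia),
so `h (φ s φ⁻¹) = - h s` for `s ∈ D'`.  The commutator `c = s⁻¹ φ s φ⁻¹` lies in inertia, hence
`0 = h c = h (φ s φ⁻¹) - h s = - 2 h s`.  (Continuity of `f` is not needed.)

Main results:
* `h91u_psi_conj` : `Ψ (φ t φ⁻¹) = Ψ t ^ p` for `t` in inertia, `φ` a Frobenius;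
* `h91u_frob_not_diag` : a Frobenius does not preserve the line `k v₁` of an `SSNF`;
* `h91u_ssUnrZero : SSUnrZero`.
-/

set_option autoImplicit false
set_option linter.style.haveILetI false

open Fermat.Agent.PT.Loc Polynomial

noncomputable section

namespace Fermat.Agent.S56F

section Psi

variable {p : ℕ} [Fact p.Prime]

theorem h91u_root_ne_zero {n : ℕ} (hn : 0 < n) {π : Om p} (hπ : π ^ n = p) : π ≠ 0 := by
  rintro rfl
  rw [zero_pow hn.ne'] at hπ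
  exact (Nat.cast_ne_zero.mpr (Fact.out : p.Prime).ne_zero) hπ.symm

/-- `σ π / π` is an `n`-th root of unity. -/
theorem h91u_psi_pow {n : ℕ} {π : Om p} (hπ : π ^ n = p) (σ : Gq p) :
    (σ π / π) ^ n = 1 := by
  have hp0 : ((p : ℕ) : Om p) ≠ 0 := Nat.cast_ne_zero.mpr (Fact.out : p.Prime).ne_zero
  rw [div_pow, ← map_pow, hπ, map_natCast, div_self hp0]

/-- inertia is normal. -/
theorem h91u_inertia_conj (φ : Gq p) {t : Gq p} (ht : t ∈ inertia p) :
    φ * t * φ⁻¹ ∈ inertia p := by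
  intro x hx
  have h1 : ‖φ⁻¹ x‖ ≤ 1 := by rw [h89d0_norm_map]; exact hx
  have h2 := ht (φ⁻¹ x) h1
  have h4 : φ (φ⁻¹ x) = x := by
    rw [← AlgEquiv.mul_apply, mul_inv_cancel, AlgEquiv.one_apply]
  have h3 : (φ * t * φ⁻¹) x - x = φ (t (φ⁻¹ x) - φ⁻¹ x) := by
    rw [map_sub, AlgEquiv.mul_apply, AlgEquiv.mul_apply, h4]
  rw [h3, h89d0_norm_map]
  exact h2

/-- The fundamental character is raised to the `p`-th power by conjugation with a Frobenius. -/
theorem h91u_psi_conj {n : ℕ} (hn : 0 < n) (hpn : ¬ p ∣ n) {π : Om p} (hπ : π ^ n = p)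
    (φ : Gq p) (hφ : ∀ (w : Om p) (m : ℕ), 0 < m → ¬ p ∣ m → w ^ m = 1 → φ w = w ^ p)
    {t : Gq p} (ht : t ∈ inertia p) :
    (φ * t * φ⁻¹) π / π = (t π / π) ^ p := by
  have hπ0 : π ≠ 0 := h91u_root_ne_zero hn hπ
  have hε1 : φ⁻¹ π = (φ⁻¹ π / π) * π := by rw [div_mul_cancel₀ _ hπ0]
  have hεn : (φ⁻¹ π / π) ^ n = 1 := h91u_psi_pow hπ φ⁻¹
  have hψ1 : t π = (t π / π) * π := by rw [div_mul_cancel₀ _ hπ0]
  have hψn : (t π / π) ^ n = 1 := h91u_psi_pow hπ t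
  have htε : t (φ⁻¹ π / π) = φ⁻¹ π / π :=
    h89d0_fix_of_mem_inertia ht _ n hn hpn hεn
  have hφψ : φ (t π / π) = (t π / π) ^ p := hφ _ n hn hpn hψn
  have hφεπ : φ (φ⁻¹ π / π) * φ π = π := by
    rw [← map_mul, ← hε1, ← AlgEquiv.mul_apply, mul_inv_cancel, AlgEquiv.one_apply]
  have key : (φ * t * φ⁻¹) π = (t π / π) ^ p * π := by
    have e1 : (φ * t * φ⁻¹) π = φ (t (φ⁻¹ π)) := by
      rw [AlgEquiv.mul_apply, AlgEquiv.mul_apply]
    have e2 : t (φ⁻¹ π) = (φ⁻¹ π / π) * ((t π / π) * π) := by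
      conv_lhs => rw [hε1]
      rw [map_mul, htε, ← hψ1]
    rw [e1, e2, map_mul, map_mul, hφψ, mul_left_comm, hφεπ]
  rw [key, mul_div_assoc, div_self hπ0, mul_one]

/-- There is an element of inertia on which the fundamental character of level `p² - 1` takes a
value `ζ` with `ζ ^ p ≠ ζ`. -/
theorem h91u_exists_psi (π : Om p) (hπ : π ^ (p ^ 2 - 1) = p) :
    ∃ t ∈ inertia p, (t π / π) ^ p ≠ t π / π := by
  have hp := (Fact.out : p.Prime)
  have h2 := hp.two_le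
  have hsq : p ^ 2 = p * p := sq p
  have hpp : 2 * p ≤ p * p := Nat.mul_le_mul_right p h2
  have hn : 0 < p ^ 2 - 1 := by omega
  have hpn : ¬ p ∣ p ^ 2 - 1 := by
    intro hd
    have h1 : p ∣ p ^ 2 := Dvd.intro _ hsq.symm
    have h3 : p ∣ p ^ 2 - (p ^ 2 - 1) := Nat.dvd_sub h1 hd
    have h4 : p ^ 2 - (p ^ 2 - 1) = 1 := by omega
    rw [h4] at h3
    exact hp.one_lt.ne' (Nat.dvd_one.mp h3)
  haveI hnz : NeZero (((p ^ 2 - 1 : ℕ)) : Om p) := ⟨by exact_mod_cast hn.ne'⟩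
  obtain ⟨ζ, hζ⟩ := HasEnoughRootsOfUnity.exists_primitiveRoot (Om p) (p ^ 2 - 1)
  obtain ⟨t, ht, htπ⟩ := h89d2_fundSurjective_of h45f_inertiaDiscrete p (p ^ 2 - 1) hn hpn π hπ ζ
    hζ.pow_eq_one
  have hπ0 : π ≠ 0 := h91u_root_ne_zero hn hπ
  refine ⟨t, ht, ?_⟩
  rw [htπ, mul_div_assoc, div_self hπ0, mul_one]
  intro h
  have hζ0 : ζ ≠ 0 := hζ.ne_zero hn.ne'
  have hp1 : p = (p - 1) + 1 := by omega
  have h5 : ζ ^ (p - 1) = 1 := by
    have h6 : ζ ^ (p - 1) * ζ = 1 * ζ := by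
      rw [← pow_succ, ← hp1, one_mul]
      exact h
    exact mul_right_cancel₀ hζ0 h6
  have h7 : p - 1 < p ^ 2 - 1 := by omega
  exact hζ.pow_ne_one_of_pos_of_lt (by omega) h7 h5

end Psi

section Lin

variable {p : ℕ} [Fact p.Prime] {k : Type} [Field k] {V : Type} [AddCommGroup V] [Module k V]

theorem h91u_rho_inv_apply (ρ : Gq p →* Module.End k V) (σ : Gq p) (v : V) :
    ρ σ⁻¹ (ρ σ v) = v := by
  rw [← Module.End.mul_apply, ← map_mul, inv_mul_cancel, map_one, Module.End.one_apply]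

theorem h91u_rho_apply_inv (ρ : Gq p →* Module.End k V) (σ : Gq p) (v : V) :
    ρ σ (ρ σ⁻¹ v) = v := by
  rw [← Module.End.mul_apply, ← map_mul, mul_inv_cancel, map_one, Module.End.one_apply]

theorem h91u_rho_ne_zero (ρ : Gq p →* Module.End k V) (σ : Gq p) {v : V} (hv : v ≠ 0) :
    ρ σ v ≠ 0 := by
  intro h
  apply hv
  rw [← h91u_rho_inv_apply ρ σ v, h, map_zero]

/-- `ρ σ⁻¹` on an eigenline. -/
theorem h91u_inv_eigen (ρ : Gq p →* Module.End k V) (σ : Gq p) {v w : V} (hv : v ≠ 0) {a : k}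
    (h : ρ σ v = a • w) : a ≠ 0 ∧ ρ σ⁻¹ w = a⁻¹ • v := by
  have ha : a ≠ 0 := by
    rintro rfl
    exact h91u_rho_ne_zero ρ σ hv (by rw [h, zero_smul])
  refine ⟨ha, ?_⟩
  have h1 : ρ σ⁻¹ (ρ σ v) = v := h91u_rho_inv_apply ρ σ v
  rw [h, map_smul] at h1
  rw [← h1, smul_smul, inv_mul_cancel₀ ha, one_smul]

/-- Coordinates with respect to an independent pair in a plane. -/
theorem h91u_coords [Module.Finite k V] (hrank : Module.finrank k V = 2) {v₁ v₂ : V}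
    (hind : LinearIndependent k ![v₁, v₂]) :
    ∃ c₁ c₂ : V →ₗ[k] k, c₁ v₁ = 1 ∧ c₁ v₂ = 0 ∧ c₂ v₁ = 0 ∧ c₂ v₂ = 1 ∧
      (∀ x : V, x = c₁ x • v₁ + c₂ x • v₂) ∧
      ∀ X : Module.End k V, LinearMap.trace k V X = c₁ (X v₁) + c₂ (X v₂) := by
  classical
  let B : Module.Basis (Fin 2) k V :=
    basisOfLinearIndependentOfCardEqFinrank hind (by simp [hrank])
  have hB0 : B 0 = v₁ := by simp [B]
  have hB1 : B 1 = v₂ := by simp [B]
  refine ⟨B.coord 0, B.coord 1, ?_, ?_, ?_, ?_, ?_, ?_⟩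
  · rw [← hB0]; simp
  · rw [← hB1]; simp
  · rw [← hB0]; simp
  · rw [← hB1]; simp
  · intro x
    have h := B.sum_repr x
    rw [Fin.sum_univ_two, hB0, hB1] at h
    simpa [Module.Basis.coord_apply] using h.symm
  · intro X
    rw [LinearMap.trace_eq_matrix_trace k B X, Matrix.trace_fin_two, LinearMap.toMatrix_apply,
      LinearMap.toMatrix_apply, hB0, hB1]
    simp [Module.Basis.coord_apply]

end Lin

section Main

variable {p : ℕ} [Fact p.Prime] {k : Type} [Field k] {V : Type} [AddCommGroup V] [Module k V]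

/-- A Frobenius does not preserve the line `k v₁` of a supersingular normal form. -/
theorem h91u_frob_not_diag (ρ : Gq p →* Module.End k V) (τ : kˣ →* (Om p)ˣ) (π : Om p)
    (hπ : π ^ (p ^ 2 - 1) = p) (v₁ v₂ : V) (hNF : SSNF p ρ τ π v₁ v₂) (hv1 : v₁ ≠ 0)
    (φ : Gq p) (hφ : ∀ (w : Om p) (m : ℕ), 0 < m → ¬ p ∣ m → w ^ m = 1 → φ w = w ^ p) :
    ¬ ∃ a : k, ρ φ v₁ = a • v₁ := by
  rintro ⟨a, ha⟩
  have hp := (Fact.out : p.Prime)
  have h2 := hp.two_le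
  have hsq : p ^ 2 = p * p := sq p
  have hpp : 2 * p ≤ p * p := Nat.mul_le_mul_right p h2
  have hn : 0 < p ^ 2 - 1 := by omega
  have hpn : ¬ p ∣ p ^ 2 - 1 := by
    intro hd
    have h1 : p ∣ p ^ 2 := Dvd.intro _ hsq.symm
    have h3 : p ∣ p ^ 2 - (p ^ 2 - 1) := Nat.dvd_sub h1 hd
    have h4 : p ^ 2 - (p ^ 2 - 1) = 1 := by omega
    rw [h4] at h3
    exact hp.one_lt.ne' (Nat.dvd_one.mp h3)
  obtain ⟨t, ht, hne⟩ := h91u_exists_psi π hπ
  obtain ⟨at', hat, hτt⟩ := hNF.inert₁ t ht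
  obtain ⟨a', ha', hτ'⟩ := hNF.inert₁ (φ * t * φ⁻¹) (h91u_inertia_conj φ ht)
  obtain ⟨ha0, hinv⟩ := h91u_inv_eigen ρ φ hv1 ha
  have e1 : ρ (φ * t * φ⁻¹) v₁ = (at' : k) • v₁ := by
    rw [map_mul, map_mul, Module.End.mul_apply, Module.End.mul_apply, hinv, map_smul, hat,
      map_smul, map_smul, ha, smul_smul, smul_smul]
    congr 1
    field_simp
  have e2 : ((a' : k) - (at' : k)) • v₁ = 0 := by
    rw [sub_smul, ← ha', ← e1, sub_self]
  have e3 : (a' : k) = (at' : k) := by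
    rcases smul_eq_zero.mp e2 with h | h
    · exact sub_eq_zero.mp h
    · exact absurd h hv1
  have e4 : a' = at' := Units.ext e3
  apply hne
  rw [← h91u_psi_conj hn hpn hπ φ hφ ht, ← hτ', ← hτt, e4]

variable [Module.Finite k V]

/-- **FL-S2U.** -/
theorem h91u_ssUnrZero : SSUnrZero := by
  intro p _ k _ _ _ V _ _ _ ρ hρ τ _ π hπ v₁ v₂ hNF f _ hcoc htr hin σ hσ
  classical
  obtain ⟨c₁, c₂, h11, h12, h21, h22, hexp, htrace⟩ := h91u_coords hρ.rank hNF.indep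
  have hv1 : v₁ ≠ 0 := by
    intro h
    rw [h, map_zero] at h11
    exact zero_ne_one h11
  have hv2 : v₂ ≠ 0 := by
    intro h
    rw [h, map_zero] at h22
    exact zero_ne_one h22
  have hg : ∀ s, c₂ (f s v₂) = - c₁ (f s v₁) := fun s => by
    have h0 := htr s
    rw [htrace] at h0
    exact eq_neg_of_add_eq_zero_right h0
  have hf1 : f 1 = 0 := by
    have h0 := hcoc 1 1
    simp only [mul_one, map_one, inv_one, one_mul] at h0
    exact left_eq_add.mp h0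
  -- the rule for elements preserving the lines
  have hD : ∀ (s : Gq p) (a b : k), ρ s v₁ = a • v₁ → ρ s v₂ = b • v₂ →
      ∀ t, c₁ (f (s * t) v₁) = c₁ (f s v₁) + c₁ (f t v₁) := by
    intro s a b ha hb t
    obtain ⟨ha0, hinv⟩ := h91u_inv_eigen ρ s hv1 ha
    have hc : ∀ x, c₁ (ρ s x) = a * c₁ x := by
      intro x
      have e : ρ s x = c₁ x • (a • v₁) + c₂ x • (b • v₂) := by
        conv_lhs => rw [hexp x]
        rw [map_add, map_smul, map_smul, ha, hb]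
      rw [e, map_add, map_smul, map_smul, map_smul, map_smul, h11, h12]
      simp only [smul_eq_mul, mul_one, mul_zero, add_zero]
      ring
    rw [hcoc s t, LinearMap.add_apply, map_add, Module.End.mul_apply, Module.End.mul_apply, hinv,
      map_smul, hc, map_smul, smul_eq_mul, ← mul_assoc, mul_inv_cancel₀ ha0, one_mul]
  -- the rule for elements swapping the lines
  have hS : ∀ (s : Gq p) (a b : k), ρ s v₁ = a • v₂ → ρ s v₂ = b • v₁ →
      ∀ t, c₁ (f (s * t) v₁) = c₁ (f s v₁) - c₁ (f t v₁) := by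
    intro s a b ha hb t
    obtain ⟨hb0, hinv⟩ := h91u_inv_eigen ρ s hv2 hb
    have hc : ∀ x, c₁ (ρ s x) = b * c₂ x := by
      intro x
      have e : ρ s x = c₁ x • (a • v₂) + c₂ x • (b • v₁) := by
        conv_lhs => rw [hexp x]
        rw [map_add, map_smul, map_smul, ha, hb]
      rw [e, map_add, map_smul, map_smul, map_smul, map_smul, h11, h12]
      simp only [smul_eq_mul, mul_one, mul_zero, zero_add]
      ring
    rw [hcoc s t, LinearMap.add_apply, map_add, Module.End.mul_apply, Module.End.mul_apply, hinv,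
      map_smul, hc, map_smul, smul_eq_mul, ← mul_assoc, mul_inv_cancel₀ hb0, one_mul, hg,
      sub_eq_add_neg]
  -- `σ` preserves both lines
  obtain ⟨a, ha⟩ := hσ
  have hσd : ∃ a b : k, ρ σ v₁ = a • v₁ ∧ ρ σ v₂ = b • v₂ := by
    rcases hNF.swap σ with h | ⟨a', b', ha', -⟩
    · exact h
    · exfalso
      have h0 : c₁ (ρ σ v₁) = 0 := by rw [ha', map_smul, h12, smul_zero]
      rw [ha, map_smul, h11, smul_eq_mul, mul_one] at h0
      rw [h0, zero_smul] at ha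
      exact h91u_rho_ne_zero ρ σ hv1 ha
  obtain ⟨a₁, b₁, hσ1, hσ2⟩ := hσd
  -- a Frobenius swaps the lines
  obtain ⟨φ, hφ⟩ := h96f_frobExists p
  have hφs : ∃ a b : k, ρ φ v₁ = a • v₂ ∧ ρ φ v₂ = b • v₁ := by
    rcases hNF.swap φ with ⟨a', b', ha', -⟩ | h
    · exact absurd ⟨a', ha'⟩ (h91u_frob_not_diag ρ τ π hπ v₁ v₂ hNF hv1 φ hφ)
    · exact h
  obtain ⟨a₂, b₂, hφ1, hφ2⟩ := hφs
  -- the commutator
  have hcin : σ⁻¹ * φ * σ * φ⁻¹ ∈ inertia p := by
    have h0 := h45h_commutator_mem_inertia p σ⁻¹ φ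
    rwa [inv_inv] at h0
  have hc0 : c₁ (f (σ⁻¹ * φ * σ * φ⁻¹) v₁) = 0 := by
    obtain ⟨b, hb⟩ := hin _ hcin
    rw [hb, map_smul, h12, smul_zero]
  have hmul : σ * (σ⁻¹ * φ * σ * φ⁻¹) = φ * (σ * φ⁻¹) := by group
  have e1 : c₁ (f (φ * (σ * φ⁻¹)) v₁) = c₁ (f σ v₁) := by
    rw [← hmul, hD σ a₁ b₁ hσ1 hσ2, hc0, add_zero]
  have e2 : c₁ (f (φ * φ⁻¹) v₁) = c₁ (f φ v₁) - c₁ (f φ⁻¹ v₁) := hS φ a₂ b₂ hφ1 hφ2 φ⁻¹
  rw [mul_inv_cancel, hf1, LinearMap.zero_apply, map_zero] at e2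
  have e3 : c₁ (f (φ * (σ * φ⁻¹)) v₁) = - c₁ (f σ v₁) := by
    rw [hS φ a₂ b₂ hφ1 hφ2, hD σ a₁ b₁ hσ1 hσ2]
    linear_combination (-1 : k) * e2
  have e4 : (2 : k) * c₁ (f σ v₁) = 0 := by linear_combination e3 - e1
  have h2 : (2 : k) ≠ 0 := by
    intro h
    have h6 : ((2 : ℕ) : k) = 0 := by exact_mod_cast h
    have h7 := (CharP.cast_eq_zero_iff k p 2).1 h6
    have h8 := Nat.le_of_dvd (by norm_num) h7
    have h9 := (Fact.out : p.Prime).two_le
    exact hρ.odd (by omega)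
  have e5 : c₁ (f σ v₁) = 0 := by
    rcases mul_eq_zero.mp e4 with h | h
    · exact absurd h h2
    · exact h
  refine ⟨c₂ (f σ v₁), ?_⟩
  conv_lhs => rw [hexp (f σ v₁)]
  rw [e5, zero_smul, zero_add]

end Main


end Fermat.Agent.S56F
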