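import Fermat.Agent.S56F.FLS2_helper39
import Fermat.Agent.S56F.FLS2B_helper43
import Fermat.Agent.S56F.FLS2F_helper4
import Fermat.Agent.S56F.FLS2U_helper91

/-!
# S56 / LOC-p-FL, block SS, row FL-S2 (helper39): wiring of `SSDiagZero`

With the landed leaves `h43b_ssClaimB` (helper43), `h4f_ssFlatDiag` (helper4),
`h91u_ssUnrZero` (helper91), the only remaining input of `SSDiagZero` is `SSClaimA` (FL-S2A).
-/

set_option autoImplicit false

namespace Fermat.Agent.S56F

/-- **FL-S2** from Claim A alone. -/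
theorem h39s_ssDiagZero_ofA (hA : SSClaimA) : SSDiagZero :=
  h39s_ssDiagZero_of hA h43b_ssClaimB h4f_ssFlatDiag h91u_ssUnrZero

end Fermat.Agent.S56F
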