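import Fermat.Agent.S56F.FLS2AEx_helper1
import Fermat.Agent.S56F.FLS2Final_helper39

/-!
# S56 / LOC-p-FL, block SS, row FL-S2: `SSDiagZero`, unconditional

`h1a_ssDiagZero : SSDiagZero` from `h1a_claimA : SSClaimA` (helper1, helper79, helper39) and the
landed wiring `h39s_ssDiagZero_ofA` (helper39; leaves of helper43, helper4, helper91).
-/

set_option autoImplicit false

namespace Fermat.Agent.S56F

/-- **FL-S2** (exact frozen Prop, unconditional). -/
theorem h1a_ssDiagZero : SSDiagZero := h39s_ssDiagZero_ofA h1a_claimA

end Fermat.Agent.S56F
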