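import Fermat.Agent.S56F.IfaceKum
import Fermat.Agent.S56F.FLO3_helper84
import Fermat.Agent.S56F.FLC5Final_helper89
import Fermat.Agent.S56F.FLC1_helper7
import Fermat.Agent.S56F.FLB8final_helper9
import Fermat.Agent.S56F.FLB7_helper87
import Fermat.Agent.S56F.FLD1_helper45
import Fermat.Agent.S56F.FLB56_helper87
import Fermat.Agent.S56F.FLD0_helper89

/-!
# S56 / LOC-p-FL, row FL-S2F (helper84): `SSFlatDiag`

The quotient `Q = (V ⊕ εV)/(ε k v₂) = V × k` of a nice order over inertia on `V × V`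
(`QuotOrder`), the line `{(0, y)}` in it (`SubOrder`) with character `χ₁`; Raynaud's rank one
gives a function `X` of the order with `‖X y‖ = ‖π‖` for `y ≠ 0` (`h84f_level`: the exponent
`m` of `τ ∘ χ₁ = Ψ_{q-1} ^ m` is `(q-1)/(p²-1)` modulo `q - 1`); the ramification bound at the
point `(v₁, 0)`, which an element `s` of `I_K` moves by `(0, h s)`.

Main theorem: `h84f_ssFlatDiag : SSFlatDiag` (unconditional).
-/

set_option autoImplicit false
set_option linter.style.haveILetI false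

open Fermat.Agent.PT.Loc Polynomial

noncomputable section

namespace Fermat.Agent.S56F

/-! ## The level of the fundamental character -/

section Level

variable {p : ℕ} [Fact p.Prime]

theorem h84f_pow_sub_one_pos {r : ℕ} (hr : 0 < r) : 0 < p ^ r - 1 := by
  have hp := (Fact.out : p.Prime)
  have hpr : p ≤ p ^ r := by
    calc p = p ^ 1 := (pow_one p).symm
      _ ≤ p ^ r := Nat.pow_le_pow_right hp.pos hr
  exact Nat.sub_pos_of_lt (lt_of_lt_of_le hp.one_lt hpr)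

theorem h84f_not_dvd_pow_sub_one {r : ℕ} (hr : 0 < r) : ¬ p ∣ p ^ r - 1 := by
  have hp := (Fact.out : p.Prime)
  have hn0 := h84f_pow_sub_one_pos (p := p) hr
  intro h
  have h1 : p ∣ p ^ r := dvd_pow_self p hr.ne'
  have h2 : p ∣ p ^ r - (p ^ r - 1) := Nat.dvd_sub h1 h
  have h3 : p ^ r - (p ^ r - 1) = 1 := by omega
  rw [h3] at h2
  exact hp.one_lt.ne' (Nat.dvd_one.mp h2)

theorem h84f_root_ne_zero {n : ℕ} (hn : 0 < n) {π : Om p} (hπ : π ^ n = p) : π ≠ 0 := by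
  have hp := (Fact.out : p.Prime)
  rintro rfl
  rw [zero_pow hn.ne'] at hπ
  exact (Nat.cast_ne_zero.mpr hp.ne_zero) hπ.symm

/-- **The level.**  If `τ ∘ χ = Ψ` (level `p² - 1`) and `τ ∘ χ = Ψ₀ ^ m` (level `q - 1`,
`q = #k = p ^ r`) on inertia, then `‖π‖ ^ (q - 1) = ‖p‖ ^ (m mod (q - 1))`. -/
theorem h84f_level {k : Type} [Field k] [Fintype k] {r : ℕ}
    (hcard : Fintype.card k = p ^ r) (τ : kˣ →* (Om p)ˣ) {π : Om p}
    (hπ : π ^ (p ^ 2 - 1) = p) {π₀ : Om p} (hπ₀ : π₀ ^ (p ^ r - 1) = p) (χ : Gq p → kˣ) (m : ℕ)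
    (h1 : ∀ σ ∈ inertia p, ((τ (χ σ) : (Om p)ˣ) : Om p) = σ π / π)
    (h2 : ∀ σ ∈ inertia p, ((τ (χ σ) : (Om p)ˣ) : Om p) = (σ π₀ / π₀) ^ m) :
    ‖π‖ ^ (p ^ r - 1) = ‖(p : Om p)‖ ^ (m % (p ^ r - 1)) := by
  have hp := (Fact.out : p.Prime)
  have hr : 0 < r := by
    rcases Nat.eq_zero_or_pos r with h | h
    · exfalso
      rw [h, pow_zero] at hcard
      have := Fintype.one_lt_card (α := k)
      omega
    · exact h
  have hn0 : 0 < p ^ r - 1 := h84f_pow_sub_one_pos hr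
  have hpn : ¬ p ∣ p ^ r - 1 := h84f_not_dvd_pow_sub_one hr
  have hN0 : 0 < p ^ 2 - 1 := h84f_pow_sub_one_pos (by norm_num)
  have hpN : ¬ p ∣ p ^ 2 - 1 := h84f_not_dvd_pow_sub_one (by norm_num)
  have hN1 : 1 < p ^ 2 - 1 := by
    have h4 : 4 ≤ p ^ 2 := by nlinarith [hp.two_le]
    omega
  have hπ0 : π ≠ 0 := h84f_root_ne_zero hN0 hπ
  have hπ₀0 : π₀ ≠ 0 := h84f_root_ne_zero hn0 hπ₀
  have hp0 : ((p : ℕ) : Om p) ≠ 0 := Nat.cast_ne_zero.mpr hp.ne_zero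
  -- `p² - 1` divides `q - 1`
  haveI hnz : NeZero (((p ^ 2 - 1 : ℕ)) : Om p) := ⟨by exact_mod_cast hN0.ne'⟩
  obtain ⟨ζ, hζ⟩ := HasEnoughRootsOfUnity.exists_primitiveRoot (Om p) (p ^ 2 - 1)
  obtain ⟨σ, hσ, hσπ⟩ := h89f_fundSurjective p (p ^ 2 - 1) hN0 hpN π hπ ζ hζ.pow_eq_one
  have hΨ : σ π / π = ζ := by
    rw [hσπ, mul_div_assoc, div_self hπ0, mul_one]
  have hζn : ζ ^ (p ^ r - 1) = 1 := by
    rw [← hΨ, ← h1 σ hσ, ← hcard]
    exact h89c5_tau_pow τ (χ σ)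
  obtain ⟨d, hd⟩ := (hζ.pow_eq_one_iff_dvd _).1 hζn
  -- the two uniformisers
  obtain ⟨ω, hωdef⟩ : ∃ ω : Om p, ω = π₀ ^ d / π := ⟨_, rfl⟩
  have hω : ω ^ (p ^ 2 - 1) = 1 := by
    rw [hωdef, div_pow, ← pow_mul, mul_comm d, ← hd, hπ₀, hπ, div_self hp0]
  have hω0 : ω ≠ 0 := by
    rw [hωdef]
    exact div_ne_zero (pow_ne_zero _ hπ₀0) hπ0
  have e1 : π₀ ^ d = ω * π := by
    rw [hωdef]
    exact (div_mul_cancel₀ _ hπ0).symm
  have hΨd : ∀ s ∈ inertia p, (s π₀ / π₀) ^ d = s π / π := by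
    intro s hs
    have e0 := h89d0_fix_of_mem_inertia hs ω (p ^ 2 - 1) hN0 hpN hω
    have e2 : s (π₀ ^ d) = ω * s π := by
      rw [e1, map_mul, e0]
    rw [div_pow, ← map_pow, e2, e1]
    exact mul_div_mul_left _ _ hω0
  -- `m ≡ d`
  haveI hnz₀ : NeZero (((p ^ r - 1 : ℕ)) : Om p) := ⟨by exact_mod_cast hn0.ne'⟩
  obtain ⟨ζ₀, hζ₀⟩ := HasEnoughRootsOfUnity.exists_primitiveRoot (Om p) (p ^ r - 1)
  obtain ⟨σ₀, hσ₀, hσ₀π⟩ := h89f_fundSurjective p (p ^ r - 1) hn0 hpn π₀ hπ₀ ζ₀ hζ₀.pow_eq_one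
  have hΨ₀ : σ₀ π₀ / π₀ = ζ₀ := by
    rw [hσ₀π, mul_div_assoc, div_self hπ₀0, mul_one]
  have hpow : ζ₀ ^ m = ζ₀ ^ d := by
    rw [← hΨ₀, ← h2 σ₀ hσ₀, hΨd σ₀ hσ₀, h1 σ₀ hσ₀]
  have hζ₀0 : ζ₀ ≠ 0 := hζ₀.ne_zero hn0.ne'
  have hmod : m ≡ d [MOD p ^ r - 1] := by
    have h3 : (Units.mk0 ζ₀ hζ₀0) ^ m = (Units.mk0 ζ₀ hζ₀0) ^ d := by
      apply Units.ext
      simpa using hpow
    have h4 := pow_eq_pow_iff_modEq.1 h3
    have h5 : orderOf (Units.mk0 ζ₀ hζ₀0) = p ^ r - 1 := by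
      have h6 : orderOf ζ₀ = p ^ r - 1 := hζ₀.eq_orderOf.symm
      rw [← h6, ← orderOf_units, Units.val_mk0]
    rwa [h5] at h4
  have hdpos : 0 < d := by
    rcases Nat.eq_zero_or_pos d with h | h
    · rw [h, mul_zero] at hd
      omega
    · exact h
  have hdlt : d < p ^ r - 1 := by
    rw [hd]
    nlinarith
  have hmd : m % (p ^ r - 1) = d := by
    have := hmod
    unfold Nat.ModEq at this
    rw [this, Nat.mod_eq_of_lt hdlt]
  rw [hmd, hd, pow_mul, ← norm_pow, hπ]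

end Level

/-! ## The quotient `V × k` of `V × V` -/

section Main

/-- **FL-S2F**, unconditional. -/
theorem h84f_ssFlatDiag : SSFlatDiag := by
  intro p _ k _ _ _ V _ _ _ ρ hρ τ hτ π hπ v₁ v₂ hNF c hc h hh g hg hhg t ht
  classical
  have hp := (Fact.out : p.Prime)
  haveI : Finite V := Module.finite_of_finite k
  letI : Fintype k := Fintype.ofFinite k
  obtain ⟨r, -, hcard⟩ := FiniteField.card k p
  have hr : 0 < (r : ℕ) := r.pos
  have hn0 : 0 < p ^ (r : ℕ) - 1 := h84f_pow_sub_one_pos hr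
  have hN0 : 0 < p ^ 2 - 1 := h84f_pow_sub_one_pos (by norm_num)
  have hπ0 : π ≠ 0 := h84f_root_ne_zero hN0 hπ
  -- coordinates
  have hcardB : Fintype.card (Fin 2) = Module.finrank k V := by
    rw [hρ.rank, Fintype.card_fin]
  let B : Module.Basis (Fin 2) k V := basisOfLinearIndependentOfCardEqFinrank hNF.indep hcardB
  have hB0 : B 0 = v₁ := by
    simp [B, coe_basisOfLinearIndependentOfCardEqFinrank]
  have hB1 : B 1 = v₂ := by
    simp [B, coe_basisOfLinearIndependentOfCardEqFinrank]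
  let ℓ : V →ₗ[k] k := B.coord 0
  have hℓ1 : ℓ v₁ = 1 := by
    rw [← hB0]
    simp [ℓ, Module.Basis.coord_apply]
  have hℓ2 : ℓ v₂ = 0 := by
    rw [← hB1]
    simp [ℓ, Module.Basis.coord_apply]
  have hdec : ∀ w : V, ∃ b : k, w = ℓ w • v₁ + b • v₂ := by
    intro w
    refine ⟨B.coord 1 w, ?_⟩
    have h1 := B.sum_repr w
    rw [Fin.sum_univ_two, hB0, hB1] at h1
    exact h1.symm
  -- the character on the first line
  let χ : Gq p → kˣ := fun σ =>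
    if hσ : σ ∈ inertia p then Classical.choose (hNF.inert₁ σ hσ) else 1
  have hχ1 : ∀ σ ∈ inertia p, ρ σ v₁ = ((χ σ : kˣ) : k) • v₁ := by
    intro σ hσ
    simp only [χ, dif_pos hσ]
    exact (Classical.choose_spec (hNF.inert₁ σ hσ)).1
  have hχ2 : ∀ σ ∈ inertia p, ((τ (χ σ) : (Om p)ˣ) : Om p) = σ π / π := by
    intro σ hσ
    simp only [χ, dif_pos hσ]
    exact (Classical.choose_spec (hNF.inert₁ σ hσ)).2
  have hℓρ : ∀ σ ∈ inertia p, ∀ w : V, ℓ (ρ σ w) = ((χ σ : kˣ) : k) * ℓ w := by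
    intro σ hσ w
    obtain ⟨b, hb⟩ := hdec w
    obtain ⟨a₂, ha₂, -⟩ := hNF.inert₂ σ hσ
    conv_lhs => rw [hb]
    rw [map_add, map_smul, map_smul, hχ1 σ hσ, ha₂, map_add, map_smul, map_smul, map_smul,
      map_smul, hℓ1, hℓ2]
    simp only [smul_eq_mul, mul_one, mul_zero, add_zero]
    ring
  have hχK : ∀ s ∈ IK p π, χ s = 1 := by
    intro s hs
    apply h89c5_tau_injective τ hτ
    apply Units.ext
    rw [hχ2 s hs.1, hs.2, div_self hπ0, map_one, Units.val_one]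
  -- the order on `V × V`
  obtain ⟨𝓗, h𝓗⟩ := hc.flat (inertia p)
  have hact : IsAct (defAct ρ c) := h84o_isAct ρ c hc.cocycle
  -- the quotient `Q = V × k`
  let πQ : V × V →+ V × k := AddMonoidHom.prodMap (AddMonoidHom.id V) ℓ.toAddMonoidHom
  have hπQ : ∀ x : V × V, πQ x = (x.1, ℓ x.2) := fun x => rfl
  have hπQs : Function.Surjective πQ := by
    rintro ⟨v, y⟩
    refine ⟨(v, y • v₁), ?_⟩
    rw [hπQ]
    simp [hℓ1]
  let actQ : Gq p → V × k → V × k := fun σ x =>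
    (ρ σ x.1, ℓ (ρ σ (x.2 • v₁)) + ℓ (c σ (ρ σ x.1)))
  have hactQ : ∀ σ x, actQ σ x = (ρ σ x.1, ℓ (ρ σ (x.2 • v₁)) + ℓ (c σ (ρ σ x.1))) :=
    fun σ x => rfl
  have hπQeq : ∀ σ ∈ inertia p, ∀ x, πQ (defAct ρ c σ x) = actQ σ (πQ x) := by
    intro σ hσ x
    rw [hπQ, hπQ, hactQ, h84o_defAct_apply]
    simp only [map_add, Prod.mk.injEq, true_and, add_left_inj]
    rw [hℓρ σ hσ, hℓρ σ hσ, map_smul, hℓ1, smul_eq_mul, mul_one]
  obtain ⟨𝓗Q, hQ1, hQ2⟩ := h9q_quotOrder p (inertia p) (p : Om p) (h45f_inertiaDiscrete p)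
    (V × V) (defAct ρ c) hact 𝓗 (V × k) actQ πQ hπQs hπQeq
  -- the line
  let jL : k →+ V × k := AddMonoidHom.inr V k
  have hjL : ∀ y : k, jL y = (0, y) := fun y => rfl
  have hjLi : Function.Injective jL := fun a b hab => (Prod.mk.inj hab).2
  let actL : Gq p → k → k := fun σ y => χ σ • y
  have hjLeq : ∀ σ ∈ inertia p, ∀ y, jL (actL σ y) = actQ σ (jL y) := by
    intro σ hσ y
    rw [hjL, hjL, hactQ]
    simp only [map_zero, add_zero, Prod.mk.injEq, true_and, actL]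
    rw [hℓρ σ hσ, map_smul, hℓ1, Units.smul_def, smul_eq_mul, smul_eq_mul, mul_one]
  obtain ⟨𝓗L, hL1, hL2⟩ := h87f_subOrder p (inertia p) (V × k) actQ 𝓗Q k actL jL hjLi hjLeq
  have hchL : 𝓗L.CharComplete := hL2 (hQ2 h𝓗.char)
  have hstL : ∀ a : kˣ, 𝓗L.StableUnder (fun x => a • x) := by
    intro a f hf
    rw [hL1] at hf ⊢
    obtain ⟨f', hf', rfl⟩ := hf
    rw [hQ1] at hf'
    refine ⟨fun x => f' ((a : k) • x.1, (a : k) * x.2), ?_, ?_⟩
    · rw [hQ1]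
      have h1 := h𝓗.aut (h84o_scal a) (fun σ _ x => h84o_scal_comm ρ c a σ x) _ hf'
      have h2 : (fun x => (f' ∘ πQ) (h84o_scal a x)) =
          (fun x : V × k => f' ((a : k) • x.1, (a : k) * x.2)) ∘ πQ := by
        funext x
        simp only [Function.comp_apply, hπQ, h84o_scal_apply, map_smul, smul_eq_mul]
      rw [← h2]
      exact h1
    · funext y
      simp only [Function.comp_apply, hjL, smul_zero, Units.smul_def, smul_eq_mul]
  have hχL : ∀ σ ∈ inertia p, ∀ x : k, actL σ x = χ σ • x := fun _ _ _ => rfl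
  -- rank one
  obtain ⟨π₀, hπ₀⟩ := IsAlgClosed.exists_pow_nat_eq ((p : ℕ) : Om p) hn0
  obtain ⟨m, -, hmχ, hX⟩ := h89f_rankOne_of h7g_gaussNorm p hρ.odd k r hcard k
    (Module.finrank_self k) actL χ hχL 𝓗L hstL hchL τ hτ π₀ hπ₀
  obtain ⟨X, hXmem, hX0, hXy⟩ := hX 0 hr
  have hlev := h84f_level hcard τ hπ hπ₀ χ m hχ2 hmχ
  have hXπ : ∀ y : k, y ≠ 0 → ‖X y‖ = ‖π‖ := by
    intro y hy
    have h1 := hXy y hy
    rw [pow_zero, one_mul, ← hlev] at h1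
    exact (pow_left_inj₀ (norm_nonneg _) (norm_nonneg _) hn0.ne').1 h1
  rw [hL1] at hXmem
  obtain ⟨f, hf, hXf⟩ := hXmem
  -- the point
  have hpt : ∀ s ∈ IK p π, actQ s (v₁, 0) - (v₁, 0) = jL (h s) := by
    intro s hs
    obtain ⟨b', hb'⟩ := hh s hs
    have h1 : ρ s v₁ = v₁ := by
      rw [hχ1 s hs.1, hχK s hs, Units.val_one, one_smul]
    rw [hactQ, hjL]
    simp only [zero_smul, map_zero, zero_add, h1, hb', map_add, map_smul, hℓ1, hℓ2,
      smul_eq_mul, mul_one, mul_zero, add_zero, Prod.mk_sub_mk, sub_self, sub_zero]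
  have hnot : ¬ 𝓗Q.PtLE (actQ g (v₁, 0) - (v₁, 0)) t := by
    intro hle
    have h1 := hle f hf
    rw [hpt g hg] at h1
    have h2 : f (jL (h g)) = X (h g) := by
      rw [hXf]
      rfl
    have h3 : f 0 = 0 := by
      have h4 : f (jL 0) = X 0 := by
        rw [hXf]
        rfl
      rw [map_zero, hX0] at h4
      exact h4
    rw [h2, h3, sub_zero, hXπ _ hhg] at h1
    exact absurd (lt_of_lt_of_le ht h1) (lt_irrefl _)
  obtain ⟨z, hz1, hz2, hz3⟩ := h87f_ramBound p (inertia p) (V × k) actQ 𝓗Q g hg.1 (v₁, 0) t hnot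
  refine ⟨z, hz1, fun s hs hs0 => hz2 s hs.1 ?_, hz3⟩
  have h1 := hpt s hs
  rw [hs0, map_zero, sub_eq_zero] at h1
  exact h1

end Main

end Fermat.Agent.S56F
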