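import Fermat.Agent.S56F.IfaceKum
import Fermat.Agent.S56F.FLO07_helper7
import Fermat.Agent.S56F.FLO1F_helper7
import Fermat.Agent.S56F.FLD5_helper96
import Fermat.Agent.S56F.FLS1f_helper45
import Fermat.Agent.S56F.FLD0_helper89
import Fermat.Agent.PT.Loc.H96RDBase

/-!
# S56 / LOC-p-FL, block SS, row FL-S2 (helper39): assembly of `SSDiagZero`

`h39s_ssDiagZero_of : SSClaimA → SSClaimB → SSFlatDiag → SSUnrZero → SSDiagZero`.

Inside: the cocycle algebra of the `(1,1)`-entry `h = c₁₁` in the basis `v₁, v₂`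
(`h39s_h_add`: additive on the stabiliser of the lines, `h39s_h_anti`: anti-invariant under a
swapping element), "a Frobenius swaps the lines" (`h39s_frob_swaps`, from the landed `H7Gen`),
and the numerical contradiction `‖π‖ ^ (2 p) < ‖g z - z‖ ^ p ≤ ‖p‖ = ‖π‖ ^ (p² - 1)`.
-/

set_option autoImplicit false
set_option linter.style.haveILetI false
set_option linter.unusedSectionVars false
set_option linter.unusedVariables false

open Fermat.Agent.PT.Loc Polynomial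

noncomputable section

namespace Fermat.Agent.S56F

section Alg

variable {G : Type} [Group G] {k : Type} [Field k] {V : Type} [AddCommGroup V] [Module k V]
  [Module.Finite k V]

/-- The basis `v₁, v₂`. -/
def h39s_basis (v₁ v₂ : V) (hr : Module.finrank k V = 2) (hi : LinearIndependent k ![v₁, v₂]) :
    Module.Basis (Fin 2) k V :=
  basisOfLinearIndependentOfCardEqFinrank hi (by simp [hr])

theorem h39s_basis_zero (v₁ v₂ : V) (hr : Module.finrank k V = 2)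
    (hi : LinearIndependent k ![v₁, v₂]) : h39s_basis v₁ v₂ hr hi 0 = v₁ := by
  simp [h39s_basis]

theorem h39s_basis_one (v₁ v₂ : V) (hr : Module.finrank k V = 2)
    (hi : LinearIndependent k ![v₁, v₂]) : h39s_basis v₁ v₂ hr hi 1 = v₂ := by
  simp [h39s_basis]

/-- The first coordinate. -/
def h39s_e1 (v₁ v₂ : V) (hr : Module.finrank k V = 2) (hi : LinearIndependent k ![v₁, v₂]) :
    V →ₗ[k] k := (h39s_basis v₁ v₂ hr hi).coord 0

/-- The second coordinate. -/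
def h39s_e2 (v₁ v₂ : V) (hr : Module.finrank k V = 2) (hi : LinearIndependent k ![v₁, v₂]) :
    V →ₗ[k] k := (h39s_basis v₁ v₂ hr hi).coord 1

variable (v₁ v₂ : V) (hr : Module.finrank k V = 2) (hi : LinearIndependent k ![v₁, v₂])

theorem h39s_e1_v1 : h39s_e1 v₁ v₂ hr hi v₁ = 1 := by
  have h : h39s_e1 v₁ v₂ hr hi (h39s_basis v₁ v₂ hr hi 0) = 1 := by
    simp [h39s_e1]
  rwa [h39s_basis_zero] at h

theorem h39s_e1_v2 : h39s_e1 v₁ v₂ hr hi v₂ = 0 := by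
  have h : h39s_e1 v₁ v₂ hr hi (h39s_basis v₁ v₂ hr hi 1) = 0 := by
    simp [h39s_e1]
  rwa [h39s_basis_one] at h

theorem h39s_e2_v1 : h39s_e2 v₁ v₂ hr hi v₁ = 0 := by
  have h : h39s_e2 v₁ v₂ hr hi (h39s_basis v₁ v₂ hr hi 0) = 0 := by
    simp [h39s_e2]
  rwa [h39s_basis_zero] at h

theorem h39s_e2_v2 : h39s_e2 v₁ v₂ hr hi v₂ = 1 := by
  have h : h39s_e2 v₁ v₂ hr hi (h39s_basis v₁ v₂ hr hi 1) = 1 := by
    simp [h39s_e2]
  rwa [h39s_basis_one] at h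

/-- Decomposition in the basis. -/
theorem h39s_decomp (w : V) :
    w = h39s_e1 v₁ v₂ hr hi w • v₁ + h39s_e2 v₁ v₂ hr hi w • v₂ := by
  have h := (h39s_basis v₁ v₂ hr hi).sum_repr w
  rw [Fin.sum_univ_two, h39s_basis_zero, h39s_basis_one] at h
  exact h.symm

theorem h39s_e1_comb (a b : k) : h39s_e1 v₁ v₂ hr hi (a • v₁ + b • v₂) = a := by
  rw [map_add, map_smul, map_smul, h39s_e1_v1, h39s_e1_v2]
  simp

theorem h39s_e2_comb (a b : k) : h39s_e2 v₁ v₂ hr hi (a • v₁ + b • v₂) = b := by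
  rw [map_add, map_smul, map_smul, h39s_e2_v1, h39s_e2_v2]
  simp

omit [Module.Finite k V] in
theorem h39s_v1_ne (hi' : LinearIndependent k ![v₁, v₂]) : v₁ ≠ 0 := by
  have := hi'.ne_zero 0
  simpa using this

omit [Module.Finite k V] in
theorem h39s_v2_ne (hi' : LinearIndependent k ![v₁, v₂]) : v₂ ≠ 0 := by
  have := hi'.ne_zero 1
  simpa using this

/-- The trace in the basis. -/
theorem h39s_trace (X : Module.End k V) :
    LinearMap.trace k V X = h39s_e1 v₁ v₂ hr hi (X v₁) + h39s_e2 v₁ v₂ hr hi (X v₂) := by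
  rw [LinearMap.trace_eq_matrix_trace k (h39s_basis v₁ v₂ hr hi), Matrix.trace_fin_two]
  simp only [LinearMap.toMatrix_apply, h39s_basis_zero, h39s_basis_one]
  rfl

variable (ρ : G →* Module.End k V)

theorem h39s_rho_inv_apply (σ : G) (w : V) : ρ σ⁻¹ (ρ σ w) = w := by
  have h : ρ σ⁻¹ * ρ σ = 1 := by rw [← map_mul, inv_mul_cancel, map_one]
  have := congrArg (fun f : Module.End k V => f w) h
  simpa [Module.End.mul_apply] using this

theorem h39s_rho_apply_inv (σ : G) (w : V) : ρ σ (ρ σ⁻¹ w) = w := by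
  have h : ρ σ * ρ σ⁻¹ = 1 := by rw [← map_mul, mul_inv_cancel, map_one]
  have := congrArg (fun f : Module.End k V => f w) h
  simpa [Module.End.mul_apply] using this

theorem h39s_rho_injective (σ : G) {w : V} (h : ρ σ w = 0) : w = 0 := by
  have := h39s_rho_inv_apply ρ σ w
  rw [h, map_zero] at this
  exact this.symm

/-- An eigenvalue on a non-zero vector is non-zero. -/
theorem h39s_eig_ne {σ : G} {w w' : V} {a : k} (hw : w ≠ 0) (h : ρ σ w = a • w') : a ≠ 0 := by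
  rintro rfl
  rw [zero_smul] at h
  exact hw (h39s_rho_injective ρ σ h)

/-- The inverse on an eigenvector. -/
theorem h39s_inv_eig {σ : G} {w w' : V} {a : k} (hw : w ≠ 0) (h : ρ σ w = a • w') :
    ρ σ⁻¹ w' = a⁻¹ • w := by
  have ha : a ≠ 0 := h39s_eig_ne ρ hw h
  have h1 := h39s_rho_inv_apply ρ σ w
  rw [h, map_smul] at h1
  rw [← h1, smul_smul, inv_mul_cancel₀ ha, one_smul]

/-- An element stabilising the first line is diagonal. -/
theorem h39s_diag_of_stab (hr' : Module.finrank k V = 2)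
    (hi' : LinearIndependent k ![v₁, v₂])
    (hsw : ∀ σ : G, (∃ a b : k, ρ σ v₁ = a • v₁ ∧ ρ σ v₂ = b • v₂) ∨
      (∃ a b : k, ρ σ v₁ = a • v₂ ∧ ρ σ v₂ = b • v₁))
    {σ : G} (hσ : ∃ a : k, ρ σ v₁ = a • v₁) :
    ∃ a b : k, ρ σ v₁ = a • v₁ ∧ ρ σ v₂ = b • v₂ := by
  rcases hsw σ with h | ⟨a', b', h1, h2⟩
  · exact h
  · exfalso
    obtain ⟨a, ha⟩ := hσ
    have hv1 := h39s_v1_ne v₁ v₂ hi'
    have ha0 : a ≠ 0 := h39s_eig_ne ρ hv1 ha
    have h3 := congrArg (h39s_e1 v₁ v₂ hr' hi') (ha.symm.trans h1)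
    rw [map_smul, map_smul, h39s_e1_v1, h39s_e1_v2] at h3
    simp at h3
    exact ha0 h3

/-- An element not stabilising the first line swaps the lines. -/
theorem h39s_swap_of_not_stab
    (hsw : ∀ σ : G, (∃ a b : k, ρ σ v₁ = a • v₁ ∧ ρ σ v₂ = b • v₂) ∨
      (∃ a b : k, ρ σ v₁ = a • v₂ ∧ ρ σ v₂ = b • v₁))
    {σ : G} (hσ : ¬ ∃ a : k, ρ σ v₁ = a • v₁) :
    ∃ a b : k, ρ σ v₁ = a • v₂ ∧ ρ σ v₂ = b • v₁ := by
  rcases hsw σ with ⟨a, b, h1, h2⟩ | h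
  · exact absurd ⟨a, h1⟩ hσ
  · exact h

variable (c : G → Module.End k V)

/-- The `(1,1)`-entry of the cocycle. -/
def h39s_h : G → k := fun σ => h39s_e1 v₁ v₂ hr hi (c σ v₁)

theorem h39s_entry (σ : G) :
    c σ v₁ = h39s_h v₁ v₂ hr hi c σ • v₁ + h39s_e2 v₁ v₂ hr hi (c σ v₁) • v₂ :=
  h39s_decomp v₁ v₂ hr hi (c σ v₁)

theorem h39s_c_one (hc : ∀ σ τ : G, c (σ * τ) = c σ + ρ σ * c τ * ρ σ⁻¹) : c 1 = 0 := by
  have h := hc 1 1
  simp only [mul_one, map_one, inv_one, one_mul] at h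
  exact left_eq_add.mp h

/-- The cocycle relation on vectors. -/
theorem h39s_coc_apply (hc : ∀ σ τ : G, c (σ * τ) = c σ + ρ σ * c τ * ρ σ⁻¹) (σ τ : G) (w : V) :
    c (σ * τ) w = c σ w + ρ σ (c τ (ρ σ⁻¹ w)) := by
  rw [hc σ τ]
  simp [Module.End.mul_apply]

/-- Coordinates after a diagonal operator. -/
theorem h39s_e1_diag {X : Module.End k V} {a b : k} (h1 : X v₁ = a • v₁) (h2 : X v₂ = b • v₂)
    (w : V) : h39s_e1 v₁ v₂ hr hi (X w) = a * h39s_e1 v₁ v₂ hr hi w := by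
  conv_lhs => rw [h39s_decomp v₁ v₂ hr hi w]
  rw [map_add, map_smul, map_smul, h1, h2, smul_smul, smul_smul, h39s_e1_comb, mul_comm]

theorem h39s_e2_diag {X : Module.End k V} {a b : k} (h1 : X v₁ = a • v₁) (h2 : X v₂ = b • v₂)
    (w : V) : h39s_e2 v₁ v₂ hr hi (X w) = b * h39s_e2 v₁ v₂ hr hi w := by
  conv_lhs => rw [h39s_decomp v₁ v₂ hr hi w]
  rw [map_add, map_smul, map_smul, h1, h2, smul_smul, smul_smul, h39s_e2_comb, mul_comm]

/-- Coordinates after a swapping operator. -/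
theorem h39s_e1_swap {X : Module.End k V} {a b : k} (h1 : X v₁ = a • v₂) (h2 : X v₂ = b • v₁)
    (w : V) : h39s_e1 v₁ v₂ hr hi (X w) = b * h39s_e2 v₁ v₂ hr hi w := by
  conv_lhs => rw [h39s_decomp v₁ v₂ hr hi w]
  rw [map_add, map_smul, map_smul, h1, h2, smul_smul, smul_smul, add_comm, h39s_e1_comb,
    mul_comm]

theorem h39s_e2_swap {X : Module.End k V} {a b : k} (h1 : X v₁ = a • v₂) (h2 : X v₂ = b • v₁)
    (w : V) : h39s_e2 v₁ v₂ hr hi (X w) = a * h39s_e1 v₁ v₂ hr hi w := by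
  conv_lhs => rw [h39s_decomp v₁ v₂ hr hi w]
  rw [map_add, map_smul, map_smul, h1, h2, smul_smul, smul_smul, add_comm, h39s_e2_comb,
    mul_comm]

/-- `h` is additive on the stabiliser of the lines. -/
theorem h39s_h_add
    (hsw : ∀ σ : G, (∃ a b : k, ρ σ v₁ = a • v₁ ∧ ρ σ v₂ = b • v₂) ∨
      (∃ a b : k, ρ σ v₁ = a • v₂ ∧ ρ σ v₂ = b • v₁))
    (hc : ∀ σ τ : G, c (σ * τ) = c σ + ρ σ * c τ * ρ σ⁻¹)
    {σ : G} (hσ : ∃ a : k, ρ σ v₁ = a • v₁) (τ : G) :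
    h39s_h v₁ v₂ hr hi c (σ * τ) = h39s_h v₁ v₂ hr hi c σ + h39s_h v₁ v₂ hr hi c τ := by
  obtain ⟨a, b, h1, h2⟩ := h39s_diag_of_stab v₁ v₂ ρ hr hi hsw hσ
  have hv1 := h39s_v1_ne v₁ v₂ hi
  have ha0 : a ≠ 0 := h39s_eig_ne ρ hv1 h1
  have hinv : ρ σ⁻¹ v₁ = a⁻¹ • v₁ := h39s_inv_eig ρ hv1 h1
  unfold h39s_h
  rw [h39s_coc_apply ρ c hc, map_add, h39s_e1_diag v₁ v₂ hr hi h1 h2, hinv, map_smul, map_smul,
    smul_eq_mul, ← mul_assoc, mul_inv_cancel₀ ha0, one_mul]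

/-- `h` is anti-invariant under the elements swapping the lines. -/
theorem h39s_h_anti
    (hsw : ∀ σ : G, (∃ a b : k, ρ σ v₁ = a • v₁ ∧ ρ σ v₂ = b • v₂) ∨
      (∃ a b : k, ρ σ v₁ = a • v₂ ∧ ρ σ v₂ = b • v₁))
    (hc : ∀ σ τ : G, c (σ * τ) = c σ + ρ σ * c τ * ρ σ⁻¹)
    (htr : ∀ σ : G, LinearMap.trace k V (c σ) = 0)
    {φ : G} (hφ : ¬ ∃ a : k, ρ φ v₁ = a • v₁) {s : G} (hs : ∃ a : k, ρ s v₁ = a • v₁) :
    h39s_h v₁ v₂ hr hi c (φ * s * φ⁻¹) = - h39s_h v₁ v₂ hr hi c s := by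
  obtain ⟨a, b, h1, h2⟩ := h39s_swap_of_not_stab v₁ v₂ ρ hsw hφ
  obtain ⟨as, bs, hs1, hs2⟩ := h39s_diag_of_stab v₁ v₂ ρ hr hi hsw hs
  have hv1 := h39s_v1_ne v₁ v₂ hi
  have hv2 := h39s_v2_ne v₁ v₂ hi
  have ha0 : a ≠ 0 := h39s_eig_ne ρ hv1 h1
  have hb0 : b ≠ 0 := h39s_eig_ne ρ hv2 h2
  have has0 : as ≠ 0 := h39s_eig_ne ρ hv1 hs1
  have hbs0 : bs ≠ 0 := h39s_eig_ne ρ hv2 hs2
  -- inverses
  have hφi1 : ρ φ⁻¹ v₁ = b⁻¹ • v₂ := h39s_inv_eig ρ hv2 h2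
  have hφi2 : ρ φ⁻¹ v₂ = a⁻¹ • v₁ := h39s_inv_eig ρ hv1 h1
  have hsi2 : ρ s⁻¹ v₂ = bs⁻¹ • v₂ := h39s_inv_eig ρ hv2 hs2
  -- `c (φ⁻¹)`
  have hcinv : ∀ w : V, c φ⁻¹ w = - ρ φ⁻¹ (c φ (ρ φ w)) := by
    intro w
    have h0 := h39s_coc_apply ρ c hc φ⁻¹ φ w
    rw [inv_mul_cancel, h39s_c_one ρ c hc, inv_inv] at h0
    simp only [LinearMap.zero_apply] at h0
    exact eq_neg_of_add_eq_zero_left h0.symm
  -- expand
  have e1 : c (φ * s * φ⁻¹) v₁ =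
      c φ v₁ + ρ φ (c s (ρ φ⁻¹ v₁)) + ρ φ (ρ s (c φ⁻¹ (ρ s⁻¹ (ρ φ⁻¹ v₁)))) := by
    rw [mul_assoc, h39s_coc_apply ρ c hc φ (s * φ⁻¹), h39s_coc_apply ρ c hc s φ⁻¹, map_add,
      add_assoc]
  have htr' : h39s_e1 v₁ v₂ hr hi (c s v₁) + h39s_e2 v₁ v₂ hr hi (c s v₂) = 0 := by
    rw [← h39s_trace v₁ v₂ hr hi (c s)]
    exact htr s
  have t2 : h39s_e1 v₁ v₂ hr hi (ρ φ (c s (ρ φ⁻¹ v₁))) = h39s_e2 v₁ v₂ hr hi (c s v₂) := by
    rw [h39s_e1_swap v₁ v₂ hr hi h1 h2, hφi1, map_smul, map_smul, smul_eq_mul, ← mul_assoc,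
      mul_inv_cancel₀ hb0, one_mul]
  have t3 : h39s_e1 v₁ v₂ hr hi (ρ φ (ρ s (c φ⁻¹ (ρ s⁻¹ (ρ φ⁻¹ v₁))))) =
      - h39s_e1 v₁ v₂ hr hi (c φ v₁) := by
    rw [h39s_e1_swap v₁ v₂ hr hi h1 h2, h39s_e2_diag v₁ v₂ hr hi hs1 hs2, hcinv, map_neg,
      h39s_e2_swap v₁ v₂ hr hi hφi1 hφi2, hφi1, map_smul, hsi2]
    simp only [map_smul, h2, smul_eq_mul]
    field_simp
  unfold h39s_h
  rw [e1, map_add, map_add, t2, t3]
  have := eq_neg_of_add_eq_zero_right htr'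
  rw [this]
  ring

end Alg

section Main

variable {p : ℕ} [Fact p.Prime]

/-- Powers of an inertia element act on `π` through powers of a root of unity. -/
theorem h39s_pow_fix {n : ℕ} (hn : 0 < n) (hpn : ¬ p ∣ n) {π : Om p} (hπ : π ^ n = p)
    {g : Gq p} (hg : g ∈ inertia p) : (g ^ n) π = π := by
  have hp0 : (p : Om p) ≠ 0 := by
    exact_mod_cast (Fact.out : p.Prime).ne_zero
  have hπ0 : π ≠ 0 := by
    rintro rfl
    rw [zero_pow hn.ne'] at hπ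
    exact hp0 hπ.symm
  set ζ : Om p := g π / π with hζ
  have hζn : ζ ^ n = 1 := by
    rw [hζ, div_pow, ← map_pow, hπ, map_natCast, div_self hp0]
  have hgζ : g ζ = ζ := h89d0_fix_of_mem_inertia hg ζ n hn hpn hζn
  have hgπ : g π = ζ * π := by
    rw [hζ, div_mul_cancel₀ _ hπ0]
  have key : ∀ i : ℕ, (g ^ i) π = ζ ^ i * π := by
    intro i
    induction i with
    | zero => simp
    | succ i ih =>
      rw [pow_succ', AlgEquiv.mul_apply, ih, map_mul, map_pow, hgζ, hgπ, pow_succ]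
      ring
  rw [key n, hζn, one_mul]

/-- A Frobenius element swaps the lines. -/
theorem h39s_frob_swaps (k : Type) [Field k] [Finite k] (V : Type)
    [AddCommGroup V] [Module k V] [Module.Finite k V] (ρ : Gq p →* Module.End k V)
    (τ : kˣ →* (Om p)ˣ) (π : Om p) (v₁ v₂ : V) (hNF : SSNF p ρ τ π v₁ v₂)
    (hline : ¬ ∃ v : V, v ≠ 0 ∧ ∀ σ : Gq p, ∃ a : k, ρ σ v = a • v)
    (hcont : Cont1 (⊥ : LF p) (fun σ => ρ σ))
    (φ : Gq p) (hφ : h7x_IsFrob p φ) : ¬ ∃ a : k, ρ φ v₁ = a • v₁ := by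
  intro hstab
  have hv1 : v₁ ≠ 0 := by
    have := hNF.indep.ne_zero 0
    simpa using this
  let H : Subgroup (Gq p) :=
    { carrier := {σ | ∃ a : kˣ, ρ σ v₁ = (a : k) • v₁}
      mul_mem' := by
        rintro σ σ' ⟨a, ha⟩ ⟨b, hb⟩
        refine ⟨a * b, ?_⟩
        rw [map_mul, Module.End.mul_apply, hb, map_smul, ha, smul_smul, Units.val_mul, mul_comm]
      one_mem' := ⟨1, by simp⟩
      inv_mem' := by
        rintro σ ⟨a, ha⟩
        refine ⟨a⁻¹, ?_⟩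
        rw [h39s_inv_eig ρ hv1 ha, Units.val_inv_eq_inv_val] }
  have hI : inertia p ≤ H := by
    intro σ hσ
    obtain ⟨a, ha, -⟩ := hNF.inert₁ σ hσ
    exact ⟨a, ha⟩
  have hopen : ∃ F : LF p, FiniteDimensional ℚ_[p] F ∧ GK F ≤ H := by
    obtain ⟨F, hF, -, hFc⟩ := hcont
    refine ⟨F, hF, fun s hs => ⟨1, ?_⟩⟩
    have h1 := hFc 1 (Subgroup.one_mem _) s hs
    simp only [one_mul, map_one] at h1
    rw [h1]
    simp
  have hφH : φ ∈ H := by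
    obtain ⟨a, ha⟩ := hstab
    have ha0 : a ≠ 0 := h39s_eig_ne ρ hv1 ha
    exact ⟨Units.mk0 a ha0, ha⟩
  have htop := h45h_gen p H hI hopen φ hφ hφH
  apply hline
  refine ⟨v₁, hv1, fun σ => ?_⟩
  have hσ : σ ∈ H := by rw [htop]; exact Subgroup.mem_top σ
  obtain ⟨a, ha⟩ := hσ
  exact ⟨a, ha⟩

/-- The numerical contradiction. -/
theorem h39s_numeric (hp2 : p ≠ 2) {π : Om p} (hπ : π ^ (p ^ 2 - 1) = p) {x : ℝ}
    (h1 : ‖π‖ ^ 2 < x) (h2 : x ^ p ≤ ‖(p : Om p)‖) : False := by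
  have hpp : p.Prime := Fact.out
  have hp3 : 3 ≤ p := by
    have := hpp.two_le
    omega
  have hn : 2 * p ≤ p ^ 2 - 1 := by
    have : 3 * p ≤ p ^ 2 := by nlinarith
    omega
  have hnorm : ‖π‖ ^ (p ^ 2 - 1) = ‖(p : Om p)‖ := by rw [← norm_pow, hπ]
  have hpn : ‖(p : Om p)‖ = (p : ℝ)⁻¹ := h96b_norm_q p
  have hp1 : ‖(p : Om p)‖ < 1 := by
    rw [hpn]
    apply inv_lt_one_of_one_lt₀
    exact_mod_cast hpp.one_lt
  have hπ0 : 0 ≤ ‖π‖ := norm_nonneg π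
  have hπ1 : ‖π‖ ≤ 1 := by
    by_contra hcon
    push Not at hcon
    have : 1 ≤ ‖π‖ ^ (p ^ 2 - 1) := one_le_pow₀ hcon.le
    rw [hnorm] at this
    linarith
  have h3 : ‖π‖ ^ (p ^ 2 - 1) ≤ ‖π‖ ^ (2 * p) := pow_le_pow_of_le_one hπ0 hπ1 hn
  have h4 : (‖π‖ ^ 2) ^ p < x ^ p :=
    pow_lt_pow_left₀ h1 (pow_nonneg hπ0 2) hpp.ne_zero
  rw [← pow_mul] at h4
  rw [hnorm] at h3
  linarith

/-- **FL-S2, assembly.** -/
theorem h39s_ssDiagZero_of (hA : SSClaimA) (hB : SSClaimB) (hF : SSFlatDiag) (hU : SSUnrZero) :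
    SSDiagZero := by
  intro p _ k _ _ _ V _ _ _ ρ hρ τ hτ π hπ v₁ v₂ hNF hline c hc
  have hpp : p.Prime := Fact.out
  have hp2 : p ≠ 2 := hρ.odd
  have hr := hρ.rank
  have hi := hNF.indep
  have hsw := hNF.swap
  have hcont : Cont1 (⊥ : LF p) c := h7o_flatCont p k V ρ c hc
  have hV : LocFlat p V (fun σ v => ρ σ v) := h7s_locFlatSub_final p k V ρ c hc
  have hρc : Cont1 (⊥ : LF p) (fun σ => ρ σ) := h7o_repCont p k V ρ hV
  -- the entry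
  set h : Gq p → k := h39s_h v₁ v₂ hr hi c with hh
  have hent : ∀ σ : Gq p, ∃ b : k, c σ v₁ = h σ • v₁ + b • v₂ :=
    fun σ => ⟨_, h39s_entry v₁ v₂ hr hi c σ⟩
  have hstabI : ∀ σ ∈ inertia p, ∃ a : k, ρ σ v₁ = a • v₁ := by
    intro σ hσ
    obtain ⟨a, ha, -⟩ := hNF.inert₁ σ hσ
    exact ⟨a, ha⟩
  have hadd : ∀ σ ∈ inertia p, ∀ τ' ∈ inertia p, h (σ * τ') = h σ + h τ' :=
    fun σ hσ τ' _ => h39s_h_add v₁ v₂ hr hi ρ c hsw hc.cocycle (hstabI σ hσ) τ'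
  have hc1 : c 1 = 0 := h39s_c_one ρ c hc.cocycle
  have hh1 : h 1 = 0 := by
    rw [hh]
    unfold h39s_h
    rw [hc1]
    simp
  -- it suffices to show that `h` vanishes on inertia
  suffices hin : ∀ σ ∈ inertia p, h σ = 0 by
    refine hU p k V ρ hρ τ hτ π hπ v₁ v₂ hNF c hcont hc.cocycle hc.trace ?_
    intro σ hσ
    obtain ⟨b, hb⟩ := hent σ
    exact ⟨b, by rw [hb, hin σ hσ, zero_smul, zero_add]⟩
  by_contra hcon
  push Not at hcon
  obtain ⟨g0, hg0, hne⟩ := hcon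
  -- the Frobenius
  obtain ⟨φ, hφ⟩ := h96f_frobExists p
  have hφsw : ¬ ∃ a : k, ρ φ v₁ = a • v₁ :=
    h39s_frob_swaps k V ρ τ π v₁ v₂ hNF hline hρc φ hφ
  have hanti : ∀ σ ∈ inertia p, h (φ * σ * φ⁻¹) = - h σ :=
    fun σ hσ => h39s_h_anti v₁ v₂ hr hi ρ c hsw hc.cocycle hc.trace hφsw (hstabI σ hσ)
  have hcontI : ∃ F : LF p, FiniteDimensional ℚ_[p] F ∧ ∀ s ∈ inertia p, s ∈ GK F → h s = 0 := by
    obtain ⟨F, hFd, -, hFc⟩ := hcont
    refine ⟨F, hFd, fun s _ hs => ?_⟩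
    have h1 := hFc 1 (Subgroup.one_mem _) s hs
    rw [one_mul, hc1] at h1
    rw [hh]
    unfold h39s_h
    rw [h1]
    simp
  obtain ⟨a₀, χ, hχ⟩ := hA p hp2 k h φ hadd hcontI hφ hanti
  have ha₀ : a₀ ≠ 0 := by
    rintro rfl
    apply hne
    rw [hχ g0 hg0, mul_zero]
  -- `χ` is additive on inertia
  have hχadd : ∀ σ ∈ inertia p, ∀ τ' ∈ inertia p, χ (σ * τ') = χ σ + χ τ' := by
    intro σ hσ τ' hτ'
    have h1 := hadd σ hσ τ' hτ'
    rw [hχ _ ((inertia p).mul_mem hσ hτ'), hχ σ hσ, hχ τ' hτ', ← add_mul] at h1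
    have h2 := mul_right_cancel₀ ha₀ h1
    have h3 : (((χ (σ * τ')).val : ℕ) : k) = (((χ σ).val + (χ τ').val : ℕ) : k) := by
      rw [h2]
      push_cast
      rfl
    have h4 := (CharP.natCast_eq_natCast k p).mp h3
    have h5 := (ZMod.natCast_eq_natCast_iff _ _ p).mpr h4
    haveI : NeZero p := ⟨hpp.ne_zero⟩
    simpa using h5
  have hχ0 : ∀ s ∈ inertia p, χ s = 0 → h s = 0 := by
    intro s hs h0
    rw [hχ s hs, h0]
    simp
  -- the element of `I_K`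
  set n : ℕ := p ^ 2 - 1 with hn
  have hp2' : 4 ≤ p ^ 2 := by
    have := hpp.two_le
    nlinarith
  have hn0 : 0 < n := by omega
  have hpn : ¬ p ∣ n := by
    intro hd
    have h1 : p ∣ p ^ 2 := dvd_pow_self p (by norm_num)
    have h2 : p ∣ p ^ 2 - n := Nat.dvd_sub h1 hd
    have h3 : p ^ 2 - n = 1 := by omega
    rw [h3] at h2
    exact hpp.one_lt.ne' (Nat.dvd_one.mp h2)
  set g : Gq p := g0 ^ n with hg
  have hgI : g ∈ inertia p := (inertia p).pow_mem hg0 n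
  have hgπ : g π = π := h39s_pow_fix hn0 hpn hπ hg0
  have hgK : g ∈ IK p π := ⟨hgI, hgπ⟩
  have hpow : ∀ i : ℕ, h (g0 ^ i) = (i : k) * h g0 := by
    intro i
    induction i with
    | zero => simp [hh1]
    | succ i ih =>
      rw [pow_succ, hadd _ ((inertia p).pow_mem hg0 i) _ hg0, ih]
      push_cast
      ring
  have hnk : (n : k) ≠ 0 := by
    intro h0
    have := (CharP.cast_eq_zero_iff k p n).mp h0
    exact hpn this
  have hhg : h g ≠ 0 := by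
    rw [hg, hpow n]
    exact mul_ne_zero hnk hne
  -- flat side
  have hπ0 : π ≠ 0 := by
    rintro rfl
    rw [zero_pow hn0.ne'] at hπ
    have hp0 : (p : Om p) ≠ 0 := by exact_mod_cast hpp.ne_zero
    exact hp0 hπ.symm
  have hπpos : 0 < ‖π‖ := norm_pos_iff.mpr hπ0
  have hπlt : ‖π‖ < 1 := by
    by_contra hcon
    push Not at hcon
    have h1 : 1 ≤ ‖π‖ ^ n := one_le_pow₀ hcon
    rw [← norm_pow, hπ] at h1
    have hpnorm : ‖(p : Om p)‖ = (p : ℝ)⁻¹ := h96b_norm_q p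
    rw [hpnorm] at h1
    have : (p : ℝ)⁻¹ < 1 := by
      apply inv_lt_one_of_one_lt₀
      exact_mod_cast hpp.one_lt
    linarith
  have ht : ‖π‖ ^ 2 < ‖π‖ := by
    have := mul_lt_mul_of_pos_left hπlt hπpos
    rw [mul_one] at this
    rw [pow_two]
    exact this
  obtain ⟨z, hz1, hzfix, hzlt⟩ := hF p k V ρ hρ τ hτ π hπ v₁ v₂ hNF c hc h
    (fun g' _ => hent g') g hgK hhg (‖π‖ ^ 2) ht
  have hkey := hB p hp2 n hn0 hpn π hπ χ hχadd g hgK z hz1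
    (fun s hs h0 => hzfix s hs (hχ0 s hs.1 h0))
  exact h39s_numeric hp2 hπ hzlt hkey

end Main

end Fermat.Agent.S56F
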