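import Fermat.Agent.S56F.IfaceKum
import Fermat.Agent.S56F.FLO5_helper4
import Fermat.Agent.S56F.FLB7_helper87
import Fermat.Agent.S56F.FLD1_helper45

/-!
# S56 / LOC-p-FL, block SS, leaf FL-S3F, part (b) (helper57): rank one on a sub-quotient line

`h57f_rankOneLine`: `F` a field with `p²` elements, `𝓗` a character complete order over inertia
on a finite `F`-module `M`, stable under `Fˣ`; `N₁ ≤ M` an inertia-stable `F`-submodule and
`j : L₀ → M` linear such that `L₀ / j⁻¹ N₁` is an `F`-line on which inertia acts through a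
character `χ` with `τ ∘ χ = Ψ` (the fundamental character of level `p² - 1`).  Then there is an
`N₁`-invariant function `F₀ ∈ 𝓗` with `F₀ 0 = 0` and `‖F₀ (j y)‖ = ‖π‖` for `j y ∉ N₁`.
(Quotient order FL-B8 + FL-D1, sub-order FL-B7, rank one FL-C5, FL-D2.)
-/

set_option autoImplicit false

open Fermat.Agent.PT.Loc

noncomputable section

namespace Fermat.Agent.S56F

variable {p : ℕ} [Fact p.Prime]

theorem h57f_act_sub {M : Type} [AddCommGroup M] {act : Gq p → M → M} (hact : IsAct act)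
    (σ : Gq p) (a b : M) : act σ (a - b) = act σ a - act σ b := by
  have h := hact.add σ (a - b) b
  rw [sub_add_cancel] at h
  rw [h, add_sub_cancel_right]

theorem h57f_act_zero {M : Type} [AddCommGroup M] {act : Gq p → M → M} (hact : IsAct act)
    (σ : Gq p) : act σ 0 = 0 := by
  have h := h57f_act_sub hact σ 0 0
  rw [sub_self, sub_self] at h
  exact h

/-- `(p² - 1)`-th roots: numerical facts. -/
theorem h57f_num (hp2 : p ≠ 2) : 0 < p ^ 2 - 1 ∧ ¬ p ∣ p ^ 2 - 1 ∧ p + 1 < p ^ 2 - 1 := by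
  have hpp : p.Prime := Fact.out
  have h3 : 3 ≤ p := by
    have := hpp.two_le
    omega
  have h9 : p * 3 ≤ p * p := Nat.mul_le_mul_left p h3
  have hsq : p ^ 2 = p * p := sq p
  refine ⟨by omega, ?_, by omega⟩
  intro h
  have h1 : p ∣ p ^ 2 := dvd_pow_self p two_ne_zero
  have h2 : p ∣ p ^ 2 - (p ^ 2 - 1) := Nat.dvd_sub h1 h
  have h4 : p ^ 2 - (p ^ 2 - 1) = 1 := by omega
  rw [h4] at h2
  exact hpp.one_lt.ne' (Nat.dvd_one.1 h2)

/-- **Rank one on a sub-quotient line.** -/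
theorem h57f_rankOneLine (hp2 : p ≠ 2) (F : Type) [Field F] [Fintype F] [CharP F p]
    (hF : Fintype.card F = p ^ 2)
    (M : Type) [AddCommGroup M] [Module F M] [Finite M] (act : Gq p → M → M)
    (hact : IsAct act) (𝓗 : FHO p (inertia p) M act) (hchar : 𝓗.CharComplete)
    (hstab : ∀ a : Fˣ, 𝓗.StableUnder (fun x => a • x))
    (N₁ : Submodule F M) (hN₁ : ∀ σ ∈ inertia p, ∀ w ∈ N₁, act σ w ∈ N₁)
    (L₀ : Type) [AddCommGroup L₀] [Module F L₀] (j : L₀ →ₗ[F] M)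
    (hL : Module.finrank F (L₀ ⧸ N₁.comap j) = 1)
    (χ : Gq p → Fˣ) (hχ : ∀ σ ∈ inertia p, ∀ y, act σ (j y) - j (χ σ • y) ∈ N₁)
    (τ₂ : Fˣ →* (Om p)ˣ) (hτ₂ : IsTeich p τ₂) (π : Om p) (hπ : π ^ (p ^ 2 - 1) = p)
    (hΨ : ∀ σ ∈ inertia p, ((τ₂ (χ σ) : (Om p)ˣ) : Om p) = σ π / π) :
    ∃ F₀ ∈ 𝓗.carrier, (∀ e : M, ∀ w ∈ N₁, F₀ (e + w) = F₀ e) ∧ F₀ 0 = 0 ∧
      ∀ y : L₀, j y ∉ N₁ → ‖F₀ (j y)‖ = ‖π‖ := by
  classical
  have hpp : p.Prime := Fact.out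
  obtain ⟨hn0, hndvd, hlt⟩ := h57f_num (p := p) hp2
  have hπne : π ≠ 0 := by
    intro h
    rw [h, zero_pow hn0.ne'] at hπ
    have : (p : Om p) ≠ 0 := by exact_mod_cast hpp.ne_zero
    exact this hπ.symm
  -- the quotient `Q = M ⧸ N₁`
  let actQ : Gq p → (M ⧸ N₁) → (M ⧸ N₁) := fun σ q =>
    if σ ∈ inertia p then N₁.mkQ (act σ q.out) else q
  have hout : ∀ e : M, (N₁.mkQ e).out - e ∈ N₁ := by
    intro e
    have h1 : N₁.mkQ ((N₁.mkQ e).out) = N₁.mkQ e := Quotient.out_eq _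
    rw [← Submodule.Quotient.mk_eq_zero N₁, Submodule.Quotient.mk_sub]
    exact sub_eq_zero.mpr h1
  have hmk : ∀ a b : M, a - b ∈ N₁ → N₁.mkQ a = N₁.mkQ b := by
    intro a b hab
    rw [← sub_eq_zero, ← map_sub]
    exact (Submodule.Quotient.mk_eq_zero N₁).mpr hab
  have hcompat : ∀ σ ∈ inertia p, ∀ e : M,
      N₁.mkQ.toAddMonoidHom (act σ e) = actQ σ (N₁.mkQ.toAddMonoidHom e) := by
    intro σ hσ e
    show N₁.mkQ (act σ e) = actQ σ (N₁.mkQ e)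
    simp only [actQ, if_pos hσ]
    apply hmk
    rw [← h57f_act_sub hact]
    have h1 := hN₁ σ hσ _ (hout e)
    have h2 : act σ (e - (N₁.mkQ e).out) = -(act σ ((N₁.mkQ e).out - e)) := by
      rw [h57f_act_sub hact, h57f_act_sub hact, neg_sub]
    rw [h2]
    exact N₁.neg_mem h1
  obtain ⟨𝓗Q, hmemQ, hcharQ⟩ := h9q_quotOrder p (inertia p) (p : Om p) (h45f_inertiaDiscrete p)
    M act hact 𝓗 (M ⧸ N₁) actQ N₁.mkQ.toAddMonoidHom (Submodule.mkQ_surjective N₁) hcompat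
  have hstabQ : ∀ a : Fˣ, 𝓗Q.StableUnder (fun x => a • x) := by
    intro a f hf
    rw [hmemQ]
    have h1 := hstab a _ ((hmemQ f).1 hf)
    have h2 : (fun x => f (a • x)) ∘ (N₁.mkQ.toAddMonoidHom : M → M ⧸ N₁) =
        fun x => (f ∘ (N₁.mkQ.toAddMonoidHom : M → M ⧸ N₁)) (a • x) := by
      funext x
      show f (a • N₁.mkQ x) = f (N₁.mkQ (a • x))
      rw [Units.smul_def, Units.smul_def, map_smul]
    rw [h2]
    exact h1
  -- the line
  let jQ : (L₀ ⧸ N₁.comap j) →ₗ[F] (M ⧸ N₁) := Submodule.mapQ (N₁.comap j) N₁ j le_rfl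
  have hjQ : ∀ y : L₀, jQ ((N₁.comap j).mkQ y) = N₁.mkQ (j y) := fun y => rfl
  have hjQinj : Function.Injective jQ.toAddMonoidHom := by
    rw [injective_iff_map_eq_zero]
    intro q hq
    obtain ⟨y, rfl⟩ := Submodule.mkQ_surjective _ q
    have h1 : N₁.mkQ (j y) = 0 := hq
    have h2 : j y ∈ N₁ := (Submodule.Quotient.mk_eq_zero N₁).mp h1
    exact (Submodule.Quotient.mk_eq_zero _).mpr h2
  let actL : Gq p → (L₀ ⧸ N₁.comap j) → (L₀ ⧸ N₁.comap j) := fun σ y => χ σ • y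
  have hcompatL : ∀ σ ∈ inertia p, ∀ q : L₀ ⧸ N₁.comap j,
      jQ.toAddMonoidHom (actL σ q) = actQ σ (jQ.toAddMonoidHom q) := by
    intro σ hσ q
    obtain ⟨y, rfl⟩ := Submodule.mkQ_surjective _ q
    show jQ (χ σ • (N₁.comap j).mkQ y) = actQ σ (jQ ((N₁.comap j).mkQ y))
    rw [hjQ, Units.smul_def, ← map_smul, hjQ, ← Units.smul_def]
    have h1 := hcompat σ hσ (j y)
    have h2 : N₁.mkQ (act σ (j y)) = actQ σ (N₁.mkQ (j y)) := h1
    rw [← h2]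
    exact (hmk _ _ (hχ σ hσ y)).symm
  have hfinQ : Finite (M ⧸ N₁) := Finite.of_surjective _ (Submodule.mkQ_surjective N₁)
  obtain ⟨𝓗L, hmemL, hcharL⟩ := h87f_subOrder p (inertia p) (M ⧸ N₁) actQ 𝓗Q
    (L₀ ⧸ N₁.comap j) actL jQ.toAddMonoidHom hjQinj hcompatL
  have hstabL : ∀ a : Fˣ, 𝓗L.StableUnder (fun x => a • x) := by
    intro a g hg
    obtain ⟨f, hf, rfl⟩ := (hmemL g).1 hg
    rw [hmemL]
    refine ⟨fun x => f (a • x), hstabQ a f hf, ?_⟩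
    funext q
    show f (jQ (a • q)) = f (a • jQ q)
    rw [Units.smul_def, Units.smul_def, map_smul]
  -- rank one
  obtain ⟨m, ⟨S, hS⟩, hχm, hX⟩ := h4o_rankOne p hp2 F 2 hF (L₀ ⧸ N₁.comap j) hL actL χ
    (fun σ _ x => rfl) 𝓗L hstabL (hcharL (hcharQ hchar)) τ₂ hτ₂ π hπ
  have hm1 : m = 1 := by
    have hle : m ≤ p + 1 := by
      rw [hS]
      refine (Finset.sum_le_sum_of_subset (Finset.subset_univ S)).trans (le_of_eq ?_)
      rw [Fin.sum_univ_two]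
      simp
      ring
    have : NeZero ((p ^ 2 - 1 : ℕ) : Om p) := ⟨by
      have : (p ^ 2 - 1 : ℕ) ≠ 0 := hn0.ne'
      exact_mod_cast this⟩
    obtain ⟨ζ₀, hζ₀⟩ := HasEnoughRootsOfUnity.exists_primitiveRoot (Om p) (p ^ 2 - 1)
    obtain ⟨σ, hσ, hσπ⟩ := h89f_fundSurjective p (p ^ 2 - 1) hn0 hndvd π hπ ζ₀
      hζ₀.pow_eq_one
    have h1 := hχm σ hσ
    rw [hΨ σ hσ, hσπ, mul_div_assoc, div_self hπne, mul_one] at h1
    have h2 : ζ₀ ^ 1 = ζ₀ ^ m := by rw [pow_one]; exact h1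
    exact (hζ₀.pow_inj (by omega) (by omega) h2).symm
  obtain ⟨X, hXmem, hX0, hXn⟩ := hX 0 (by norm_num)
  obtain ⟨f, hf, rfl⟩ := (hmemL X).1 hXmem
  refine ⟨f ∘ (N₁.mkQ.toAddMonoidHom : M → M ⧸ N₁), (hmemQ f).1 hf, ?_, ?_, ?_⟩
  · intro e w hw
    show f (N₁.mkQ (e + w)) = f (N₁.mkQ e)
    rw [hmk (e + w) e (by rw [add_sub_cancel_left]; exact hw)]
  · show f (N₁.mkQ 0) = 0
    have h1 : f (jQ 0) = 0 := hX0
    rw [map_zero] at h1
    rw [map_zero]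
    exact h1
  · intro y hy
    have hne : (N₁.comap j).mkQ y ≠ 0 := by
      intro h
      have h' : y ∈ N₁.comap j := (Submodule.Quotient.mk_eq_zero (N₁.comap j)).mp h
      exact hy h'
    have h1 := hXn _ hne
    rw [hm1, pow_zero, one_mul, Nat.mod_eq_of_lt (by omega : 1 < p ^ 2 - 1), pow_one] at h1
    have h2 : ‖(p : Om p)‖ = ‖π‖ ^ (p ^ 2 - 1) := by rw [← norm_pow, hπ]
    rw [h2] at h1
    exact (pow_left_inj₀ (norm_nonneg _) (norm_nonneg _) hn0.ne').mp h1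

end Fermat.Agent.S56F
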