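import Fermat.Agent.S56F.FLS3Fa_helper57
import Fermat.Agent.S56F.FLS3Fb_helper57
import Fermat.Agent.S56F.FLO4_helper4

/-!
# S56 / LOC-p-FL, block SS, leaf FL-S3F (helper57, prefix `h57f_`): `h57f_ssFlatLevel`

The flat side of the off-diagonal part in the supersingular case.

* `K = 𝔽_{p²} ∩ k` (`h57f_k2`), `#K = p²` (`h57f_card_k2`; the character `χ₁` has a value of
  order `p² - 1`);
* `h57f_dual_surj`: `k = K y₁ + H₂` for `H₂ = {y | ∀ x ∈ K, l (x y) = 0}`, `y₁ ∉ H₂`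
  (duality of `K` over `𝔽_p`);
* rank one on the `K`-line `ε (k / H₂) v₁` of `(V × V) / N₁`, `N₁ = ε (k v₂ + H₂ v₁)`
  (`h57f_rankOneLine`): `F₀` with `‖F₀‖ = ‖π‖` off `N₁`;
* the norm function over `A = {a ∈ K | l (a y₁) = 0}` (`#A = p`) is invariant under
  `N₂ = ε (k v₂ + ker l v₁)`; `h57f_normBound` at the point `(v₂, 0)`.
-/

set_option autoImplicit false
set_option linter.style.haveILetI false

open Fermat.Agent.PT.Loc

noncomputable section

namespace Fermat.Agent.S56F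

/-- the subfield `𝔽_{p²} ∩ k`. -/
def h57f_k2 (p : ℕ) [Fact p.Prime] (k : Type) [Field k] [CharP k p] : Subfield k :=
  RingHom.eqLocusField (iterateFrobenius k p 2) (RingHom.id k)

theorem h57f_mem_k2 {p : ℕ} [Fact p.Prime] {k : Type} [Field k] [CharP k p] {x : k} :
    x ∈ h57f_k2 p k ↔ x ^ (p ^ 2) = x := by
  show iterateFrobenius k p 2 x = RingHom.id k x ↔ _
  rw [iterateFrobenius_def, RingHom.id_apply]

theorem h57f_card_k2_le {p : ℕ} [Fact p.Prime] {k : Type} [Field k] [CharP k p]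
    [Fintype ↥(h57f_k2 p k)] : Fintype.card ↥(h57f_k2 p k) ≤ p ^ 2 := by
  classical
  have hpp : p.Prime := Fact.out
  have hne : (Polynomial.X ^ p ^ 2 - Polynomial.X : Polynomial ↥(h57f_k2 p k)) ≠ 0 :=
    FiniteField.X_pow_card_pow_sub_X_ne_zero _ two_ne_zero hpp.one_lt
  have hdeg : (Polynomial.X ^ p ^ 2 - Polynomial.X : Polynomial ↥(h57f_k2 p k)).natDegree
      = p ^ 2 :=
    FiniteField.X_pow_card_pow_sub_X_natDegree_eq _ two_ne_zero hpp.one_lt
  have h := Polynomial.card_le_degree_of_subset_roots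
    (p := (Polynomial.X ^ p ^ 2 - Polynomial.X : Polynomial ↥(h57f_k2 p k)))
    (Z := Finset.univ) (by
      intro x _
      rw [Polynomial.mem_roots hne, Polynomial.IsRoot.def]
      simp only [Polynomial.eval_sub, Polynomial.eval_pow, Polynomial.eval_X]
      rw [sub_eq_zero]
      apply Subtype.ext
      have := (h57f_mem_k2 (x := (x : k))).1 x.2
      simpa using this)
  rw [hdeg, Finset.card_univ] at h
  exact h

theorem h57f_pow_mem_k2 {p : ℕ} [Fact p.Prime] {k : Type} [Field k] [CharP k p]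
    (a : k) (ha : a ^ (p ^ 2 - 1) = 1) : a ∈ h57f_k2 p k := by
  have hpp : p.Prime := Fact.out
  rw [h57f_mem_k2]
  have h3 : p ^ 2 = (p ^ 2 - 1) + 1 := by
    have : 0 < p ^ 2 := pow_pos hpp.pos 2
    omega
  rw [h3, pow_succ, ha, one_mul]

theorem h57f_card_k2 {p : ℕ} [Fact p.Prime] {k : Type} [Field k] [CharP k p]
    [Fintype ↥(h57f_k2 p k)] (a₀ : kˣ) (ha₀ : orderOf a₀ = p ^ 2 - 1) :
    Fintype.card ↥(h57f_k2 p k) = p ^ 2 := by
  classical
  have hpp : p.Prime := Fact.out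
  refine le_antisymm h57f_card_k2_le ?_
  have hmem : (a₀ : k) ∈ h57f_k2 p k := by
    apply h57f_pow_mem_k2
    have h1 : a₀ ^ (p ^ 2 - 1) = 1 := by rw [← ha₀]; exact pow_orderOf_eq_one a₀
    have := congrArg (fun u : kˣ => (u : k)) h1
    simpa using this
  have hne : (⟨(a₀ : k), hmem⟩ : ↥(h57f_k2 p k)) ≠ 0 := by
    intro h
    exact a₀.ne_zero (congrArg Subtype.val h)
  set a₁ : (↥(h57f_k2 p k))ˣ := Units.mk0 _ hne with ha₁
  have hord : orderOf a₁ = p ^ 2 - 1 := by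
    rw [← ha₀]
    have hinj : Function.Injective (Units.map ((h57f_k2 p k).subtype : ↥(h57f_k2 p k) →* k)) :=
      Units.map_injective (Subtype.val_injective)
    rw [← orderOf_injective _ hinj a₁]
    congr 1
    apply Units.ext
    rfl
  have h1 : orderOf a₁ ≤ Fintype.card (↥(h57f_k2 p k))ˣ := orderOf_le_card_univ
  rw [Fintype.card_units, hord] at h1
  have h2 : 0 < Fintype.card ↥(h57f_k2 p k) := Fintype.card_pos
  have h3 : 0 < p ^ 2 := pow_pos hpp.pos 2
  omega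

/-- duality of a subfield over `𝔽_p`: `k = K y₁ + {y | ∀ x ∈ K, l (x y) = 0}`. -/
theorem h57f_dual_surj {p : ℕ} [Fact p.Prime] {k : Type} [Field k] [Finite k] [CharP k p]
    (K : Subfield k) (l : k →+ ZMod p) (y₁ : k) (hy₁ : ∃ x : K, l ((x : k) * y₁) ≠ 0) (y : k) :
    ∃ a : K, ∀ x : K, l ((x : k) * (y - (a : k) * y₁)) = 0 := by
  classical
  letI : Algebra (ZMod p) K := ZMod.algebra K p
  -- the functional attached to `w : k`
  let φ : k → (K →+ ZMod p) := fun w =>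
    l.comp ((AddMonoidHom.mulRight w).comp K.subtype.toAddMonoidHom)
  have hφ : ∀ w (x : K), φ w x = l ((x : k) * w) := fun w x => rfl
  let Λ₀ : K →+ (K →ₗ[ZMod p] ZMod p) :=
    { toFun := fun a => AddMonoidHom.toZModLinearMap p (φ ((a : k) * y₁))
      map_zero' := by
        ext x
        show l ((x : k) * (((0 : K) : k) * y₁)) = 0
        simp
      map_add' := by
        intro a b
        ext x
        show l ((x : k) * (((a + b : K) : k) * y₁)) =
          l ((x : k) * ((a : k) * y₁)) + l ((x : k) * ((b : k) * y₁))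
        rw [← map_add]
        congr 1
        push_cast
        ring }
  have hΛ₀ : ∀ a x : K, Λ₀ a x = l ((x : k) * ((a : k) * y₁)) := fun a x => rfl
  let Λ : K →ₗ[ZMod p] (K →ₗ[ZMod p] ZMod p) := AddMonoidHom.toZModLinearMap p Λ₀
  have hΛ : ∀ a x : K, Λ a x = l ((x : k) * ((a : k) * y₁)) := fun a x => rfl
  have hinj : Function.Injective Λ := by
    rw [injective_iff_map_eq_zero]
    intro a ha
    by_contra hne
    obtain ⟨x, hx⟩ := hy₁
    apply hx
    have h1 := hΛ a (x * a⁻¹)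
    rw [ha] at h1
    have h2 : ((x * a⁻¹ : K) : k) * ((a : k) * y₁) = (x : k) * y₁ := by
      have h3 : (a : k) ≠ 0 := fun h => hne (Subtype.ext h)
      push_cast
      field_simp
    rw [h2] at h1
    exact h1.symm
  have hsurj : Function.Surjective Λ :=
    (LinearMap.injective_iff_surjective_of_finrank_eq_finrank
      (Subspace.dual_finrank_eq (K := ZMod p) (V := K)).symm).1 hinj
  obtain ⟨a, ha⟩ := hsurj (AddMonoidHom.toZModLinearMap p (φ y))
  refine ⟨a, fun x => ?_⟩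
  have h1 : Λ a x = l ((x : k) * y) := by rw [ha]; rfl
  rw [hΛ] at h1
  rw [mul_sub, map_sub, h1, sub_self]

/-- the kernel of a non-zero additive character of a group of order `p²` has `p` elements. -/
theorem h57f_card_ker {p : ℕ} [Fact p.Prime] {K : Type} [AddCommGroup K] [Fintype K]
    (hK : Fintype.card K = p ^ 2) (f : K →+ ZMod p) (hf : ∃ x, f x ≠ 0) :
    Nat.card f.ker = p := by
  have hpp : p.Prime := Fact.out
  obtain ⟨x, hx⟩ := hf
  have hsurj : Function.Surjective f := by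
    intro m
    refine ⟨(m * (f x)⁻¹).val • x, ?_⟩
    rw [map_nsmul, nsmul_eq_mul, ZMod.natCast_val, ZMod.cast_id', id, mul_assoc,
      inv_mul_cancel₀ hx, mul_one]
  have h1 := AddSubgroup.card_mul_index f.ker
  rw [AddSubgroup.index_ker, AddMonoidHom.range_eq_top.2 hsurj] at h1
  have h2 : Nat.card (⊤ : AddSubgroup (ZMod p)) = p := by
    rw [AddSubgroup.card_top, Nat.card_zmod]
  have h3 : Nat.card K = p ^ 2 := by rw [Nat.card_eq_fintype_card, hK]
  rw [h2, h3, sq] at h1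
  exact Nat.eq_of_mul_eq_mul_right hpp.pos h1

section SS

variable {p : ℕ} [Fact p.Prime] {k : Type} [Field k] [Finite k] [CharP k p] {V : Type}
  [AddCommGroup V] [Module k V] [Module.Finite k V]

/-- `(σ π / π) ^ (p² - 1) = 1`. -/
theorem h57f_psi_pow (π : Om p) (hπ : π ^ (p ^ 2 - 1) = p) (σ : Gq p) :
    (σ π / π) ^ (p ^ 2 - 1) = 1 := by
  have hpp : p.Prime := Fact.out
  have hp0 : (p : Om p) ≠ 0 := by exact_mod_cast hpp.ne_zero
  rw [div_pow, ← map_pow, hπ, map_natCast, div_self hp0]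

/-- the values of `χ₁` lie in `K`. -/
theorem h57f_chi_mem (τ : kˣ →* (Om p)ˣ) (hτ : IsTeich p τ) (π : Om p)
    (hπ : π ^ (p ^ 2 - 1) = p) (σ : Gq p) (a : kˣ) (m : ℕ)
    (ha : ((τ a : (Om p)ˣ) : Om p) = (σ π / π) ^ m) : (a : k) ∈ h57f_k2 p k := by
  classical
  letI : Fintype k := Fintype.ofFinite k
  apply h57f_pow_mem_k2
  have h1 : τ (a ^ (p ^ 2 - 1)) = 1 := by
    apply Units.ext
    rw [map_pow, Units.val_pow_eq_pow_val, ha, ← pow_mul, mul_comm, pow_mul,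
      h57f_psi_pow π hπ σ, one_pow, Units.val_one]
  have h2 : a ^ (p ^ 2 - 1) = 1 := by
    apply h89c5_tau_injective τ hτ
    rw [h1, map_one]
  have := congrArg (fun u : kˣ => (u : k)) h2
  simpa using this

omit [CharP k p] [Module.Finite k V] in
/-- `I_K` fixes `v₁` and `v₂`. -/
theorem h57f_IK_fix (ρ : Gq p →* Module.End k V) (τ : kˣ →* (Om p)ˣ) (hτ : IsTeich p τ)
    (π : Om p) (hπ0 : π ≠ 0) (v₁ v₂ : V) (hNF : SSNF p ρ τ π v₁ v₂) (s : Gq p)
    (hs : s ∈ IK p π) : ρ s v₁ = v₁ ∧ ρ s v₂ = v₂ := by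
  classical
  letI : Fintype k := Fintype.ofFinite k
  obtain ⟨a₁, ha₁, hτ₁⟩ := hNF.inert₁ s hs.1
  obtain ⟨a₂, ha₂, hτ₂⟩ := hNF.inert₂ s hs.1
  rw [hs.2, div_self hπ0] at hτ₁
  rw [hs.2, div_self hπ0, one_pow] at hτ₂
  have e1 : a₁ = 1 := by
    apply h89c5_tau_injective τ hτ
    apply Units.ext
    rw [hτ₁, map_one, Units.val_one]
  have e2 : a₂ = 1 := by
    apply h89c5_tau_injective τ hτ
    apply Units.ext
    rw [hτ₂, map_one, Units.val_one]
  rw [ha₁, ha₂, e1, e2, Units.val_one, one_smul, one_smul]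
  exact ⟨rfl, rfl⟩

omit [Module.Finite k V] in
/-- `#K = p²`. -/
theorem h57f_card (hp2 : p ≠ 2) (ρ : Gq p →* Module.End k V) (τ : kˣ →* (Om p)ˣ)
    (hτ : IsTeich p τ) (π : Om p) (hπ : π ^ (p ^ 2 - 1) = p) (v₁ v₂ : V)
    (hNF : SSNF p ρ τ π v₁ v₂) [Fintype ↥(h57f_k2 p k)] :
    Fintype.card ↥(h57f_k2 p k) = p ^ 2 := by
  classical
  letI : Fintype k := Fintype.ofFinite k
  have hpp : p.Prime := Fact.out
  have hp0 : (p : Om p) ≠ 0 := by exact_mod_cast hpp.ne_zero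
  obtain ⟨hn0, hndvd, hlt⟩ := h57f_num (p := p) hp2
  have hπ0 : π ≠ 0 := by
    intro h0
    rw [h0, zero_pow hn0.ne'] at hπ
    exact hp0 hπ.symm
  have : NeZero ((p ^ 2 - 1 : ℕ) : Om p) := ⟨by
    have : (p ^ 2 - 1 : ℕ) ≠ 0 := hn0.ne'
    exact_mod_cast this⟩
  obtain ⟨ζ₀, hζ₀⟩ := HasEnoughRootsOfUnity.exists_primitiveRoot (Om p) (p ^ 2 - 1)
  obtain ⟨σ, hσ, hσπ⟩ := h89f_fundSurjective p (p ^ 2 - 1) hn0 hndvd π hπ ζ₀ hζ₀.pow_eq_one
  obtain ⟨a, -, hτa⟩ := hNF.inert₁ σ hσ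
  rw [hσπ, mul_div_assoc, div_self hπ0, mul_one] at hτa
  apply h57f_card_k2 a
  rw [← orderOf_injective τ (h89c5_tau_injective τ hτ) a,
    ← orderOf_injective (Units.coeHom (Om p)) Units.val_injective (τ a)]
  show orderOf ((τ a : (Om p)ˣ) : Om p) = p ^ 2 - 1
  rw [hτa]
  exact hζ₀.eq_orderOf.symm

end SS

/-- **FL-S3F.** -/
theorem h57f_ssFlatLevel : SSFlatLevel := by
  intro p _ k _ _ _ V _ _ _ ρ hρ τ hτ π hπ v₁ v₂ hNF c hc μ hμ l g hg hlg t ht
  classical
  letI : Fintype k := Fintype.ofFinite k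
  letI : Fintype ↥(h57f_k2 p k) := Fintype.ofFinite _
  have hpp : p.Prime := Fact.out
  have hp0 : (p : Om p) ≠ 0 := by exact_mod_cast hpp.ne_zero
  obtain ⟨hn0, hndvd, hlt⟩ := h57f_num (p := p) hρ.odd
  have hπ0 : π ≠ 0 := by
    intro h0
    rw [h0, zero_pow hn0.ne'] at hπ
    exact hp0 hπ.symm
  have hπ1 : ‖π‖ < 1 := by
    by_contra h
    have h1 : 1 ≤ ‖π‖ := not_lt.1 h
    have h2 : 1 ≤ ‖π‖ ^ (p ^ 2 - 1) := one_le_pow₀ h1
    rw [← norm_pow, hπ] at h2
    have h3 : ‖(p : Om p)‖ < 1 := (h45f_inertiaDiscrete p).2.1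
    exact absurd h2 (not_le.2 h3)
  haveI : Finite V := Module.finite_of_finite k
  have hcardK : Fintype.card ↥(h57f_k2 p k) = p ^ 2 :=
    h57f_card hρ.odd ρ τ hτ π hπ v₁ v₂ hNF
  have hIK : ∀ s ∈ IK p π, ρ s v₁ = v₁ ∧ ρ s v₂ = v₂ :=
    fun s hs => h57f_IK_fix ρ τ hτ π hπ0 v₁ v₂ hNF s hs
  -- linear independence
  have hind : ∀ a b : k, a • v₁ + b • v₂ = 0 → a = 0 ∧ b = 0 := by
    intro a b hab
    have h1 := LinearIndependent.pair_iff.1 hNF.indep a b hab
    exact h1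
  -- the Teichmüller character of `K`
  set τ₂ : (↥(h57f_k2 p k))ˣ →* (Om p)ˣ :=
    τ.comp (Units.map ((h57f_k2 p k).subtype : ↥(h57f_k2 p k) →* k)) with hτ₂def
  have hτ₂ : IsTeich p τ₂ := by
    refine ⟨fun a b c' h => ?_, fun a b h => ?_⟩
    · exact hτ.1 _ _ _ (by
        have := congrArg (fun u : ↥(h57f_k2 p k) => (u : k)) h
        simpa using this)
    · exact hτ.2 _ _ (by
        have := congrArg (fun u : ↥(h57f_k2 p k) => (u : k)) h
        simpa using this)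
  -- the character `χ₁`, with values in `Kˣ`
  have hχex : ∀ σ ∈ inertia p, ∃ a : (↥(h57f_k2 p k))ˣ,
      ρ σ v₁ = (((a : ↥(h57f_k2 p k)) : k)) • v₁ ∧
        ((τ₂ a : (Om p)ˣ) : Om p) = σ π / π := by
    intro σ hσ
    obtain ⟨a, ha, hτa⟩ := hNF.inert₁ σ hσ
    have hmem : (a : k) ∈ h57f_k2 p k :=
      h57f_chi_mem τ hτ π hπ σ a 1 (by rw [pow_one]; exact hτa)
    have hne : (⟨(a : k), hmem⟩ : ↥(h57f_k2 p k)) ≠ 0 := by
      intro h
      exact a.ne_zero (congrArg Subtype.val h)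
    refine ⟨Units.mk0 _ hne, ha, ?_⟩
    have h1 : Units.map ((h57f_k2 p k).subtype : ↥(h57f_k2 p k) →* k) (Units.mk0 _ hne) = a := by
      apply Units.ext
      rfl
    show ((τ (Units.map ((h57f_k2 p k).subtype : ↥(h57f_k2 p k) →* k) (Units.mk0 _ hne)) :
      (Om p)ˣ) : Om p) = σ π / π
    rw [h1]
    exact hτa
  set χ : Gq p → (↥(h57f_k2 p k))ˣ :=
    fun σ => if h : σ ∈ inertia p then (hχex σ h).choose else 1 with hχdef
  have hχ : ∀ σ ∈ inertia p, ρ σ v₁ = (((χ σ : ↥(h57f_k2 p k)) : k)) • v₁ ∧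
      ((τ₂ (χ σ) : (Om p)ˣ) : Om p) = σ π / π := by
    intro σ hσ
    have h1 : χ σ = (hχex σ hσ).choose := by
      simp only [hχdef, dif_pos hσ]
    rw [h1]
    exact (hχex σ hσ).choose_spec
  -- the order on `V × V`
  obtain ⟨𝓗, hnice⟩ := hc.flat (inertia p)
  have hact : IsAct (defAct ρ c) := h4p_isAct p ρ c hc.cocycle
  have hstab : ∀ a : (↥(h57f_k2 p k))ˣ, 𝓗.StableUnder (fun x => a • x) := by
    intro a
    exact hnice.aut (DistribMulAction.toAddEquiv (V × V) a) (fun σ _ x => by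
      show a • defAct ρ c σ x = defAct ρ c σ (a • x)
      simp only [defAct, Units.smul_def, Subfield.smul_def, Prod.smul_fst, Prod.smul_snd,
        map_smul, Prod.smul_mk, smul_add])
  -- the set `H₂`
  set H₂ : k → Prop := fun y => ∀ x : ↥(h57f_k2 p k), l ((x : k) * y) = 0 with hH₂
  have hH₂l : ∀ y, H₂ y → l y = 0 := by
    intro y hy
    have := hy 1
    simpa using this
  have hH₂smul : ∀ (a : ↥(h57f_k2 p k)) (y : k), H₂ y → H₂ ((a : k) * y) := by
    intro a y hy x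
    have := hy (x * a)
    rw [← mul_assoc]
    simpa using this
  -- the submodule `N₁ = ε (k v₂ + H₂ v₁)`
  let N₁ : Submodule ↥(h57f_k2 p k) (V × V) :=
    { carrier := {e | e.1 = 0 ∧ ∃ b y : k, H₂ y ∧ e.2 = b • v₂ + y • v₁}
      add_mem' := by
        rintro e e' ⟨he, b, y, hy, hby⟩ ⟨he', b', y', hy', hby'⟩
        refine ⟨by rw [Prod.fst_add, he, he', add_zero], b + b', y + y', fun x => ?_, ?_⟩
        · rw [mul_add, map_add, hy x, hy' x, add_zero]
        · rw [Prod.snd_add, hby, hby', add_smul, add_smul]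
          abel
      zero_mem' := ⟨rfl, 0, 0, fun x => by rw [mul_zero, map_zero], by
        rw [zero_smul, zero_smul, add_zero]; rfl⟩
      smul_mem' := by
        rintro a e ⟨he, b, y, hy, hby⟩
        refine ⟨by rw [Prod.smul_fst, he, smul_zero], (a : k) * b, (a : k) * y,
          hH₂smul a y hy, ?_⟩
        rw [Prod.smul_snd, hby, Subfield.smul_def, smul_add, smul_smul, smul_smul] }
  have hN₁mem : ∀ e : V × V, e ∈ N₁ ↔ e.1 = 0 ∧ ∃ b y : k, H₂ y ∧ e.2 = b • v₂ + y • v₁ :=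
    fun e => Iff.rfl
  have hN₁ : ∀ σ ∈ inertia p, ∀ w ∈ N₁, defAct ρ c σ w ∈ N₁ := by
    rintro σ hσ w ⟨hw, b, y, hy, hby⟩
    obtain ⟨a₂, ha₂, -⟩ := hNF.inert₂ σ hσ
    refine ⟨?_, b * (a₂ : k), ((χ σ : ↥(h57f_k2 p k)) : k) * y, hH₂smul _ y hy, ?_⟩
    · show ρ σ w.1 = 0
      rw [hw, map_zero]
    · show ρ σ w.2 + c σ (ρ σ w.1) = _
      rw [hw, map_zero, map_zero, add_zero, hby, map_add, map_smul, map_smul, ha₂,
        (hχ σ hσ).1, smul_smul, smul_smul, mul_comm y]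
  -- the line
  let j : k →ₗ[↥(h57f_k2 p k)] (V × V) :=
    { toFun := fun y => ((0 : V), y • v₁)
      map_add' := by
        intro y y'
        rw [add_smul, Prod.mk_add_mk, add_zero]
      map_smul' := by
        intro a y
        rw [RingHom.id_apply, Subfield.smul_def, Subfield.smul_def, Prod.smul_mk, smul_zero,
          smul_eq_mul, mul_smul] }
  have hj : ∀ y : k, j y = ((0 : V), y • v₁) := fun y => rfl
  have hjmem : ∀ y : k, j y ∈ N₁ ↔ H₂ y := by
    intro y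
    constructor
    · rintro ⟨-, b, y', hy', hby⟩
      have h1 : y • v₁ = b • v₂ + y' • v₁ := hby
      have h2 : (y - y') • v₁ + (-b) • v₂ = 0 := by
        rw [sub_smul, neg_smul, h1]
        abel
      obtain ⟨h3, -⟩ := hind _ _ h2
      rw [sub_eq_zero.1 h3]
      exact hy'
    · intro hy
      exact ⟨rfl, 0, y, hy, by rw [zero_smul, zero_add]; rfl⟩
  -- `μ g ∉ H₂`
  have hμg : ¬ H₂ (μ g) := fun h => hlg (hH₂l _ h)
  have hdual : ∀ y : k, ∃ a : ↥(h57f_k2 p k), H₂ (y - (a : k) * μ g) := by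
    intro y
    exact h57f_dual_surj (h57f_k2 p k) l (μ g) ⟨1, by simpa using hlg⟩ y
  -- the quotient line has rank one
  have hL : Module.finrank ↥(h57f_k2 p k) (k ⧸ N₁.comap j) = 1 := by
    rw [finrank_eq_one_iff']
    refine ⟨(N₁.comap j).mkQ (μ g), ?_, ?_⟩
    · intro h
      have h1 : μ g ∈ N₁.comap j := (Submodule.Quotient.mk_eq_zero (N₁.comap j)).mp h
      exact hμg ((hjmem _).1 h1)
    · intro w
      obtain ⟨y, rfl⟩ := Submodule.mkQ_surjective _ w
      obtain ⟨a, ha⟩ := hdual y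
      refine ⟨a, ?_⟩
      rw [← map_smul, ← sub_eq_zero, ← map_sub]
      apply (Submodule.Quotient.mk_eq_zero (N₁.comap j)).mpr
      show j (a • μ g - y) ∈ N₁
      rw [hjmem, Subfield.smul_def, smul_eq_mul]
      have h1 : (a : k) * μ g - y = ((-1 : ↥(h57f_k2 p k)) : k) * (y - (a : k) * μ g) := by
        push_cast
        ring
      rw [h1]
      exact hH₂smul _ _ ha
  -- rank one
  obtain ⟨F₀, hF₀, hF₀inv, hF₀0, hF₀n⟩ := h57f_rankOneLine hρ.odd ↥(h57f_k2 p k) hcardK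
    (V × V) (defAct ρ c) hact 𝓗 hnice.char hstab N₁ hN₁ k j hL χ
    (fun σ hσ y => by
      have h1 : defAct ρ c σ (j y) = j (χ σ • y) := by
        show ((ρ σ 0, ρ σ (y • v₁) + c σ (ρ σ 0)) : V × V) = (0, (χ σ • y) • v₁)
        rw [map_zero, map_zero, add_zero, map_smul, (hχ σ hσ).1, smul_smul, Units.smul_def,
          Subfield.smul_def, smul_eq_mul, mul_comm]
      rw [h1, sub_self]
      exact N₁.zero_mem)
    τ₂ hτ₂ π hπ (fun σ hσ => (hχ σ hσ).2)
  -- the index set `A = {a ∈ K | l (a μ g) = 0}`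
  set fA : ↥(h57f_k2 p k) →+ ZMod p :=
    l.comp ((AddMonoidHom.mulRight (μ g)).comp (h57f_k2 p k).subtype.toAddMonoidHom) with hfA
  have hfAx : ∀ a : ↥(h57f_k2 p k), fA a = l ((a : k) * μ g) := fun a => rfl
  have hcardA : Nat.card fA.ker = p :=
    h57f_card_ker hcardK fA ⟨1, by rw [hfAx]; simpa using hlg⟩
  letI : Fintype ↥fA.ker := Fintype.ofFinite _
  have hcardA' : Fintype.card ↥fA.ker = p := by
    rw [← Nat.card_eq_fintype_card]
    exact hcardA
  -- the subgroup `N₂ = ε (k v₂ + ker l v₁)`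
  let N₂ : AddSubgroup (V × V) :=
    { carrier := {e | e.1 = 0 ∧ ∃ b y : k, l y = 0 ∧ e.2 = b • v₂ + y • v₁}
      add_mem' := by
        rintro e e' ⟨he, b, y, hy, hby⟩ ⟨he', b', y', hy', hby'⟩
        refine ⟨by rw [Prod.fst_add, he, he', add_zero], b + b', y + y', ?_, ?_⟩
        · rw [map_add, hy, hy', add_zero]
        · rw [Prod.snd_add, hby, hby', add_smul, add_smul]
          abel
      zero_mem' := ⟨rfl, 0, 0, map_zero l, by
        rw [zero_smul, zero_smul, add_zero]; rfl⟩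
      neg_mem' := by
        rintro e ⟨he, b, y, hy, hby⟩
        refine ⟨by rw [Prod.fst_neg, he, neg_zero], -b, -y, by rw [map_neg, hy, neg_zero], ?_⟩
        rw [Prod.snd_neg, hby, neg_smul, neg_smul]
        abel }
  have hactIK : ∀ s ∈ IK p π, ∀ b y : k,
      defAct ρ c s ((0 : V), b • v₂ + y • v₁) = ((0 : V), b • v₂ + y • v₁) := by
    intro s hs b y
    obtain ⟨e1, e2⟩ := hIK s hs
    show ((ρ s 0, ρ s (b • v₂ + y • v₁) + c s (ρ s 0)) : V × V) = (0, b • v₂ + y • v₁)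
    rw [map_zero, map_zero, add_zero, map_add, map_smul, map_smul, e1, e2]
  have hN₂ : ∀ s ∈ IK p π, ∀ w ∈ N₂, defAct ρ c s w ∈ N₂ := by
    rintro s hs ⟨w1, w2⟩ ⟨hw, b, y, hy, hby⟩
    have hw1 : w1 = 0 := hw
    have hw2 : w2 = b • v₂ + y • v₁ := hby
    rw [hw1, hw2, hactIK s hs b y]
    exact ⟨rfl, b, y, hy, rfl⟩
  -- the points of the family
  set yy : ↥fA.ker → V × V := fun i => j (((i : ↥(h57f_k2 p k)) : k) * μ g) with hyy
  have hyfix : ∀ i, ∀ s ∈ IK p π, defAct ρ c s (yy i) = yy i := by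
    intro i s hs
    have h1 := hactIK s hs 0 (((i : ↥(h57f_k2 p k)) : k) * μ g)
    rw [zero_smul, zero_add] at h1
    exact h1
  -- invariance of the norm function
  have hinv : ∀ e : V × V, ∀ w ∈ N₂,
      ∏ i, F₀ (e + w + yy i) = ∏ i, F₀ (e + yy i) := by
    rintro e ⟨w1, w2⟩ ⟨hw, b, y, hy, hby⟩
    have hw1 : w1 = 0 := hw
    have hw2 : w2 = b • v₂ + y • v₁ := hby
    obtain ⟨a, ha⟩ := hdual y
    have hamem : a ∈ fA.ker := by
      rw [AddMonoidHom.mem_ker, hfAx]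
      have h1 := hH₂l _ ha
      rw [map_sub, hy, zero_sub, neg_eq_zero] at h1
      exact h1
    rw [← Equiv.prod_comp (Equiv.addRight (⟨a, hamem⟩ : ↥fA.ker)) (fun i => F₀ (e + yy i))]
    refine Finset.prod_congr rfl fun i _ => ?_
    have h1 : e + (w1, w2) + yy i =
        e + yy (Equiv.addRight (⟨a, hamem⟩ : ↥fA.ker) i) +
          ((0 : V), b • v₂ + (y - (a : k) * μ g) • v₁) := by
      rw [hw1, hw2]
      apply Prod.ext
      · show e.1 + 0 + 0 = e.1 + 0 + 0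
        rfl
      · show e.2 + (b • v₂ + y • v₁) + (((i : ↥(h57f_k2 p k)) : k) * μ g) • v₁ =
          e.2 + ((((i + ⟨a, hamem⟩ : ↥fA.ker) : ↥(h57f_k2 p k)) : k) * μ g) • v₁ +
            (b • v₂ + (y - (a : k) * μ g) • v₁)
        push_cast
        rw [sub_smul, add_mul, add_smul]
        abel
    rw [h1]
    exact hF₀inv _ _ ⟨rfl, b, _, ha, rfl⟩
  -- the point `x = (v₂, 0)`
  have hmove : ∀ s ∈ IK p π, ∀ b' : k, c s v₂ = μ s • v₁ + b' • v₂ →
      defAct ρ c s ((v₂, 0) : V × V) - ((v₂, 0) : V × V) = ((0 : V), b' • v₂ + μ s • v₁) := by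
    intro s hs b' hb'
    obtain ⟨-, e2⟩ := hIK s hs
    show ((ρ s v₂, ρ s 0 + c s (ρ s v₂)) : V × V) - (v₂, 0) = (0, b' • v₂ + μ s • v₁)
    rw [e2, map_zero, zero_add, hb', Prod.mk_sub_mk, sub_self, sub_zero, add_comm]
  have hbig : t < ‖∏ i, F₀ (defAct ρ c g ((v₂, 0) : V × V) - ((v₂, 0) : V × V) + yy i) -
      ∏ i, F₀ (0 + yy i)‖ := by
    obtain ⟨b', hb'⟩ := hμ g hg
    rw [hmove g hg b' hb']
    have h0 : ∏ i, F₀ (0 + yy i) = 0 := by
      refine Finset.prod_eq_zero (Finset.mem_univ (0 : ↥fA.ker)) ?_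
      have h1 : yy 0 = 0 := by
        show j ((((0 : ↥fA.ker) : ↥(h57f_k2 p k)) : k) * μ g) = 0
        push_cast
        rw [zero_mul, map_zero]
      rw [h1, add_zero]
      exact hF₀0
    rw [h0, sub_zero, norm_prod]
    have h1 : ∀ i : ↥fA.ker, ‖F₀ (((0 : V), b' • v₂ + μ g • v₁) + yy i)‖ = ‖π‖ := by
      intro i
      have h2 : ((0 : V), b' • v₂ + μ g • v₁) + yy i =
          j (μ g + ((i : ↥(h57f_k2 p k)) : k) * μ g) + ((0 : V), b' • v₂ + (0 : k) • v₁) := by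
        show ((0 : V), b' • v₂ + μ g • v₁) + ((0 : V), (((i : ↥(h57f_k2 p k)) : k) * μ g) • v₁) =
          ((0 : V), (μ g + ((i : ↥(h57f_k2 p k)) : k) * μ g) • v₁) +
            ((0 : V), b' • v₂ + (0 : k) • v₁)
        rw [Prod.mk_add_mk, Prod.mk_add_mk, add_zero, zero_smul, add_zero, add_smul]
        congr 1
        abel
      rw [h2, hF₀inv _ _ ⟨rfl, b', 0, fun x => by rw [mul_zero, map_zero], rfl⟩]
      apply hF₀n
      rw [hjmem]
      intro h3
      have h4 := hH₂l _ h3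
      have h5 : l (((i : ↥(h57f_k2 p k)) : k) * μ g) = 0 := i.2
      rw [map_add, h5, add_zero] at h4
      exact hlg h4
    rw [Finset.prod_congr rfl (fun i _ => h1 i), Finset.prod_const, Finset.card_univ, hcardA']
    exact ht
  obtain ⟨z, hz1, hz2, hz3⟩ := h57f_normBound (p ^ 2 - 1) hn0 hndvd π hπ (V × V) (defAct ρ c)
    hact 𝓗 F₀ hF₀ ↥fA.ker yy hyfix N₂ hN₂ hinv ((v₂, 0) : V × V) g hg t hbig
  refine ⟨z, hz1, fun s hs hls => hz2 s hs ?_, hz3⟩
  obtain ⟨b', hb'⟩ := hμ s hs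
  rw [hmove s hs b' hb']
  exact ⟨rfl, b', μ s, hls, rfl⟩

end Fermat.Agent.S56F
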