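import Fermat.Agent.S56F.IfaceKum
import Fermat.Agent.S56F.FLB8final_helper9
import Fermat.Agent.S56F.FLB9_helper4
import Fermat.Agent.S56F.FLD7_helper45
import Fermat.Agent.S56F.FLB56_helper87
import Fermat.Agent.S56F.FLB123_helper38

/-!
# S56 / LOC-p-FL, block SS, leaf FL-S3F, part (a) (helper57): the norm function

`h57f_normBound`: `𝓗` an order over inertia on `M`, `F₀ ∈ 𝓗`, `y : ι → M` a finite family of
points fixed by `I_K`, `N₂ ≤ M` an `I_K`-stable subgroup such that the norm function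
`Nm e = ∏ i, F₀ (e + y i)` is `N₂`-invariant.  If `g ∈ I_K` moves `x` by a point at which
`‖Nm - Nm 0‖ > t`, there is an integer `z`, fixed by all `s ∈ I_K` with `s x - x ∈ N₂`, such
that `‖g z - z‖ > t`.
(Base change to `I_K` (FL-B9), quotient by `N₂` (FL-B8 + FL-D7), ramification bound (FL-B6).)
-/

set_option autoImplicit false

open Fermat.Agent.PT.Loc

noncomputable section

namespace Fermat.Agent.S56F

variable {p : ℕ} [Fact p.Prime]

theorem h57f_IK_le (π : Om p) : IK p π ≤ inertia p := fun _ h => h.1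

/-- translates by points fixed by `Γ'` stay in the base-changed order. -/
theorem h57f_translate_mem {Γ' : Subgroup (Gq p)} (hΓ : Γ' ≤ inertia p)
    {M : Type} [AddCommGroup M] {act : Gq p → M → M}
    (𝓗 : FHO p (inertia p) M act) (𝓗' : FHO p Γ' M act)
    (hle : ∀ f ∈ 𝓗.carrier, f ∈ 𝓗'.carrier) (F₀ : M → Om p) (hF₀ : F₀ ∈ 𝓗.carrier)
    (y : M) (hy : ∀ s ∈ Γ', act s y = y) :
    (fun e => F₀ (e + y)) ∈ 𝓗'.carrier := by
  obtain ⟨n, a, b, ha, hb, hab⟩ := 𝓗.comul F₀ hF₀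
  have hc : ∀ i, b i y ∈ fixInt p Γ' := by
    intro i
    refine ⟨h38f_valuesIntegral p (inertia p) M act 𝓗 (b i) (hb i) y, fun s hs => ?_⟩
    rw [← 𝓗.equivariant (b i) (hb i) s (hΓ hs) y, hy s hs]
  have h1 : (fun e => F₀ (e + y)) = ∑ i, (⟨b i y, hc i⟩ : fixInt p Γ') • a i := by
    funext e
    rw [hab e y, Finset.sum_apply]
    refine Finset.sum_congr rfl fun i _ => ?_
    rw [Pi.smul_apply, Subring.smul_def, smul_eq_mul, mul_comm]
  rw [h1]
  exact sum_mem fun i _ => Subalgebra.smul_mem _ (hle _ (ha i)) _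

/-- **The norm function and the ramification bound.** -/
theorem h57f_normBound (n : ℕ) (hn : 0 < n) (hpn : ¬ p ∣ n) (π : Om p) (hπ : π ^ n = p)
    (M : Type) [AddCommGroup M] [Finite M] (act : Gq p → M → M) (hact : IsAct act)
    (𝓗 : FHO p (inertia p) M act) (F₀ : M → Om p) (hF₀ : F₀ ∈ 𝓗.carrier)
    (ι : Type) [Fintype ι] (y : ι → M) (hy : ∀ i, ∀ s ∈ IK p π, act s (y i) = y i)
    (N₂ : AddSubgroup M) (hN₂ : ∀ s ∈ IK p π, ∀ w ∈ N₂, act s w ∈ N₂)
    (hinv : ∀ e : M, ∀ w ∈ N₂, ∏ i, F₀ (e + w + y i) = ∏ i, F₀ (e + y i))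
    (x : M) (g : Gq p) (hg : g ∈ IK p π) (t : ℝ)
    (hbig : t < ‖∏ i, F₀ (act g x - x + y i) - ∏ i, F₀ (0 + y i)‖) :
    ∃ z : Om p, ‖z‖ ≤ 1 ∧ (∀ s ∈ IK p π, act s x - x ∈ N₂ → s z = z) ∧ t < ‖g z - z‖ := by
  classical
  -- base change
  obtain ⟨𝓗', hle, -⟩ := h4b_baseChange p (inertia p) (IK p π) (h57f_IK_le π) M act 𝓗
  -- the norm function
  set Nm : M → Om p := fun e => ∏ i, F₀ (e + y i) with hNm
  have hNmmem : Nm ∈ 𝓗'.carrier := by
    have h1 : Nm = ∏ i, (fun e => F₀ (e + y i)) := by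
      funext e
      rw [Finset.prod_apply]
    rw [h1]
    exact prod_mem fun i _ =>
      h57f_translate_mem (h57f_IK_le π) 𝓗 𝓗' hle F₀ hF₀ (y i) (hy i)
  have hNminv : ∀ e : M, ∀ w ∈ N₂, Nm (e + w) = Nm e := fun e w hw => hinv e w hw
  -- the quotient
  let actHom : Gq p → (M →+ M) := fun σ => AddMonoidHom.mk' (act σ) (hact.add σ)
  let actQ : Gq p → (M ⧸ N₂) → (M ⧸ N₂) := fun σ =>
    if h : σ ∈ IK p π then QuotientAddGroup.map N₂ N₂ (actHom σ) (fun w hw => hN₂ σ h w hw)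
    else id
  have hcompat : ∀ σ ∈ IK p π, ∀ e : M,
      (QuotientAddGroup.mk' N₂) (act σ e) = actQ σ ((QuotientAddGroup.mk' N₂) e) := by
    intro σ hσ e
    simp only [actQ, dif_pos hσ]
    rfl
  have hdisc : IsDiscrete p (IK p π) π :=
    h45g_tameDiscrete p n hn hpn π hπ (IK p π) (fun σ => Iff.rfl)
  obtain ⟨𝓗₂, hmem₂, -⟩ := h9q_quotOrder p (IK p π) π hdisc M act hact 𝓗' (M ⧸ N₂) actQ
    (QuotientAddGroup.mk' N₂) (QuotientAddGroup.mk'_surjective N₂) hcompat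
  -- the descended norm function
  set Nm₂ : (M ⧸ N₂) → Om p := fun q => Nm q.out with hNm₂
  have hdesc : ∀ e : M, Nm₂ ((QuotientAddGroup.mk' N₂) e) = Nm e := by
    intro e
    obtain ⟨w, hw⟩ := QuotientAddGroup.mk_out_eq_add N₂ e
    show Nm (Quotient.out (QuotientAddGroup.mk e : M ⧸ N₂)) = Nm e
    rw [hw]
    exact hNminv e w w.2
  have hNm₂mem : Nm₂ ∈ 𝓗₂.carrier := by
    rw [hmem₂]
    have h1 : Nm₂ ∘ (QuotientAddGroup.mk' N₂ : M → M ⧸ N₂) = Nm := funext hdesc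
    rw [h1]
    exact hNmmem
  -- the ramification bound
  have hmove : ∀ s ∈ IK p π, actQ s ((QuotientAddGroup.mk' N₂) x) - (QuotientAddGroup.mk' N₂) x
      = (QuotientAddGroup.mk' N₂) (act s x - x) := by
    intro s hs
    rw [← hcompat s hs, map_sub]
  have hnot : ¬ 𝓗₂.PtLE (actQ g ((QuotientAddGroup.mk' N₂) x) - (QuotientAddGroup.mk' N₂) x) t := by
    intro h
    have h1 := h Nm₂ hNm₂mem
    rw [hmove g hg, hdesc] at h1
    have h2 : Nm₂ 0 = Nm 0 := by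
      have := hdesc 0
      rwa [map_zero] at this
    rw [h2] at h1
    exact absurd h1 (not_le.mpr hbig)
  obtain ⟨z, hz1, hz2, hz3⟩ := h87f_ramBound p (IK p π) (M ⧸ N₂) actQ 𝓗₂ g hg
    ((QuotientAddGroup.mk' N₂) x) t hnot
  refine ⟨z, hz1, fun s hs hsx => hz2 s hs ?_, hz3⟩
  have h1 := hmove s hs
  have h2 : (QuotientAddGroup.mk' N₂) (act s x - x) = 0 :=
    (QuotientAddGroup.eq_zero_iff _).mpr hsx
  rw [h2] at h1
  exact sub_eq_zero.mp h1

end Fermat.Agent.S56F
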