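import Fermat.Agent.S56F.FLS3Iface_helper15

/-!
# S56 / LOC-p-FL, row FL-S3i (helper5): `h5f_factor : H15sFactor`

An additive map `l : k → 𝔽_p`, `l ≠ 0`, on a finite field `k ⊇ F` factors as `t ∘ Λ` with
`Λ : k → F` an `F`-linear surjection.  Proof: fix `t₀ : F → 𝔽_p` additive and non-zero;
`Λ ↦ t₀ ∘ Λ` is injective from `Hom_F(k, F)` to `Hom(k, 𝔽_p)`, and both sets have `#k` elements.

Pure algebra (Mathlib only); nothing is assumed.
-/

set_option autoImplicit false
set_option linter.style.haveILetI false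

noncomputable section

namespace Fermat.Agent.S56F

/-- a nonzero additive map `F → 𝔽_p` exists on a finite field of characteristic `p`. -/
theorem h5f_exists_ne (p : ℕ) [Fact p.Prime] (F : Type) [Field F] [Finite F] [CharP F p] :
    ∃ t : F →+ ZMod p, t ≠ 0 := by
  letI : Algebra (ZMod p) F := ZMod.algebra F p
  let b := Module.Free.chooseBasis (ZMod p) F
  have hne : Nonempty (Module.Free.ChooseBasisIndex (ZMod p) F) := by
    by_contra hcon
    rw [not_nonempty_iff] at hcon
    have h1 : (1 : F) = 0 := by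
      have h2 := b.repr.injective (a₁ := (1 : F)) (a₂ := 0) (by
        ext i
        exact (hcon.false i).elim)
      exact h2
    exact one_ne_zero h1
  obtain ⟨i⟩ := hne
  refine ⟨(b.coord i).toAddMonoidHom, fun h => ?_⟩
  have h1 : (b.coord i).toAddMonoidHom (b i) = 0 := by
    rw [h]
    rfl
  have h2 : (b.coord i) (b i) = 1 := by
    rw [Module.Basis.coord_apply, Module.Basis.repr_self, Finsupp.single_eq_same]
  have h3 : (b.coord i).toAddMonoidHom (b i) = (b.coord i) (b i) := rfl
  rw [h3, h2] at h1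
  exact one_ne_zero h1

/-- a non-zero linear form with values in the field of scalars is onto. -/
theorem h5f_surj_of_ne {F k : Type} [Field F] [AddCommGroup k] [Module F k] (Λ : k →ₗ[F] F)
    (x : k) (hx : Λ x ≠ 0) : Function.Surjective Λ := by
  intro y
  refine ⟨(y / Λ x) • x, ?_⟩
  rw [map_smul, smul_eq_mul, div_mul_cancel₀ y hx]

/-- the number of additive maps `k → 𝔽_p` is at most `#k`. -/
theorem h5f_card_addHom_le (p : ℕ) [Fact p.Prime] (k : Type) [Field k] [Finite k] [CharP k p] :
    Finite (k →+ ZMod p) ∧ Nat.card (k →+ ZMod p) ≤ Nat.card k := by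
  letI : Algebra (ZMod p) k := ZMod.algebra k p
  haveI : Module.Finite (ZMod p) k := Module.Finite.of_finite
  haveI : Finite (Module.Dual (ZMod p) k) := Module.finite_of_finite (ZMod p)
  have hinj : Function.Injective
      (AddMonoidHom.toZModLinearMap p (M := k) (M₁ := ZMod p)) :=
    AddMonoidHom.toZModLinearMap_injective p
  refine ⟨Finite.of_injective _ hinj, ?_⟩
  calc Nat.card (k →+ ZMod p) ≤ Nat.card (Module.Dual (ZMod p) k) :=
        Nat.card_le_card_of_injective _ hinj
    _ = Nat.card (ZMod p) ^ Module.finrank (ZMod p) (Module.Dual (ZMod p) k) :=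
        Module.natCard_eq_pow_finrank
    _ = Nat.card (ZMod p) ^ Module.finrank (ZMod p) k := by rw [Subspace.dual_finrank_eq]
    _ = Nat.card k := Module.natCard_eq_pow_finrank.symm

/-- **FL-S3i.** -/
theorem h5f_factor : H15sFactor := by
  intro p _ F k _ _ _ _ _ l hl
  have hinjF : Function.Injective (algebraMap F k) := (algebraMap F k).injective
  haveI : Finite F := Finite.of_injective _ hinjF
  haveI : CharP F p := (algebraMap F k).charP hinjF p
  haveI : Module.Finite F k := Module.Finite.of_finite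
  haveI : Finite (Module.Dual F k) := Module.finite_of_finite F
  obtain ⟨t₀, ht₀⟩ := h5f_exists_ne p F
  obtain ⟨hfin, hcard⟩ := h5f_card_addHom_le p k
  -- the map `Λ ↦ t₀ ∘ Λ`
  let Φ : Module.Dual F k → (k →+ ZMod p) := fun Λ => t₀.comp Λ.toAddMonoidHom
  have hΦ : Function.Injective Φ := by
    intro Λ Λ' h
    by_contra hne
    have h1 : ∃ x, (Λ - Λ') x ≠ 0 := by
      by_contra hcon
      push Not at hcon
      apply hne
      ext x
      have := hcon x
      rw [LinearMap.sub_apply, sub_eq_zero] at this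
      exact this
    obtain ⟨x, hx⟩ := h1
    have hs := h5f_surj_of_ne (Λ - Λ') x hx
    apply ht₀
    ext y
    obtain ⟨z, rfl⟩ := hs y
    have h2 : Φ Λ z = Φ Λ' z := by rw [h]
    have h3 : t₀ (Λ z) = t₀ (Λ' z) := h2
    rw [LinearMap.sub_apply, map_sub, h3, sub_self]
    rfl
  have hcardD : Nat.card (Module.Dual F k) = Nat.card k := by
    rw [Module.natCard_eq_pow_finrank (K := F) (V := Module.Dual F k), Subspace.dual_finrank_eq,
      ← Module.natCard_eq_pow_finrank (K := F) (V := k)]
  have hbij : Function.Bijective Φ :=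
    hΦ.bijective_of_nat_card_le (by rw [hcardD]; exact hcard)
  obtain ⟨Λ, hΛ⟩ := hbij.2 l
  refine ⟨Λ, t₀, fun x => ?_, ?_⟩
  · rw [← hΛ]
    rfl
  · obtain ⟨x, hx⟩ := hl
    apply h5f_surj_of_ne Λ x
    intro h0
    apply hx
    rw [← hΛ]
    show t₀ (Λ x) = 0
    rw [h0, map_zero]

end Fermat.Agent.S56F
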