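import Fermat.Agent.S56F.FLS3Iface_helper15

/-!
# S56 / LOC-p-FL, leaf FL-S3j (helper47): the subfield with `p²` elements

`h47j_subfield : H15sSubfield`.  Pure algebra (Mathlib only).
-/

set_option autoImplicit false
set_option linter.style.haveILetI false
set_option linter.unnecessarySimpa false

noncomputable section

namespace Fermat.Agent.S56F

open Polynomial

/-- The fixed field of the `n`-fold Frobenius. -/
def h47j_F (p : ℕ) [Fact p.Prime] (k : Type) [Field k] [CharP k p] (n : ℕ) : Subfield k :=
  RingHom.eqLocusField (iterateFrobenius k p n) (RingHom.id k)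

lemma h47j_mem (p : ℕ) [Fact p.Prime] (k : Type) [Field k] [CharP k p] (n : ℕ) (x : k) :
    x ∈ h47j_F p k n ↔ x ^ p ^ n = x := by
  show iterateFrobenius k p n x = RingHom.id k x ↔ _
  rw [iterateFrobenius_def, RingHom.id_apply]

lemma h47j_card_le (p : ℕ) [Fact p.Prime] (k : Type) [Field k] [Finite k] [CharP k p] (n : ℕ)
    (hn : n ≠ 0) : Nat.card (h47j_F p k n) ≤ p ^ n := by
  classical
  haveI : Fintype k := Fintype.ofFinite k
  have hp1 : 1 < p ^ n := Nat.one_lt_pow hn (Fact.out : p.Prime).one_lt
  set P : k[X] := X ^ p ^ n - X with hP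
  have hdeg : P.natDegree = p ^ n := FiniteField.X_pow_card_pow_sub_X_natDegree_eq k hn
    (Fact.out : p.Prime).one_lt |> fun h => by
      simpa [hP] using h
  have hP0 : P ≠ 0 := by
    intro h
    rw [h, natDegree_zero] at hdeg
    omega
  have hsub : ∀ x : h47j_F p k n, (x : k) ∈ P.roots.toFinset := by
    intro x
    rw [Multiset.mem_toFinset, mem_roots hP0]
    have := (h47j_mem p k n x).mp x.2
    simp [hP, this]
  have hinj : Function.Injective (fun x : h47j_F p k n =>
      (⟨(x : k), hsub x⟩ : P.roots.toFinset)) := by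
    intro x y h
    exact Subtype.ext (congrArg (fun z : P.roots.toFinset => (z : k)) h)
  have h1 : Nat.card (h47j_F p k n) ≤ Nat.card P.roots.toFinset :=
    Nat.card_le_card_of_injective _ hinj
  have h2 : Nat.card P.roots.toFinset = P.roots.toFinset.card := by
    rw [Nat.card_eq_fintype_card, Fintype.card_coe]
  have h3 : P.roots.toFinset.card ≤ P.roots.card := Multiset.toFinset_card_le _
  have h4 : P.roots.card ≤ P.natDegree := card_roots' P
  omega

theorem h47j_subfield : H15sSubfield := by
  intro p _ k _ _ _ a ha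
  classical
  haveI : Fintype k := Fintype.ofFinite k
  have hp : p.Prime := Fact.out
  have hp2 : 2 ≤ p := hp.two_le
  have hpp : 1 ≤ p ^ 2 := Nat.one_le_pow _ _ hp.pos
  refine ⟨h47j_F p k 2, ?_, fun x hx => (h47j_mem p k 2 x).mpr hx⟩
  apply le_antisymm (h47j_card_le p k 2 two_ne_zero)
  -- lower bound: the unit `a` lies in `F`
  have hapow : (a : k) ^ (p ^ 2 - 1) = 1 := by
    have := pow_orderOf_eq_one a
    rw [ha] at this
    have h2 := congrArg (fun u : kˣ => (u : k)) this
    simpa using h2
  have haF : (a : k) ∈ h47j_F p k 2 := by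
    rw [h47j_mem]
    have : p ^ 2 = (p ^ 2 - 1) + 1 := by omega
    rw [this, pow_succ, hapow, one_mul]
  have ha0 : (⟨(a : k), haF⟩ : h47j_F p k 2) ≠ 0 := by
    intro h
    have := congrArg (fun u : h47j_F p k 2 => (u : k)) h
    exact a.ne_zero (by simpa using this)
  set a' : (h47j_F p k 2)ˣ := Units.mk0 ⟨(a : k), haF⟩ ha0 with ha'
  have hord : orderOf a' = p ^ 2 - 1 := by
    rw [← ha]
    have hinj : Function.Injective
        (Units.map ((h47j_F p k 2).subtype : h47j_F p k 2 →* k)) :=
      Units.map_injective (Subtype.val_injective)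
    rw [← orderOf_injective _ hinj a']
    congr 1
    ext
    rfl
  have h1 : orderOf a' ≤ Nat.card (h47j_F p k 2)ˣ := orderOf_le_card
  have h2 : Nat.card (h47j_F p k 2)ˣ = Nat.card (h47j_F p k 2) - 1 :=
    Nat.card_units _
  have hpos : 0 < Nat.card (h47j_F p k 2) := Nat.card_pos
  omega

end Fermat.Agent.S56F
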