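import Fermat.Agent.S56F.FLS3Iface_helper15
import Fermat.Agent.S56F.FLB9_helper4
import Fermat.Agent.S56F.FLO4_helper4
import Fermat.Agent.S56F.FLO2_helper89
import Fermat.Agent.S56F.FLB8final_helper9
import Fermat.Agent.S56F.FLB56_helper87
import Fermat.Agent.S56F.FLD7_helper45
import Fermat.Agent.S56F.FLC5_helper89

/-!
# S56 / LOC-p-FL, leaf FL-S3k (helper4, prefix `h4k_`): `h4k_normRam : H15sNormRam`

The norm function and the ramification bound.  `𝓗` an order over inertia on `V × V`, `𝓗'` its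
base change to `I_K` (FL-B9); the translates of `F₀ = f ∘ Φ` by the points `(0, s • v₁)`
(fixed by `I_K`) are in `𝓗'`; their product over lifts of `ker t` factors through
`Φ' (v, w) = (v, l (φ₁ w))`, so it defines a function `N'` of the quotient order on
`V × ZMod p` over `I_K` (FL-B8, FL-D7) with `N' 0 = 0`, `‖N' (0, u)‖ = ‖π‖ ^ p` for `u ≠ 0`;
the ramification bound (FL-B6) at `(v₂, 0)`.
-/

set_option autoImplicit false
set_option linter.style.haveILetI false

open Fermat.Agent.PT.Loc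

noncomputable section

namespace Fermat.Agent.S56F

/-- **FL-S3k.** -/
theorem h4k_normRam : H15sNormRam := by
  intro p _ k _ _ _ V _ _ _ ρ hρ τ hτ π hπ v₁ v₂ hNF c hc 𝓗 l φ₁ hφ1 hφ2 A _ _ lam t hlam hfac
    hcardA f hf hf0 hfn g₀ hg₀ hne t' ht'
  classical
  letI : Fintype k := Fintype.ofFinite k
  haveI : Finite V := Module.finite_of_finite k
  have hpp : p.Prime := Fact.out
  have hp0 : (p : Om p) ≠ 0 := by exact_mod_cast hpp.ne_zero
  have hd0 : 0 < p ^ 2 - 1 := h89o_pow_sub_one_pos (p := p) 2 (by norm_num)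
  have hπ0 : π ≠ 0 := by
    intro h0
    rw [h0, zero_pow hd0.ne'] at hπ
    exact hp0 hπ.symm
  -- coordinates
  have hcard : Fintype.card (Fin 2) = Module.finrank k V := by
    rw [hρ.rank]
    rfl
  set b : Module.Basis (Fin 2) k V := basisOfLinearIndependentOfCardEqFinrank hNF.indep hcard
    with hb
  have hb0 : b 0 = v₁ := by
    rw [hb, coe_basisOfLinearIndependentOfCardEqFinrank]
    rfl
  have hb1 : b 1 = v₂ := by
    rw [hb, coe_basisOfLinearIndependentOfCardEqFinrank]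
    rfl
  have hexp : ∀ w : V, w = b.coord 0 w • v₁ + b.coord 1 w • v₂ := by
    intro w
    conv_lhs => rw [← b.sum_repr w]
    rw [Fin.sum_univ_two, hb0, hb1]
    rfl
  -- `ρ` is trivial on `I_K`
  have hρ1 : ∀ s ∈ h15s_IK p π, ∀ w : V, ρ s w = w := by
    intro s hs w
    obtain ⟨a₁, ha₁, hτ₁⟩ := hNF.inert₁ s hs.1
    obtain ⟨a₂, ha₂, hτ₂⟩ := hNF.inert₂ s hs.1
    rw [hs.2, div_self hπ0] at hτ₁ hτ₂
    rw [one_pow] at hτ₂
    have e1 : a₁ = 1 :=
      h89c5_tau_injective τ hτ (Units.ext (by rw [hτ₁, map_one, Units.val_one]))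
    have e2 : a₂ = 1 :=
      h89c5_tau_injective τ hτ (Units.ext (by rw [hτ₂, map_one, Units.val_one]))
    rw [e1, Units.val_one, one_smul] at ha₁
    rw [e2, Units.val_one, one_smul] at ha₂
    conv_lhs => rw [hexp w]
    rw [map_add, map_smul, map_smul, ha₁, ha₂]
    exact (hexp w).symm
  -- surjectivity of `l` and `t`
  have hlsurj : Function.Surjective l := by
    intro y
    refine ⟨(y / l (φ₁ (c g₀ v₂))).val • φ₁ (c g₀ v₂), ?_⟩
    rw [map_nsmul, nsmul_eq_mul, ZMod.natCast_zmod_val, div_mul_cancel₀ _ hne]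
  have htsurj : Function.Surjective t := by
    intro y
    obtain ⟨x, hx⟩ := hlsurj y
    exact ⟨lam x, by rw [← hfac, hx]⟩
  -- the kernel of `t` has `p` elements
  letI : Fintype t.ker := Fintype.ofFinite _
  have hker : Fintype.card t.ker = p := by
    have h1 := AddSubgroup.card_mul_index t.ker
    rw [AddSubgroup.index_ker, hcardA] at h1
    have h2 : Nat.card (t.range) = p := by
      rw [AddMonoidHom.range_eq_top.2 htsurj]
      rw [Nat.card_congr (AddSubgroup.topEquiv (G := ZMod p)).toEquiv, Nat.card_zmod]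
    rw [h2, pow_two] at h1
    rw [← Nat.card_eq_fintype_card]
    exact Nat.eq_of_mul_eq_mul_right hpp.pos h1
  -- base change to `I_K`
  obtain ⟨𝓗', hsub, -⟩ := h4b_baseChange p (inertia p) (h15s_IK p π) (h15s_IK_le p π) (V × V)
    (defAct ρ c) 𝓗
  set F₀ : V × V → Om p := fun x => f (x.1, lam (φ₁ x.2)) with hF₀
  obtain ⟨n, a, bb, ha, hbb, hab⟩ := 𝓗.comul F₀ hf
  have htrans : ∀ s : k, (fun x : V × V => F₀ (x + ((0 : V), s • v₁))) ∈ 𝓗'.carrier := by
    intro s
    have hfix : ∀ i, bb i ((0 : V), s • v₁) ∈ fixInt p (h15s_IK p π) := by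
      intro i
      refine ⟨h38f_valuesIntegral p (inertia p) (V × V) (defAct ρ c) 𝓗 (bb i) (hbb i) _,
        fun σ hσ => ?_⟩
      rw [← 𝓗.equivariant (bb i) (hbb i) σ hσ.1]
      congr 1
      show ((ρ σ 0, ρ σ (s • v₁) + c σ (ρ σ 0)) : V × V) = (0, s • v₁)
      rw [map_zero, map_zero, add_zero, hρ1 σ hσ]
    have h1 : (fun x : V × V => F₀ (x + ((0 : V), s • v₁))) =
        ∑ i, (⟨bb i ((0 : V), s • v₁), hfix i⟩ : fixInt p (h15s_IK p π)) • a i := by
      funext x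
      rw [hab, Finset.sum_apply]
      refine Finset.sum_congr rfl (fun i _ => ?_)
      show a i x * bb i ((0 : V), s • v₁) = bb i ((0 : V), s • v₁) * a i x
      ring
    rw [h1]
    exact Subalgebra.sum_mem _ (fun i _ => Subalgebra.smul_mem _ (hsub _ (ha i)) _)
  -- the norm function
  set sl : t.ker → k := fun h => Classical.choose (hlam (h : A)) with hsl
  have hsl' : ∀ h : t.ker, lam (sl h) = (h : A) := fun h => Classical.choose_spec (hlam (h : A))
  set N : V × V → Om p := ∏ h : t.ker, (fun x : V × V => F₀ (x + ((0 : V), sl h • v₁)))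
    with hN
  have hNmem : N ∈ 𝓗'.carrier := Subalgebra.prod_mem _ (fun h _ => htrans (sl h))
  have hNx : ∀ x : V × V, N x = ∏ h : t.ker, f (x.1, lam (φ₁ x.2) + (h : A)) := by
    intro x
    rw [hN, Finset.prod_apply]
    refine Finset.prod_congr rfl (fun h _ => ?_)
    show f ((x + ((0 : V), sl h • v₁)).1, lam (φ₁ (x + ((0 : V), sl h • v₁)).2)) = _
    rw [Prod.fst_add, Prod.snd_add, add_zero, map_add, map_add, map_smul, hφ1, smul_eq_mul,
      mul_one, hsl']
  -- the section of `t`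
  set sec : ZMod p → A := fun u => Classical.choose (htsurj u) with hsec
  have hsec' : ∀ u, t (sec u) = u := fun u => Classical.choose_spec (htsurj u)
  set N' : V × ZMod p → Om p := fun x => ∏ h : t.ker, f (x.1, sec x.2 + (h : A)) with hN'
  set Φ' : (V × V) →+ (V × ZMod p) :=
    AddMonoidHom.prodMap (AddMonoidHom.id V) (l.comp φ₁.toAddMonoidHom) with hΦ'
  have hΦ'x : ∀ x : V × V, Φ' x = (x.1, l (φ₁ x.2)) := fun x => rfl
  have hNN' : N' ∘ (Φ' : V × V → V × ZMod p) = N := by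
    funext x
    rw [Function.comp_apply, hNx, hΦ'x]
    show ∏ h : t.ker, f (x.1, sec (l (φ₁ x.2)) + (h : A)) = _
    have hd : sec (l (φ₁ x.2)) - lam (φ₁ x.2) ∈ t.ker := by
      rw [AddMonoidHom.mem_ker, map_sub, hsec', hfac, sub_self]
    refine Fintype.prod_equiv (Equiv.addLeft (⟨_, hd⟩ : t.ker)) _ _ (fun h => ?_)
    congr 2
    show sec (l (φ₁ x.2)) + (h : A) = lam (φ₁ x.2) + (sec (l (φ₁ x.2)) - lam (φ₁ x.2) + (h : A))
    abel
  -- the quotient order over `I_K`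
  have hdisc : IsDiscrete p (h15s_IK p π) π :=
    h45g_tameDiscrete p (p ^ 2 - 1) hd0 (h89o_not_dvd_pow_sub_one (p := p) 2 (by norm_num)) π hπ
      (h15s_IK p π) (fun σ => Iff.rfl)
  have hact : IsAct (defAct ρ c) := h4p_isAct p ρ c hc.cocycle
  set actQ : Gq p → V × ZMod p → V × ZMod p :=
    fun σ x => (ρ σ x.1, x.2 + l (φ₁ (c σ (ρ σ x.1)))) with hactQ
  have hΦs : Function.Surjective Φ' := by
    rintro ⟨u, y⟩
    obtain ⟨x, hx⟩ := hlsurj y
    refine ⟨(u, x • v₁), ?_⟩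
    rw [hΦ'x]
    show ((u, l (φ₁ (x • v₁))) : V × ZMod p) = (u, y)
    rw [map_smul, hφ1, smul_eq_mul, mul_one, hx]
  obtain ⟨𝓗Q, hmemQ, -⟩ := h9q_quotOrder p (h15s_IK p π) π hdisc (V × V) (defAct ρ c) hact 𝓗'
    (V × ZMod p) actQ Φ' hΦs (fun σ hσ x => by
      rw [hΦ'x, hΦ'x]
      show ((ρ σ x.1, l (φ₁ (ρ σ x.2 + c σ (ρ σ x.1)))) : V × ZMod p) =
        (ρ σ x.1, l (φ₁ x.2) + l (φ₁ (c σ (ρ σ x.1))))
      rw [map_add, map_add, hρ1 σ hσ x.2])
  have hN'mem : N' ∈ 𝓗Q.carrier := by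
    rw [hmemQ, hNN']
    exact hNmem
  -- values of `N'`
  have hN'0 : N' 0 = 0 := by
    show ∏ h : t.ker, f ((0 : V), sec 0 + (h : A)) = 0
    have hd : - sec 0 ∈ t.ker := by
      rw [AddMonoidHom.mem_ker, map_neg, hsec', neg_zero]
    refine Finset.prod_eq_zero (Finset.mem_univ (⟨_, hd⟩ : t.ker)) ?_
    show f ((0 : V), sec 0 + - sec 0) = 0
    rw [add_neg_cancel]
    exact hf0
  have hN'u : ∀ u : ZMod p, u ≠ 0 → ‖N' ((0 : V), u)‖ = ‖π‖ ^ p := by
    intro u hu
    show ‖∏ h : t.ker, f ((0 : V), sec u + (h : A))‖ = ‖π‖ ^ p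
    rw [norm_prod]
    have h1 : ∀ h : t.ker, ‖f ((0 : V), sec u + (h : A))‖ = ‖π‖ := by
      intro h
      apply hfn
      intro h0
      apply hu
      have h2 : t (sec u + (h : A)) = u := by
        rw [map_add, hsec', AddMonoidHom.mem_ker.1 h.2, add_zero]
      rw [← h2, h0, map_zero]
    rw [Finset.prod_congr rfl (fun h _ => h1 h), Finset.prod_const, Finset.card_univ, hker]
  -- the ramification bound at `(v₂, 0)`
  have hmove : ∀ s ∈ h15s_IK p π,
      actQ s ((v₂, 0) : V × ZMod p) = ((v₂, l (φ₁ (c s v₂))) : V × ZMod p) := by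
    intro s hs
    show ((ρ s v₂, 0 + l (φ₁ (c s (ρ s v₂)))) : V × ZMod p) = (v₂, l (φ₁ (c s v₂)))
    rw [hρ1 s hs, zero_add]
  have hnot : ¬ 𝓗Q.PtLE (actQ g₀ ((v₂, 0) : V × ZMod p) - ((v₂, 0) : V × ZMod p)) t' := by
    intro hle
    have h1 := hle N' hN'mem
    rw [hmove g₀ hg₀] at h1
    have h2 : ((v₂, l (φ₁ (c g₀ v₂))) : V × ZMod p) - ((v₂, 0) : V × ZMod p) =
        (((0 : V), l (φ₁ (c g₀ v₂))) : V × ZMod p) := by
      ext <;> simp
    rw [h2, hN'0, sub_zero, hN'u _ hne] at h1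
    exact absurd ht' (not_lt.2 h1)
  obtain ⟨z, hz1, hz2, hz3⟩ := h87f_ramBound p (h15s_IK p π) (V × ZMod p) actQ 𝓗Q g₀ hg₀
    ((v₂, 0) : V × ZMod p) t' hnot
  refine ⟨z, hz1, fun s hs hs0 => hz2 s hs ?_, hz3⟩
  rw [hmove s hs, hs0]

end Fermat.Agent.S56F
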