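import Fermat.Agent.S56F.FLS3m_helper15
import Fermat.Agent.S56F.FLK3_helper99
import Fermat.Agent.S56F.FLS3i_helper5
import Fermat.Agent.S56F.FLS3j_helper47
import Fermat.Agent.S56F.FLS3k_helper4
import Fermat.Agent.S56F.FLO8Kum_helper34
import Fermat.Agent.S56F.FLD4_helper7
import Fermat.Agent.PT.Loc.H36URBase

/-!
# S56 / LOC-p-FL, row FL-S3 (helper15): `SSOffLev3`

Wiring of the landed leaves: `h5f_factor` (helper5), `h47j_subfield` (helper47),
`h15s_rankFn_of` (helper15), `h4k_normRam` (helper4), `h99k_condBound` (helper99),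
`h10g_kummerGen` (helper10), `h83k_unitNF` (helper83), `h7o_flatCont` (helper7).
-/

set_option autoImplicit false
set_option linter.style.haveILetI false

open Fermat.Agent.PT.Loc

noncomputable section

namespace Fermat.Agent.S56F

/-- The flat side, unconditional. -/
theorem h15s_flat : H15sFlat :=
  h15s_flat_of (h15s_rankFn_of h5f_factor h47j_subfield) h4k_normRam

/-- `SSFlatLevel`, unconditional. -/
theorem h15s_ssFlatLevel : SSFlatLevel := h15s_ssFlatLevel_of h15s_flat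

/-- **FL-S3**, conditional only on `ζ_p ∈ ℚ_p^ur(π)`. -/
theorem h15s_ssOffLev3_of_zetaFix (hZ : H15sZetaFix) : SSOffLev3 :=
  h15s_ssOffLev3_of' h15s_flat h99k_condBound hZ

/-- **FL-S3g**: `ζ_p ∈ ℚ_p^ur(π)`. -/
theorem h15s_zetaFix : H15sZetaFix := by
  intro p _ hp2 π hπ ζ hζ g hg
  have hp : p.Prime := Fact.out
  haveI : NeZero p := ⟨hp.ne_zero⟩
  by_cases hζ1 : ζ = 1
  · rw [hζ1]
    exact map_one g
  have hprim : IsPrimitiveRoot ζ p := by
    have h3 := orderOf_dvd_of_pow_eq_one hζ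
    rcases (Nat.dvd_prime hp).1 h3 with h | h
    · exact absurd (orderOf_eq_one_iff.1 h) hζ1
    · have h4 := IsPrimitiveRoot.orderOf ζ
      rwa [h] at h4
  have hp3 : 3 ≤ p := by
    have := hp.two_le
    omega
  have hp0 : ((p : ℕ) : Om p) ≠ 0 := by exact_mod_cast hp.ne_zero
  have hp9 : p + 6 ≤ p ^ 2 := by nlinarith
  have hN0 : 0 < p ^ 2 - 1 := by omega
  have hpN : ¬ p ∣ p ^ 2 - 1 := by
    intro h
    have h2 : p ∣ p ^ 2 := dvd_pow_self p (by norm_num)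
    have h3 : p ∣ p ^ 2 - (p ^ 2 - 1) := Nat.dvd_sub h2 h
    have h4 : p ^ 2 - (p ^ 2 - 1) = 1 := by omega
    rw [h4] at h3
    exact hp.one_lt.ne' (Nat.dvd_one.mp h3)
  have hfac : p ^ 2 - 1 = (p - 1) * (p + 1) := by
    obtain ⟨q, rfl⟩ : ∃ q, p = q + 1 := ⟨p - 1, by omega⟩
    simp only [Nat.add_sub_cancel]
    have : (q + 1) ^ 2 = q * (q + 1 + 1) + 1 := by ring
    omega
  have hdvd : (p - 1) ∣ p ^ 2 - 1 := ⟨p + 1, hfac⟩
  have hπ0 : π ≠ 0 := by
    rintro rfl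
    rw [zero_pow hN0.ne'] at hπ
    exact hp0 hπ.symm
  have hcyc : cycExp p g ((h34k_chi hprim g : (ZMod p)ˣ) : ZMod p).val :=
    h34k_cycExp_val hprim g
  have hmlt : ((h34k_chi hprim g : (ZMod p)ˣ) : ZMod p).val < p := ZMod.val_lt _
  have hm0 : ((h34k_chi hprim g : (ZMod p)ˣ) : ZMod p).val ≠ 0 := by
    intro h0
    have h3 := (ZMod.val_eq_zero _).1 h0
    exact (h34k_chi hprim g).ne_zero h3
  have h1 := h7c_cycFund p hp2 (p ^ 2 - 1) hN0 hpN hdvd π hπ g hg.1 _ hcyc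
  rw [hg.2, div_self hπ0, one_pow] at h1
  obtain ⟨m, hm⟩ : ∃ m : ℕ, m = ((h34k_chi hprim g : (ZMod p)ˣ) : ZMod p).val := ⟨_, rfl⟩
  rw [← hm] at h1 hcyc hmlt hm0
  have h2 : ‖((m - 1 : ℕ) : Om p)‖ < 1 := by
    rw [Nat.cast_sub (by omega), Nat.cast_one, ← norm_neg, neg_sub]
    exact h1
  have h3 : p ∣ m - 1 := (h36u_norm_natCast_lt_one_iff _).1 h2
  have h4 : m - 1 = 0 := Nat.eq_zero_of_dvd_of_lt h3 (by omega)
  have h5 : m = 1 := by omega
  rw [hcyc ζ hζ, h5, pow_one]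

/-- **FL-S3** (`SSOffLev3`), UNCONDITIONAL. -/
theorem h15s_ssOffLev3 : SSOffLev3 := h15s_ssOffLev3_of_zetaFix h15s_zetaFix


end Fermat.Agent.S56F
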