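import Fermat.Agent.S56F.IfaceKum
import Fermat.Agent.S56F.FLD0_helper89
import Fermat.Agent.S56F.FLD1_helper45
import Fermat.Agent.S56F.FLD2_helper89
import Fermat.Agent.S56F.FLD5_helper96

/-!
# S56 / LOC-p-FL, row FL-S3N (helper42): the supersingular normal form excludes stable lines

`h42f_ssNoLine : SSNoLine`.

Tools (reused by FL-S4A):
* `h42f_exists_gen` : `t₀ ∈ inertia` with `t₀ π = ζ₀ π`, `ζ₀` a primitive `(p² - 1)`-th root of
  unity (`FundSurjective`);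
* `h42f_frob_conj` : `(φ t φ⁻¹) π = ζ ^ p π` for a Frobenius `φ` and `t ∈ inertia`, `t π = ζ π`;
* `h42f_basis` : every vector is a combination of `v₁, v₂`;
* `h42f_eig_ne` : the eigenvalues of `ρ t₀` on `v₁`, `v₂` are distinct.
-/

set_option autoImplicit false
set_option linter.style.haveILetI false
set_option linter.unusedSectionVars false

open Fermat.Agent.PT.Loc Polynomial

noncomputable section

namespace Fermat.Agent.S56F

section Tame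

variable {p : ℕ} [Fact p.Prime]

theorem h42f_N_pos (p : ℕ) [Fact p.Prime] : 0 < p ^ 2 - 1 := by
  have := (Fact.out : p.Prime).two_le
  have : 4 ≤ p ^ 2 := by nlinarith
  omega

theorem h42f_N_coprime (p : ℕ) [Fact p.Prime] : ¬ p ∣ p ^ 2 - 1 := by
  have hp : p.Prime := Fact.out
  intro h
  have h1 : p ∣ p ^ 2 := dvd_pow_self p (by norm_num)
  have h2 : p ∣ p ^ 2 - (p ^ 2 - 1) := Nat.dvd_sub h1 h
  have h3 : p ^ 2 - (p ^ 2 - 1) = 1 := by
    have := h42f_N_pos p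
    omega
  rw [h3] at h2
  exact hp.one_lt.ne' (Nat.dvd_one.mp h2)

/-- a primitive `(p² - 1)`-th root of unity. -/
theorem h42f_exists_prim (p : ℕ) [Fact p.Prime] :
    ∃ ζ : Om p, IsPrimitiveRoot ζ (p ^ 2 - 1) := by
  have hN := h42f_N_pos p
  haveI : NeZero (((p ^ 2 - 1 : ℕ) : ℕ) : Om p) := ⟨by
    have : (p ^ 2 - 1 : ℕ) ≠ 0 := hN.ne'
    exact_mod_cast this⟩
  have hdeg : (Polynomial.cyclotomic (p ^ 2 - 1) (Om p)).degree ≠ 0 := by
    rw [Polynomial.degree_cyclotomic]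
    have h3 : Nat.totient (p ^ 2 - 1) ≠ 0 := (Nat.totient_pos.mpr hN).ne'
    exact_mod_cast h3
  obtain ⟨ζ, hζ⟩ := IsAlgClosed.exists_root (Polynomial.cyclotomic (p ^ 2 - 1) (Om p)) hdeg
  exact ⟨ζ, Polynomial.isRoot_cyclotomic_iff.mp hζ⟩

theorem h42f_pi_ne_zero {n : ℕ} {π : Om p} (hπ : π ^ n = p) : π ≠ 0 := by
  have hp : p.Prime := Fact.out
  rintro rfl
  have h0 : ((p : ℕ) : Om p) ≠ 0 := by exact_mod_cast hp.ne_zero
  by_cases hn : n = 0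
  · subst hn
    rw [pow_zero] at hπ
    have : ((1 : ℕ) : Om p) = ((p : ℕ) : Om p) := by exact_mod_cast hπ
    exact hp.one_lt.ne (Nat.cast_injective this)
  · rw [zero_pow hn] at hπ
    exact h0 hπ.symm

/-- inertia is normal. -/
theorem h42f_inertia_conj (τ : Gq p) {σ : Gq p} (hσ : σ ∈ inertia p) :
    τ * σ * τ⁻¹ ∈ inertia p := by
  intro x hx
  have h1 : ‖τ⁻¹ x‖ ≤ 1 := by rw [h89d0_norm_map]; exact hx
  have h2 := hσ (τ⁻¹ x) h1
  have h3 : (τ * σ * τ⁻¹) x - x = τ (σ (τ⁻¹ x) - τ⁻¹ x) := by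
    rw [map_sub]
    have : τ (τ⁻¹ x) = x := by
      rw [← AlgEquiv.mul_apply, mul_inv_cancel, AlgEquiv.one_apply]
    rw [this]
    rfl
  rw [h3, h89d0_norm_map]
  exact h2

/-- the value of the fundamental character on a conjugate by a Frobenius. -/
theorem h42f_frob_conj {π : Om p} (hπ : π ^ (p ^ 2 - 1) = p) (φ : Gq p)
    (hφ : ∀ (w : Om p) (m : ℕ), 0 < m → ¬ p ∣ m → w ^ m = 1 → φ w = w ^ p)
    {t : Gq p} (ht : t ∈ inertia p) {ζ : Om p} (hζ : ζ ^ (p ^ 2 - 1) = 1) (htπ : t π = ζ * π) :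
    (φ * t * φ⁻¹) π = ζ ^ p * π := by
  have hN := h42f_N_pos p
  have hNp := h42f_N_coprime p
  have hπ0 : π ≠ 0 := h42f_pi_ne_zero hπ
  -- `π' = φ⁻¹ π = ω π`
  have hπ' : (φ⁻¹ π) ^ (p ^ 2 - 1) = p := by
    rw [← map_pow, hπ]
    exact map_natCast φ⁻¹ p
  have hω : (φ⁻¹ π / π) ^ (p ^ 2 - 1) = 1 := by
    rw [div_pow, hπ', hπ]
    exact div_self (by
      have hp : p.Prime := Fact.out
      exact_mod_cast hp.ne_zero)
  have htω : t (φ⁻¹ π / π) = φ⁻¹ π / π :=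
    h89d0_fix_of_mem_inertia ht _ _ hN hNp hω
  have h1 : t (φ⁻¹ π) = ζ * φ⁻¹ π := by
    have h2 : φ⁻¹ π = (φ⁻¹ π / π) * π := by field_simp
    calc t (φ⁻¹ π) = t ((φ⁻¹ π / π) * π) := by rw [← h2]
      _ = (φ⁻¹ π / π) * (ζ * π) := by rw [map_mul, htω, htπ]
      _ = ζ * ((φ⁻¹ π / π) * π) := by ring
      _ = ζ * φ⁻¹ π := by rw [← h2]
  have h3 : φ (φ⁻¹ π) = π := by
    rw [← AlgEquiv.mul_apply, mul_inv_cancel, AlgEquiv.one_apply]
  calc (φ * t * φ⁻¹) π = φ (t (φ⁻¹ π)) := rfl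
    _ = φ (ζ * φ⁻¹ π) := by rw [h1]
    _ = ζ ^ p * π := by rw [map_mul, hφ ζ _ hN hNp hζ, h3]

/-- a generator of the tame quotient of level `p² - 1`. -/
theorem h42f_exists_gen {π : Om p} (hπ : π ^ (p ^ 2 - 1) = p) :
    ∃ (ζ₀ : Om p) (t₀ : Gq p), IsPrimitiveRoot ζ₀ (p ^ 2 - 1) ∧ t₀ ∈ inertia p ∧
      t₀ π = ζ₀ * π := by
  obtain ⟨ζ₀, hζ₀⟩ := h42f_exists_prim p
  obtain ⟨t₀, ht₀, h⟩ := h89d2_fundSurjective_of h45f_inertiaDiscrete p (p ^ 2 - 1)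
    (h42f_N_pos p) (h42f_N_coprime p) π hπ ζ₀ hζ₀.pow_eq_one
  exact ⟨ζ₀, t₀, hζ₀, ht₀, h⟩

/-- `ζ₀ ^ p ≠ ζ₀` for a primitive `(p² - 1)`-th root of unity. -/
theorem h42f_prim_pow_ne {ζ₀ : Om p} (hζ₀ : IsPrimitiveRoot ζ₀ (p ^ 2 - 1)) : ζ₀ ^ p ≠ ζ₀ := by
  have hp : p.Prime := Fact.out
  intro h
  have h0 : ζ₀ ≠ 0 := hζ₀.ne_zero (h42f_N_pos p).ne'
  have h1 : ζ₀ ^ (p - 1) = 1 := by
    have h2 : ζ₀ ^ (p - 1) * ζ₀ = 1 * ζ₀ := by
      rw [← pow_succ, Nat.sub_add_cancel hp.one_lt.le, h, one_mul]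
    exact mul_right_cancel₀ h0 h2
  have h3 : p - 1 < p ^ 2 - 1 := by
    have := hp.two_le
    have : p < p ^ 2 := by nlinarith
    omega
  have h4 : 0 < p - 1 := by
    have := hp.two_le
    omega
  exact hζ₀.pow_ne_one_of_pos_of_lt h4.ne' h3 h1

end Tame

section Lin

variable {p : ℕ} [Fact p.Prime] {k : Type} [Field k] {V : Type} [AddCommGroup V] [Module k V]
  [Module.Finite k V]

/-- every vector is a combination of `v₁`, `v₂`. -/
theorem h42f_basis (hrank : Module.finrank k V = 2) {v₁ v₂ : V}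
    (hli : LinearIndependent k ![v₁, v₂]) (v : V) : ∃ x y : k, v = x • v₁ + y • v₂ := by
  have hspan : Submodule.span k (Set.range ![v₁, v₂]) = ⊤ :=
    hli.span_eq_top_of_card_eq_finrank' (by rw [hrank]; simp)
  have hv : v ∈ Submodule.span k (Set.range ![v₁, v₂]) := by rw [hspan]; trivial
  have hr : Set.range ![v₁, v₂] = {v₁, v₂} := by
    ext w
    simp only [Set.mem_range, Set.mem_insert_iff, Set.mem_singleton_iff]
    constructor
    · rintro ⟨i, rfl⟩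
      fin_cases i
      · left; rfl
      · right; rfl
    · rintro (rfl | rfl)
      · exact ⟨0, rfl⟩
      · exact ⟨1, rfl⟩
  rw [hr, Submodule.mem_span_pair] at hv
  obtain ⟨x, y, h⟩ := hv
  exact ⟨x, y, h.symm⟩

/-- coordinates are unique. -/
theorem h42f_coord {v₁ v₂ : V} (hli : LinearIndependent k ![v₁, v₂]) {x y x' y' : k}
    (h : x • v₁ + y • v₂ = x' • v₁ + y' • v₂) : x = x' ∧ y = y' := by
  have h1 : (x - x') • v₁ + (y - y') • v₂ = 0 := by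
    rw [sub_smul, sub_smul]
    have := sub_eq_zero.mpr h
    rw [← this]
    abel
  have h2 := LinearIndependent.pair_iff.mp hli (x - x') (y - y') h1
  exact ⟨sub_eq_zero.mp h2.1, sub_eq_zero.mp h2.2⟩

theorem h42f_v1_ne {v₁ v₂ : V} (hli : LinearIndependent k ![v₁, v₂]) : v₁ ≠ 0 :=
  hli.ne_zero 0

theorem h42f_v2_ne {v₁ v₂ : V} (hli : LinearIndependent k ![v₁, v₂]) : v₂ ≠ 0 :=
  hli.ne_zero 1

end Lin

section Main

variable {p : ℕ} [Fact p.Prime] {k : Type} [Field k] {V : Type} [AddCommGroup V] [Module k V]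
  [Module.Finite k V]

theorem h42f_rho_mul_inv (ρ : Gq p →* Module.End k V) (σ : Gq p) (v : V) :
    ρ σ (ρ σ⁻¹ v) = v := by
  have : ρ σ * ρ σ⁻¹ = 1 := by rw [← map_mul, mul_inv_cancel, map_one]
  rw [← Module.End.mul_apply, this, Module.End.one_apply]

theorem h42f_rho_inv_mul (ρ : Gq p →* Module.End k V) (σ : Gq p) (v : V) :
    ρ σ⁻¹ (ρ σ v) = v := by
  have : ρ σ⁻¹ * ρ σ = 1 := by rw [← map_mul, inv_mul_cancel, map_one]
  rw [← Module.End.mul_apply, this, Module.End.one_apply]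

/-- the eigenvalues of the generator `t₀` on `v₁`, `v₂`. -/
theorem h42f_eig_ne {ρ : Gq p →* Module.End k V} {τ : kˣ →* (Om p)ˣ} {π : Om p}
    (hπ : π ^ (p ^ 2 - 1) = p) {v₁ v₂ : V} (hNF : SSNF p ρ τ π v₁ v₂)
    {ζ₀ : Om p} {t₀ : Gq p} (hζ₀ : IsPrimitiveRoot ζ₀ (p ^ 2 - 1)) (ht₀ : t₀ ∈ inertia p)
    (htπ : t₀ π = ζ₀ * π) :
    ∃ a₁ a₂ : kˣ, ρ t₀ v₁ = (a₁ : k) • v₁ ∧ ρ t₀ v₂ = (a₂ : k) • v₂ ∧ (a₁ : k) ≠ a₂ ∧
      ((τ a₁ : (Om p)ˣ) : Om p) = ζ₀ ∧ ((τ a₂ : (Om p)ˣ) : Om p) = ζ₀ ^ p := by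
  have hπ0 : π ≠ 0 := h42f_pi_ne_zero hπ
  obtain ⟨a₁, h1, h1'⟩ := hNF.inert₁ t₀ ht₀
  obtain ⟨a₂, h2, h2'⟩ := hNF.inert₂ t₀ ht₀
  have hq : t₀ π / π = ζ₀ := by rw [htπ]; field_simp
  rw [hq] at h1' h2'
  refine ⟨a₁, a₂, h1, h2, ?_, h1', h2'⟩
  intro h
  have : a₁ = a₂ := Units.ext h
  rw [this, h2'] at h1'
  exact h42f_prim_pow_ne hζ₀ h1'

/-- **FL-S3N.** -/
theorem h42f_ssNoLine : SSNoLine := by
  intro p _ k _ _ _ V _ _ _ ρ hρ τ _ π hπ v₁ v₂ hNF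
  rintro ⟨v, hv0, hv⟩
  have hπ0 : π ≠ 0 := h42f_pi_ne_zero hπ
  obtain ⟨ζ₀, t₀, hζ₀, ht₀, htπ⟩ := h42f_exists_gen hπ
  obtain ⟨a₁, a₂, h1, h2, hne, hτ1, hτ2⟩ := h42f_eig_ne hπ hNF hζ₀ ht₀ htπ
  obtain ⟨φ, hφ⟩ := h96f_frobExists p
  have hconj := h42f_frob_conj hπ φ hφ ht₀ hζ₀.pow_eq_one htπ
  have ht' : φ * t₀ * φ⁻¹ ∈ inertia p := h42f_inertia_conj φ ht₀
  have hq' : (φ * t₀ * φ⁻¹) π / π = ζ₀ ^ p := by rw [hconj]; field_simp
  obtain ⟨x, y, hxy⟩ := h42f_basis hρ.rank hNF.indep v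
  -- `x = 0` or `y = 0`
  have hxy0 : x = 0 ∨ y = 0 := by
    obtain ⟨c, hc⟩ := hv t₀
    rw [hxy, map_add, map_smul, map_smul, h1, h2, smul_add, smul_smul, smul_smul, smul_smul,
      smul_smul] at hc
    obtain ⟨e1, e2⟩ := h42f_coord hNF.indep hc
    by_contra hcon
    push Not at hcon
    apply hne
    have f1 : (a₁ : k) = c := by
      have : x * (a₁ : k) = x * c := by rw [e1]; ring
      exact mul_left_cancel₀ hcon.1 this
    have f2 : (a₂ : k) = c := by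
      have : y * (a₂ : k) = y * c := by rw [e2]; ring
      exact mul_left_cancel₀ hcon.2 this
    rw [f1, f2]
  -- a stable basis vector
  have key : ∀ (w : V) (a : kˣ), w ≠ 0 → (∀ σ : Gq p, ∃ c : k, ρ σ w = c • w) →
      ρ t₀ w = (a : k) • w → ρ (φ * t₀ * φ⁻¹) w = (a : k) • w := by
    intro w a hw0 hw hta
    obtain ⟨b, hb⟩ := hw φ⁻¹
    have hbw : b • ρ φ w = w := by
      have := h42f_rho_mul_inv ρ φ w
      rw [hb, map_smul] at this
      exact this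
    rw [map_mul, map_mul, Module.End.mul_apply, Module.End.mul_apply, hb, map_smul, hta,
      map_smul, map_smul, smul_comm, hbw]
  rcases hxy0 with hx | hy
  · -- `v = y v₂`
    rw [hx, zero_smul, zero_add] at hxy
    have hy0 : y ≠ 0 := by
      rintro rfl
      rw [zero_smul] at hxy
      exact hv0 hxy
    have hst : ∀ σ : Gq p, ∃ c : k, ρ σ v₂ = c • v₂ := by
      intro σ
      obtain ⟨c, hc⟩ := hv σ
      refine ⟨c, ?_⟩
      rw [hxy, map_smul, smul_comm] at hc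
      exact smul_right_injective V hy0 hc
    have h3 := key v₂ a₂ (h42f_v2_ne hNF.indep) hst h2
    obtain ⟨a', h4, h4'⟩ := hNF.inert₂ _ ht'
    rw [hq'] at h4'
    have h5 : (a' : k) = a₂ := by
      have : (a' : k) • v₂ = (a₂ : k) • v₂ := by rw [← h4, h3]
      exact smul_left_injective k (h42f_v2_ne hNF.indep) this
    have h6 : a' = a₂ := Units.ext h5
    rw [h6, hτ2] at h4'
    -- `ζ₀ ^ p = (ζ₀ ^ p) ^ p`
    apply h42f_prim_pow_ne hζ₀
    have h7 : (ζ₀ ^ p) ^ p = ζ₀ := by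
      rw [← pow_mul]
      have h8 : p * p = (p ^ 2 - 1) + 1 := by
        have := h42f_N_pos p
        have : p * p = p ^ 2 := by ring
        omega
      rw [h8, pow_succ, hζ₀.pow_eq_one, one_mul]
    rw [h4', h7]
  · -- `v = x v₁`
    rw [hy, zero_smul, add_zero] at hxy
    have hx0 : x ≠ 0 := by
      rintro rfl
      rw [zero_smul] at hxy
      exact hv0 hxy
    have hst : ∀ σ : Gq p, ∃ c : k, ρ σ v₁ = c • v₁ := by
      intro σ
      obtain ⟨c, hc⟩ := hv σ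
      refine ⟨c, ?_⟩
      rw [hxy, map_smul, smul_comm] at hc
      exact smul_right_injective V hx0 hc
    have h3 := key v₁ a₁ (h42f_v1_ne hNF.indep) hst h1
    obtain ⟨a', h4, h4'⟩ := hNF.inert₁ _ ht'
    rw [hq'] at h4'
    have h5 : (a' : k) = a₁ := by
      have : (a' : k) • v₁ = (a₁ : k) • v₁ := by rw [← h4, h3]
      exact smul_left_injective k (h42f_v1_ne hNF.indep) this
    have h6 : a' = a₁ := Units.ext h5
    rw [h6, hτ1] at h4'
    exact h42f_prim_pow_ne hζ₀ h4'.symm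

end Main

end Fermat.Agent.S56F
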