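import Fermat.Agent.S56F.FLS3Iface_helper15

/-!
# S56 / LOC-p-FL, leaf FL-S3a (helper83, prefix `h83r_`): `h83r_resolvent : H15sResolvent`

Lagrange resolvents `B_j = ∑_{i<p} ζ ^ (-i j) g₀ ^ i z`: `g₀ B_j = ζ ^ j B_j`, `n B_j = B_j` for
`n ∈ Γ` with `χ n = 0`, `∑_{j<p} B_j = p z`; so `B_j ≠ 0` for some `0 < j < p`, and
`B = B_j ^ m` with `m j = χ g₀` in `ZMod p` is a Kummer generator.
-/

set_option autoImplicit false

open Fermat.Agent.PT.Loc Polynomial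

noncomputable section

namespace Fermat.Agent.S56F

section

variable {p : ℕ} [Fact p.Prime] {Γ : Subgroup (Gq p)} {ζ : Om p} {χ : Gq p → ZMod p}

theorem h83r_chi_one (h : h15s_KD p Γ ζ χ) : χ 1 = 0 := by
  have := h.add 1 Γ.one_mem 1 Γ.one_mem
  rw [mul_one] at this
  exact left_eq_add.mp this

theorem h83r_chi_inv (h : h15s_KD p Γ ζ χ) {g : Gq p} (hg : g ∈ Γ) : χ g⁻¹ = - χ g := by
  have := h.add g hg g⁻¹ (Γ.inv_mem hg)
  rw [mul_inv_cancel, h83r_chi_one h] at this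
  exact eq_neg_of_add_eq_zero_right this.symm

theorem h83r_chi_pow (h : h15s_KD p Γ ζ χ) {g : Gq p} (hg : g ∈ Γ) (i : ℕ) :
    χ (g ^ i) = i * χ g := by
  induction i with
  | zero => rw [pow_zero, h83r_chi_one h, Nat.cast_zero, zero_mul]
  | succ i ih =>
    rw [pow_succ, h.add _ (Γ.pow_mem hg i) _ hg, ih]
    push_cast
    ring

/-- powers of `ζ` depend on the exponent modulo `p`. -/
theorem h83r_pow_eq (hζ : ζ ^ p = 1) {a b : ℕ} (hab : (a : ZMod p) = (b : ZMod p)) :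
    ζ ^ a = ζ ^ b := by
  have h1 : a % p = b % p := (ZMod.natCast_eq_natCast_iff' a b p).1 hab
  rw [← Nat.div_add_mod a p, ← Nat.div_add_mod b p, pow_add, pow_add, pow_mul, pow_mul, hζ,
    one_pow, one_pow, h1]

theorem h83r_pow_val (hζ : ζ ^ p = 1) (a : ℕ) : ζ ^ ((a : ZMod p)).val = ζ ^ a :=
  h83r_pow_eq hζ (by rw [ZMod.natCast_val, ZMod.cast_id', id])

end

/-- **FL-S3a.**  Lagrange resolvent. -/
theorem h83r_resolvent : H15sResolvent := by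
  intro p _ Γ ζ χ hKD g₀ hg₀ z hz hmove
  have hp : p.Prime := Fact.out
  have hζp : ζ ^ p = 1 := hKD.pow
  have hζ0 : ζ ≠ 0 := by
    rintro rfl
    rw [zero_pow hp.ne_zero] at hζp
    exact zero_ne_one hζp
  -- `a = χ g₀ ≠ 0`
  have ha : χ g₀ ≠ 0 := fun h => hmove (hz g₀ hg₀ h)
  -- `ξ = ζ⁻¹`
  set ξ : Om p := ζ⁻¹ with hξ
  have hξp : ξ ^ p = 1 := by rw [hξ, inv_pow, hζp, inv_one]
  have hξζ : ξ * ζ = 1 := inv_mul_cancel₀ hζ0
  have hξfix : ∀ g ∈ Γ, g ξ = ξ := fun g hg => by rw [hξ, map_inv₀, hKD.fix g hg]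
  have hξ1 : ξ ≠ 1 := by
    intro h
    apply hKD.ne
    have : ζ = ξ⁻¹ := by rw [hξ, inv_inv]
    rw [this, h, inv_one]
  -- `g₀ ^ p` fixes `z`
  have hgp : (g₀ ^ p) z = z := by
    apply hz _ (Γ.pow_mem hg₀ p)
    rw [h83r_chi_pow hKD hg₀, ZMod.natCast_self, zero_mul]
  -- the resolvents
  let B : ℕ → Om p := fun j => ∑ i ∈ Finset.range p, ξ ^ (i * j) * (g₀ ^ i) z
  have hBdef : ∀ j, B j = ∑ i ∈ Finset.range p, ξ ^ (i * j) * (g₀ ^ i) z := fun j => rfl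
  -- (a) `g₀ B_j = ζ ^ j B_j`
  have hBg : ∀ j, g₀ (B j) = ζ ^ j * B j := by
    intro j
    let F : ℕ → Om p := fun i => ζ ^ j * (ξ ^ (i * j) * (g₀ ^ i) z)
    have h1 : g₀ (B j) = ∑ i ∈ Finset.range p, F (i + 1) := by
      rw [hBdef, map_sum]
      refine Finset.sum_congr rfl fun i _ => ?_
      show g₀ (ξ ^ (i * j) * (g₀ ^ i) z) = ζ ^ j * (ξ ^ ((i + 1) * j) * (g₀ ^ (i + 1)) z)
      rw [map_mul, map_pow, hξfix g₀ hg₀, pow_succ' g₀ i, AlgEquiv.mul_apply, ← mul_assoc,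
        add_mul, one_mul, pow_add, mul_comm (ξ ^ (i * j)) (ξ ^ j), ← mul_assoc (ζ ^ j),
        ← mul_pow, mul_comm ζ ξ, hξζ, one_pow, one_mul]
    have h2 : ζ ^ j * B j = ∑ i ∈ Finset.range p, F i := by
      rw [hBdef, Finset.mul_sum]
    have h3 : F p = F 0 := by
      show ζ ^ j * (ξ ^ (p * j) * (g₀ ^ p) z) = ζ ^ j * (ξ ^ (0 * j) * (g₀ ^ 0) z)
      rw [hgp, pow_mul, hξp, one_pow, zero_mul, pow_zero, pow_zero]
      rfl
    have h4 : ∑ i ∈ Finset.range p, F (i + 1) + F 0 = ∑ i ∈ Finset.range p, F i + F p := by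
      rw [← Finset.sum_range_succ' F p, Finset.sum_range_succ F p]
    rw [h1, h2]
    rw [h3] at h4
    exact add_right_cancel h4
  -- (b) invariance under the kernel
  have hBn : ∀ j, ∀ n ∈ Γ, χ n = 0 → n (B j) = B j := by
    intro j n hn hχn
    rw [hBdef, map_sum]
    refine Finset.sum_congr rfl fun i _ => ?_
    rw [map_mul, map_pow, hξfix n hn]
    congr 1
    have hmem : (g₀ ^ i)⁻¹ * n * g₀ ^ i ∈ Γ :=
      Γ.mul_mem (Γ.mul_mem (Γ.inv_mem (Γ.pow_mem hg₀ i)) hn) (Γ.pow_mem hg₀ i)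
    have hχ0 : χ ((g₀ ^ i)⁻¹ * n * g₀ ^ i) = 0 := by
      rw [hKD.add _ (Γ.mul_mem (Γ.inv_mem (Γ.pow_mem hg₀ i)) hn) _ (Γ.pow_mem hg₀ i),
        hKD.add _ (Γ.inv_mem (Γ.pow_mem hg₀ i)) _ hn, h83r_chi_inv hKD (Γ.pow_mem hg₀ i), hχn]
      ring
    have h1 := hz _ hmem hχ0
    have h2 : n ((g₀ ^ i) z) = (g₀ ^ i) (((g₀ ^ i)⁻¹ * n * g₀ ^ i) z) := by
      rw [← AlgEquiv.mul_apply, ← AlgEquiv.mul_apply, ← mul_assoc, ← mul_assoc,
        mul_inv_cancel, one_mul]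
    rw [h2, h1]
  -- (c) the sum of the resolvents
  have hgeom : ∀ i, 0 < i → i < p → ∑ j ∈ Finset.range p, ξ ^ (i * j) = 0 := by
    intro i hi0 hip
    have hne : ξ ^ i ≠ 1 := by
      intro h
      apply hξ1
      have hcop : Nat.Coprime i p :=
        ((Nat.Prime.coprime_iff_not_dvd hp).2 (Nat.not_dvd_of_pos_of_lt hi0 hip)).symm
      obtain ⟨m, -, hm⟩ := Nat.exists_mul_mod_eq_one_of_coprime hcop hp.one_lt
      have h1 : ((i * m : ℕ) : ZMod p) = ((1 : ℕ) : ZMod p) := by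
        rw [ZMod.natCast_eq_natCast_iff', hm, Nat.mod_eq_of_lt hp.one_lt]
      have h2 := h83r_pow_eq hξp h1
      rw [pow_one, pow_mul, h, one_pow] at h2
      exact h2.symm
    have h1 : (∑ j ∈ Finset.range p, (ξ ^ i) ^ j) * (ξ ^ i - 1) = (ξ ^ i) ^ p - 1 :=
      geom_sum_mul (ξ ^ i) p
    have h2 : (ξ ^ i) ^ p = 1 := by rw [← pow_mul, mul_comm, pow_mul, hξp, one_pow]
    rw [h2, sub_self] at h1
    have h3 := (mul_eq_zero.mp h1).resolve_right (sub_ne_zero.mpr hne)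
    rw [← h3]
    refine Finset.sum_congr rfl fun j _ => ?_
    rw [pow_mul]
  have hp0 : ((p : ℕ) : Om p) ≠ 0 := by
    exact_mod_cast hp.ne_zero
  have hsum : ∑ j ∈ Finset.range p, B j = (p : Om p) * z := by
    have h1 : ∑ j ∈ Finset.range p, B j =
        ∑ i ∈ Finset.range p, (∑ j ∈ Finset.range p, ξ ^ (i * j)) * (g₀ ^ i) z := by
      simp only [hBdef]
      rw [Finset.sum_comm]
      refine Finset.sum_congr rfl fun i _ => ?_
      rw [Finset.sum_mul]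
    rw [h1, Finset.sum_eq_single 0]
    · simp only [zero_mul, pow_zero, Finset.sum_const, Finset.card_range, nsmul_eq_mul, mul_one]
      rfl
    · intro i hi hi0
      rw [hgeom i (Nat.pos_of_ne_zero hi0) (Finset.mem_range.1 hi), zero_mul]
    · intro h
      exact absurd (Finset.mem_range.2 hp.pos) h
  -- (d) a nonzero resolvent
  have hex : ∃ j, 0 < j ∧ j < p ∧ B j ≠ 0 := by
    by_contra hcon
    have hall : ∀ j ∈ Finset.range p, j ≠ 0 → B j = 0 := by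
      intro j hj hj0
      by_contra hne
      exact hcon ⟨j, Nat.pos_of_ne_zero hj0, Finset.mem_range.1 hj, hne⟩
    have h1 : ∑ j ∈ Finset.range p, B j = B 0 :=
      Finset.sum_eq_single 0 hall (fun h => absurd (Finset.mem_range.2 hp.pos) h)
    have h2 : g₀ ((p : Om p) * z) = (p : Om p) * z := by
      rw [← hsum, h1, hBg 0, pow_zero, one_mul]
    rw [map_mul, map_natCast] at h2
    exact hmove (mul_left_cancel₀ hp0 h2)
  obtain ⟨j, hj0, hjp, hBj⟩ := hex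
  have hjZ : (j : ZMod p) ≠ 0 := by
    intro h
    rw [ZMod.natCast_eq_zero_iff] at h
    exact Nat.not_dvd_of_pos_of_lt hj0 hjp h
  -- (e) the Kummer generator
  set m : ℕ := (χ g₀ * (j : ZMod p)⁻¹).val with hm
  have hmj : ((j * m : ℕ) : ZMod p) = χ g₀ := by
    rw [Nat.cast_mul, hm, ZMod.natCast_val, ZMod.cast_id', id, mul_comm, mul_assoc,
      inv_mul_cancel₀ hjZ, mul_one]
  have hBf_g₀ : g₀ (B j ^ m) = ζ ^ (χ g₀).val * B j ^ m := by
    rw [map_pow, hBg j, mul_pow, ← pow_mul]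
    congr 1
    apply h83r_pow_eq hζp
    rw [hmj, ZMod.natCast_val, ZMod.cast_id', id]
  have hBf_n : ∀ n ∈ Γ, χ n = 0 → n (B j ^ m) = B j ^ m := fun n hn h0 => by
    rw [map_pow, hBn j n hn h0]
  have hBf_pow : ∀ i : ℕ, (g₀ ^ i) (B j ^ m) = ζ ^ ((χ g₀).val * i) * B j ^ m := by
    intro i
    induction i with
    | zero => rw [pow_zero, mul_zero, pow_zero, one_mul]; rfl
    | succ i ih =>
      rw [pow_succ' g₀ i, AlgEquiv.mul_apply, ih, map_mul, map_pow, hKD.fix g₀ hg₀, hBf_g₀,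
        mul_add, mul_one, pow_add]
      ring
  refine ⟨B j ^ m, pow_ne_zero _ hBj, fun g hg => ?_⟩
  set i : ℕ := (χ g * (χ g₀)⁻¹).val with hi
  have hiZ : ((i : ℕ) : ZMod p) * χ g₀ = χ g := by
    rw [hi, ZMod.natCast_val, ZMod.cast_id', id, mul_assoc, inv_mul_cancel₀ ha, mul_one]
  have hnmem : g * (g₀ ^ i)⁻¹ ∈ Γ := Γ.mul_mem hg (Γ.inv_mem (Γ.pow_mem hg₀ i))
  have hnχ : χ (g * (g₀ ^ i)⁻¹) = 0 := by
    rw [hKD.add _ hg _ (Γ.inv_mem (Γ.pow_mem hg₀ i)), h83r_chi_inv hKD (Γ.pow_mem hg₀ i),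
      h83r_chi_pow hKD hg₀, hiZ, add_neg_cancel]
  have hg_eq : g = (g * (g₀ ^ i)⁻¹) * g₀ ^ i := by
    rw [mul_assoc, inv_mul_cancel, mul_one]
  have h1 : g (B j ^ m) = (g * (g₀ ^ i)⁻¹) ((g₀ ^ i) (B j ^ m)) := by
    conv_lhs => rw [hg_eq]
    rfl
  rw [h1, hBf_pow i, map_mul, map_pow, hKD.fix _ hnmem, hBf_n _ hnmem hnχ]
  congr 1
  apply h83r_pow_eq hζp
  rw [Nat.cast_mul, ZMod.natCast_val, ZMod.cast_id', id, mul_comm, hiZ, ZMod.natCast_val,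
    ZMod.cast_id', id]

end Fermat.Agent.S56F
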