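import Fermat.Agent.S56F.FLS3Iface_helper15

/-!
# S56 / LOC-p-FL, leaf FL-S3b (helper9): eigen-decomposition

`h9d_decomp : H15sDecomp`: every `z` fixed by `ker χ ∩ Γ` is `∑_{j<p} c j * B ^ j` with
`Γ`-fixed coefficients `c j`, where `B` is a Kummer generator of `χ`.

Proof.  `Z t = g z` for any `g ∈ Γ` with `χ g = t` (well defined, realised by a power of `g₀`);
`ψ = ` the additive character `x ↦ ζ ^ x.val` of `ZMod p`;
`R j = ∑_t ψ (t * (-j)) * Z t` has `g (R j) = ψ (j * χ g) * R j` for `g ∈ Γ` and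
`∑_{j<p} R j = p * z` (orthogonality); `c j = R j / (p * B ^ j)`.
-/

set_option autoImplicit false
set_option linter.style.haveILetI false
set_option linter.unusedSectionVars false

open Fermat.Agent.PT.Loc

noncomputable section

namespace Fermat.Agent.S56F

section Decomp

variable {p : ℕ} [Fact p.Prime] {Γ : Subgroup (Gq p)} {ζ : Om p} {χ : Gq p → ZMod p}

theorem h9d_chi_one (hK : h15s_KD p Γ ζ χ) : χ 1 = 0 := by
  have h := hK.add 1 Γ.one_mem 1 Γ.one_mem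
  rw [mul_one] at h
  exact left_eq_add.mp h

theorem h9d_chi_inv (hK : h15s_KD p Γ ζ χ) {g : Gq p} (hg : g ∈ Γ) : χ g⁻¹ = - χ g := by
  have h := hK.add g⁻¹ (Γ.inv_mem hg) g hg
  rw [inv_mul_cancel, h9d_chi_one hK] at h
  exact eq_neg_of_add_eq_zero_left h.symm

theorem h9d_chi_pow (hK : h15s_KD p Γ ζ χ) {g : Gq p} (hg : g ∈ Γ) (n : ℕ) :
    χ (g ^ n) = (n : ZMod p) * χ g := by
  induction n with
  | zero => simp [h9d_chi_one hK]
  | succ n ih =>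
    rw [pow_succ, hK.add _ (Γ.pow_mem hg n) _ hg, ih]
    push_cast
    ring

/-- Two elements of `Γ` with the same `χ` move `z` in the same way. -/
theorem h9d_same (hK : h15s_KD p Γ ζ χ) {z : Om p} (hz : ∀ σ ∈ Γ, χ σ = 0 → σ z = z)
    {g h : Gq p} (hg : g ∈ Γ) (hh : h ∈ Γ) (e : χ g = χ h) : g z = h z := by
  have h1 : χ (h⁻¹ * g) = 0 := by
    rw [hK.add _ (Γ.inv_mem hh) _ hg, h9d_chi_inv hK hh, e]
    exact neg_add_cancel _
  have h2 := hz _ (Γ.mul_mem (Γ.inv_mem hh) hg) h1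
  have h3 : h ((h⁻¹ * g) z) = g z := by
    change (h * (h⁻¹ * g)) z = g z
    rw [mul_inv_cancel_left]
  rw [← h3, h2]

/-- The translate of `z` by "the" element of `Γ` with `χ = t`. -/
def h9d_Z (χ : Gq p → ZMod p) (g₀ : Gq p) (z : Om p) (t : ZMod p) : Om p :=
  (g₀ ^ (t / χ g₀).val) z

theorem h9d_chi_rep (hK : h15s_KD p Γ ζ χ) {g₀ : Gq p} (hg₀ : g₀ ∈ Γ) (ha : χ g₀ ≠ 0)
    (t : ZMod p) : χ (g₀ ^ (t / χ g₀).val) = t := by
  rw [h9d_chi_pow hK hg₀, ZMod.natCast_zmod_val, div_mul_cancel₀ _ ha]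

theorem h9d_apply (hK : h15s_KD p Γ ζ χ) {g₀ : Gq p} (hg₀ : g₀ ∈ Γ) (ha : χ g₀ ≠ 0)
    {z : Om p} (hz : ∀ σ ∈ Γ, χ σ = 0 → σ z = z) {g : Gq p} (hg : g ∈ Γ) :
    g z = h9d_Z χ g₀ z (χ g) :=
  h9d_same hK hz hg (Γ.pow_mem hg₀ _) (h9d_chi_rep hK hg₀ ha _).symm

theorem h9d_shift (hK : h15s_KD p Γ ζ χ) {g₀ : Gq p} (hg₀ : g₀ ∈ Γ) (ha : χ g₀ ≠ 0)
    {z : Om p} (hz : ∀ σ ∈ Γ, χ σ = 0 → σ z = z) {g : Gq p} (hg : g ∈ Γ) (t : ZMod p) :
    g (h9d_Z χ g₀ z t) = h9d_Z χ g₀ z (χ g + t) := by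
  have h1 : g (h9d_Z χ g₀ z t) = (g * g₀ ^ (t / χ g₀).val) z := rfl
  rw [h1, h9d_apply hK hg₀ ha hz (Γ.mul_mem hg (Γ.pow_mem hg₀ _)),
    hK.add _ hg _ (Γ.pow_mem hg₀ _), h9d_chi_rep hK hg₀ ha]

theorem h9d_Z_zero (hK : h15s_KD p Γ ζ χ) {g₀ : Gq p} (hg₀ : g₀ ∈ Γ) (ha : χ g₀ ≠ 0)
    {z : Om p} (hz : ∀ σ ∈ Γ, χ σ = 0 → σ z = z) : h9d_Z χ g₀ z 0 = z := by
  have h := h9d_apply hK hg₀ ha hz Γ.one_mem
  rw [h9d_chi_one hK] at h
  exact h.symm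

/-- The additive character `x ↦ ζ ^ x.val`. -/
def h9d_psi (hK : h15s_KD p Γ ζ χ) : AddChar (ZMod p) (Om p) :=
  AddChar.zmodChar p hK.pow

theorem h9d_psi_apply (hK : h15s_KD p Γ ζ χ) (x : ZMod p) : h9d_psi hK x = ζ ^ x.val :=
  AddChar.zmodChar_apply hK.pow x

theorem h9d_psi_fix (hK : h15s_KD p Γ ζ χ) {g : Gq p} (hg : g ∈ Γ) (x : ZMod p) :
    g (h9d_psi hK x) = h9d_psi hK x := by
  rw [h9d_psi_apply, map_pow, hK.fix g hg]

theorem h9d_psi_ne_zero (hK : h15s_KD p Γ ζ χ) (x : ZMod p) : h9d_psi hK x ≠ 0 := by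
  intro h
  have h1 : h9d_psi hK (x + -x) = 1 := by rw [add_neg_cancel, AddChar.map_zero_eq_one]
  rw [AddChar.map_add_eq_mul, h, zero_mul] at h1
  exact zero_ne_one h1

theorem h9d_psi_one (hK : h15s_KD p Γ ζ χ) : h9d_psi hK 1 = ζ := by
  rw [h9d_psi_apply]
  have : (1 : ZMod p).val = 1 := by
    haveI : Fact (1 < p) := ⟨(Fact.out : p.Prime).one_lt⟩
    exact ZMod.val_one p
  rw [this, pow_one]

theorem h9d_psi_prim (hK : h15s_KD p Γ ζ χ) : (h9d_psi hK).IsPrimitive := by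
  apply AddChar.IsPrimitive.of_ne_one
  intro h
  have h1 := h9d_psi_one hK
  rw [h] at h1
  exact hK.ne h1.symm

/-- The resolvent. -/
def h9d_R (hK : h15s_KD p Γ ζ χ) (g₀ : Gq p) (z : Om p) (j : ZMod p) : Om p :=
  ∑ t : ZMod p, h9d_psi hK (t * (-j)) * h9d_Z χ g₀ z t

theorem h9d_R_map (hK : h15s_KD p Γ ζ χ) {g₀ : Gq p} (hg₀ : g₀ ∈ Γ) (ha : χ g₀ ≠ 0)
    {z : Om p} (hz : ∀ σ ∈ Γ, χ σ = 0 → σ z = z) {g : Gq p} (hg : g ∈ Γ) (j : ZMod p) :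
    g (h9d_R hK g₀ z j) = h9d_psi hK (j * χ g) * h9d_R hK g₀ z j := by
  unfold h9d_R
  rw [map_sum, Finset.mul_sum]
  rw [← Equiv.sum_comp (Equiv.addLeft (χ g))
    (fun t => h9d_psi hK (j * χ g) * (h9d_psi hK (t * (-j)) * h9d_Z χ g₀ z t))]
  refine Finset.sum_congr rfl fun t _ => ?_
  rw [map_mul, h9d_psi_fix hK hg, h9d_shift hK hg₀ ha hz hg, Equiv.coe_addLeft, ← mul_assoc,
    ← AddChar.map_add_eq_mul]
  congr 2
  ring

theorem h9d_sum_range (F : ZMod p → Om p) :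
    ∑ j ∈ Finset.range p, F (j : ZMod p) = ∑ x : ZMod p, F x := by
  refine Finset.sum_nbij' (fun j => (j : ZMod p)) (fun x => x.val) ?_ ?_ ?_ ?_ ?_
  · intro a _
    exact Finset.mem_univ _
  · intro a _
    exact Finset.mem_range.mpr (ZMod.val_lt a)
  · intro a ha
    exact ZMod.val_natCast_of_lt (Finset.mem_range.mp ha)
  · intro a _
    exact ZMod.natCast_zmod_val a
  · intro a _
    rfl

theorem h9d_sum_R (hK : h15s_KD p Γ ζ χ) {g₀ : Gq p} (hg₀ : g₀ ∈ Γ) (ha : χ g₀ ≠ 0)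
    {z : Om p} (hz : ∀ σ ∈ Γ, χ σ = 0 → σ z = z) :
    ∑ j ∈ Finset.range p, h9d_R hK g₀ z (j : ZMod p) = (p : Om p) * z := by
  classical
  rw [h9d_sum_range (fun x => h9d_R hK g₀ z x)]
  unfold h9d_R
  rw [Finset.sum_comm]
  have h1 : ∀ t : ZMod p, ∑ x : ZMod p, h9d_psi hK (t * (-x)) * h9d_Z χ g₀ z t
      = if t = 0 then (p : Om p) * h9d_Z χ g₀ z t else 0 := by
    intro t
    rw [← Finset.sum_mul]
    have h2 : ∑ x : ZMod p, h9d_psi hK (t * (-x)) = ∑ x : ZMod p, h9d_psi hK (x * (-t)) := by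
      refine Finset.sum_congr rfl fun x _ => ?_
      congr 1
      ring
    rw [h2, AddChar.sum_mulShift (-t) (h9d_psi_prim hK), ZMod.card]
    by_cases ht : t = 0
    · simp [ht]
    · have : ¬ (-t = 0) := fun h => ht (neg_eq_zero.mp h)
      simp [ht]
  rw [Finset.sum_congr rfl fun t _ => h1 t, Finset.sum_ite_eq' Finset.univ (0 : ZMod p)]
  simp [h9d_Z_zero hK hg₀ ha hz]

theorem h9d_p_ne_zero : (p : Om p) ≠ 0 := by
  have h : ((p : ℕ) : Om p) = algebraMap ℚ_[p] (Om p) (p : ℚ_[p]) := by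
    rw [map_natCast]
  rw [h]
  intro h0
  have h1 : ((p : ℕ) : ℚ_[p]) = 0 :=
    (algebraMap ℚ_[p] (Om p)).injective (by rw [h0, map_zero])
  exact (Nat.cast_ne_zero.mpr (Fact.out : p.Prime).ne_zero) h1

/-- **FL-S3b**. -/
theorem h9d_decomp : H15sDecomp := by
  intro p _ Γ ζ χ hK B hB hBg g₀ hg₀ ha z hz
  refine ⟨fun j => h9d_R hK g₀ z (j : ZMod p) / ((p : Om p) * B ^ j), ?_, ?_⟩
  · intro j g hg
    have hψ : h9d_psi hK (χ g) ^ j = h9d_psi hK ((j : ZMod p) * χ g) := by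
      rw [← AddChar.map_nsmul_eq_pow, nsmul_eq_mul]
    rw [map_div₀, map_mul, map_pow, map_natCast, h9d_R_map hK hg₀ ha hz hg, hBg g hg,
      ← h9d_psi_apply hK, mul_pow, hψ]
    have h0 := h9d_psi_ne_zero hK ((j : ZMod p) * χ g)
    have hp := h9d_p_ne_zero (p := p)
    have hBj : B ^ j ≠ 0 := pow_ne_zero _ hB
    field_simp
  · have hp := h9d_p_ne_zero (p := p)
    have h1 : ∀ j ∈ Finset.range p,
        h9d_R hK g₀ z (j : ZMod p) / ((p : Om p) * B ^ j) * B ^ j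
          = h9d_R hK g₀ z (j : ZMod p) / (p : Om p) := by
      intro j _
      have hBj : B ^ j ≠ 0 := pow_ne_zero _ hB
      field_simp
    rw [Finset.sum_congr rfl h1, ← Finset.sum_div, h9d_sum_R hK hg₀ ha hz,
      mul_div_cancel_left₀ _ hp]

end Decomp

end Fermat.Agent.S56F
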