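import Fermat.Agent.S56F.FLS3Iface_helper15

/-!
# S56 / LOC-p-FL, row FL-S3c (`H15sValIndep`), helper29

Valuation independence: over a discrete `fixInt p Γ` with uniformiser `ϖ`, if
`‖y‖ ^ p = ‖ϖ‖ ^ n` with `p ∤ n`, then every term of `∑_{j<p} d j * y ^ j` (`d j` fixed by `Γ`)
is bounded in norm by the sum.

* `h29c_term_le_sum`: in an ultrametric normed group, if the non-zero terms of a finite sum have
  pairwise distinct norms, every term is bounded by the sum.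
* `h29c_norm_zpow`: a non-zero `Γ`-fixed element has norm in `‖ϖ‖ ^ ℤ`.
* `h29c_valIndep : H15sValIndep`.
-/

set_option autoImplicit false
set_option linter.style.haveILetI false

open Fermat.Agent.PT.Loc

noncomputable section

namespace Fermat.Agent.S56F

/-- Ultrametric: if the non-zero terms of a finite sum have pairwise distinct norms, every term
is bounded by the sum. -/
theorem h29c_term_le_sum {E ι : Type*} [NormedAddCommGroup E] [IsUltrametricDist E]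
    (s : Finset ι) (f : ι → E)
    (h : ∀ i ∈ s, ∀ j ∈ s, i ≠ j → f i ≠ 0 → f j ≠ 0 → ‖f i‖ ≠ ‖f j‖) :
    ∀ i ∈ s, ‖f i‖ ≤ ‖∑ j ∈ s, f j‖ := by
  classical
  intro i hi
  by_cases h0 : f i = 0
  · rw [h0, norm_zero]; exact norm_nonneg _
  have hsum : ∑ j ∈ s.filter (fun j => f j ≠ 0), f j = ∑ j ∈ s, f j :=
    Finset.sum_filter_ne_zero s
  have hpw : Set.Pairwise (↑(s.filter (fun j => f j ≠ 0)) : Set ι)
      (fun a b => ‖f a‖₊ ≠ ‖f b‖₊) := by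
    intro a ha b hb hab hE
    rw [Finset.mem_coe, Finset.mem_filter] at ha hb
    exact h a ha.1 b hb.1 hab ha.2 hb.2 (congrArg NNReal.toReal hE)
  have hE := IsUltrametricDist.nnnorm_sum_eq_sup_of_pairwise_ne hpw
  rw [hsum] at hE
  have hi' : i ∈ s.filter (fun j => f j ≠ 0) := Finset.mem_filter.2 ⟨hi, h0⟩
  have hle : ‖f i‖₊ ≤ ‖∑ j ∈ s, f j‖₊ := by
    rw [hE]; exact Finset.le_sup (f := fun j => ‖f j‖₊) hi'
  exact_mod_cast hle

/-- A non-zero `Γ`-fixed element has norm an integral power of `‖ϖ‖`. -/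
theorem h29c_norm_zpow {p : ℕ} [Fact p.Prime] {Γ : Subgroup (Gq p)} {ϖ : Om p}
    (hD : IsDiscrete p Γ ϖ) {d : Om p} (hd : ∀ g ∈ Γ, g d = d) (hd0 : d ≠ 0) :
    ∃ k : ℤ, ‖d‖ = ‖ϖ‖ ^ k := by
  obtain ⟨-, -, -, hdisc⟩ := hD
  rcases le_or_gt ‖d‖ 1 with h1 | h1
  · obtain ⟨n, u, -, hu, hx⟩ := hdisc d ⟨h1, hd⟩ hd0
    refine ⟨n, ?_⟩
    rw [zpow_natCast]
    calc ‖d‖ = ‖ϖ ^ n * u‖ := by rw [← hx]
      _ = ‖ϖ‖ ^ n := by rw [norm_mul, norm_pow, hu, mul_one]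
  · have hinv : ‖d⁻¹‖ ≤ 1 := by
      rw [norm_inv]; exact inv_le_one_of_one_le₀ h1.le
    have hfix : ∀ g ∈ Γ, g d⁻¹ = d⁻¹ := fun g hg => by rw [map_inv₀, hd g hg]
    obtain ⟨n, u, -, hu, hx⟩ := hdisc d⁻¹ ⟨hinv, hfix⟩ (inv_ne_zero hd0)
    refine ⟨-(n : ℤ), ?_⟩
    have h2 : ‖d⁻¹‖ = ‖ϖ‖ ^ n := by
      calc ‖d⁻¹‖ = ‖ϖ ^ n * u‖ := by rw [← hx]
        _ = ‖ϖ‖ ^ n := by rw [norm_mul, norm_pow, hu, mul_one]
    rw [zpow_neg, zpow_natCast, ← h2, norm_inv, inv_inv]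

/-- **FL-S3c** (valuation independence). -/
theorem h29c_valIndep : H15sValIndep := by
  intro p _ Γ ϖ hD y n hy hpn d hd i hi
  have hp : p.Prime := Fact.out
  have hϖ0 : ϖ ≠ 0 := hD.2.2.1
  have hr0 : 0 < ‖ϖ‖ := norm_pos_iff.2 hϖ0
  have hr1 : ‖ϖ‖ < 1 := hD.2.1
  have key : ∀ a b : ℕ, a < b → b < p → d a * y ^ a ≠ 0 → d b * y ^ b ≠ 0 →
      ‖d a * y ^ a‖ ≠ ‖d b * y ^ b‖ := by
    intro a b hab hbp ha0 hb0 hE
    have hda : d a ≠ 0 := left_ne_zero_of_mul ha0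
    have hdb : d b ≠ 0 := left_ne_zero_of_mul hb0
    obtain ⟨ka, hka⟩ := h29c_norm_zpow hD (hd a) hda
    obtain ⟨kb, hkb⟩ := h29c_norm_zpow hD (hd b) hdb
    rw [norm_mul, norm_mul, norm_pow, norm_pow, hka, hkb] at hE
    have hE2 : (‖ϖ‖ ^ ka * ‖y‖ ^ a) ^ p = (‖ϖ‖ ^ kb * ‖y‖ ^ b) ^ p := by rw [hE]
    have hya : (‖y‖ ^ a) ^ p = ‖ϖ‖ ^ ((n : ℤ) * a) := by
      rw [← pow_mul, mul_comm a p, pow_mul, hy, ← pow_mul]
      exact_mod_cast (zpow_natCast ‖ϖ‖ (n * a)).symm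
    have hyb : (‖y‖ ^ b) ^ p = ‖ϖ‖ ^ ((n : ℤ) * b) := by
      rw [← pow_mul, mul_comm b p, pow_mul, hy, ← pow_mul]
      exact_mod_cast (zpow_natCast ‖ϖ‖ (n * b)).symm
    have hka' : (‖ϖ‖ ^ ka) ^ p = ‖ϖ‖ ^ (ka * (p : ℤ)) := by
      rw [zpow_mul, zpow_natCast]
    have hkb' : (‖ϖ‖ ^ kb) ^ p = ‖ϖ‖ ^ (kb * (p : ℤ)) := by
      rw [zpow_mul, zpow_natCast]
    rw [mul_pow, mul_pow, hya, hyb, hka', hkb', ← zpow_add₀ hr0.ne', ← zpow_add₀ hr0.ne'] at hE2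
    have hinj := zpow_right_injective₀ hr0 hr1.ne hE2
    have hdvd : (p : ℤ) ∣ (n : ℤ) * ((b : ℤ) - a) := ⟨ka - kb, by linarith⟩
    have hpz : Prime (p : ℤ) := Nat.prime_iff_prime_int.1 hp
    rcases hpz.dvd_or_dvd hdvd with h | h
    · exact hpn (by exact_mod_cast h)
    · have hpos : (0 : ℤ) < (b : ℤ) - a := by omega
      have hle := Int.le_of_dvd hpos h
      omega
  refine h29c_term_le_sum (Finset.range p) (fun j => d j * y ^ j) ?_ i (Finset.mem_range.2 hi)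
  intro a ha b hb hab ha0 hb0
  rcases lt_or_gt_of_ne hab with h | h
  · exact key a b h (Finset.mem_range.1 hb) ha0 hb0
  · exact fun hE => key b a h (Finset.mem_range.1 ha) hb0 ha0 hE.symm

end Fermat.Agent.S56F
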