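import Fermat.Agent.S56F.FLS3Iface_helper15
import Fermat.Agent.S56F.FLD0_helper89

/-!
# S56 / LOC-p-FL, row FL-S3d (helper42): `H15sBoundAsm`

`h42s_boundAsm : H15sDecomp → H15sValIndep → H15sBound` (the cyclic conductor bound).

* `h42s_reexpand` : `∑ c j (y + e) ^ j = ∑ d i y ^ i`, `d i = ∑_j c j choose j i e ^ (j - i)`;
* `h42s_norm_pow_sub` : `‖x ^ i - y ^ i‖ ‖y‖ ≤ ‖x - y‖ ‖y‖ ^ i` if `‖x‖ = ‖y‖`;
* `h42s_norm_root_pow_sub_one` : `‖ζ ^ a - 1‖ ≤ ‖ζ - 1‖` for a root of unity `ζ`.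
-/

set_option autoImplicit false
set_option linter.style.haveILetI false
set_option linter.unusedSectionVars false

open Fermat.Agent.PT.Loc Polynomial

noncomputable section

namespace Fermat.Agent.S56F

section Tools

variable {p : ℕ} [Fact p.Prime]

/-- binomial re-expansion of a polynomial of degree `< N`. -/
theorem h42s_reexpand (N : ℕ) (c : ℕ → Om p) (y e : Om p) :
    ∑ j ∈ Finset.range N, c j * (y + e) ^ j =
      ∑ i ∈ Finset.range N,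
        (∑ j ∈ Finset.range N, c j * (j.choose i : Om p) * e ^ (j - i)) * y ^ i := by
  have h1 : ∀ j ∈ Finset.range N, c j * (y + e) ^ j =
      ∑ i ∈ Finset.range N, c j * (j.choose i : Om p) * e ^ (j - i) * y ^ i := by
    intro j hj
    rw [add_pow, Finset.mul_sum]
    have hsub : Finset.range (j + 1) ⊆ Finset.range N := by
      intro i hi
      rw [Finset.mem_range] at hi hj ⊢
      omega
    rw [← Finset.sum_subset hsub]
    · refine Finset.sum_congr rfl fun i _ => ?_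
      ring
    · intro i _ hi
      rw [Finset.mem_range, not_lt] at hi
      have : j.choose i = 0 := Nat.choose_eq_zero_of_lt (by omega)
      rw [this, Nat.cast_zero, mul_zero, zero_mul, zero_mul]
  rw [Finset.sum_congr rfl h1, Finset.sum_comm]
  refine Finset.sum_congr rfl fun i _ => ?_
  rw [Finset.sum_mul]

/-- `‖x ^ (i + 1) - y ^ (i + 1)‖ ≤ ‖x - y‖ ‖y‖ ^ i` if `‖x‖ = ‖y‖`. -/
theorem h42s_norm_pow_succ_sub (x y : Om p) (hxy : ‖x‖ = ‖y‖) (i : ℕ) :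
    ‖x ^ (i + 1) - y ^ (i + 1)‖ ≤ ‖x - y‖ * ‖y‖ ^ i := by
  induction i with
  | zero => simp
  | succ i ih =>
    have h1 : x ^ (i + 1 + 1) - y ^ (i + 1 + 1) =
        x * (x ^ (i + 1) - y ^ (i + 1)) + (x - y) * y ^ (i + 1) := by ring
    rw [h1]
    refine (IsUltrametricDist.norm_add_le_max _ _).trans (max_le ?_ ?_)
    · rw [norm_mul, hxy]
      calc ‖y‖ * ‖x ^ (i + 1) - y ^ (i + 1)‖ ≤ ‖y‖ * (‖x - y‖ * ‖y‖ ^ i) :=
            mul_le_mul_of_nonneg_left ih (norm_nonneg _)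
        _ = ‖x - y‖ * ‖y‖ ^ (i + 1) := by ring
    · rw [norm_mul, norm_pow]

/-- `‖x ^ i - y ^ i‖ ‖y‖ ≤ ‖x - y‖ ‖y‖ ^ i` if `‖x‖ = ‖y‖`. -/
theorem h42s_norm_pow_sub (x y : Om p) (hxy : ‖x‖ = ‖y‖) (i : ℕ) :
    ‖x ^ i - y ^ i‖ * ‖y‖ ≤ ‖x - y‖ * ‖y‖ ^ i := by
  rcases Nat.eq_zero_or_pos i with rfl | hi
  · simp
  · obtain ⟨m, rfl⟩ : ∃ m, i = m + 1 := ⟨i - 1, by omega⟩
    calc ‖x ^ (m + 1) - y ^ (m + 1)‖ * ‖y‖ ≤ ‖x - y‖ * ‖y‖ ^ m * ‖y‖ :=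
          mul_le_mul_of_nonneg_right (h42s_norm_pow_succ_sub x y hxy m) (norm_nonneg _)
      _ = ‖x - y‖ * ‖y‖ ^ (m + 1) := by ring

/-- `‖ζ ^ a - 1‖ ≤ ‖ζ - 1‖` for a root of unity. -/
theorem h42s_norm_root_pow_sub_one {ζ : Om p} {m : ℕ} (hm : 0 < m) (hζ : ζ ^ m = 1) (a : ℕ) :
    ‖ζ ^ a - 1‖ ≤ ‖ζ - 1‖ := by
  rcases Nat.eq_zero_or_pos a with rfl | ha
  · simp
  · obtain ⟨i, rfl⟩ : ∃ i, a = i + 1 := ⟨a - 1, by omega⟩
    have h1 : ‖ζ‖ = ‖(1 : Om p)‖ := by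
      rw [h89d0_norm_of_pow_eq_one hm hζ, norm_one]
    have h2 := h42s_norm_pow_succ_sub ζ 1 h1 i
    rwa [one_pow, norm_one, one_pow, mul_one] at h2

end Tools

/-- **FL-S3d.** -/
theorem h42s_boundAsm : H15sBoundAsm := by
  intro hDec hVal p _ Γ ϖ hdisc ζ χ hKD B hB0 hB e he n hn hpn z hz hzfix g hg
  have hp : p.Prime := Fact.out
  by_cases hχ : χ g = 0
  · rw [hzfix g hg hχ, sub_self, norm_zero, zero_mul]
    positivity
  obtain ⟨c, hc, hzc⟩ := hDec p Γ ζ χ hKD B hB0 hB g hg hχ z hzfix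
  obtain ⟨y, hy⟩ : ∃ y : Om p, y = B - e := ⟨_, rfl⟩
  rw [← hy] at hn ⊢
  have hBy : B = y + e := by rw [hy]; ring
  obtain ⟨d, hddef⟩ : ∃ d : ℕ → Om p, ∀ i, d i =
      ∑ j ∈ Finset.range p, c j * (j.choose i : Om p) * e ^ (j - i) := ⟨_, fun _ => rfl⟩
  have hd : ∀ i, ∀ σ ∈ Γ, σ (d i) = d i := by
    intro i σ hσ
    rw [hddef, map_sum]
    refine Finset.sum_congr rfl fun j _ => ?_
    rw [map_mul, map_mul, map_pow, map_natCast, hc j σ hσ, he σ hσ]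
  have hzd : z = ∑ i ∈ Finset.range p, d i * y ^ i := by
    rw [hzc, hBy, h42s_reexpand]
    refine Finset.sum_congr rfl fun i _ => ?_
    rw [hddef]
  have hterm : ∀ i < p, ‖d i * y ^ i‖ ≤ 1 := fun i hi =>
    (hVal p Γ ϖ hdisc y n hn hpn d hd i hi).trans (by rw [← hzd]; exact hz)
  have hgy : g y = y + (ζ ^ (χ g).val - 1) * B := by
    rw [hy, map_sub, hB g hg, he g hg]
    ring
  have hgz : g z - z = ∑ i ∈ Finset.range p, d i * ((g y) ^ i - y ^ i) := by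
    conv_lhs => rw [hzd]
    rw [map_sum, ← Finset.sum_sub_distrib]
    refine Finset.sum_congr rfl fun i _ => ?_
    rw [map_mul, map_pow, hd i g hg]
    ring
  have hδ : ‖g y - y‖ ≤ ‖ζ - 1‖ * ‖B‖ := by
    rw [hgy, add_sub_cancel_left, norm_mul]
    exact mul_le_mul_of_nonneg_right (h42s_norm_root_pow_sub_one hp.pos hKD.pow _)
      (norm_nonneg _)
  have hnorm : ‖g y‖ = ‖y‖ := h89d0_norm_map g y
  have hi : ∀ i ∈ Finset.range p, ‖d i * ((g y) ^ i - y ^ i)‖ * ‖y‖ ≤ ‖ζ - 1‖ * ‖B‖ := by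
    intro i hi
    rw [norm_mul, mul_assoc]
    calc ‖d i‖ * (‖(g y) ^ i - y ^ i‖ * ‖y‖) ≤ ‖d i‖ * (‖g y - y‖ * ‖y‖ ^ i) :=
          mul_le_mul_of_nonneg_left (h42s_norm_pow_sub _ _ hnorm i) (norm_nonneg _)
      _ = ‖g y - y‖ * ‖d i * y ^ i‖ := by rw [norm_mul, norm_pow]; ring
      _ ≤ ‖g y - y‖ * 1 :=
          mul_le_mul_of_nonneg_left (hterm i (Finset.mem_range.mp hi)) (norm_nonneg _)
      _ ≤ ‖ζ - 1‖ * ‖B‖ := by rw [mul_one]; exact hδ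
  by_cases hy0 : ‖y‖ = 0
  · rw [hy0, mul_zero]
    positivity
  have hypos : 0 < ‖y‖ := lt_of_le_of_ne (norm_nonneg _) (Ne.symm hy0)
  rw [hgz]
  have hsum : ‖∑ i ∈ Finset.range p, d i * ((g y) ^ i - y ^ i)‖ ≤ ‖ζ - 1‖ * ‖B‖ / ‖y‖ := by
    refine IsUltrametricDist.norm_sum_le_of_forall_le_of_nonneg (by positivity) fun i hi' => ?_
    rw [le_div_iff₀ hypos]
    exact hi i hi'
  calc ‖∑ i ∈ Finset.range p, d i * ((g y) ^ i - y ^ i)‖ * ‖y‖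
      ≤ ‖ζ - 1‖ * ‖B‖ / ‖y‖ * ‖y‖ := mul_le_mul_of_nonneg_right hsum (norm_nonneg _)
    _ = ‖ζ - 1‖ * ‖B‖ := by field_simp

end Fermat.Agent.S56F
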