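import Fermat.Agent.S56F.FLS3Iface_helper15

/-!
# S56 / LOC-p-FL, leaf FL-S3e (helper47): the level of a `p`-th root

`h47e_level : H15sLevel`:  `‖B ^ p - 1‖ < 1`, `‖p‖ < ‖B ^ p - 1‖`  ⟹  `‖B - 1‖ ^ p = ‖B ^ p - 1‖`.
Binomial theorem + ultrametric inequality; valid in every ultrametric normed field.
-/

set_option autoImplicit false

noncomputable section

namespace Fermat.Agent.S56F

open Fermat.Agent.PT.Loc

/-- General form: `E` an ultrametric normed field, `p` a prime number. -/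
theorem h47e_level_gen {E : Type} [NormedField E] [IsUltrametricDist E] (p : ℕ) (hp : p.Prime)
    (B : E) (h1 : ‖B ^ p - 1‖ < 1) (h2 : ‖(p : E)‖ < ‖B ^ p - 1‖) :
    ‖B - 1‖ ^ p = ‖B ^ p - 1‖ := by
  -- `‖B‖ ≤ 1`, `‖x‖ ≤ 1`
  have hBp : ‖B ^ p‖ ≤ 1 := by
    have : B ^ p = (B ^ p - 1) + 1 := by ring
    rw [this]
    refine (IsUltrametricDist.norm_add_le_max _ _).trans ?_
    rw [norm_one]
    exact max_le h1.le le_rfl
  have hB : ‖B‖ ≤ 1 := by
    rw [norm_pow] at hBp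
    by_contra hlt
    push Not at hlt
    have := one_lt_pow₀ hlt hp.ne_zero
    linarith
  set x : E := B - 1 with hx
  have hx1 : ‖x‖ ≤ 1 := by
    rw [hx, sub_eq_add_neg]
    refine (IsUltrametricDist.norm_add_le_max _ _).trans ?_
    rw [norm_neg, norm_one]
    exact max_le hB le_rfl
  -- the binomial expansion
  have hexp : B ^ p - 1 = x ^ p + ∑ i ∈ Finset.Ico 1 p, x ^ i * (p.choose i : E) := by
    have hB' : B = x + 1 := by rw [hx]; ring
    rw [hB', add_pow]
    simp only [one_pow, mul_one]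
    rw [Finset.sum_range_succ, Nat.choose_self, Nat.cast_one, mul_one,
      Finset.range_eq_Ico, Finset.sum_eq_sum_Ico_succ_bot hp.pos]
    simp only [pow_zero, Nat.choose_zero_right, Nat.cast_one, mul_one, zero_add]
    ring
  have hrest : ‖∑ i ∈ Finset.Ico 1 p, x ^ i * (p.choose i : E)‖ ≤ ‖(p : E)‖ := by
    apply IsUltrametricDist.norm_sum_le_of_forall_le_of_nonneg (norm_nonneg _)
    intro i hi
    rw [Finset.mem_Ico] at hi
    obtain ⟨m, hm⟩ := hp.dvd_choose_self (by omega) hi.2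
    rw [hm, Nat.cast_mul, norm_mul, norm_mul, norm_pow]
    have h3 : ‖x‖ ^ i ≤ 1 := pow_le_one₀ (norm_nonneg _) hx1
    have h4 : ‖(m : E)‖ ≤ 1 := IsUltrametricDist.norm_natCast_le_one E m
    have h5 : 0 ≤ ‖(p : E)‖ := norm_nonneg _
    calc ‖x‖ ^ i * (‖(p : E)‖ * ‖(m : E)‖) ≤ 1 * (‖(p : E)‖ * 1) := by
          apply mul_le_mul h3 (mul_le_mul_of_nonneg_left h4 h5)
            (mul_nonneg h5 (norm_nonneg _)) zero_le_one
      _ = ‖(p : E)‖ := by ring
  -- conclusion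
  have hlt : ‖∑ i ∈ Finset.Ico 1 p, x ^ i * (p.choose i : E)‖ < ‖B ^ p - 1‖ :=
    lt_of_le_of_lt hrest h2
  have hxp : x ^ p = (B ^ p - 1) - ∑ i ∈ Finset.Ico 1 p, x ^ i * (p.choose i : E) := by
    rw [hexp]; ring
  rw [← norm_pow, hxp]
  apply le_antisymm
  · rw [sub_eq_add_neg]
    refine (IsUltrametricDist.norm_add_le_max _ _).trans ?_
    rw [norm_neg]
    exact max_le le_rfl hlt.le
  · by_contra hcon
    push Not at hcon
    have h6 : B ^ p - 1 = ((B ^ p - 1) - ∑ i ∈ Finset.Ico 1 p, x ^ i * (p.choose i : E)) +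
        ∑ i ∈ Finset.Ico 1 p, x ^ i * (p.choose i : E) := by ring
    have h7 := IsUltrametricDist.norm_add_le_max
      ((B ^ p - 1) - ∑ i ∈ Finset.Ico 1 p, x ^ i * (p.choose i : E))
      (∑ i ∈ Finset.Ico 1 p, x ^ i * (p.choose i : E))
    rw [← h6] at h7
    have h8 := max_lt hcon hlt
    linarith

theorem h47e_level : H15sLevel := by
  intro p _ B h1 h2
  exact h47e_level_gen p Fact.out B h1 h2

end Fermat.Agent.S56F
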