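import Fermat.Agent.S56F.FLS3Iface_helper15
import Fermat.Agent.S56F.FLD0_helper89
import Fermat.Agent.PT.Loc.H34LFTeich

/-!
# S56 / LOC-p-FL, leaf FL-S3f (helper34): residual `p`-th roots

`h34r_resRoot : H15sResRoot` : every unit `u` of `Om p` is, modulo the maximal ideal, the `p`-th
power of a unit fixed by inertia.

`u` is congruent to a root of unity `w₀` of order `m` prime to `p` of the finite extension
`ℚ_p(u)` (`h34lf_lfTeich`); with `p * a ≡ 1 mod m` the root of unity `w = w₀ ^ a` has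
`w ^ p = w₀`, and it is fixed by inertia (`h89d0_inertiaIffRoots`).
-/

set_option autoImplicit false
set_option linter.style.haveILetI false

open Fermat.Agent.PT.Loc

noncomputable section

namespace Fermat.Agent.S56F

/-- An `m`-th root of unity, `m` prime to `p`, is the `p`-th power of an `m`-th root of unity. -/
theorem h34r_exists_pow {M : Type*} [Monoid M] {p m : ℕ} (hcop : Nat.Coprime p m) (hm0 : 0 < m)
    {w : M} (hw : w ^ m = 1) : ∃ a : ℕ, w ^ (p * a) = w := by
  rcases Nat.lt_or_ge 1 m with h1 | h1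
  · obtain ⟨a, -, ha⟩ := Nat.exists_mul_mod_eq_one_of_coprime hcop h1
    refine ⟨a, ?_⟩
    rw [← Nat.div_add_mod (p * a) m, ha, pow_add, pow_mul, hw, one_pow, one_mul, pow_one]
  · have hm1 : m = 1 := by omega
    rw [hm1, pow_one] at hw
    exact ⟨0, by rw [hw, one_pow]⟩

/-- **FL-S3f.** -/
theorem h34r_resRoot : H15sResRoot := by
  intro p _ u hu
  have hp : p.Prime := Fact.out
  haveI : FiniteDimensional ℚ_[p] (IntermediateField.adjoin ℚ_[p] ({u} : Set (Om p))) :=
    h89d0_finiteDimensional_adjoin _ (Set.toFinite _)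
  obtain ⟨-, -, -, hex, -⟩ :=
    h34lf_lfTeich p (IntermediateField.adjoin ℚ_[p] ({u} : Set (Om p)))
  obtain ⟨w₀, hw₀, huw⟩ := hex u (IntermediateField.subset_adjoin _ _ (by simp)) hu
  obtain ⟨-, m, hm0, hm, hwm⟩ := hw₀
  have hcop : Nat.Coprime p m := (Nat.Prime.coprime_iff_not_dvd hp).2 hm
  obtain ⟨a, ha⟩ := h34r_exists_pow hcop hm0 hwm
  have hwa : (w₀ ^ a) ^ m = 1 := by
    rw [← pow_mul, mul_comm, pow_mul, hwm, one_pow]
  refine ⟨w₀ ^ a, ?_, ?_, ?_⟩
  · exact h89d0_norm_of_pow_eq_one hm0 hwa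
  · intro g hg
    exact (h89d0_inertiaIffRoots p g).1 hg (w₀ ^ a) m hm0 hm hwa
  · rw [← pow_mul, mul_comm a p, ha]
    exact huw

end Fermat.Agent.S56F
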