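import Fermat.Agent.S56F.FLLev_helper68

/-!
# S56 / LOC-p-FL, row FL-S3g (helper68): `H15sZetaFix`

`ζ_p ∈ K = ℚ_p^ur(π)`: the elements of inertia fixing `π` (`π ^ (p² - 1) = p`) fix `μ_p`.
Also the same statement for the two other copies of `I_K` (`IK`, `h89s_IK`).
-/

set_option autoImplicit false

open Fermat.Agent.PT.Loc

noncomputable section

namespace Fermat.Agent.S56F

/-- **FL-S3g.** -/
theorem h68z_zetaFix : H15sZetaFix := by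
  intro p _ hp2 π hπ ζ hζ g hg
  have hp : p.Prime := Fact.out
  obtain ⟨h1, h2, h3, -⟩ := h68v_arith p hp.two_le
  exact h68v_zeta_fix hp2 (p ^ 2 - 1) h1 h2 h3 π hπ hg.1 hg.2 ζ hζ

/-- the same for `IK p π` (general `n`). -/
theorem h68z_zetaFix_IK {p : ℕ} [Fact p.Prime] (hp2 : p ≠ 2) (n : ℕ) (hn : 0 < n)
    (hpn : ¬ p ∣ n) (hdiv : (p - 1) ∣ n) (π : Om p) (hπ : π ^ n = p) (ζ : Om p)
    (hζ : ζ ^ p = 1) : ∀ g ∈ IK p π, g ζ = ζ :=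
  fun _ hg => h68v_zeta_fix hp2 n hn hpn hdiv π hπ hg.1 hg.2 ζ hζ

/-- the same for `h89s_IK p π`. -/
theorem h68z_zetaFix_89 {p : ℕ} [Fact p.Prime] (hp2 : p ≠ 2) (π : Om p)
    (hπ : π ^ (p ^ 2 - 1) = p) (ζ : Om p) (hζ : ζ ^ p = 1) :
    ∀ g ∈ h89s_IK p π, g ζ = ζ := by
  intro g hg
  have hp : p.Prime := Fact.out
  obtain ⟨h1, h2, h3, -⟩ := h68v_arith p hp.two_le
  exact h68v_zeta_fix hp2 (p ^ 2 - 1) h1 h2 h3 π hπ hg.1 hg.2 ζ hζ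

end Fermat.Agent.S56F
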