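import Fermat.Agent.S56F.FLS3Iface_helper15
import Fermat.Agent.S56F.FLD4_helper7
import Fermat.Agent.S56F.FLO2_helper89
import Fermat.Agent.PT.Loc.H36URBase

/-!
# S56 / LOC-p-FL, row FL-S3g (helper96, second seat): `ζ_p ∈ K = ℚ_p^ur(π)`, `π ^ (p² - 1) = p`

`h96z_zetaFix : H15sZetaFix` — every `g ∈ I_K` (inertia, `g π = π`) fixes the `p`-th roots of
unity.  Proof: `g` acts on `μ_p` by `a`-th powers; `h7c_cycFund` with `n = p² - 1` gives
`‖1 - a‖ < 1`, i.e. `p ∣ a - 1`.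
-/

set_option autoImplicit false
set_option linter.style.haveILetI false

open Fermat.Agent.PT.Loc

noncomputable section

namespace Fermat.Agent.S56F

/-- **FL-S3g.** -/
theorem h96z_zetaFix : H15sZetaFix := by
  intro p _ hp2 π hπ ζ hζ g hg
  have hp : p.Prime := Fact.out
  have h2 : 2 ≤ p := hp.two_le
  obtain ⟨a, ha⟩ := h89o_exists_cycExp (p := p) g
  -- the arithmetic of `n = p² - 1`
  have hn0 : 0 < p ^ 2 - 1 := by
    have : 4 ≤ p ^ 2 := by nlinarith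
    omega
  have hnp : ¬ p ∣ p ^ 2 - 1 := by
    intro hd
    have h1 : p ∣ p ^ 2 := dvd_pow_self p (by norm_num)
    have h3 : p ∣ p ^ 2 - (p ^ 2 - 1) := Nat.dvd_sub h1 hd
    have h4 : p ^ 2 - (p ^ 2 - 1) = 1 := by omega
    rw [h4] at h3
    exact hp.one_lt.ne' (Nat.dvd_one.mp h3)
  have hdvd : (p - 1) ∣ p ^ 2 - 1 := by
    refine ⟨p + 1, ?_⟩
    obtain ⟨m, rfl⟩ : ∃ m, p = m + 1 := ⟨p - 1, by omega⟩
    simp only [Nat.add_sub_cancel]
    have : (m + 1) ^ 2 = m * (m + 1 + 1) + 1 := by ring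
    omega
  have hcf := h7c_cycFund p hp2 (p ^ 2 - 1) hn0 hnp hdvd π hπ g hg.1 a ha
  have hπ0 : π ≠ 0 := by
    intro h0
    rw [h0, zero_pow hn0.ne'] at hπ
    have : (p : Om p) ≠ 0 := by exact_mod_cast hp.ne_zero
    exact this hπ.symm
  rw [hg.2, div_self hπ0, one_pow] at hcf
  -- `p ∣ a - 1`
  have ha1 : 1 ≤ a := by
    by_contra h0
    have ha0 : a = 0 := by omega
    rw [ha0, Nat.cast_zero, sub_zero, norm_one] at hcf
    exact lt_irrefl _ hcf
  have hcast : ((a - 1 : ℕ) : Om p) = (a : Om p) - 1 := by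
    rw [Nat.cast_sub ha1, Nat.cast_one]
  have hlt : ‖((a - 1 : ℕ) : Om p)‖ < 1 := by
    rw [hcast, ← norm_neg, neg_sub]
    exact hcf
  obtain ⟨m, hm⟩ := (h36u_norm_natCast_lt_one_iff (q := p) (a - 1)).1 hlt
  have ha' : a = 1 + p * m := by omega
  rw [ha ζ hζ, ha', pow_add, pow_one, pow_mul, hζ, one_pow, mul_one]

end Fermat.Agent.S56F
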