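import Fermat.Agent.S56F.FLS3Iface_helper15
import Fermat.Agent.S56F.FLD4_helper7

/-!
# S56 / LOC-p-FL, leaf FL-S3g (helper99, second seat): `ζ_p ∈ K = ℚ_p^ur(π)`

`h99z_zetaFix : H15sZetaFix` : for `π ^ (p² - 1) = p` every `g ∈ I_K` fixes the `p`-th roots of
unity.  Proof: `g` acts on `μ_p` by `a`-th powers; `h7c_cycFund` with `n = p² - 1` and `g π = π`
gives `‖1 - a‖ < 1`, so `p ∣ a - 1` and `ζ ^ a = ζ`.

General form `h99z_zeta_fix_gen` for `π ^ n = p`, `0 < n`, `p ∤ n`, `(p - 1) ∣ n`.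
-/

set_option autoImplicit false
set_option linter.style.haveILetI false
set_option linter.unusedSectionVars false

open Fermat.Agent.PT.Loc

noncomputable section

namespace Fermat.Agent.S56F

variable {p : ℕ} [Fact p.Prime]

theorem h99z_exists_cycExp (σ : Gq p) : ∃ a : ℕ, 0 < a ∧ cycExp p σ a := by
  obtain ⟨ζ, hζ⟩ := h7c_exists_primitiveRoot p
  have hp : p.Prime := Fact.out
  have h1 : (σ ζ) ^ p = 1 := by rw [← map_pow, hζ.pow_eq_one, map_one]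
  haveI : NeZero p := ⟨hp.ne_zero⟩
  obtain ⟨a, -, ha⟩ := hζ.eq_pow_of_pow_eq_one h1
  refine ⟨a + p, by have := hp.pos; omega, fun μ hμ => ?_⟩
  obtain ⟨j, -, hj⟩ := hζ.eq_pow_of_pow_eq_one hμ
  rw [pow_add, hμ, mul_one, ← hj, map_pow, ← ha, ← pow_mul, ← pow_mul, mul_comm]

/-- General form: `g ∈ inertia`, `g π = π`, `π ^ n = p` (`p ∤ n`, `(p - 1) ∣ n`) fixes `μ_p`. -/
theorem h99z_zeta_fix_gen (hp2 : p ≠ 2) {n : ℕ} (hn : 0 < n) (hpn : ¬ p ∣ n)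
    (hdvd : (p - 1) ∣ n) {π : Om p} (hπ : π ^ n = p) {g : Gq p} (hg : g ∈ inertia p)
    (hgπ : g π = π) {ζ : Om p} (hζ : ζ ^ p = 1) : g ζ = ζ := by
  have hp : p.Prime := Fact.out
  obtain ⟨a, ha0, ha⟩ := h99z_exists_cycExp g
  have h1 := h7c_cycFund p hp2 n hn hpn hdvd π hπ g hg a ha
  have hπ0 : π ≠ 0 := by
    intro h
    rw [h, zero_pow hn.ne'] at hπ
    exact hp.ne_zero (by exact_mod_cast hπ.symm)
  rw [hgπ, div_self hπ0, one_pow] at h1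
  -- `‖(a - 1 : ℕ)‖ < 1`
  have h2 : ‖(((a - 1 : ℕ) : ℚ_[p]) : ℚ_[p])‖ < 1 := by
    have h3 : (1 : Om p) - (a : Om p) = -algebraMap ℚ_[p] (Om p) (((a - 1 : ℕ) : ℚ_[p])) := by
      rw [map_natCast, Nat.cast_sub ha0, Nat.cast_one]
      ring
    rw [h3, norm_neg, PadicAlgCl.norm_extends] at h1
    exact h1
  have h4 : p ∣ a - 1 := (Padic.norm_natCast_lt_one_iff).mp h2
  obtain ⟨t, ht⟩ := h4
  have h5 : a = 1 + p * t := by omega
  rw [ha ζ hζ, h5, pow_add, pow_one, pow_mul, hζ, one_pow, mul_one]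

/-- **FL-S3g.** -/
theorem h99z_zetaFix : H15sZetaFix := by
  intro p _ hp2 π hπ ζ hζ g hg
  have hp : p.Prime := Fact.out
  have h2 := hp.two_le
  have hfac : p ^ 2 - 1 = (p - 1) * (p + 1) := by
    obtain ⟨k, rfl⟩ : ∃ k, p = k + 1 := ⟨p - 1, by omega⟩
    simp only [Nat.add_sub_cancel]
    have : (k + 1) ^ 2 = k * (k + 1 + 1) + 1 := by ring
    omega
  have hn : 0 < p ^ 2 - 1 := by
    rw [hfac]
    exact Nat.mul_pos (by omega) (by omega)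
  have hpn : ¬ p ∣ p ^ 2 - 1 := by
    intro h
    have h3 : p ∣ p ^ 2 := dvd_pow_self p (by norm_num)
    have h4 : p ∣ p ^ 2 - (p ^ 2 - 1) := Nat.dvd_sub h3 h
    have h5 : p ^ 2 - (p ^ 2 - 1) = 1 := by omega
    rw [h5] at h4
    exact hp.one_lt.ne' (Nat.dvd_one.mp h4)
  exact h99z_zeta_fix_gen hp2 hn hpn ⟨p + 1, hfac⟩ hπ hg.1 hg.2 hζ

end Fermat.Agent.S56F
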