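import Fermat.Agent.S56F.FLS3d_helper42
import Fermat.Agent.S56F.FLD7_helper45
import Fermat.Agent.S56F.FLC1_helper7

/-!
# S56 / LOC-p-FL, row FL-S3h (helper42): `H15sKumAsm`

`h42s_kumAsm : H15sResolvent → H15sBound → H15sLevel → H15sResRoot → H15sKum`
(assembly of the Kummer side of `SSOffLev3`).

Steps: a Kummer generator `B` (`H15sResolvent`), made integral by a power of `π`;
`‖B‖ ^ p = ‖π‖ ^ n` (`h45g_tameDiscrete`); `p ∤ n` contradicts the flat bound (`H15sBound`,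
`e = 0`); for `n = p m` the unit `B / π ^ m` is made `≡ 1` by `H15sResRoot`; its level `j` is
`≥ 3`, since `j ∈ {1, 2}` contradicts the flat bound (`H15sLevel`, `H15sBound` with `e = 1`).
-/

set_option autoImplicit false
set_option linter.style.haveILetI false
set_option linter.unusedSectionVars false

open Fermat.Agent.PT.Loc Polynomial

noncomputable section

namespace Fermat.Agent.S56F

section Tools

variable {p : ℕ} [Fact p.Prime]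

theorem h42s_gen_mul {Γ : Subgroup (Gq p)} {ζ : Om p} {χ : Gq p → ZMod p} {B c : Om p}
    (hB : ∀ g ∈ Γ, g B = ζ ^ (χ g).val * B) (hc : ∀ g ∈ Γ, g c = c) :
    ∀ g ∈ Γ, g (B * c) = ζ ^ (χ g).val * (B * c) := by
  intro g hg
  rw [map_mul, hB g hg, hc g hg]
  ring

theorem h42s_gen_div {Γ : Subgroup (Gq p)} {ζ : Om p} {χ : Gq p → ZMod p} {B c : Om p}
    (hB : ∀ g ∈ Γ, g B = ζ ^ (χ g).val * B) (hc : ∀ g ∈ Γ, g c = c) :
    ∀ g ∈ Γ, g (B / c) = ζ ^ (χ g).val * (B / c) := by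
  intro g hg
  rw [map_div₀, hB g hg, hc g hg]
  ring

/-- the `p`-th power of a Kummer generator is fixed. -/
theorem h42s_gen_pow_fix {Γ : Subgroup (Gq p)} {ζ : Om p} {χ : Gq p → ZMod p} {B : Om p}
    (hζ : ζ ^ p = 1) (hB : ∀ g ∈ Γ, g B = ζ ^ (χ g).val * B) :
    ∀ g ∈ Γ, g (B ^ p) = B ^ p := by
  intro g hg
  rw [map_pow, hB g hg, mul_pow, ← pow_mul, mul_comm (χ g).val p, pow_mul, hζ, one_pow, one_mul]

/-- `‖ζ - 1‖ = ‖π‖ ^ (p + 1)`. -/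
theorem h42s_norm_zeta {π ζ : Om p} (hπ : π ^ (p ^ 2 - 1) = p) (hζ : ζ ^ p = 1) (hζ1 : ζ ≠ 1) :
    ‖ζ - 1‖ = ‖π‖ ^ (p + 1) := by
  have hp : p.Prime := Fact.out
  have hprim : IsPrimitiveRoot ζ p := by
    have := IsPrimitiveRoot.orderOf ζ
    rwa [orderOf_eq_prime hζ hζ1] at this
  have h1 := h7g_norm_zeta_sub_one hprim
  have h2 : ‖π‖ ^ (p ^ 2 - 1) = ‖((p : ℕ) : Om p)‖ := by rw [← norm_pow, hπ]
  have h3 : p ^ 2 - 1 = (p + 1) * (p - 1) := by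
    have h4 : (p + 1) * (p - 1) + 1 = p ^ 2 := by
      obtain ⟨m, hm⟩ : ∃ m, p = m + 1 := ⟨p - 1, by have := hp.one_le; omega⟩
      rw [hm, Nat.add_sub_cancel]
      ring
    omega
  rw [← h2, h3, pow_mul] at h1
  have h5 : p - 1 ≠ 0 := by
    have := hp.two_le
    omega
  exact (pow_left_inj₀ (norm_nonneg _) (by positivity) h5).mp h1

end Tools

/-- **FL-S3h.** -/
theorem h42s_kumAsm : H15sKumAsm := by
  intro hRes hBound hLev hRoot p _ hp2 π hπ ζ χ hKD hflat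
  have hp : p.Prime := Fact.out
  have hp3 : 3 ≤ p := by
    have := hp.two_le
    omega
  have hn : 0 < p ^ 2 - 1 := by
    have : 4 ≤ p ^ 2 := by nlinarith
    omega
  have hpn : ¬ p ∣ p ^ 2 - 1 := by
    intro h
    have h1 : p ∣ p ^ 2 := dvd_pow_self p (by norm_num)
    have h2 : p ∣ p ^ 2 - (p ^ 2 - 1) := Nat.dvd_sub h1 h
    have h3 : p ^ 2 - (p ^ 2 - 1) = 1 := by omega
    rw [h3] at h2
    exact hp.one_lt.ne' (Nat.dvd_one.mp h2)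
  have hdisc : IsDiscrete p (h15s_IK p π) π :=
    h45g_tameDiscrete p (p ^ 2 - 1) hn hpn π hπ (h15s_IK p π) (fun _ => Iff.rfl)
  obtain ⟨hπmem, hπlt, hπ0, hdiscr⟩ := hdisc
  have hdisc : IsDiscrete p (h15s_IK p π) π := ⟨hπmem, hπlt, hπ0, hdiscr⟩
  have hπpos : 0 < ‖π‖ := norm_pos_iff.mpr hπ0
  have hπfix : ∀ g ∈ h15s_IK p π, g π = π := fun g hg => hg.2
  have hζn : ‖ζ - 1‖ = ‖π‖ ^ (p + 1) := h42s_norm_zeta hπ hKD.pow hKD.ne
  have hlt1 : ‖π‖ ^ (p + 1) < ‖π‖ ^ p :=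
    pow_lt_pow_right_of_lt_one₀ hπpos hπlt (Nat.lt_succ_self p)
  by_cases hex : ∃ g₀ ∈ h15s_IK p π, χ g₀ ≠ 0
  swap
  · push Not at hex
    refine ⟨1, ?_, fun g hg => ?_⟩
    · rw [one_pow, sub_self, norm_zero]
      positivity
    · rw [hex g hg, ZMod.val_zero, pow_zero, one_mul, map_one]
  obtain ⟨g₀, hg₀, hχ₀⟩ := hex
  -- a generator
  obtain ⟨z₀, -, hz₀fix, hz₀⟩ := hflat g₀ hg₀ hχ₀ 0 (by positivity)
  have hz₀ne : g₀ z₀ ≠ z₀ := by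
    intro h
    rw [h, sub_self, norm_zero] at hz₀
    exact lt_irrefl _ hz₀
  obtain ⟨B₀, hB₀0, hB₀⟩ := hRes p (h15s_IK p π) ζ χ hKD g₀ hg₀ z₀ hz₀fix hz₀ne
  -- an integral generator
  obtain ⟨B, hB0, hBint, hB⟩ : ∃ B : Om p, B ≠ 0 ∧ ‖B‖ ≤ 1 ∧
      ∀ g ∈ h15s_IK p π, g B = ζ ^ (χ g).val * B := by
    have hB₀pos : 0 < ‖B₀‖ := norm_pos_iff.mpr hB₀0
    obtain ⟨M, hM⟩ := exists_pow_lt_of_lt_one (inv_pos.mpr hB₀pos) hπlt
    refine ⟨B₀ * π ^ M, mul_ne_zero hB₀0 (pow_ne_zero _ hπ0), ?_,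
      h42s_gen_mul hB₀ (fun g hg => by rw [map_pow, hπfix g hg])⟩
    rw [norm_mul, norm_pow]
    have h1 : ‖B₀‖ * ‖π‖ ^ M ≤ ‖B₀‖ * ‖B₀‖⁻¹ :=
      mul_le_mul_of_nonneg_left hM.le (norm_nonneg _)
    rwa [mul_inv_cancel₀ hB₀pos.ne'] at h1
  -- its norm
  obtain ⟨n, hBn⟩ : ∃ n : ℕ, ‖B‖ ^ p = ‖π‖ ^ n := by
    have hmem : B ^ p ∈ fixInt p (h15s_IK p π) :=
      ⟨by rw [norm_pow]; exact pow_le_one₀ (norm_nonneg _) hBint,
        h42s_gen_pow_fix hKD.pow hB⟩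
    obtain ⟨n, u, -, hu, hnu⟩ := hdiscr (B ^ p) hmem (pow_ne_zero _ hB0)
    refine ⟨n, ?_⟩
    rw [← norm_pow, hnu, norm_mul, norm_pow, hu, mul_one]
  -- the contradiction with the flat bound
  have hcontra : ∀ (B' e : Om p) (j : ℕ), B' ≠ 0 →
      (∀ g ∈ h15s_IK p π, g B' = ζ ^ (χ g).val * B') → (∀ g ∈ h15s_IK p π, g e = e) →
      ‖B' - e‖ ^ p = ‖π‖ ^ j → ¬ p ∣ j → ‖π‖ ^ (p + 1) * ‖B'‖ < ‖π‖ ^ p * ‖B' - e‖ → False := by
    intro B' e j hB'0 hB' he hj hpj hlt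
    have hr : 0 < ‖B' - e‖ := by
      by_contra hcon
      have h0 : ‖B' - e‖ = 0 := le_antisymm (not_lt.mp hcon) (norm_nonneg _)
      rw [h0, mul_zero] at hlt
      have : 0 ≤ ‖π‖ ^ (p + 1) * ‖B'‖ := by positivity
      exact absurd hlt (not_lt.mpr this)
    have ht : ‖π‖ ^ (p + 1) * ‖B'‖ / ‖B' - e‖ < ‖π‖ ^ p := by
      rw [div_lt_iff₀ hr]
      exact hlt
    obtain ⟨z, hz1, hzfix, hz⟩ := hflat g₀ hg₀ hχ₀ _ ht
    have h1 := hBound p (h15s_IK p π) π hdisc ζ χ hKD B' hB'0 hB' e he j hj hpj z hz1 hzfix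
      g₀ hg₀
    rw [hζn] at h1
    rw [div_lt_iff₀ hr] at hz
    exact absurd h1 (not_le.mpr hz)
  -- `p ∣ n`
  have hpdvd : p ∣ n := by
    by_contra hpn'
    refine hcontra B 0 n hB0 hB (fun g _ => map_zero g) (by rw [sub_zero]; exact hBn) hpn' ?_
    rw [sub_zero]
    exact mul_lt_mul_of_pos_right hlt1 (norm_pos_iff.mpr hB0)
  obtain ⟨m, rfl⟩ := hpdvd
  -- the unit `B₁`
  obtain ⟨B₁, hB₁def⟩ : ∃ B₁ : Om p, B₁ = B / π ^ m := ⟨_, rfl⟩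
  have hB₁ : ∀ g ∈ h15s_IK p π, g B₁ = ζ ^ (χ g).val * B₁ := by
    rw [hB₁def]
    exact h42s_gen_div hB (fun g hg => by rw [map_pow, hπfix g hg])
  have hB₁n : ‖B₁‖ = 1 := by
    have h1 : ‖B₁‖ ^ p = 1 := by
      rw [hB₁def, norm_div, norm_pow, div_pow, hBn, ← pow_mul, mul_comm m p]
      exact div_self (pow_ne_zero _ hπpos.ne')
    exact (pow_eq_one_iff_of_nonneg (norm_nonneg _) hp.ne_zero).mp h1
  obtain ⟨w, hw1, hwfix, hw⟩ := hRoot p B₁ hB₁n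
  obtain ⟨B₂, hB₂def⟩ : ∃ B₂ : Om p, B₂ = B₁ / w ^ p := ⟨_, rfl⟩
  have hw0 : w ≠ 0 := by
    intro h
    rw [h, norm_zero] at hw1
    exact zero_ne_one hw1
  have hB₂ : ∀ g ∈ h15s_IK p π, g B₂ = ζ ^ (χ g).val * B₂ := by
    rw [hB₂def]
    exact h42s_gen_div hB₁ (fun g hg => by rw [map_pow, hwfix g hg.1])
  have hB₂1 : ‖B₂ - 1‖ < 1 := by
    have h1 : B₂ - 1 = (B₁ - w ^ p) / w ^ p := by
      rw [hB₂def, sub_div, div_self (pow_ne_zero _ hw0)]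
    rw [h1, norm_div, norm_pow, hw1, one_pow, div_one]
    exact hw
  have hB₂n : ‖B₂‖ = 1 := by
    rw [hB₂def, norm_div, norm_pow, hw1, one_pow, div_one, hB₁n]
  have hB₂0 : B₂ ≠ 0 := by
    intro h
    rw [h, norm_zero] at hB₂n
    exact zero_ne_one hB₂n
  have hx1 : ‖B₂ ^ p - 1‖ < 1 :=
    lt_of_le_of_lt (h7g_norm_pow_sub_one_le hB₂n.le p) hB₂1
  refine ⟨B₂, ?_, hB₂⟩
  by_cases hx0 : B₂ ^ p - 1 = 0
  · rw [hx0, norm_zero]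
    positivity
  have hxmem : B₂ ^ p - 1 ∈ fixInt p (h15s_IK p π) :=
    ⟨hx1.le, fun g hg => by rw [map_sub, map_one, h42s_gen_pow_fix hKD.pow hB₂ g hg]⟩
  obtain ⟨j, u, -, hu, hju⟩ := hdiscr _ hxmem hx0
  have hxn : ‖B₂ ^ p - 1‖ = ‖π‖ ^ j := by
    rw [hju, norm_mul, norm_pow, hu, mul_one]
  by_cases hj3 : 3 ≤ j
  · rw [hxn]
    exact pow_le_pow_of_le_one hπpos.le hπlt.le hj3
  exfalso
  have hj0 : j ≠ 0 := by
    rintro rfl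
    rw [hxn, pow_zero] at hx1
    exact lt_irrefl _ hx1
  have hpj : ¬ p ∣ j := by
    intro h
    have := Nat.le_of_dvd (Nat.pos_of_ne_zero hj0) h
    omega
  have hplt : ‖((p : ℕ) : Om p)‖ < ‖B₂ ^ p - 1‖ := by
    rw [hxn, ← hπ, norm_pow]
    refine pow_lt_pow_right_of_lt_one₀ hπpos hπlt ?_
    have : 9 ≤ p ^ 2 := by nlinarith
    omega
  have hlev := hLev p B₂ hx1 hplt
  rw [hxn] at hlev
  refine hcontra B₂ 1 j hB₂0 hB₂ (fun g _ => map_one g) hlev hpj ?_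
  rw [hB₂n, mul_one, pow_succ]
  refine mul_lt_mul_of_pos_left ?_ (pow_pos hπpos p)
  by_contra hcon
  rw [not_lt] at hcon
  have h1 : ‖B₂ - 1‖ ^ p ≤ ‖π‖ ^ p := pow_le_pow_left₀ (norm_nonneg _) hcon p
  rw [hlev] at h1
  have h2 : ‖π‖ ^ p < ‖π‖ ^ j := pow_lt_pow_right_of_lt_one₀ hπpos hπlt (by omega)
  exact absurd h1 (not_le.mpr h2)

end Fermat.Agent.S56F
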