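import Fermat.Agent.S56F.FLS3Iface_helper15
import Fermat.Agent.S56F.FLD7_helper45
import Fermat.Agent.S56F.FLC1_helper7

/-!
# S56 / LOC-p-FL, leaf FL-S3h (helper72): assembly of the Kummer side

`h72h_kumAsm : H15sKumAsm` = `H15sResolvent → H15sBound → H15sLevel → H15sResRoot → H15sKum`.

`Γ = I_K` is discrete with uniformiser `π` (`h45g_tameDiscrete`), `‖ζ - 1‖ = ‖π‖ ^ (p + 1)`
(`h7g_norm_zeta_sub_one`).  If `χ = 0` on `Γ`: `β = 1`.  Else `g₀` with `χ g₀ ≠ 0`, `z₀` from the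
bound with `t = 0`, `B₀` from the resolvent, multiplied by a power of `π` so that `‖B‖ ≤ 1`,
`‖B‖ ^ p = ‖π‖ ^ n`.  (i) `p ∤ n`: the conductor bound with `e = 0` contradicts the flat bound for
`t = ‖π‖ ^ (p + 1)`.  (ii) `n = p m`: `B₁ = B / π ^ m` is a unit, `w` a residual `p`-th root of
`B₁ ^ p`, `B₂ = B₁ / w` has `‖B₂ ^ p - 1‖ < 1`.  (iii) `B₂ ^ p - 1` is `0` or of norm `‖π‖ ^ j`,
`j ≥ 1`; for `j ≥ 3` take `β = B₂`; for `j ≤ 2` the level lemma and the conductor bound with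
`e = 1` contradict the flat bound.
-/

set_option autoImplicit false
set_option linter.style.haveILetI false

open Fermat.Agent.PT.Loc Polynomial

noncomputable section

namespace Fermat.Agent.S56F

/-- A non-zero integer fixed by `Γ` has norm `‖ϖ‖ ^ n` (discreteness). -/
theorem h72h_norm_of_fixed {p : ℕ} [Fact p.Prime] {Γ : Subgroup (Gq p)} {ϖ : Om p}
    (hD : IsDiscrete p Γ ϖ) {x : Om p} (hx0 : x ≠ 0) (hx1 : ‖x‖ ≤ 1)
    (hfix : ∀ g ∈ Γ, g x = x) : ∃ n : ℕ, ‖x‖ = ‖ϖ‖ ^ n := by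
  obtain ⟨n, u, -, hu, rfl⟩ := hD.2.2.2 x ⟨hx1, hfix⟩ hx0
  exact ⟨n, by rw [norm_mul, norm_pow, hu, mul_one]⟩

/-- The `p`-th power of a Kummer eigenvector is fixed. -/
theorem h72h_pow_fixed {p : ℕ} [Fact p.Prime] {Γ : Subgroup (Gq p)} {ζ : Om p}
    {χ : Gq p → ZMod p} (hζ : ζ ^ p = 1) {C : Om p}
    (hC : ∀ g ∈ Γ, g C = ζ ^ (χ g).val * C) : ∀ g ∈ Γ, g (C ^ p) = C ^ p := by
  intro g hg
  rw [map_pow, hC g hg, mul_pow, ← pow_mul, mul_comm _ p, pow_mul, hζ, one_pow, one_mul]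

/-- **FL-S3h.**  Assembly of the Kummer side. -/
theorem h72h_kumAsm : H15sKumAsm := by
  intro hRes hBound hLevel hRoot p _ hp2 π hπ ζ χ hKD hflat
  classical
  have hp : p.Prime := Fact.out
  have hp3 : 3 ≤ p := by
    have := hp.two_le
    omega
  have hpp : 9 ≤ p ^ 2 := by nlinarith
  have hn0 : 0 < p ^ 2 - 1 := by omega
  have hpn : ¬ p ∣ p ^ 2 - 1 := by
    intro h
    have h1 : p ∣ p ^ 2 := dvd_pow_self p (by norm_num)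
    have h2 : p ∣ p ^ 2 - (p ^ 2 - 1) := Nat.dvd_sub h1 h
    have h3 : p ^ 2 - (p ^ 2 - 1) = 1 := by omega
    rw [h3] at h2
    exact hp.one_lt.ne' (Nat.dvd_one.1 h2)
  have hD : IsDiscrete p (h15s_IK p π) π :=
    h45g_tameDiscrete p (p ^ 2 - 1) hn0 hpn π hπ (h15s_IK p π) (fun σ => Iff.rfl)
  have hπ1 : ‖π‖ < 1 := hD.2.1
  have hπ0 : π ≠ 0 := hD.2.2.1
  have hπpos : 0 < ‖π‖ := norm_pos_iff.2 hπ0
  have hπfix : ∀ g ∈ h15s_IK p π, g π = π := fun g hg => hg.2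
  have hnormp : ‖((p : ℕ) : Om p)‖ = ‖π‖ ^ (p ^ 2 - 1) := by
    rw [← hπ, norm_pow]
  -- `‖ζ - 1‖ = ‖π‖ ^ (p + 1)`
  have hζprim : IsPrimitiveRoot ζ p := by
    have h1 : orderOf ζ = p := orderOf_eq_prime hKD.pow hKD.ne
    have h2 := IsPrimitiveRoot.orderOf ζ
    rwa [h1] at h2
  have hζn : ‖ζ - 1‖ = ‖π‖ ^ (p + 1) := by
    have h1 := h7g_norm_zeta_sub_one hζprim
    rw [hnormp] at h1
    have h2 : p ^ 2 - 1 = (p + 1) * (p - 1) := by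
      have h3 : p ^ 2 = (p + 1) * (p - 1) + 1 := by
        obtain ⟨m, rfl⟩ : ∃ m, p = m + 1 := ⟨p - 1, by omega⟩
        simp only [Nat.add_sub_cancel]
        ring
      omega
    rw [h2, pow_mul] at h1
    exact (pow_left_inj₀ (norm_nonneg _) (pow_nonneg (norm_nonneg _) _) (by omega)).1 h1
  have hζnorm : ‖ζ‖ = 1 := h7g_norm_root_of_unity hp.ne_zero hKD.pow
  by_cases hχ : ∀ g ∈ h15s_IK p π, χ g = 0
  · refine ⟨1, ?_, ?_⟩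
    · rw [one_pow, sub_self, norm_zero]
      exact pow_nonneg (norm_nonneg _) _
    · intro g hg
      rw [hχ g hg, ZMod.val_zero, pow_zero, one_mul, map_one]
  push Not at hχ
  obtain ⟨g₀, hg₀, hχg₀⟩ := hχ
  have hfl := hflat g₀ hg₀ hχg₀
  -- a bound `‖g₀ z - z‖ ≤ t` with `t < ‖π‖ ^ p` is absurd
  have habs : ∀ t : ℝ, t < ‖π‖ ^ p →
      (∀ z : Om p, ‖z‖ ≤ 1 → (∀ σ ∈ h15s_IK p π, χ σ = 0 → σ z = z) → ‖g₀ z - z‖ ≤ t) →
      False := by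
    intro t ht h
    obtain ⟨z, hz1, hz2, hz3⟩ := hfl t ht
    exact absurd (h z hz1 hz2) (not_le.2 hz3)
  -- the resolvent
  obtain ⟨z₀, -, hz₀2, hz₀3⟩ := hfl 0 (pow_pos hπpos p)
  have hz₀ne : g₀ z₀ ≠ z₀ := by
    intro h
    rw [h, sub_self, norm_zero] at hz₀3
    exact lt_irrefl _ hz₀3
  obtain ⟨B₀, hB₀0, hB₀e⟩ := hRes p (h15s_IK p π) ζ χ hKD g₀ hg₀ z₀ hz₀2 hz₀ne
  -- scale to an integer
  obtain ⟨k, hk⟩ : ∃ k : ℕ, ‖B₀ * π ^ k‖ ≤ 1 := by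
    have hB₀pos : 0 < ‖B₀‖ := norm_pos_iff.2 hB₀0
    obtain ⟨k, hk⟩ := exists_pow_lt_of_lt_one (inv_pos.2 hB₀pos) hπ1
    refine ⟨k, ?_⟩
    rw [norm_mul, norm_pow]
    have h1 : ‖B₀‖ * ‖π‖ ^ k ≤ ‖B₀‖ * ‖B₀‖⁻¹ :=
      mul_le_mul_of_nonneg_left hk.le hB₀pos.le
    rwa [mul_inv_cancel₀ hB₀pos.ne'] at h1
  have hB0 : B₀ * π ^ k ≠ 0 := mul_ne_zero hB₀0 (pow_ne_zero _ hπ0)
  have hBe : ∀ g ∈ h15s_IK p π, g (B₀ * π ^ k) = ζ ^ (χ g).val * (B₀ * π ^ k) := by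
    intro g hg
    rw [map_mul, map_pow, hπfix g hg, hB₀e g hg, mul_assoc]
  obtain ⟨n, hn⟩ := h72h_norm_of_fixed hD (pow_ne_zero p hB0)
    (by rw [norm_pow]; exact pow_le_one₀ (norm_nonneg _) hk) (h72h_pow_fixed hKD.pow hBe)
  rw [norm_pow] at hn
  by_cases hpn' : p ∣ n
  swap
  · -- case (i): `p ∤ n`
    exfalso
    refine habs (‖π‖ ^ (p + 1)) (pow_lt_pow_right_of_lt_one₀ hπpos hπ1 (Nat.lt_succ_self p)) ?_
    intro z hz1 hz2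
    have h1 := hBound p (h15s_IK p π) π hD ζ χ hKD (B₀ * π ^ k) hB0 hBe 0
      (fun g _ => map_zero g) n (by rw [sub_zero]; exact hn) hpn' z hz1 hz2 g₀ hg₀
    rw [sub_zero, hζn] at h1
    exact le_of_mul_le_mul_right h1 (norm_pos_iff.2 hB0)
  -- case (ii): `n = p m`
  obtain ⟨m, rfl⟩ := hpn'
  have hπm0 : π ^ m ≠ 0 := pow_ne_zero _ hπ0
  have hBnorm : ‖B₀ * π ^ k‖ = ‖π‖ ^ m := by
    rw [mul_comm p m, pow_mul] at hn
    exact (pow_left_inj₀ (norm_nonneg _) (pow_nonneg (norm_nonneg _) _) hp.ne_zero).1 hn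
  have hB₁norm : ‖B₀ * π ^ k / π ^ m‖ = 1 := by
    rw [norm_div, hBnorm, norm_pow, div_self (pow_ne_zero _ hπpos.ne')]
  have hB₁0 : B₀ * π ^ k / π ^ m ≠ 0 := div_ne_zero hB0 hπm0
  have hB₁e : ∀ g ∈ h15s_IK p π,
      g (B₀ * π ^ k / π ^ m) = ζ ^ (χ g).val * (B₀ * π ^ k / π ^ m) := by
    intro g hg
    rw [map_div₀, hBe g hg, map_pow, hπfix g hg, mul_div_assoc]
  obtain ⟨w, hw1, hwfix, hw⟩ := hRoot p ((B₀ * π ^ k / π ^ m) ^ p)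
    (by rw [norm_pow, hB₁norm, one_pow])
  have hw0 : w ≠ 0 := by
    intro h
    rw [h, norm_zero] at hw1
    exact zero_ne_one hw1
  -- `B₂ = B₁ / w`
  obtain ⟨B₂, hB₂def⟩ : ∃ B₂ : Om p, B₂ = B₀ * π ^ k / π ^ m / w := ⟨_, rfl⟩
  have hB₂norm : ‖B₂‖ = 1 := by
    rw [hB₂def, norm_div, hB₁norm, hw1, div_one]
  have hB₂0 : B₂ ≠ 0 := by
    rw [hB₂def]
    exact div_ne_zero hB₁0 hw0
  have hB₂e : ∀ g ∈ h15s_IK p π, g B₂ = ζ ^ (χ g).val * B₂ := by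
    intro g hg
    rw [hB₂def, map_div₀, hB₁e g hg, hwfix g hg.1, mul_div_assoc]
  have hB₂lt : ‖B₂ ^ p - 1‖ < 1 := by
    have h1 : B₂ ^ p - 1 = ((B₀ * π ^ k / π ^ m) ^ p - w ^ p) / w ^ p := by
      rw [hB₂def, div_pow, sub_div, div_self (pow_ne_zero _ hw0)]
    rw [h1, norm_div, norm_pow w, hw1, one_pow, div_one]
    exact hw
  have hxfix : ∀ g ∈ h15s_IK p π, g (B₂ ^ p - 1) = B₂ ^ p - 1 := by
    intro g hg
    rw [map_sub, map_one, h72h_pow_fixed hKD.pow hB₂e g hg]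
  by_cases hx0 : B₂ ^ p - 1 = 0
  · exact ⟨B₂, by rw [hx0, norm_zero]; exact pow_nonneg (norm_nonneg _) _, hB₂e⟩
  obtain ⟨j, hj⟩ := h72h_norm_of_fixed hD hx0 hB₂lt.le hxfix
  by_cases hj3 : 3 ≤ j
  · exact ⟨B₂, by rw [hj]; exact pow_le_pow_of_le_one (norm_nonneg _) hπ1.le hj3, hB₂e⟩
  -- case `j ≤ 2`
  exfalso
  have hj0 : j ≠ 0 := by
    rintro rfl
    rw [pow_zero] at hj
    rw [hj] at hB₂lt
    exact lt_irrefl _ hB₂lt
  have hjp : ¬ p ∣ j := fun h => by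
    have := Nat.le_of_dvd (Nat.pos_of_ne_zero hj0) h
    omega
  have hlev : ‖B₂ - 1‖ ^ p = ‖π‖ ^ j := by
    rw [← hj]
    refine hLevel p B₂ hB₂lt ?_
    rw [hnormp, hj]
    exact pow_lt_pow_right_of_lt_one₀ hπpos hπ1 (by omega)
  have hy_gt : ‖π‖ < ‖B₂ - 1‖ := by
    refine lt_of_pow_lt_pow_left₀ p (norm_nonneg _) ?_
    rw [hlev]
    exact pow_lt_pow_right_of_lt_one₀ hπpos hπ1 (by omega)
  have hypos : 0 < ‖B₂ - 1‖ := lt_trans hπpos hy_gt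
  refine habs (‖π‖ ^ (p + 1) / ‖B₂ - 1‖) ?_ ?_
  · rw [div_lt_iff₀ hypos, pow_succ]
    exact mul_lt_mul_of_pos_left hy_gt (pow_pos hπpos p)
  · intro z hz1 hz2
    have h1 := hBound p (h15s_IK p π) π hD ζ χ hKD B₂ hB₂0 hB₂e 1
      (fun g _ => map_one g) j hlev hjp z hz1 hz2 g₀ hg₀
    rw [hζn, hB₂norm, mul_one] at h1
    rw [le_div_iff₀ hypos]
    exact h1

end Fermat.Agent.S56F
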