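import Fermat.Agent.S56F.FLS3Iface_helper15
import Fermat.Agent.S56F.FLO4_helper4
import Fermat.Agent.S56F.FLD1_helper45

/-!
# S56 / LOC-p-FL, row FL-S3l (helper15): the Raynaud function on `V × 𝔽_{p²}`

`h15s_rankFn_of : H15sFactor → H15sSubfield → H15sRankFn`.
-/

set_option autoImplicit false
set_option linter.style.haveILetI false

open Fermat.Agent.PT.Loc Polynomial

noncomputable section

namespace Fermat.Agent.S56F

section

variable {p : ℕ} [Fact p.Prime] {k : Type} [Field k] {V : Type} [AddCommGroup V]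
  [Module k V]

/-- `τ` is injective. -/
theorem h15s_tau_inj [Finite k] {τ : kˣ →* (Om p)ˣ} (hτ : IsTeich p τ) : Function.Injective τ := by
  classical
  letI := Fintype.ofFinite k
  rw [injective_iff_map_eq_one]
  intro a ha
  by_contra hne
  exact h7g_tau_ne_one τ hτ.1 hτ.2 hne ha

/-- `v₁, v₂` span `V`. -/
theorem h15s_span [Module.Finite k V] {v₁ v₂ : V} (hli : LinearIndependent k ![v₁, v₂])
    (hr : Module.finrank k V = 2) (w : V) : ∃ x y : k, w = x • v₁ + y • v₂ := by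
  let b := basisOfLinearIndependentOfCardEqFinrank hli (by simp [hr])
  refine ⟨b.repr w 0, b.repr w 1, ?_⟩
  have h := b.sum_repr w
  rw [Fin.sum_univ_two] at h
  simpa [b] using h.symm

/-- The fundamental character has values in `μ_{p² - 1}`. -/
theorem h15s_fund_pow {n : ℕ} {π : Om p} (hπ : π ^ n = p) (σ : Gq p) :
    (σ π / π) ^ n = 1 := by
  have hp0 : ((p : ℕ) : Om p) ≠ 0 := by
    exact_mod_cast (Fact.out : p.Prime).ne_zero
  rw [div_pow, ← map_pow, hπ, map_natCast]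
  exact div_self hp0

/-- The eigenvalue of inertia on `v₁` is a `(p² - 1)`-th root of unity. -/
theorem h15s_eig_pow [Finite k] {τ : kˣ →* (Om p)ˣ} (hτ : IsTeich p τ) {n : ℕ} {π : Om p}
    (hπ : π ^ n = p) {σ : Gq p} {a : kˣ} (ha : ((τ a : (Om p)ˣ) : Om p) = σ π / π) :
    a ^ n = 1 := by
  apply h15s_tau_inj hτ
  rw [map_pow, map_one]
  ext
  rw [Units.val_pow_eq_pow_val, ha, h15s_fund_pow hπ, Units.val_one]

/-- A primitive root of unity of every order in `Om p`. -/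
theorem h15s_exists_primitiveRoot (p : ℕ) [Fact p.Prime] (n : ℕ) (hn : 0 < n) :
    ∃ ζ : Om p, IsPrimitiveRoot ζ n := by
  haveI : NeZero ((n : ℕ) : Om p) := ⟨by exact_mod_cast hn.ne'⟩
  have hdeg : (Polynomial.cyclotomic n (Om p)).degree ≠ 0 := by
    rw [Polynomial.degree_cyclotomic]
    have h3 : Nat.totient n ≠ 0 := (Nat.totient_pos.mpr hn).ne'
    exact_mod_cast h3
  obtain ⟨ζ, hζ⟩ := IsAlgClosed.exists_root (Polynomial.cyclotomic n (Om p)) hdeg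
  exact ⟨ζ, Polynomial.isRoot_cyclotomic_iff.mp hζ⟩

end

/-- **FL-S3l**, conditional on the two algebra leaves. -/
theorem h15s_rankFn_of (hF : H15sFactor) (hS : H15sSubfield) : H15sRankFn := by
  intro p _ k _ _ _ V _ _ _ ρ hρ τ hτ π hπ v₁ v₂ hNF c hc 𝓗 h𝓗 l φ₁ h1 h2 hl
  classical
  have hp : p.Prime := Fact.out
  have hp3 : 3 ≤ p := by
    have := hp.two_le
    have := hρ.odd
    omega
  haveI : Finite V := Module.finite_of_finite k
  have hp9 : p + 6 ≤ p ^ 2 := by nlinarith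
  have hN0 : 0 < p ^ 2 - 1 := by omega
  have hpN : ¬ p ∣ p ^ 2 - 1 := by
    intro h
    have h2 : p ∣ p ^ 2 := dvd_pow_self p (by norm_num)
    have h3 : p ∣ p ^ 2 - (p ^ 2 - 1) := Nat.dvd_sub h2 h
    have h4 : p ^ 2 - (p ^ 2 - 1) = 1 := by omega
    rw [h4] at h3
    exact hp.one_lt.ne' (Nat.dvd_one.mp h3)
  have hp0 : ((p : ℕ) : Om p) ≠ 0 := by exact_mod_cast hp.ne_zero
  have hπ0 : π ≠ 0 := by
    rintro rfl
    rw [zero_pow hN0.ne'] at hπ
    exact hp0 hπ.symm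
  -- an element of order `p² - 1`
  obtain ⟨ζ₀, hζ₀⟩ := h15s_exists_primitiveRoot p (p ^ 2 - 1) hN0
  obtain ⟨σ₀, hσ₀, hσ₀π⟩ := h89f_fundSurjective p (p ^ 2 - 1) hN0 hpN π hπ ζ₀ hζ₀.pow_eq_one
  have hΨ₀ : σ₀ π / π = ζ₀ := by rw [hσ₀π, mul_div_assoc, div_self hπ0, mul_one]
  obtain ⟨a₀, ha₀, hτa₀⟩ := hNF.inert₁ σ₀ hσ₀
  have hord : orderOf a₀ = p ^ 2 - 1 := by
    rw [← orderOf_injective τ (h15s_tau_inj hτ) a₀, ← orderOf_units, hτa₀, hΨ₀]
    exact hζ₀.eq_orderOf.symm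
  obtain ⟨F, hFcard, hFmem⟩ := hS p k a₀ hord
  letI : Fintype F := Fintype.ofFinite F
  haveI : CharP F p := RingHom.charP F.subtype Subtype.coe_injective p
  have hFc : Fintype.card F = p ^ 2 := by rw [← Nat.card_eq_fintype_card]; exact hFcard
  obtain ⟨Λ, t, hfac, hΛs⟩ := hF p F k l hl
  -- the character
  let χk : Gq p → k := fun σ => φ₁ (ρ σ v₁)
  have hχk : ∀ σ ∈ inertia p, ∃ a : kˣ, ρ σ v₁ = (a : k) • v₁ ∧
      ((τ a : (Om p)ˣ) : Om p) = σ π / π ∧ χk σ = a ∧ (a : k) ∈ F := by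
    intro σ hσ
    obtain ⟨a, ha, hτa⟩ := hNF.inert₁ σ hσ
    refine ⟨a, ha, hτa, ?_, ?_⟩
    · show φ₁ (ρ σ v₁) = a
      rw [ha, map_smul, h1, smul_eq_mul, mul_one]
    · apply hFmem
      have h3 := h15s_eig_pow hτ hπ hτa
      have h4 : (a : k) ^ (p ^ 2 - 1) = 1 := by
        rw [← Units.val_pow_eq_pow_val, h3, Units.val_one]
      calc (a : k) ^ (p ^ 2) = (a : k) ^ (p ^ 2 - 1 + 1) := by congr 1; omega
        _ = a := by rw [pow_succ, h4, one_mul]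
  let χF : Gq p → Fˣ := fun σ =>
    if h : χk σ ∈ F ∧ χk σ ≠ 0 then
      Units.mk0 ⟨χk σ, h.1⟩ (fun h0 => h.2 (congrArg Subtype.val h0))
    else 1
  have hχF : ∀ σ ∈ inertia p, ((χF σ : F) : k) = χk σ := by
    intro σ hσ
    obtain ⟨a, -, -, ha, haF⟩ := hχk σ hσ
    have hc : χk σ ∈ F ∧ χk σ ≠ 0 := ⟨ha ▸ haF, ha ▸ a.ne_zero⟩
    simp only [χF, dif_pos hc, Units.val_mk0]
  have hKL : ∀ σ ∈ inertia p, ∀ w : V, φ₁ (ρ σ w) = χk σ * φ₁ w := by
    intro σ hσ w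
    obtain ⟨a, ha, -, hχa, -⟩ := hχk σ hσ
    obtain ⟨a', ha', -⟩ := hNF.inert₂ σ hσ
    obtain ⟨x, y, rfl⟩ := h15s_span hNF.indep hρ.rank w
    rw [hχa]
    simp only [map_add, map_smul, ha, ha', h1, h2, smul_eq_mul, mul_one, mul_zero, add_zero]
    ring
  -- the quotient `E = V × F`
  let lam : k →+ F := Λ.toAddMonoidHom
  let Φ : V × V →+ V × F :=
    AddMonoidHom.prodMap (AddMonoidHom.id V) (lam.comp φ₁.toAddMonoidHom)
  have hΦ : ∀ x : V × V, Φ x = (x.1, Λ (φ₁ x.2)) := fun x => rfl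
  have hΦs : Function.Surjective Φ := by
    rintro ⟨v, s⟩
    obtain ⟨x, hx⟩ := hΛs s
    refine ⟨(v, x • v₁), ?_⟩
    rw [hΦ]
    simp [h1, hx]
  have hΛmul : ∀ (a : F) (x : k), Λ ((a : k) * x) = a * Λ x := by
    intro a x
    have h3 : (a : k) * x = a • x := (Algebra.smul_def a x).symm
    rw [h3, map_smul, smul_eq_mul]
  let actE : Gq p → V × F → V × F :=
    fun σ e => (ρ σ e.1, (χF σ : F) * e.2 + Λ (φ₁ (c σ (ρ σ e.1))))
  have hΦe : ∀ σ ∈ inertia p, ∀ x, Φ (defAct ρ c σ x) = actE σ (Φ x) := by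
    intro σ hσ x
    rw [hΦ, hΦ]
    show (ρ σ x.1, Λ (φ₁ (ρ σ x.2 + c σ (ρ σ x.1)))) =
      (ρ σ x.1, (χF σ : F) * Λ (φ₁ x.2) + Λ (φ₁ (c σ (ρ σ x.1))))
    rw [map_add, map_add, hKL σ hσ, ← hχF σ hσ, hΛmul]
  have hact := h4p_isAct p ρ c hc.cocycle
  obtain ⟨𝓗E, hE, hEc⟩ := h9q_quotOrder p (inertia p) (p : Om p) (h45f_inertiaDiscrete p)
    (V × V) (defAct ρ c) hact 𝓗 (V × F) actE Φ hΦs hΦe
  -- the line
  let actS : Gq p → F → F := fun σ s => χF σ • s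
  let j : F →+ V × F := AddMonoidHom.inr V F
  have hj0 : ∀ s : F, j s = (0, s) := fun s => rfl
  have hj : Function.Injective j := fun a b h => by
    rw [hj0, hj0] at h
    exact (Prod.mk.inj h).2
  have hje : ∀ σ ∈ inertia p, ∀ s, j (actS σ s) = actE σ (j s) := by
    intro σ _ s
    rw [hj0, hj0]
    show ((0 : V), χF σ • s) = (ρ σ 0, (χF σ : F) * s + Λ (φ₁ (c σ (ρ σ 0))))
    simp [Units.smul_def]
  obtain ⟨𝓗S, hSS, hSc⟩ := h87f_subOrder p (inertia p) (V × F) actE 𝓗E F actS j hj hje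
  have hstab : ∀ a : Fˣ, 𝓗S.StableUnder (fun x => a • x) := by
    intro a g hg
    obtain ⟨f, hf, rfl⟩ := (hSS g).1 hg
    have hfΦ := (hE f).1 hf
    have ha0 : ((a : F) : k) ≠ 0 := fun h0 => a.ne_zero (Subtype.ext h0)
    let u : kˣ := Units.mk0 ((a : F) : k) ha0
    let α : (V × V) ≃+ (V × V) := DistribMulAction.toAddEquiv (V × V) u
    have hαx : ∀ x : V × V, α x = (((a : F) : k) • x.1, ((a : F) : k) • x.2) := fun x => rfl
    have hα : ∀ σ ∈ inertia p, ∀ x, α (defAct ρ c σ x) = defAct ρ c σ (α x) := by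
      intro σ _ x
      rw [hαx, hαx]
      show (((a : F) : k) • ρ σ x.1, ((a : F) : k) • (ρ σ x.2 + c σ (ρ σ x.1))) =
        (ρ σ (((a : F) : k) • x.1), ρ σ (((a : F) : k) • x.2) + c σ (ρ σ (((a : F) : k) • x.1)))
      simp only [map_smul, smul_add]
    have h3 := h𝓗.aut α hα _ hfΦ
    let fa : V × F → Om p := fun e => f (((a : F) : k) • e.1, (a : F) * e.2)
    have hfa : fa ∈ 𝓗E.carrier := by
      rw [hE]
      have h4 : fa ∘ Φ = fun x => (f ∘ Φ) (α x) := by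
        funext x
        show f (((a : F) : k) • (Φ x).1, (a : F) * (Φ x).2) = f (Φ (α x))
        rw [hΦ, hΦ, hαx]
        simp only [map_smul, smul_eq_mul, hΛmul]
      rw [h4]
      exact h3
    rw [hSS]
    refine ⟨fa, hfa, ?_⟩
    funext s
    show f (j (a • s)) = fa (j s)
    rw [hj0, hj0]
    simp [fa, Units.smul_def]
  -- rank one
  let ι : Fˣ →* kˣ := Units.map (F.subtype : F →* k)
  have hι : ∀ a : Fˣ, ((ι a : kˣ) : k) = ((a : F) : k) := fun a => rfl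
  let τF : Fˣ →* (Om p)ˣ := τ.comp ι
  have hτF : IsTeich p τF := by
    refine ⟨fun a b c h => hτ.1 (ι a) (ι b) (ι c) ?_, fun a b h => hτ.2 (ι a) (ι b) ?_⟩
    · rw [hι, hι, hι]
      exact_mod_cast congrArg Subtype.val h
    · rw [hι, hι]
      exact_mod_cast congrArg Subtype.val h
  obtain ⟨m, ⟨S, hmS⟩, hm, hX⟩ := h4o_rankOne p hρ.odd F 2 hFc F (Module.finrank_self F) actS χF
    (fun σ _ x => rfl) 𝓗S hstab (hSc (hEc h𝓗.char)) τF hτF π hπ
  have hm1 : m = 1 := by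
    have h3 := hm σ₀ hσ₀
    have h4 : ι (χF σ₀) = a₀ := by
      ext
      rw [hι, hχF σ₀ hσ₀]
      show φ₁ (ρ σ₀ v₁) = a₀
      rw [ha₀, map_smul, h1, smul_eq_mul, mul_one]
    have h5 : ζ₀ ^ m = ζ₀ ^ 1 := by
      rw [pow_one, ← hΨ₀, ← h3]
      show ((τ (ι (χF σ₀)) : (Om p)ˣ) : Om p) = σ₀ π / π
      rw [h4, hτa₀]
    have hle : m ≤ 1 + p := by
      rw [hmS]
      calc ∑ i ∈ S, p ^ (i : ℕ) ≤ ∑ i : Fin 2, p ^ (i : ℕ) :=
            Finset.sum_le_sum_of_subset (Finset.subset_univ S)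
        _ = 1 + p := by simp [Fin.sum_univ_two]
    exact hζ₀.pow_inj (by omega) (by omega) h5
  obtain ⟨X, hXm, hX0, hXn⟩ := hX 0 (by norm_num)
  obtain ⟨f, hf, hXf⟩ := (hSS X).1 hXm
  refine ⟨F, inferInstance, inferInstance, lam, t, hΛs, hfac, hFcard, f, (hE f).1 hf, ?_, ?_⟩
  · have h3 := congrFun hXf 0
    rw [hX0] at h3
    exact h3.symm
  · intro s hs
    have h3 := hXn s hs
    have h4 : (p ^ 0 * m) % (p ^ 2 - 1) = 1 := by
      rw [hm1, pow_zero, one_mul]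
      exact Nat.mod_eq_of_lt (by omega)
    rw [h4, pow_one, ← hπ, norm_pow] at h3
    have h5 : ‖X s‖ = ‖π‖ := (pow_left_inj₀ (norm_nonneg _) (norm_nonneg _) hN0.ne').mp h3
    rw [← h5, hXf]
    rfl

end Fermat.Agent.S56F
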