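import Fermat.Agent.S56F.FLS3l_helper15
import Fermat.Agent.S56F.IfaceKum
import Fermat.Agent.S56F.FLK1_helper10
import Fermat.Agent.S56F.FLK2_helper83
import Fermat.Agent.S56F.FLO07_helper7

/-!
# S56 / LOC-p-FL, row FL-S3m (helper15): assemblies of `SSOffLev3`

* `h15s_ssOffLev3_of  : H15sFlat → H15sKum → H15sZetaFix → SSOffLev3` (leaves of
  `FLS3Iface_helper15.lean`);
* `h15s_ssOffLev3_of' : H15sFlat → CondBound → H15sZetaFix → SSOffLev3` (leaves of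
  `IfaceKum.lean`, with the landed `h10g_kummerGen`, `h83k_unitNF`, `h7o_flatCont`);
* `h15s_ssFlatLevel_of : H15sFlat → SSFlatLevel` (adapter).
-/

set_option autoImplicit false
set_option linter.style.haveILetI false

open Fermat.Agent.PT.Loc Polynomial

noncomputable section

namespace Fermat.Agent.S56F

section

variable {p : ℕ} [Fact p.Prime] {k : Type} [Field k] {V : Type} [AddCommGroup V]
  [Module k V]

/-- The coordinate functional along `v₁`. -/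
theorem h15s_coord {v₁ v₂ : V} (hli : LinearIndependent k ![v₁, v₂])
    (hr : Module.finrank k V = 2) : ∃ φ₁ : V →ₗ[k] k, φ₁ v₁ = 1 ∧ φ₁ v₂ = 0 := by
  let b := basisOfLinearIndependentOfCardEqFinrank hli (by simp [hr])
  have hb0 : b 0 = v₁ := by simp [b]
  have hb1 : b 1 = v₂ := by simp [b]
  refine ⟨b.coord 0, ?_, ?_⟩
  · rw [← hb0]
    simp [Module.Basis.coord_apply]
  · rw [← hb1]
    simp [Module.Basis.coord_apply]

/-- `ρ` is trivial on `I_K`. -/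
theorem h15s_rho_IK [Finite k] [Module.Finite k V] {ρ : Gq p →* Module.End k V} (hρ : LocHyp p ρ) {τ : kˣ →* (Om p)ˣ}
    (hτ : IsTeich p τ) {π : Om p} (hπ0 : π ≠ 0) {v₁ v₂ : V} (hNF : SSNF p ρ τ π v₁ v₂)
    {g : Gq p} (hg : g ∈ h15s_IK p π) : ρ g = 1 := by
  have hΨ : g π / π = 1 := by rw [hg.2, div_self hπ0]
  obtain ⟨a, ha, hτa⟩ := hNF.inert₁ g hg.1
  obtain ⟨a', ha', hτa'⟩ := hNF.inert₂ g hg.1
  have h1 : a = 1 := by
    apply h15s_tau_inj hτ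
    rw [map_one]
    ext
    rw [hτa, hΨ, Units.val_one]
  have h2 : a' = 1 := by
    apply h15s_tau_inj hτ
    rw [map_one]
    ext
    rw [hτa', hΨ, one_pow, Units.val_one]
  rw [h1, Units.val_one, one_smul] at ha
  rw [h2, Units.val_one, one_smul] at ha'
  apply LinearMap.ext
  intro w
  obtain ⟨x, y, rfl⟩ := h15s_span hNF.indep hρ.rank w
  simp only [map_add, map_smul, ha, ha', Module.End.one_apply]

/-- A cocycle is additive on `I_K`. -/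
theorem h15s_c_add [Finite k] [Module.Finite k V] {ρ : Gq p →* Module.End k V} (hρ : LocHyp p ρ) {τ : kˣ →* (Om p)ˣ}
    (hτ : IsTeich p τ) {π : Om p} (hπ0 : π ≠ 0) {v₁ v₂ : V} (hNF : SSNF p ρ τ π v₁ v₂)
    {c : Gq p → Module.End k V} (hc : ∀ σ τ : Gq p, c (σ * τ) = c σ + ρ σ * c τ * ρ σ⁻¹)
    {g h : Gq p} (hg : g ∈ h15s_IK p π) : c (g * h) = c g + c h := by
  rw [hc, h15s_rho_IK hρ hτ hπ0 hNF hg, h15s_rho_IK hρ hτ hπ0 hNF ((h15s_IK p π).inv_mem hg),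
    one_mul, mul_one]

end

/-- The adapter to the statement of `IfaceKum.lean`. -/
theorem h15s_ssFlatLevel_of (hFl : H15sFlat) : SSFlatLevel := by
  intro p _ k _ _ _ V _ _ _ ρ hρ τ hτ π hπ v₁ v₂ hNF c hc μ hμ l g hg hne t ht
  obtain ⟨φ₁, h1, h2⟩ := h15s_coord hNF.indep hρ.rank
  have hφ : ∀ s ∈ IK p π, φ₁ (c s v₂) = μ s := by
    intro s hs
    obtain ⟨b', hb'⟩ := hμ s hs
    rw [hb', map_add, map_smul, map_smul, h1, h2, smul_eq_mul, smul_eq_mul, mul_one, mul_zero,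
      add_zero]
  have hg' : g ∈ h15s_IK p π := hg
  obtain ⟨z, hz1, hz2, hz3⟩ := hFl p k V ρ hρ τ hτ π hπ v₁ v₂ hNF c hc l φ₁ h1 h2 g hg'
    (by rw [hφ g hg]; exact hne) t ht
  refine ⟨z, hz1, fun s hs h0 => hz2 s hs ?_, hz3⟩
  rw [hφ s hs]
  exact h0

/-- **FL-S3**, assembled from the leaves of `FLS3Iface_helper15.lean`. -/
theorem h15s_ssOffLev3_of (hFl : H15sFlat) (hK : H15sKum) (hZ : H15sZetaFix) : SSOffLev3 := by
  intro p _ k _ _ _ V _ _ _ ρ hρ τ hτ π hπ v₁ v₂ hNF c hc ζ hζ hζ1 l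
  have hp : p.Prime := Fact.out
  have hp0 : ((p : ℕ) : Om p) ≠ 0 := by exact_mod_cast hp.ne_zero
  have hN0 : p ^ 2 - 1 ≠ 0 := by
    have := hp.two_le
    have : 4 ≤ p ^ 2 := by nlinarith
    omega
  have hπ0 : π ≠ 0 := by
    rintro rfl
    rw [zero_pow hN0] at hπ
    exact hp0 hπ.symm
  obtain ⟨φ₁, h1, h2⟩ := h15s_coord hNF.indep hρ.rank
  let χ : Gq p → ZMod p := fun g => l (φ₁ (c g v₂))
  have hKD : h15s_KD p (h15s_IK p π) ζ χ :=
    ⟨hζ, hζ1, fun g hg => hZ p hρ.odd π hπ ζ hζ g hg, fun g hg h _ => by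
      show l (φ₁ (c (g * h) v₂)) = l (φ₁ (c g v₂)) + l (φ₁ (c h v₂))
      rw [h15s_c_add hρ hτ hπ0 hNF hc.cocycle hg, LinearMap.add_apply, map_add, map_add]⟩
  obtain ⟨β, hβ1, hβ2⟩ := hK p hρ.odd π hπ ζ χ hKD (fun g₀ hg₀ hne t ht =>
    hFl p k V ρ hρ τ hτ π hπ v₁ v₂ hNF c hc l φ₁ h1 h2 g₀ hg₀ hne t ht)
  refine ⟨β, hβ1, fun g hg hgπ b hb => ?_⟩
  have h3 := hβ2 g ⟨hg, hgπ⟩
  have h4 : χ g = l b := by
    show l (φ₁ (c g v₂)) = l b
    rw [hb, map_smul, h1, smul_eq_mul, mul_one]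
  rw [h4] at h3
  exact h3

/-- **FL-S3**, assembled from the leaves of `IfaceKum.lean`. -/
theorem h15s_ssOffLev3_of' (hFl : H15sFlat) (hC : CondBound) (hZ : H15sZetaFix) :
    SSOffLev3 := by
  intro p _ k _ _ _ V _ _ _ ρ hρ τ hτ π hπ v₁ v₂ hNF c hc ζ hζ hζ1 l
  have hp : p.Prime := Fact.out
  have hp3 : 3 ≤ p := by
    have := hp.two_le
    have := hρ.odd
    omega
  have hp0 : ((p : ℕ) : Om p) ≠ 0 := by exact_mod_cast hp.ne_zero
  have hp9 : p + 6 ≤ p ^ 2 := by nlinarith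
  have hN0 : 0 < p ^ 2 - 1 := by omega
  have hpN : ¬ p ∣ p ^ 2 - 1 := by
    intro h
    have h2 : p ∣ p ^ 2 := dvd_pow_self p (by norm_num)
    have h3 : p ∣ p ^ 2 - (p ^ 2 - 1) := Nat.dvd_sub h2 h
    have h4 : p ^ 2 - (p ^ 2 - 1) = 1 := by omega
    rw [h4] at h3
    exact hp.one_lt.ne' (Nat.dvd_one.mp h3)
  have hfac : p ^ 2 - 1 = (p - 1) * (p + 1) := by
    obtain ⟨q, rfl⟩ : ∃ q, p = q + 1 := ⟨p - 1, by omega⟩
    simp only [Nat.add_sub_cancel]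
    have : (q + 1) ^ 2 = q * (q + 1 + 1) + 1 := by ring
    omega
  have hdvd : (p - 1) ∣ p ^ 2 - 1 := ⟨p + 1, hfac⟩
  have hdiv : (p ^ 2 - 1) / (p - 1) = p + 1 := by
    rw [hfac]
    exact Nat.mul_div_cancel_left _ (by omega)
  have hπ0 : π ≠ 0 := by
    rintro rfl
    rw [zero_pow hN0.ne'] at hπ
    exact hp0 hπ.symm
  have hπpos : 0 < ‖π‖ := norm_pos_iff.mpr hπ0
  have hπlt : ‖π‖ < 1 := by
    by_contra hge
    rw [not_lt] at hge
    have h3 : 1 ≤ ‖π‖ ^ (p ^ 2 - 1) := one_le_pow₀ hge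
    rw [← norm_pow, hπ, h7g_norm_p] at h3
    have h4 : ((p : ℝ))⁻¹ < 1 := inv_lt_one_of_one_lt₀ (by exact_mod_cast hp.one_lt)
    linarith
  obtain ⟨φ₁, h1, h2⟩ := h15s_coord hNF.indep hρ.rank
  let χ : Gq p → ZMod p := fun g => l (φ₁ (c g v₂))
  have hχb : ∀ (g : Gq p) (b : k), c g v₂ = b • v₁ → χ g = l b := by
    intro g b hb
    show l (φ₁ (c g v₂)) = l b
    rw [hb, map_smul, h1, smul_eq_mul, mul_one]
  have hc1 : c 1 = 0 := by
    have h3 := hc.cocycle 1 1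
    simp only [mul_one, map_one, inv_one, one_mul] at h3
    exact left_eq_add.mp h3
  have hKc : IsKChar p π χ := by
    refine ⟨fun g hg h _ => ?_, ?_⟩
    · show l (φ₁ (c (g * h) v₂)) = l (φ₁ (c g v₂)) + l (φ₁ (c h v₂))
      have hg' : g ∈ h15s_IK p π := hg
      rw [h15s_c_add hρ hτ hπ0 hNF hc.cocycle hg', LinearMap.add_apply, map_add, map_add]
    · obtain ⟨F, hFfd, -, hF⟩ := h7o_flatCont p k V ρ c hc
      refine ⟨F, hFfd, fun s _ hs => ?_⟩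
      have h3 := hF 1 (Subgroup.one_mem _) s hs
      rw [one_mul, hc1] at h3
      show l (φ₁ (c s v₂)) = 0
      rw [h3, LinearMap.zero_apply, map_zero, map_zero]
  have hZ' : ∀ g ∈ IK p π, g ζ = ζ := fun g hg => hZ p hρ.odd π hπ ζ hζ g hg
  by_cases hχ : ∀ g ∈ h15s_IK p π, χ g = 0
  · refine ⟨1, ?_, fun g hg hgπ b hb => ?_⟩
    · rw [one_pow, sub_self, norm_zero]
      positivity
    · have h3 := hχ g ⟨hg, hgπ⟩
      rw [hχb g b hb] at h3
      rw [h3, ZMod.val_zero, pow_zero, one_mul]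
      exact map_one g
  · push Not at hχ
    obtain ⟨g₀, hg₀, hne⟩ := hχ
    obtain ⟨β₀, hβ₀0, hβ₀⟩ := h10g_kummerGen p π ζ hζ hZ' χ hKc
    have hbfix : ∀ g ∈ IK p π, g (β₀ ^ p) = β₀ ^ p := by
      intro g hg
      rw [map_pow, hβ₀ g hg, mul_pow, ← pow_mul, mul_comm _ p, pow_mul, hζ, one_pow, one_mul]
    obtain ⟨m, c', u, hm, hc'0, hc'fix, hufix, hu1, hb⟩ :=
      h83k_unitNF p (p ^ 2 - 1) hN0 hpN π hπ (β₀ ^ p) (pow_ne_zero p hβ₀0) hbfix
    have hβ : ∀ g ∈ IK p π, g (β₀ / c') = ζ ^ (χ g).val * (β₀ / c') := by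
      intro g hg
      rw [map_div₀, hβ₀ g hg, hc'fix g hg, mul_div_assoc]
    have hβp : (β₀ / c') ^ p = π ^ m * u := by
      rw [div_pow, hb]
      field_simp
    by_cases hcase : m ≠ 0 ∨ ‖π‖ ^ 3 < ‖u - 1‖
    · exfalso
      have hbound := hC p hρ.odd (p ^ 2 - 1) hN0 hpN hdvd π hπ ζ hζ hζ1 χ hKc (β₀ / c') u m hβ
        hm hufix hu1 hβp hcase g₀ hg₀
      have hexp : p * ((p ^ 2 - 1) / (p - 1)) - 2 = p ^ 2 + p - 2 := by
        rw [hdiv]
        have : p * (p + 1) = p ^ 2 + p := by ring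
        omega
      obtain ⟨y, hy⟩ := IsAlgClosed.exists_pow_nat_eq (π ^ (p ^ 2 + p - 2)) hp.pos
      have hyp : ‖y‖ ^ p = ‖π‖ ^ (p ^ 2 + p - 2) := by rw [← norm_pow, hy, norm_pow]
      have hylt : ‖y‖ < ‖π‖ ^ p := by
        by_contra hge
        rw [not_lt] at hge
        have h3 : (‖π‖ ^ p) ^ p ≤ ‖y‖ ^ p := pow_le_pow_left₀ (by positivity) hge p
        rw [hyp, ← pow_mul] at h3
        have h4 : ‖π‖ ^ (p ^ 2 + p - 2) < ‖π‖ ^ (p * p) :=
          pow_lt_pow_right_of_lt_one₀ hπpos hπlt (by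
            have : p * p = p ^ 2 := by ring
            omega)
        linarith
      obtain ⟨z, hz1, hz2, hz3⟩ := hFl p k V ρ hρ τ hτ π hπ v₁ v₂ hNF c hc l φ₁ h1 h2 g₀ hg₀ hne
        ‖y‖ hylt
      have h5 := hbound z hz1 hz2
      rw [hexp, ← hyp] at h5
      have h6 := pow_lt_pow_left₀ hz3 (norm_nonneg _) hp.ne_zero
      linarith
    · push Not at hcase
      obtain ⟨hm0, hu3⟩ := hcase
      refine ⟨β₀ / c', ?_, fun g hg hgπ b hb' => ?_⟩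
      · rw [hβp, hm0, pow_zero, one_mul]
        exact hu3
      · have h3 := hβ g ⟨hg, hgπ⟩
        rw [hχb g b hb'] at h3
        exact h3

end Fermat.Agent.S56F
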