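import Fermat.Agent.S56F.FLS4Iface_helper89
import Fermat.Agent.S56F.FLO2_helper89

/-!
# S56 / LOC-p-FL, leaf FL-S4 (helper89, prefix `h89s_`): the supersingular count, assembly

`h89s_ssCount_of : H89SSKum → SSCount`.

* `h89s_core` (Mathlib only): in the supersingular normal form a trace-zero cocycle with zero
  diagonal on the stabiliser of the two lines whose `(1,2)`-entry vanishes on `I_K` is a
  coboundary.
* assembly: `W = B¹` or `W = B¹ + k f₀`; for `f` in `SSCond` the Kummer count `H89SSKum` gives `c`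
  with `(f - c f₀)₁₂ = 0` on `I_K`, so `f - c f₀ ∈ B¹`.
-/

set_option autoImplicit false
set_option linter.unusedSectionVars false
set_option linter.unusedSimpArgs false
set_option linter.style.haveILetI false

open Fermat.Agent.PT.Loc Polynomial Matrix

noncomputable section

namespace Fermat.Agent.S56F

section Core

variable {k : Type} [Field k] {G : Type} [Group G]

/-- diagonal `2 × 2` matrices -/
def h89s_IsDiag (P : Matrix (Fin 2) (Fin 2) k) : Prop := P 1 0 = 0 ∧ P 0 1 = 0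

/-- antidiagonal `2 × 2` matrices -/
def h89s_IsAnti (P : Matrix (Fin 2) (Fin 2) k) : Prop := P 0 0 = 0 ∧ P 1 1 = 0

theorem h89s_mul_apply (A B : Matrix (Fin 2) (Fin 2) k) (i j : Fin 2) :
    (A * B) i j = A i 0 * B 0 j + A i 1 * B 1 j := by
  rw [Matrix.mul_apply, Fin.sum_univ_two]

theorem h89s_ext {A B : Matrix (Fin 2) (Fin 2) k} (h00 : A 0 0 = B 0 0) (h01 : A 0 1 = B 0 1)
    (h10 : A 1 0 = B 1 0) (h11 : A 1 1 = B 1 1) : A = B := by
  ext i j
  fin_cases i <;> fin_cases j <;> assumption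

/-- A multiplicative family of matrices. -/
structure h89s_Rep (P : G → Matrix (Fin 2) (Fin 2) k) : Prop where
  one : P 1 = 1
  mul : ∀ σ τ, P (σ * τ) = P σ * P τ

namespace h89s_Rep

variable {P : G → Matrix (Fin 2) (Fin 2) k} (hP : h89s_Rep P)
include hP

theorem mul_inv (σ : G) : P σ * P σ⁻¹ = 1 := by
  rw [← hP.mul, mul_inv_cancel, hP.one]

theorem inv_mul (σ : G) : P σ⁻¹ * P σ = 1 := by
  rw [← hP.mul, inv_mul_cancel, hP.one]

theorem cancel (σ : G) {A B : Matrix (Fin 2) (Fin 2) k} (h : A * P σ = B * P σ) : A = B := by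
  have := congrArg (· * P σ⁻¹) h
  simpa [Matrix.mul_assoc, hP.mul_inv] using this

theorem diag_ne (σ : G) (h : h89s_IsDiag (P σ)) : P σ 0 0 ≠ 0 ∧ P σ 1 1 ≠ 0 := by
  have h1 := hP.mul_inv σ
  have e00 := congrFun (congrFun h1 0) 0
  have e11 := congrFun (congrFun h1 1) 1
  rw [h89s_mul_apply] at e00 e11
  rw [h.2] at e00
  rw [h.1] at e11
  simp only [zero_mul, add_zero, zero_add, Matrix.one_apply_eq] at e00 e11
  exact ⟨left_ne_zero_of_mul_eq_one e00, left_ne_zero_of_mul_eq_one e11⟩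

theorem anti_ne (σ : G) (h : h89s_IsAnti (P σ)) : P σ 0 1 ≠ 0 ∧ P σ 1 0 ≠ 0 := by
  have h1 := hP.mul_inv σ
  have e00 := congrFun (congrFun h1 0) 0
  have e11 := congrFun (congrFun h1 1) 1
  rw [h89s_mul_apply] at e00 e11
  rw [h.1] at e00
  rw [h.2] at e11
  simp only [zero_mul, add_zero, zero_add, Matrix.one_apply_eq] at e00 e11
  exact ⟨left_ne_zero_of_mul_eq_one e00, left_ne_zero_of_mul_eq_one e11⟩

end h89s_Rep

/-- The coboundary of `X`, in matrix form. -/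
def h89s_cob (P : G → Matrix (Fin 2) (Fin 2) k) (X : Matrix (Fin 2) (Fin 2) k) (σ : G) :
    Matrix (Fin 2) (Fin 2) k :=
  X - P σ * X * P σ⁻¹

theorem h89s_cob_mul {P : G → Matrix (Fin 2) (Fin 2) k} (hP : h89s_Rep P)
    (X : Matrix (Fin 2) (Fin 2) k) (σ : G) :
    h89s_cob P X σ * P σ = X * P σ - P σ * X := by
  unfold h89s_cob
  rw [Matrix.sub_mul, Matrix.mul_assoc, hP.inv_mul, Matrix.mul_one]

/-- The cocycle conditions used below. -/
structure h89s_Coc (P : G → Matrix (Fin 2) (Fin 2) k) (F : G → Matrix (Fin 2) (Fin 2) k) :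
    Prop where
  coc : ∀ σ τ, F (σ * τ) * P σ = F σ * P σ + P σ * F τ
  tr : ∀ σ, F σ 0 0 + F σ 1 1 = 0
  diag : ∀ σ, h89s_IsDiag (P σ) → F σ 0 0 = 0

theorem h89s_cob_coc {P : G → Matrix (Fin 2) (Fin 2) k} (hP : h89s_Rep P)
    (X : Matrix (Fin 2) (Fin 2) k) : h89s_Coc P (h89s_cob P X) := by
  refine ⟨fun σ τ => ?_, fun σ => ?_, fun σ hσ => ?_⟩
  · rw [h89s_cob_mul hP, h89s_cob]
    unfold h89s_cob
    rw [hP.mul, _root_.mul_inv_rev, hP.mul]
    have h1 : P σ * P τ * X * (P τ⁻¹ * P σ⁻¹) * P σ = P σ * (P τ * X * P τ⁻¹) := by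
      simp only [Matrix.mul_assoc]
      rw [hP.inv_mul, Matrix.mul_one]
    rw [Matrix.sub_mul, h1, Matrix.mul_sub]
    abel
  · have h1 : (h89s_cob P X σ).trace = 0 := by
      unfold h89s_cob
      rw [Matrix.trace_sub, Matrix.trace_mul_cycle, hP.inv_mul, Matrix.one_mul, sub_self]
    rw [Matrix.trace_fin_two] at h1
    exact h1
  · have h1 := congrFun (congrFun (h89s_cob_mul hP X σ) 0) 0
    simp only [h89s_mul_apply, Matrix.sub_apply, hσ.1, hσ.2, mul_zero, zero_mul, add_zero] at h1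
    have h2 : h89s_cob P X σ 0 0 * P σ 0 0 = 0 := by rw [h1]; ring
    exact (mul_eq_zero.mp h2).resolve_right (hP.diag_ne σ hσ).1

theorem h89s_Coc.sub {P : G → Matrix (Fin 2) (Fin 2) k} {F F' : G → Matrix (Fin 2) (Fin 2) k}
    (h : h89s_Coc P F) (h' : h89s_Coc P F') : h89s_Coc P (fun σ => F σ - F' σ) := by
  refine ⟨fun σ τ => ?_, fun σ => ?_, fun σ hσ => ?_⟩
  · simp only [Matrix.sub_mul, Matrix.mul_sub, h.coc, h'.coc]
    abel
  · simp only [Matrix.sub_apply]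
    linear_combination h.tr σ - h'.tr σ
  · simp only [Matrix.sub_apply, h.diag σ hσ, h'.diag σ hσ, sub_self]

/-- Conjugation formula on a normal subgroup on which `P` is trivial. -/
theorem h89s_conj {P : G → Matrix (Fin 2) (Fin 2) k} (N : Subgroup G)
    (hN : ∀ g ∈ N, P g = 1) (hNn : ∀ s : G, ∀ g ∈ N, s * g * s⁻¹ ∈ N)
    {F : G → Matrix (Fin 2) (Fin 2) k} (hF : h89s_Coc P F) (s : G) {g : G} (hg : g ∈ N) :
    F (s * g * s⁻¹) * P s = P s * F g := by
  have h1 := hF.coc (s * g * s⁻¹) s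
  rw [hN _ (hNn s g hg), Matrix.mul_one, Matrix.mul_one, Matrix.one_mul] at h1
  have h2 := hF.coc s g
  have h3 : s * g * s⁻¹ * s = s * g := by group
  rw [h3] at h1
  rw [h1, Matrix.add_mul] at h2
  have h4 : F (s * g * s⁻¹) * P s + F s * P s = F s * P s + P s * F g := h2
  exact add_left_cancel (a := F s * P s) (by rw [← h4]; abel)

theorem h89s_Coc.smul {P : G → Matrix (Fin 2) (Fin 2) k} {F : G → Matrix (Fin 2) (Fin 2) k}
    (h : h89s_Coc P F) (c : k) : h89s_Coc P (fun σ => c • F σ) := by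
  refine ⟨fun σ τ => ?_, fun σ => ?_, fun σ hσ => ?_⟩
  · simp only [Matrix.smul_mul, Matrix.mul_smul, h.coc, smul_add]
  · simp only [Matrix.smul_apply, smul_eq_mul]
    linear_combination c * h.tr σ
  · simp only [Matrix.smul_apply, smul_eq_mul, h.diag σ hσ, mul_zero]

/-- **Lemma A.**  A cocycle vanishing on `I` is the coboundary of a diagonal matrix. -/
theorem h89s_lemA (h2 : (2 : k) ≠ 0) {P : G → Matrix (Fin 2) (Fin 2) k} (hP : h89s_Rep P)
    (I : Subgroup G) (hIn : ∀ s : G, ∀ σ ∈ I, s⁻¹ * σ * s ∈ I)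
    (hswap : ∀ σ, h89s_IsDiag (P σ) ∨ h89s_IsAnti (P σ))
    (σ₀ : G) (hσ₀ : σ₀ ∈ I) (hσ₀d : h89s_IsDiag (P σ₀)) (hσ₀' : P σ₀ 0 0 ≠ P σ₀ 1 1)
    (φ₀ : G) (hφ₀ : h89s_IsAnti (P φ₀))
    {F : G → Matrix (Fin 2) (Fin 2) k} (hF : h89s_Coc P F) (hFI : ∀ σ ∈ I, F σ = 0) :
    ∃ Y : Matrix (Fin 2) (Fin 2) k, Y 0 0 + Y 1 1 = 0 ∧ ∀ σ, F σ = h89s_cob P Y σ := by
  -- `F s` commutes with `P σ₀`
  have hcomm : ∀ s, F s * P σ₀ = P σ₀ * F s := by
    intro s
    have h1 := hF.coc σ₀ s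
    rw [hFI σ₀ hσ₀, Matrix.zero_mul, zero_add] at h1
    have h3 := hF.coc s (s⁻¹ * σ₀ * s)
    rw [hFI _ (hIn s σ₀ hσ₀), Matrix.mul_zero, add_zero] at h3
    have h4 : s * (s⁻¹ * σ₀ * s) = σ₀ * s := by group
    rw [h4] at h3
    have h5 := hP.cancel s h3
    rw [← h1, h5]
  -- hence `F s` is diagonal
  have hdiag : ∀ s, F s 0 1 = 0 ∧ F s 1 0 = 0 := by
    intro s
    have e01 := congrFun (congrFun (hcomm s) 0) 1
    have e10 := congrFun (congrFun (hcomm s) 1) 0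
    simp only [h89s_mul_apply, hσ₀d.1, hσ₀d.2, mul_zero, zero_mul, add_zero, zero_add]
      at e01 e10
    constructor
    · have : F s 0 1 * (P σ₀ 1 1 - P σ₀ 0 0) = 0 := by linear_combination e01
      exact (mul_eq_zero.mp this).resolve_right (sub_ne_zero.mpr (Ne.symm hσ₀'))
    · have : F s 1 0 * (P σ₀ 0 0 - P σ₀ 1 1) = 0 := by linear_combination e10
      exact (mul_eq_zero.mp this).resolve_right (sub_ne_zero.mpr hσ₀')
  -- `F` vanishes on the diagonal type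
  have hzero : ∀ s, h89s_IsDiag (P s) → F s = 0 := by
    intro s hs
    have h00 := hF.diag s hs
    have h11 : F s 1 1 = 0 := by have := hF.tr s; rw [h00, zero_add] at this; exact this
    exact h89s_ext h00 (hdiag s).1 (hdiag s).2 h11
  obtain ⟨e, he⟩ : ∃ e : k, e = F φ₀ 0 0 := ⟨_, rfl⟩
  obtain ⟨Y, hY⟩ : ∃ Y : Matrix (Fin 2) (Fin 2) k, Y = !![e / 2, 0; 0, -(e / 2)] := ⟨_, rfl⟩
  have hY00 : Y 0 0 = e / 2 := by rw [hY]; rfl
  have hY01 : Y 0 1 = 0 := by rw [hY]; rfl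
  have hY10 : Y 1 0 = 0 := by rw [hY]; rfl
  have hY11 : Y 1 1 = -(e / 2) := by rw [hY]; rfl
  have hYc := h89s_cob_coc hP Y
  -- the coboundary of `Y` vanishes on the diagonal type
  have hYd : ∀ s, h89s_IsDiag (P s) → h89s_cob P Y s = 0 := by
    intro s hs
    apply hP.cancel s
    rw [h89s_cob_mul hP, Matrix.zero_mul]
    apply h89s_ext <;>
      simp only [h89s_mul_apply, Matrix.sub_apply, Matrix.zero_apply, hs.1, hs.2, hY00, hY01,
        hY10, hY11] <;> ring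
  -- at `φ₀`
  have hYφ : h89s_cob P Y φ₀ = F φ₀ := by
    apply hP.cancel φ₀
    rw [h89s_cob_mul hP]
    have h11 : F φ₀ 1 1 = -e := by have := hF.tr φ₀; rw [he]; linear_combination this
    apply h89s_ext <;>
      simp only [h89s_mul_apply, Matrix.sub_apply, hφ₀.1, hφ₀.2, hY00, hY01, hY10, hY11,
        (hdiag φ₀).1, (hdiag φ₀).2, h11, ← he] <;> field_simp <;> ring
  refine ⟨Y, by rw [hY00, hY11]; ring, fun s => ?_⟩
  have hD := hF.sub hYc
  rcases hswap s with hs | hs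
  · rw [hzero s hs, hYd s hs]
  · -- `φ₀⁻¹ s` is of diagonal type
    have hds : h89s_IsDiag (P (φ₀⁻¹ * s)) := by
      have hQ : h89s_IsAnti (P φ₀⁻¹) := by
        have h1 := hP.mul_inv φ₀
        have hne := hP.anti_ne φ₀ hφ₀
        have e01 := congrFun (congrFun h1 0) 1
        have e10 := congrFun (congrFun h1 1) 0
        simp only [h89s_mul_apply, hφ₀.1, hφ₀.2, zero_mul, mul_zero, add_zero, zero_add,
          Matrix.one_apply_ne (show (0 : Fin 2) ≠ 1 by decide),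
          Matrix.one_apply_ne (show (1 : Fin 2) ≠ 0 by decide)] at e01 e10
        exact ⟨(mul_eq_zero.mp e10).resolve_left hne.2, (mul_eq_zero.mp e01).resolve_left hne.1⟩
      rw [hP.mul]
      constructor <;> simp only [h89s_mul_apply, hQ.1, hQ.2, hs.1, hs.2] <;> ring
    have h1 := hD.coc φ₀ (φ₀⁻¹ * s)
    simp only [hzero _ hds, hYd _ hds, hYφ, sub_self, Matrix.zero_mul, Matrix.mul_zero,
      add_zero] at h1
    rw [mul_inv_cancel_left] at h1
    have h5 := hP.cancel φ₀ (h1.trans (Matrix.zero_mul (P φ₀)).symm)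
    exact sub_eq_zero.mp h5

/-- **Lemma B.**  A cocycle whose `(0,1)`-entry vanishes on `N` is, on `I`, the coboundary of an
off-diagonal matrix. -/
theorem h89s_lemB {P : G → Matrix (Fin 2) (Fin 2) k} (hP : h89s_Rep P)
    (I N : Subgroup G) (hI : ∀ σ ∈ I, h89s_IsDiag (P σ)) (hN : ∀ g ∈ N, P g = 1)
    (hNn : ∀ s : G, ∀ g ∈ N, s * g * s⁻¹ ∈ N)
    (hcomm : ∀ σ ∈ I, ∀ τ ∈ I, σ⁻¹ * τ⁻¹ * σ * τ ∈ N)
    (σ₀ : G) (hσ₀ : σ₀ ∈ I) (hσ₀' : P σ₀ 0 0 ≠ P σ₀ 1 1)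
    (φ₀ : G) (hφ₀ : h89s_IsAnti (P φ₀))
    {F : G → Matrix (Fin 2) (Fin 2) k} (hF : h89s_Coc P F) (hzero : ∀ g ∈ N, F g 0 1 = 0) :
    ∃ X : Matrix (Fin 2) (Fin 2) k, X 0 0 + X 1 1 = 0 ∧ ∀ σ ∈ I, F σ = h89s_cob P X σ := by
  have hdiag1 : h89s_IsDiag (1 : Matrix (Fin 2) (Fin 2) k) := ⟨by simp, by simp⟩
  -- conjugation formula
  have hconj : ∀ s : G, ∀ g ∈ N, F (s * g * s⁻¹) * P s = P s * F g := by
    intro s g hg
    have h1 := hF.coc (s * g * s⁻¹) s
    rw [hN _ (hNn s g hg), Matrix.mul_one, Matrix.mul_one, Matrix.one_mul] at h1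
    have h2 := hF.coc s g
    have h3 : s * g * s⁻¹ * s = s * g := by group
    rw [h3] at h1
    rw [h1, Matrix.add_mul] at h2
    have h4 : F (s * g * s⁻¹) * P s + F s * P s = F s * P s + P s * F g := h2
    exact add_left_cancel (a := F s * P s) (by rw [← h4]; abel)
  -- `F` vanishes on `N`
  have hFN : ∀ g ∈ N, F g = 0 := by
    intro g hg
    have hd : ∀ g ∈ N, F g 0 0 = 0 ∧ F g 1 1 = 0 := by
      intro g hg
      have h00 := hF.diag g (by rw [hN g hg]; exact hdiag1)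
      have := hF.tr g
      rw [h00, zero_add] at this
      exact ⟨h00, this⟩
    have hne := hP.anti_ne φ₀ hφ₀
    have h1 := hconj φ₀ g hg
    have hg' := hNn φ₀ g hg
    have e00 := congrFun (congrFun h1 0) 0
    simp only [h89s_mul_apply, hφ₀.1, hφ₀.2, (hd _ hg').1, hzero _ hg', (hd g hg).1, mul_zero,
      zero_mul, add_zero, zero_add] at e00
    have h10 : F g 1 0 = 0 := (mul_eq_zero.mp e00.symm).resolve_left hne.1
    exact h89s_ext (hd g hg).1 (hzero g hg) h10 (hd g hg).2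
  -- `F (σ τ) = F (τ σ)` on `I`
  have hsym : ∀ σ ∈ I, ∀ τ ∈ I, F (σ * τ) = F (τ * σ) := by
    intro σ hσ τ hτ
    have h1 := hF.coc (τ * σ) (σ⁻¹ * τ⁻¹ * σ * τ)
    rw [hFN _ (hcomm σ hσ τ hτ), Matrix.mul_zero, add_zero] at h1
    have h3 : τ * σ * (σ⁻¹ * τ⁻¹ * σ * τ) = σ * τ := by group
    rw [h3] at h1
    exact hP.cancel _ h1
  -- entries on `I`
  have hent : ∀ σ ∈ I, F σ 0 0 = 0 ∧ F σ 1 1 = 0 := by
    intro σ hσ
    have h00 := hF.diag σ (hI σ hσ)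
    have := hF.tr σ
    rw [h00, zero_add] at this
    exact ⟨h00, this⟩
  have hd₀ := hI σ₀ hσ₀
  have hne₀ := hP.diag_ne σ₀ hd₀
  have hsub : P σ₀ 0 0 - P σ₀ 1 1 ≠ 0 := sub_ne_zero.mpr hσ₀'
  obtain ⟨y, hy⟩ : ∃ y : k, y = F σ₀ 0 1 * P σ₀ 1 1 / (P σ₀ 0 0 - P σ₀ 1 1) := ⟨_, rfl⟩
  obtain ⟨y', hy'⟩ : ∃ y' : k, y' = F σ₀ 1 0 * P σ₀ 0 0 / (P σ₀ 1 1 - P σ₀ 0 0) := ⟨_, rfl⟩
  have hkey : ∀ τ ∈ I, F τ 0 1 * P τ 1 1 = y * (P τ 0 0 - P τ 1 1) ∧
      F τ 1 0 * P τ 0 0 = y' * (P τ 1 1 - P τ 0 0) := by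
    intro τ hτ
    have hdτ := hI τ hτ
    have h1 := hF.coc σ₀ τ
    have h2 := hF.coc τ σ₀
    rw [← hsym σ₀ hσ₀ τ hτ] at h2
    have a01 := congrFun (congrFun h1 0) 1
    have b01 := congrFun (congrFun h2 0) 1
    have a10 := congrFun (congrFun h1 1) 0
    have b10 := congrFun (congrFun h2 1) 0
    simp only [h89s_mul_apply, Matrix.add_apply, hd₀.1, hd₀.2, hdτ.1, hdτ.2, (hent _ hσ₀).1,
      (hent _ hσ₀).2, (hent _ hτ).1, (hent _ hτ).2, mul_zero, zero_mul, add_zero, zero_add]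
      at a01 b01 a10 b10
    have hsub' : P σ₀ 1 1 - P σ₀ 0 0 ≠ 0 := sub_ne_zero.mpr (Ne.symm hσ₀')
    constructor
    · rw [hy]
      field_simp
      linear_combination P σ₀ 1 1 * b01 - P τ 1 1 * a01
    · rw [hy']
      field_simp
      linear_combination P σ₀ 0 0 * b10 - P τ 0 0 * a10
  obtain ⟨X, hX⟩ : ∃ X : Matrix (Fin 2) (Fin 2) k, X = !![0, -y; -y', 0] := ⟨_, rfl⟩
  have hX00 : X 0 0 = 0 := by rw [hX]; rfl
  have hX01 : X 0 1 = -y := by rw [hX]; rfl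
  have hX10 : X 1 0 = -y' := by rw [hX]; rfl
  have hX11 : X 1 1 = 0 := by rw [hX]; rfl
  refine ⟨X, by rw [hX00, hX11, add_zero], fun τ hτ => ?_⟩
  apply hP.cancel τ
  rw [h89s_cob_mul hP]
  have hdτ := hI τ hτ
  obtain ⟨k1, k2⟩ := hkey τ hτ
  apply h89s_ext <;>
    simp only [h89s_mul_apply, Matrix.sub_apply, hdτ.1, hdτ.2, (hent _ hτ).1, (hent _ hτ).2,
      hX00, hX01, hX10, hX11, mul_zero, zero_mul, add_zero, zero_add, sub_self]
  · rw [k1]; ring
  · rw [k2]; ring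

/-- **The cocycle lemma** (part (1) of the supersingular count). -/
theorem h89s_core (h2 : (2 : k) ≠ 0) {P : G → Matrix (Fin 2) (Fin 2) k} (hP : h89s_Rep P)
    (I N : Subgroup G) (hswap : ∀ σ, h89s_IsDiag (P σ) ∨ h89s_IsAnti (P σ))
    (hI : ∀ σ ∈ I, h89s_IsDiag (P σ)) (hN : ∀ g ∈ N, P g = 1)
    (hNn : ∀ s : G, ∀ g ∈ N, s * g * s⁻¹ ∈ N) (hIn : ∀ s : G, ∀ σ ∈ I, s⁻¹ * σ * s ∈ I)
    (hcomm : ∀ σ ∈ I, ∀ τ ∈ I, σ⁻¹ * τ⁻¹ * σ * τ ∈ N)
    (σ₀ : G) (hσ₀ : σ₀ ∈ I) (hσ₀' : P σ₀ 0 0 ≠ P σ₀ 1 1)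
    (φ₀ : G) (hφ₀ : h89s_IsAnti (P φ₀))
    {F : G → Matrix (Fin 2) (Fin 2) k} (hF : h89s_Coc P F) (hzero : ∀ g ∈ N, F g 0 1 = 0) :
    ∃ X : Matrix (Fin 2) (Fin 2) k, X 0 0 + X 1 1 = 0 ∧ ∀ σ, F σ = h89s_cob P X σ := by
  obtain ⟨X, hXtr, hX⟩ := h89s_lemB hP I N hI hN hNn hcomm σ₀ hσ₀ hσ₀' φ₀ hφ₀ hF hzero
  have hD := hF.sub (h89s_cob_coc hP X)
  obtain ⟨Y, hYtr, hY⟩ := h89s_lemA h2 hP I hIn hswap σ₀ hσ₀ (hI σ₀ hσ₀) hσ₀' φ₀ hφ₀ hD
    (fun σ hσ => by simp only [hX σ hσ, sub_self])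
  refine ⟨X + Y, by simp only [Matrix.add_apply]; linear_combination hXtr + hYtr, fun σ => ?_⟩
  have h1 : F σ - h89s_cob P X σ = h89s_cob P Y σ := hY σ
  have h3 : h89s_cob P (X + Y) σ = h89s_cob P X σ + h89s_cob P Y σ := by
    unfold h89s_cob
    rw [Matrix.mul_add, Matrix.add_mul]
    abel
  rw [h3, ← h1]
  abel

end Core

section Galois

variable {p : ℕ} [Fact p.Prime]

/-- `I_K` is normal in `Gq p`. -/
theorem h89s_IK_normal {π : Om p} {n : ℕ} (hn : 0 < n) (hpn : ¬ p ∣ n) (hπ : π ^ n = p)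
    (s : Gq p) {g : Gq p} (hg : g ∈ h89s_IK p π) : s * g * s⁻¹ ∈ h89s_IK p π := by
  refine ⟨h89o_conj_mem_inertia hg.1 s, ?_⟩
  have hp0 : ((p : ℕ) : Om p) ≠ 0 := by exact_mod_cast (Fact.out : p.Prime).ne_zero
  have hπ0 : π ≠ 0 := by
    intro h
    rw [h, zero_pow hn.ne'] at hπ
    exact hp0 hπ.symm
  obtain ⟨η, hη⟩ : ∃ η : Om p, η = s⁻¹ π / π := ⟨_, rfl⟩
  have hηn : η ^ n = 1 := by
    rw [hη, div_pow, ← map_pow, hπ, map_natCast, div_self hp0]
  have hηπ : s⁻¹ π = η * π := by rw [hη, div_mul_cancel₀ _ hπ0]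
  have hgη : g η = η := h89d0_fix_of_mem_inertia hg.1 η n hn hpn hηn
  rw [AlgEquiv.mul_apply, AlgEquiv.mul_apply, hηπ, map_mul, hgη, hg.2, ← hηπ,
    ← AlgEquiv.mul_apply, mul_inv_cancel, AlgEquiv.one_apply]

/-- Commutators of inertia lie in `I_K`. -/
theorem h89s_comm_mem {π : Om p} {n : ℕ} (hn : 0 < n) (hpn : ¬ p ∣ n) (hπ : π ^ n = p)
    {σ τ : Gq p} (hσ : σ ∈ inertia p) (hτ : τ ∈ inertia p) :
    σ⁻¹ * τ⁻¹ * σ * τ ∈ h89s_IK p π := by
  refine ⟨(inertia p).mul_mem ((inertia p).mul_mem ((inertia p).mul_mem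
    ((inertia p).inv_mem hσ) ((inertia p).inv_mem hτ)) hσ) hτ, ?_⟩
  have hp0 : ((p : ℕ) : Om p) ≠ 0 := by exact_mod_cast (Fact.out : p.Prime).ne_zero
  have hπ0 : π ≠ 0 := by
    intro h
    rw [h, zero_pow hn.ne'] at hπ
    exact hp0 hπ.symm
  have key : ∀ α : Gq p, α ∈ inertia p → ∃ u : Om p, u ^ n = 1 ∧ α π = u * π := by
    intro α _
    refine ⟨α π / π, ?_, by rw [div_mul_cancel₀ _ hπ0]⟩
    rw [div_pow, ← map_pow, hπ, map_natCast, div_self hp0]
  obtain ⟨u, hu, hσπ⟩ := key σ hσ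
  obtain ⟨w, hw, hτπ⟩ := key τ hτ
  have hσw : σ w = w := h89d0_fix_of_mem_inertia hσ w n hn hpn hw
  have hτu : τ u = u := h89d0_fix_of_mem_inertia hτ u n hn hpn hu
  have h1 : σ (τ π) = τ (σ π) := by
    rw [hτπ, hσπ, map_mul, map_mul, hσw, hτu, hσπ, hτπ]
    ring
  have h2 : (σ⁻¹ * τ⁻¹ * σ * τ) π = σ⁻¹ (τ⁻¹ (σ (τ π))) := by
    simp only [AlgEquiv.mul_apply]
  rw [h2, h1]
  have h3 : τ⁻¹ (τ (σ π)) = σ π := by
    rw [← AlgEquiv.mul_apply, inv_mul_cancel, AlgEquiv.one_apply]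
  rw [h3, ← AlgEquiv.mul_apply, inv_mul_cancel, AlgEquiv.one_apply]

end Galois

section Wrap

variable {k : Type} [Field k] {V : Type} [AddCommGroup V] [Module k V]

theorem h89s_apply_col (b : Module.Basis (Fin 2) k V) (f : Module.End k V) (j : Fin 2) :
    f (b j) = LinearMap.toMatrix b b f 0 j • b 0 + LinearMap.toMatrix b b f 1 j • b 1 := by
  have := b.sum_repr (f (b j))
  rw [Fin.sum_univ_two] at this
  rw [LinearMap.toMatrix_apply, LinearMap.toMatrix_apply]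
  exact this.symm

theorem h89s_entries_of (b : Module.Basis (Fin 2) k V) (f : Module.End k V) (j : Fin 2)
    (x y : k) (h : f (b j) = x • b 0 + y • b 1) :
    LinearMap.toMatrix b b f 0 j = x ∧ LinearMap.toMatrix b b f 1 j = y := by
  rw [LinearMap.toMatrix_apply, LinearMap.toMatrix_apply, h]
  simp

/-- The coboundaries form a space of dimension `≤ 3`. -/
theorem h89s_coB_bound (p : ℕ) [Fact p.Prime] [Module.Finite k V]
    (hV : Module.finrank k V = 2) (ρ : Gq p →* Module.End k V) :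
    ∃ B : Submodule k (Gq p → Module.End k V),
      Module.Finite k B ∧ Module.finrank k B ≤ 3 ∧ ∀ f, f ∈ B ↔ ∃ X, f = coB p ρ X := by
  let L : Module.End k V →ₗ[k] (Gq p → Module.End k V) :=
    { toFun := fun X => coB p ρ X
      map_add' := fun X Y => by
        funext τ
        simp only [coB, Pi.add_apply, mul_add, add_mul]
        abel
      map_smul' := fun a X => by
        funext τ
        simp only [coB, Pi.smul_apply, RingHom.id_apply, smul_sub, mul_smul_comm,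
          smul_mul_assoc] }
  refine ⟨LinearMap.range L, inferInstance, ?_, fun f => ?_⟩
  · have h2 : Module.finrank k (Module.End k V) = 4 := by
      have h3 : Module.finrank k (V →ₗ[k] V) = Module.finrank k V * Module.finrank k V :=
        Module.finrank_linearMap k k V V
      rw [hV] at h3
      exact h3
    have h4 := LinearMap.finrank_range_add_finrank_ker L
    have h5 : 0 < Module.finrank k (LinearMap.ker L) := by
      have hne : (⟨1, by
          rw [LinearMap.mem_ker]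
          funext τ
          show (1 : Module.End k V) - ρ τ * 1 * ρ τ⁻¹ = 0
          rw [mul_one, ← map_mul, mul_inv_cancel, map_one, sub_self]⟩ : LinearMap.ker L) ≠ 0 := by
        intro h
        have h6 := congrArg Subtype.val h
        have hnt : Nontrivial V := by
          apply Module.nontrivial_of_finrank_pos (R := k)
          rw [hV]; norm_num
        exact one_ne_zero h6
      exact Module.finrank_pos_iff_exists_ne_zero.mpr ⟨_, hne⟩
    omega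
  · constructor
    · rintro ⟨X, rfl⟩
      exact ⟨X, rfl⟩
    · rintro ⟨X, rfl⟩
      exact ⟨X, rfl⟩

end Wrap

section Main

/-- **FL-S4**, assembly: the supersingular count from the Kummer count. -/
theorem h89s_ssCount_of (hK : H89SSKum) : SSCount := by
  intro p _ k _ _ _ V _ _ _ ρ hρ hcont hnl τ hτ π hπ v₁ v₂ hNF
  classical
  letI : Fintype k := Fintype.ofFinite k
  have hp : p.Prime := Fact.out
  have hp2 := hρ.odd
  have h2 : (2 : k) ≠ 0 := by
    intro h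
    have h' : ((2 : ℕ) : k) = 0 := by exact_mod_cast h
    have hd := (CharP.cast_eq_zero_iff k p 2).mp h'
    exact hp2 ((Nat.prime_dvd_prime_iff_eq hp Nat.prime_two).mp hd)
  have hn : 0 < p ^ 2 - 1 := h89o_pow_sub_one_pos 2 (by norm_num)
  have hpn : ¬ p ∣ p ^ 2 - 1 := h89o_not_dvd_pow_sub_one 2 (by norm_num)
  have hp0 : ((p : ℕ) : Om p) ≠ 0 := by exact_mod_cast hp.ne_zero
  have hπ0 : π ≠ 0 := by
    intro h
    rw [h, zero_pow hn.ne'] at hπ
    exact hp0 hπ.symm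
  -- the basis and the matrices
  obtain ⟨b, hb0, hb1⟩ : ∃ b : Module.Basis (Fin 2) k V, b 0 = v₁ ∧ b 1 = v₂ :=
    ⟨basisOfLinearIndependentOfCardEqFinrank hNF.indep (by rw [Fintype.card_fin, hρ.rank]),
      by simp, by simp⟩
  obtain ⟨P, hPdef⟩ : ∃ P : Gq p → Matrix (Fin 2) (Fin 2) k,
      ∀ σ, P σ = LinearMap.toMatrix b b (ρ σ) := ⟨_, fun _ => rfl⟩
  have hP : h89s_Rep P :=
    ⟨by rw [hPdef, map_one, LinearMap.toMatrix_one],
     fun σ τ => by rw [hPdef, hPdef, hPdef, map_mul, LinearMap.toMatrix_mul]⟩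
  have hdiag_of : ∀ σ, (∃ a b' : k, ρ σ v₁ = a • v₁ ∧ ρ σ v₂ = b' • v₂) →
      h89s_IsDiag (P σ) ∧ ρ σ v₁ = P σ 0 0 • v₁ ∧ ρ σ v₂ = P σ 1 1 • v₂ := by
    rintro σ ⟨a, b', h1, h2⟩
    have e1 := h89s_entries_of b (ρ σ) 0 a 0 (by rw [hb0, hb1, h1, zero_smul, add_zero])
    have e2 := h89s_entries_of b (ρ σ) 1 0 b' (by rw [hb0, hb1, h2, zero_smul, zero_add])
    rw [← hPdef] at e1 e2
    exact ⟨⟨e1.2, e2.1⟩, by rw [e1.1]; exact h1, by rw [e2.2]; exact h2⟩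
  have hanti_of : ∀ σ, (∃ a b' : k, ρ σ v₁ = a • v₂ ∧ ρ σ v₂ = b' • v₁) →
      h89s_IsAnti (P σ) := by
    rintro σ ⟨a, b', h1, h2⟩
    have e1 := h89s_entries_of b (ρ σ) 0 0 a (by rw [hb0, hb1, h1, zero_smul, zero_add])
    have e2 := h89s_entries_of b (ρ σ) 1 b' 0 (by rw [hb0, hb1, h2, zero_smul, add_zero])
    rw [← hPdef] at e1 e2
    exact ⟨e1.1, e2.2⟩
  have hswap : ∀ σ, h89s_IsDiag (P σ) ∨ h89s_IsAnti (P σ) := fun σ =>
    (hNF.swap σ).imp (fun h => (hdiag_of σ h).1) (hanti_of σ)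
  have hline_of : ∀ σ, h89s_IsDiag (P σ) → ρ σ v₁ = P σ 0 0 • v₁ := by
    intro σ hσ
    have := h89s_apply_col b (ρ σ) 0
    rw [← hPdef, hσ.1, zero_smul, add_zero, hb0] at this
    exact this
  -- inertia
  have hIent : ∀ σ ∈ inertia p, ∃ a a' : kˣ, P σ 0 0 = a ∧ P σ 1 1 = a' ∧
      h89s_IsDiag (P σ) ∧ ((τ a : (Om p)ˣ) : Om p) = σ π / π ∧
      ((τ a' : (Om p)ˣ) : Om p) = (σ π / π) ^ p := by
    intro σ hσ
    obtain ⟨a, ha, hta⟩ := hNF.inert₁ σ hσ
    obtain ⟨a', ha', hta'⟩ := hNF.inert₂ σ hσ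
    have e1 := h89s_entries_of b (ρ σ) 0 a 0 (by rw [hb0, hb1, ha, zero_smul, add_zero])
    have e2 := h89s_entries_of b (ρ σ) 1 0 a' (by rw [hb0, hb1, ha', zero_smul, zero_add])
    rw [← hPdef] at e1 e2
    exact ⟨a, a', e1.1, e2.2, ⟨e1.2, e2.1⟩, hta, hta'⟩
  have hI : ∀ σ ∈ inertia p, h89s_IsDiag (P σ) := fun σ hσ => by
    obtain ⟨_, _, _, _, h, _⟩ := hIent σ hσ
    exact h
  have hτone : ∀ a : kˣ, ((τ a : (Om p)ˣ) : Om p) = 1 → a = 1 := by
    intro a ha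
    apply h89o_teich_inj_mod τ hτ
    rw [ha, map_one, Units.val_one, sub_self, norm_zero]
    exact zero_lt_one
  have hN : ∀ g ∈ h89s_IK p π, P g = 1 := by
    intro g hg
    obtain ⟨a, a', h00, h11, hd, hta, hta'⟩ := hIent g hg.1
    rw [hg.2, div_self hπ0] at hta hta'
    rw [one_pow] at hta'
    have ha := hτone a hta
    have ha' := hτone a' hta'
    apply h89s_ext
    · rw [h00, ha]; simp
    · rw [hd.2]; simp
    · rw [hd.1]; simp
    · rw [h11, ha']; simp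
  have hNn : ∀ s : Gq p, ∀ g ∈ h89s_IK p π, s * g * s⁻¹ ∈ h89s_IK p π :=
    fun s g hg => h89s_IK_normal hn hpn hπ s hg
  have hIn : ∀ s : Gq p, ∀ σ ∈ inertia p, s⁻¹ * σ * s ∈ inertia p :=
    fun s σ hσ => h89o_conj_mem_inertia' hσ s
  have hcomm : ∀ σ ∈ inertia p, ∀ τ' ∈ inertia p, σ⁻¹ * τ'⁻¹ * σ * τ' ∈ h89s_IK p π :=
    fun σ hσ τ' hτ' => h89s_comm_mem hn hpn hπ hσ hτ'
  -- an element of inertia with two different eigenvalues
  obtain ⟨σ₀, hσ₀, hσ₀'⟩ : ∃ σ₀ ∈ inertia p, P σ₀ 0 0 ≠ P σ₀ 1 1 := by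
    obtain ⟨ζ, hζ⟩ := h89o_exists_primitiveRoot (p := p) (p ^ 2 - 1) hn
    obtain ⟨σ, hσ, hσπ⟩ := h89f_fundSurjective p _ hn hpn π hπ ζ hζ.pow_eq_one
    refine ⟨σ, hσ, fun h => ?_⟩
    obtain ⟨a, a', h00, h11, -, hta, hta'⟩ := hIent σ hσ
    have hψ : σ π / π = ζ := by rw [hσπ, mul_div_assoc, div_self hπ0, mul_one]
    rw [hψ] at hta hta'
    have haa : a = a' := Units.ext (by rw [← h00, ← h11]; exact h)
    rw [← haa, hta] at hta'
    -- ζ = ζ ^ p
    have h1 : ζ ^ (p - 1) = 1 := by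
      have hz : ζ ≠ 0 := hζ.ne_zero hn.ne'
      have h3 : ζ ^ (p - 1) * ζ = 1 * ζ := by
        rw [← pow_succ, Nat.sub_add_cancel hp.one_le, one_mul]
        exact hta'.symm
      exact mul_right_cancel₀ hz h3
    have h4 := hζ.dvd_of_pow_eq_one _ h1
    have h5 : p ^ 2 - 1 ≤ p - 1 := Nat.le_of_dvd (by have := hp.two_le; omega) h4
    have h6 : p < p ^ 2 := by
      have := hp.two_le
      nlinarith
    omega
  -- a swapping element
  obtain ⟨φ₀, hφ₀⟩ : ∃ φ₀ : Gq p, h89s_IsAnti (P φ₀) := by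
    by_contra hcon
    push Not at hcon
    apply hnl
    refine ⟨v₁, ?_, fun σ => ?_⟩
    · have := hNF.indep.ne_zero (0 : Fin 2)
      simpa using this
    · rcases hswap σ with h | h
      · exact ⟨_, hline_of σ h⟩
      · exact absurd h (hcon σ)
  -- the cocycles in matrix form
  have hCoc : ∀ f : Gq p → Module.End k V, SSCond p ρ π v₁ v₂ f →
      h89s_Coc P (fun σ => LinearMap.toMatrix b b (f σ)) := by
    intro f hf
    refine ⟨fun σ τ' => ?_, fun σ => ?_, fun σ hσ => ?_⟩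
    · have h := congrArg (fun X => LinearMap.toMatrix b b (X * ρ σ)) (hf.cocycle σ τ')
      simp only [add_mul, mul_assoc, ← map_mul, inv_mul_cancel, map_one, mul_one,
        LinearMap.toMatrix_mul, map_add] at h
      rw [hPdef]
      exact h
    · have h := hf.trace σ
      rw [LinearMap.trace_eq_matrix_trace k b, Matrix.trace_fin_two] at h
      exact h
    · obtain ⟨b', hb'⟩ := hf.diag σ ⟨_, hline_of σ hσ⟩
      exact (h89s_entries_of b (f σ) 0 0 b' (by rw [hb0, hb1, hb', zero_smul, zero_add])).1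
  have hCob : ∀ (X : Module.End k V) (σ : Gq p),
      LinearMap.toMatrix b b (coB p ρ X σ) = h89s_cob P (LinearMap.toMatrix b b X) σ := by
    intro X σ
    unfold coB h89s_cob
    rw [map_sub, LinearMap.toMatrix_mul, LinearMap.toMatrix_mul, hPdef, hPdef]
  -- the coboundaries
  obtain ⟨B, hBfin, hBrk, hB⟩ := h89s_coB_bound p hρ.rank ρ
  -- part (1): a cocycle with vanishing `(1,2)`-entry on `I_K` is a coboundary
  have part1 : ∀ F : Gq p → Matrix (Fin 2) (Fin 2) k, h89s_Coc P F →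
      (∀ g ∈ h89s_IK p π, F g 0 1 = 0) → ∃ X : Module.End k V,
        ∀ σ, F σ = LinearMap.toMatrix b b (coB p ρ X σ) := by
    intro F hF hzero
    obtain ⟨X, -, hX⟩ := h89s_core h2 hP (inertia p) (h89s_IK p π) hswap hI hN hNn hIn hcomm
      σ₀ hσ₀ hσ₀' φ₀ hφ₀ hF hzero
    refine ⟨(LinearMap.toMatrix b b).symm X, fun σ => ?_⟩
    rw [hCob, LinearEquiv.apply_symm_apply]
    exact hX σ
  -- the Frobenius element `s₀`
  obtain ⟨φ, hφ⟩ := h96f_frobExists p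
  obtain ⟨s₀, hs₀π, hs₀w, hs₀d⟩ : ∃ s₀ : Gq p, s₀ π = π ∧
      (∀ (w : Om p) (m : ℕ), 0 < m → ¬ p ∣ m → w ^ m = 1 → s₀ w = w ^ (p ^ 2)) ∧
      h89s_IsDiag (P s₀) := by
    obtain ⟨η, hη⟩ : ∃ η : Om p, η = (φ * φ) π / π := ⟨_, rfl⟩
    have hηn : η ^ (p ^ 2 - 1) = 1 := by
      rw [hη, div_pow, ← map_pow, hπ, map_natCast, div_self hp0]
    have hηπ : (φ * φ) π = η * π := by rw [hη, div_mul_cancel₀ _ hπ0]
    have hηinv : (η⁻¹) ^ (p ^ 2 - 1) = 1 := by rw [inv_pow, hηn, inv_one]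
    obtain ⟨σ₁, hσ₁, hσ₁π⟩ := h89f_fundSurjective p _ hn hpn π hπ η⁻¹ hηinv
    have hη0 : η ≠ 0 := by
      intro h
      rw [h, zero_pow hn.ne'] at hηn
      exact zero_ne_one hηn
    refine ⟨σ₁ * (φ * φ), ?_, fun w m hm hpm hw => ?_, ?_⟩
    · rw [AlgEquiv.mul_apply, hηπ, map_mul,
        h89d0_fix_of_mem_inertia hσ₁ η _ hn hpn hηn, hσ₁π, ← mul_assoc, mul_inv_cancel₀ hη0,
        one_mul]
    · have hw' : (w ^ p) ^ m = 1 := by rw [← pow_mul, mul_comm, pow_mul, hw, one_pow]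
      have hw'' : (w ^ (p ^ 2)) ^ m = 1 := by rw [← pow_mul, mul_comm, pow_mul, hw, one_pow]
      rw [AlgEquiv.mul_apply, AlgEquiv.mul_apply, hφ w m hm hpm hw, hφ _ m hm hpm hw',
        ← pow_mul, ← sq, h89d0_fix_of_mem_inertia hσ₁ _ m hm hpm hw'']
    · have hdd : h89s_IsDiag (P (φ * φ)) := by
        rw [hP.mul]
        rcases hswap φ with h | h
        · constructor <;> simp only [h89s_mul_apply, h.1, h.2] <;> ring
        · constructor <;> simp only [h89s_mul_apply, h.1, h.2] <;> ring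
      have hd1 := hI σ₁ hσ₁
      rw [hP.mul]
      constructor <;> simp only [h89s_mul_apply, hdd.1, hdd.2, hd1.1, hd1.2] <;> ring
  -- the characters `ψ`, `c₀`
  obtain ⟨ψ, hψ⟩ : ∃ ψ : Gq p → kˣ, ∀ σ, h89s_IsDiag (P σ) →
      ((ψ σ : kˣ) : k) * P σ 1 1 = P σ 0 0 := by
    refine ⟨fun σ => if h : P σ 0 0 ≠ 0 ∧ P σ 1 1 ≠ 0 then
      Units.mk0 (P σ 0 0 / P σ 1 1) (div_ne_zero h.1 h.2) else 1, fun σ hσ => ?_⟩
    have hne := hP.diag_ne σ hσ
    simp only [dif_pos hne, Units.val_mk0]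
    rw [div_mul_cancel₀ _ hne.2]
  have hψτ : ∀ σ ∈ inertia p,
      ((τ (ψ σ) : (Om p)ˣ) : Om p) * (σ π / π) ^ p = σ π / π := by
    intro σ hσ
    obtain ⟨a, a', h00, h11, hd, hta, hta'⟩ := hIent σ hσ
    have h1 := hψ σ hd
    rw [h00, h11] at h1
    have h3 : ψ σ * a' = a := Units.ext (by rw [Units.val_mul]; exact h1)
    rw [← hta', ← hta, ← h3, map_mul, Units.val_mul]
  -- the `(1,2)`-entry satisfies the Kummer conditions
  have hKum : ∀ f : Gq p → Module.End k V, SSCond p ρ π v₁ v₂ f →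
      h89s_KumCond p π ψ s₀ (ψ s₀) (fun g => LinearMap.toMatrix b b (f g) 0 1) := by
    intro f hf
    have hF := hCoc f hf
    have hequiv : ∀ s : Gq p, h89s_IsDiag (P s) → ∀ g ∈ h89s_IK p π,
        LinearMap.toMatrix b b (f (s * g * s⁻¹)) 0 1 =
          ((ψ s : kˣ) : k) * LinearMap.toMatrix b b (f g) 0 1 := by
      intro s hs g hg
      have h1 := h89s_conj (h89s_IK p π) hN hNn hF s hg
      have e := congrFun (congrFun h1 0) 1
      simp only [h89s_mul_apply, hs.1, hs.2, mul_zero, zero_mul, add_zero, zero_add] at e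
      have hne := hP.diag_ne s hs
      have h3 := hψ s hs
      have h4 : LinearMap.toMatrix b b (f (s * g * s⁻¹)) 0 1 * P s 1 1 =
          ((ψ s : kˣ) : k) * LinearMap.toMatrix b b (f g) 0 1 * P s 1 1 := by
        rw [e, ← h3]; ring
      exact mul_right_cancel₀ hne.2 h4
    refine ⟨?_, fun g hg h hh => ?_, fun σ hσ g hg => hequiv σ (hI σ hσ) g hg,
      fun g hg => hequiv s₀ hs₀d g hg, fun ζ hζ hζ1 l => ?_⟩
    · obtain ⟨E, hE, hle, hEc⟩ := hf.cont
      exact ⟨E, hE, hle, fun g hg s hs => by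
        show LinearMap.toMatrix b b (f (g * s)) 0 1 = _
        rw [hEc g hg s hs]⟩
    · have h1 := hF.coc g h
      rw [hN g hg, Matrix.mul_one, Matrix.mul_one, Matrix.one_mul] at h1
      have e := congrFun (congrFun h1 0) 1
      simpa using e
    · obtain ⟨β, hβ, hβg⟩ := hf.lev ζ hζ hζ1 l
      refine ⟨β, hβ, fun g hg => hβg g hg.1 hg.2 _ ?_⟩
      have h00 : LinearMap.toMatrix b b (f g) 0 0 = 0 :=
        hF.diag g (by rw [hN g hg]; exact ⟨by simp, by simp⟩)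
      have h11 : LinearMap.toMatrix b b (f g) 1 1 = 0 := by
        have h3 : LinearMap.toMatrix b b (f g) 0 0 + LinearMap.toMatrix b b (f g) 1 1 = 0 :=
          hF.tr g
        rw [h00, zero_add] at h3
        exact h3
      have := h89s_apply_col b (f g) 1
      rw [h11, zero_smul, add_zero, hb0, hb1] at this
      exact this
  -- assembly
  by_cases hex : ∃ f₀, SSCond p ρ π v₁ v₂ f₀ ∧ f₀ ∉ B
  · obtain ⟨f₀, hf₀, hf₀B⟩ := hex
    have hne₀ : ∃ g ∈ h89s_IK p π, LinearMap.toMatrix b b (f₀ g) 0 1 ≠ 0 := by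
      by_contra hcon
      push Not at hcon
      obtain ⟨X, hX⟩ := part1 _ (hCoc f₀ hf₀) hcon
      apply hf₀B
      rw [hB]
      refine ⟨X, funext fun σ => ?_⟩
      exact (LinearMap.toMatrix b b).injective (hX σ)
    refine ⟨B ⊔ Submodule.span k {f₀}, inferInstance, ?_, fun X _ => ?_, fun f hf => ?_⟩
    · have h1 := Submodule.finrank_add_le_finrank_add_finrank B (Submodule.span k {f₀})
      have h3 : Module.finrank k (Submodule.span k {f₀}) ≤ 1 := by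
        have h4 := finrank_span_finset_le_card (R := k) ({f₀} : Finset (Gq p → Module.End k V))
        rw [Finset.card_singleton, Finset.coe_singleton] at h4
        exact h4
      omega
    · exact Submodule.mem_sup_left ((hB _).mpr ⟨X, rfl⟩)
    · obtain ⟨c, hc⟩ := hK p hp2 k τ hτ π hπ ψ hψτ s₀ hs₀π hs₀w (ψ s₀) _ _ (hKum f hf)
        (hKum f₀ hf₀) hne₀
      have hD := (hCoc f hf).sub ((hCoc f₀ hf₀).smul c)
      obtain ⟨X, hX⟩ := part1 _ hD (fun g hg => by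
        simp only [Matrix.sub_apply, Matrix.smul_apply, smul_eq_mul]
        rw [hc g hg, sub_self])
      have hfB : f - c • f₀ ∈ B := by
        rw [hB]
        refine ⟨X, funext fun σ => ?_⟩
        apply (LinearMap.toMatrix b b).injective
        rw [← hX σ]
        simp only [Pi.sub_apply, Pi.smul_apply, map_sub, map_smul]
      have e : f = (f - c • f₀) + c • f₀ := by abel
      rw [e]
      exact Submodule.add_mem _ (Submodule.mem_sup_left hfB)
        (Submodule.mem_sup_right (Submodule.smul_mem _ c (Submodule.mem_span_singleton_self f₀)))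
  · push Not at hex
    refine ⟨B, hBfin, by omega, fun X _ => (hB _).mpr ⟨X, rfl⟩, fun f hf => hex f hf⟩

end Main

end Fermat.Agent.S56F
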