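import Fermat.Agent.S56F.FLS3N_helper42
import Fermat.Agent.S56F.FLS4_helper89

/-!
# S56 / LOC-p-FL, row FL-S4A (helper42): `SSKerCob`

A cocycle of the supersingular normal form whose diagonal part vanishes on the stabiliser of
the lines and whose `(1,2)`-entry vanishes on `I_K` is a coboundary.

`h42f_ssKerCob : SSKerCob` is the transport, through the basis `v₁, v₂`, of the matrix form
`h89s_core` of the cocycle lemma (helper89, `S56F/FLS4_helper89.lean`).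

Tools: `h42f_teich_inj` (a Teichmüller character is injective), `h42f_IK_conj` (`I_K` is normal
in `Gq p`), `h42f_mem_IK_of_eq`, `h42f_exists_pow`, `h42f_pow_apply`.
-/

set_option autoImplicit false
set_option linter.style.haveILetI false
set_option linter.unusedSectionVars false

open Fermat.Agent.PT.Loc Polynomial Matrix

noncomputable section

namespace Fermat.Agent.S56F

section Teich

variable {p : ℕ} [Fact p.Prime] {k : Type} [Field k] [Finite k]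

/-- the values of a character of `kˣ` have norm one. -/
theorem h42f_norm_tau (τ : kˣ →* (Om p)ˣ) (c : kˣ) : ‖((τ c : (Om p)ˣ) : Om p)‖ = 1 := by
  have hfin : 0 < orderOf c := orderOf_pos c
  have h1 : ((τ c : (Om p)ˣ) : Om p) ^ orderOf c = 1 := by
    rw [← Units.val_pow_eq_pow_val, ← map_pow, pow_orderOf_eq_one, map_one, Units.val_one]
  exact h89d0_norm_of_pow_eq_one hfin h1

/-- a Teichmüller character is injective. -/
theorem h42f_teich_inj (τ : kˣ →* (Om p)ˣ) (hτ : IsTeich p τ) (a : kˣ)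
    (ha : ((τ a : (Om p)ˣ) : Om p) = 1) : a = 1 := by
  by_contra hne
  have hc : (a : k) - 1 ≠ 0 := by
    intro h
    apply hne
    apply Units.ext
    rw [Units.val_one]
    exact sub_eq_zero.mp h
  have h1 := hτ.1 1 (Units.mk0 _ hc) a (by rw [Units.val_one, Units.val_mk0]; ring)
  rw [map_one, Units.val_one, ha] at h1
  have h2 : (1 : Om p) + ((τ (Units.mk0 _ hc) : (Om p)ˣ) : Om p) - 1 =
      ((τ (Units.mk0 _ hc) : (Om p)ˣ) : Om p) := by ring
  rw [h2, h42f_norm_tau] at h1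
  exact lt_irrefl _ h1

end Teich

section IK

variable {p : ℕ} [Fact p.Prime]

/-- `I_K` is normal in `Gq p`. -/
theorem h42f_IK_conj {π : Om p} (hπ : π ^ (p ^ 2 - 1) = p) (σ : Gq p) {g : Gq p}
    (hg : g ∈ IK p π) : σ * g * σ⁻¹ ∈ IK p π := by
  have hN := h42f_N_pos p
  have hNp := h42f_N_coprime p
  have hπ0 : π ≠ 0 := h42f_pi_ne_zero hπ
  refine ⟨h42f_inertia_conj σ hg.1, ?_⟩
  have hπ' : (σ⁻¹ π) ^ (p ^ 2 - 1) = p := by
    rw [← map_pow, hπ]
    exact map_natCast σ⁻¹ p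
  have hω : (σ⁻¹ π / π) ^ (p ^ 2 - 1) = 1 := by
    rw [div_pow, hπ', hπ]
    exact div_self (by
      have hp : p.Prime := Fact.out
      exact_mod_cast hp.ne_zero)
  have hgω : g (σ⁻¹ π / π) = σ⁻¹ π / π :=
    h89d0_fix_of_mem_inertia hg.1 _ _ hN hNp hω
  have h1 : g (σ⁻¹ π) = σ⁻¹ π := by
    have h2 : σ⁻¹ π = (σ⁻¹ π / π) * π := by field_simp
    calc g (σ⁻¹ π) = g ((σ⁻¹ π / π) * π) := by rw [← h2]
      _ = (σ⁻¹ π / π) * π := by rw [map_mul, hgω, hg.2]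
      _ = σ⁻¹ π := h2.symm
  calc (σ * g * σ⁻¹) π = σ (g (σ⁻¹ π)) := rfl
    _ = σ (σ⁻¹ π) := by rw [h1]
    _ = π := by rw [← AlgEquiv.mul_apply, mul_inv_cancel, AlgEquiv.one_apply]

/-- two elements of inertia with the same value at `π` differ by an element of `I_K`. -/
theorem h42f_mem_IK_of_eq {π : Om p} {u u' : Gq p} (hu : u ∈ inertia p) (hu' : u' ∈ inertia p)
    (h : u π = u' π) : u'⁻¹ * u ∈ IK p π := by
  refine ⟨(inertia p).mul_mem ((inertia p).inv_mem hu') hu, ?_⟩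
  rw [AlgEquiv.mul_apply, h, ← AlgEquiv.mul_apply, inv_mul_cancel, AlgEquiv.one_apply]

/-- the action of inertia on `π` is through the powers of `ζ₀`. -/
theorem h42f_exists_pow {π : Om p} (hπ : π ^ (p ^ 2 - 1) = p) {ζ₀ : Om p}
    (hζ₀ : IsPrimitiveRoot ζ₀ (p ^ 2 - 1)) (s : Gq p) :
    ∃ j : ℕ, s π = ζ₀ ^ j * π := by
  have hπ0 : π ≠ 0 := h42f_pi_ne_zero hπ
  have h1 : (s π / π) ^ (p ^ 2 - 1) = 1 := by
    rw [div_pow, ← map_pow, hπ, map_natCast]
    exact div_self (by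
      have hp : p.Prime := Fact.out
      exact_mod_cast hp.ne_zero)
  haveI : NeZero (p ^ 2 - 1) := ⟨(h42f_N_pos p).ne'⟩
  obtain ⟨j, -, hj⟩ := hζ₀.eq_pow_of_pow_eq_one h1
  refine ⟨j, ?_⟩
  rw [hj]
  field_simp

/-- the powers of `t₀`. -/
theorem h42f_pow_apply {π : Om p} {ζ₀ : Om p} {t₀ : Gq p}
    (hζ₀ : ζ₀ ^ (p ^ 2 - 1) = 1) (ht₀ : t₀ ∈ inertia p) (htπ : t₀ π = ζ₀ * π) (i : ℕ) :
    (t₀ ^ i) π = ζ₀ ^ i * π := by
  induction i with
  | zero => simp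
  | succ i ih =>
    rw [pow_succ, AlgEquiv.mul_apply, htπ, map_mul,
      h89d0_fix_of_mem_inertia ((inertia p).pow_mem ht₀ i) ζ₀ _ (h42f_N_pos p)
        (h42f_N_coprime p) hζ₀, ih, pow_succ]
    ring

end IK

section KerCob

/-- **FL-S4A.** -/
theorem h42f_ssKerCob : SSKerCob := by
  intro p _ k _ _ _ V _ _ _ ρ hρ hnl τ hτ π hπ v₁ v₂ hNF f _ hcoc htr hdiag hK
  classical
  have hp : p.Prime := Fact.out
  have hp2 := hρ.odd
  have h2 : (2 : k) ≠ 0 := by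
    intro h
    have h' : ((2 : ℕ) : k) = 0 := by exact_mod_cast h
    have hd := (CharP.cast_eq_zero_iff k p 2).mp h'
    exact hp2 ((Nat.prime_dvd_prime_iff_eq hp Nat.prime_two).mp hd)
  have hn : 0 < p ^ 2 - 1 := h42f_N_pos p
  have hpn : ¬ p ∣ p ^ 2 - 1 := h42f_N_coprime p
  have hπ0 : π ≠ 0 := h42f_pi_ne_zero hπ
  -- the basis and the matrices
  obtain ⟨b, hb0, hb1⟩ : ∃ b : Module.Basis (Fin 2) k V, b 0 = v₁ ∧ b 1 = v₂ :=
    ⟨basisOfLinearIndependentOfCardEqFinrank hNF.indep (by rw [Fintype.card_fin, hρ.rank]),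
      by simp, by simp⟩
  obtain ⟨P, hPdef⟩ : ∃ P : Gq p → Matrix (Fin 2) (Fin 2) k,
      ∀ σ, P σ = LinearMap.toMatrix b b (ρ σ) := ⟨_, fun _ => rfl⟩
  have hP : h89s_Rep P :=
    ⟨by rw [hPdef, map_one, LinearMap.toMatrix_one],
     fun σ τ => by rw [hPdef, hPdef, hPdef, map_mul, LinearMap.toMatrix_mul]⟩
  have hdiag_of : ∀ σ, (∃ a b' : k, ρ σ v₁ = a • v₁ ∧ ρ σ v₂ = b' • v₂) →
      h89s_IsDiag (P σ) := by
    rintro σ ⟨a, b', h1, h2⟩
    have e1 := h89s_entries_of b (ρ σ) 0 a 0 (by rw [hb0, hb1, h1, zero_smul, add_zero])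
    have e2 := h89s_entries_of b (ρ σ) 1 0 b' (by rw [hb0, hb1, h2, zero_smul, zero_add])
    rw [← hPdef] at e1 e2
    exact ⟨e1.2, e2.1⟩
  have hanti_of : ∀ σ, (∃ a b' : k, ρ σ v₁ = a • v₂ ∧ ρ σ v₂ = b' • v₁) →
      h89s_IsAnti (P σ) := by
    rintro σ ⟨a, b', h1, h2⟩
    have e1 := h89s_entries_of b (ρ σ) 0 0 a (by rw [hb0, hb1, h1, zero_smul, zero_add])
    have e2 := h89s_entries_of b (ρ σ) 1 b' 0 (by rw [hb0, hb1, h2, zero_smul, add_zero])
    rw [← hPdef] at e1 e2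
    exact ⟨e1.1, e2.2⟩
  have hswap : ∀ σ, h89s_IsDiag (P σ) ∨ h89s_IsAnti (P σ) := fun σ =>
    (hNF.swap σ).imp (hdiag_of σ) (hanti_of σ)
  have hline_of : ∀ σ, h89s_IsDiag (P σ) → ρ σ v₁ = P σ 0 0 • v₁ := by
    intro σ hσ
    have := h89s_apply_col b (ρ σ) 0
    rw [← hPdef, hσ.1, zero_smul, add_zero, hb0] at this
    exact this
  -- inertia
  have hIent : ∀ σ ∈ inertia p, ∃ a a' : kˣ, P σ 0 0 = a ∧ P σ 1 1 = a' ∧
      h89s_IsDiag (P σ) ∧ ((τ a : (Om p)ˣ) : Om p) = σ π / π ∧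
      ((τ a' : (Om p)ˣ) : Om p) = (σ π / π) ^ p := by
    intro σ hσ
    obtain ⟨a, ha, hta⟩ := hNF.inert₁ σ hσ
    obtain ⟨a', ha', hta'⟩ := hNF.inert₂ σ hσ
    have e1 := h89s_entries_of b (ρ σ) 0 a 0 (by rw [hb0, hb1, ha, zero_smul, add_zero])
    have e2 := h89s_entries_of b (ρ σ) 1 0 a' (by rw [hb0, hb1, ha', zero_smul, zero_add])
    rw [← hPdef] at e1 e2
    exact ⟨a, a', e1.1, e2.2, ⟨e1.2, e2.1⟩, hta, hta'⟩
  have hI : ∀ σ ∈ inertia p, h89s_IsDiag (P σ) := fun σ hσ => by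
    obtain ⟨_, _, _, _, h, _⟩ := hIent σ hσ
    exact h
  have hN : ∀ g ∈ h89s_IK p π, P g = 1 := by
    intro g hg
    obtain ⟨a, a', h00, h11, hd, hta, hta'⟩ := hIent g hg.1
    rw [hg.2, div_self hπ0] at hta hta'
    rw [one_pow] at hta'
    have ha := h42f_teich_inj τ hτ a hta
    have ha' := h42f_teich_inj τ hτ a' hta'
    apply h89s_ext
    · rw [h00, ha]; simp
    · rw [hd.2]; simp
    · rw [hd.1]; simp
    · rw [h11, ha']; simp
  have hNn : ∀ s : Gq p, ∀ g ∈ h89s_IK p π, s * g * s⁻¹ ∈ h89s_IK p π :=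
    fun s g hg => h89s_IK_normal hn hpn hπ s hg
  have hIn : ∀ s : Gq p, ∀ σ ∈ inertia p, s⁻¹ * σ * s ∈ inertia p := by
    intro s σ hσ
    have := h42f_inertia_conj s⁻¹ hσ
    rwa [inv_inv] at this
  have hcomm : ∀ σ ∈ inertia p, ∀ τ' ∈ inertia p, σ⁻¹ * τ'⁻¹ * σ * τ' ∈ h89s_IK p π :=
    fun σ hσ τ' hτ' => h89s_comm_mem hn hpn hπ hσ hτ'
  -- an element of inertia with two different eigenvalues
  obtain ⟨ζ₀, t₀, hζ₀, ht₀, htπ⟩ := h42f_exists_gen hπ
  obtain ⟨a₁, a₂, h1, h2', hne, -, -⟩ := h42f_eig_ne hπ hNF hζ₀ ht₀ htπ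
  have hσ₀' : P t₀ 0 0 ≠ P t₀ 1 1 := by
    have e1 := h89s_entries_of b (ρ t₀) 0 a₁ 0 (by rw [hb0, hb1, h1, zero_smul, add_zero])
    have e2 := h89s_entries_of b (ρ t₀) 1 0 a₂ (by rw [hb0, hb1, h2', zero_smul, zero_add])
    rw [← hPdef] at e1 e2
    rw [e1.1, e2.2]
    exact hne
  -- a swapping element
  obtain ⟨φ₀, hφ₀⟩ : ∃ φ₀ : Gq p, h89s_IsAnti (P φ₀) := by
    by_contra hcon
    push Not at hcon
    apply hnl
    refine ⟨v₁, h42f_v1_ne hNF.indep, fun σ => ?_⟩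
    rcases hswap σ with h | h
    · exact ⟨_, hline_of σ h⟩
    · exact absurd h (hcon σ)
  -- the cocycle in matrix form
  have hF : h89s_Coc P (fun σ => LinearMap.toMatrix b b (f σ)) := by
    refine ⟨fun σ τ' => ?_, fun σ => ?_, fun σ hσ => ?_⟩
    · have h := congrArg (fun X => LinearMap.toMatrix b b (X * ρ σ)) (hcoc σ τ')
      simp only [add_mul, mul_assoc, ← map_mul, inv_mul_cancel, map_one, mul_one,
        LinearMap.toMatrix_mul, map_add] at h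
      rw [hPdef]
      exact h
    · have h := htr σ
      rw [LinearMap.trace_eq_matrix_trace k b, Matrix.trace_fin_two] at h
      exact h
    · obtain ⟨b', hb'⟩ := hdiag σ ⟨_, hline_of σ hσ⟩
      exact (h89s_entries_of b (f σ) 0 0 b' (by rw [hb0, hb1, hb', zero_smul, zero_add])).1
  have hCob : ∀ (X : Module.End k V) (σ : Gq p),
      LinearMap.toMatrix b b (coB p ρ X σ) = h89s_cob P (LinearMap.toMatrix b b X) σ := by
    intro X σ
    unfold coB h89s_cob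
    rw [map_sub, LinearMap.toMatrix_mul, LinearMap.toMatrix_mul, hPdef, hPdef]
  have hzero : ∀ g ∈ h89s_IK p π, LinearMap.toMatrix b b (f g) 0 1 = 0 := by
    intro g hg
    have h0 : f g (b 1) = (0 : k) • b 0 + (0 : k) • b 1 := by
      rw [hb1, hK g hg, zero_smul, zero_smul, add_zero]
    exact (h89s_entries_of b (f g) 1 0 0 h0).1
  obtain ⟨X, hXtr, hX⟩ := h89s_core h2 hP (inertia p) (h89s_IK p π) hswap hI hN hNn hIn hcomm
    t₀ ht₀ hσ₀' φ₀ hφ₀ hF hzero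
  refine ⟨(LinearMap.toMatrix b b).symm X, ?_, funext fun σ => ?_⟩
  · rw [LinearMap.trace_eq_matrix_trace k b, LinearEquiv.apply_symm_apply,
      Matrix.trace_fin_two]
    exact hXtr
  · apply (LinearMap.toMatrix b b).injective
    rw [hCob, LinearEquiv.apply_symm_apply]
    exact hX σ

end KerCob

end Fermat.Agent.S56F
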