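import Mathlib

/-!
# S56 / LOC-p-FL, block SS, row FL-S4B-COUNT (helper75): the semilinear count, `p²`-form

Pure algebra (Mathlib only).

* `h75s_mem_range_of_pow_card` : an element `b` of a field `κ` with `b ^ #k' = b` lies in the
  image of the finite field `k'`.
* `h75s_coreq` : functions `v i : X → κ` with `v i (θ x) ^ (p ^ f) = c * v i x` (`c ≠ 0`) which
  are independent over a coefficient ring containing the fixed field of `b ↦ b ^ (p ^ f)` are
  independent over `κ` (shortest relation, Frobenius twist, subtract).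
* `h75s_count` : `L` a line over the finite field `k`, `k' ⊆ k` a subfield embedded in `κ` by
  `ι`; two additive, `ι`-linear, twisted-Frobenius-fixed maps `F₀ ≠ 0`, `F : L → κ` differ by a
  scalar of `k`: `F = F₀ (x • ·)`.  (`Hom_{k'}(L, κ)` has `κ`-dimension `[k : k']`, the
  `[k : k'] + 1` maps `F`, `F₀ (b_i • ·)` are `κ`-dependent, hence `k'`-dependent.)
* `h75sDualModule`, `h75s_dual_finrank` : `Hom(k, 𝔽_p)` is a line over `k`.
* `h75s_card_sq` : a subfield killed by `x ↦ x ^ (p²) - x` containing `θ` with `θ ^ p ≠ θ` has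
  `p²` elements.
* `h75s_countHom` : `h75s_count` for `L = Hom(k, 𝔽_p)`.
* `h75s_ssSemilin_gen` : the count in the form of `H51SSSemilin` / `H89KSemi2`
  (any universe, `c₂ : κ` non-zero).
-/

set_option autoImplicit false
set_option linter.style.haveILetI false

open Finset Polynomial

namespace Fermat.Agent.S56F

/-- an element of `κ` fixed by `b ↦ b ^ #k'` lies in the image of the finite field `k'`. -/
theorem h75s_mem_range_of_pow_card {k' : Type*} [Field k'] [Finite k'] {κ : Type*} [Field κ]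
    (ι : k' →+* κ) {b : κ} (hb : b ^ Nat.card k' = b) : ∃ n : k', ι n = b := by
  classical
  haveI : Fintype k' := Fintype.ofFinite k'
  have hq1 : 1 < Nat.card k' := Finite.one_lt_card
  have hP0 : (X ^ Nat.card k' - X : κ[X]) ≠ 0 := FiniteField.X_pow_card_sub_X_ne_zero κ hq1
  have hdeg : (X ^ Nat.card k' - X : κ[X]).natDegree = Nat.card k' :=
    FiniteField.X_pow_card_sub_X_natDegree_eq κ hq1
  have hsub : Finset.univ.image ι ⊆ (X ^ Nat.card k' - X : κ[X]).roots.toFinset := by
    intro y hy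
    obtain ⟨n, -, rfl⟩ := Finset.mem_image.mp hy
    rw [Multiset.mem_toFinset, mem_roots hP0, IsRoot.def, eval_sub, eval_pow, eval_X,
      ← map_pow, Nat.card_eq_fintype_card, FiniteField.pow_card, sub_self]
  have hcard : (X ^ Nat.card k' - X : κ[X]).roots.toFinset.card ≤ (Finset.univ.image ι).card := by
    rw [Finset.card_image_of_injective _ ι.injective, Finset.card_univ,
      ← Nat.card_eq_fintype_card]
    calc (X ^ Nat.card k' - X : κ[X]).roots.toFinset.card
        ≤ Multiset.card (X ^ Nat.card k' - X : κ[X]).roots := Multiset.toFinset_card_le _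
      _ ≤ (X ^ Nat.card k' - X : κ[X]).natDegree := card_roots' _
      _ = Nat.card k' := hdeg
  have heq := Finset.eq_of_subset_of_card_le hsub hcard
  have hbmem : b ∈ (X ^ Nat.card k' - X : κ[X]).roots.toFinset := by
    rw [Multiset.mem_toFinset, mem_roots hP0, IsRoot.def, eval_sub, eval_pow, eval_X, hb,
      sub_self]
  rw [← heq] at hbmem
  obtain ⟨n, -, hn⟩ := Finset.mem_image.mp hbmem
  exact ⟨n, hn⟩

/-- **twisted Frobenius-fixed functions**: functions `v i : X → κ` with
`v i (θ x) ^ (p ^ f) = c * v i x` (`c ≠ 0`) which are linearly independent over the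
coefficients `j : R → κ` (containing all `b` with `b ^ (p ^ f) = b`) are linearly independent
over `κ`. -/
theorem h75s_coreq {p : ℕ} [Fact p.Prime] {κ : Type*} [Field κ] [CharP κ p] (f : ℕ)
    {R : Type*} [Ring R] (j : R →+* κ) (hfix : ∀ b : κ, b ^ (p ^ f) = b → ∃ n : R, j n = b)
    {X ι : Type*} (θ : X → X) (c : κ) (hc : c ≠ 0)
    (v : ι → X → κ) (hv : ∀ i x, v i (θ x) ^ (p ^ f) = c * v i x)
    (hind : ∀ (s : Finset ι) (n : ι → R),
      (∀ x, ∑ i ∈ s, j (n i) * v i x = 0) → ∀ i ∈ s, n i = 0)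
    (s : Finset ι) :
    ∀ a : ι → κ, (∀ x, ∑ i ∈ s, a i * v i x = 0) → ∀ i ∈ s, a i = 0 := by
  classical
  induction s using Finset.induction_on with
  | empty =>
    intro a _ i hi
    exact absurd hi (Finset.notMem_empty i)
  | insert i₀ s' hi₀ ih =>
    intro a ha
    have key : a i₀ = 0 := by
      by_contra h0
      have hb : ∀ x, v i₀ x + ∑ i ∈ s', (a i / a i₀) * v i x = 0 := by
        intro x
        have h1 := ha x
        rw [Finset.sum_insert hi₀] at h1
        have h2 : v i₀ x + ∑ i ∈ s', (a i / a i₀) * v i x =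
            (a i₀)⁻¹ * (a i₀ * v i₀ x + ∑ i ∈ s', a i * v i x) := by
          rw [mul_add, Finset.mul_sum, ← mul_assoc, inv_mul_cancel₀ h0, one_mul]
          congr 1
          refine Finset.sum_congr rfl fun i _ => ?_
          rw [div_eq_mul_inv]
          ring
        rw [h2, h1, mul_zero]
      have hb' : ∀ x, v i₀ x + ∑ i ∈ s', (a i / a i₀) ^ (p ^ f) * v i x = 0 := by
        intro x
        have h1 : (v i₀ (θ x) + ∑ i ∈ s', (a i / a i₀) * v i (θ x)) ^ (p ^ f) = 0 ^ (p ^ f) := by
          rw [hb (θ x)]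
        rw [add_pow_char_pow, sum_pow_char_pow,
          zero_pow (pow_ne_zero _ (Fact.out : p.Prime).ne_zero), hv] at h1
        have h2 : ∑ i ∈ s', ((a i / a i₀) * v i (θ x)) ^ (p ^ f) =
            c * ∑ i ∈ s', (a i / a i₀) ^ (p ^ f) * v i x := by
          rw [Finset.mul_sum]
          refine Finset.sum_congr rfl fun i _ => ?_
          rw [mul_pow, hv]
          ring
        rw [h2, ← mul_add] at h1
        exact (mul_eq_zero.mp h1).resolve_left hc
      have hd : ∀ x, ∑ i ∈ s', ((a i / a i₀) ^ (p ^ f) - a i / a i₀) * v i x = 0 := by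
        intro x
        have h1 := hb x
        have h2 := hb' x
        have h3 : ∑ i ∈ s', ((a i / a i₀) ^ (p ^ f) - a i / a i₀) * v i x =
            (v i₀ x + ∑ i ∈ s', (a i / a i₀) ^ (p ^ f) * v i x) -
              (v i₀ x + ∑ i ∈ s', (a i / a i₀) * v i x) := by
          rw [add_sub_add_left_eq_sub, ← Finset.sum_sub_distrib]
          refine Finset.sum_congr rfl fun i _ => ?_
          ring
        rw [h3, h1, h2, sub_zero]
      have hfx : ∀ i ∈ s', (a i / a i₀) ^ (p ^ f) = a i / a i₀ := fun i hi =>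
        sub_eq_zero.mp (ih _ hd i hi)
      have hex : ∀ i, ∃ n : R, i ∈ s' → j n = a i / a i₀ := by
        intro i
        by_cases hi : i ∈ s'
        · obtain ⟨n, hn⟩ := hfix _ (hfx i hi)
          exact ⟨n, fun _ => hn⟩
        · exact ⟨0, fun h => absurd h hi⟩
      choose n hn using hex
      have hrel : ∀ x, ∑ i ∈ insert i₀ s', j (Function.update n i₀ 1 i) * v i x = 0 := by
        intro x
        rw [Finset.sum_insert hi₀, Function.update_self, map_one, one_mul, ← hb x]
        congr 1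
        refine Finset.sum_congr rfl fun i hi => ?_
        have hne : i ≠ i₀ := fun h => hi₀ (h ▸ hi)
        rw [Function.update_of_ne hne, hn i hi]
      have h1 := hind (insert i₀ s') (Function.update n i₀ 1) hrel i₀
        (Finset.mem_insert_self _ _)
      rw [Function.update_self] at h1
      have h2 : j (1 : R) = 0 := by rw [h1, map_zero]
      rw [map_one] at h2
      exact one_ne_zero h2
    intro i hi
    rcases Finset.mem_insert.mp hi with rfl | hi'
    · exact key
    · refine ih a ?_ i hi'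
      intro x
      have h1 := ha x
      rw [Finset.sum_insert hi₀, key, zero_mul, zero_add] at h1
      exact h1


/-- **the count**: let `L` be a one dimensional vector space over the finite field `k`, `k'` a
subfield of `k` with an embedding `ι` into a field `κ`, and `F₀, F : L → κ` additive,
`ι`-linear over `k'`, with `F (θ l) ^ #k' = c * F l` (`θ` a `k`-linear map of `L`, `c ≠ 0`).
If `F₀ ≠ 0` then `F = F₀ (x • ·)` for some `x ∈ k`. -/
theorem h75s_count {p : ℕ} [Fact p.Prime] {k : Type*} [Field k] [Finite k]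
    {κ : Type*} [Field κ] [CharP κ p] (k' : Subfield k) (ι : k' →+* κ)
    {L : Type*} [AddCommGroup L] [Module k L] [Module.Finite k L]
    (hL : Module.finrank k L = 1)
    (θ : L → L) (hθ : ∀ (x : k) (l : L), θ (x • l) = x • θ l) (c : κ) (hc : c ≠ 0)
    (F₀ F : L → κ)
    (hadd₀ : ∀ l l', F₀ (l + l') = F₀ l + F₀ l') (hadd : ∀ l l', F (l + l') = F l + F l')
    (hlin₀ : ∀ (x : k') (l : L), F₀ ((x : k) • l) = ι x * F₀ l)
    (hlin : ∀ (x : k') (l : L), F ((x : k) • l) = ι x * F l)
    (hfrob₀ : ∀ l, F₀ (θ l) ^ Nat.card k' = c * F₀ l)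
    (hfrob : ∀ l, F (θ l) ^ Nat.card k' = c * F l)
    (hF₀ : ∃ l, F₀ l ≠ 0) : ∃ x : k, ∀ l, F l = F₀ (x • l) := by
  classical
  haveI : Fintype k' := Fintype.ofFinite k'
  haveI : CharP k' p := ι.charP ι.injective p
  obtain ⟨f, -, hcard⟩ := FiniteField.card k' p
  have hq : Nat.card k' = p ^ (f : ℕ) := by rw [Nat.card_eq_fintype_card, hcard]
  rw [hq] at hfrob₀ hfrob
  letI : Algebra k' κ := ι.toAlgebra
  haveI : Module.Finite k' k := Module.Finite.of_finite
  haveI : Module.Finite k' L := Module.Finite.trans k L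
  -- the `k'`-linear maps `l ↦ G (x • l)`
  have hsm : ∀ (x : k') (l : L), x • l = (x : k) • l := fun _ _ => rfl
  let mk : ∀ G : L → κ, (∀ l l', G (l + l') = G l + G l') →
      (∀ (x : k') (l : L), G ((x : k) • l) = ι x * G l) → k → (L →ₗ[k'] κ) := fun G hG hG' y =>
    { toFun := fun l => G (y • l)
      map_add' := fun l l' => by rw [smul_add, hG]
      map_smul' := fun x l => by
        rw [hsm, smul_comm, hG', RingHom.id_apply, Algebra.smul_def]
        rfl }
  have hmk : ∀ G hG hG' y l, mk G hG hG' y l = G (y • l) := fun _ _ _ _ _ => rfl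
  set b := Module.finBasis k' k with hbdef
  let w : Option (Fin (Module.finrank k' k)) → (L →ₗ[k'] κ) := fun i =>
    match i with
    | none => mk F hadd hlin 1
    | some i => mk F₀ hadd₀ hlin₀ (b i)
  have hwnone : ∀ l, w none l = F l := fun l => by
    change F ((1 : k) • l) = F l
    rw [one_smul]
  have hwsome : ∀ i l, w (some i) l = F₀ (b i • l) := fun _ _ => rfl
  have hwfrob : ∀ i l, w i (θ l) ^ (p ^ (f : ℕ)) = c * w i l := by
    intro i l
    cases i with
    | none => rw [hwnone, hwnone, hfrob]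
    | some i => rw [hwsome, hwsome, ← hθ, hfrob₀]
  -- a nontrivial relation with coefficients in `k'`
  have key : ∃ n : Option (Fin (Module.finrank k' k)) → k', (∃ i, n i ≠ 0) ∧
      ∀ l, ∑ i, ι (n i) * w i l = 0 := by
    by_contra hno
    have hind : ∀ (s : Finset (Option (Fin (Module.finrank k' k))))
        (n : Option (Fin (Module.finrank k' k)) → k'),
        (∀ l, ∑ i ∈ s, ι (n i) * w i l = 0) → ∀ i ∈ s, n i = 0 := by
      intro s n hn i hi
      by_contra hni
      apply hno
      refine ⟨fun j => if j ∈ s then n j else 0, ⟨i, by simpa only [if_pos hi] using hni⟩, ?_⟩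
      intro l
      rw [← hn l, ← Finset.sum_subset (Finset.subset_univ s)]
      · refine Finset.sum_congr rfl fun j hj => ?_
        simp only [if_pos hj]
      · intro j _ hj
        simp only [if_neg hj, map_zero, zero_mul]
    have hli : LinearIndependent κ w := by
      rw [linearIndependent_iff']
      intro s a ha
      refine h75s_coreq (p := p) (f : ℕ) ι
        (fun b hb => h75s_mem_range_of_pow_card ι (by rw [hq]; exact hb)) θ c hc
        (fun i l => w i l) hwfrob hind s a ?_
      intro l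
      have h1 := congrArg (fun G : L →ₗ[k'] κ => G l) ha
      simp only [LinearMap.sum_apply, LinearMap.smul_apply, smul_eq_mul,
        LinearMap.zero_apply] at h1
      exact h1
    have h2 := hli.fintype_card_le_finrank
    rw [Fintype.card_option, Fintype.card_fin, Module.finrank_linearMap_self,
      ← Module.finrank_mul_finrank k' k L, hL, mul_one] at h2
    omega
  obtain ⟨n, ⟨i₁, hi₁⟩, hrel⟩ := key
  -- the relation reads `F₀ (y • l) + ι (n none) * F l = 0`
  have hsum : ∀ l, F₀ ((∑ i, (n (some i) : k) * b i) • l) + ι (n none) * F l = 0 := by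
    intro l
    have h1 := hrel l
    rw [Fintype.sum_option, hwnone] at h1
    rw [← h1, add_comm]
    congr 1
    rw [Finset.sum_smul]
    have hF₀sum : ∀ (s : Finset (Fin (Module.finrank k' k))) (g : Fin (Module.finrank k' k) → L),
        F₀ (∑ i ∈ s, g i) = ∑ i ∈ s, F₀ (g i) := by
      intro s g
      induction s using Finset.induction_on with
      | empty =>
        rw [Finset.sum_empty, Finset.sum_empty]
        have h := hadd₀ 0 0
        rw [add_zero] at h
        exact left_eq_add.mp h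
      | insert a s ha ih => rw [Finset.sum_insert ha, Finset.sum_insert ha, hadd₀, ih]
    rw [hF₀sum]
    refine Finset.sum_congr rfl fun i _ => ?_
    rw [hwsome, mul_smul, hlin₀]
  obtain ⟨l₀, hl₀⟩ := hF₀
  have hnone : n none ≠ 0 := by
    intro h0
    -- then `F₀ (y • l) = 0` for all `l`, with `y ≠ 0`
    have hy : (∑ i, (n (some i) : k) * b i) ≠ 0 := by
      intro hy0
      have h1 : ∑ i, n (some i) • b i = 0 := by
        rw [← hy0]
        refine Finset.sum_congr rfl fun i _ => ?_
        rfl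
      have h2 := linearIndependent_iff'.mp b.linearIndependent Finset.univ
        (fun i => n (some i)) h1
      cases i₁ with
      | none => exact hi₁ h0
      | some i => exact hi₁ (h2 i (Finset.mem_univ i))
    apply hl₀
    have h3 := hsum ((∑ i, (n (some i) : k) * b i)⁻¹ • l₀)
    rw [h0, map_zero, zero_mul, add_zero, smul_smul, mul_inv_cancel₀ hy, one_smul] at h3
    exact h3
  refine ⟨-(((n none : k'))⁻¹ : k') * ∑ i, (n (some i) : k) * b i, fun l => ?_⟩
  have h4 := hsum l
  have h5 : F₀ ((-(((n none : k'))⁻¹ : k') * ∑ i, (n (some i) : k) * b i) • l) =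
      ι (-(n none)⁻¹) * F₀ ((∑ i, (n (some i) : k) * b i) • l) := by
    rw [mul_smul, ← hlin₀]
    rfl
  rw [h5, eq_neg_of_add_eq_zero_left h4, map_neg, map_inv₀]
  have hι : ι (n none) ≠ 0 := (map_ne_zero ι).mpr hnone
  field_simp


/-- the `k`-module structure on `Hom(k, 𝔽_p)`, `(x • l) y = l (x * y)`. -/
@[reducible] def h75sDualModule (p : ℕ) (k : Type*) [Field k] : Module k (k →+ ZMod p) where
  smul x l := l.comp (AddMonoidHom.mulLeft x)
  one_smul l := by
    ext y
    change l (1 * y) = l y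
    rw [one_mul]
  mul_smul x y l := by
    ext z
    change l (x * y * z) = l (y * (x * z))
    congr 1
    ring
  smul_zero x := by
    ext z
    rfl
  smul_add x l l' := by
    ext z
    rfl
  add_smul x y l := by
    ext z
    change l ((x + y) * z) = l (x * z) + l (y * z)
    rw [add_mul, map_add]
  zero_smul l := by
    ext z
    change l (0 * z) = 0
    rw [zero_mul, map_zero]

theorem h75s_dual_smul_def (p : ℕ) (k : Type*) [Field k] (x : k) (l : k →+ ZMod p) :
    letI := h75sDualModule p k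
    x • l = l.comp (AddMonoidHom.mulLeft x) := rfl

/-- `Hom(k, 𝔽_p)` is one dimensional over the finite field `k`. -/
theorem h75s_dual_finrank (p : ℕ) [Fact p.Prime] (k : Type*) [Field k] [Finite k] [CharP k p] :
    letI := h75sDualModule p k
    Module.finrank k (k →+ ZMod p) = 1 := by
  classical
  letI := h75sDualModule p k
  letI : Algebra (ZMod p) k := ZMod.algebra k p
  haveI : Module.Finite (ZMod p) k := Module.Finite.of_finite
  haveI : Fintype k := Fintype.ofFinite k
  haveI : Finite (k →+ ZMod p) := Finite.of_injective (fun l : k →+ ZMod p => (l : k → ZMod p))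
    DFunLike.coe_injective
  haveI : Fintype (k →+ ZMod p) := Fintype.ofFinite _
  haveI : Finite (k →ₗ[ZMod p] ZMod p) :=
    Finite.of_injective (fun l : k →ₗ[ZMod p] ZMod p => (l : k → ZMod p)) DFunLike.coe_injective
  haveI : Fintype (k →ₗ[ZMod p] ZMod p) := Fintype.ofFinite _
  have h1 : Fintype.card (k →+ ZMod p) = Fintype.card k ^ Module.finrank k (k →+ ZMod p) :=
    Module.card_eq_pow_finrank
  have h2 : Fintype.card (k →+ ZMod p) = Fintype.card (k →ₗ[ZMod p] ZMod p) :=
    Fintype.card_congr (AddMonoidHom.toZModLinearMapEquiv p).toEquiv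
  have h3 : Fintype.card (k →ₗ[ZMod p] ZMod p) =
      Fintype.card (ZMod p) ^ Module.finrank (ZMod p) (k →ₗ[ZMod p] ZMod p) :=
    Module.card_eq_pow_finrank
  have h4 : Fintype.card k = Fintype.card (ZMod p) ^ Module.finrank (ZMod p) k :=
    Module.card_eq_pow_finrank
  have h5 : Module.finrank (ZMod p) (k →ₗ[ZMod p] ZMod p) = Module.finrank (ZMod p) k :=
    Subspace.dual_finrank_eq
  rw [h2, h3, h5, ← h4] at h1
  have h6 : Fintype.card k ^ 1 = Fintype.card k ^ Module.finrank k (k →+ ZMod p) := by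
    rw [pow_one]
    exact h1
  exact (Nat.pow_right_injective Fintype.one_lt_card h6).symm


/-- a subfield of a field of characteristic `p` all of whose elements satisfy `x ^ (p²) = x`,
containing some `θ` with `θ ^ p ≠ θ`, has `p²` elements. -/
theorem h75s_card_sq {p : ℕ} [Fact p.Prime] {k : Type*} [Field k] [Finite k] [CharP k p]
    (k' : Subfield k) (h1 : ∀ x ∈ k', x ^ (p ^ 2) = x) {θ : k} (hθ : θ ∈ k') (hθ2 : θ ^ p ≠ θ) :
    Nat.card k' = p ^ 2 := by
  classical
  have hp : p.Prime := Fact.out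
  haveI : Fintype k' := Fintype.ofFinite k'
  haveI : CharP k' p := (k'.subtype).charP k'.subtype.injective p
  obtain ⟨f, -, hcard⟩ := FiniteField.card k' p
  rw [Nat.card_eq_fintype_card, hcard]
  have hf1 : (f : ℕ) ≠ 1 := by
    intro hf
    apply hθ2
    have h2 := FiniteField.pow_card (⟨θ, hθ⟩ : k')
    rw [hcard, hf, pow_one] at h2
    exact congrArg Subtype.val h2
  have hf2 : (f : ℕ) ≤ 2 := by
    have hP0 : (X ^ p ^ 2 - X : k[X]) ≠ 0 :=
      FiniteField.X_pow_card_pow_sub_X_ne_zero k (by norm_num) hp.one_lt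
    have hdeg : (X ^ p ^ 2 - X : k[X]).natDegree = p ^ 2 :=
      FiniteField.X_pow_card_pow_sub_X_natDegree_eq k (by norm_num) hp.one_lt
    have hsub : (Finset.univ.image (Subtype.val : k' → k)).val ⊆ (X ^ p ^ 2 - X : k[X]).roots := by
      intro y hy
      rw [Finset.mem_val] at hy
      obtain ⟨x, -, rfl⟩ := Finset.mem_image.mp hy
      rw [mem_roots hP0, IsRoot.def, eval_sub, eval_pow, eval_X, h1 _ x.2, sub_self]
    have h3 := card_le_degree_of_subset_roots hsub
    rw [Finset.card_image_of_injective _ Subtype.val_injective, Finset.card_univ, hcard,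
      hdeg] at h3
    exact (Nat.pow_le_pow_iff_right hp.one_lt).mp h3
  have hf0 : 0 < (f : ℕ) := f.pos
  have hf : (f : ℕ) = 2 := by omega
  rw [hf]

/-- the concrete form of `h75s_count` for `L = Hom(k, 𝔽_p)`. -/
theorem h75s_countHom {p : ℕ} [Fact p.Prime] {k : Type*} [Field k] [Finite k] [CharP k p]
    {κ : Type*} [Field κ] [CharP κ p] (k' : Subfield k) (ι : k' →+* κ) (c₀ : k) (c : κ)
    (hc : c ≠ 0) (F₀ F : (k →+ ZMod p) → κ)
    (hadd₀ : ∀ l l', F₀ (l + l') = F₀ l + F₀ l') (hadd : ∀ l l', F (l + l') = F l + F l')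
    (hlin₀ : ∀ (x : k') l, F₀ (l.comp (AddMonoidHom.mulLeft (x : k))) = ι x * F₀ l)
    (hlin : ∀ (x : k') l, F (l.comp (AddMonoidHom.mulLeft (x : k))) = ι x * F l)
    (hfrob₀ : ∀ l, F₀ (l.comp (AddMonoidHom.mulLeft c₀)) ^ Nat.card k' = c * F₀ l)
    (hfrob : ∀ l, F (l.comp (AddMonoidHom.mulLeft c₀)) ^ Nat.card k' = c * F l)
    (hF₀ : ∃ l, F₀ l ≠ 0) : ∃ x : k, ∀ l, F l = F₀ (l.comp (AddMonoidHom.mulLeft x)) := by
  classical
  letI := h75sDualModule p k
  haveI : Finite (k →+ ZMod p) := Finite.of_injective (fun l : k →+ ZMod p => (l : k → ZMod p))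
    DFunLike.coe_injective
  haveI : Module.Finite k (k →+ ZMod p) := Module.Finite.of_finite
  refine h75s_count (p := p) k' ι (h75s_dual_finrank p k)
    (fun l => l.comp (AddMonoidHom.mulLeft c₀)) ?_ c hc F₀ F hadd₀ hadd hlin₀ hlin hfrob₀ hfrob hF₀
  intro x l
  ext z
  change l (x * (c₀ * z)) = l (c₀ * (x * z))
  congr 1
  ring

/-- **the semilinear count, `p²`-form** (general coefficients). -/
theorem h75s_ssSemilin_gen {p : ℕ} [Fact p.Prime] {k : Type*} [Field k] [Finite k] [CharP k p]
    {κ : Type*} [Field κ] [CharP κ p] {S : Type*} [AddCommGroup S] [Module k S]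
    (T : S → (k →+ ZMod p) → κ) (θ c : k) (hc0 : c ≠ 0) (u c₂ : κ) (hc₂ : c₂ ≠ 0)
    (hθ1 : θ ^ (p ^ 2) = θ) (hθ2 : θ ^ p ≠ θ)
    (hadd1 : ∀ μ μ' l, T (μ + μ') l = T μ l + T μ' l)
    (hadd2 : ∀ μ l l', T μ (l + l') = T μ l + T μ l')
    (hsmul : ∀ (x : k) μ l, T (x • μ) l = T μ (l.comp (AddMonoidHom.mulLeft x)))
    (hθ : ∀ μ l, T μ (l.comp (AddMonoidHom.mulLeft θ)) = u * T μ l)
    (hfrob : ∀ μ l, c₂ * T μ (l.comp (AddMonoidHom.mulLeft c)) = T μ l ^ (p ^ 2)) :
    ∃ μ₀ : S, ∀ μ : S, ∃ x : k, ∀ l, T (μ - x • μ₀) l = 0 := by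
  classical
  have hp : p.Prime := Fact.out
  have hT0 : ∀ μ, T μ 0 = 0 := by
    intro μ
    have h := hadd2 μ 0 0
    rw [add_zero] at h
    exact left_eq_add.mp h
  have hTneg : ∀ μ l, T μ (-l) = -T μ l := by
    intro μ l
    have h := hadd2 μ l (-l)
    rw [add_neg_cancel, hT0] at h
    exact (neg_eq_of_add_eq_zero_right h.symm).symm
  have hTsub : ∀ μ μ' l, T (μ - μ') l = T μ l - T μ' l := by
    intro μ μ' l
    have h := hadd1 (μ - μ') μ' l
    rw [sub_add_cancel] at h
    rw [h, add_sub_cancel_right]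
  by_cases hex : ∃ μ₀ l₀, T μ₀ l₀ ≠ 0
  swap
  · refine ⟨0, fun μ => ⟨0, fun l => ?_⟩⟩
    by_contra h
    exact hex ⟨_, _, h⟩
  obtain ⟨μ₀, l₀, hμ₀⟩ := hex
  refine ⟨μ₀, fun μ => ?_⟩
  -- composition rules
  have hcm : ∀ (l : k →+ ZMod p) (x x' : k), l.comp (AddMonoidHom.mulLeft (x * x')) =
      (l.comp (AddMonoidHom.mulLeft x')).comp (AddMonoidHom.mulLeft x) := by
    intro l x x'
    ext z
    change l (x * x' * z) = l (x' * (x * z))
    congr 1
    ring
  have hca : ∀ (l : k →+ ZMod p) (x x' : k), l.comp (AddMonoidHom.mulLeft (x + x')) =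
      l.comp (AddMonoidHom.mulLeft x) + l.comp (AddMonoidHom.mulLeft x') := by
    intro l x x'
    ext z
    change l ((x + x') * z) = l (x * z) + l (x' * z)
    rw [add_mul, map_add]
  have hcn : ∀ (l : k →+ ZMod p) (x : k), l.comp (AddMonoidHom.mulLeft (-x)) =
      -l.comp (AddMonoidHom.mulLeft x) := by
    intro l x
    ext z
    change l (-x * z) = -l (x * z)
    rw [neg_mul, map_neg]
  have hc1 : ∀ (l : k →+ ZMod p), l.comp (AddMonoidHom.mulLeft (1 : k)) = l := by
    intro l
    ext z
    change l (1 * z) = l z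
    rw [one_mul]
  have hcz : ∀ (l : k →+ ZMod p), l.comp (AddMonoidHom.mulLeft (0 : k)) = 0 := by
    intro l
    ext z
    change l (0 * z) = 0
    rw [zero_mul, map_zero]
  -- the subfield of multipliers
  let k' : Subfield k :=
    { carrier := {x | x ^ (p ^ 2) = x ∧
        ∃ y : κ, ∀ μ l, T μ (l.comp (AddMonoidHom.mulLeft x)) = y * T μ l}
      mul_mem' := by
        rintro x x' ⟨hx, y, hy⟩ ⟨hx', y', hy'⟩
        refine ⟨by rw [mul_pow, hx, hx'], y * y', fun μ l => ?_⟩
        rw [hcm, hy, hy', mul_assoc]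
      one_mem' := ⟨one_pow _, 1, fun μ l => by rw [hc1, one_mul]⟩
      add_mem' := by
        rintro x x' ⟨hx, y, hy⟩ ⟨hx', y', hy'⟩
        refine ⟨by rw [add_pow_char_pow, hx, hx'], y + y', fun μ l => ?_⟩
        rw [hca, hadd2, hy, hy', add_mul]
      zero_mem' := ⟨zero_pow (pow_ne_zero _ hp.ne_zero), 0, fun μ l => by
        rw [hcz, hT0, zero_mul]⟩
      neg_mem' := by
        rintro x ⟨hx, y, hy⟩
        refine ⟨by rw [neg_pow, hx, neg_one_pow_char_pow, neg_one_mul], -y, fun μ l => ?_⟩
        rw [hcn, hTneg, hy, neg_mul]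
      inv_mem' := by
        rintro x ⟨hx, y, hy⟩
        refine ⟨by rw [inv_pow, hx], ?_⟩
        by_cases hx0 : x = 0
        · refine ⟨0, fun μ l => ?_⟩
          rw [hx0, inv_zero, hcz, hT0, zero_mul]
        · have hy0 : y ≠ 0 := by
            intro hy0
            apply hμ₀
            have h1 := hy μ₀ (l₀.comp (AddMonoidHom.mulLeft x⁻¹))
            rw [← hcm, mul_inv_cancel₀ hx0, hc1, hy0, zero_mul] at h1
            exact h1
          refine ⟨y⁻¹, fun μ l => ?_⟩
          have h1 := hy μ (l.comp (AddMonoidHom.mulLeft x⁻¹))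
          rw [← hcm, mul_inv_cancel₀ hx0, hc1] at h1
          rw [h1, ← mul_assoc, inv_mul_cancel₀ hy0, one_mul] }
  have hk'mem : ∀ x : k, x ∈ k' ↔ x ^ (p ^ 2) = x ∧
      ∃ y : κ, ∀ μ l, T μ (l.comp (AddMonoidHom.mulLeft x)) = y * T μ l := fun _ => Iff.rfl
  have hθmem : θ ∈ k' := ⟨hθ1, u, hθ⟩
  have hcard : Nat.card k' = p ^ 2 := h75s_card_sq k' (fun x hx => hx.1) hθmem hθ2
  -- the embedding of `k'` into `κ`
  have hιex : ∀ x : k', ∃ y : κ, ∀ μ l, T μ (l.comp (AddMonoidHom.mulLeft (x : k))) = y * T μ l :=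
    fun x => x.2.2
  choose ι₀ hι₀ using hιex
  have huniq : ∀ (x : k') (y : κ),
      (∀ μ l, T μ (l.comp (AddMonoidHom.mulLeft (x : k))) = y * T μ l) → ι₀ x = y := by
    intro x y hy
    have h1 := hι₀ x μ₀ l₀
    rw [hy μ₀ l₀] at h1
    exact (mul_right_cancel₀ hμ₀ h1).symm
  let ι : k' →+* κ :=
    { toFun := ι₀
      map_one' := huniq 1 1 fun μ l => by
        rw [one_mul]
        change T μ (l.comp (AddMonoidHom.mulLeft (1 : k))) = T μ l
        rw [hc1]
      map_mul' := fun x x' => huniq (x * x') (ι₀ x * ι₀ x') fun μ l => by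
        change T μ (l.comp (AddMonoidHom.mulLeft ((x : k) * (x' : k)))) = _
        rw [hcm, hι₀, hι₀, mul_assoc]
      map_zero' := huniq 0 0 fun μ l => by
        change T μ (l.comp (AddMonoidHom.mulLeft (0 : k))) = _
        rw [hcz, hT0, zero_mul]
      map_add' := fun x x' => huniq (x + x') (ι₀ x + ι₀ x') fun μ l => by
        change T μ (l.comp (AddMonoidHom.mulLeft ((x : k) + (x' : k)))) = _
        rw [hca, hadd2, hι₀, hι₀, add_mul] }
  have hιdef : ∀ x : k', ι x = ι₀ x := fun _ => rfl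
  -- the Frobenius relation
  have hfr : ∀ ν l, T ν (l.comp (AddMonoidHom.mulLeft c⁻¹)) ^ Nat.card k' = c₂ * T ν l := by
    intro ν l
    rw [hcard, ← hfrob, ← hcm, mul_inv_cancel₀ hc0, hc1]
  obtain ⟨x, hx⟩ := h75s_countHom (p := p) k' ι c⁻¹ c₂ hc₂ (T μ₀) (T μ) (hadd2 μ₀) (hadd2 μ)
    (fun x l => by rw [hιdef]; exact hι₀ x μ₀ l) (fun x l => by rw [hιdef]; exact hι₀ x μ l)
    (hfr μ₀) (hfr μ) ⟨l₀, hμ₀⟩
  refine ⟨x, fun l => ?_⟩
  rw [hTsub, hsmul, hx l, sub_self]

end Fermat.Agent.S56F
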