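import Fermat.Agent.S56F.FLS4BIface_helper51
import Fermat.Agent.S56F.FLS4Count_helper75

/-!
# S56 / LOC-p-FL, block SS, row FL-S4B-COUNT (helper75): `H51SSSemilin`

The frozen Prop `H51SSSemilin` of `S56F/FLS4BIface_helper51.lean`, from the Mathlib-only
`h75s_ssSemilin_gen` (`S56F/FLS4Count_helper75.lean`).
-/

set_option autoImplicit false

namespace Fermat.Agent.S56F

/-- **FL-S4B-COUNT**: the semilinear count, `p²`-form. -/
theorem h75s_ssSemilin : H51SSSemilin := by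
  intro p _ k _ _ _ κ _ _ S _ _ T θ c u c₂ hc₂ hθ1 hθ2 hadd1 hadd2 hsmul hθ hfrob
  have hc₂' : (c₂ : κ) ≠ 0 := fun h => hc₂ ((CharP.cast_eq_zero_iff κ p c₂).mp h)
  exact h75s_ssSemilin_gen T (θ : k) (c : k) c.ne_zero u (c₂ : κ) hc₂' hθ1 hθ2 hadd1 hadd2
    hsmul hθ hfrob

end Fermat.Agent.S56F
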