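import Fermat.Agent.S56F.FLS4Iface_helper89

/-!
# S56 / LOC-p-FL, block SS, leaf FL-S4-KUM = FL-S4B (helper51): frozen sub-leaves of `H89SSKum`

`H89SSKum` (the supersingular Kummer count, `S56F/FLS4Iface_helper89.lean`) is split into

* `H51SSLead`    (level calculus over `K = ℚ_p^ur(π)`, `π ^ (p² - 1) = p`; owner helper51, file
                 `S56F/FLS4Lev_helper51.lean`): the leading coefficient `A μ l ∈ κ` at level
                 `p² + 1` of the Kummer class of `l ∘ μ`: additive in `μ` and in `l`, compatible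
                 with the scalars of `k`, an eigenvector for one `θ ∈ 𝔽_{p²} ∖ 𝔽_p`, Frobenius
                 semilinear (`p²`-power), and injective on `I_K`.
* `H51SSSemilin` (pure algebra, Mathlib only; the `p²`-form of `H34KSemilin`): such a family
                 has `k`-rank `≤ 1`.
* assembly `H51SSLead → H51SSSemilin → H89SSKum` (the functions with `h89s_KumCond` form a
  `k`-submodule).

## Paper proof of `H51SSLead`

`κ` = residue field of `Om p`, `res` the residue map, `a_j x = res ((x - 1) / π ^ j)` for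
`‖x - 1‖ ≤ ‖π‖ ^ j`.  A generator of level `j` of a character `χ` of `I_K` is `β` with
`g β = ζ ^ χ(g) β` (`g ∈ I_K`) and `‖β ^ p - 1‖ ≤ ‖π‖ ^ j`.

(B) `y` fixed by `I_K`, `p ∤ j`, `j < p² + p`, `‖y ^ p - 1‖ ≤ ‖π‖ ^ j` ⟹
    `‖y ^ p - 1‖ ≤ ‖π‖ ^ (j + 1)` (binomial estimate + discreteness of `K`, `TameDiscrete`).
    Hence `a_j (β ^ p)` does not depend on the generator `β` of level `j`.
(D) `j = p i`, `i ≤ p`: divide `β` by `1 + w π ^ i`, `w ^ p ≡ a_j (β ^ p)`: level `j + 1`.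
(C) `p ∤ j < p² + p`: `σ β_l` generates `(l ∘ θ) ∘ μ` for `σ` in inertia, `θ = ω(σ) ψ(σ⁻¹)`,
    `τ θ = Ψ(σ) ^ (2 p)`, so `a_j (l ∘ θ) = res (Ψ σ) ^ j a_j l`; `θ² - t θ + n = 0` with
    `t, n ∈ 𝔽_p` gives `(ū ^ j - ū ^ (2 p)) (ū ^ j - ū ^ 2) a_j l = 0`: `a_j = 0` unless
    `j ≡ 2, 2 p mod p² - 1`.  In `3 ≤ j < p² + p` only `j = p² + 1` survives.
(TOP) level `≥ p² + p`: Artin–Schreier step `w ^ p + w ≡ a`, then the root of `Y ^ p = x` with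
    `‖y - 1‖ < ‖ζ - 1‖` is unique, hence fixed by `I_K`: `χ = 0` on `I_K`.
So every `l ∘ μ` has a generator of level `p² + 1`; `A μ l = a_{p²+1}`; `A μ = 0` ⟹ level
`≥ p² + 2` ⟹ (C) ... ⟹ level `≥ p² + p` ⟹ `μ = 0` on `I_K`.  `u = res (Ψ σ) ^ (p² + 1)`;
Frobenius: `s₀ β_l` generates `(c₂ • l ∘ c₀⁻¹) ∘ μ` (`s₀ ζ = ζ ^ c₂`) and
`a (s₀ x) = (a x) ^ (p²)`.

## Paper proof of `H51SSSemilin`

`L = (k →+ 𝔽_p)` is a `k`-line, `F₂ = 𝔽_p[θ]` has `p²` elements, `d = [k : F₂]`.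
`W = {F : L → κ additive, F (l ∘ θ) = u F l}` is a `κ`-space of dimension `≤ d`
(`F (l ∘ P(θ)) = P(u) F l`, so `F` is determined by its values on an `F₂`-basis of `L`).
`E = {F ∈ W | c₂ F (l ∘ c) = (F l) ^ (p²)}` is the fixed set of the `p²`-semilinear map
`Φ F l = c₂⁻¹ F (l ∘ c⁻¹) ^ (p²)`; fixed points which are independent over
`{λ ∈ κ | λ ^ (p²) = λ}` are `κ`-independent (shortest relation), so `#E ≤ (p²) ^ d = #k`.
`k` acts on `E` by `(x • F) l = F (l ∘ x)`, `T` is `k`-linear into `E`: its image is a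
`k`-subspace with at most `#k` elements.

Do NOT edit this file.
-/

set_option autoImplicit false

open Fermat.Agent.PT.Loc

noncomputable section

namespace Fermat.Agent.S56F

/-- **FL-S4B-LEAD** (the leading coefficient at level `p² + 1`). -/
def H51SSLead : Prop :=
  ∀ (p : ℕ) [Fact p.Prime], p ≠ 2 → ∀ (k : Type) [Field k] [Finite k] [CharP k p]
    (τ : kˣ →* (Om p)ˣ), IsTeich p τ → ∀ π : Om p, π ^ (p ^ 2 - 1) = p →
    ∀ (ψ : Gq p → kˣ),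
      (∀ σ ∈ inertia p, ((τ (ψ σ) : (Om p)ˣ) : Om p) * (σ π / π) ^ p = σ π / π) →
    ∀ (s₀ : Gq p), s₀ π = π →
      (∀ (w : Om p) (m : ℕ), 0 < m → ¬ p ∣ m → w ^ m = 1 → s₀ w = w ^ (p ^ 2)) →
    ∀ (c₀ : kˣ),
    ∃ (κ : Type) (_ : Field κ) (_ : CharP κ p) (θ : kˣ) (u : κ) (c₂ : ℕ)
      (A : (Gq p → k) → (k →+ ZMod p) → κ),
      ¬ p ∣ c₂ ∧ (θ : k) ^ (p ^ 2) = θ ∧ (θ : k) ^ p ≠ θ ∧
      (∀ μ μ' : Gq p → k, h89s_KumCond p π ψ s₀ c₀ μ → h89s_KumCond p π ψ s₀ c₀ μ' →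
        ∀ l, A (μ + μ') l = A μ l + A μ' l) ∧
      (∀ μ : Gq p → k, h89s_KumCond p π ψ s₀ c₀ μ → ∀ l l', A μ (l + l') = A μ l + A μ l') ∧
      (∀ μ : Gq p → k, h89s_KumCond p π ψ s₀ c₀ μ → ∀ (x : k) l,
        A (x • μ) l = A μ (l.comp (AddMonoidHom.mulLeft x))) ∧
      (∀ μ : Gq p → k, h89s_KumCond p π ψ s₀ c₀ μ → ∀ l,
        A μ (l.comp (AddMonoidHom.mulLeft (θ : k))) = u * A μ l) ∧
      (∀ μ : Gq p → k, h89s_KumCond p π ψ s₀ c₀ μ → ∀ l,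
        (c₂ : κ) * A μ (l.comp (AddMonoidHom.mulLeft ((c₀⁻¹ : kˣ) : k))) = A μ l ^ (p ^ 2)) ∧
      (∀ μ : Gq p → k, h89s_KumCond p π ψ s₀ c₀ μ → (∀ l, A μ l = 0) →
        ∀ g ∈ h89s_IK p π, μ g = 0)

/-- **FL-S4B-COUNT** (the semilinear count, `p²`-form; Mathlib only). -/
def H51SSSemilin : Prop :=
  ∀ (p : ℕ) [Fact p.Prime] (k : Type) [Field k] [Finite k] [CharP k p] (κ : Type) [Field κ]
    [CharP κ p] (S : Type) [AddCommGroup S] [Module k S] (T : S → (k →+ ZMod p) → κ)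
    (θ c : kˣ) (u : κ) (c₂ : ℕ), ¬ p ∣ c₂ → (θ : k) ^ (p ^ 2) = θ → (θ : k) ^ p ≠ θ →
    (∀ μ μ' l, T (μ + μ') l = T μ l + T μ' l) →
    (∀ μ l l', T μ (l + l') = T μ l + T μ l') →
    (∀ (x : k) μ l, T (x • μ) l = T μ (l.comp (AddMonoidHom.mulLeft x))) →
    (∀ μ l, T μ (l.comp (AddMonoidHom.mulLeft (θ : k))) = u * T μ l) →
    (∀ μ l, (c₂ : κ) * T μ (l.comp (AddMonoidHom.mulLeft (c : k))) = T μ l ^ (p ^ 2)) →
    ∃ μ₀ : S, ∀ μ : S, ∃ x : k, ∀ l, T (μ - x • μ₀) l = 0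

end Fermat.Agent.S56F
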