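import Fermat.Agent.S56F.FLS4KumIface_helper61
import Fermat.Agent.S56F.FLS4KP_helper10

/-!
# S56 / LOC-p-FL, row FL-S4K2 (helper7): `H61KUniq`, uniqueness of the coefficient

`h7u_kUniq : H61KUniq`.  Two generators `β, β'` of `χ` with coefficients `a, a'` at level `j`
(`p ∤ j`, `j < p² + p`): `c = β' / β` is fixed by `I_K`, `‖c ^ p - 1‖ = ‖β' ^ p - β ^ p‖ ≤ ‖π‖ ^ j`,
hence `≤ ‖π‖ ^ (j + 1)` (`H89KPowLev`, landed `h10v_kPowLev`), and
`(a - a') π ^ j = (x' - 1 - a' π ^ j) - (x' - x) - (x - 1 - a π ^ j)` has norm `< ‖π‖ ^ j`.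
-/

set_option autoImplicit false
set_option linter.style.haveILetI false
set_option linter.unusedSectionVars false

open Fermat.Agent.PT.Loc

noncomputable section

namespace Fermat.Agent.S56F

section Basic

variable {p : ℕ} [Fact p.Prime]

/-- the ultrametric inequality for a difference. -/
theorem h7u_norm_sub_le_max (a b : Om p) : ‖a - b‖ ≤ max ‖a‖ ‖b‖ := by
  have h := IsUltrametricDist.norm_add_le_max a (-b)
  rwa [norm_neg, ← sub_eq_add_neg] at h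

/-- `‖x - 1‖ < 1` implies `‖x‖ = 1`. -/
theorem h7u_norm_eq_one {x : Om p} (h : ‖x - 1‖ < 1) : ‖x‖ = 1 := by
  apply le_antisymm
  · have h1 := IsUltrametricDist.norm_add_le_max (x - 1) 1
    rw [sub_add_cancel, norm_one] at h1
    exact h1.trans (max_le h.le le_rfl)
  · by_contra hlt
    rw [not_le] at hlt
    have h1 := h7u_norm_sub_le_max x (x - 1)
    rw [sub_sub_cancel, norm_one] at h1
    exact absurd h1 (not_le.mpr (max_lt hlt h))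

/-- a generator with a coefficient at level `j ≥ 1`: `‖β ^ p - 1‖ ≤ ‖π‖ ^ j`, `‖β ^ p‖ = 1`. -/
theorem h7u_gen_norm {π : Om p} (hπ1 : ‖π‖ < 1) {j : ℕ} (hj0 : 0 < j) {a β : Om p}
    (ha : ‖a‖ ≤ 1) (h : ‖β ^ p - 1 - a * π ^ j‖ < ‖π‖ ^ j) :
    ‖β ^ p - 1‖ ≤ ‖π‖ ^ j ∧ ‖β ^ p‖ = 1 := by
  have h1 : ‖a * π ^ j‖ ≤ ‖π‖ ^ j := by
    rw [norm_mul, norm_pow]
    exact mul_le_of_le_one_left (pow_nonneg (norm_nonneg _) _) ha
  have h2 : ‖β ^ p - 1‖ ≤ ‖π‖ ^ j := by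
    have e : β ^ p - 1 = (β ^ p - 1 - a * π ^ j) + a * π ^ j := by ring
    rw [e]
    exact (IsUltrametricDist.norm_add_le_max _ _).trans (max_le h.le h1)
  have h3 : ‖π‖ ^ j < 1 := pow_lt_one₀ (norm_nonneg _) hπ1 hj0.ne'
  exact ⟨h2, h7u_norm_eq_one (lt_of_le_of_lt h2 h3)⟩

end Basic

/-- **FL-S4K2**, from the levels of `p`-th powers. -/
theorem h7u_kUniq_of (hP : H89KPowLev) : H61KUniq := by
  intro p _ hp2 π ζ hπ hζ hζ1 χ j a a' hpj hj ha ha' hc hc'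
  obtain ⟨β, hβ, hβa⟩ := hc
  obtain ⟨β', hβ', hβa'⟩ := hc'
  have hp : p.Prime := Fact.out
  have hj0 : 0 < j := Nat.pos_of_ne_zero (fun h => hpj (h ▸ dvd_zero p))
  have hπ1 : ‖π‖ < 1 := h10v_norm_pi_lt_one hπ
  have hπ0 : 0 < ‖π‖ := h10v_norm_pi_pos hπ
  have hπj : 0 < ‖π‖ ^ j := pow_pos hπ0 j
  obtain ⟨hx, hxn⟩ := h7u_gen_norm hπ1 hj0 ha hβa
  obtain ⟨hx', hxn'⟩ := h7u_gen_norm hπ1 hj0 ha' hβa'
  have hβ0 : β ≠ 0 := by
    rintro rfl
    rw [zero_pow hp.ne_zero, norm_zero] at hxn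
    exact zero_ne_one hxn
  have hx0 : β ^ p ≠ 0 := pow_ne_zero _ hβ0
  have hζ0 : ζ ≠ 0 := by
    rintro rfl
    rw [zero_pow hp.ne_zero] at hζ
    exact zero_ne_one hζ
  -- the quotient of the generators is in `K`
  have hfix : h89s_KFix p π (β' / β) := by
    intro g hg
    rw [map_div₀, hβ' g hg, hβ g hg, mul_div_mul_left _ _ (pow_ne_zero _ hζ0)]
  have hcp : (β' / β) ^ p - 1 = (β' ^ p - β ^ p) / β ^ p := by
    rw [div_pow, sub_div, div_self hx0]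
  have hdiff : ‖β' ^ p - β ^ p‖ ≤ ‖π‖ ^ j := by
    have e : β' ^ p - β ^ p = (β' ^ p - 1) - (β ^ p - 1) := by ring
    rw [e]
    exact (h7u_norm_sub_le_max _ _).trans (max_le hx' hx)
  have hlev : ‖(β' / β) ^ p - 1‖ ≤ ‖π‖ ^ j := by
    rw [hcp, norm_div, hxn, div_one]
    exact hdiff
  have hlev1 := hP p π hπ (β' / β) j hfix hj0 hj hpj hlev
  rw [hcp, norm_div, hxn, div_one] at hlev1
  have hlt : ‖β' ^ p - β ^ p‖ < ‖π‖ ^ j := by
    refine lt_of_le_of_lt hlev1 ?_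
    rw [pow_succ]
    exact mul_lt_of_lt_one_right hπj hπ1
  -- conclusion
  have e : (a - a') * π ^ j =
      (β' ^ p - 1 - a' * π ^ j) - ((β' ^ p - β ^ p) + (β ^ p - 1 - a * π ^ j)) := by ring
  have h1 : ‖(a - a') * π ^ j‖ < ‖π‖ ^ j := by
    rw [e]
    refine lt_of_le_of_lt (h7u_norm_sub_le_max _ _) (max_lt hβa' ?_)
    exact lt_of_le_of_lt (IsUltrametricDist.norm_add_le_max _ _) (max_lt hlt hβa)
  rw [norm_mul, norm_pow] at h1
  by_contra hge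
  rw [not_lt] at hge
  have h2 : ‖π‖ ^ j ≤ ‖a - a'‖ * ‖π‖ ^ j := le_mul_of_one_le_left hπj.le hge
  exact absurd h1 (not_lt.mpr h2)

/-- **FL-S4K2.** -/
theorem h7u_kUniq : H61KUniq := h7u_kUniq_of h10v_kPowLev

end Fermat.Agent.S56F
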