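import Fermat.Agent.S56F.FLS4KumIface_helper61
import Fermat.Agent.S56F.FLO8Kum_helper34
import Fermat.Agent.S56F.FLD4_helper7
import Fermat.Agent.S56F.FLD0_helper89

/-!
# S56 / LOC-p-FL, leaf FL-S4K5 (helper34): conjugation by inertia on the level coefficients

`h34w_kTwist : H61KTwist`.

Reusable parts (also for the Frobenius twist FL-S4K6):
* `h34w_isPrimitiveRoot`  : `ζ ^ p = 1`, `ζ ≠ 1` is a primitive `p`-th root of unity;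
* `h34w_norm_one_add_pow` : `‖(1 + y) ^ n - 1 - n y‖ ≤ ‖y‖ ^ 2`;
* `h34w_gen_conj`         : if `s ζ = ζ ^ m`, `n m ≡ 1 mod p` and `s⁻¹ I_K s ⊆ I_K`, then
                            `(s β) ^ n` generates `g ↦ χ (s⁻¹ g s)`;
* `h34w_coef_conj`        : `x ≡ 1 + a π ^ j`, `s π = Ψ π`, `s a ≡ a'`, `n a' Ψ ^ j ≡ b` give
                            `(s x) ^ n ≡ 1 + b π ^ j`;
* `h34w_pi_ne_zero`, `h34w_norm_pi_lt_one`.
-/

set_option autoImplicit false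
set_option linter.style.haveILetI false

open Fermat.Agent.PT.Loc

noncomputable section

namespace Fermat.Agent.S56F

variable {p : ℕ} [Fact p.Prime]

/-- `ζ ^ p = 1`, `ζ ≠ 1`: a primitive `p`-th root of unity. -/
theorem h34w_isPrimitiveRoot {ζ : Om p} (h1 : ζ ^ p = 1) (h2 : ζ ≠ 1) : IsPrimitiveRoot ζ p := by
  have hp : p.Prime := Fact.out
  have h3 := orderOf_dvd_of_pow_eq_one h1
  rcases (Nat.dvd_prime hp).1 h3 with h | h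
  · exact absurd (orderOf_eq_one_iff.1 h) h2
  · have h4 := IsPrimitiveRoot.orderOf ζ
    rwa [h] at h4

theorem h34w_natCast_p_ne_zero : ((p : ℕ) : Om p) ≠ 0 := by
  have hp : p.Prime := Fact.out
  exact_mod_cast hp.ne_zero

theorem h34w_pi_ne_zero {π : Om p} {N : ℕ} (hN : 0 < N) (hπ : π ^ N = p) : π ≠ 0 := by
  rintro rfl
  rw [zero_pow hN.ne'] at hπ
  exact h34w_natCast_p_ne_zero hπ.symm

theorem h34w_norm_pi_lt_one {π : Om p} {N : ℕ} (hπ : π ^ N = p) : ‖π‖ < 1 := by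
  by_contra h
  rw [not_lt] at h
  have h1 : 1 ≤ ‖π‖ ^ N := one_le_pow₀ h
  rw [← norm_pow, hπ] at h1
  exact absurd h34k_norm_p_lt (not_lt.2 h1)

/-- first order binomial expansion. -/
theorem h34w_norm_one_add_pow (y : Om p) (hy : ‖y‖ ≤ 1) (n : ℕ) :
    ‖(1 + y) ^ n - 1 - n * y‖ ≤ ‖y‖ ^ 2 := by
  induction n with
  | zero =>
    have h0 : (1 + y) ^ 0 - 1 - ((0 : ℕ) : Om p) * y = 0 := by
      push_cast
      ring
    rw [h0, norm_zero]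
    positivity
  | succ n ih =>
    have h1 : (1 + y) ^ (n + 1) - 1 - ((n + 1 : ℕ) : Om p) * y =
        (1 + y) * ((1 + y) ^ n - 1 - n * y) + n * y ^ 2 := by
      push_cast
      ring
    rw [h1]
    refine le_trans (IsUltrametricDist.norm_add_le_max _ _) (max_le ?_ ?_)
    · rw [norm_mul]
      have h2 : ‖1 + y‖ ≤ 1 :=
        le_trans (IsUltrametricDist.norm_add_le_max _ _) (max_le (by rw [norm_one]) hy)
      calc ‖1 + y‖ * ‖(1 + y) ^ n - 1 - n * y‖ ≤ 1 * ‖y‖ ^ 2 :=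
            mul_le_mul h2 ih (norm_nonneg _) zero_le_one
        _ = ‖y‖ ^ 2 := one_mul _
    · rw [norm_mul, norm_pow]
      calc ‖(n : Om p)‖ * ‖y‖ ^ 2 ≤ 1 * ‖y‖ ^ 2 :=
            mul_le_mul_of_nonneg_right (h34k_norm_natCast_le n) (by positivity)
        _ = ‖y‖ ^ 2 := one_mul _

/-- transport of a Kummer generator under conjugation. -/
theorem h34w_gen_conj {π ζ : Om p} (hζp : ζ ^ p = 1) {χ : Gq p → ZMod p} {β : Om p}
    (hβ : h61k_Gen p π ζ χ β) (s : Gq p)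
    (hs : ∀ g ∈ h89s_IK p π, s⁻¹ * g * s ∈ h89s_IK p π)
    {m n : ℕ} (hm : cycExp p s m) (hnm : ((n * m : ℕ) : ZMod p) = 1) :
    h61k_Gen p π ζ (fun g => χ (s⁻¹ * g * s)) ((s β) ^ n) := by
  intro g hg
  have h1 := hβ (s⁻¹ * g * s) (hs g hg)
  have h2 : g (s β) = s ((s⁻¹ * g * s) β) := by
    rw [AlgEquiv.mul_apply, AlgEquiv.mul_apply, h34k_inv_apply]
  show g ((s β) ^ n) = ζ ^ (χ (s⁻¹ * g * s)).val * (s β) ^ n
  rw [map_pow, h2, h1, map_mul, map_pow, hm ζ hζp, mul_pow, ← pow_mul, ← pow_mul]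
  congr 1
  apply h34k_root_pow_eq hζp
  have h3 : (n : ZMod p) * (m : ZMod p) = 1 := by exact_mod_cast hnm
  push_cast
  calc (m : ZMod p) * (((χ (s⁻¹ * g * s)).val : ZMod p) * (n : ZMod p))
      = ((χ (s⁻¹ * g * s)).val : ZMod p) * ((n : ZMod p) * (m : ZMod p)) := by ring
    _ = ((χ (s⁻¹ * g * s)).val : ZMod p) := by rw [h3, mul_one]

/-- transport of the coefficient at level `j`. -/
theorem h34w_coef_conj {π : Om p} (hπ0 : π ≠ 0) (hπ1 : ‖π‖ < 1) (s : Gq p) {Ψ : Om p}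
    (hΨ : s π = Ψ * π) (hΨ1 : ‖Ψ‖ = 1) {j : ℕ} (hj : 1 ≤ j) {a a' b x : Om p}
    (ha' : ‖s a - a'‖ < 1) (n : ℕ) (hb : ‖(n : Om p) * a' * Ψ ^ j - b‖ < 1)
    (hx : ‖x - 1 - a * π ^ j‖ < ‖π‖ ^ j) (ha : ‖a‖ ≤ 1) :
    ‖(s x) ^ n - 1 - b * π ^ j‖ < ‖π‖ ^ j := by
  have hr0 : 0 < ‖π‖ ^ j := pow_pos (norm_pos_iff.2 hπ0) j
  have hr1 : ‖π‖ ^ j < 1 := pow_lt_one₀ (norm_nonneg _) hπ1 (by omega)
  obtain ⟨ε, hε⟩ : ∃ ε : Om p, ε = x - 1 - a * π ^ j := ⟨_, rfl⟩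
  obtain ⟨y, hy⟩ : ∃ y : Om p, y = s x - 1 := ⟨_, rfl⟩
  have hy_eq : y = s a * Ψ ^ j * π ^ j + s ε := by
    rw [hy, hε]
    simp only [map_sub, map_mul, map_pow, map_one, hΨ]
    ring
  have hsε : ‖s ε‖ < ‖π‖ ^ j := by
    rw [h34k_norm_map, hε]
    exact hx
  have hsa : ‖s a‖ ≤ 1 := by
    rw [h34k_norm_map]
    exact ha
  have hyr : ‖y‖ ≤ ‖π‖ ^ j := by
    rw [hy_eq]
    refine le_trans (IsUltrametricDist.norm_add_le_max _ _) (max_le ?_ hsε.le)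
    rw [norm_mul, norm_mul, norm_pow, norm_pow, hΨ1, one_pow, mul_one]
    calc ‖s a‖ * ‖π‖ ^ j ≤ 1 * ‖π‖ ^ j := mul_le_mul_of_nonneg_right hsa hr0.le
      _ = ‖π‖ ^ j := one_mul _
  have hsx : s x = 1 + y := by
    rw [hy]
    ring
  have h1 : ‖(1 + y) ^ n - 1 - n * y‖ < ‖π‖ ^ j := by
    refine lt_of_le_of_lt (h34w_norm_one_add_pow y (hyr.trans hr1.le) n) ?_
    calc ‖y‖ ^ 2 ≤ (‖π‖ ^ j) ^ 2 := pow_le_pow_left₀ (norm_nonneg _) hyr 2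
      _ = ‖π‖ ^ j * ‖π‖ ^ j := sq _
      _ < ‖π‖ ^ j * 1 := mul_lt_mul_of_pos_left hr1 hr0
      _ = ‖π‖ ^ j := mul_one _
  have h2 : (s x) ^ n - 1 - b * π ^ j = ((1 + y) ^ n - 1 - n * y) +
      ((n : Om p) * (s a - a') * Ψ ^ j * π ^ j + (((n : Om p) * a' * Ψ ^ j - b) * π ^ j
        + n * s ε)) := by
    have h3 : (n : Om p) * y = n * (s a * Ψ ^ j * π ^ j + s ε) := by rw [← hy_eq]
    rw [hsx]
    linear_combination h3
  rw [h2]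
  refine lt_of_le_of_lt (IsUltrametricDist.norm_add_le_max _ _) (max_lt h1 ?_)
  refine lt_of_le_of_lt (IsUltrametricDist.norm_add_le_max _ _) (max_lt ?_ ?_)
  · rw [norm_mul, norm_mul, norm_mul, norm_pow, norm_pow, hΨ1, one_pow, mul_one]
    calc ‖(n : Om p)‖ * ‖s a - a'‖ * ‖π‖ ^ j ≤ 1 * ‖s a - a'‖ * ‖π‖ ^ j := by
          apply mul_le_mul_of_nonneg_right _ hr0.le
          exact mul_le_mul_of_nonneg_right (h34k_norm_natCast_le n) (norm_nonneg _)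
      _ = ‖s a - a'‖ * ‖π‖ ^ j := by rw [one_mul]
      _ < 1 * ‖π‖ ^ j := mul_lt_mul_of_pos_right ha' hr0
      _ = ‖π‖ ^ j := one_mul _
  · refine lt_of_le_of_lt (IsUltrametricDist.norm_add_le_max _ _) (max_lt ?_ ?_)
    · rw [norm_mul, norm_pow]
      calc ‖(n : Om p) * a' * Ψ ^ j - b‖ * ‖π‖ ^ j < 1 * ‖π‖ ^ j :=
            mul_lt_mul_of_pos_right hb hr0
        _ = ‖π‖ ^ j := one_mul _
    · rw [norm_mul]
      calc ‖(n : Om p)‖ * ‖s ε‖ ≤ 1 * ‖s ε‖ :=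
            mul_le_mul_of_nonneg_right (h34k_norm_natCast_le n) (norm_nonneg _)
        _ = ‖s ε‖ := one_mul _
        _ < ‖π‖ ^ j := hsε

/-- `(p ^ 2 - 1) / (p - 1) = p + 1`. -/
theorem h34w_div_eq {q : ℕ} (hq : 2 ≤ q) : (q ^ 2 - 1) / (q - 1) = q + 1 := by
  have h1 : q ^ 2 - 1 = (q + 1) * (q - 1) := by
    obtain ⟨k, rfl⟩ : ∃ k, q = k + 1 := ⟨q - 1, by omega⟩
    have h2 : (k + 1) ^ 2 - 1 = (k + 1 + 1) * k := by
      have h3 : (k + 1) ^ 2 = (k + 1 + 1) * k + 1 := by ring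
      omega
    rw [h2, Nat.add_sub_cancel]
  rw [h1, Nat.mul_div_cancel _ (by omega)]

theorem h34w_not_dvd {q : ℕ} (hq : q.Prime) : ¬ q ∣ q ^ 2 - 1 := by
  intro h
  have h1 : q ∣ q ^ 2 := dvd_pow_self q (by norm_num)
  have h2 : 1 ≤ q ^ 2 := Nat.one_le_pow _ _ hq.pos
  have h3 : q ∣ q ^ 2 - (q ^ 2 - 1) := Nat.dvd_sub h1 h
  have h4 : q ^ 2 - (q ^ 2 - 1) = 1 := by omega
  rw [h4] at h3
  exact hq.one_lt.ne' (Nat.dvd_one.mp h3)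

theorem h34w_sq_sub_one_pos {q : ℕ} (hq : 2 ≤ q) : 0 < q ^ 2 - 1 := by
  have h1 : 2 ^ 2 ≤ q ^ 2 := Nat.pow_le_pow_left hq 2
  omega

theorem h34w_sub_one_dvd {q : ℕ} (hq : 2 ≤ q) : (q - 1) ∣ q ^ 2 - 1 := by
  have h1 : q ^ 2 - 1 = (q + 1) * (q - 1) := by
    obtain ⟨k, rfl⟩ : ∃ k, q = k + 1 := ⟨q - 1, by omega⟩
    have h3 : (k + 1) ^ 2 = (k + 1 + 1) * k + 1 := by ring
    rw [Nat.add_sub_cancel]
    omega
  rw [h1]
  exact dvd_mul_left _ _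

/-- **FL-S4K5.** -/
theorem h34w_kTwist : H61KTwist := by
  intro p _ hp2 π ζ hπ hζp hζ1 s hs χ j a b hj ha hcoef hb
  have hp : p.Prime := Fact.out
  haveI : NeZero p := ⟨hp.ne_zero⟩
  have hζ : IsPrimitiveRoot ζ p := h34w_isPrimitiveRoot hζp hζ1
  have hN : 0 < p ^ 2 - 1 := h34w_sq_sub_one_pos hp.two_le
  have hpN : ¬ p ∣ p ^ 2 - 1 := h34w_not_dvd hp
  have hπ0 : π ≠ 0 := h34w_pi_ne_zero hN hπ
  have hπ1 : ‖π‖ < 1 := h34w_norm_pi_lt_one hπ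
  -- the fundamental character
  obtain ⟨Ψ, hΨdef⟩ : ∃ Ψ : Om p, Ψ = s π / π := ⟨_, rfl⟩
  rw [← hΨdef] at hb
  have hΨ : s π = Ψ * π := by rw [hΨdef, div_mul_cancel₀ _ hπ0]
  have hΨ1 : ‖Ψ‖ = 1 := by
    rw [hΨdef, norm_div, h34k_norm_map, div_self (norm_ne_zero_iff.2 hπ0)]
  have hΨpow : Ψ ^ (p ^ 2 - 1) = 1 := by
    rw [hΨdef, div_pow, ← map_pow, hπ, map_natCast, div_self h34w_natCast_p_ne_zero]
  -- the cyclotomic exponents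
  obtain ⟨m, hmdef⟩ : ∃ m : ℕ, m = ((h34k_chi hζ s : (ZMod p)ˣ) : ZMod p).val := ⟨_, rfl⟩
  obtain ⟨n, hndef⟩ : ∃ n : ℕ, n = (((h34k_chi hζ s)⁻¹ : (ZMod p)ˣ) : ZMod p).val := ⟨_, rfl⟩
  have hm : cycExp p s m := by
    rw [hmdef]
    exact h34k_cycExp_val hζ s
  have hnm : ((n * m : ℕ) : ZMod p) = 1 := by
    rw [hmdef, hndef, Nat.cast_mul, ZMod.natCast_zmod_val, ZMod.natCast_zmod_val]
    exact (h34k_chi hζ s).inv_mul
  have hcyc := h7c_cycFund p hp2 (p ^ 2 - 1) hN hpN (h34w_sub_one_dvd hp.two_le) π hπ s hs m hm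
  rw [h34w_div_eq hp.two_le, ← hΨdef] at hcyc
  have hnΨ : ‖(n : Om p) * Ψ ^ (p + 1) - 1‖ < 1 := by
    have e : (n : Om p) * Ψ ^ (p + 1) - 1 =
        n * (Ψ ^ (p + 1) - m) + (((n * m : ℕ) : Om p) - ((1 : ℕ) : Om p)) := by
      push_cast
      ring
    rw [e]
    refine lt_of_le_of_lt (IsUltrametricDist.norm_add_le_max _ _) (max_lt ?_ ?_)
    · rw [norm_mul]
      calc ‖(n : Om p)‖ * ‖Ψ ^ (p + 1) - m‖ ≤ 1 * ‖Ψ ^ (p + 1) - m‖ :=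
            mul_le_mul_of_nonneg_right (h34k_norm_natCast_le n) (norm_nonneg _)
        _ = ‖Ψ ^ (p + 1) - m‖ := one_mul _
        _ < 1 := hcyc
    · apply h34k_norm_natCast_sub_lt
      rw [hnm, Nat.cast_one]
  -- conjugation preserves `I_K`
  have hconj : ∀ g ∈ h89s_IK p π, s⁻¹ * g * s ∈ h89s_IK p π := by
    intro g hg
    refine ⟨h34k_conj_mem_inertia' hg.1 s, ?_⟩
    have hgΨ : g Ψ = Ψ := (h89d0_inertiaIffRoots p g).1 hg.1 Ψ (p ^ 2 - 1) hN hpN hΨpow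
    rw [AlgEquiv.mul_apply, AlgEquiv.mul_apply, hΨ, map_mul, hgΨ, hg.2, ← hΨ, h34k_inv_apply']
  obtain ⟨β, hβ, hβx⟩ := hcoef
  refine ⟨(s β) ^ n, h34w_gen_conj hζp hβ s hconj hm hnm, ?_⟩
  have hpow : ((s β) ^ n) ^ p = (s (β ^ p)) ^ n := by
    rw [map_pow, ← pow_mul, ← pow_mul, mul_comm]
  rw [hpow]
  have hbn : ‖b‖ = ‖a‖ := by
    have h1 := congrArg norm hb
    rw [norm_mul, norm_mul, norm_pow, norm_pow, hΨ1, one_pow, one_pow, mul_one, one_mul] at h1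
    exact h1
  refine h34w_coef_conj hπ0 hπ1 s hΨ hΨ1 hj (a' := a) (hs a ha) n ?_ hβx ha
  have e2 : (n : Om p) * a * Ψ ^ j - b = b * ((n : Om p) * Ψ ^ (p + 1) - 1) := by
    linear_combination (-(n : Om p)) * hb
  rw [e2, norm_mul]
  calc ‖b‖ * ‖(n : Om p) * Ψ ^ (p + 1) - 1‖ ≤ 1 * ‖(n : Om p) * Ψ ^ (p + 1) - 1‖ :=
        mul_le_mul_of_nonneg_right (hbn ▸ ha) (norm_nonneg _)
    _ = ‖(n : Om p) * Ψ ^ (p + 1) - 1‖ := one_mul _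
    _ < 1 := hnΨ

end Fermat.Agent.S56F
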