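import Fermat.Agent.S56F.FLS4Iface_helper89

/-!
# S56 / LOC-p-FL, row FL-S4-KUM (`H89SSKum`): frozen SUB-LEAVES (architect helper89)

`K = ℚ_p^ur(π)`, `π ^ (p² - 1) = p`; `I_K = h89s_IK p π`; `x ∈ K` means `h89s_KFix p π x`;
the integers of `K` are discrete with uniformiser `π` (landed `h45g_tameDiscrete`).
`‖ζ - 1‖ = ‖π‖ ^ (p + 1)`, `‖p‖ = ‖π‖ ^ (p² - 1)`.

A character `e : I_K → 𝔽_p` has *level `≥ j`* (`h89s_Lev p π ζ e j`) if it has a Kummer generator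
`β` with `‖β ^ p - 1‖ ≤ ‖π‖ ^ j`.

Sub-leaves (each is a row `FL-S4K-*`; prove it as `theorem <prefix>_<name> : <Name>` in your own
file `Fermat/Agent/S56F/FLS4K<x>_<seat>.lean`; landed sub-leaves may be used as hypotheses):

* `H89KExpand`  (X): `x ∈ K`, `‖x - 1‖ ≤ ‖π‖ ^ j` ⇒ `x = 1 + π ^ j (w + π z)`, `w` Teichmüller or `0`.
* `H89KPowLev`  (P): the level of a `p`-th power of `K` is a multiple of `p` or `≥ p² + p`.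
* `H89KLevP`    (A): level `≥ p i` (`1 ≤ i ≤ p`) ⇒ level `≥ p i + 1`   (divide `β` by `1 + w' π ^ i`).
* `H89KLevEig`  (B): eigen-exclusion: level `≥ j` ⇒ level `≥ j + 1` for `p ∤ j`, `j < p² + p`,
                     `j ≢ 2, 2 p mod p² - 1`, for characters `l ∘ μ` with `μ` inertia-equivariant.
* `H89KLevTop`  (C): level `≥ p² + p` ⇒ `e = 0` on `I_K`   (Artin–Schreier + unique root near `1`).
* `H89KInv`     (D): the leading coefficient at level `p² + 1`.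
* `H89KSemi2`   (E): the semilinear count (Mathlib only).

Assembly (helper89, `FLS4KAsm_helper89.lean`):
`H89KLevP → H89KLevEig → H89KLevTop → H89KInv → H89KSemi2 → H89SSKum`.
Do NOT edit this file.
-/

set_option autoImplicit false

open Fermat.Agent.PT.Loc

noncomputable section

namespace Fermat.Agent.S56F

/-- `x` is fixed by `I_K`, i.e. `x ∈ K = ℚ_p^ur(π)`. -/
def h89s_KFix (p : ℕ) [Fact p.Prime] (π x : Om p) : Prop :=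
  ∀ g ∈ h89s_IK p π, g x = x

/-- `β` is a Kummer generator of the character `e` of `I_K` (with respect to `ζ`). -/
def h89s_KG (p : ℕ) [Fact p.Prime] (π ζ : Om p) (e : Gq p → ZMod p) (β : Om p) : Prop :=
  ∀ g ∈ h89s_IK p π, g β = ζ ^ (e g).val * β

/-- The character `e` of `I_K` has level `≥ j`. -/
def h89s_Lev (p : ℕ) [Fact p.Prime] (π ζ : Om p) (e : Gq p → ZMod p) (j : ℕ) : Prop :=
  ∃ β : Om p, ‖β ^ p - 1‖ ≤ ‖π‖ ^ j ∧ h89s_KG p π ζ e β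

/-- **FL-S4K-X** (expansion).  Proof: `(x - 1) / π ^ j` is an integer of `K`; Teichmüller
representative `w` (`h34lf_lfTeich` for the finite extension `ℚ_p((x - 1) / π ^ j)`, as in
`FLD0_helper89` / `FLD1_helper45`), fixed by inertia; the difference is an integer of `K` of norm
`< 1`, hence divisible by `π` (`h45g_tameDiscrete`). -/
def H89KExpand : Prop :=
  ∀ (p : ℕ) [Fact p.Prime] (π : Om p), π ^ (p ^ 2 - 1) = p → ∀ (x : Om p) (j : ℕ),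
    h89s_KFix p π x → ‖x - 1‖ ≤ ‖π‖ ^ j →
    ∃ w z : Om p, (w = 0 ∨ ∃ m : ℕ, 0 < m ∧ ¬ p ∣ m ∧ w ^ m = 1) ∧ h89s_KFix p π z ∧ ‖z‖ ≤ 1 ∧
      x = 1 + π ^ j * (w + π * z)

/-- **FL-S4K-P** (levels of `p`-th powers).  Proof: `y ^ p - 1 = z ^ p + p z (1 + ε)`, `z = y - 1`,
`‖ε‖ < 1`; `‖z‖ < 1` since `‖z‖ ^ p ≤ max ‖y ^ p - 1‖ ‖p‖`; `‖z‖ = ‖π‖ ^ i` (`h45g_tameDiscrete`);
`‖y ^ p - 1‖ = ‖π‖ ^ min (p i) (p² - 1 + i)` if `i ≠ p + 1`, `≤ ‖π‖ ^ (p² + p)` if `i = p + 1`. -/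
def H89KPowLev : Prop :=
  ∀ (p : ℕ) [Fact p.Prime] (π : Om p), π ^ (p ^ 2 - 1) = p → ∀ (y : Om p) (j : ℕ),
    h89s_KFix p π y → 0 < j → j < p ^ 2 + p → ¬ p ∣ j → ‖y ^ p - 1‖ ≤ ‖π‖ ^ j →
    ‖y ^ p - 1‖ ≤ ‖π‖ ^ (j + 1)

/-- **FL-S4K-A** (levels divisible by `p`).  Proof: `x = β ^ p = 1 + π ^ (p i) (w + π z)`
(`H89KExpand`), `w' ^ p = w` a root of unity of order prime to `p` (or `0`),
`y = 1 + w' π ^ i ∈ K`, `y ^ p ≡ 1 + w π ^ (p i)` modulo `p π ^ i`, and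
`p² - 1 + i ≥ p i + 1` for `i ≤ p`; `β' = β / y`. -/
def H89KLevP : Prop :=
  ∀ (p : ℕ) [Fact p.Prime], p ≠ 2 → ∀ π : Om p, π ^ (p ^ 2 - 1) = p →
    ∀ ζ : Om p, ζ ^ p = 1 → ζ ≠ 1 → ∀ (e : Gq p → ZMod p) (i : ℕ), 1 ≤ i → i ≤ p →
      h89s_Lev p π ζ e (p * i) → h89s_Lev p π ζ e (p * i + 1)

/-- **FL-S4K-B** (eigen-exclusion).  Proof: `σ ∈ inertia` with `Ψ σ = u` a primitive
`(p² - 1)`-th root of unity (`h89f_fundSurjective`), `σ ζ = ζ ^ ω`; `θ = ω ψ(σ⁻¹) ∈ k`,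
`τ θ ≡ u ^ (2 p)` (`h7c_cycFund`), `θ² + a θ + b = 0` with `a, b ∈ ℕ`
(`X² + a X + b ≡ (X - u²)(X - u ^ (2 p))`); `σ β`, `σ² β` are Kummer generators of
`l ∘ θ μ`, `l ∘ θ² μ` (conjugation formula), so `γ = σ² β * (σ β) ^ a * β ^ b ∈ K`;
`x = β ^ p = 1 + π ^ j (w + π z)` (`H89KExpand`) gives
`γ ^ p ≡ 1 + (u ^ j - u²)(u ^ j - u ^ (2 p)) w π ^ j` modulo `π ^ (j + 1)`; by `H89KPowLev`
`γ ^ p ≡ 1` modulo `π ^ (j + 1)`; the two factors are units, so `w = 0`. -/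
def H89KLevEig : Prop :=
  ∀ (p : ℕ) [Fact p.Prime], p ≠ 2 → ∀ (k : Type) [Field k] [Finite k] [CharP k p]
    (τ : kˣ →* (Om p)ˣ), IsTeich p τ → ∀ π : Om p, π ^ (p ^ 2 - 1) = p →
    ∀ (ψ : Gq p → kˣ),
      (∀ σ ∈ inertia p, ((τ (ψ σ) : (Om p)ˣ) : Om p) * (σ π / π) ^ p = σ π / π) →
    ∀ μ : Gq p → k,
      (∀ σ ∈ inertia p, ∀ g ∈ h89s_IK p π, μ (σ * g * σ⁻¹) = ((ψ σ : kˣ) : k) * μ g) →
    ∀ ζ : Om p, ζ ^ p = 1 → ζ ≠ 1 → ∀ (l : k →+ ZMod p) (j : ℕ), 0 < j → j < p ^ 2 + p →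
      ¬ p ∣ j → ¬ j ≡ 2 [MOD p ^ 2 - 1] → ¬ j ≡ 2 * p [MOD p ^ 2 - 1] →
      h89s_Lev p π ζ (fun g => l (μ g)) j → h89s_Lev p π ζ (fun g => l (μ g)) (j + 1)

/-- **FL-S4K-C** (the top).  Proof: `x = β ^ p = 1 + π ^ (p² + p) (w + π z)`; `t` a root of
`T ^ p + T - w`, `w'` its Teichmüller representative, `y = 1 + w' π ^ (p + 1) ∈ K`,
`y ^ p ≡ 1 + (w' ^ p + w') π ^ (p² + p)`; so `(β / y) ^ p ≡ 1` modulo `π ^ (p² + p + 1)`, i.e.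
`‖(β / y) ^ p - 1‖ < ‖p‖ ‖ζ - 1‖ = ‖ζ - 1‖ ^ p`; exactly one `p`-th root `β₀ = ζ ^ i β / y` has
`‖β₀ - 1‖ < ‖ζ - 1‖` (`∏ i, (ζ ^ i β / y - 1) = ± ((β / y) ^ p - 1)`), so `g β₀ = β₀` for
`g ∈ I_K` (isometry, `g ζ = ζ` by `h7c_cycFund`), i.e. `ζ ^ e g = 1`. -/
def H89KLevTop : Prop :=
  ∀ (p : ℕ) [Fact p.Prime], p ≠ 2 → ∀ π : Om p, π ^ (p ^ 2 - 1) = p →
    ∀ ζ : Om p, ζ ^ p = 1 → ζ ≠ 1 → ∀ e : Gq p → ZMod p,
      h89s_Lev p π ζ e (p ^ 2 + p) → ∀ g ∈ h89s_IK p π, e g = 0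

/-- **FL-S4K-D** (the leading coefficient at level `N = p² + 1`).  `κ` = residue field of
`Om p` (integers modulo `{‖·‖ < 1}`), `a x = residue ((x - 1) / π ^ N)`.
Additive: `x x' - 1 = (x - 1) + (x' - 1) + (x - 1)(x' - 1)`.  Kernel: `h45g_tameDiscrete`.
`p`-th powers: `H89KPowLev`.  Frobenius: an integer is `≡` a root of unity of order prime to `p`
or `≡ 0`.  Inertia: `σ z ≡ z` for integers `z`, `σ π = (Ψ σ) π`, `u' = residue (Ψ σ) ^ N`. -/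
def H89KInv : Prop :=
  ∀ (p : ℕ) [Fact p.Prime], p ≠ 2 → ∀ π : Om p, π ^ (p ^ 2 - 1) = p →
    ∃ (κ : Type) (_ : Field κ) (_ : CharP κ p) (a : Om p → κ),
      (∀ x x' : Om p, h89s_KFix p π x → h89s_KFix p π x' → ‖x - 1‖ ≤ ‖π‖ ^ (p ^ 2 + 1) →
        ‖x' - 1‖ ≤ ‖π‖ ^ (p ^ 2 + 1) → a (x * x') = a x + a x') ∧
      (∀ x : Om p, h89s_KFix p π x → ‖x - 1‖ ≤ ‖π‖ ^ (p ^ 2 + 1) → a x = 0 →
        ‖x - 1‖ ≤ ‖π‖ ^ (p ^ 2 + 2)) ∧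
      (∀ y : Om p, h89s_KFix p π y → ‖y ^ p - 1‖ ≤ ‖π‖ ^ (p ^ 2 + 1) → a (y ^ p) = 0) ∧
      (∀ s₀ : Gq p, s₀ π = π →
        (∀ (w : Om p) (m : ℕ), 0 < m → ¬ p ∣ m → w ^ m = 1 → s₀ w = w ^ (p ^ 2)) →
        ∀ x : Om p, h89s_KFix p π x → ‖x - 1‖ ≤ ‖π‖ ^ (p ^ 2 + 1) →
          a (s₀ x) = a x ^ (p ^ 2)) ∧
      (∀ σ ∈ inertia p, ∃ u' : κ, ∀ x : Om p, h89s_KFix p π x →
        ‖x - 1‖ ≤ ‖π‖ ^ (p ^ 2 + 1) → a (σ x) = u' * a x)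

/-- **FL-S4K-E** (the semilinear count, `p²`-form; Mathlib only).  `L = (k →+ 𝔽_p)`;
`T μ : L → κ` additive in `μ` and `l`, `T (x • μ) l = T μ (l ∘ x)`, Frobenius semilinear
(`T μ (l ∘ c) = (T μ l) ^ (p²)`) and `T μ (l ∘ u) = u' T μ l` for one `u ∈ 𝔽_{p²} ∖ 𝔽_p ⊆ k`.
Then the image of `T` has `k`-rank `≤ 1`.
Proof: as `h75s_kSemilin` (FLO8c_helper75): `E = {F : L → κ additive, F (l ∘ c) = F l ^ (p²),
F (l ∘ u) = u' F l}` is a vector space over `𝔽' = {λ ∈ κ | λ ^ (p²) = λ}`; `𝔽'`-independent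
elements of `E` are `κ`-independent (shortest relation, replace `l` by `l ∘ c`, subtract);
the `κ`-space of additive `F` with `F (l ∘ u) = u' F l` has dimension `≤ dim_{𝔽_p(u)} L =
dim_{𝔽_p} k / 2` (if it is non-zero, `u'` is a root of the minimal polynomial of `u`);
so `#E ≤ (p²) ^ (r / 2) = #k`. -/
def H89KSemi2 : Prop :=
  ∀ (p : ℕ) [Fact p.Prime] (k : Type) [Field k] [Finite k] [CharP k p] (κ : Type) [Field κ]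
    [CharP κ p] (S : Type) [AddCommGroup S] [Module k S] (T : S → (k →+ ZMod p) → κ)
    (c u : kˣ) (u' : κ),
    (∀ μ μ' l, T (μ + μ') l = T μ l + T μ' l) →
    (∀ μ l l', T μ (l + l') = T μ l + T μ l') →
    (∀ (x : k) μ l, T (x • μ) l = T μ (l.comp (AddMonoidHom.mulLeft x))) →
    (∀ μ l, T μ (l.comp (AddMonoidHom.mulLeft (c : k))) = T μ l ^ (p ^ 2)) →
    (∀ μ l, T μ (l.comp (AddMonoidHom.mulLeft (u : k))) = u' * T μ l) →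
    (u : k) ^ (p ^ 2) = u → (u : k) ^ p ≠ u →
    ∃ μ₀ : S, ∀ μ : S, ∃ x : k, ∀ l, T (μ - x • μ₀) l = 0

end Fermat.Agent.S56F
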