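import Fermat.Agent.S56F.FLS4KumEig_helper61
import Fermat.Agent.S56F.FLS4KIface_helper89
import Fermat.Agent.S56F.FLS4K2_helper7
import Fermat.Agent.S56F.FLS4K5_helper34

/-!
# S56 / LOC-p-FL, row FL-S4K-B (helper61, second seat): `H89KLevEig`

The eigen-exclusion of `FLS4KIface_helper89.lean`, from the eigen-step `h61k_eigen1`
(`FLS4KumEig_helper61.lean`) and the landed leaves `h61k_kDisc`, `h61k_kAdd`, `h7u_kUniq`,
`h34w_kTwist`.
-/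

set_option autoImplicit false

open Fermat.Agent.PT.Loc

noncomputable section

namespace Fermat.Agent.S56F

/-- the two level predicates agree. -/
theorem h61b_lev_iff {p : ℕ} [Fact p.Prime] {π ζ : Om p} {χ : Gq p → ZMod p} {j : ℕ} :
    h89s_Lev p π ζ χ j ↔ h61k_Lev p π ζ χ j :=
  ⟨fun ⟨β, h1, h2⟩ => ⟨β, h2, h1⟩, fun ⟨β, h1, h2⟩ => ⟨β, h2, h1⟩⟩

/-- **FL-S4K-B.** -/
theorem h61b_kLevEig : H89KLevEig := by
  intro p _ hp2 k _ _ _ τ hτ π hπ ψ hψ μ hμ ζ hζ hζ1 l j hj0 hj hpj h2 h2p hl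
  exact h61b_lev_iff.mpr (h61k_eigen1 h61k_kDisc h61k_kAdd h7u_kUniq h34w_kTwist hp2 τ hτ hπ ψ hψ
    μ hμ hζ hζ1 hj0 hj hpj h2 h2p l (h61b_lev_iff.mp hl))

end Fermat.Agent.S56F
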