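import Fermat.Agent.S56F.FLS4KFin_helper89
import Fermat.Agent.S56F.FLS4KB_helper61

/-!
# S56 / LOC-p-FL, row FL-S4 (helper89): `SSCount`, UNCONDITIONAL

* `h89f_ssKum : H89SSKum` (the Kummer count of the supersingular case);
* `h89f_ssCount : SSCount`.

Leaves: X, D, assembly (helper89), P, A (helper43), B (helper61), C (helper97), E (helper10).
-/

set_option autoImplicit false

namespace Fermat.Agent.S56F

/-- **FL-S4-KUM**, unconditional. -/
theorem h89f_ssKum : H89SSKum := h89f_ssKum_of_B h61b_kLevEig

/-- **FL-S4** (`SSCount`), unconditional. -/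
theorem h89f_ssCount : SSCount := h89f_ssCount_of_B h61b_kLevEig

end Fermat.Agent.S56F
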