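import Fermat.Agent.S56F.IfaceSS

/-!
# S56 / LOC-p-FL, block SS, leaf FL-S4 (owner helper89): frozen sub-leaf `H89SSKum`

`SSCount` = (1) cocycle algebra (`S56F/FLS4_helper89.lean`, compiled:
`h89s_ssCount_of : H89SSKum → SSCount`) + (2) the Kummer count `H89SSKum` below.

Notation: `K = ℚ_p^ur(π)`, `π ^ (p² - 1) = p`; `h89s_IK p π = {g ∈ inertia | g π = π}` is the
absolute Galois group of `K`; `Ψ σ = σ π / π` is the fundamental character of level `2`.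

`H89SSKum`: the functions `μ : I_K → k` which are additive, transform under conjugation by
inertia through `ψ` with `τ ∘ ψ = Ψ ^ (1 - p)` and under conjugation by a Frobenius `s₀` of
`ℚ_{p²}` (fixing `π`) through a constant `c₀`, and all of whose Kummer generators can be chosen
with `β ^ p ≡ 1 mod π ^ 3`, form a `k`-space of dimension `≤ 1`.

Paper proof.  For `l : k →+ 𝔽_p` let `x_l = β_l ^ p` (fixed by `I_K`, a unit `≡ 1 mod π ^ 3`).
(a) `σ β_l / β_{θ(σ) l}` is fixed by `I_K` for `σ ∈ inertia`, `θ(σ) = ω(σ) ψ(σ)⁻¹`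
(`(c · l)(x) = l (c x)`), and `τ (θ σ) ≡ Ψ(σ) ^ (2 p)` (`CycFund`).
(b) level of a `p`-th power: for `‖y - 1‖ < 1`, `‖y ^ p - 1‖ = max (‖y - 1‖ ^ p, ‖p‖ ‖y - 1‖)` if
the two are different, so the level of `y ^ p`, `y` fixed by `I_K`, is a multiple of `p` or
`≥ p² + p`.  (c) if `x_l` has exact level `j`, `p ∤ j`, `j < p² + p`, leading coefficient `a`,
then with `u = Ψ σ` a primitive `(p² - 1)`-th root of unity and `X² - t X + n` the minimal
polynomial of `θ σ` over `𝔽_p`, `σ² x_l · (σ x_l) ^ (-t) · x_l ^ n` is a `p`-th power of level `j`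
unless `u ^ (2 j) - t u ^ j + n ≡ 0`, i.e. `j ≡ 2` or `2 p mod p² - 1`: so `j = p² + 1`
(`j = 2` is excluded by hypothesis).  (d) levels `j = p i ≤ p²` are removed by dividing `β_l` by
`1 + w π ^ i`; level `≥ p² + p` means `x_l` is a `p`-th power of an element fixed by `I_K`, i.e.
`l ∘ μ = 0`.  (e) so `μ ↦ (l ↦ a_l)`, the leading coefficient at level `p² + 1` modulo the maximal
ideal, is additive and injective, with `a_{θ l} = Ψ̄ ^ 2 a_l` and `a_{c₀⁻¹ l} = a_l ^ (p²)`;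
solutions which are independent over `𝔽_{p²}` are independent over the residue field
(Artin), and the semilinear maps form a space of dimension `[k : 𝔽_{p²}]`: at most `#k` solutions.
-/

set_option autoImplicit false

open Fermat.Agent.PT.Loc

noncomputable section

namespace Fermat.Agent.S56F

/-- `I_K`: the elements of inertia fixing `π`. -/
def h89s_IK (p : ℕ) [Fact p.Prime] (π : Om p) : Subgroup (Gq p) where
  carrier := {g | g ∈ inertia p ∧ g π = π}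
  mul_mem' := fun {a b} ha hb =>
    ⟨(inertia p).mul_mem ha.1 hb.1, by rw [AlgEquiv.mul_apply, hb.2, ha.2]⟩
  one_mem' := ⟨(inertia p).one_mem, rfl⟩
  inv_mem' := fun {a} ha => ⟨(inertia p).inv_mem ha.1, by
    calc a⁻¹ π = a⁻¹ (a π) := by rw [ha.2]
      _ = π := by rw [← AlgEquiv.mul_apply, inv_mul_cancel, AlgEquiv.one_apply]⟩

theorem h89s_mem_IK {p : ℕ} [Fact p.Prime] {π : Om p} {g : Gq p} :
    g ∈ h89s_IK p π ↔ g ∈ inertia p ∧ g π = π := Iff.rfl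

/-- The conditions on the `(1,2)`-entry `μ` of a cocycle in `SSCond`, restricted to `I_K`. -/
structure h89s_KumCond (p : ℕ) [Fact p.Prime] {k : Type} [Field k] (π : Om p)
    (ψ : Gq p → kˣ) (s₀ : Gq p) (c₀ : kˣ) (μ : Gq p → k) : Prop where
  cont : Cont1 (⊥ : LF p) μ
  add : ∀ g ∈ h89s_IK p π, ∀ h ∈ h89s_IK p π, μ (g * h) = μ g + μ h
  equiv : ∀ σ ∈ inertia p, ∀ g ∈ h89s_IK p π, μ (σ * g * σ⁻¹) = ((ψ σ : kˣ) : k) * μ g
  frob : ∀ g ∈ h89s_IK p π, μ (s₀ * g * s₀⁻¹) = ((c₀ : kˣ) : k) * μ g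
  lev : ∀ ζ : Om p, ζ ^ p = 1 → ζ ≠ 1 → ∀ l : k →+ ZMod p,
    ∃ β : Om p, ‖β ^ p - 1‖ ≤ ‖π‖ ^ 3 ∧ ∀ g ∈ h89s_IK p π, g β = ζ ^ (l (μ g)).val * β

/-- **FL-S4-KUM** (the Kummer count of the supersingular case). -/
def H89SSKum : Prop :=
  ∀ (p : ℕ) [Fact p.Prime], p ≠ 2 → ∀ (k : Type) [Field k] [Finite k] [CharP k p]
    (τ : kˣ →* (Om p)ˣ), IsTeich p τ → ∀ π : Om p, π ^ (p ^ 2 - 1) = p →
    ∀ (ψ : Gq p → kˣ),
      (∀ σ ∈ inertia p, ((τ (ψ σ) : (Om p)ˣ) : Om p) * (σ π / π) ^ p = σ π / π) →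
    ∀ (s₀ : Gq p), s₀ π = π →
      (∀ (w : Om p) (m : ℕ), 0 < m → ¬ p ∣ m → w ^ m = 1 → s₀ w = w ^ (p ^ 2)) →
    ∀ (c₀ : kˣ) (μ μ₀ : Gq p → k), h89s_KumCond p π ψ s₀ c₀ μ → h89s_KumCond p π ψ s₀ c₀ μ₀ →
      (∃ g ∈ h89s_IK p π, μ₀ g ≠ 0) → ∃ c : k, ∀ g ∈ h89s_IK p π, μ g = c * μ₀ g

end Fermat.Agent.S56F
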