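import Fermat.Agent.S56F.FLS4KumIface_helper61
import Fermat.Agent.S56F.FLD7_helper45

/-!
# S56 / LOC-p-FL, rows FL-S4K0, FL-S4K1 (helper61): `H61KDisc`, `H61KAdd`

Shared tools (free to reuse):
* `h61k_pi_ne_zero`, `h61k_pi_norm_lt_one`, `h61k_pi_norm_pos` : basic facts on `π`;
* `h61k_disc` : `IsDiscrete p (h89s_IK p π) π`;
* `h61k_disc_step` : `x` fixed by `I_K`, `‖x‖ < ‖π‖ ^ j` ⟹ `‖x‖ ≤ ‖π‖ ^ (j + 1)`;
* `h61k_gen_pow_fix` : `β ^ p` is fixed by `I_K` for a generator `β`;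
* `h61k_coef_lev`, `h61k_coef_congr`, `h61k_coef_ext`, `h61k_lev_ext`, `h61k_lev_mono`.
-/

set_option autoImplicit false

open Fermat.Agent.PT.Loc

noncomputable section

namespace Fermat.Agent.S56F

variable {p : ℕ} [Fact p.Prime]

theorem h61k_norm_p_lt_one (p : ℕ) [Fact p.Prime] : ‖(p : Om p)‖ < 1 :=
  (h45f_inertiaDiscrete p).2.1

theorem h61k_p_ne_zero (p : ℕ) [Fact p.Prime] : (p : Om p) ≠ 0 :=
  (h45f_inertiaDiscrete p).2.2.1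

theorem h61k_e_pos (p : ℕ) [Fact p.Prime] : 0 < p ^ 2 - 1 := by
  have h2 := (Fact.out : p.Prime).two_le
  have : 4 ≤ p ^ 2 := by nlinarith
  omega

theorem h61k_pi_ne_zero {π : Om p} (hπ : π ^ (p ^ 2 - 1) = p) : π ≠ 0 := by
  rintro rfl
  rw [zero_pow (h61k_e_pos p).ne'] at hπ
  exact h61k_p_ne_zero p hπ.symm

theorem h61k_pi_norm_pos {π : Om p} (hπ : π ^ (p ^ 2 - 1) = p) : 0 < ‖π‖ :=
  norm_pos_iff.mpr (h61k_pi_ne_zero hπ)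

theorem h61k_pi_norm_lt_one {π : Om p} (hπ : π ^ (p ^ 2 - 1) = p) : ‖π‖ < 1 := by
  by_contra h
  rw [not_lt] at h
  have h1 : 1 ≤ ‖π‖ ^ (p ^ 2 - 1) := one_le_pow₀ h
  rw [← norm_pow, hπ] at h1
  exact absurd (h61k_norm_p_lt_one p) (not_lt.mpr h1)

theorem h61k_pi_pow_le_one {π : Om p} (hπ : π ^ (p ^ 2 - 1) = p) (j : ℕ) : ‖π‖ ^ j ≤ 1 :=
  pow_le_one₀ (norm_nonneg _) (h61k_pi_norm_lt_one hπ).le

theorem h61k_pi_pow_pos {π : Om p} (hπ : π ^ (p ^ 2 - 1) = p) (j : ℕ) : 0 < ‖π‖ ^ j :=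
  pow_pos (h61k_pi_norm_pos hπ) j

theorem h61k_pi_pow_succ_lt {π : Om p} (hπ : π ^ (p ^ 2 - 1) = p) (j : ℕ) :
    ‖π‖ ^ (j + 1) < ‖π‖ ^ j := by
  rw [pow_succ]
  calc ‖π‖ ^ j * ‖π‖ < ‖π‖ ^ j * 1 :=
        mul_lt_mul_of_pos_left (h61k_pi_norm_lt_one hπ) (h61k_pi_pow_pos hπ j)
    _ = ‖π‖ ^ j := mul_one _

theorem h61k_pi_pow_anti {π : Om p} (hπ : π ^ (p ^ 2 - 1) = p) {i j : ℕ} (h : i ≤ j) :
    ‖π‖ ^ j ≤ ‖π‖ ^ i :=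
  pow_le_pow_of_le_one (norm_nonneg _) (h61k_pi_norm_lt_one hπ).le h

/-- the integers of `K = ℚ_p^ur(π)` are discrete with uniformiser `π`. -/
theorem h61k_disc {π : Om p} (hπ : π ^ (p ^ 2 - 1) = p) (_hp2 : p ≠ 2) :
    IsDiscrete p (h89s_IK p π) π := by
  have hp := (Fact.out : p.Prime)
  refine h45g_tameDiscrete p (p ^ 2 - 1) (h61k_e_pos p) ?_ π hπ (h89s_IK p π)
    (fun σ => h89s_mem_IK)
  intro hdvd
  have h1 : p ∣ p ^ 2 := dvd_pow_self p (by norm_num)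
  have h2 : p ∣ 1 := by
    have h3 : p ^ 2 = (p ^ 2 - 1) + 1 := by
      have := h61k_e_pos p
      omega
    rw [h3] at h1
    exact (Nat.dvd_add_right hdvd).mp h1
  exact hp.one_lt.ne' (Nat.dvd_one.mp h2)

/-- discreteness: an element fixed by `I_K` of norm `< ‖π‖ ^ j` has norm `≤ ‖π‖ ^ (j + 1)`. -/
theorem h61k_disc_step {π : Om p} (hπ : π ^ (p ^ 2 - 1) = p) (hp2 : p ≠ 2) {x : Om p}
    (hfix : ∀ g ∈ h89s_IK p π, g x = x) {j : ℕ} (hx : ‖x‖ < ‖π‖ ^ j) :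
    ‖x‖ ≤ ‖π‖ ^ (j + 1) := by
  obtain ⟨-, hπ1, hπ0, hdisc⟩ := h61k_disc hπ hp2
  by_cases hx0 : x = 0
  · rw [hx0, norm_zero]
    exact (h61k_pi_pow_pos hπ _).le
  · have hx1 : ‖x‖ ≤ 1 := hx.le.trans (h61k_pi_pow_le_one hπ j)
    obtain ⟨n, u, -, hu, rfl⟩ := hdisc x ⟨hx1, hfix⟩ hx0
    rw [norm_mul, hu, mul_one, norm_pow] at hx ⊢
    have hn : j < n := by
      by_contra hle
      rw [not_lt] at hle
      exact absurd hx (not_lt.mpr (h61k_pi_pow_anti hπ hle))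
    exact h61k_pi_pow_anti hπ hn

/-- discreteness, second form: a non-zero element fixed by `I_K` of norm `≤ 1` has norm
`‖π‖ ^ n`. -/
theorem h61k_disc_norm {π : Om p} (hπ : π ^ (p ^ 2 - 1) = p) (hp2 : p ≠ 2) {x : Om p}
    (hfix : ∀ g ∈ h89s_IK p π, g x = x) (hx1 : ‖x‖ ≤ 1) (hx0 : x ≠ 0) :
    ∃ n : ℕ, ‖x‖ = ‖π‖ ^ n := by
  obtain ⟨-, hπ1, hπ0, hdisc⟩ := h61k_disc hπ hp2
  obtain ⟨n, u, -, hu, rfl⟩ := hdisc x ⟨hx1, hfix⟩ hx0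
  exact ⟨n, by rw [norm_mul, hu, mul_one, norm_pow]⟩

/-- `β ^ p` is fixed by `I_K` for a generator `β`. -/
theorem h61k_gen_pow_fix {π ζ : Om p} (hζ : ζ ^ p = 1) {χ : Gq p → ZMod p} {β : Om p}
    (hβ : h61k_Gen p π ζ χ β) : ∀ g ∈ h89s_IK p π, g (β ^ p) = β ^ p := by
  intro g hg
  rw [map_pow, hβ g hg, mul_pow, ← pow_mul, mul_comm (χ g).val p, pow_mul, hζ, one_pow,
    one_mul]

/-- a coefficient gives the level. -/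
theorem h61k_coef_norm {π : Om p} (hπ : π ^ (p ^ 2 - 1) = p) {j : ℕ} {a x : Om p}
    (ha : ‖a‖ ≤ 1) (hx : ‖x - 1 - a * π ^ j‖ < ‖π‖ ^ j) : ‖x - 1‖ ≤ ‖π‖ ^ j := by
  have h1 : x - 1 = (x - 1 - a * π ^ j) + a * π ^ j := by ring
  rw [h1]
  refine (IsUltrametricDist.norm_add_le_max _ _).trans (max_le hx.le ?_)
  rw [norm_mul, norm_pow]
  calc ‖a‖ * ‖π‖ ^ j ≤ 1 * ‖π‖ ^ j :=
        mul_le_mul_of_nonneg_right ha (h61k_pi_pow_pos hπ j).le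
    _ = ‖π‖ ^ j := one_mul _

theorem h61k_coef_lev {π ζ : Om p} (hπ : π ^ (p ^ 2 - 1) = p) {χ : Gq p → ZMod p} {j : ℕ}
    {a : Om p} (ha : ‖a‖ ≤ 1) (h : h61k_Coef p π ζ χ j a) : h61k_Lev p π ζ χ j := by
  obtain ⟨β, hβ, hx⟩ := h
  exact ⟨β, hβ, h61k_coef_norm hπ ha hx⟩

/-- the coefficient only matters modulo the maximal ideal. -/
theorem h61k_coef_congr {π ζ : Om p} (hπ : π ^ (p ^ 2 - 1) = p) {χ : Gq p → ZMod p} {j : ℕ}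
    {a a' : Om p} (h : h61k_Coef p π ζ χ j a) (haa : ‖a - a'‖ < 1) :
    h61k_Coef p π ζ χ j a' := by
  obtain ⟨β, hβ, hx⟩ := h
  refine ⟨β, hβ, ?_⟩
  have h1 : β ^ p - 1 - a' * π ^ j = (β ^ p - 1 - a * π ^ j) + (a - a') * π ^ j := by ring
  rw [h1]
  refine lt_of_le_of_lt (IsUltrametricDist.norm_add_le_max _ _) (max_lt hx ?_)
  rw [norm_mul, norm_pow]
  calc ‖a - a'‖ * ‖π‖ ^ j < 1 * ‖π‖ ^ j :=
        mul_lt_mul_of_pos_right haa (h61k_pi_pow_pos hπ j)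
    _ = ‖π‖ ^ j := one_mul _

/-- `Gen`, `Lev`, `Coef` only depend on the restriction of `χ` to `I_K`. -/
theorem h61k_gen_ext {π ζ : Om p} {χ χ' : Gq p → ZMod p}
    (h : ∀ g ∈ h89s_IK p π, χ g = χ' g) {β : Om p} (hβ : h61k_Gen p π ζ χ β) :
    h61k_Gen p π ζ χ' β := by
  intro g hg
  rw [← h g hg]
  exact hβ g hg

theorem h61k_lev_ext {π ζ : Om p} {χ χ' : Gq p → ZMod p}
    (h : ∀ g ∈ h89s_IK p π, χ g = χ' g) {j : ℕ} (hl : h61k_Lev p π ζ χ j) :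
    h61k_Lev p π ζ χ' j := by
  obtain ⟨β, hβ, hx⟩ := hl
  exact ⟨β, h61k_gen_ext h hβ, hx⟩

theorem h61k_coef_ext {π ζ : Om p} {χ χ' : Gq p → ZMod p}
    (h : ∀ g ∈ h89s_IK p π, χ g = χ' g) {j : ℕ} {a : Om p} (hl : h61k_Coef p π ζ χ j a) :
    h61k_Coef p π ζ χ' j a := by
  obtain ⟨β, hβ, hx⟩ := hl
  exact ⟨β, h61k_gen_ext h hβ, hx⟩

theorem h61k_lev_mono {π ζ : Om p} (hπ : π ^ (p ^ 2 - 1) = p) {χ : Gq p → ZMod p} {i j : ℕ}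
    (hij : i ≤ j) (hl : h61k_Lev p π ζ χ j) : h61k_Lev p π ζ χ i := by
  obtain ⟨β, hβ, hx⟩ := hl
  exact ⟨β, hβ, hx.trans (h61k_pi_pow_anti hπ hij)⟩

/-- **FL-S4K0.** -/
theorem h61k_kDisc : H61KDisc := by
  intro p _ hp2 π ζ hπ hζ hζ1 χ j
  constructor
  · rintro ⟨β, hβ, hx⟩
    refine ⟨β, hβ, ?_⟩
    rw [zero_mul, sub_zero] at hx
    refine h61k_disc_step hπ hp2 ?_ hx
    intro g hg
    rw [map_sub, map_one, h61k_gen_pow_fix hζ hβ g hg]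
  · rintro ⟨β, hβ, hx⟩
    have hπj : π ^ j ≠ 0 := pow_ne_zero _ (h61k_pi_ne_zero hπ)
    refine ⟨(β ^ p - 1) / π ^ j, ?_, β, hβ, ?_⟩
    · rw [norm_div, norm_pow]
      exact div_le_one_of_le₀ hx (h61k_pi_pow_pos hπ j).le
    · rw [div_mul_cancel₀ _ hπj, sub_self, norm_zero]
      exact h61k_pi_pow_pos hπ j

/-- **FL-S4K1.** -/
theorem h61k_kAdd : H61KAdd := by
  intro p _ hp2 π ζ hπ hζ hζ1 χ χ' j a a' hj ha ha'
  rintro ⟨β, hβ, hx⟩ ⟨β', hβ', hx'⟩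
  refine ⟨β * β', ?_, ?_⟩
  · intro g hg
    rw [map_mul, hβ g hg, hβ' g hg]
    have h1 : ζ ^ (χ g + χ' g).val = ζ ^ (χ g).val * ζ ^ (χ' g).val := by
      rw [ZMod.val_add, ← pow_add]
      conv_rhs => rw [← Nat.mod_add_div ((χ g).val + (χ' g).val) p]
      rw [pow_add, pow_mul, hζ, one_pow, mul_one]
    rw [h1]
    ring
  · have h1 : (β * β') ^ p - 1 - (a + a') * π ^ j =
        (β ^ p - 1 - a * π ^ j) + (β' ^ p - 1 - a' * π ^ j) + (β ^ p - 1) * (β' ^ p - 1) := by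
      ring
    rw [h1]
    have h2 : ‖(β ^ p - 1) * (β' ^ p - 1)‖ < ‖π‖ ^ j := by
      rw [norm_mul]
      have hA := h61k_coef_norm hπ ha hx
      have hB := h61k_coef_norm hπ ha' hx'
      have hB' : ‖β' ^ p - 1‖ ≤ ‖π‖ := by
        refine hB.trans ?_
        calc ‖π‖ ^ j ≤ ‖π‖ ^ 1 := h61k_pi_pow_anti hπ hj
          _ = ‖π‖ := pow_one _
      calc ‖β ^ p - 1‖ * ‖β' ^ p - 1‖ ≤ ‖π‖ ^ j * ‖π‖ :=
            mul_le_mul hA hB' (norm_nonneg _) (h61k_pi_pow_pos hπ j).le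
        _ < ‖π‖ ^ j * 1 :=
            mul_lt_mul_of_pos_left (h61k_pi_norm_lt_one hπ) (h61k_pi_pow_pos hπ j)
        _ = ‖π‖ ^ j := mul_one _
    refine lt_of_le_of_lt (IsUltrametricDist.norm_add_le_max _ _) (max_lt ?_ h2)
    exact lt_of_le_of_lt (IsUltrametricDist.norm_add_le_max _ _) (max_lt hx hx')

end Fermat.Agent.S56F
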