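import Fermat.Agent.S56F.FLS4KumIface_helper61
import Fermat.Agent.S56F.FLS4KIface_helper89
import Fermat.Agent.S56F.FLD7_helper45
import Fermat.Agent.S56F.FLS2B_helper43

/-!
# S56 / LOC-p-FL, sub-leaf FL-S4K3 (helper43): the `p`-step of the level calculus

* `h43s_kPStep : H61KPStep` (frozen Prop of `FLS4KumIface_helper61.lean`):
  level `≥ p i`, `1 ≤ i ≤ p + 1`, implies level `≥ p i + 1`;
* `h43s_kLevP : H89KLevP` (frozen Prop of `FLS4KIface_helper89.lean`, the same for `i ≤ p`).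

Proof.  `x = β ^ p = 1 + a π ^ (p i)`, `a ∈ K` integral.  Let `c = 0` (`i ≤ p`) resp. `c = 1`
(`i = p + 1`), `θ` a root of `T ^ p + c T + a`, `w` its Teichmüller representative (fixed by
inertia), `e = w ^ p + c w + a ∈ K`, `‖e‖ < 1`, so `‖e‖ ≤ ‖π‖` (`h45g_tameDiscrete`).
`y = 1 + t`, `t = w π ^ i`; `y ^ p = 1 + t ^ p + p t v`, `‖v - 1‖ ≤ ‖t‖`; then
`x y ^ p - 1 = π ^ (p i) e + (p t v - c w π ^ (p i)) + a π ^ (p i) (t ^ p + p t v)` and
`β y` is a generator.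
-/

set_option autoImplicit false
set_option linter.style.haveILetI false
set_option linter.unusedSectionVars false

open Fermat.Agent.PT.Loc Polynomial

noncomputable section

namespace Fermat.Agent.S56F

section Tools

variable {p : ℕ} [Fact p.Prime]

theorem h43s_norm_natCast_le (m : ℕ) : ‖(m : Om p)‖ ≤ 1 := by
  have h : ((m : ℚ_[p]) : Om p) = (m : Om p) := map_natCast (algebraMap ℚ_[p] (Om p)) m
  rw [← h, PadicAlgCl.norm_extends]
  exact_mod_cast Padic.norm_int_le_one (m : ℤ)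

/-- the binomial formula with a unit: `(1 + t) ^ p = 1 + t ^ p + p t v`, `‖v - 1‖ ≤ ‖t‖`. -/
theorem h43s_binom {t : Om p} (ht : ‖t‖ ≤ 1) :
    ∃ v : Om p, ‖v - 1‖ ≤ ‖t‖ ∧ (1 + t) ^ p = 1 + t ^ p + (p : Om p) * t * v := by
  classical
  have hp : p.Prime := Fact.out
  have h := add_pow_prime_eq hp t (1 : Om p)
  simp only [one_pow, mul_one] at h
  refine ⟨∑ k ∈ Finset.Ioo 0 p, t ^ (k - 1) * ((p.choose k / p : ℕ) : Om p), ?_, ?_⟩
  · have h1 : (1 : ℕ) ∈ Finset.Ioo 0 p := Finset.mem_Ioo.mpr ⟨Nat.one_pos, hp.one_lt⟩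
    rw [← Finset.add_sum_erase _ _ h1]
    have e1 : t ^ (1 - 1) * ((p.choose 1 / p : ℕ) : Om p) = 1 := by
      rw [Nat.choose_one_right, Nat.div_self hp.pos]
      simp
    rw [e1, add_sub_cancel_left]
    refine IsUltrametricDist.norm_sum_le_of_forall_le_of_nonneg (norm_nonneg t) ?_
    intro k hk
    have hk1 : k ≠ 1 := (Finset.mem_erase.mp hk).1
    have hk0 : 0 < k := (Finset.mem_Ioo.mp (Finset.mem_erase.mp hk).2).1
    have hk2 : k - 1 = (k - 2) + 1 := by omega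
    rw [norm_mul, norm_pow, hk2, pow_succ]
    calc ‖t‖ ^ (k - 2) * ‖t‖ * ‖((p.choose k / p : ℕ) : Om p)‖
        ≤ 1 * ‖t‖ * 1 := by
          gcongr
          · exact pow_le_one₀ (norm_nonneg t) ht
          · exact h43s_norm_natCast_le _
      _ = ‖t‖ := by ring
  · rw [add_comm 1 t, h]
    ring

/-- Teichmüller representatives: an integer is congruent to `0` or to a root of unity of order
prime to `p`; in both cases to an element fixed by inertia. -/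
theorem h43s_teich {θ : Om p} (hθ : ‖θ‖ ≤ 1) :
    ∃ w : Om p, (∀ σ ∈ inertia p, σ w = w) ∧ ‖w‖ ≤ 1 ∧ ‖θ - w‖ < 1 := by
  rcases lt_or_eq_of_le hθ with hlt | heq
  · exact ⟨0, fun σ _ => map_zero σ, by rw [norm_zero]; exact zero_le_one, by
      rw [sub_zero]; exact hlt⟩
  · have hxint : IsIntegral ℚ_[p] θ := Algebra.IsIntegral.isIntegral θ
    have hfd : FiniteDimensional ℚ_[p] (IntermediateField.adjoin ℚ_[p] {θ}) :=
      IntermediateField.adjoin.finiteDimensional hxint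
    have hxK : θ ∈ IntermediateField.adjoin ℚ_[p] {θ} :=
      IntermediateField.subset_adjoin ℚ_[p] {θ} (Set.mem_singleton θ)
    obtain ⟨-, -, -, hteich, -⟩ := h34lf_lfTeich p (IntermediateField.adjoin ℚ_[p] {θ})
    obtain ⟨w, ⟨-, m, hm, hpm, hw⟩, hxw⟩ := hteich θ hxK heq
    refine ⟨w, fun σ hσ => h89d0_fix_of_mem_inertia hσ w m hm hpm hw, ?_, hxw⟩
    exact (h89d0_norm_of_pow_eq_one hm hw).le

/-- an approximate root of `T ^ p + c T + a` fixed by inertia (`c ∈ {0, 1}`). -/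
theorem h43s_root {a c : Om p} (ha : ‖a‖ ≤ 1) (hc : ‖c‖ ≤ 1) :
    ∃ w : Om p, (∀ σ ∈ inertia p, σ w = w) ∧ ‖w‖ ≤ 1 ∧ ‖w ^ p + c * w + a‖ < 1 := by
  have hp : p.Prime := Fact.out
  -- a root
  have hdeg : ((X : (Om p)[X]) ^ p + (C c * X + C a)).degree = ((p : ℕ) : WithBot ℕ) := by
    have h1 : (C c * X + C a : (Om p)[X]).degree < ((X : (Om p)[X]) ^ p).degree := by
      rw [degree_X_pow]
      exact lt_of_le_of_lt degree_linear_le (by exact_mod_cast hp.one_lt)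
    rw [degree_add_eq_left_of_degree_lt h1, degree_X_pow]
  obtain ⟨θ, hθ⟩ := IsAlgClosed.exists_root ((X : (Om p)[X]) ^ p + (C c * X + C a)) (by
    rw [hdeg]
    exact_mod_cast hp.ne_zero)
  have hθ' : θ ^ p + (c * θ + a) = 0 := by
    simpa [IsRoot.def] using hθ
  -- `θ` is integral
  have hθ1 : ‖θ‖ ≤ 1 := by
    by_contra hcon
    have h1 : 1 < ‖θ‖ := not_le.mp hcon
    have h2 : θ ^ p = -(c * θ + a) := eq_neg_of_add_eq_zero_left hθ'
    have h3 : ‖θ ^ p‖ ≤ ‖θ‖ := by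
      rw [h2, norm_neg]
      refine (IsUltrametricDist.norm_add_le_max _ _).trans (max_le ?_ (ha.trans h1.le))
      rw [norm_mul]
      calc ‖c‖ * ‖θ‖ ≤ 1 * ‖θ‖ := by gcongr
        _ = ‖θ‖ := one_mul _
    rw [norm_pow] at h3
    have h4 : ‖θ‖ ^ 1 < ‖θ‖ ^ p := pow_lt_pow_right₀ h1 hp.one_lt
    rw [pow_one] at h4
    linarith
  obtain ⟨w, hw, hw1, hθw⟩ := h43s_teich hθ1
  refine ⟨w, hw, hw1, ?_⟩
  -- `w ^ p - θ ^ p` is divisible by `w - θ` in the ring of integers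
  have hmemw : w ∈ intOm p := ⟨hw1, fun σ hσ => by
    rw [Subgroup.mem_bot] at hσ
    rw [hσ]
    rfl⟩
  have hmemθ : θ ∈ intOm p := ⟨hθ1, fun σ hσ => by
    rw [Subgroup.mem_bot] at hσ
    rw [hσ]
    rfl⟩
  obtain ⟨q, hq⟩ := sub_dvd_pow_sub_pow (⟨w, hmemw⟩ : intOm p) ⟨θ, hmemθ⟩ p
  have hq' : w ^ p - θ ^ p = (w - θ) * (q : Om p) := by
    have := congrArg (fun x : intOm p => (x : Om p)) hq
    simpa using this
  have hwθ : ‖w - θ‖ < 1 := by rw [norm_sub_rev]; exact hθw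
  have e : w ^ p + c * w + a = (w - θ) * (q : Om p) + c * (w - θ) := by
    have : w ^ p + c * w + a = (w ^ p - θ ^ p) + c * (w - θ) + (θ ^ p + (c * θ + a)) := by ring
    rw [this, hθ', add_zero, hq']
  rw [e]
  refine lt_of_le_of_lt (IsUltrametricDist.norm_add_le_max _ _) (max_lt ?_ ?_)
  · rw [norm_mul]
    calc ‖w - θ‖ * ‖(q : Om p)‖ ≤ ‖w - θ‖ * 1 := by
          gcongr
          exact q.2.1
      _ < 1 := by rw [mul_one]; exact hwθ
  · rw [norm_mul]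
    calc ‖c‖ * ‖w - θ‖ ≤ 1 * ‖w - θ‖ := by gcongr
      _ < 1 := by rw [one_mul]; exact hwθ

theorem h43s_pi {π : Om p} (hπ : π ^ (p ^ 2 - 1) = p) :
    0 < ‖π‖ ∧ ‖π‖ < 1 ∧ ‖(p : Om p)‖ = ‖π‖ ^ (p ^ 2 - 1) ∧ 0 < p ^ 2 - 1 ∧ ¬ p ∣ p ^ 2 - 1 := by
  have hp : p.Prime := Fact.out
  have hp2 : 2 ≤ p := hp.two_le
  have hn : 0 < p ^ 2 - 1 := by
    have : 4 ≤ p ^ 2 := by nlinarith
    omega
  have hpn : ¬ p ∣ p ^ 2 - 1 := by
    intro h
    have h1 : p ∣ p ^ 2 := dvd_pow_self p (by norm_num)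
    have h2 : p ∣ p ^ 2 - (p ^ 2 - 1) := Nat.dvd_sub h1 h
    have h3 : p ^ 2 - (p ^ 2 - 1) = 1 := by omega
    rw [h3] at h2
    exact hp.one_lt.ne' (Nat.dvd_one.mp h2)
  have hπn : ‖π‖ ^ (p ^ 2 - 1) = (p : ℝ)⁻¹ := by
    rw [← norm_pow, hπ, h43b_norm_p]
  have hπpos : 0 < ‖π‖ := by
    rcases (norm_nonneg π).lt_or_eq with h | h
    · exact h
    · rw [← h, zero_pow hn.ne'] at hπn
      exact absurd hπn (h43b_p_inv_pos (p := p)).ne
  have hπlt : ‖π‖ < 1 := by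
    by_contra hcon
    have h1 : (1 : ℝ) ≤ ‖π‖ ^ (p ^ 2 - 1) := one_le_pow₀ (not_lt.mp hcon)
    rw [hπn] at h1
    exact absurd h1 (not_le.mpr (h43b_p_inv_lt_one (p := p)))
  exact ⟨hπpos, hπlt, by rw [hπn, h43b_norm_p], hn, hpn⟩

theorem h43s_exp {i : ℕ} (h1 : 1 ≤ i) (h2 : i ≤ p) : p * i + 1 ≤ p ^ 2 - 1 + i := by
  have hp : p.Prime := Fact.out
  have hp2 : 2 ≤ p := hp.two_le
  have h4 : p ^ 2 = p * p := sq p
  have h3 : p * i + p * (p - i) = p * p := by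
    rw [← Nat.mul_add, Nat.add_sub_cancel' h2]
  rcases Nat.eq_or_lt_of_le h2 with h5 | h5
  · subst h5
    have : 2 ≤ i * i := by nlinarith
    omega
  · have h6 : 1 ≤ p - i := by omega
    have h7 : 2 * 1 ≤ p * (p - i) := Nat.mul_le_mul hp2 h6
    omega

/-- an integer of `K` of norm `< 1` has norm `≤ ‖π‖`. -/
theorem h43s_disc {π : Om p} (hπ : π ^ (p ^ 2 - 1) = p) {e : Om p}
    (heK : ∀ g ∈ h89s_IK p π, g e = e) (he : ‖e‖ < 1) : ‖e‖ ≤ ‖π‖ := by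
  obtain ⟨hπpos, hπlt, -, hn, hpn⟩ := h43s_pi hπ
  by_cases he0 : e = 0
  · rw [he0, norm_zero]
    exact hπpos.le
  obtain ⟨-, -, -, hdisc⟩ :=
    h45g_tameDiscrete p (p ^ 2 - 1) hn hpn π hπ (h89s_IK p π) (fun σ => Iff.rfl)
  obtain ⟨n, u, -, hu1, heu⟩ := hdisc e ⟨he.le, heK⟩ he0
  have hen : ‖e‖ = ‖π‖ ^ n := by
    rw [heu, norm_mul, norm_pow, hu1, mul_one]
  have hn1 : 1 ≤ n := by
    by_contra hcon
    have : n = 0 := by omega
    rw [this, pow_zero] at hen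
    linarith
  rw [hen]
  calc ‖π‖ ^ n ≤ ‖π‖ ^ 1 := pow_le_pow_of_le_one hπpos.le hπlt.le hn1
    _ = ‖π‖ := pow_one _

/-- **the `p`-step**: from a generator at level `p i` to a generator at level `p i + 1`. -/
theorem h43s_step {π ζ : Om p} (hπ : π ^ (p ^ 2 - 1) = p) (hζ : ζ ^ p = 1)
    (χ : Gq p → ZMod p) {i : ℕ} (hi1 : 1 ≤ i) (hi2 : i ≤ p + 1) {β : Om p}
    (hgen : ∀ g ∈ h89s_IK p π, g β = ζ ^ (χ g).val * β)
    (hlev : ‖β ^ p - 1‖ ≤ ‖π‖ ^ (p * i)) :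
    ∃ β' : Om p, (∀ g ∈ h89s_IK p π, g β' = ζ ^ (χ g).val * β') ∧
      ‖β' ^ p - 1‖ ≤ ‖π‖ ^ (p * i + 1) := by
  have hp : p.Prime := Fact.out
  obtain ⟨hπpos, hπlt, hpπ, hn, hpn⟩ := h43s_pi hπ
  have hπ0 : π ≠ 0 := norm_pos_iff.mp hπpos
  have hπle : ∀ m : ℕ, ‖π‖ ^ m ≤ 1 := fun m => pow_le_one₀ hπpos.le hπlt.le
  -- `x = β ^ p ∈ K`
  have hxK : ∀ g ∈ h89s_IK p π, g (β ^ p) = β ^ p := by
    intro g hg
    rw [map_pow, hgen g hg, mul_pow, ← pow_mul, mul_comm (χ g).val p, pow_mul, hζ, one_pow,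
      one_mul]
  -- `a = (x - 1) / π ^ (p i)`
  set a : Om p := (β ^ p - 1) / π ^ (p * i) with ha
  have hπpi : π ^ (p * i) ≠ 0 := pow_ne_zero _ hπ0
  have ha1 : ‖a‖ ≤ 1 := by
    rw [ha, norm_div, norm_pow]
    exact div_le_one_of_le₀ hlev (pow_nonneg hπpos.le _)
  have haK : ∀ g ∈ h89s_IK p π, g a = a := by
    intro g hg
    rw [ha, map_div₀, map_sub, map_one, hxK g hg, map_pow, hg.2]
  have hxa : β ^ p = 1 + a * π ^ (p * i) := by
    rw [ha, div_mul_cancel₀ _ hπpi]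
    ring
  -- the constant `c`
  set c : Om p := if i = p + 1 then 1 else 0 with hc
  have hc1 : ‖c‖ ≤ 1 := by
    rw [hc]
    split_ifs
    · rw [norm_one]
    · rw [norm_zero]
      exact zero_le_one
  have hcK : ∀ g : Gq p, g c = c := by
    intro g
    rw [hc]
    split_ifs
    · exact map_one g
    · exact map_zero g
  -- the approximate root
  obtain ⟨w, hw, hw1, hwe⟩ := h43s_root ha1 hc1
  have hwK : ∀ g ∈ h89s_IK p π, g w = w := fun g hg => hw g hg.1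
  have heK : ∀ g ∈ h89s_IK p π, g (w ^ p + c * w + a) = w ^ p + c * w + a := by
    intro g hg
    rw [map_add, map_add, map_mul, map_pow, hwK g hg, haK g hg, hcK g]
  have he : ‖w ^ p + c * w + a‖ ≤ ‖π‖ := h43s_disc hπ heK hwe
  -- `t = w π ^ i`
  set t : Om p := w * π ^ i with ht
  have htn : ‖t‖ ≤ ‖π‖ ^ i := by
    rw [ht, norm_mul, norm_pow]
    calc ‖w‖ * ‖π‖ ^ i ≤ 1 * ‖π‖ ^ i := by gcongr
      _ = ‖π‖ ^ i := one_mul _
  have htπ : ‖t‖ ≤ ‖π‖ := by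
    refine htn.trans ?_
    calc ‖π‖ ^ i ≤ ‖π‖ ^ 1 := pow_le_pow_of_le_one hπpos.le hπlt.le hi1
      _ = ‖π‖ := pow_one _
  have ht1 : ‖t‖ ≤ 1 := htπ.trans hπlt.le
  obtain ⟨v, hv, hbin⟩ := h43s_binom ht1
  have hv1 : ‖v‖ ≤ 1 := by
    have : v = (v - 1) + 1 := by ring
    rw [this]
    refine (IsUltrametricDist.norm_add_le_max _ _).trans (max_le (hv.trans ht1) ?_)
    rw [norm_one]
  have htp : t ^ p = w ^ p * π ^ (p * i) := by
    rw [ht, mul_pow, ← pow_mul, mul_comm i p]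
  have htpn : ‖t ^ p‖ ≤ ‖π‖ := by
    rw [norm_pow]
    calc ‖t‖ ^ p ≤ ‖t‖ ^ 1 := pow_le_pow_of_le_one (norm_nonneg _) ht1 hp.one_lt.le
      _ = ‖t‖ := pow_one _
      _ ≤ ‖π‖ := htπ
  have hptv : ‖(p : Om p) * t * v‖ ≤ ‖π‖ ^ (p ^ 2 - 1 + i) := by
    rw [norm_mul, norm_mul, hpπ, pow_add]
    calc ‖π‖ ^ (p ^ 2 - 1) * ‖t‖ * ‖v‖ ≤ ‖π‖ ^ (p ^ 2 - 1) * ‖π‖ ^ i * 1 := by gcongr
      _ = ‖π‖ ^ (p ^ 2 - 1) * ‖π‖ ^ i := mul_one _
  have hptv' : ‖(p : Om p) * t * v‖ ≤ ‖π‖ := by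
    refine hptv.trans ?_
    calc ‖π‖ ^ (p ^ 2 - 1 + i) ≤ ‖π‖ ^ 1 :=
          pow_le_pow_of_le_one hπpos.le hπlt.le (by omega)
      _ = ‖π‖ := pow_one _
  -- the new generator
  refine ⟨β * (1 + t), ?_, ?_⟩
  · intro g hg
    rw [map_mul, hgen g hg, map_add, map_one, ht, map_mul, map_pow, hwK g hg, hg.2]
    ring
  -- the estimate
  have hkey : (β * (1 + t)) ^ p - 1
      = π ^ (p * i) * (w ^ p + c * w + a) + ((p : Om p) * t * v - c * w * π ^ (p * i))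
        + a * π ^ (p * i) * (t ^ p + (p : Om p) * t * v) := by
    rw [mul_pow, hbin, hxa, htp]
    ring
  have hb1 : ‖π ^ (p * i) * (w ^ p + c * w + a)‖ ≤ ‖π‖ ^ (p * i + 1) := by
    rw [norm_mul, norm_pow, pow_succ]
    gcongr
  have hb3 : ‖a * π ^ (p * i) * (t ^ p + (p : Om p) * t * v)‖ ≤ ‖π‖ ^ (p * i + 1) := by
    rw [norm_mul, norm_mul, norm_pow, pow_succ]
    have h1 : ‖t ^ p + (p : Om p) * t * v‖ ≤ ‖π‖ :=
      (IsUltrametricDist.norm_add_le_max _ _).trans (max_le htpn hptv')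
    calc ‖a‖ * ‖π‖ ^ (p * i) * ‖t ^ p + (p : Om p) * t * v‖
        ≤ 1 * ‖π‖ ^ (p * i) * ‖π‖ := by gcongr
      _ = ‖π‖ ^ (p * i) * ‖π‖ := by rw [one_mul]
  have hb2 : ‖(p : Om p) * t * v - c * w * π ^ (p * i)‖ ≤ ‖π‖ ^ (p * i + 1) := by
    by_cases hip : i = p + 1
    · have hc' : c = 1 := by rw [hc, if_pos hip]
      have hexp : p ^ 2 - 1 + i = p * i := by
        rw [hip]
        have : p ^ 2 = p * p := sq p
        have h2 : 1 ≤ p * p := Nat.mul_pos hp.pos hp.pos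
        rw [this, Nat.mul_add, mul_one]
        omega
      have e1 : (p : Om p) * t * v - c * w * π ^ (p * i) = w * π ^ (p * i) * (v - 1) := by
        rw [hc', ht, ← hπ, ← hexp, pow_add]
        ring
      rw [e1, norm_mul, norm_mul, norm_pow, pow_succ]
      calc ‖w‖ * ‖π‖ ^ (p * i) * ‖v - 1‖ ≤ 1 * ‖π‖ ^ (p * i) * ‖π‖ := by
            gcongr
            exact hv.trans htπ
        _ = ‖π‖ ^ (p * i) * ‖π‖ := by rw [one_mul]
    · have hc' : c = 0 := by rw [hc, if_neg hip]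
      rw [hc', zero_mul, zero_mul, sub_zero]
      refine hptv.trans (pow_le_pow_of_le_one hπpos.le hπlt.le ?_)
      exact h43s_exp hi1 (by omega)
  rw [hkey]
  refine (IsUltrametricDist.norm_add_le_max _ _).trans (max_le ?_ hb3)
  exact (IsUltrametricDist.norm_add_le_max _ _).trans (max_le hb1 hb2)

end Tools

/-- **FL-S4K3.** -/
theorem h43s_kPStep : H61KPStep := by
  intro p _ _ π ζ hπ hζ _ χ i hi1 hi2 ⟨β, hgen, hlev⟩
  obtain ⟨β', h1, h2⟩ := h43s_step hπ hζ χ hi1 hi2 hgen hlev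
  exact ⟨β', h1, h2⟩

/-- **FL-S4K-A.** -/
theorem h43s_kLevP : H89KLevP := by
  intro p _ _ π hπ ζ hζ _ e i hi1 hi2 ⟨β, hlev, hgen⟩
  obtain ⟨β', h1, h2⟩ := h43s_step hπ hζ e hi1 (by omega) hgen hlev
  exact ⟨β', h2, h1⟩

end Fermat.Agent.S56F
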