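import Fermat.Agent.S56F.FLS4KumIface_helper61
import Fermat.Agent.S56F.FLD4_helper7
import Fermat.Agent.S56F.FLO2_helper89
import Fermat.Agent.PT.Loc.H36URBase

/-!
# S56 / LOC-p-FL, row FL-S4K4 (helper30): `h30k_kTop : H61KTop`

Level `≥ p² + p + 1` implies `χ = 0` on `I_K`.

`‖β ^ p - 1‖ < ‖π‖ ^ (p² + p) = ‖ζ - 1‖ ^ p` and `β ^ p - 1 = ∏ (β - μ)` over the `p`-th roots of
unity: some `μ` has `‖β - μ‖ < ‖ζ - 1‖`; `I_K` fixes `μ` (`h30k_zeta_fix`, from `h7c_cycFund`),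
`g β = ζ ^ χ(g) β`, so `‖ζ ^ χ(g) - 1‖ = ‖g (β - μ) - (β - μ)‖ < ‖ζ - 1‖`, which forces
`χ g = 0`.

Also exported: `h30k_norm_map` (Galois is isometric), `h30k_zeta_fix` (`I_K` fixes `μ_p`),
`h30k_norm_zeta_sub_one` (`‖ζ - 1‖ = ‖π‖ ^ (p + 1)`).
-/

set_option autoImplicit false

open Fermat.Agent.PT.Loc

noncomputable section

namespace Fermat.Agent.S56F

variable {p : ℕ} [Fact p.Prime]

theorem h30k_norm_map (g : Gq p) (x : Om p) : ‖g x‖ = ‖x‖ :=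
  congrArg NNReal.toReal (nnnorm_padicAlgCl_algEquiv p g x)

theorem h30k_sq_sub_one : p ^ 2 - 1 = (p + 1) * (p - 1) := by
  have hp : p.Prime := Fact.out
  have h1 : 1 ≤ p := hp.one_lt.le
  obtain ⟨m, rfl⟩ : ∃ m, p = m + 1 := ⟨p - 1, by omega⟩
  have h2 : (m + 1) ^ 2 = (m + 1 + 1) * m + 1 := by ring
  rw [h2]
  simp

theorem h30k_sq_sub_one_pos : 0 < p ^ 2 - 1 := by
  have hp : p.Prime := Fact.out
  rw [h30k_sq_sub_one]
  have := hp.two_le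
  exact Nat.mul_pos (by omega) (by omega)

theorem h30k_not_dvd_sq_sub_one : ¬ p ∣ p ^ 2 - 1 := by
  have hp : p.Prime := Fact.out
  intro h
  have h1 : p ∣ p ^ 2 := dvd_pow_self p (by norm_num)
  have h2 : p ∣ p ^ 2 - (p ^ 2 - 1) := Nat.dvd_sub h1 h
  have h3 : p ^ 2 - (p ^ 2 - 1) = 1 := by
    have := h30k_sq_sub_one_pos (p := p)
    omega
  rw [h3] at h2
  exact hp.one_lt.ne' (Nat.dvd_one.1 h2)

theorem h30k_pi_ne_zero {π : Om p} (hπ : π ^ (p ^ 2 - 1) = p) : π ≠ 0 := by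
  have hp : p.Prime := Fact.out
  intro h
  rw [h, zero_pow h30k_sq_sub_one_pos.ne'] at hπ
  have hp0 : ((p : ℕ) : Om p) ≠ 0 := by exact_mod_cast hp.ne_zero
  exact hp0 hπ.symm

theorem h30k_norm_pi_pos {π : Om p} (hπ : π ^ (p ^ 2 - 1) = p) : 0 < ‖π‖ :=
  norm_pos_iff.2 (h30k_pi_ne_zero hπ)

theorem h30k_norm_pi_lt_one {π : Om p} (hπ : π ^ (p ^ 2 - 1) = p) : ‖π‖ < 1 := by
  have hp : p.Prime := Fact.out
  by_contra hge
  rw [not_lt] at hge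
  have h1 : 1 ≤ ‖π‖ ^ (p ^ 2 - 1) := one_le_pow₀ hge
  rw [← norm_pow, hπ, h7g_norm_p] at h1
  have h4 : ((p : ℝ))⁻¹ < 1 := inv_lt_one_of_one_lt₀ (by exact_mod_cast hp.one_lt)
  linarith

/-- `I_K` fixes the `p`-th roots of unity. -/
theorem h30k_zeta_fix (hp2 : p ≠ 2) {π : Om p} (hπ : π ^ (p ^ 2 - 1) = p) {μ : Om p}
    (hμ : μ ^ p = 1) {g : Gq p} (hg : g ∈ h89s_IK p π) : g μ = μ := by
  obtain ⟨a, ha⟩ := h89o_exists_cycExp g
  have hdvd : (p - 1) ∣ p ^ 2 - 1 := ⟨p + 1, by rw [h30k_sq_sub_one, mul_comm]⟩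
  have hc := h7c_cycFund p hp2 (p ^ 2 - 1) h30k_sq_sub_one_pos h30k_not_dvd_sq_sub_one hdvd π hπ
    g hg.1 a ha
  rw [hg.2, div_self (h30k_pi_ne_zero hπ), one_pow] at hc
  have ha1 : 1 ≤ a := by
    by_contra h
    have h0 : a = 0 := by omega
    rw [h0, Nat.cast_zero, sub_zero, norm_one] at hc
    exact lt_irrefl _ hc
  have h2 : ‖((a - 1 : ℕ) : Om p)‖ < 1 := by
    rw [Nat.cast_sub ha1, Nat.cast_one, ← norm_neg, neg_sub]
    exact hc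
  obtain ⟨c, hc'⟩ := (h36u_norm_natCast_lt_one_iff (a - 1)).1 h2
  rw [ha μ hμ]
  have h3 : a = 1 + p * c := by omega
  rw [h3, pow_add, pow_one, pow_mul, hμ, one_pow, mul_one]

/-- `‖ζ - 1‖ = ‖π‖ ^ (p + 1)`. -/
theorem h30k_norm_zeta_sub_one {π ζ : Om p} (hπ : π ^ (p ^ 2 - 1) = p)
    (hζ : IsPrimitiveRoot ζ p) : ‖ζ - 1‖ = ‖π‖ ^ (p + 1) := by
  have hp : p.Prime := Fact.out
  have hp1 : p - 1 ≠ 0 := by
    have := hp.two_le
    omega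
  have hz : ‖ζ - 1‖ ^ (p - 1) = ‖((p : ℕ) : Om p)‖ := h7g_norm_zeta_sub_one hζ
  have h1 : ‖ζ - 1‖ ^ (p - 1) = (‖π‖ ^ (p + 1)) ^ (p - 1) := by
    rw [hz, ← hπ, norm_pow, ← pow_mul, h30k_sq_sub_one]
  exact (pow_left_inj₀ (norm_nonneg _) (pow_nonneg (norm_nonneg _) _) hp1).1 h1

/-- **FL-S4K4.** -/
theorem h30k_kTop : H61KTop := by
  intro p _ hp2 π ζ hπ hζp hζ1 χ hlev g hg
  obtain ⟨β, hgen, hβ⟩ := hlev
  have hp : p.Prime := Fact.out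
  have hp1 : p - 1 ≠ 0 := by
    have := hp.two_le
    omega
  have hprim : IsPrimitiveRoot ζ p := by
    rw [IsPrimitiveRoot.iff_orderOf]
    exact orderOf_eq_prime hζp hζ1
  have hπlt : ‖π‖ < 1 := h30k_norm_pi_lt_one hπ
  have hπpos : 0 < ‖π‖ := h30k_norm_pi_pos hπ
  have hz2 : ‖ζ - 1‖ = ‖π‖ ^ (p + 1) := h30k_norm_zeta_sub_one hπ hprim
  have hfac : β ^ p - 1 = ∏ μ ∈ Polynomial.nthRootsFinset p (1 : Om p), (β - μ) := by
    have h := hprim.pow_sub_pow_eq_prod_sub_mul β 1 hp.pos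
    simpa using h
  have hex : ∃ μ ∈ Polynomial.nthRootsFinset p (1 : Om p), ‖β - μ‖ < ‖ζ - 1‖ := by
    by_contra hcon
    push Not at hcon
    have h1 : ‖ζ - 1‖ ^ p ≤ ‖β ^ p - 1‖ := by
      rw [hfac, norm_prod]
      calc ‖ζ - 1‖ ^ p = ∏ _μ ∈ Polynomial.nthRootsFinset p (1 : Om p), ‖ζ - 1‖ := by
            rw [Finset.prod_const, hprim.card_nthRootsFinset]
        _ ≤ ∏ μ ∈ Polynomial.nthRootsFinset p (1 : Om p), ‖β - μ‖ :=
            Finset.prod_le_prod (fun _ _ => norm_nonneg _) hcon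
    have h2 : ‖π‖ ^ (p ^ 2 + p + 1) < ‖ζ - 1‖ ^ p := by
      rw [hz2, ← pow_mul]
      apply pow_lt_pow_right_of_lt_one₀ hπpos hπlt
      have : (p + 1) * p = p ^ 2 + p := by ring
      omega
    linarith
  obtain ⟨μ, hμmem, hμ⟩ := hex
  have hμp : μ ^ p = 1 := (Polynomial.mem_nthRootsFinset hp.pos 1).1 hμmem
  have hgμ : g μ = μ := h30k_zeta_fix hp2 hπ hμp hg
  have hgβ : g β = ζ ^ (χ g).val * β := hgen g hg
  have hζlt : ‖ζ - 1‖ < 1 := h7c_norm_zeta_sub_one_lt p hprim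
  have hμn : ‖μ‖ = 1 := h7g_norm_root_of_unity hp.ne_zero hμp
  have hβn : ‖β‖ = 1 := by
    have e : β = (β - μ) + μ := by ring
    have hne : ‖β - μ‖ ≠ ‖μ‖ := by
      rw [hμn]
      exact (hμ.trans hζlt).ne
    rw [e, IsUltrametricDist.norm_add_eq_max_of_norm_ne_norm hne, hμn]
    exact max_eq_right (hμ.trans hζlt).le
  have h3 : (ζ ^ (χ g).val - 1) * β = g (β - μ) + -(β - μ) := by
    rw [map_sub, hgμ, hgβ]
    ring
  have h4 : ‖ζ ^ (χ g).val - 1‖ < ‖ζ - 1‖ := by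
    have h5 : ‖(ζ ^ (χ g).val - 1) * β‖ ≤ max ‖g (β - μ)‖ ‖-(β - μ)‖ := by
      rw [h3]
      exact IsUltrametricDist.norm_add_le_max _ _
    rw [norm_mul, hβn, mul_one, h30k_norm_map, norm_neg, max_self] at h5
    exact lt_of_le_of_lt h5 hμ
  by_contra hχ
  have hc0 : (χ g).val ≠ 0 := fun h => hχ ((ZMod.val_eq_zero _).1 h)
  have hne0 : NeZero p := ⟨hp.ne_zero⟩
  have hlt : (χ g).val < p := ZMod.val_lt _
  have hcop : (χ g).val.Coprime p := by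
    rw [Nat.coprime_comm]
    exact (Nat.Prime.coprime_iff_not_dvd hp).2
      (fun h => hc0 (Nat.eq_zero_of_dvd_of_lt h hlt))
  have hprim' : IsPrimitiveRoot (ζ ^ (χ g).val) p := hprim.pow_of_coprime _ hcop
  have hz' : ‖ζ ^ (χ g).val - 1‖ ^ (p - 1) = ‖((p : ℕ) : Om p)‖ := h7g_norm_zeta_sub_one hprim'
  have hz : ‖ζ - 1‖ ^ (p - 1) = ‖((p : ℕ) : Om p)‖ := h7g_norm_zeta_sub_one hprim
  have h6 : ‖ζ ^ (χ g).val - 1‖ = ‖ζ - 1‖ :=
    (pow_left_inj₀ (norm_nonneg _) (norm_nonneg _) hp1).1 (hz'.trans hz.symm)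
  rw [h6] at h4
  exact lt_irrefl _ h4

end Fermat.Agent.S56F
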