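import Fermat.Agent.S56F.FLS4KC_helper68

/-!
# S56 / LOC-p-FL, row FL-S4K-A (helper68): `H89KLevP`

Levels divisible by `p`: a character of `I_K` of level `≥ p i` (`1 ≤ i ≤ p`) has level
`≥ p i + 1`.  `x = β ^ p = 1 + π ^ (p i) t`, `t ≡ w` (Teichmüller or `0`), `w = w' ^ p`,
`y = 1 + w' π ^ i ∈ K`, `y ^ p ≡ 1 + w π ^ (p i)` modulo `p π ^ i`; `β' = β / y` has
`‖β' ^ p - 1‖ < ‖π‖ ^ (p i)`, hence `≤ ‖π‖ ^ (p i + 1)` (discreteness).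
-/

set_option autoImplicit false

open Fermat.Agent.PT.Loc

noncomputable section

namespace Fermat.Agent.S56F

theorem h68w_arith (p i : ℕ) (hp : 2 ≤ p) (hip : i ≤ p) : p * i < p ^ 2 - 1 + i := by
  obtain ⟨q, rfl⟩ : ∃ q, p = q + 2 := ⟨p - 2, by omega⟩
  have h1 : (q + 2) ^ 2 - 1 = q * q + 4 * q + 3 := by
    have : (q + 2) ^ 2 = q * q + 4 * q + 4 := by ring
    omega
  rw [h1]
  have h2 : (q + 1) * i ≤ (q + 1) * (q + 2) := Nat.mul_le_mul_left _ hip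
  nlinarith

/-- the general step: over a discrete `Γ ≤ inertia` with uniformiser `ϖ`, `‖p‖ ‖ϖ‖ ^ i <
‖ϖ‖ ^ (p i)`: level `≥ p i` implies level `≥ p i + 1`. -/
theorem h68w_levP_core {p : ℕ} [Fact p.Prime] (Γ : Subgroup (Gq p)) (hΓ : Γ ≤ inertia p)
    (ϖ : Om p) (hD : IsDiscrete p Γ ϖ) (ζ : Om p) (hζ : ζ ^ p = 1) (χ : Gq p → ZMod p)
    (i : ℕ) (hi : 1 ≤ i) (hpi : ‖((p : ℕ) : Om p)‖ * ‖ϖ‖ ^ i < ‖ϖ‖ ^ (p * i))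
    (β : Om p) (hβ : ∀ g ∈ Γ, g β = ζ ^ (χ g).val * β) (hle : ‖β ^ p - 1‖ ≤ ‖ϖ‖ ^ (p * i)) :
    ∃ β' : Om p, ‖β' ^ p - 1‖ ≤ ‖ϖ‖ ^ (p * i + 1) ∧ ∀ g ∈ Γ, g β' = ζ ^ (χ g).val * β' := by
  have hp : p.Prime := Fact.out
  have hD' := hD
  obtain ⟨hϖmem, hϖ1, hϖ0, -⟩ := hD'
  have hϖpos : 0 < ‖ϖ‖ := norm_pos_iff.2 hϖ0
  have hxfix : ∀ g ∈ Γ, g (β ^ p) = β ^ p := fun g hg => by
    rw [map_pow, hβ g hg, mul_pow, ← pow_mul, mul_comm _ p, pow_mul, hζ, one_pow, one_mul]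
  -- the coefficient
  have htn : ‖(β ^ p - 1) / ϖ ^ (p * i)‖ ≤ 1 := by
    rw [norm_div, norm_pow]
    exact div_le_one_of_le₀ hle (pow_nonneg (norm_nonneg _) _)
  obtain ⟨w, hw, htw⟩ := h68v_teich _ htn
  obtain ⟨w', hw', hw'p⟩ := h68v_teich_root hw
  have hw'n : ‖w'‖ ≤ 1 := h68v_teich_norm hw'
  have hsn : ‖w' * ϖ ^ i‖ ≤ ‖ϖ‖ ^ i := by
    rw [norm_mul, norm_pow]
    calc ‖w'‖ * ‖ϖ‖ ^ i ≤ 1 * ‖ϖ‖ ^ i :=
          mul_le_mul_of_nonneg_right hw'n (pow_nonneg (norm_nonneg _) _)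
      _ = ‖ϖ‖ ^ i := one_mul _
  have hϖi : ‖ϖ‖ ^ i < 1 := pow_lt_one₀ (norm_nonneg _) hϖ1 (by omega)
  have hsp : (w' * ϖ ^ i) ^ p = w * ϖ ^ (p * i) := by
    rw [mul_pow, hw'p, ← pow_mul, mul_comm i p]
  have hbin := h68v_binom' (w' * ϖ ^ i) (hsn.trans hϖi.le)
  have hyn : ‖1 + w' * ϖ ^ i‖ = 1 := by
    apply h68v_norm_eq_one_of_sub_lt
    have : 1 + w' * ϖ ^ i - 1 = w' * ϖ ^ i := by ring
    rw [this]
    exact hsn.trans_lt hϖi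
  have hy0 : 1 + w' * ϖ ^ i ≠ 0 := by
    intro h0
    rw [h0, norm_zero] at hyn
    exact zero_ne_one hyn
  have hyfix : ∀ g ∈ Γ, g (1 + w' * ϖ ^ i) = 1 + w' * ϖ ^ i := fun g hg => by
    rw [map_add, map_one, map_mul, map_pow, h68v_teich_fix hw' (hΓ hg), hϖmem.2 g hg]
  have hϖpi0 : ϖ ^ (p * i) ≠ 0 := pow_ne_zero _ hϖ0
  have hdiff : β ^ p - (1 + w' * ϖ ^ i) ^ p =
      ϖ ^ (p * i) * ((β ^ p - 1) / ϖ ^ (p * i) - w) -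
        ((1 + w' * ϖ ^ i) ^ p - 1 - (w' * ϖ ^ i) ^ p) := by
    rw [hsp, mul_sub, mul_div_cancel₀ _ hϖpi0]
    ring
  have hsmall : ‖β ^ p - (1 + w' * ϖ ^ i) ^ p‖ < ‖ϖ‖ ^ (p * i) := by
    rw [hdiff]
    refine (h68v_norm_sub_le_max _ _).trans_lt (max_lt ?_ ?_)
    · rw [norm_mul, norm_pow]
      calc ‖ϖ‖ ^ (p * i) * ‖(β ^ p - 1) / ϖ ^ (p * i) - w‖ < ‖ϖ‖ ^ (p * i) * 1 :=
            mul_lt_mul_of_pos_left htw (pow_pos hϖpos _)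
        _ = ‖ϖ‖ ^ (p * i) := mul_one _
    · refine (hbin.trans ?_).trans_lt hpi
      exact mul_le_mul_of_nonneg_left hsn (norm_nonneg _)
  refine ⟨β * (1 + w' * ϖ ^ i)⁻¹, ?_, fun g hg => ?_⟩
  · have h1 := h68v_div_pow β _ hy0
    have hn : ‖(β * (1 + w' * ϖ ^ i)⁻¹) ^ p - 1‖ < ‖ϖ‖ ^ (p * i) := by
      rw [h1, norm_mul, norm_inv, norm_pow, hyn, one_pow, inv_one, mul_one]
      exact hsmall
    refine h68v_disc_step hD _ (fun g hg => ?_) (p * i) hn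
    rw [map_sub, map_one, map_pow, map_mul, map_inv₀, hyfix g hg, hβ g hg, mul_assoc, mul_pow,
      ← pow_mul, mul_comm _ p, pow_mul, hζ, one_pow, one_mul]
  · rw [map_mul, map_inv₀, hyfix g hg, hβ g hg, mul_assoc]

/-- **FL-S4K-A.** -/
theorem h68w_kLevP : H89KLevP := by
  intro p _ hp2 π hπ ζ hζ hζ1 e i hi hip hlev
  obtain ⟨β, hβle, hβ⟩ := hlev
  have hp : p.Prime := Fact.out
  obtain ⟨h1, h2, -, -⟩ := h68v_arith p hp.two_le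
  have hD : IsDiscrete p (h89s_IK p π) π :=
    h45g_tameDiscrete p (p ^ 2 - 1) h1 h2 π hπ (h89s_IK p π) (fun _ => h89s_mem_IK)
  have hπ1 : ‖π‖ < 1 := h68v_norm_pi_lt_one hπ
  have hπpos : 0 < ‖π‖ := norm_pos_iff.2 (h68v_pi_ne_zero hπ)
  have hpi : ‖((p : ℕ) : Om p)‖ * ‖π‖ ^ i < ‖π‖ ^ (p * i) := by
    have h3 : ‖((p : ℕ) : Om p)‖ = ‖π‖ ^ (p ^ 2 - 1) := by rw [← norm_pow, hπ]
    rw [h3, ← pow_add]
    exact pow_lt_pow_right_of_lt_one₀ hπpos hπ1 (h68w_arith p i hp.two_le hip)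
  obtain ⟨β', hβ'le, hβ'⟩ :=
    h68w_levP_core (h89s_IK p π) (fun _ h => h.1) π hD ζ hζ e i hi hpi β hβ hβle
  exact ⟨β', hβ'le, hβ'⟩

end Fermat.Agent.S56F
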