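import Fermat.Agent.S56F.FLS4KX_helper89

/-!
# S56 / LOC-p-FL, row FL-S4K-A (helper91, second seat): `H89KLevP`

Level `≥ p i` (`1 ≤ i ≤ p`) implies level `≥ p i + 1`.

Proof: `x = β ^ p = 1 + π ^ (p i) (w + π z)` (`h89x_kExpand`), `w' ^ p = w` a root of unity of
order prime to `p` (`h91p_root_pth`), `y = 1 + w' π ^ i ∈ K`,
`y ^ p = 1 + w π ^ (p i) + p w' π ^ i r` with `r` an integer (`h91p_binom`), and
`p² - 1 + i ≥ p i + 1`; `β' = β / y`.

Reusable: `h91p_root_pth`, `h91p_binom`, `h91p_norm_one_add`, `h91p_gen_pow_fix`.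
-/

set_option autoImplicit false

open Fermat.Agent.PT.Loc

noncomputable section

namespace Fermat.Agent.S56F

variable {p : ℕ} [Fact p.Prime]

/-- a root of unity of order prime to `p` is the `p`-th power of such a root of unity. -/
theorem h91p_root_pth {w : Om p} {m : ℕ} (hm0 : 0 < m) (hm : ¬ p ∣ m) (hw : w ^ m = 1) :
    ∃ w' : Om p, w' ^ m = 1 ∧ w' ^ p = w := by
  have hp : p.Prime := Fact.out
  rcases Nat.lt_or_ge 1 m with h1 | h1
  · have hcop : Nat.Coprime p m := (Nat.Prime.coprime_iff_not_dvd hp).2 hm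
    obtain ⟨a, -, ha⟩ := Nat.exists_mul_mod_eq_one_of_coprime hcop h1
    refine ⟨w ^ a, ?_, ?_⟩
    · rw [← pow_mul, mul_comm, pow_mul, hw, one_pow]
    · have h2 : p * a = m * (p * a / m) + 1 := by
        have := Nat.div_add_mod (p * a) m
        rw [ha] at this
        exact this.symm
      rw [← pow_mul, mul_comm a p, h2, pow_add, pow_mul, hw, one_pow, one_mul, pow_one]
  · have hm1 : m = 1 := by omega
    subst hm1
    rw [pow_one] at hw
    exact ⟨1, one_pow _, by rw [one_pow, hw]⟩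

/-- binomial expansion in the integers of `K`. -/
theorem h91p_binom {π t : Om p} (ht : h89s_KFix p π t) (ht1 : ‖t‖ ≤ 1) :
    ∃ r : Om p, h89s_KFix p π r ∧ ‖r‖ ≤ 1 ∧
      (1 + t) ^ p = 1 + t ^ p + (p : Om p) * t * r := by
  have hp : p.Prime := Fact.out
  obtain ⟨r, hr⟩ := exists_add_pow_prime_eq hp (1 : fixInt p (h89s_IK p π)) ⟨t, ht1, ht⟩
  refine ⟨(r : Om p), r.2.2, r.2.1, ?_⟩
  have h := congrArg (fun z : fixInt p (h89s_IK p π) => (z : Om p)) hr
  simpa using h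

theorem h91p_norm_one_add {t : Om p} (ht : ‖t‖ < 1) : ‖1 + t‖ = 1 := by
  apply le_antisymm
  · refine (IsUltrametricDist.norm_add_le_max 1 t).trans ?_
    rw [norm_one]
    exact max_le le_rfl ht.le
  · by_contra h
    rw [not_le] at h
    have h1 : ‖(1 : Om p)‖ ≤ max ‖1 + t‖ ‖-t‖ := by
      have := IsUltrametricDist.norm_add_le_max (1 + t) (-t)
      simpa using this
    rw [norm_one, norm_neg] at h1
    exact absurd h1 (not_le.mpr (max_lt h ht))

/-- the `p`-th power of a Kummer generator is in `K`. -/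
theorem h91p_gen_pow_fix {π ζ : Om p} (hζ : ζ ^ p = 1) {e : Gq p → ZMod p} {β : Om p}
    (hgen : h89s_KG p π ζ e β) : h89s_KFix p π (β ^ p) := by
  intro g hg
  rw [map_pow, hgen g hg, mul_pow, ← pow_mul, mul_comm (e g).val p, pow_mul, hζ, one_pow,
    one_mul]

/-- **FL-S4K-A.** -/
theorem h91p_kLevP : H89KLevP := by
  intro p _ _ π hπ ζ hζ _ e i hi1 hip hlev
  obtain ⟨β, hβ, hgen⟩ := hlev
  have hp : p.Prime := Fact.out
  have hπlt := h89x_norm_pi_lt_one hπ
  have hx : h89s_KFix p π (β ^ p) := h91p_gen_pow_fix hζ hgen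
  obtain ⟨w, z, hw, hz, hz1, hxe⟩ := h89x_kExpand p π hπ (β ^ p) (p * i) hx hβ
  have hA : ‖π ^ (p * i + 1) * z‖ ≤ ‖π‖ ^ (p * i + 1) := by
    rw [norm_mul, norm_pow]
    exact mul_le_of_le_one_right (pow_nonneg (norm_nonneg _) _) hz1
  rcases hw with rfl | ⟨m, hm0, hm, hwm⟩
  · refine ⟨β, ?_, hgen⟩
    have h0 : β ^ p - 1 = π ^ (p * i + 1) * z := by rw [hxe]; ring
    rw [h0]
    exact hA
  · obtain ⟨w', hw'm, hw'p⟩ := h91p_root_pth hm0 hm hwm
    have hw'fix : h89s_KFix p π w' := h89x_root_fix π hm0 hm hw'm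
    have hw'1 : ‖w'‖ = 1 := h89d0_norm_of_pow_eq_one hm0 hw'm
    have htfix : h89s_KFix p π (w' * π ^ i) :=
      h89x_fix_mul hw'fix (h89x_fix_pow (h89x_pi_fix π) i)
    have htn : ‖w' * π ^ i‖ = ‖π‖ ^ i := by rw [norm_mul, norm_pow, hw'1, one_mul]
    have htlt : ‖w' * π ^ i‖ < 1 := by
      rw [htn]
      exact pow_lt_one₀ (norm_nonneg _) hπlt (by omega)
    obtain ⟨r, -, hr1, hbin⟩ := h91p_binom htfix htlt.le
    have hyfix : h89s_KFix p π (1 + w' * π ^ i) := h89x_fix_add (h89x_fix_one π) htfix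
    have hy1 : ‖1 + w' * π ^ i‖ = 1 := h91p_norm_one_add htlt
    have hy0 : (1 + w' * π ^ i) ≠ 0 := by
      intro h
      rw [h, norm_zero] at hy1
      exact zero_ne_one hy1
    refine ⟨β / (1 + w' * π ^ i), ?_, ?_⟩
    · have htp : (w' * π ^ i) ^ p = w * π ^ (p * i) := by
        rw [mul_pow, hw'p, ← pow_mul, mul_comm i p]
      have e1 : (β / (1 + w' * π ^ i)) ^ p - 1 =
          (β ^ p - (1 + w' * π ^ i) ^ p) / (1 + w' * π ^ i) ^ p := by
        have hyp0 : (1 + w' * π ^ i) ^ p ≠ 0 := pow_ne_zero _ hy0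
        rw [div_pow, sub_div, div_self hyp0]
      have e2 : β ^ p - (1 + w' * π ^ i) ^ p =
          π ^ (p * i + 1) * z - (p : Om p) * (w' * π ^ i) * r := by
        rw [hxe, hbin, htp]; ring
      rw [e1, norm_div, norm_pow, hy1, one_pow, div_one, e2]
      have hexp : p * i + 1 ≤ p ^ 2 - 1 + i := by
        obtain ⟨q, hq⟩ : ∃ q, p = q + 1 := ⟨p - 1, by have := hp.two_le; omega⟩
        have h2 := hp.two_le
        have h3 : q * i ≤ q * p := Nat.mul_le_mul_left q hip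
        have h4 : p * i = q * i + i := by rw [hq]; ring
        have h5 : p ^ 2 = q * p + p := by rw [sq]; nth_rewrite 1 [hq]; ring
        omega
      have hB : ‖(p : Om p) * (w' * π ^ i) * r‖ ≤ ‖π‖ ^ (p * i + 1) := by
        rw [norm_mul, norm_mul, htn, ← hπ, norm_pow, ← pow_add]
        calc ‖π‖ ^ (p ^ 2 - 1 + i) * ‖r‖ ≤ ‖π‖ ^ (p ^ 2 - 1 + i) :=
              mul_le_of_le_one_right (pow_nonneg (norm_nonneg _) _) hr1
          _ ≤ ‖π‖ ^ (p * i + 1) := pow_le_pow_of_le_one (norm_nonneg _) hπlt.le hexp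
      have hsub := IsUltrametricDist.norm_add_le_max (π ^ (p * i + 1) * z)
        (-((p : Om p) * (w' * π ^ i) * r))
      rw [← sub_eq_add_neg, norm_neg] at hsub
      exact hsub.trans (max_le hA hB)
    · intro g hg
      rw [map_div₀, hgen g hg, hyfix g hg, mul_div_assoc]

end Fermat.Agent.S56F
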