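import Fermat.Agent.S56F.FLS4KX_helper89
import Fermat.Agent.S56F.FLS4_helper89

/-!
# S56 / LOC-p-FL, row FL-S4K-ASM (helper89): assembly of the supersingular Kummer count

`h89k_ssKum_of : H89KLevP → H89KLevEig → H89KLevTop → H89KInv → H89KSemi2 → H89SSKum`
and `h89k_ssCount_of : … → SSCount`.

Route (see `FLS4KIface_helper89`): the functions `μ` satisfying the conditions of `h89s_KumCond`
which matter (inertia-equivariance, Frobenius, level `≥ 3`) form a `k`-submodule `S`; levels are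
raised from `3` to `p² + 1` (`H89KLevP`, `H89KLevEig`); `T μ l` = leading coefficient at level
`p² + 1` of a Kummer generator of `l ∘ μ`; `T` is well defined, biadditive, Frobenius-semilinear
and tame-equivariant (`H89KInv`); `T μ = 0` forces level `≥ p² + p`, i.e. `μ = 0` on `I_K`
(`H89KLevTop`); the count `H89KSemi2` gives the rank `≤ 1`.
-/

set_option autoImplicit false

open Fermat.Agent.PT.Loc

noncomputable section

namespace Fermat.Agent.S56F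

variable {p : ℕ} [Fact p.Prime]

/-! ## Powers of `ζ` -/

theorem h89k_pow_eq_of_cast_eq {ζ : Om p} (hζ : ζ ^ p = 1) {m n : ℕ}
    (h : (m : ZMod p) = (n : ZMod p)) : ζ ^ m = ζ ^ n := by
  have h1 : m % p = n % p := (ZMod.natCast_eq_natCast_iff' m n p).mp h
  have key : ∀ a : ℕ, ζ ^ a = ζ ^ (a % p) := fun a => by
    conv_lhs => rw [← Nat.mod_add_div a p]
    rw [pow_add, pow_mul, hζ, one_pow, mul_one]
  rw [key m, key n, h1]

theorem h89k_zp_add {ζ : Om p} (hζ : ζ ^ p = 1) (a b : ZMod p) :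
    ζ ^ (a + b).val = ζ ^ a.val * ζ ^ b.val := by
  haveI : NeZero p := ⟨(Fact.out : p.Prime).ne_zero⟩
  rw [← pow_add]
  apply h89k_pow_eq_of_cast_eq hζ
  rw [Nat.cast_add, ZMod.natCast_zmod_val, ZMod.natCast_zmod_val, ZMod.natCast_zmod_val]

theorem h89k_zp_mul {ζ : Om p} (hζ : ζ ^ p = 1) (n : ℕ) (b : ZMod p) :
    ζ ^ ((n : ZMod p) * b).val = (ζ ^ n) ^ b.val := by
  haveI : NeZero p := ⟨(Fact.out : p.Prime).ne_zero⟩
  rw [← pow_mul]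
  apply h89k_pow_eq_of_cast_eq hζ
  rw [Nat.cast_mul, ZMod.natCast_zmod_val, ZMod.natCast_zmod_val]

theorem h89k_zeta_ne_zero {ζ : Om p} (hζ : ζ ^ p = 1) : ζ ≠ 0 := by
  rintro rfl
  rw [zero_pow (Fact.out : p.Prime).ne_zero] at hζ
  exact zero_ne_one hζ

/-! ## Norm estimates -/

theorem h89k_norm_le_one {x : Om p} {r : ℝ} (hr : r ≤ 1) (hx : ‖x - 1‖ ≤ r) : ‖x‖ ≤ 1 := by
  have e : x = (x - 1) + 1 := by ring
  rw [e]
  refine (IsUltrametricDist.norm_add_le_max _ _).trans (max_le (hx.trans hr) ?_)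
  rw [norm_one]

theorem h89k_norm_eq_one {x : Om p} {r : ℝ} (hr : r < 1) (hx : ‖x - 1‖ ≤ r) : ‖x‖ = 1 := by
  refine le_antisymm (h89k_norm_le_one hr.le hx) ?_
  by_contra hlt
  rw [not_le] at hlt
  have e : (1 : Om p) = x - (x - 1) := by ring
  have h1 : ‖(1 : Om p)‖ ≤ max ‖x‖ ‖x - 1‖ := by
    conv_lhs => rw [e]
    exact h89o_norm_sub_le_max _ _
  rw [norm_one] at h1
  have h2 : max ‖x‖ ‖x - 1‖ < 1 := max_lt hlt (lt_of_le_of_lt hx hr)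
  exact absurd h1 (not_le.mpr h2)

theorem h89k_mul_lev {x y : Om p} {r : ℝ} (hr : r ≤ 1) (hx : ‖x - 1‖ ≤ r) (hy : ‖y - 1‖ ≤ r) :
    ‖x * y - 1‖ ≤ r := by
  have e : x * y - 1 = x * (y - 1) + (x - 1) := by ring
  rw [e]
  refine (IsUltrametricDist.norm_add_le_max _ _).trans (max_le ?_ hx)
  rw [norm_mul]
  calc ‖x‖ * ‖y - 1‖ ≤ 1 * ‖y - 1‖ :=
        mul_le_mul_of_nonneg_right (h89k_norm_le_one hr hx) (norm_nonneg _)
    _ = ‖y - 1‖ := one_mul _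
    _ ≤ r := hy

theorem h89k_div_lev {x y : Om p} {r : ℝ} (hr : r < 1) (hx : ‖x - 1‖ ≤ r) (hy : ‖y - 1‖ ≤ r) :
    ‖x / y - 1‖ ≤ r := by
  have hy1 : ‖y‖ = 1 := h89k_norm_eq_one hr hy
  have hy0 : y ≠ 0 := by
    intro h
    rw [h, norm_zero] at hy1
    exact zero_ne_one hy1
  have e : x / y - 1 = ((x - 1) - (y - 1)) / y := by
    field_simp
    ring
  rw [e, norm_div, hy1, div_one]
  exact (h89o_norm_sub_le_max _ _).trans (max_le hx hy)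

theorem h89k_pi_pow_lt_one {π : Om p} (hπ : π ^ (p ^ 2 - 1) = p) {j : ℕ} (hj : 0 < j) :
    ‖π‖ ^ j < 1 :=
  pow_lt_one₀ (norm_nonneg _) (h89x_norm_pi_lt_one hπ) hj.ne'

theorem h89k_pi_pow_le {π : Om p} (hπ : π ^ (p ^ 2 - 1) = p) {i j : ℕ} (hij : i ≤ j) :
    ‖π‖ ^ j ≤ ‖π‖ ^ i :=
  pow_le_pow_of_le_one (norm_nonneg _) (h89x_norm_pi_lt_one hπ).le hij

/-! ## Kummer generators -/

theorem h89k_kg_pow_fix {π ζ : Om p} (hζ : ζ ^ p = 1) {e : Gq p → ZMod p} {β : Om p}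
    (h : h89s_KG p π ζ e β) : h89s_KFix p π (β ^ p) := by
  intro g hg
  rw [map_pow, h g hg, mul_pow, ← pow_mul, mul_comm (e g).val p, pow_mul, hζ, one_pow, one_mul]

theorem h89k_kg_one (π ζ : Om p) {e : Gq p → ZMod p} (he : ∀ g ∈ h89s_IK p π, e g = 0) :
    h89s_KG p π ζ e 1 := by
  intro g hg
  rw [he g hg, ZMod.val_zero, pow_zero, map_one, one_mul]

theorem h89k_kg_mul {π ζ : Om p} (hζ : ζ ^ p = 1) {e₁ e₂ e₃ : Gq p → ZMod p} {β₁ β₂ : Om p}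
    (h₁ : h89s_KG p π ζ e₁ β₁) (h₂ : h89s_KG p π ζ e₂ β₂)
    (he : ∀ g ∈ h89s_IK p π, e₃ g = e₁ g + e₂ g) : h89s_KG p π ζ e₃ (β₁ * β₂) := by
  intro g hg
  rw [map_mul, h₁ g hg, h₂ g hg, he g hg, h89k_zp_add hζ]
  ring

theorem h89k_kg_congr {π ζ : Om p} {e e' : Gq p → ZMod p} {β : Om p}
    (h : h89s_KG p π ζ e β) (he : ∀ g ∈ h89s_IK p π, e' g = e g) : h89s_KG p π ζ e' β := by
  intro g hg
  rw [he g hg, h g hg]

theorem h89k_kg_div_fix {π ζ : Om p} (hζ : ζ ^ p = 1) {e : Gq p → ZMod p} {β β' : Om p}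
    (h : h89s_KG p π ζ e β) (h' : h89s_KG p π ζ e β') : h89s_KFix p π (β' / β) := by
  intro g hg
  rw [map_div₀, h g hg, h' g hg,
    mul_div_mul_left _ _ (pow_ne_zero _ (h89k_zeta_ne_zero hζ))]

/-- transport of a Kummer generator by an element normalising `I_K`. -/
theorem h89k_kg_transport {π ζ : Om p} (hζ : ζ ^ p = 1) {e : Gq p → ZMod p} {β : Om p}
    (h : h89s_KG p π ζ e β) (σ : Gq p) (hσ : ∀ g ∈ h89s_IK p π, σ⁻¹ * g * σ ∈ h89s_IK p π)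
    (a : ℕ) (ha : σ ζ = ζ ^ a) :
    h89s_KG p π ζ (fun g => (a : ZMod p) * e (σ⁻¹ * g * σ)) (σ β) := by
  intro g hg
  have h1 : g (σ β) = σ ((σ⁻¹ * g * σ) β) := by
    rw [← AlgEquiv.mul_apply, ← AlgEquiv.mul_apply]
    congr 1
    group
  rw [h1, h _ (hσ g hg), map_mul, map_pow, ha]
  show _ = ζ ^ ((a : ZMod p) * e (σ⁻¹ * g * σ)).val * σ β
  rw [h89k_zp_mul hζ]

/-! ## The leading coefficient is well defined and additive -/

/-- the key additivity lemma. -/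
theorem h89k_add_coeff {κ : Type} [Field κ] {π ζ : Om p} (hπ : π ^ (p ^ 2 - 1) = p)
    (hζ : ζ ^ p = 1) {N : ℕ} (hN : 0 < N) (a : Om p → κ)
    (hadd : ∀ x x' : Om p, h89s_KFix p π x → h89s_KFix p π x' → ‖x - 1‖ ≤ ‖π‖ ^ N →
      ‖x' - 1‖ ≤ ‖π‖ ^ N → a (x * x') = a x + a x')
    (hpow : ∀ y : Om p, h89s_KFix p π y → ‖y ^ p - 1‖ ≤ ‖π‖ ^ N → a (y ^ p) = 0)
    {e₁ e₂ e₃ : Gq p → ZMod p} {β₁ β₂ β₃ : Om p}
    (l₁ : ‖β₁ ^ p - 1‖ ≤ ‖π‖ ^ N) (l₂ : ‖β₂ ^ p - 1‖ ≤ ‖π‖ ^ N) (l₃ : ‖β₃ ^ p - 1‖ ≤ ‖π‖ ^ N)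
    (h₁ : h89s_KG p π ζ e₁ β₁) (h₂ : h89s_KG p π ζ e₂ β₂) (h₃ : h89s_KG p π ζ e₃ β₃)
    (he : ∀ g ∈ h89s_IK p π, e₃ g = e₁ g + e₂ g) :
    a (β₃ ^ p) = a (β₁ ^ p) + a (β₂ ^ p) := by
  have hr : ‖π‖ ^ N < 1 := h89k_pi_pow_lt_one hπ hN
  have h12 : h89s_KG p π ζ e₃ (β₁ * β₂) := h89k_kg_mul hζ h₁ h₂ he
  have hy : h89s_KFix p π (β₃ / (β₁ * β₂)) := h89k_kg_div_fix hζ h12 h₃
  have l12 : ‖β₁ ^ p * β₂ ^ p - 1‖ ≤ ‖π‖ ^ N := h89k_mul_lev hr.le l₁ l₂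
  have hn12 : ‖β₁ ^ p * β₂ ^ p‖ = 1 := h89k_norm_eq_one hr l12
  have h120 : β₁ ^ p * β₂ ^ p ≠ 0 := by
    intro h
    rw [h, norm_zero] at hn12
    exact zero_ne_one hn12
  have ly : ‖(β₃ / (β₁ * β₂)) ^ p - 1‖ ≤ ‖π‖ ^ N := by
    rw [div_pow, mul_pow]
    exact h89k_div_lev hr l₃ l12
  have hay : a ((β₃ / (β₁ * β₂)) ^ p) = 0 := hpow _ hy ly
  have e3 : β₃ ^ p = (β₁ ^ p * β₂ ^ p) * (β₃ / (β₁ * β₂)) ^ p := by
    rw [div_pow, mul_pow, mul_div_cancel₀ _ h120]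
  have hf1 : h89s_KFix p π (β₁ ^ p) := h89k_kg_pow_fix hζ h₁
  have hf2 : h89s_KFix p π (β₂ ^ p) := h89k_kg_pow_fix hζ h₂
  rw [e3, hadd _ _ (h89x_fix_mul hf1 hf2) (h89x_fix_pow hy p) l12 ly, hay, add_zero,
    hadd _ _ hf1 hf2 l₁ l₂]

/-- the leading coefficient depends only on the character. -/
theorem h89k_coeff_unique {κ : Type} [Field κ] {π ζ : Om p} (hπ : π ^ (p ^ 2 - 1) = p)
    (hζ : ζ ^ p = 1) {N : ℕ} (hN : 0 < N) (a : Om p → κ)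
    (hadd : ∀ x x' : Om p, h89s_KFix p π x → h89s_KFix p π x' → ‖x - 1‖ ≤ ‖π‖ ^ N →
      ‖x' - 1‖ ≤ ‖π‖ ^ N → a (x * x') = a x + a x')
    (hpow : ∀ y : Om p, h89s_KFix p π y → ‖y ^ p - 1‖ ≤ ‖π‖ ^ N → a (y ^ p) = 0)
    {e e' : Gq p → ZMod p} {β β' : Om p}
    (l₁ : ‖β ^ p - 1‖ ≤ ‖π‖ ^ N) (l₂ : ‖β' ^ p - 1‖ ≤ ‖π‖ ^ N)
    (h₁ : h89s_KG p π ζ e β) (h₂ : h89s_KG p π ζ e' β')
    (he : ∀ g ∈ h89s_IK p π, e' g = e g) :
    a (β' ^ p) = a (β ^ p) := by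
  have h0 : h89s_KG p π ζ (fun _ => 0) (1 : Om p) := h89k_kg_one π ζ (fun _ _ => rfl)
  have l0 : ‖(1 : Om p) ^ p - 1‖ ≤ ‖π‖ ^ N := by
    rw [one_pow, sub_self, norm_zero]
    exact pow_nonneg (norm_nonneg _) _
  have h := h89k_add_coeff hπ hζ hN a hadd hpow l₁ l0 l₂ h₁ h0 h₂
    (fun g hg => by rw [he g hg, add_zero])
  rw [h, hpow 1 (h89x_fix_one π) l0, add_zero]

/-! ## Arithmetic of the levels -/

theorem h89k_not_modEq {n j c : ℕ} (q : ℕ) (h1 : c + n * q < j) (h2 : j < c + n * q + n) :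
    ¬ j ≡ c [MOD n] := by
  intro h
  have h3 : c + n * q ≡ c [MOD n] := by
    unfold Nat.ModEq
    rw [Nat.add_mul_mod_self_left]
  have h4 : c + n * q ≡ j [MOD n] := h3.trans h.symm
  have h5 : n ∣ j - (c + n * q) := (Nat.modEq_iff_dvd' h1.le).mp h4
  have h6 := Nat.le_of_dvd (by omega) h5
  omega

theorem h89k_not_modEq' {n j c : ℕ} (h1 : j < c) (h2 : c < j + n) : ¬ j ≡ c [MOD n] := by
  intro h
  have h5 : n ∣ c - j := (Nat.modEq_iff_dvd' h1.le).mp h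
  have h6 := Nat.le_of_dvd (by omega) h5
  omega

/-- levels `3 ≤ j ≤ p²`: one step. -/
theorem h89k_step_low (hA : H89KLevP) (hB : H89KLevEig) (hp2 : p ≠ 2)
    {k : Type} [Field k] [Finite k] [CharP k p] (τ : kˣ →* (Om p)ˣ) (hτ : IsTeich p τ)
    {π : Om p} (hπ : π ^ (p ^ 2 - 1) = p) (ψ : Gq p → kˣ)
    (hψ : ∀ σ ∈ inertia p, ((τ (ψ σ) : (Om p)ˣ) : Om p) * (σ π / π) ^ p = σ π / π)
    (μ : Gq p → k)
    (hμ : ∀ σ ∈ inertia p, ∀ g ∈ h89s_IK p π, μ (σ * g * σ⁻¹) = ((ψ σ : kˣ) : k) * μ g)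
    {ζ : Om p} (hζ : ζ ^ p = 1) (hζ1 : ζ ≠ 1) (l : k →+ ZMod p) (j : ℕ) (h3 : 3 ≤ j)
    (hj : j ≤ p ^ 2) (h : h89s_Lev p π ζ (fun g => l (μ g)) j) :
    h89s_Lev p π ζ (fun g => l (μ g)) (j + 1) := by
  have hp : p.Prime := Fact.out
  have hp3 : 3 ≤ p := by
    have := hp.two_le
    omega
  have hpp : p ^ 2 = p * p := sq p
  have h9 : 3 * p ≤ p * p := Nat.mul_le_mul_right p hp3
  by_cases hdvd : p ∣ j
  · obtain ⟨i, rfl⟩ := hdvd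
    have hi1 : 1 ≤ i := by
      rcases Nat.eq_zero_or_pos i with h0 | h0
      · rw [h0, mul_zero] at h3
        omega
      · exact h0
    have hip : i ≤ p := by
      rw [hpp] at hj
      exact Nat.le_of_mul_le_mul_left hj hp.pos
    exact hA p hp2 π hπ ζ hζ hζ1 _ i hi1 hip h
  · refine hB p hp2 k τ hτ π hπ ψ hψ μ hμ ζ hζ hζ1 l j (by omega) (by omega) hdvd ?_ ?_ h
    · exact h89k_not_modEq 0 (by omega) (by omega)
    · rcases lt_trichotomy j (2 * p) with h1 | h1 | h1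
      · exact h89k_not_modEq' h1 (by omega)
      · exact absurd ⟨2, by rw [h1, mul_comm]⟩ hdvd
      · exact h89k_not_modEq 0 (by omega) (by omega)

/-- from level `3` to level `p² + 1`. -/
theorem h89k_climb_low (hA : H89KLevP) (hB : H89KLevEig) (hp2 : p ≠ 2)
    {k : Type} [Field k] [Finite k] [CharP k p] (τ : kˣ →* (Om p)ˣ) (hτ : IsTeich p τ)
    {π : Om p} (hπ : π ^ (p ^ 2 - 1) = p) (ψ : Gq p → kˣ)
    (hψ : ∀ σ ∈ inertia p, ((τ (ψ σ) : (Om p)ˣ) : Om p) * (σ π / π) ^ p = σ π / π)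
    (μ : Gq p → k)
    (hμ : ∀ σ ∈ inertia p, ∀ g ∈ h89s_IK p π, μ (σ * g * σ⁻¹) = ((ψ σ : kˣ) : k) * μ g)
    {ζ : Om p} (hζ : ζ ^ p = 1) (hζ1 : ζ ≠ 1) (l : k →+ ZMod p)
    (h : h89s_Lev p π ζ (fun g => l (μ g)) 3) :
    h89s_Lev p π ζ (fun g => l (μ g)) (p ^ 2 + 1) := by
  have key : ∀ j : ℕ, 3 ≤ j → j ≤ p ^ 2 + 1 → h89s_Lev p π ζ (fun g => l (μ g)) j := by
    intro j hj
    induction j, hj using Nat.le_induction with
    | base => exact fun _ => h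
    | succ j hj ih =>
      intro hj'
      exact h89k_step_low hA hB hp2 τ hτ hπ ψ hψ μ hμ hζ hζ1 l j hj (by omega) (ih (by omega))
  have hp : p.Prime := Fact.out
  have : 4 ≤ p ^ 2 := by
    have := hp.two_le
    nlinarith
  exact key _ (by omega) le_rfl

/-- from level `p² + 2` to level `p² + p`. -/
theorem h89k_climb_high (hB : H89KLevEig) (hp2 : p ≠ 2)
    {k : Type} [Field k] [Finite k] [CharP k p] (τ : kˣ →* (Om p)ˣ) (hτ : IsTeich p τ)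
    {π : Om p} (hπ : π ^ (p ^ 2 - 1) = p) (ψ : Gq p → kˣ)
    (hψ : ∀ σ ∈ inertia p, ((τ (ψ σ) : (Om p)ˣ) : Om p) * (σ π / π) ^ p = σ π / π)
    (μ : Gq p → k)
    (hμ : ∀ σ ∈ inertia p, ∀ g ∈ h89s_IK p π, μ (σ * g * σ⁻¹) = ((ψ σ : kˣ) : k) * μ g)
    {ζ : Om p} (hζ : ζ ^ p = 1) (hζ1 : ζ ≠ 1) (l : k →+ ZMod p)
    (h : h89s_Lev p π ζ (fun g => l (μ g)) (p ^ 2 + 2)) :
    h89s_Lev p π ζ (fun g => l (μ g)) (p ^ 2 + p) := by
  have hp : p.Prime := Fact.out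
  have hp3 : 3 ≤ p := by
    have := hp.two_le
    omega
  have hpp : p ^ 2 = p * p := sq p
  have h9 : 3 * p ≤ p * p := Nat.mul_le_mul_right p hp3
  have key : ∀ j : ℕ, p ^ 2 + 2 ≤ j → j ≤ p ^ 2 + p → h89s_Lev p π ζ (fun g => l (μ g)) j := by
    intro j hj
    induction j, hj using Nat.le_induction with
    | base => exact fun _ => h
    | succ j hj ih =>
      intro hj'
      have hdvd : ¬ p ∣ j := by
        rintro ⟨i, rfl⟩
        rw [hpp] at hj hj'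
        have h1 : p < i := by
          by_contra hle
          rw [not_lt] at hle
          have := Nat.mul_le_mul_left p hle
          omega
        have h2 : p * (p + 1) ≤ p * i := Nat.mul_le_mul_left p h1
        rw [mul_add, mul_one] at h2
        omega
      refine hB p hp2 k τ hτ π hπ ψ hψ μ hμ ζ hζ hζ1 l j (by omega) (by omega) hdvd ?_ ?_
        (ih (by omega))
      · refine h89k_not_modEq 1 (by omega) (by omega)
      · exact h89k_not_modEq 0 (by omega) (by omega)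
  exact key _ (by omega) le_rfl

/-! ## The module of admissible functions -/

theorem h89k_exists_functional {k : Type} [Field k] [CharP k p] {y : k} (hy : y ≠ 0) :
    ∃ l : k →+ ZMod p, l y ≠ 0 := by
  letI : Algebra (ZMod p) k := ZMod.algebra k p
  by_contra hcon
  apply hy
  rw [← Module.forall_dual_apply_eq_zero_iff (ZMod p) y]
  intro f
  by_contra hf
  exact hcon ⟨f.toAddMonoidHom, hf⟩

theorem h89k_IK_normal' {π : Om p} (hπ : π ^ (p ^ 2 - 1) = p) (s : Gq p) {g : Gq p}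
    (hg : g ∈ h89s_IK p π) : s⁻¹ * g * s ∈ h89s_IK p π := by
  have h := h89s_IK_normal h89x_sq_sub_one_pos h89x_not_dvd_sq_sub_one hπ s⁻¹ hg
  rwa [inv_inv] at h

/-- the `k`-module of the functions which are inertia-equivariant, Frobenius-equivariant and of
level `≥ 3`. -/
def h89k_S {k : Type} [Field k] {π ζ : Om p} (hπ : π ^ (p ^ 2 - 1) = p) (hζ : ζ ^ p = 1)
    (ψ : Gq p → kˣ) (s₀ : Gq p) (c₀ : kˣ) : Submodule k (Gq p → k) where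
  carrier := {μ |
    (∀ σ ∈ inertia p, ∀ g ∈ h89s_IK p π, μ (σ * g * σ⁻¹) = ((ψ σ : kˣ) : k) * μ g) ∧
    (∀ g ∈ h89s_IK p π, μ (s₀ * g * s₀⁻¹) = ((c₀ : kˣ) : k) * μ g) ∧
    ∀ l : k →+ ZMod p, h89s_Lev p π ζ (fun g => l (μ g)) 3}
  zero_mem' := by
    refine ⟨fun σ _ g _ => by simp, fun g _ => by simp, fun l => ⟨1, ?_, ?_⟩⟩
    · rw [one_pow, sub_self, norm_zero]
      exact pow_nonneg (norm_nonneg _) _
    · exact h89k_kg_one π ζ (fun g _ => by simp)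
  add_mem' := by
    rintro μ μ' ⟨h1, h2, h3⟩ ⟨h1', h2', h3'⟩
    refine ⟨fun σ hσ g hg => ?_, fun g hg => ?_, fun l => ?_⟩
    · rw [Pi.add_apply, Pi.add_apply, h1 σ hσ g hg, h1' σ hσ g hg, mul_add]
    · rw [Pi.add_apply, Pi.add_apply, h2 g hg, h2' g hg, mul_add]
    · obtain ⟨β, hβ, hkg⟩ := h3 l
      obtain ⟨β', hβ', hkg'⟩ := h3' l
      refine ⟨β * β', ?_, h89k_kg_mul hζ hkg hkg' (fun g _ => ?_)⟩
      · rw [mul_pow]
        exact h89k_mul_lev (pow_le_one₀ (norm_nonneg _) (h89x_norm_pi_lt_one hπ).le) hβ hβ'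
      · show l ((μ + μ') g) = l (μ g) + l (μ' g)
        rw [Pi.add_apply, map_add]
  smul_mem' := by
    rintro c μ ⟨h1, h2, h3⟩
    refine ⟨fun σ hσ g hg => ?_, fun g hg => ?_, fun l => ?_⟩
    · rw [Pi.smul_apply, Pi.smul_apply, h1 σ hσ g hg, smul_eq_mul, smul_eq_mul]
      ring
    · rw [Pi.smul_apply, Pi.smul_apply, h2 g hg, smul_eq_mul, smul_eq_mul]
      ring
    · obtain ⟨β, hβ, hkg⟩ := h3 (l.comp (AddMonoidHom.mulLeft c))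
      refine ⟨β, hβ, h89k_kg_congr hkg (fun g _ => ?_)⟩
      show l ((c • μ) g) = (l.comp (AddMonoidHom.mulLeft c)) (μ g)
      rw [Pi.smul_apply, smul_eq_mul, AddMonoidHom.comp_apply, AddMonoidHom.coe_mulLeft]

theorem h89k_mem_S {k : Type} [Field k] {π ζ : Om p} (hπ : π ^ (p ^ 2 - 1) = p)
    (hζ : ζ ^ p = 1) (ψ : Gq p → kˣ) (s₀ : Gq p) (c₀ : kˣ) (μ : Gq p → k) :
    μ ∈ h89k_S hπ hζ ψ s₀ c₀ ↔
      (∀ σ ∈ inertia p, ∀ g ∈ h89s_IK p π, μ (σ * g * σ⁻¹) = ((ψ σ : kˣ) : k) * μ g) ∧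
      (∀ g ∈ h89s_IK p π, μ (s₀ * g * s₀⁻¹) = ((c₀ : kˣ) : k) * μ g) ∧
      ∀ l : k →+ ZMod p, h89s_Lev p π ζ (fun g => l (μ g)) 3 := Iff.rfl

/-- a natural number acts on `μ_p` non-trivially only if it is prime to `p`. -/
theorem h89k_cyc_ne_zero {k : Type} [Field k] [CharP k p] {ζ : Om p} (hζ : ζ ^ p = 1)
    (hζ1 : ζ ≠ 1) (σ : Gq p) (a : ℕ) (ha : σ ζ = ζ ^ a) : (a : k) ≠ 0 := by
  intro h
  obtain ⟨m, rfl⟩ := (CharP.cast_eq_zero_iff k p a).mp h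
  rw [pow_mul, hζ, one_pow] at ha
  apply hζ1
  have h2 : σ ζ = σ 1 := by rw [ha, map_one]
  exact σ.injective h2

theorem h89k_l_nat {k : Type} [Field k] (l : k →+ ZMod p) (a : ℕ) (y : k) :
    l ((a : k) * y) = (a : ZMod p) * l y := by
  rw [← nsmul_eq_mul, map_nsmul, nsmul_eq_mul]

/-- the element `ψ σ` for `σ π = u π`, `u` primitive of order `p² - 1`. -/
theorem h89k_nu {k : Type} [Field k] [Finite k] [CharP k p] (τ : kˣ →* (Om p)ˣ)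
    (hτ : IsTeich p τ) {π : Om p} (hπ : π ^ (p ^ 2 - 1) = p) {ν : kˣ} {u₁ : Om p}
    (hu₁ : IsPrimitiveRoot u₁ (p ^ 2 - 1))
    (h : ((τ ν : (Om p)ˣ) : Om p) * u₁ ^ p = u₁) :
    (ν : k) ^ (p ^ 2) = ν ∧ (ν : k) ^ p ≠ ν := by
  have hp : p.Prime := Fact.out
  have hp2 : 2 ≤ p := hp.two_le
  have hpp : p ^ 2 = p * p := sq p
  have hn : 0 < p ^ 2 - 1 := h89x_sq_sub_one_pos
  have hu0 : u₁ ≠ 0 := hu₁.ne_zero hn.ne'
  have hτinj : ∀ x : kˣ, ((τ x : (Om p)ˣ) : Om p) = 1 → x = 1 := by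
    intro x hx
    classical
    letI : Fintype k := Fintype.ofFinite k
    apply h89o_teich_inj_mod τ hτ
    rw [hx, map_one, Units.val_one, sub_self, norm_zero]
    exact one_pos
  constructor
  · have h1 : ν ^ (p ^ 2 - 1) = 1 := by
      apply hτinj
      have h2 : (((τ ν : (Om p)ˣ) : Om p) * u₁ ^ p) ^ (p ^ 2 - 1) = u₁ ^ (p ^ 2 - 1) := by
        rw [h]
      rw [mul_pow, ← pow_mul, mul_comm p, pow_mul, hu₁.pow_eq_one, one_pow, mul_one] at h2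
      rw [map_pow, Units.val_pow_eq_pow_val, h2]
    have h3 : (ν : k) ^ (p ^ 2 - 1) = 1 := by
      rw [← Units.val_pow_eq_pow_val, h1, Units.val_one]
    have h4 : p ^ 2 = (p ^ 2 - 1) + 1 := by omega
    conv_lhs => rw [h4]
    rw [pow_succ, h3, one_mul]
  · intro hcon
    have h1 : ν ^ (p - 1) = 1 := by
      apply Units.ext
      rw [Units.val_pow_eq_pow_val, Units.val_one]
      have h5 : (ν : k) ^ (p - 1) * ν = 1 * ν := by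
        rw [← pow_succ, one_mul]
        have : p - 1 + 1 = p := by omega
        rw [this, hcon]
      exact mul_right_cancel₀ (Units.ne_zero ν) h5
    have h2 : ((τ ν : (Om p)ˣ) : Om p) ^ (p - 1) = 1 := by
      rw [← Units.val_pow_eq_pow_val, ← map_pow, h1, map_one, Units.val_one]
    have h3 : (((τ ν : (Om p)ˣ) : Om p) * u₁ ^ p) ^ (p - 1) = u₁ ^ (p - 1) := by
      rw [h]
    rw [mul_pow, h2, one_mul, ← pow_mul] at h3
    have h6 : p * (p - 1) = (p - 1) * (p - 1) + (p - 1) := by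
      obtain ⟨q, rfl⟩ : ∃ q, p = q + 1 := ⟨p - 1, by omega⟩
      simp only [Nat.add_sub_cancel]
      ring
    rw [h6, pow_add] at h3
    have h7 : u₁ ^ ((p - 1) * (p - 1)) = 1 := by
      have h8 : u₁ ^ ((p - 1) * (p - 1)) * u₁ ^ (p - 1) = 1 * u₁ ^ (p - 1) := by
        rw [h3, one_mul]
      exact mul_right_cancel₀ (pow_ne_zero _ hu0) h8
    have h9 : p ^ 2 - 1 ∣ (p - 1) * (p - 1) := (hu₁.pow_eq_one_iff_dvd _).mp h7
    have h10 : 0 < (p - 1) * (p - 1) := Nat.mul_pos (by omega) (by omega)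
    have h11 := Nat.le_of_dvd h10 h9
    obtain ⟨q, rfl⟩ : ∃ q, p = q + 1 := ⟨p - 1, by omega⟩
    simp only [Nat.add_sub_cancel] at h11
    have h12 : (q + 1) ^ 2 - 1 = q * q + 2 * q := by
      have : (q + 1) ^ 2 = q * q + 2 * q + 1 := by ring
      omega
    rw [h12] at h11
    omega

/-! ## The assembly -/

/-- **FL-S4-KUM**, conditional on the sub-leaves. -/
theorem h89k_ssKum_of (hA : H89KLevP) (hB : H89KLevEig) (hC : H89KLevTop) (hD : H89KInv)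
    (hE : H89KSemi2) : H89SSKum := by
  intro p _ hp2 k _ _ _ τ hτ π hπ ψ hψ s₀ hs₀π hs₀w c₀ μ μ₀ hμ hμ₀ hne
  have hp : p.Prime := Fact.out
  have hn : 0 < p ^ 2 - 1 := h89x_sq_sub_one_pos
  have hπ0 : π ≠ 0 := h89x_pi_ne_zero hπ
  obtain ⟨ζ, hζprim⟩ := h7c_exists_primitiveRoot p
  have hζ : ζ ^ p = 1 := hζprim.pow_eq_one
  have hζ1 : ζ ≠ 1 := hζprim.ne_one hp.one_lt
  obtain ⟨κ, iF, iC, a, hadd, hker, hpow, hfrob, htame⟩ := hD p hp2 π hπ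
  have hN : 0 < p ^ 2 + 1 := Nat.succ_pos _
  -- the module `S` and the generators at level `p² + 1`
  have hlevN : ∀ (ν : h89k_S hπ hζ ψ s₀ c₀) (l : k →+ ZMod p),
      h89s_Lev p π ζ (fun g => l ((ν : Gq p → k) g)) (p ^ 2 + 1) := fun ν l =>
    h89k_climb_low hA hB hp2 τ hτ hπ ψ hψ ν.1 ν.2.1 hζ hζ1 l (ν.2.2.2 l)
  choose B hBlev hBkg using hlevN
  -- uniqueness and additivity
  have huniq : ∀ {e e' : Gq p → ZMod p} {β β' : Om p}, ‖β ^ p - 1‖ ≤ ‖π‖ ^ (p ^ 2 + 1) →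
      ‖β' ^ p - 1‖ ≤ ‖π‖ ^ (p ^ 2 + 1) → h89s_KG p π ζ e β → h89s_KG p π ζ e' β' →
      (∀ g ∈ h89s_IK p π, e' g = e g) → a (β' ^ p) = a (β ^ p) :=
    fun l₁ l₂ h₁ h₂ he => h89k_coeff_unique hπ hζ hN a hadd hpow l₁ l₂ h₁ h₂ he
  -- the Frobenius
  obtain ⟨a₀, ha₀⟩ := h89o_exists_cycExp (p := p) s₀
  have hs₀ζ : s₀ ζ = ζ ^ a₀ := ha₀ ζ hζ
  have ha₀k : (a₀ : k) ≠ 0 := h89k_cyc_ne_zero hζ hζ1 s₀ a₀ hs₀ζ
  -- the tame generator
  obtain ⟨u₁, hu₁⟩ := h89o_exists_primitiveRoot (p := p) (p ^ 2 - 1) hn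
  obtain ⟨σ₂, hσ₂, hσ₂π⟩ := h89f_fundSurjective p (p ^ 2 - 1) hn h89x_not_dvd_sq_sub_one π hπ
    u₁ hu₁.pow_eq_one
  obtain ⟨a₁, ha₁⟩ := h89o_exists_cycExp (p := p) σ₂⁻¹
  have hσζ : σ₂⁻¹ ζ = ζ ^ a₁ := ha₁ ζ hζ
  have ha₁k : (a₁ : k) ≠ 0 := h89k_cyc_ne_zero hζ hζ1 σ₂⁻¹ a₁ hσζ
  have hσ₂' : σ₂⁻¹ ∈ inertia p := (inertia p).inv_mem hσ₂
  obtain ⟨u', hu'⟩ := htame σ₂⁻¹ hσ₂'
  have hν : ((ψ σ₂ : kˣ) : k) ^ (p ^ 2) = ψ σ₂ ∧ ((ψ σ₂ : kˣ) : k) ^ p ≠ ψ σ₂ := by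
    refine h89k_nu τ hτ hπ hu₁ ?_
    have h1 := hψ σ₂ hσ₂
    rwa [hσ₂π, mul_div_cancel_right₀ _ hπ0] at h1
  have hnatp : ∀ n : ℕ, ((n : ℕ) : k) ^ p = n := fun n => by
    induction n with
    | zero => rw [Nat.cast_zero, zero_pow hp.ne_zero]
    | succ n ih => rw [Nat.cast_succ, add_pow_char, ih, one_pow]
  -- apply the count
  obtain ⟨μ₁, hμ₁⟩ := hE p k κ (h89k_S hπ hζ ψ s₀ c₀) (fun ν l => a (B ν l ^ p))
    (Units.mk0 ((a₀ : k) * ((c₀⁻¹ : kˣ) : k)) (mul_ne_zero ha₀k (Units.ne_zero _)))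
    (Units.mk0 ((a₁ : k) * ((ψ σ₂ : kˣ) : k)) (mul_ne_zero ha₁k (Units.ne_zero _))) u'
    (by
      intro ν ν' l
      exact h89k_add_coeff hπ hζ hN a hadd hpow (hBlev ν l) (hBlev ν' l) (hBlev (ν + ν') l)
        (hBkg ν l) (hBkg ν' l) (hBkg (ν + ν') l) (fun g _ => by
          show l (((ν + ν' : h89k_S hπ hζ ψ s₀ c₀) : Gq p → k) g) = _
          rw [Submodule.coe_add, Pi.add_apply, map_add]))
    (by
      intro ν l l'
      exact h89k_add_coeff hπ hζ hN a hadd hpow (hBlev ν l) (hBlev ν l') (hBlev ν (l + l'))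
        (hBkg ν l) (hBkg ν l') (hBkg ν (l + l')) (fun g _ => by
          show (l + l') ((ν : Gq p → k) g) = _
          rw [AddMonoidHom.add_apply]))
    (by
      intro x ν l
      refine huniq (hBlev ν _) (hBlev (x • ν) l) (hBkg ν _) (hBkg (x • ν) l) (fun g _ => ?_)
      show l (((x • ν : h89k_S hπ hζ ψ s₀ c₀) : Gq p → k) g) =
        (l.comp (AddMonoidHom.mulLeft x)) ((ν : Gq p → k) g)
      rw [Submodule.coe_smul, Pi.smul_apply, smul_eq_mul, AddMonoidHom.comp_apply,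
        AddMonoidHom.coe_mulLeft])
    (by
      intro ν l
      have hkg := h89k_kg_transport hζ (hBkg ν l) s₀ (fun g hg => h89k_IK_normal' hπ s₀ hg)
        a₀ hs₀ζ
      have hlev : ‖(s₀ (B ν l)) ^ p - 1‖ ≤ ‖π‖ ^ (p ^ 2 + 1) := by
        have e : (s₀ (B ν l)) ^ p - 1 = s₀ (B ν l ^ p - 1) := by
          rw [map_sub, map_pow, map_one]
        rw [e, h89d0_norm_map]
        exact hBlev ν l
      have h1 := huniq hlev (hBlev ν _) hkg (hBkg ν _) (fun g hg => by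
        show (l.comp (AddMonoidHom.mulLeft ((a₀ : k) * ((c₀⁻¹ : kˣ) : k))))
            ((ν : Gq p → k) g) = (a₀ : ZMod p) * l ((ν : Gq p → k) (s₀⁻¹ * g * s₀))
        have h2 := ν.2.2.1 (s₀⁻¹ * g * s₀) (h89k_IK_normal' hπ s₀ hg)
        have h3 : s₀ * (s₀⁻¹ * g * s₀) * s₀⁻¹ = g := by group
        rw [h3] at h2
        rw [AddMonoidHom.comp_apply, AddMonoidHom.coe_mulLeft, mul_assoc, h89k_l_nat, h2,
          ← mul_assoc, ← Units.val_mul, inv_mul_cancel, Units.val_one, one_mul])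
      show a (B ν (l.comp (AddMonoidHom.mulLeft ((a₀ : k) * ((c₀⁻¹ : kˣ) : k)))) ^ p) =
        a (B ν l ^ p) ^ (p ^ 2)
      rw [h1, ← map_pow]
      exact hfrob s₀ hs₀π hs₀w _ (h89k_kg_pow_fix hζ (hBkg ν l)) (hBlev ν l))
    (by
      intro ν l
      have hkg := h89k_kg_transport hζ (hBkg ν l) σ₂⁻¹
        (fun g hg => h89k_IK_normal' hπ σ₂⁻¹ hg) a₁ hσζ
      have hlev : ‖(σ₂⁻¹ (B ν l)) ^ p - 1‖ ≤ ‖π‖ ^ (p ^ 2 + 1) := by
        have e : (σ₂⁻¹ (B ν l)) ^ p - 1 = σ₂⁻¹ (B ν l ^ p - 1) := by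
          rw [map_sub, map_pow, map_one]
        rw [e, h89d0_norm_map]
        exact hBlev ν l
      have h1 := huniq hlev (hBlev ν _) hkg (hBkg ν _) (fun g hg => by
        show (l.comp (AddMonoidHom.mulLeft ((a₁ : k) * ((ψ σ₂ : kˣ) : k))))
            ((ν : Gq p → k) g) = (a₁ : ZMod p) * l ((ν : Gq p → k) (σ₂⁻¹⁻¹ * g * σ₂⁻¹))
        rw [inv_inv, ν.2.1 σ₂ hσ₂ g hg, AddMonoidHom.comp_apply, AddMonoidHom.coe_mulLeft,
          mul_assoc, h89k_l_nat])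
      show a (B ν (l.comp (AddMonoidHom.mulLeft ((a₁ : k) * ((ψ σ₂ : kˣ) : k)))) ^ p) =
        u' * a (B ν l ^ p)
      rw [h1, ← map_pow]
      exact hu' _ (h89k_kg_pow_fix hζ (hBkg ν l)) (hBlev ν l))
    (by
      show ((a₁ : k) * ((ψ σ₂ : kˣ) : k)) ^ (p ^ 2) = (a₁ : k) * ((ψ σ₂ : kˣ) : k)
      rw [mul_pow, hν.1, pow_two, pow_mul, hnatp, hnatp])
    (by
      show ((a₁ : k) * ((ψ σ₂ : kˣ) : k)) ^ p ≠ (a₁ : k) * ((ψ σ₂ : kˣ) : k)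
      rw [mul_pow, hnatp]
      intro h
      exact hν.2 (mul_left_cancel₀ ha₁k h))
  -- injectivity of the leading coefficient
  have hinj : ∀ ν : h89k_S hπ hζ ψ s₀ c₀, (∀ l, a (B ν l ^ p) = 0) →
      ∀ g ∈ h89s_IK p π, (ν : Gq p → k) g = 0 := by
    intro ν hν0 g hg
    by_contra hne0
    obtain ⟨l, hl⟩ := h89k_exists_functional (p := p) hne0
    have h1 : ‖B ν l ^ p - 1‖ ≤ ‖π‖ ^ (p ^ 2 + 2) :=
      hker _ (h89k_kg_pow_fix hζ (hBkg ν l)) (hBlev ν l) (hν0 l)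
    have h2 : h89s_Lev p π ζ (fun g => l ((ν : Gq p → k) g)) (p ^ 2 + 2) :=
      ⟨B ν l, h1, hBkg ν l⟩
    have h3 := h89k_climb_high hB hp2 τ hτ hπ ψ hψ ν.1 ν.2.1 hζ hζ1 l h2
    exact hl (hC p hp2 π hπ ζ hζ hζ1 _ h3 g hg)
  -- conclusion
  have hμS : μ ∈ h89k_S hπ hζ ψ s₀ c₀ := ⟨hμ.equiv, hμ.frob, fun l => hμ.lev ζ hζ hζ1 l⟩
  have hμ₀S : μ₀ ∈ h89k_S hπ hζ ψ s₀ c₀ := ⟨hμ₀.equiv, hμ₀.frob, fun l => hμ₀.lev ζ hζ hζ1 l⟩
  obtain ⟨x, hx⟩ := hμ₁ ⟨μ, hμS⟩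
  obtain ⟨x₀, hx₀⟩ := hμ₁ ⟨μ₀, hμ₀S⟩
  have e1 : ∀ g ∈ h89s_IK p π, μ g = x * (μ₁ : Gq p → k) g := by
    intro g hg
    have h := hinj _ hx g hg
    rw [Submodule.coe_sub, Submodule.coe_smul, Pi.sub_apply, Pi.smul_apply, smul_eq_mul,
      sub_eq_zero] at h
    exact h
  have e0 : ∀ g ∈ h89s_IK p π, μ₀ g = x₀ * (μ₁ : Gq p → k) g := by
    intro g hg
    have h := hinj _ hx₀ g hg
    rw [Submodule.coe_sub, Submodule.coe_smul, Pi.sub_apply, Pi.smul_apply, smul_eq_mul,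
      sub_eq_zero] at h
    exact h
  have hx₀0 : x₀ ≠ 0 := by
    rintro rfl
    obtain ⟨g, hg, hg0⟩ := hne
    apply hg0
    rw [e0 g hg, zero_mul]
  refine ⟨x / x₀, fun g hg => ?_⟩
  rw [e1 g hg, e0 g hg]
  field_simp

/-- **FL-S4** (`SSCount`), conditional on the sub-leaves of the Kummer count. -/
theorem h89k_ssCount_of (hA : H89KLevP) (hB : H89KLevEig) (hC : H89KLevTop) (hD : H89KInv)
    (hE : H89KSemi2) : SSCount :=
  h89s_ssCount_of (h89k_ssKum_of hA hB hC hD hE)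

end Fermat.Agent.S56F
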