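import Fermat.Agent.S56F.FLS4Iface_helper89

/-!
# S56 / LOC-p-FL, row FL-S4-KUM (helper61): frozen sub-leaves of the Kummer count `H89SSKum`

Level calculus for characters `χ : I_K → 𝔽_p`, `K = ℚ_p^ur(π)`, `π ^ (p² - 1) = p`
(`I_K = h89s_IK p π`), `ζ` a fixed primitive `p`-th root of unity.

* `h61k_Gen π ζ χ β` : `β` is a Kummer generator of `χ` (`g β = ζ ^ χ(g) β` for `g ∈ I_K`);
* `h61k_Lev π ζ χ j` : `χ` has a generator `β` with `‖β ^ p - 1‖ ≤ ‖π‖ ^ j` ("level `≥ j`");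
* `h61k_Coef π ζ χ j a` : `χ` has a generator `β` with `‖β ^ p - 1 - a π ^ j‖ < ‖π‖ ^ j`
  (`a`, modulo the maximal ideal, is a coefficient of `χ` at level `j`).

Leaves (each a `Prop`; prove it as `theorem <prefix>_<name> : <Name>` in your own file
`Fermat/Agent/S56F/FLS4K<x>_<seat>.lean`, import this file + whatever landed tools you need):

* `H61KDisc`   (row FL-S4K0): coefficient `0` at level `j` means level `≥ j + 1`; and level `≥ j`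
               gives a coefficient (discreteness of the integers of `K`: `h45g_tameDiscrete`).
* `H61KAdd`    (row FL-S4K1): coefficients add (product of generators).
* `H61KUniq`   (row FL-S4K2): for `p ∤ j`, `j < p² + p` the coefficient is unique mod `𝔪`
               (two generators differ by `c ∈ K`, and `c ^ p ∈ U⁽ʲ⁾ ⟹ c ^ p ∈ U⁽ʲ⁺¹⁾`).
* `H61KPStep`  (row FL-S4K3): level `≥ p i`, `1 ≤ i ≤ p + 1` implies level `≥ p i + 1`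
               (divide `β` by `1 + w π ^ i`; Artin–Schreier at `i = p + 1`).
* `H61KTop`    (row FL-S4K4): level `≥ p² + p + 1` implies `χ = 0` on `I_K`.
* `H61KTwist`  (row FL-S4K5): conjugation by `s ∈ inertia` multiplies the coefficient at level
               `j` by `Ψ(s) ^ (j - p - 1)` (`Ψ s = s π / π`; uses `h7c_cycFund`).
* `H61KFrob`   (row FL-S4K6): conjugation by a Frobenius `s₀` of `ℚ_{p²}` fixing `π`.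

Assembly (helper61, `FLS4Kum_helper61.lean`): eigen-step, climbing the levels, the coefficient
map at level `p² + 1`, the semilinear count (`helper75`).  Do NOT edit this file.
-/

set_option autoImplicit false

open Fermat.Agent.PT.Loc

noncomputable section

namespace Fermat.Agent.S56F

/-- `β` is a Kummer generator (with respect to `ζ`) of the character `χ` of `I_K`. -/
def h61k_Gen (p : ℕ) [Fact p.Prime] (π ζ : Om p) (χ : Gq p → ZMod p) (β : Om p) : Prop :=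
  ∀ g ∈ h89s_IK p π, g β = ζ ^ (χ g).val * β

/-- `χ` has level `≥ j`: a generator `β` with `‖β ^ p - 1‖ ≤ ‖π‖ ^ j`. -/
def h61k_Lev (p : ℕ) [Fact p.Prime] (π ζ : Om p) (χ : Gq p → ZMod p) (j : ℕ) : Prop :=
  ∃ β : Om p, h61k_Gen p π ζ χ β ∧ ‖β ^ p - 1‖ ≤ ‖π‖ ^ j

/-- `a` is (a representative of) a coefficient of `χ` at level `j`: a generator `β` with
`‖β ^ p - 1 - a π ^ j‖ < ‖π‖ ^ j`. -/
def h61k_Coef (p : ℕ) [Fact p.Prime] (π ζ : Om p) (χ : Gq p → ZMod p) (j : ℕ) (a : Om p) :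
    Prop :=
  ∃ β : Om p, h61k_Gen p π ζ χ β ∧ ‖β ^ p - 1 - a * π ^ j‖ < ‖π‖ ^ j

/-- **FL-S4K0** (discreteness).  (1) coefficient `0` at level `j` ⟹ level `≥ j + 1`;
(2) level `≥ j` ⟹ there is a coefficient at level `j`.
Proof: `x = β ^ p` is fixed by `I_K`, so `x - 1 ∈ fixInt p I_K`, which is discrete with
uniformiser `π` (`h45g_tameDiscrete`): `x - 1 = π ^ n u`.  (1) `‖π‖ ^ n < ‖π‖ ^ j` gives
`n ≥ j + 1`.  (2) `n ≥ j`; `a = π ^ (n - j) u` (or `0` if `x = 1`). -/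
def H61KDisc : Prop :=
  ∀ (p : ℕ) [Fact p.Prime], p ≠ 2 → ∀ π ζ : Om p, π ^ (p ^ 2 - 1) = p → ζ ^ p = 1 → ζ ≠ 1 →
    ∀ (χ : Gq p → ZMod p) (j : ℕ),
      (h61k_Coef p π ζ χ j 0 → h61k_Lev p π ζ χ (j + 1)) ∧
      (h61k_Lev p π ζ χ j → ∃ a : Om p, ‖a‖ ≤ 1 ∧ h61k_Coef p π ζ χ j a)

/-- **FL-S4K1** (additivity).  Generators multiply: `β β'` generates `χ + χ'`
(`ζ ^ p = 1`, `ZMod.val_add`), and
`x x' - 1 - (a + a') π ^ j = (x - 1 - a π ^ j) + (x' - 1 - a' π ^ j) + (x - 1) (x' - 1)`. -/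
def H61KAdd : Prop :=
  ∀ (p : ℕ) [Fact p.Prime], p ≠ 2 → ∀ π ζ : Om p, π ^ (p ^ 2 - 1) = p → ζ ^ p = 1 → ζ ≠ 1 →
    ∀ (χ χ' : Gq p → ZMod p) (j : ℕ) (a a' : Om p), 1 ≤ j → ‖a‖ ≤ 1 → ‖a'‖ ≤ 1 →
      h61k_Coef p π ζ χ j a → h61k_Coef p π ζ χ' j a' →
      h61k_Coef p π ζ (fun g => χ g + χ' g) j (a + a')

/-- **FL-S4K2** (uniqueness of the coefficient, `p ∤ j`, `j < p² + p`).
Proof: generators `β, β'`, `c = β' / β` is fixed by `I_K`, `‖c‖ = 1`, `‖c ^ p - 1‖ < 1`;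
`c ≡ w` a root of unity of order prime to `p` (Teichmüller, `h34lf_lfTeich`), `w ^ p ≡ 1` so
`w = 1`; `c = 1 + y`, `y ∈ fixInt p I_K`, `‖y‖ = ‖π‖ ^ i`, `i ≥ 1` (discreteness) or `y = 0`;
`(1 + y) ^ p - 1 = y ^ p + p y v`, `‖v‖ = 1`: the norm is `‖π‖ ^ (p i)` if `i < p + 1` and
`≤ ‖π‖ ^ (p² + p)` if `i ≥ p + 1`.  So `‖c ^ p - 1‖ ≤ ‖π‖ ^ j` forces
`‖c ^ p - 1‖ ≤ ‖π‖ ^ (j + 1)`, and `(a - a') π ^ j ≡ x' - x = x (c ^ p - 1)`. -/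
def H61KUniq : Prop :=
  ∀ (p : ℕ) [Fact p.Prime], p ≠ 2 → ∀ π ζ : Om p, π ^ (p ^ 2 - 1) = p → ζ ^ p = 1 → ζ ≠ 1 →
    ∀ (χ : Gq p → ZMod p) (j : ℕ) (a a' : Om p), ¬ p ∣ j → j < p ^ 2 + p →
      ‖a‖ ≤ 1 → ‖a'‖ ≤ 1 →
      h61k_Coef p π ζ χ j a → h61k_Coef p π ζ χ j a' → ‖a - a'‖ < 1

/-- **FL-S4K3** (the `p`-step).  `x = β ^ p ≡ 1 + a π ^ (p i)` (`H61KDisc`); choose a root of
unity `w` of order prime to `p` (or `0`) with `w ^ p ≡ -a` if `i ≤ p`, resp.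
`w ^ p + w ≡ -a` if `i = p + 1` (a root of `T ^ p + T + a` in `Om p` is integral, take its
Teichmüller representative); `β (1 + w π ^ i)` is a generator (`w`, `π` are fixed by `I_K`) and
`(1 + w π ^ i) ^ p = 1 + w ^ p π ^ (p i) + p w π ^ i v`, `‖v - 1‖ < 1`, `p = π ^ (p² - 1)`. -/
def H61KPStep : Prop :=
  ∀ (p : ℕ) [Fact p.Prime], p ≠ 2 → ∀ π ζ : Om p, π ^ (p ^ 2 - 1) = p → ζ ^ p = 1 → ζ ≠ 1 →
    ∀ (χ : Gq p → ZMod p) (i : ℕ), 1 ≤ i → i ≤ p + 1 →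
      h61k_Lev p π ζ χ (p * i) → h61k_Lev p π ζ χ (p * i + 1)

/-- **FL-S4K4** (the top).  `‖β ^ p - 1‖ < ‖π‖ ^ (p² + p) = ‖ζ - 1‖ ^ p` and
`β ^ p - 1 = ∏_i (β - ζ ^ i)`: some `β₁ = ζ ^ (-i) β` has `‖β₁ - 1‖ < ‖ζ - 1‖`; `I_K` fixes `ζ`
(`h7c_cycFund`), `g β₁ = ζ ^ χ(g) β₁` and `‖g β₁ - β₁‖ < ‖ζ - 1‖` force `χ g = 0`. -/
def H61KTop : Prop :=
  ∀ (p : ℕ) [Fact p.Prime], p ≠ 2 → ∀ π ζ : Om p, π ^ (p ^ 2 - 1) = p → ζ ^ p = 1 → ζ ≠ 1 →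
    ∀ χ : Gq p → ZMod p, h61k_Lev p π ζ χ (p ^ 2 + p + 1) → ∀ g ∈ h89s_IK p π, χ g = 0

/-- **FL-S4K5** (conjugation by inertia).  `s ∈ inertia`, `s ζ = ζ ^ m`, `n m ≡ 1 mod p`:
`(s β) ^ n` generates `g ↦ χ (s⁻¹ g s)` (`s⁻¹ g s ∈ I_K`), its `p`-th power is `(s x) ^ n`,
`s x ≡ 1 + a Ψ ^ j π ^ j` (`‖s a - a‖ < 1`, `s π = Ψ π`), `(s x) ^ n ≡ 1 + n a Ψ ^ j π ^ j`, and
`n Ψ ^ (p + 1) ≡ 1` (`h7c_cycFund`). -/
def H61KTwist : Prop :=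
  ∀ (p : ℕ) [Fact p.Prime], p ≠ 2 → ∀ π ζ : Om p, π ^ (p ^ 2 - 1) = p → ζ ^ p = 1 → ζ ≠ 1 →
    ∀ s ∈ inertia p, ∀ (χ : Gq p → ZMod p) (j : ℕ) (a b : Om p), 1 ≤ j → ‖a‖ ≤ 1 →
      h61k_Coef p π ζ χ j a → b * (s π / π) ^ (p + 1) = (s π / π) ^ j * a →
      h61k_Coef p π ζ (fun g => χ (s⁻¹ * g * s)) j b

/-- **FL-S4K6** (conjugation by a Frobenius of `ℚ_{p²}` fixing `π`).  `s₀ ζ = ζ ^ m`,
`n m ≡ 1 mod p`: `(s₀ β) ^ n` generates `g ↦ χ (s₀⁻¹ g s₀)` (inertia is normal and `s₀ π = π`),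
`s₀ x ≡ 1 + a ^ (p²) π ^ j` (`s₀ a ≡ a ^ (p²)` modulo the maximal ideal for every integer `a`:
Teichmüller representative), `(s₀ x) ^ n ≡ 1 + n a ^ (p²) π ^ j`. -/
def H61KFrob : Prop :=
  ∀ (p : ℕ) [Fact p.Prime], p ≠ 2 → ∀ π ζ : Om p, π ^ (p ^ 2 - 1) = p → ζ ^ p = 1 → ζ ≠ 1 →
    ∀ s₀ : Gq p, s₀ π = π →
      (∀ (w : Om p) (m : ℕ), 0 < m → ¬ p ∣ m → w ^ m = 1 → s₀ w = w ^ (p ^ 2)) →
    ∀ m n : ℕ, cycExp p s₀ m → n * m ≡ 1 [MOD p] →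
    ∀ (χ : Gq p → ZMod p) (j : ℕ) (a : Om p), 1 ≤ j → ‖a‖ ≤ 1 →
      h61k_Coef p π ζ χ j a →
      h61k_Coef p π ζ (fun g => χ (s₀⁻¹ * g * s₀)) j ((n : Om p) * a ^ (p ^ 2))

end Fermat.Agent.S56F
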