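import Fermat.Agent.S56F.FLS4KIface_helper89
import Fermat.Agent.S56F.FLS4KumIface_helper61
import Fermat.Agent.S56F.FLS4K01_helper61
import Fermat.Agent.S56F.FLS4K2_helper7
import Fermat.Agent.S56F.FLS4K5_helper34
import Fermat.Agent.S56F.FLS3l_helper15

/-!
# S56 / LOC-p-FL, row FL-S4K-B (third seat helper15): `H89KLevEig`

Pure assembly of the landed coefficient calculus of helper61's interface:
`h61k_kDisc`, `h61k_kAdd`, `h7u_kUniq`, `h34w_kTwist`.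
-/

set_option autoImplicit false
set_option linter.style.haveILetI false

open Fermat.Agent.PT.Loc Polynomial

noncomputable section

namespace Fermat.Agent.S56F

/-- Elements fixed by the Frobenius lie in the prime field. -/
theorem h15e_natCast_of_pow_eq {p : ℕ} [Fact p.Prime] {k : Type} [Field k] [CharP k p] (x : k)
    (hx : x ^ p = x) : ∃ n : ℕ, (n : k) = x := by
  classical
  by_contra hne
  push Not at hne
  have hp : p.Prime := Fact.out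
  have hP0 : (X ^ p - X : k[X]) ≠ 0 := FiniteField.X_pow_card_sub_X_ne_zero k hp.one_lt
  have hPdeg : (X ^ p - X : k[X]).natDegree = p :=
    FiniteField.X_pow_card_sub_X_natDegree_eq k hp.one_lt
  let Z : Finset k := insert x ((Finset.range p).image (fun n : ℕ => (n : k)))
  have hZ : Z.val ⊆ (X ^ p - X : k[X]).roots := by
    intro y hy
    rw [Polynomial.mem_roots hP0]
    simp only [Polynomial.IsRoot, Polynomial.eval_sub, Polynomial.eval_pow, Polynomial.eval_X]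
    rw [Finset.mem_val, Finset.mem_insert, Finset.mem_image] at hy
    rcases hy with rfl | ⟨n, -, rfl⟩
    · rw [hx, sub_self]
    · have h3 := map_natCast (frobenius k p) n
      rw [frobenius_def] at h3
      rw [h3, sub_self]
  have hcard : Z.card = p + 1 := by
    rw [Finset.card_insert_of_notMem, Finset.card_image_of_injOn, Finset.card_range]
    · intro a ha b hb hab
      have ha' : a < p := Finset.mem_range.mp ha
      have hb' : b < p := Finset.mem_range.mp hb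
      have h3 : (a : k) = (b : k) := hab
      rw [CharP.natCast_eq_natCast k p] at h3
      exact Nat.ModEq.eq_of_lt_of_lt h3 ha' hb'
    · intro hmem
      rw [Finset.mem_image] at hmem
      obtain ⟨n, -, hn⟩ := hmem
      exact hne n hn
  have h4 := Polynomial.card_le_degree_of_subset_roots hZ
  rw [hcard, hPdeg] at h4
  omega

/-- The zero character has coefficient `0`. -/
theorem h15e_coef_zero {p : ℕ} [Fact p.Prime] {π ζ : Om p} (hπ : π ^ (p ^ 2 - 1) = p) (j : ℕ) :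
    h61k_Coef p π ζ (fun _ => (0 : ZMod p)) j 0 := by
  refine ⟨1, fun g _ => ?_, ?_⟩
  · rw [ZMod.val_zero, pow_zero, one_mul]
    exact map_one g
  · rw [one_pow, sub_self, zero_mul, sub_self, norm_zero]
    exact h61k_pi_pow_pos hπ j

/-- Multiples of a character. -/
theorem h15e_coef_nsmul {p : ℕ} [Fact p.Prime] (hp2 : p ≠ 2) {π ζ : Om p}
    (hπ : π ^ (p ^ 2 - 1) = p) (hζ : ζ ^ p = 1) (hζ1 : ζ ≠ 1) {χ : Gq p → ZMod p} {j : ℕ}
    (hj : 1 ≤ j) {a : Om p} (ha : ‖a‖ ≤ 1) (h : h61k_Coef p π ζ χ j a) (m : ℕ) :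
    h61k_Coef p π ζ (fun g => (m : ZMod p) * χ g) j ((m : Om p) * a) := by
  induction m with
  | zero =>
    have h0 := h15e_coef_zero (ζ := ζ) hπ j
    have e : (fun g => ((0 : ℕ) : ZMod p) * χ g) = fun _ => (0 : ZMod p) := by
      funext g
      rw [Nat.cast_zero, zero_mul]
    rw [e, Nat.cast_zero, zero_mul]
    exact h0
  | succ m ih =>
    have hm : ‖(m : Om p) * a‖ ≤ 1 := by
      rw [norm_mul]
      exact mul_le_one₀ (h34k_norm_natCast_le m) (norm_nonneg _) ha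
    have h3 := h61k_kAdd p hp2 π ζ hπ hζ hζ1 _ _ j _ _ hj hm ha ih h
    have e : (fun g => ((m + 1 : ℕ) : ZMod p) * χ g) = fun g => (m : ZMod p) * χ g + χ g := by
      funext g
      push_cast
      ring
    have e2 : ((m + 1 : ℕ) : Om p) * a = (m : Om p) * a + a := by
      push_cast
      ring
    rw [e, e2]
    exact h3

/-- Distinct roots of unity of order prime to `p` differ by a unit. -/
theorem h15e_norm_sub_root {p : ℕ} [Fact p.Prime] {n : ℕ} (hn0 : 0 < n) (hn : ¬ p ∣ n)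
    {a b : Om p} (ha : a ^ n = 1) (hb : b ^ n = 1) (hab : a ≠ b) : ‖a - b‖ = 1 := by
  have hnb : ‖b‖ = 1 := h89d0_norm_of_pow_eq_one hn0 hb
  have hna : ‖a‖ = 1 := h89d0_norm_of_pow_eq_one hn0 ha
  have hb0 : b ≠ 0 := by
    intro h0
    rw [h0, norm_zero] at hnb
    exact zero_ne_one hnb
  have h1 : (a / b) ^ n = 1 := by rw [div_pow, ha, hb, div_one]
  have h2 : a / b ≠ 1 := fun h => hab ((div_eq_one_iff_eq hb0).1 h)
  have h3 : ¬ ‖a / b - 1‖ < 1 := fun h => h2 (h34k_root_eq_one hn h1 h)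
  have h4 : a - b = (a / b - 1) * b := by field_simp
  have h5 : ‖a - b‖ ≤ 1 := (h34k_norm_sub_le_max a b).trans (by simp [hna, hnb])
  rw [h4, norm_mul, hnb, mul_one] at h5 ⊢
  exact le_antisymm h5 (not_lt.mp h3)

/-- Ultrametric: a perturbation of norm `< 1` of a unit is a unit. -/
theorem h15e_norm_eq_one_of_sub_lt {p : ℕ} [Fact p.Prime] {a b : Om p} (hb : ‖b‖ = 1)
    (h : ‖a - b‖ < 1) : ‖a‖ = 1 := by
  have h1 : a = (a - b) + b := by ring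
  have h2 : b = a - (a - b) := by ring
  apply le_antisymm
  · rw [h1]
    exact (IsUltrametricDist.norm_add_le_max _ _).trans (max_le h.le hb.le)
  · by_contra hlt
    rw [not_le] at hlt
    have h3 : ‖b‖ ≤ max ‖a‖ ‖a - b‖ := by
      conv_lhs => rw [h2]
      exact h34k_norm_sub_le_max _ _
    rw [hb] at h3
    have h4 : max ‖a‖ ‖a - b‖ < 1 := max_lt hlt h
    linarith

/-- **FL-S4K-B** (eigen-exclusion). -/
theorem h15e_kLevEig : H89KLevEig := by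
  intro p _ hp2 k _ _ _ τ hτ π hπ ψ hψ μ hμ ζ hζ hζ1 l j hj0 hjlt hpj hj2 hj2p hlev
  classical
  letI : Fintype k := Fintype.ofFinite k
  have hp : p.Prime := Fact.out
  have hp3 : 3 ≤ p := by
    have := hp.two_le
    omega
  have hp9 : p + 6 ≤ p ^ 2 := by nlinarith
  have hpp : p * p = p ^ 2 := by ring
  have hN0 : 0 < p ^ 2 - 1 := by omega
  have hpN : ¬ p ∣ p ^ 2 - 1 := h34w_not_dvd hp
  have hπ0 : π ≠ 0 := h61k_pi_ne_zero hπ
  obtain ⟨u, hu⟩ := h15s_exists_primitiveRoot p (p ^ 2 - 1) hN0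
  have huN : u ^ (p ^ 2 - 1) = 1 := hu.pow_eq_one
  have hu0 : u ≠ 0 := hu.ne_zero hN0.ne'
  have hupow : ∀ a : ℕ, (u ^ a) ^ (p ^ 2 - 1) = 1 := fun a => by
    rw [← pow_mul, mul_comm, pow_mul, huN, one_pow]
  have hudvd : ∀ a : ℕ, u ^ a = 1 → (p ^ 2 - 1) ∣ a := fun a ha =>
    (hu.pow_eq_one_iff_dvd a).1 ha
  obtain ⟨s, hs, hsπ⟩ := h89f_fundSurjective p (p ^ 2 - 1) hN0 hpN π hπ u huN
  have hΨ : s π / π = u := by rw [hsπ, mul_div_assoc, div_self hπ0, mul_one]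
  have hfixu : ∀ g ∈ inertia p, g u = u := fun g hg =>
    (h89d0_inertiaIffRoots p g).1 hg u _ hN0 hpN huN
  have hs' : s⁻¹ ∈ inertia p := (inertia p).inv_mem hs
  have hsinv : s⁻¹ π = u ^ (p ^ 2 - 2) * π := by
    have h1 : s (u ^ (p ^ 2 - 2) * π) = π := by
      rw [map_mul, map_pow, hfixu s hs, hsπ, ← mul_assoc, ← pow_succ]
      have : p ^ 2 - 2 + 1 = p ^ 2 - 1 := by omega
      rw [this, huN, one_mul]
    calc s⁻¹ π = s⁻¹ (s (u ^ (p ^ 2 - 2) * π)) := by rw [h1]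
      _ = u ^ (p ^ 2 - 2) * π := h34k_inv_apply' s _
  have hΨ' : s⁻¹ π / π = u ^ (p ^ 2 - 2) := by
    rw [hsinv, mul_div_assoc, div_self hπ0, mul_one]
  -- conjugation preserves `I_K`
  have hconj : ∀ g ∈ h89s_IK p π, s⁻¹ * g * s ∈ h89s_IK p π := by
    intro g hg
    refine ⟨h34k_conj_mem_inertia' hg.1 s, ?_⟩
    rw [AlgEquiv.mul_apply, AlgEquiv.mul_apply, hsπ, map_mul, hfixu g hg.1, hg.2, ← hsπ,
      h34k_inv_apply']
  -- the eigenvalue
  obtain ⟨ϑ, hϑ⟩ : ∃ ϑ : kˣ, ϑ = ψ s⁻¹ := ⟨_, rfl⟩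
  have hτϑ : ((τ ϑ : (Om p)ˣ) : Om p) = u ^ (p - 1) := by
    have h1 := hψ s⁻¹ hs'
    rw [hΨ', ← hϑ] at h1
    have h2 : ((τ ϑ : (Om p)ˣ) : Om p) * (u ^ (p ^ 2 - 2)) ^ p * u ^ p =
        u ^ (p ^ 2 - 2) * u ^ p := by rw [h1]
    have h3 : (u ^ (p ^ 2 - 2)) ^ p * u ^ p = 1 := by
      rw [← mul_pow, ← pow_succ]
      have : p ^ 2 - 2 + 1 = p ^ 2 - 1 := by omega
      rw [this, huN, one_pow]
    have h4 : u ^ (p ^ 2 - 2) * u ^ p = u ^ (p - 1) := by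
      rw [← pow_add]
      have : p ^ 2 - 2 + p = (p - 1) + (p ^ 2 - 1) := by omega
      rw [this, pow_add, huN, mul_one]
    rw [mul_assoc, h3, mul_one, h4] at h2
    exact h2
  have hϑN : ϑ ^ (p + 1) = 1 := by
    apply h15s_tau_inj hτ
    rw [map_pow, map_one]
    ext
    rw [Units.val_pow_eq_pow_val, hτϑ, ← pow_mul, Units.val_one]
    have : (p - 1) * (p + 1) = p ^ 2 - 1 := by
      obtain ⟨q, rfl⟩ : ∃ q, p = q + 1 := ⟨p - 1, by omega⟩
      simp only [Nat.add_sub_cancel]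
      have : (q + 1) ^ 2 = q * (q + 1 + 1) + 1 := by ring
      omega
    rw [this, huN]
  have hτϑinv : ((τ ϑ⁻¹ : (Om p)ˣ) : Om p) = u ^ (p ^ 2 - p) := by
    have h1 : ((τ ϑ⁻¹ : (Om p)ˣ) : Om p) * ((τ ϑ : (Om p)ˣ) : Om p) = 1 := by
      rw [← Units.val_mul, ← map_mul, inv_mul_cancel, map_one, Units.val_one]
    have h2 : u ^ (p ^ 2 - p) * u ^ (p - 1) = 1 := by
      rw [← pow_add]
      have : p ^ 2 - p + (p - 1) = p ^ 2 - 1 := by omega
      rw [this, huN]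
    rw [hτϑ] at h1
    exact mul_right_cancel₀ (pow_ne_zero _ hu0) (h1.trans h2.symm)
  have hϑp : ϑ ^ p = ϑ⁻¹ := by
    rw [eq_inv_iff_mul_eq_one, ← pow_succ]
    exact hϑN
  have ht : ((ϑ : k) + ((ϑ⁻¹ : kˣ) : k)) ^ p = (ϑ : k) + ((ϑ⁻¹ : kˣ) : k) := by
    rw [add_pow_char, ← Units.val_pow_eq_pow_val, ← Units.val_pow_eq_pow_val, inv_pow, hϑp,
      inv_inv, add_comm]
  obtain ⟨T, hT⟩ := h15e_natCast_of_pow_eq (p := p) _ ht
  obtain ⟨n₀, hn₀⟩ : ∃ n₀ : ℕ, n₀ = (p - 1) * T := ⟨_, rfl⟩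
  have hn₀k : (n₀ : k) + ((ϑ : k) + ((ϑ⁻¹ : kˣ) : k)) = 0 := by
    rw [hn₀, Nat.cast_mul, hT, Nat.cast_sub hp.one_le, CharP.cast_eq_zero, Nat.cast_one]
    ring
  have hrel : (ϑ : k) * (ϑ : k) + (n₀ : k) * ϑ + 1 = 0 := by
    have h1 : (n₀ : k) = -((ϑ : k) + ((ϑ⁻¹ : kˣ) : k)) := eq_neg_of_add_eq_zero_left hn₀k
    have h2 : ((ϑ⁻¹ : kˣ) : k) * (ϑ : k) = 1 := by
      rw [← Units.val_mul, inv_mul_cancel, Units.val_one]
    rw [h1]
    linear_combination -h2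
  -- the congruence for `n₀`
  have hn₀O : ‖(n₀ : Om p) + (u ^ (p - 1) + u ^ (p ^ 2 - p))‖ < 1 := by
    have e1 := h7g_lift_add τ hτ.1 hτ.2 (n₀ : k) ((ϑ : k) + ((ϑ⁻¹ : kˣ) : k))
    have e2 := h7g_lift_add τ hτ.1 hτ.2 (ϑ : k) ((ϑ⁻¹ : kˣ) : k)
    have e3 := h7g_lift_natCast τ hτ.1 hτ.2 n₀
    rw [hn₀k, h7g_lift_zero, zero_sub, norm_neg] at e1
    rw [h7g_lift_unit, h7g_lift_unit, hτϑ, hτϑinv] at e2
    have e : (n₀ : Om p) + (u ^ (p - 1) + u ^ (p ^ 2 - p)) =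
        (h7g_lift τ (n₀ : k) + h7g_lift τ ((ϑ : k) + ((ϑ⁻¹ : kˣ) : k))) -
        (h7g_lift τ (n₀ : k) - (n₀ : Om p)) -
        (h7g_lift τ ((ϑ : k) + ((ϑ⁻¹ : kˣ) : k)) - (u ^ (p - 1) + u ^ (p ^ 2 - p))) := by ring
    rw [e]
    refine lt_of_le_of_lt (h34k_norm_sub_le_max _ _) (max_lt ?_ e2)
    exact lt_of_le_of_lt (h34k_norm_sub_le_max _ _) (max_lt e1 e3)
  -- the twist factor
  obtain ⟨c, hc⟩ : ∃ c : Om p, c = u ^ (j + (p ^ 2 - p - 2)) := ⟨_, rfl⟩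
  have hcN : c ^ (p ^ 2 - 1) = 1 := by rw [hc]; exact hupow _
  have hc1 : ‖c‖ = 1 := h89d0_norm_of_pow_eq_one hN0 hcN
  have hcu : c * u ^ (p + 1) = u ^ j := by
    rw [hc, ← pow_add]
    have : j + (p ^ 2 - p - 2) + (p + 1) = j + (p ^ 2 - 1) := by omega
    rw [this, pow_add, huN, mul_one]
  have hcU : c ≠ u ^ (p - 1) := by
    intro h
    have h1 : c * u ^ (p ^ 2 - p) = 1 := by
      rw [h, ← pow_add]
      have : p - 1 + (p ^ 2 - p) = p ^ 2 - 1 := by omega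
      rw [this, huN]
    rw [hc, ← pow_add] at h1
    obtain ⟨q, hq⟩ := hudvd _ h1
    apply hj2p
    have h2 : j + 2 * (p ^ 2 - 1) = (p ^ 2 - 1) * q + 2 * p := by omega
    have h3 : (j + 2 * (p ^ 2 - 1)) % (p ^ 2 - 1) = j % (p ^ 2 - 1) := by
      rw [mul_comm 2, Nat.add_mul_mod_self_left]
    have h4 : ((p ^ 2 - 1) * q + 2 * p) % (p ^ 2 - 1) = (2 * p) % (p ^ 2 - 1) := by
      rw [Nat.mul_add_mod]
    show j % (p ^ 2 - 1) = (2 * p) % (p ^ 2 - 1)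
    rw [← h3, h2, h4]
  have hcV : c ≠ u ^ (p ^ 2 - p) := by
    intro h
    have h1 : c * u ^ (p - 1) = 1 := by
      rw [h, ← pow_add]
      have : p ^ 2 - p + (p - 1) = p ^ 2 - 1 := by omega
      rw [this, huN]
    rw [hc, ← pow_add] at h1
    obtain ⟨q, hq⟩ := hudvd _ h1
    apply hj2
    have h2 : j + (p ^ 2 - 1) = (p ^ 2 - 1) * q + 2 := by omega
    have h3 : (j + (p ^ 2 - 1)) % (p ^ 2 - 1) = j % (p ^ 2 - 1) := Nat.add_mod_right _ _
    have h4 : ((p ^ 2 - 1) * q + 2) % (p ^ 2 - 1) = 2 % (p ^ 2 - 1) := by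
      rw [Nat.mul_add_mod]
    show j % (p ^ 2 - 1) = 2 % (p ^ 2 - 1)
    rw [← h3, h2, h4]
  have hD : ‖c * c + (n₀ : Om p) * c + 1‖ = 1 := by
    have h1 : ‖(c - u ^ (p - 1)) * (c - u ^ (p ^ 2 - p))‖ = 1 := by
      rw [norm_mul, h15e_norm_sub_root hN0 hpN hcN (hupow _) hcU,
        h15e_norm_sub_root hN0 hpN hcN (hupow _) hcV, one_mul]
    apply h15e_norm_eq_one_of_sub_lt h1
    have hUV : u ^ (p - 1) * u ^ (p ^ 2 - p) = 1 := by
      rw [← pow_add]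
      have : p - 1 + (p ^ 2 - p) = p ^ 2 - 1 := by omega
      rw [this, huN]
    have e : c * c + (n₀ : Om p) * c + 1 - (c - u ^ (p - 1)) * (c - u ^ (p ^ 2 - p)) =
        ((n₀ : Om p) + (u ^ (p - 1) + u ^ (p ^ 2 - p))) * c := by
      linear_combination -hUV
    rw [e, norm_mul, hc1, mul_one]
    exact hn₀O
  -- the coefficients
  have hj1 : 1 ≤ j := hj0
  obtain ⟨β₀, hβ₀n, hβ₀g⟩ := hlev
  have hlev0 : h61k_Lev p π ζ (fun g => l (μ g)) j := ⟨β₀, hβ₀g, hβ₀n⟩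
  obtain ⟨A, hA1, hA⟩ := (h61k_kDisc p hp2 π ζ hπ hζ hζ1 (fun g => l (μ g)) j).2 hlev0
  have hb₁n : ‖c * A‖ ≤ 1 := by
    rw [norm_mul, hc1, one_mul]
    exact hA1
  have hb₂n : ‖c * (c * A)‖ ≤ 1 := by
    rw [norm_mul, hc1, one_mul]
    exact hb₁n
  have hA₁ := h34w_kTwist p hp2 π ζ hπ hζ hζ1 s hs (fun g => l (μ g)) j A (c * A) hj1 hA1 hA
    (by rw [hΨ]; linear_combination A * hcu)
  have hA₂ := h34w_kTwist p hp2 π ζ hπ hζ hζ1 s hs _ j (c * A) (c * (c * A)) hj1 hb₁n hA₁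
    (by rw [hΨ]; linear_combination (c * A) * hcu)
  have hA₁' := h15e_coef_nsmul hp2 hπ hζ hζ1 hj1 hb₁n hA₁ n₀
  have hn₀b : ‖(n₀ : Om p) * (c * A)‖ ≤ 1 := by
    rw [norm_mul]
    exact mul_le_one₀ (h34k_norm_natCast_le n₀) (norm_nonneg _) hb₁n
  have hsum1 := h61k_kAdd p hp2 π ζ hπ hζ hζ1 _ _ j _ _ hj1 hb₂n hn₀b hA₂ hA₁'
  have hsum1n : ‖c * (c * A) + (n₀ : Om p) * (c * A)‖ ≤ 1 :=
    (IsUltrametricDist.norm_add_le_max _ _).trans (max_le hb₂n hn₀b)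
  have hsum2 := h61k_kAdd p hp2 π ζ hπ hζ hζ1 _ _ j _ _ hj1 hsum1n hA1 hsum1 hA
  -- the sum character vanishes on `I_K`
  have hμ1 : ∀ g ∈ h89s_IK p π, μ (s⁻¹ * g * s) = (ϑ : k) * μ g := by
    intro g hg
    have h1 := hμ s⁻¹ hs' g hg
    rw [inv_inv, ← hϑ] at h1
    exact h1
  have hzero : ∀ g ∈ h89s_IK p π,
      l (μ (s⁻¹ * (s⁻¹ * g * s) * s)) + (n₀ : ZMod p) * l (μ (s⁻¹ * g * s)) + l (μ g) =
        (fun _ => (0 : ZMod p)) g := by
    intro g hg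
    show _ = (0 : ZMod p)
    rw [hμ1 _ (hconj g hg), hμ1 g hg]
    have h1 : (n₀ : ZMod p) * l ((ϑ : k) * μ g) = l ((n₀ : k) * ((ϑ : k) * μ g)) := by
      rw [← nsmul_eq_mul, ← nsmul_eq_mul, map_nsmul]
    rw [h1, ← map_add, ← map_add]
    have h2 : (ϑ : k) * ((ϑ : k) * μ g) + (n₀ : k) * ((ϑ : k) * μ g) + μ g =
        ((ϑ : k) * (ϑ : k) + (n₀ : k) * ϑ + 1) * μ g := by ring
    rw [h2, hrel, zero_mul, map_zero]
  have hsum3 := h61k_coef_ext hzero hsum2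
  have huniq := h7u_kUniq p hp2 π ζ hπ hζ hζ1 (fun _ => (0 : ZMod p)) j _ 0 hpj hjlt
    ((IsUltrametricDist.norm_add_le_max _ _).trans (max_le hsum1n hA1))
    (by rw [norm_zero]; exact zero_le_one) hsum3 (h15e_coef_zero hπ j)
  have hAlt : ‖A‖ < 1 := by
    have e : c * (c * A) + (n₀ : Om p) * (c * A) + A - 0 =
        (c * c + (n₀ : Om p) * c + 1) * A := by ring
    rw [e, norm_mul, hD, one_mul] at huniq
    exact huniq
  have hA0 : h61k_Coef p π ζ (fun g => l (μ g)) j 0 :=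
    h61k_coef_congr hπ hA (by rw [sub_zero]; exact hAlt)
  obtain ⟨β, hβg, hβn⟩ := (h61k_kDisc p hp2 π ζ hπ hζ hζ1 (fun g => l (μ g)) j).1 hA0
  exact ⟨β, hβn, hβg⟩

end Fermat.Agent.S56F
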