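import Fermat.Agent.S56F.FLS4KIface_helper89
import Fermat.Agent.S56F.FLS4K01_helper61
import Fermat.Agent.S56F.FLS4K2_helper7
import Fermat.Agent.S56F.FLS4K5_helper34
import Fermat.Agent.S56F.FLC5Final_helper89
import Fermat.Agent.S56F.FLO2_helper89
import Fermat.Agent.S56F.FLC1_helper7

/-!
# S56 / LOC-p-FL, leaf FL-S4K-B (helper4, prefix `h4e_`): `h4e_kLevEig : H89KLevEig`

The eigen-exclusion step, derived from the landed level calculus of helper61's interface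
(`h61k_kDisc`, `h61k_kAdd`, `h7u_kUniq`, `h34w_kTwist`).

`σ ∈ inertia` with `σ π = u π`, `u` a primitive `(p² - 1)`-th root of unity; `θ = ψ (σ⁻¹)`,
`τ θ = u ^ (p - 1)`, so `θ ^ (p + 1) = 1` and `θ + θ⁻¹ = -m` in `k` for a natural number `m`.
For `χ = l ∘ μ` with coefficient `a` at level `j`: the conjugates `χ₁ = χ^σ = l ∘ θ μ`,
`χ₂ = l ∘ θ² μ` have coefficients `U a`, `U² a` (`U = u ^ (j - p - 1)`), and
`χ₂ + χ + m χ₁ = 0` on `I_K`; by uniqueness `(U² + 1 + m U) a ≡ 0`, and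
`U² + 1 + m U ≡ (U - u ^ (p - 1)) (U - u ^ (1 - p))` is a unit unless `j ≡ 2 p, 2`.
-/

set_option autoImplicit false
set_option linter.style.haveILetI false
set_option linter.unusedSectionVars false

open Fermat.Agent.PT.Loc

noncomputable section

namespace Fermat.Agent.S56F

/-- Elements fixed by the Frobenius are in the prime field. -/
theorem h4e_natCast_of_pow_eq {p : ℕ} [Fact p.Prime] {k : Type} [Field k] [CharP k p] {x : k}
    (hx : x ^ p = x) : ∃ n : ℕ, (n : k) = x := by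
  have h1 : x ∈ (⊥ : Subfield k) := (Subfield.mem_bot_iff_pow_eq_self k p).2 hx
  rw [← ZMod.fieldRange_castHom_eq_bot p] at h1
  obtain ⟨z, hz⟩ := h1
  haveI : NeZero p := ⟨(Fact.out : p.Prime).ne_zero⟩
  refine ⟨z.val, ?_⟩
  rw [← hz, ZMod.natCast_val]
  rfl

section

variable {p : ℕ} [Fact p.Prime]

/-- Distinct roots of unity of order prime to `p` are not congruent. -/
theorem h4e_root_sub_norm {w w' : Om p} {m : ℕ} (hm0 : 0 < m) (hm : ¬ p ∣ m) (hw : w ^ m = 1)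
    (hw' : w' ^ m = 1) (hne : w ≠ w') : ‖w - w'‖ = 1 := by
  have h1 : ‖w‖ = 1 := h89d0_norm_of_pow_eq_one hm0 hw
  have h2 : ‖w'‖ = 1 := h89d0_norm_of_pow_eq_one hm0 hw'
  have h3 : ‖w - w'‖ ≤ 1 := by
    refine (h89o_norm_sub_le_max w w').trans ?_
    rw [h1, h2, max_self]
  rcases lt_or_eq_of_le h3 with h4 | h4
  · exfalso
    apply hne
    have : FiniteDimensional ℚ_[p] (IntermediateField.adjoin ℚ_[p] ({w, w'} : Set (Om p))) :=
      h89d0_finiteDimensional_adjoin _ (Set.toFinite _)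
    exact h34lf_teich_unique_K (IntermediateField.adjoin ℚ_[p] ({w, w'} : Set (Om p))) hm hm hm0
      (IntermediateField.subset_adjoin _ _ (by simp))
      (IntermediateField.subset_adjoin _ _ (by simp)) hw hw' h4
  · exact h4

/-- Equal powers of a primitive root have congruent exponents. -/
theorem h4e_modEq_of_pow_eq {u : Om p} {n : ℕ} (hu : IsPrimitiveRoot u n) (hn : 0 < n)
    {a b : ℕ} (h : u ^ a = u ^ b) : a ≡ b [MOD n] := by
  have h1 : u ^ (a % n) = u ^ (b % n) := by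
    rw [← pow_eq_pow_mod a hu.pow_eq_one, ← pow_eq_pow_mod b hu.pow_eq_one]
    exact h
  exact hu.pow_inj (Nat.mod_lt a hn) (Nat.mod_lt b hn) h1

/-- The zero character has coefficient `0` at every level. -/
theorem h4e_coef_zero {π : Om p} (hπ : π ^ (p ^ 2 - 1) = p) (ζ : Om p) (j : ℕ) :
    h61k_Coef p π ζ (fun _ => 0) j 0 := by
  refine ⟨1, fun g _ => ?_, ?_⟩
  · simp
  · rw [one_pow, sub_self, zero_mul, sub_zero, norm_zero]
    exact h61k_pi_pow_pos hπ j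

/-- Coefficients of the multiples of a character. -/
theorem h4e_coef_nsmul (hp2 : p ≠ 2) {π ζ : Om p} (hπ : π ^ (p ^ 2 - 1) = p) (hζ : ζ ^ p = 1)
    (hζ1 : ζ ≠ 1) (χ : Gq p → ZMod p) (j : ℕ) (hj : 1 ≤ j) (b : Om p) (hb : ‖b‖ ≤ 1)
    (hc : h61k_Coef p π ζ χ j b) (m : ℕ) :
    h61k_Coef p π ζ (fun g => (m : ZMod p) * χ g) j ((m : Om p) * b) := by
  induction m with
  | zero =>
    have e1 : (fun g => ((0 : ℕ) : ZMod p) * χ g) = fun _ => 0 := by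
      funext g
      rw [Nat.cast_zero, zero_mul]
    rw [e1, Nat.cast_zero, zero_mul]
    exact h4e_coef_zero hπ ζ j
  | succ m ih =>
    have hmb : ‖(m : Om p) * b‖ ≤ 1 := by
      rw [norm_mul]
      exact mul_le_one₀ (h34k_norm_natCast_le m) (norm_nonneg _) hb
    have h1 := h61k_kAdd p hp2 π ζ hπ hζ hζ1 _ χ j _ b hj hmb hb ih hc
    have e1 : (fun g => ((m + 1 : ℕ) : ZMod p) * χ g) =
        fun g => (m : ZMod p) * χ g + χ g := by
      funext g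
      push_cast
      ring
    have e2 : ((m + 1 : ℕ) : Om p) * b = (m : Om p) * b + b := by
      push_cast
      ring
    rw [e1, e2]
    exact h1

end

/-- **FL-S4K-B.** -/
theorem h4e_kLevEig : H89KLevEig := by
  intro p _ hp2 k _ _ _ τ hτ π hπ ψ hψ μ hμ ζ hζ hζ1 l j hj0 hjlt hpj hj2 hj2p hlev
  classical
  letI : Fintype k := Fintype.ofFinite k
  have hpp : p.Prime := Fact.out
  have hN : 0 < p ^ 2 - 1 := h89o_pow_sub_one_pos (p := p) 2 (by norm_num)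
  have hpN : ¬ p ∣ p ^ 2 - 1 := h89o_not_dvd_pow_sub_one (p := p) 2 (by norm_num)
  have hπ0 : π ≠ 0 := h61k_pi_ne_zero hπ
  have hpm : (p - 1) * (p + 1) = p ^ 2 - 1 := by
    have h1 := Nat.sq_sub_sq p 1
    rw [one_pow] at h1
    rw [h1, mul_comm]
  -- the character and its coefficient
  obtain ⟨β, hβn, hβg⟩ := hlev
  have hlev' : h61k_Lev p π ζ (fun g => l (μ g)) j := ⟨β, hβg, hβn⟩
  obtain ⟨a, ha1, hcoef⟩ := (h61k_kDisc p hp2 π ζ hπ hζ hζ1 (fun g => l (μ g)) j).2 hlev'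
  -- the element `σ`
  obtain ⟨u, hu⟩ := h89o_exists_primitiveRoot (p := p) (p ^ 2 - 1) hN
  obtain ⟨σ, hσ, hσπ⟩ := h89f_fundSurjective p (p ^ 2 - 1) hN hpN π hπ u hu.pow_eq_one
  have hσ' : σ⁻¹ ∈ inertia p := (inertia p).inv_mem hσ
  have hu0 : u ≠ 0 := hu.ne_zero hN.ne'
  have hu1 : ‖u‖ = 1 := h89d0_norm_of_pow_eq_one hN hu.pow_eq_one
  have hΨ : σ π / π = u := by rw [hσπ, mul_div_assoc, div_self hπ0, mul_one]
  have hσu : σ⁻¹ u = u :=
    (h89d0_inertiaIffRoots p σ⁻¹).1 hσ' u (p ^ 2 - 1) hN hpN hu.pow_eq_one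
  have hσinv : σ⁻¹ π / π = u⁻¹ := by
    have h1 : σ⁻¹ (σ π) = π := h34k_inv_apply' σ π
    rw [hσπ, map_mul, hσu] at h1
    rw [div_eq_iff hπ0, eq_inv_mul_iff_mul_eq₀ hu0]
    exact h1
  have hconj : ∀ g ∈ h89s_IK p π, σ⁻¹ * g * σ ∈ h89s_IK p π := by
    intro g hg
    refine ⟨h34k_conj_mem_inertia' hg.1 σ, ?_⟩
    have hgu : g u = u := (h89d0_inertiaIffRoots p g).1 hg.1 u (p ^ 2 - 1) hN hpN hu.pow_eq_one
    rw [AlgEquiv.mul_apply, AlgEquiv.mul_apply, hσπ, map_mul, hgu, hg.2, ← hσπ, h34k_inv_apply']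
  -- the eigenvalue `θ`
  obtain ⟨θ, hθdef⟩ : ∃ θ : kˣ, θ = ψ σ⁻¹ := ⟨_, rfl⟩
  have hτθ : ((τ θ : (Om p)ˣ) : Om p) = u ^ (p - 1) := by
    have h1 := hψ σ⁻¹ hσ'
    rw [hσinv, ← hθdef] at h1
    have h2 : u ^ p = u ^ (p - 1) * u := by
      rw [← pow_succ, Nat.sub_add_cancel hpp.one_le]
    have h3 : ((τ θ : (Om p)ˣ) : Om p) = u⁻¹ * u ^ p := by
      rw [← h1, mul_assoc, inv_pow, inv_mul_cancel₀ (pow_ne_zero p hu0), mul_one]
    rw [h3, h2, mul_comm, mul_assoc, mul_inv_cancel₀ hu0, mul_one]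
  have hθpow : θ ^ (p + 1) = 1 := by
    apply h89c5_tau_injective τ hτ
    apply Units.ext
    rw [map_pow, Units.val_pow_eq_pow_val, hτθ, map_one, Units.val_one, ← pow_mul, hpm,
      hu.pow_eq_one]
  have hθp : (θ : k) ^ p = ((θ⁻¹ : kˣ) : k) := by
    have h1 : θ ^ p = θ⁻¹ := by
      rw [eq_inv_iff_mul_eq_one, ← pow_succ]
      exact hθpow
    rw [← Units.val_pow_eq_pow_val, h1]
  have hθp' : ((θ⁻¹ : kˣ) : k) ^ p = (θ : k) := by
    have h1 : (θ⁻¹) ^ p = θ := by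
      rw [inv_pow, inv_eq_iff_eq_inv, eq_inv_iff_mul_eq_one, ← pow_succ]
      exact hθpow
    rw [← Units.val_pow_eq_pow_val, h1]
  have hodd : Odd p := hpp.eq_two_or_odd'.resolve_left hp2
  obtain ⟨m, hm⟩ : ∃ m : ℕ, (m : k) = -((θ : k) + ((θ⁻¹ : kˣ) : k)) := by
    apply h4e_natCast_of_pow_eq (p := p)
    rw [hodd.neg_pow, add_pow_char, hθp, hθp', add_comm]
  have hrel : (θ : k) * (θ : k) + 1 + (m : k) * (θ : k) = 0 := by
    rw [hm]
    have h1 : ((θ⁻¹ : kˣ) : k) * (θ : k) = 1 := by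
      rw [← Units.val_mul, inv_mul_cancel, Units.val_one]
    linear_combination -h1
  -- the conjugate characters
  obtain ⟨U, hUdef⟩ : ∃ U : Om p, U = u ^ j / u ^ (p + 1) := ⟨_, rfl⟩
  have hU1 : ‖U‖ = 1 := by
    rw [hUdef, norm_div, norm_pow, norm_pow, hu1, one_pow, one_pow, div_one]
  have hUu : U * u ^ (p + 1) = u ^ j := by
    rw [hUdef, div_mul_cancel₀ _ (pow_ne_zero _ hu0)]
  have hb1 : ‖U * a‖ ≤ 1 := by
    rw [norm_mul, hU1, one_mul]
    exact ha1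
  have hb2 : ‖U * (U * a)‖ ≤ 1 := by
    rw [norm_mul, hU1, one_mul]
    exact hb1
  have hj1 : 1 ≤ j := hj0
  have hc1 : h61k_Coef p π ζ (fun g => l (μ (σ⁻¹ * g * σ))) j (U * a) := by
    refine h34w_kTwist p hp2 π ζ hπ hζ hζ1 σ hσ (fun g => l (μ g)) j a (U * a) hj1 ha1 hcoef ?_
    rw [hΨ]
    linear_combination a * hUu
  have hc2 : h61k_Coef p π ζ (fun g => l (μ (σ⁻¹ * (σ⁻¹ * g * σ) * σ))) j (U * (U * a)) := by
    refine h34w_kTwist p hp2 π ζ hπ hζ hζ1 σ hσ (fun g => l (μ (σ⁻¹ * g * σ))) j (U * a)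
      (U * (U * a)) hj1 hb1 hc1 ?_
    rw [hΨ]
    linear_combination (U * a) * hUu
  have hμ1 : ∀ g ∈ h89s_IK p π, μ (σ⁻¹ * g * σ) = (θ : k) * μ g := by
    intro g hg
    have h1 := hμ σ⁻¹ hσ' g hg
    rw [inv_inv] at h1
    rw [h1, hθdef]
  -- the sum of the characters
  have hs1 := h61k_kAdd p hp2 π ζ hπ hζ hζ1 _ _ j _ _ hj1 hb2 ha1 hc2 hcoef
  have hs2 := h4e_coef_nsmul hp2 hπ hζ hζ1 _ j hj1 _ hb1 hc1 m
  have hs12 : ‖U * (U * a) + a‖ ≤ 1 :=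
    (IsUltrametricDist.norm_add_le_max _ _).trans (max_le hb2 ha1)
  have hs2n : ‖(m : Om p) * (U * a)‖ ≤ 1 := by
    rw [norm_mul]
    exact mul_le_one₀ (h34k_norm_natCast_le m) (norm_nonneg _) hb1
  have hs3 := h61k_kAdd p hp2 π ζ hπ hζ hζ1 _ _ j _ _ hj1 hs12 hs2n hs1 hs2
  have hzero : h61k_Coef p π ζ (fun _ => 0) j (U * (U * a) + a + (m : Om p) * (U * a)) := by
    refine h61k_coef_ext (fun g hg => ?_) hs3
    show l (μ (σ⁻¹ * (σ⁻¹ * g * σ) * σ)) + l (μ g) + (m : ZMod p) * l (μ (σ⁻¹ * g * σ)) = 0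
    rw [hμ1 _ (hconj g hg), hμ1 g hg, ← nsmul_eq_mul, ← map_nsmul, ← map_add, ← map_add]
    have e : (θ : k) * ((θ : k) * μ g) + μ g + m • ((θ : k) * μ g) = 0 := by
      rw [nsmul_eq_mul]
      linear_combination (μ g) * hrel
    rw [e, map_zero]
  have hc0 : ‖U * (U * a) + a + (m : Om p) * (U * a)‖ < 1 := by
    have h1 := h7u_kUniq p hp2 π ζ hπ hζ hζ1 (fun _ => 0) j _ 0 hpj hjlt
      ((IsUltrametricDist.norm_add_le_max _ _).trans (max_le hs12 hs2n))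
      (by rw [norm_zero]; exact zero_le_one) hzero (h4e_coef_zero hπ ζ j)
    rwa [sub_zero] at h1
  -- the factor is a unit
  obtain ⟨A, hAdef⟩ : ∃ A : Om p, A = u ^ (p - 1) := ⟨_, rfl⟩
  have hA0 : A ≠ 0 := by
    rw [hAdef]
    exact pow_ne_zero _ hu0
  have hA1 : ‖A‖ = 1 := by rw [hAdef, norm_pow, hu1, one_pow]
  have hτθ' : ((τ θ⁻¹ : (Om p)ˣ) : Om p) = A⁻¹ := by
    rw [map_inv, Units.val_inv_eq_inv_val, hτθ, hAdef]
  have hsmall : ‖(m : Om p) + A + A⁻¹‖ < 1 := by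
    have E1 := h7g_lift_add τ hτ.1 hτ.2 ((θ : k) + ((θ⁻¹ : kˣ) : k)) (m : k)
    have E2 := h7g_lift_add τ hτ.1 hτ.2 (θ : k) ((θ⁻¹ : kˣ) : k)
    have E3 := h7g_lift_natCast τ hτ.1 hτ.2 m
    have e0 : (θ : k) + ((θ⁻¹ : kˣ) : k) + (m : k) = 0 := by
      rw [hm]
      ring
    rw [e0, h7g_lift_zero] at E1
    rw [h7g_lift_unit, h7g_lift_unit, hτθ, hτθ', ← hAdef] at E2
    have e : (m : Om p) + A + A⁻¹ =
        -(0 - (h7g_lift τ ((θ : k) + ((θ⁻¹ : kˣ) : k)) + h7g_lift τ ((m : ℕ) : k))) +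
          (-(h7g_lift τ ((θ : k) + ((θ⁻¹ : kˣ) : k)) - (A + A⁻¹)) +
            -(h7g_lift τ ((m : ℕ) : k) - (m : Om p))) := by
      ring
    rw [e]
    refine lt_of_le_of_lt (IsUltrametricDist.norm_add_le_max _ _) (max_lt ?_ ?_)
    · rw [norm_neg]
      exact E1
    · refine lt_of_le_of_lt (IsUltrametricDist.norm_add_le_max _ _) (max_lt ?_ ?_)
      · rw [norm_neg]
        exact E2
      · rw [norm_neg]
        exact E3
  have hUpow : U ^ (p ^ 2 - 1) = 1 := by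
    rw [hUdef, div_pow, ← pow_mul, ← pow_mul, mul_comm j, mul_comm (p + 1), pow_mul,
      pow_mul _ (p ^ 2 - 1), hu.pow_eq_one, one_pow, one_pow, div_one]
  have hApow : A ^ (p ^ 2 - 1) = 1 := by
    rw [hAdef, ← pow_mul, mul_comm, pow_mul, hu.pow_eq_one, one_pow]
  have hApow' : A⁻¹ ^ (p ^ 2 - 1) = 1 := by
    rw [inv_pow, hApow, inv_one]
  have hUA : U ≠ A := by
    intro h
    apply hj2p
    have h1 : u ^ j = u ^ (2 * p) := by
      rw [← hUu, h, hAdef, ← pow_add]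
      congr 1
      have := hpp.one_le
      omega
    exact h4e_modEq_of_pow_eq hu hN h1
  have hUA' : U ≠ A⁻¹ := by
    intro h
    apply hj2
    have h1 : u ^ (j + (p - 1)) = u ^ (2 + (p - 1)) := by
      have h3 : U * A = 1 := by rw [h, inv_mul_cancel₀ hA0]
      have h4 : u ^ j * u ^ (p - 1) = u ^ (p + 1) := by
        rw [← hUu, ← hAdef]
        linear_combination (u ^ (p + 1)) * h3
      rw [pow_add, h4]
      congr 1
      have := hpp.one_le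
      omega
    exact Nat.ModEq.add_right_cancel' _ (h4e_modEq_of_pow_eq hu hN h1)
  have hn1 : ‖U - A‖ = 1 := h4e_root_sub_norm hN hpN hUpow hApow hUA
  have hn2 : ‖U - A⁻¹‖ = 1 := h4e_root_sub_norm hN hpN hUpow hApow' hUA'
  -- conclusion
  have ha_lt : ‖a‖ < 1 := by
    have e : a * ((U - A) * (U - A⁻¹)) =
        (U * (U * a) + a + (m : Om p) * (U * a)) - a * (((m : Om p) + A + A⁻¹) * U) := by
      have h1 : A * A⁻¹ = 1 := mul_inv_cancel₀ hA0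
      linear_combination a * h1
    have h2 : ‖a * (((m : Om p) + A + A⁻¹) * U)‖ < 1 := by
      rw [norm_mul, norm_mul, hU1, mul_one]
      calc ‖a‖ * ‖(m : Om p) + A + A⁻¹‖ ≤ 1 * ‖(m : Om p) + A + A⁻¹‖ :=
            mul_le_mul_of_nonneg_right ha1 (norm_nonneg _)
        _ = ‖(m : Om p) + A + A⁻¹‖ := one_mul _
        _ < 1 := hsmall
    have h3 : ‖a * ((U - A) * (U - A⁻¹))‖ < 1 := by
      rw [e]
      exact lt_of_le_of_lt (h89o_norm_sub_le_max _ _) (max_lt hc0 h2)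
    rwa [norm_mul, norm_mul, hn1, hn2, mul_one, mul_one] at h3
  have hcoef0 : h61k_Coef p π ζ (fun g => l (μ g)) j 0 :=
    h61k_coef_congr hπ hcoef (by rwa [sub_zero])
  obtain ⟨β', hβ'g, hβ'n⟩ := (h61k_kDisc p hp2 π ζ hπ hζ hζ1 (fun g => l (μ g)) j).1 hcoef0
  exact ⟨β', hβ'n, hβ'g⟩

end Fermat.Agent.S56F
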