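import Fermat.Agent.S56F.FLS4KIface_helper89
import Fermat.Agent.S56F.FLS4K01_helper61
import Fermat.Agent.S56F.FLS4K2_helper7
import Fermat.Agent.S56F.FLS4K5_helper34
import Fermat.Agent.S56F.FLS4A_helper42
import Fermat.Agent.S56F.FLO8b_helper84

/-!
# S56 / LOC-p-FL, row FL-S4K-B (helper42): `H89KLevEig` by the coefficient calculus

`h42k_levEig : H89KLevEig` (eigen-exclusion).

Route: `χ = l ∘ μ` has a coefficient `a` at level `j` (`h61k_kDisc`).  For a generator `s` of the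
tame quotient of level `p² - 1` (`Ψ s = u` primitive) the twisted characters
`χ₁ = χ (s⁻¹ · s) = l (θ μ)`, `χ₂ = l (θ² μ)` (`θ = ψ (s⁻¹)`, `τ θ = u ^ (p - 1)`) have the
coefficients `c a`, `c² a` with `c = u ^ (j - p - 1)` (`h34w_kTwist`); `θ ^ (p + 1) = 1`, so
`θ² + m θ + 1 = 0` with `m ∈ ℕ`; hence `χ₂ + m χ₁ + χ = 0` on `I_K` has the coefficients
`(c² + m c + 1) a` (`h61k_kAdd`) and `0`, and `‖(c² + m c + 1) a‖ < 1` (`h7u_kUniq`);
`c² + m c + 1 ≡ (c - τ θ)(c - τ θ⁻¹)` is a unit unless `j ≡ 2, 2 p` modulo `p² - 1`.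
-/

set_option autoImplicit false
set_option linter.style.haveILetI false
set_option linter.unusedSectionVars false

open Fermat.Agent.PT.Loc Polynomial

noncomputable section

namespace Fermat.Agent.S56F

section Field

variable {p : ℕ} [Fact p.Prime] {k : Type} [Field k] [CharP k p]

/-- an element of `k` fixed by Frobenius is a natural number. -/
theorem h42k_nat_of_frob {x : k} (hx : x ^ p = x) : ∃ m : ℕ, (m : k) = x := by
  have hp : p.Prime := Fact.out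
  have h1 : x ∈ (⊥ : Subfield k) := (Subfield.mem_bot_iff_pow_eq_self k p).mpr hx
  obtain ⟨n, hn⟩ := (mem_bot_iff_intCast p k).mp h1
  refine ⟨(n % (p : ℤ)).toNat, ?_⟩
  have h2 : (((n % (p : ℤ)).toNat : ℕ) : ℤ) = n % (p : ℤ) :=
    Int.toNat_of_nonneg (Int.emod_nonneg n (by exact_mod_cast hp.ne_zero))
  have h3 : (((n % (p : ℤ)).toNat : ℕ) : k) = (((((n % (p : ℤ)).toNat : ℕ) : ℤ)) : k) :=
    (Int.cast_natCast _).symm
  rw [h3, h2, ← hn]
  exact (CharP.intCast_eq_intCast k p).mpr (Int.mod_modEq n p)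

/-- the quadratic relation of an element of norm one of `𝔽_{p²}`. -/
theorem h42k_quad (hp2 : p ≠ 2) (θ : kˣ) (hθ : θ ^ (p + 1) = 1) :
    ∃ m : ℕ, (θ : k) ^ 2 + (m : k) * θ + 1 = 0 := by
  have hp : p.Prime := Fact.out
  have hodd : Odd p := hp.odd_of_ne_two hp2
  have h1 : θ ^ p = θ⁻¹ := by
    rw [eq_inv_iff_mul_eq_one, ← pow_succ, hθ]
  have h2 : (θ⁻¹) ^ p = θ := by
    rw [inv_pow, h1, inv_inv]
  have h1' : (θ : k) ^ p = ((θ⁻¹ : kˣ) : k) := by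
    rw [← Units.val_pow_eq_pow_val, h1]
  have h2' : ((θ⁻¹ : kˣ) : k) ^ p = (θ : k) := by
    rw [← Units.val_pow_eq_pow_val, h2]
  have hx : (-((θ : k) + ((θ⁻¹ : kˣ) : k))) ^ p = -((θ : k) + ((θ⁻¹ : kˣ) : k)) := by
    rw [hodd.neg_pow, add_pow_char, h1', h2', add_comm]
  obtain ⟨m, hm⟩ := h42k_nat_of_frob hx
  refine ⟨m, ?_⟩
  rw [hm]
  have h3 : ((θ⁻¹ : kˣ) : k) * (θ : k) = 1 := by
    rw [← Units.val_mul, inv_mul_cancel, Units.val_one]
  linear_combination -h3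

end Field

section Norm

variable {p : ℕ} [Fact p.Prime] {k : Type} [Field k] [Finite k]

/-- `‖m + τ θ + τ θ⁻¹‖ < 1`. -/
theorem h42k_lift_rel (τ : kˣ →* (Om p)ˣ) (hτ : IsTeich p τ) (θ : kˣ) (m : ℕ)
    (h : (θ : k) ^ 2 + (m : k) * θ + 1 = 0) :
    ‖(m : Om p) + ((τ θ : (Om p)ˣ) : Om p) + ((τ θ⁻¹ : (Om p)ˣ) : Om p)‖ < 1 := by
  classical
  letI : Fintype k := Fintype.ofFinite k
  have h3' : ((θ⁻¹ : kˣ) : k) * (θ : k) = 1 := by
    rw [← Units.val_mul, inv_mul_cancel, Units.val_one]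
  have h0 : (m : k) + ((θ : k) + ((θ⁻¹ : kˣ) : k)) = 0 := by
    linear_combination ((θ⁻¹ : kˣ) : k) * h - ((θ : k) + (m : k)) * h3'
  have h1 := h7g_lift_add τ hτ.1 hτ.2 (m : k) ((θ : k) + ((θ⁻¹ : kˣ) : k))
  rw [h0, h7g_lift_zero, zero_sub, norm_neg] at h1
  have h2 := h7g_lift_add τ hτ.1 hτ.2 (θ : k) ((θ⁻¹ : kˣ) : k)
  rw [h7g_lift_unit, h7g_lift_unit] at h2
  have h3 := h7g_lift_natCast τ hτ.1 hτ.2 m
  have e : (m : Om p) + ((τ θ : (Om p)ˣ) : Om p) + ((τ θ⁻¹ : (Om p)ˣ) : Om p) =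
      (h7g_lift τ (m : k) + h7g_lift τ ((θ : k) + ((θ⁻¹ : kˣ) : k))) -
        (h7g_lift τ ((θ : k) + ((θ⁻¹ : kˣ) : k)) -
          (((τ θ : (Om p)ˣ) : Om p) + ((τ θ⁻¹ : (Om p)ˣ) : Om p))) -
        (h7g_lift τ (m : k) - (m : Om p)) := by ring
  rw [e]
  exact lt_of_le_of_lt (h89o_norm_sub_le_max _ _)
    (max_lt (lt_of_le_of_lt (h89o_norm_sub_le_max _ _) (max_lt h1 h2)) h3)

/-- the inverse of a root of unity of order prime to `p`. -/
theorem h42k_isMu_inv {A : Om p} (hA : h84u_IsMu p A) : h84u_IsMu p A⁻¹ := by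
  obtain ⟨n, hn0, hn, hAn⟩ := hA
  exact ⟨n, hn0, hn, by rw [inv_pow, hAn, inv_one]⟩

/-- two different roots of unity of order prime to `p` are not congruent. -/
theorem h42k_isMu_norm_sub {w w' : Om p} (hw : h84u_IsMu p w) (hw' : h84u_IsMu p w')
    (h : w ≠ w') : ‖w - w'‖ = 1 := by
  refine le_antisymm ?_ ?_
  · refine (h89o_norm_sub_le_max _ _).trans ?_
    rw [h84u_isMu_norm hw, h84u_isMu_norm hw', max_self]
  · by_contra hlt
    rw [not_le] at hlt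
    exact h (h84u_isMu_eq hw hw' hlt)

/-- the value of the quadratic polynomial at a root of unity. -/
theorem h42k_quad_unit {A c : Om p} (m : ℕ) (hA : h84u_IsMu p A) (hc : h84u_IsMu p c)
    (hrel : ‖(m : Om p) + A + A⁻¹‖ < 1) (h1 : c ≠ A) (h2 : c ≠ A⁻¹) :
    ‖c ^ 2 + (m : Om p) * c + 1‖ = 1 := by
  have hA0 : A ≠ 0 := h84u_isMu_ne_zero hA
  have e : c ^ 2 + (m : Om p) * c + 1 =
      (c - A) * (c - A⁻¹) + ((m : Om p) + A + A⁻¹) * c := by
    field_simp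
    ring
  have n3 : ‖(c - A) * (c - A⁻¹)‖ = 1 := by
    rw [norm_mul, h42k_isMu_norm_sub hc hA h1, h42k_isMu_norm_sub hc (h42k_isMu_inv hA) h2,
      mul_one]
  have n4 : ‖((m : Om p) + A + A⁻¹) * c‖ < 1 := by
    rw [norm_mul, h84u_isMu_norm hc, mul_one]
    exact hrel
  rw [e, IsUltrametricDist.norm_add_eq_max_of_norm_ne_norm (by rw [n3]; exact n4.ne'), n3]
  exact max_eq_left n4.le

/-- exponents of a primitive root of unity. -/
theorem h42k_modEq_of_pow_eq {u : Om p} {N : ℕ} (hu : IsPrimitiveRoot u N) (hN : 0 < N)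
    {a b : ℕ} (h : u ^ a = u ^ b) : a ≡ b [MOD N] := by
  have hu0 : u ≠ 0 := hu.ne_zero hN.ne'
  have key : ∀ a b : ℕ, a ≤ b → u ^ a = u ^ b → a ≡ b [MOD N] := by
    intro a b hab h
    rw [Nat.modEq_iff_dvd' hab, ← hu.pow_eq_one_iff_dvd]
    have h1 : u ^ a * u ^ (b - a) = u ^ a * 1 := by
      rw [← pow_add, Nat.add_sub_cancel' hab, mul_one, h]
    exact mul_left_cancel₀ (pow_ne_zero _ hu0) h1
  rcases le_total a b with hab | hab
  · exact key a b hab h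
  · exact (key b a hab h.symm).symm

end Norm

/-- **FL-S4K-B.** -/
theorem h42k_levEig : H89KLevEig := by
  intro p _ hp2 k _ _ _ τ hτ π hπ ψ hψ μ hμ ζ hζ hζ1 l j hj0 hjlt hpj hj2 hj2p hlev
  classical
  have hp : p.Prime := Fact.out
  have hN := h42f_N_pos p
  have hNp := h42f_N_coprime p
  have hπ0 : π ≠ 0 := h42f_pi_ne_zero hπ
  have hπpos : 0 < ‖π‖ := norm_pos_iff.mpr hπ0
  have hπj : 0 < ‖π‖ ^ j := pow_pos hπpos j
  have hDisc := fun (χ : Gq p → ZMod p) (j : ℕ) => h61k_kDisc p hp2 π ζ hπ hζ hζ1 χ j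
  have hAdd := h61k_kAdd p hp2 π ζ hπ hζ hζ1
  have hUniq := h7u_kUniq p hp2 π ζ hπ hζ hζ1
  have hTw := h34w_kTwist p hp2 π ζ hπ hζ hζ1
  have hj1 : 1 ≤ j := hj0
  obtain ⟨χ, hχ⟩ : ∃ χ : Gq p → ZMod p, χ = fun g => l (μ g) := ⟨_, rfl⟩
  have hχa : ∀ g, χ g = l (μ g) := fun g => by rw [hχ]
  -- the coefficient at level `j`
  obtain ⟨β, hβn, hβ⟩ := hlev
  have hL : h61k_Lev p π ζ χ j := ⟨β, by rw [hχ]; exact hβ, hβn⟩
  obtain ⟨a, ha1, hCa⟩ := (hDisc χ j).2 hL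
  -- a generator of the tame quotient
  obtain ⟨u, s, hu, hs, hsπ⟩ := h42f_exists_gen hπ
  have hu1 : u ^ (p ^ 2 - 1) = 1 := hu.pow_eq_one
  have hu0 : u ≠ 0 := hu.ne_zero hN.ne'
  have hΨ : s π / π = u := by rw [hsπ]; field_simp
  have hsinv : s⁻¹ ∈ inertia p := (inertia p).inv_mem hs
  have hΨinv : s⁻¹ π / π = u⁻¹ := by
    have h1 : s⁻¹ (s π) = π := by
      rw [← AlgEquiv.mul_apply, inv_mul_cancel, AlgEquiv.one_apply]
    rw [hsπ, map_mul, h89d0_fix_of_mem_inertia hsinv u _ hN hNp hu1] at h1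
    rw [div_eq_iff hπ0, eq_comm, inv_mul_eq_iff_eq_mul₀ hu0]
    exact h1.symm
  -- `θ`
  obtain ⟨θ, hθ⟩ : ∃ θ : kˣ, θ = ψ s⁻¹ := ⟨_, rfl⟩
  have hpp : p = (p - 1) + 1 := (Nat.sub_add_cancel hp.one_le).symm
  have hτθ : ((τ θ : (Om p)ˣ) : Om p) = u ^ (p - 1) := by
    have h1 := hψ s⁻¹ hsinv
    rw [hΨinv, ← hθ, inv_pow] at h1
    have h2 : u ^ p = u ^ (p - 1) * u := by rw [← pow_succ, ← hpp]
    have h3 : ((τ θ : (Om p)ˣ) : Om p) = u⁻¹ * u ^ p := by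
      rw [← h1, mul_assoc, inv_mul_cancel₀ (pow_ne_zero _ hu0), mul_one]
    rw [h3, h2, mul_comm, mul_assoc, mul_inv_cancel₀ hu0, mul_one]
  have hsq : (p - 1) * (p + 1) = p ^ 2 - 1 := by
    have h4 : (p - 1) * (p + 1) + 1 = p ^ 2 := by
      obtain ⟨n, hn⟩ : ∃ n, p = n + 1 := ⟨p - 1, hpp⟩
      rw [hn, Nat.add_sub_cancel]
      ring
    omega
  have hθpow : θ ^ (p + 1) = 1 := by
    apply h42f_teich_inj τ hτ
    rw [map_pow, Units.val_pow_eq_pow_val, hτθ, ← pow_mul, hsq, hu1]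
  obtain ⟨m, hm⟩ := h42k_quad hp2 θ hθpow
  have hrel := h42k_lift_rel τ hτ θ m hm
  have hτθinv : ((τ θ⁻¹ : (Om p)ˣ) : Om p) = (u ^ (p - 1))⁻¹ := by
    rw [map_inv, Units.val_inv_eq_inv_val, hτθ]
  rw [hτθ, hτθinv] at hrel
  -- the twisting constant
  obtain ⟨c, hc⟩ : ∃ c : Om p, c = u ^ j * (u⁻¹) ^ (p + 1) := ⟨_, rfl⟩
  have hcu : c * u ^ (p + 1) = u ^ j := by
    rw [hc, inv_pow, mul_assoc, inv_mul_cancel₀ (pow_ne_zero _ hu0), mul_one]
  have hcmu : h84u_IsMu p c := by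
    refine ⟨p ^ 2 - 1, hN, hNp, ?_⟩
    rw [hc, mul_pow, ← pow_mul, ← pow_mul, mul_comm j, mul_comm (p + 1), pow_mul, pow_mul,
      inv_pow, hu1, inv_one, one_pow, one_pow, mul_one]
  have hAmu : h84u_IsMu p (u ^ (p - 1)) := by
    refine ⟨p ^ 2 - 1, hN, hNp, ?_⟩
    rw [← pow_mul, mul_comm, pow_mul, hu1, one_pow]
  have hcn : ‖c‖ = 1 := h84u_isMu_norm hcmu
  have hcA : c ≠ u ^ (p - 1) := by
    intro h
    apply hj2p
    apply h42k_modEq_of_pow_eq hu hN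
    rw [← hcu, h, ← pow_add]
    congr 1
    omega
  have hcA' : c ≠ (u ^ (p - 1))⁻¹ := by
    intro h
    apply hj2
    apply Nat.ModEq.add_right_cancel' (p - 1)
    apply h42k_modEq_of_pow_eq hu hN
    have h1 : u ^ (j + (p - 1)) = u ^ (p + 1) := by
      rw [pow_add, ← hcu, h]
      field_simp
    rw [h1]
    congr 1
    omega
  have hunit := h42k_quad_unit m hAmu hcmu hrel hcA hcA'
  -- the twisted characters
  obtain ⟨χ₁, hχ₁⟩ : ∃ χ₁ : Gq p → ZMod p, χ₁ = fun g => χ (s⁻¹ * g * s) := ⟨_, rfl⟩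
  obtain ⟨χ₂, hχ₂⟩ : ∃ χ₂ : Gq p → ZMod p, χ₂ = fun g => χ₁ (s⁻¹ * g * s) := ⟨_, rfl⟩
  have hconj : ∀ g ∈ h89s_IK p π, s⁻¹ * g * s ∈ h89s_IK p π := by
    intro g hg
    have := h89s_IK_normal hN hNp hπ s⁻¹ hg
    rwa [inv_inv] at this
  have hμs : ∀ g ∈ h89s_IK p π, μ (s⁻¹ * g * s) = (θ : k) * μ g := by
    intro g hg
    have := hμ s⁻¹ hsinv g hg
    rwa [inv_inv, ← hθ] at this
  have hχ₁v : ∀ g ∈ h89s_IK p π, χ₁ g = l ((θ : k) * μ g) := by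
    intro g hg
    rw [hχ₁]
    show χ (s⁻¹ * g * s) = _
    rw [hχa, hμs g hg]
  have hχ₂v : ∀ g ∈ h89s_IK p π, χ₂ g = l ((θ : k) * ((θ : k) * μ g)) := by
    intro g hg
    rw [hχ₂]
    show χ₁ (s⁻¹ * g * s) = _
    rw [hχ₁v _ (hconj g hg), hμs g hg]
  have hca1 : ‖c * a‖ ≤ 1 := by
    rw [norm_mul, hcn, one_mul]
    exact ha1
  have hcca1 : ‖c * (c * a)‖ ≤ 1 := by
    rw [norm_mul, hcn, one_mul]
    exact hca1
  have hC₁ : h61k_Coef p π ζ χ₁ j (c * a) := by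
    rw [hχ₁]
    refine hTw s hs χ j a (c * a) hj1 ha1 hCa ?_
    rw [hΨ, mul_right_comm, hcu]
  have hC₂ : h61k_Coef p π ζ χ₂ j (c * (c * a)) := by
    rw [hχ₂]
    refine hTw s hs χ₁ j (c * a) (c * (c * a)) hj1 hca1 hC₁ ?_
    rw [hΨ, mul_right_comm, hcu]
  -- multiples
  have hnat : ∀ n : ℕ, ‖(n : Om p)‖ ≤ 1 := fun n => IsUltrametricDist.norm_natCast_le_one _ n
  have hmul : ∀ n : ℕ, h61k_Coef p π ζ (fun g => (n : ZMod p) * χ₁ g) j ((n : Om p) * (c * a)) := by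
    intro n
    induction n with
    | zero =>
      refine ⟨1, fun g _ => ?_, ?_⟩
      · simp
      · simp only [Nat.cast_zero, zero_mul, one_pow, sub_self, norm_zero]
        exact hπj
    | succ n ih =>
      have h1 := hAdd (fun g => (n : ZMod p) * χ₁ g) χ₁ j ((n : Om p) * (c * a)) (c * a) hj1
        (by rw [norm_mul]; exact mul_le_one₀ (hnat n) (norm_nonneg _) hca1) hca1 ih hC₁
      have e1 : (fun g => ((n + 1 : ℕ) : ZMod p) * χ₁ g) =
          fun g => (n : ZMod p) * χ₁ g + χ₁ g := by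
        funext g
        push_cast
        ring
      have e2 : ((n + 1 : ℕ) : Om p) * (c * a) = (n : Om p) * (c * a) + c * a := by
        push_cast
        ring
      rw [e1, e2]
      exact h1
  -- the total character
  have h12 := hAdd χ₂ (fun g => (m : ZMod p) * χ₁ g) j (c * (c * a)) ((m : Om p) * (c * a)) hj1
    hcca1 (by rw [norm_mul]; exact mul_le_one₀ (hnat m) (norm_nonneg _) hca1) hC₂ (hmul m)
  have h12n : ‖c * (c * a) + (m : Om p) * (c * a)‖ ≤ 1 :=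
    (IsUltrametricDist.norm_add_le_max _ _).trans (max_le hcca1
      (by rw [norm_mul]; exact mul_le_one₀ (hnat m) (norm_nonneg _) hca1))
  have htot := hAdd (fun g => χ₂ g + (m : ZMod p) * χ₁ g) χ j
    (c * (c * a) + (m : Om p) * (c * a)) a hj1 h12n ha1 h12 hCa
  have htotn : ‖c * (c * a) + (m : Om p) * (c * a) + a‖ ≤ 1 :=
    (IsUltrametricDist.norm_add_le_max _ _).trans (max_le h12n ha1)
  -- it vanishes on `I_K`
  have hzero : ∀ g ∈ h89s_IK p π, χ₂ g + (m : ZMod p) * χ₁ g + χ g = 0 := by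
    intro g hg
    rw [hχ₂v g hg, hχ₁v g hg, hχa]
    have h1 : (m : ZMod p) * l ((θ : k) * μ g) = l ((m : k) * ((θ : k) * μ g)) := by
      have := map_nsmul l m ((θ : k) * μ g)
      rw [nsmul_eq_mul, nsmul_eq_mul] at this
      exact this.symm
    rw [h1, ← map_add, ← map_add]
    have h2 : (θ : k) * ((θ : k) * μ g) + (m : k) * ((θ : k) * μ g) + μ g =
        ((θ : k) ^ 2 + (m : k) * θ + 1) * μ g := by ring
    rw [h2, hm, zero_mul, map_zero]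
  have hC0 : h61k_Coef p π ζ (fun g => χ₂ g + (m : ZMod p) * χ₁ g + χ g) j 0 := by
    refine ⟨1, fun g hg => ?_, ?_⟩
    · show g 1 = ζ ^ (χ₂ g + (m : ZMod p) * χ₁ g + χ g).val * 1
      rw [hzero g hg, ZMod.val_zero, pow_zero, one_mul, map_one]
    · simp only [zero_mul, one_pow, sub_self, norm_zero]
      exact hπj
  have hlt := hUniq (fun g => χ₂ g + (m : ZMod p) * χ₁ g + χ g) j
    (c * (c * a) + (m : Om p) * (c * a) + a) 0 hpj hjlt htotn (by rw [norm_zero]; exact zero_le_one)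
    htot hC0
  -- `‖a‖ < 1`
  have ha : ‖a‖ < 1 := by
    have e : c * (c * a) + (m : Om p) * (c * a) + a - 0 = (c ^ 2 + (m : Om p) * c + 1) * a := by
      ring
    rw [e, norm_mul, hunit, one_mul] at hlt
    exact hlt
  -- coefficient zero
  have hCa0 : h61k_Coef p π ζ χ j 0 := by
    obtain ⟨β', hgen, hn⟩ := hCa
    refine ⟨β', hgen, ?_⟩
    have e : β' ^ p - 1 - 0 * π ^ j = (β' ^ p - 1 - a * π ^ j) + a * π ^ j := by ring
    rw [e]
    refine lt_of_le_of_lt (IsUltrametricDist.norm_add_le_max _ _) (max_lt hn ?_)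
    rw [norm_mul, norm_pow]
    calc ‖a‖ * ‖π‖ ^ j < 1 * ‖π‖ ^ j := mul_lt_mul_of_pos_right ha hπj
      _ = ‖π‖ ^ j := one_mul _
  obtain ⟨β'', hgen'', hn''⟩ := (hDisc χ j).1 hCa0
  refine ⟨β'', hn'', ?_⟩
  rw [hχ] at hgen''
  exact hgen''

end Fermat.Agent.S56F
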