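import Fermat.Agent.S56F.FLS4KIface_helper89
import Fermat.Agent.S56F.FLS4KP_helper10
import Fermat.Agent.S56F.FLO8b_helper84
import Fermat.Agent.S56F.FLD7_helper45

/-!
# S56 / LOC-p-FL, row FL-S4K-D (helper7, second seat): `H89KInv`

The leading coefficient at level `N = p² + 1`: `κ` the residue field of `Om p`
(`h84u_kappa`, helper84), `a x = residue ((x - 1) / π ^ N)`.

* additive: `x x' - 1 = (x - 1) + (x' - 1) + (x - 1)(x' - 1)`;
* kernel: the integers of `K = ℚ_p^ur(π)` are discrete (`h45g_tameDiscrete`);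
* `p`-th powers: `p ∤ N`, `N < p² + p`, `H89KPowLev` (`h10v_kPowLev`);
* Frobenius `s₀` (`s₀ π = π`, `s₀ w = w ^ (p²)` on the roots of unity of order prime to `p`):
  `residue (s₀ y) = residue y ^ (p²)` (Teichmüller representative);
* inertia: `σ y ≡ y`, `σ π = Ψ π`, `u' = residue (Ψ ^ N)`.
-/

set_option autoImplicit false
set_option linter.style.haveILetI false
set_option linter.unusedSectionVars false

open Fermat.Agent.PT.Loc

noncomputable section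

namespace Fermat.Agent.S56F

section Basic

variable {p : ℕ} [Fact p.Prime]

/-- an automorphism which is the `q`-th power on the roots of unity of order prime to `p` is the
`q`-th power on the residue field. -/
theorem h7d_frob_res (φ : Gq p) (q : ℕ) (hq : q ≠ 0)
    (hφ : ∀ (w : Om p) (m : ℕ), 0 < m → ¬ p ∣ m → w ^ m = 1 → φ w = w ^ q)
    {y : Om p} (hy : ‖y‖ ≤ 1) : h84u_res (φ y) = h84u_res y ^ q := by
  have hφy : ‖φ y‖ ≤ 1 := by rw [h84o_norm_map]; exact hy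
  rcases lt_or_eq_of_le hy with h | h
  · have h1 : ‖φ y‖ < 1 := by rw [h84o_norm_map]; exact h
    rw [(h84u_res_eq_zero_iff hy).2 h, (h84u_res_eq_zero_iff hφy).2 h1, zero_pow hq]
  · obtain ⟨w, hw, hyw⟩ := h84u_teich h
    obtain ⟨m, hm0, hm, hwm⟩ := hw
    have hw1 : ‖w‖ ≤ 1 := (h36u_norm_eq_one_of_pow hm0 hwm).le
    have h1 : h84u_res y = h84u_res w := h84u_res_eq_of_norm_sub_lt hw1 hyw
    have hφw : ‖φ w‖ ≤ 1 := by rw [h84o_norm_map]; exact hw1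
    have h2 : h84u_res (φ y) = h84u_res (φ w) := by
      apply h84u_res_eq_of_norm_sub_lt hφw
      rw [← map_sub, h84o_norm_map]
      exact hyw
    rw [h2, h1, hφ w m hm0 hm hwm, h84u_res_pow hw1]

/-- inertia acts trivially on the residue field. -/
theorem h7d_inertia_res {σ : Gq p} (hσ : σ ∈ inertia p) {y : Om p} (hy : ‖y‖ ≤ 1) :
    h84u_res (σ y) = h84u_res y :=
  h84u_res_eq_of_norm_sub_lt hy (hσ y hy)

/-- the leading coefficient at level `N`. -/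
def h7d_a (π : Om p) (N : ℕ) (x : Om p) : h84u_kappa p := h84u_res ((x - 1) / π ^ N)

theorem h7d_quot_le {π : Om p} (_hπ0 : π ≠ 0) {N : ℕ} {x : Om p} (hx : ‖x - 1‖ ≤ ‖π‖ ^ N) :
    ‖(x - 1) / π ^ N‖ ≤ 1 := by
  rw [norm_div, norm_pow]
  exact div_le_one_of_le₀ hx (pow_nonneg (norm_nonneg _) _)

theorem h7d_quot_mul {π : Om p} (hπ0 : π ≠ 0) (N : ℕ) (x : Om p) :
    π ^ N * ((x - 1) / π ^ N) = x - 1 :=
  mul_div_cancel₀ _ (pow_ne_zero _ hπ0)

/-- discreteness: an element of `K` of norm `< ‖π‖ ^ N` has norm `≤ ‖π‖ ^ (N + 1)`. -/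
theorem h7d_disc {π : Om p} (hπ : π ^ (p ^ 2 - 1) = p) {N : ℕ} {x : Om p}
    (hfix : h89s_KFix p π x) (hx : ‖x‖ < ‖π‖ ^ N) : ‖x‖ ≤ ‖π‖ ^ (N + 1) := by
  have hp : p.Prime := Fact.out
  have hπ1 : ‖π‖ < 1 := h10v_norm_pi_lt_one hπ
  have hπpos : 0 < ‖π‖ := h10v_norm_pi_pos hπ
  by_cases hx0 : x = 0
  · rw [hx0, norm_zero]
    exact pow_nonneg hπpos.le _
  have hn0 : 0 < p ^ 2 - 1 := by
    have := hp.two_le
    have : 4 ≤ p ^ 2 := by nlinarith
    omega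
  have hpn : ¬ p ∣ p ^ 2 - 1 := by
    intro h
    have h1 : p ∣ p ^ 2 := dvd_pow_self p (by norm_num)
    have h3 : p ∣ p ^ 2 - (p ^ 2 - 1) := Nat.dvd_sub h1 h
    have h4 : p ^ 2 - (p ^ 2 - 1) = 1 := by omega
    rw [h4] at h3
    exact hp.one_lt.ne' (Nat.dvd_one.mp h3)
  have hD := h45g_tameDiscrete p (p ^ 2 - 1) hn0 hpn π hπ (h89s_IK p π) (fun σ => Iff.rfl)
  have hx1 : ‖x‖ ≤ 1 := hx.le.trans (pow_le_one₀ hπpos.le hπ1.le)
  obtain ⟨n, u, -, hu, hxu⟩ := hD.2.2.2 x ⟨hx1, hfix⟩ hx0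
  have hxn : ‖x‖ = ‖π‖ ^ n := by rw [hxu, norm_mul, norm_pow, hu, mul_one]
  rw [hxn] at hx ⊢
  have hlt : N < n := by
    by_contra hle
    rw [not_lt] at hle
    exact absurd hx (not_lt.mpr (pow_le_pow_of_le_one hπpos.le hπ1.le hle))
  exact pow_le_pow_of_le_one hπpos.le hπ1.le hlt

end Basic

/-- **FL-S4K-D**, from the levels of `p`-th powers. -/
theorem h7d_kInv_of (hP : H89KPowLev) : H89KInv := by
  intro p _ hp2 π hπ
  have hp : p.Prime := Fact.out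
  have hπ1 : ‖π‖ < 1 := h10v_norm_pi_lt_one hπ
  have hπpos : 0 < ‖π‖ := h10v_norm_pi_pos hπ
  have hπ0 : π ≠ 0 := norm_pos_iff.mp hπpos
  have hN0 : 0 < p ^ 2 + 1 := Nat.succ_pos _
  have hπN : ‖π ^ (p ^ 2 + 1)‖ < 1 := by
    rw [norm_pow]
    exact pow_lt_one₀ hπpos.le hπ1 hN0.ne'
  refine ⟨h84u_kappa p, inferInstance, h84u_charP p, h7d_a π (p ^ 2 + 1), ?_, ?_, ?_, ?_, ?_⟩
  · -- additive
    intro x x' _ _ hx hx'
    have hy := h7d_quot_le hπ0 hx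
    have hy' := h7d_quot_le hπ0 hx'
    have e : (x * x' - 1) / π ^ (p ^ 2 + 1) =
        ((x - 1) / π ^ (p ^ 2 + 1) + (x' - 1) / π ^ (p ^ 2 + 1)) +
          π ^ (p ^ 2 + 1) * ((x - 1) / π ^ (p ^ 2 + 1) * ((x' - 1) / π ^ (p ^ 2 + 1))) := by
      field_simp
      ring
    have h3 : ‖π ^ (p ^ 2 + 1) * ((x - 1) / π ^ (p ^ 2 + 1) * ((x' - 1) / π ^ (p ^ 2 + 1)))‖
        < 1 := by
      rw [norm_mul]
      calc ‖π ^ (p ^ 2 + 1)‖ * ‖(x - 1) / π ^ (p ^ 2 + 1) * ((x' - 1) / π ^ (p ^ 2 + 1))‖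
          ≤ ‖π ^ (p ^ 2 + 1)‖ * 1 :=
            mul_le_mul_of_nonneg_left (h84u_norm_mul_le hy hy') (norm_nonneg _)
        _ < 1 := by rw [mul_one]; exact hπN
    show h84u_res _ = h84u_res _ + h84u_res _
    rw [e, h84u_res_add (h84u_norm_add_le hy hy') h3.le, (h84u_res_eq_zero_iff h3.le).2 h3,
      add_zero, h84u_res_add hy hy']
  · -- kernel
    intro x hfix hx hax
    have hy := h7d_quot_le hπ0 hx
    have h1 : ‖(x - 1) / π ^ (p ^ 2 + 1)‖ < 1 := (h84u_res_eq_zero_iff hy).1 hax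
    have h2 : ‖x - 1‖ < ‖π‖ ^ (p ^ 2 + 1) := by
      rw [norm_div, norm_pow, div_lt_one (pow_pos hπpos _)] at h1
      exact h1
    have hfix1 : h89s_KFix p π (x - 1) := by
      intro g hg
      rw [map_sub, map_one, hfix g hg]
    exact h7d_disc hπ hfix1 h2
  · -- `p`-th powers
    intro y hfix hy
    have hpN : ¬ p ∣ p ^ 2 + 1 := by
      intro h
      have h1 : p ∣ p ^ 2 := dvd_pow_self p (by norm_num)
      have h3 : p ∣ p ^ 2 + 1 - p ^ 2 := Nat.dvd_sub h h1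
      rw [Nat.add_sub_cancel_left] at h3
      exact hp.one_lt.ne' (Nat.dvd_one.mp h3)
    have hNlt : p ^ 2 + 1 < p ^ 2 + p := by
      have := hp.one_lt
      omega
    have h1 := hP p π hπ y (p ^ 2 + 1) hfix hN0 hNlt hpN hy
    have h2 : ‖(y ^ p - 1) / π ^ (p ^ 2 + 1)‖ < 1 := by
      rw [norm_div, norm_pow, div_lt_one (pow_pos hπpos _)]
      refine lt_of_le_of_lt h1 ?_
      rw [pow_succ]
      exact mul_lt_of_lt_one_right (pow_pos hπpos _) hπ1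
    exact (h84u_res_eq_zero_iff h2.le).2 h2
  · -- Frobenius
    intro s₀ hs₀π hs₀ x _ hx
    have hy := h7d_quot_le hπ0 hx
    have e : (s₀ x - 1) / π ^ (p ^ 2 + 1) = s₀ ((x - 1) / π ^ (p ^ 2 + 1)) := by
      rw [map_div₀, map_sub, map_one, map_pow, hs₀π]
    show h84u_res _ = h84u_res _ ^ (p ^ 2)
    rw [e]
    exact h7d_frob_res s₀ (p ^ 2) (pow_ne_zero _ hp.ne_zero) hs₀ hy
  · -- inertia
    intro σ hσ
    refine ⟨h84u_res ((σ π / π) ^ (p ^ 2 + 1)), fun x _ hx => ?_⟩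
    have hy := h7d_quot_le hπ0 hx
    have hΨ : ‖σ π / π‖ ≤ 1 := by
      rw [norm_div, h84o_norm_map, div_self hπpos.ne']
    have e : (σ x - 1) / π ^ (p ^ 2 + 1) =
        (σ π / π) ^ (p ^ 2 + 1) * σ ((x - 1) / π ^ (p ^ 2 + 1)) := by
      rw [map_div₀, map_sub, map_one, map_pow, div_pow]
      have hσπ0 : σ π ≠ 0 := by
        intro h
        apply hπ0
        have := h84o_norm_map σ π
        rw [h, norm_zero] at this
        exact norm_eq_zero.mp this.symm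
      field_simp
    have hσy : ‖σ ((x - 1) / π ^ (p ^ 2 + 1))‖ ≤ 1 := by rw [h84o_norm_map]; exact hy
    show h84u_res _ = _ * h84u_res _
    rw [e, h84u_res_mul (h84u_norm_pow_le hΨ _) hσy, h7d_inertia_res hσ hy]

/-- **FL-S4K-D.** -/
theorem h7d_kInv : H89KInv := h7d_kInv_of h10v_kPowLev

end Fermat.Agent.S56F
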