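import Fermat.Agent.S56F.FLS4KIface_helper89
import Fermat.Agent.S56F.FLS4KAsm_helper89
import Fermat.Agent.S56F.FLS4KP_helper10
import Fermat.Agent.S56F.FLS4KD_helper7
import Fermat.Agent.S56F.FLS1h_helper7
import Fermat.Agent.S56F.FLC5Final_helper89
import Fermat.Agent.S56F.FLD4_helper7

/-!
# S56 / LOC-p-FL, row FL-S4K-B (helper7, independent seat): `H89KLevEig`, eigen-exclusion

`σ ∈ inertia` with `σ π = u π`, `u` primitive of order `n = p² - 1`; `σ ζ = ζ ^ ω`;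
`θ = ω ψ(σ⁻¹) ∈ k`.  `σ β`, `σ² β` are Kummer generators of `l ∘ θ μ`, `l ∘ θ² μ`;
`θ ^ (p²) = θ`, so `θ + θ ^ p = -a`, `θ ^ (p + 1) = b` with `a, b ∈ ℕ` and
`θ² + a θ + b = 0`: `γ = σ² β (σ β) ^ a β ^ b ∈ K`.  Leading coefficients at level `j`
(`c x = residue ((x - 1) / π ^ j)`, additive, `c (σ x) = ū ^ j c x`):
`c (γ ^ p) = (ū ^ (2 j) + a ū ^ j + b) c (β ^ p) = (ū ^ j - ū²)(ū ^ j - ū ^ (2 p)) c (β ^ p)`
and `c (γ ^ p) = 0` (`H89KPowLev`); the two factors are non-zero, so `c (β ^ p) = 0` and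
`‖β ^ p - 1‖ ≤ ‖π‖ ^ (j + 1)` (discreteness).
-/

set_option autoImplicit false
set_option linter.style.haveILetI false
set_option linter.unusedSectionVars false
set_option linter.unusedVariables false

open Fermat.Agent.PT.Loc

noncomputable section

namespace Fermat.Agent.S56F

section Coef

variable {p : ℕ} [Fact p.Prime]

theorem h7e_a_one (π : Om p) (N : ℕ) : h7d_a π N 1 = 0 := by
  show h84u_res _ = 0
  rw [sub_self, zero_div]
  exact (h84u_res_eq_zero_iff (by rw [norm_zero]; exact zero_le_one)).2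
    (by rw [norm_zero]; exact zero_lt_one)

theorem h7e_a_mul {π : Om p} (hπ0 : π ≠ 0) (hπ1 : ‖π‖ < 1) {N : ℕ} (hN : 0 < N)
    {x x' : Om p} (hx : ‖x - 1‖ ≤ ‖π‖ ^ N) (hx' : ‖x' - 1‖ ≤ ‖π‖ ^ N) :
    h7d_a π N (x * x') = h7d_a π N x + h7d_a π N x' := by
  have hπN : ‖π ^ N‖ < 1 := by
    rw [norm_pow]
    exact pow_lt_one₀ (norm_nonneg _) hπ1 hN.ne'
  have hy := h7d_quot_le hπ0 hx
  have hy' := h7d_quot_le hπ0 hx'
  have e : (x * x' - 1) / π ^ N =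
      ((x - 1) / π ^ N + (x' - 1) / π ^ N) +
        π ^ N * ((x - 1) / π ^ N * ((x' - 1) / π ^ N)) := by
    have := pow_ne_zero N hπ0
    field_simp
    ring
  have h3 : ‖π ^ N * ((x - 1) / π ^ N * ((x' - 1) / π ^ N))‖ < 1 := by
    rw [norm_mul]
    calc ‖π ^ N‖ * ‖(x - 1) / π ^ N * ((x' - 1) / π ^ N)‖
        ≤ ‖π ^ N‖ * 1 :=
          mul_le_mul_of_nonneg_left (h84u_norm_mul_le hy hy') (norm_nonneg _)
      _ < 1 := by rw [mul_one]; exact hπN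
  show h84u_res _ = h84u_res _ + h84u_res _
  rw [e, h84u_res_add (h84u_norm_add_le hy hy') h3.le, (h84u_res_eq_zero_iff h3.le).2 h3,
    add_zero, h84u_res_add hy hy']

theorem h7e_lev_pow {π : Om p} (hπ1 : ‖π‖ < 1) {N : ℕ} {x : Om p}
    (hx : ‖x - 1‖ ≤ ‖π‖ ^ N) (m : ℕ) : ‖x ^ m - 1‖ ≤ ‖π‖ ^ N := by
  have hr : ‖π‖ ^ N ≤ 1 := pow_le_one₀ (norm_nonneg _) hπ1.le
  induction m with
  | zero =>
    rw [pow_zero, sub_self, norm_zero]
    exact pow_nonneg (norm_nonneg _) _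
  | succ m ih =>
    rw [pow_succ]
    exact h89k_mul_lev hr ih hx

theorem h7e_a_pow {π : Om p} (hπ0 : π ≠ 0) (hπ1 : ‖π‖ < 1) {N : ℕ} (hN : 0 < N)
    {x : Om p} (hx : ‖x - 1‖ ≤ ‖π‖ ^ N) (m : ℕ) :
    h7d_a π N (x ^ m) = (m : h84u_kappa p) * h7d_a π N x := by
  induction m with
  | zero => rw [pow_zero, h7e_a_one, Nat.cast_zero, zero_mul]
  | succ m ih =>
    rw [pow_succ, h7e_a_mul hπ0 hπ1 hN (h7e_lev_pow hπ1 hx m) hx, ih, Nat.cast_succ]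
    ring

theorem h7e_lev_map (σ : Gq p) (x : Om p) : ‖σ x - 1‖ = ‖x - 1‖ := by
  have e : σ x - 1 = σ (x - 1) := by rw [map_sub, map_one]
  rw [e, h84o_norm_map]

theorem h7e_a_inertia {π : Om p} (hπ0 : π ≠ 0) {N : ℕ} {σ : Gq p} (hσ : σ ∈ inertia p)
    {x : Om p} (hx : ‖x - 1‖ ≤ ‖π‖ ^ N) :
    h7d_a π N (σ x) = h84u_res ((σ π / π) ^ N) * h7d_a π N x := by
  have hπpos : 0 < ‖π‖ := norm_pos_iff.mpr hπ0
  have hy := h7d_quot_le hπ0 hx
  have hΨ : ‖σ π / π‖ ≤ 1 := by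
    rw [norm_div, h84o_norm_map, div_self hπpos.ne']
  have e : (σ x - 1) / π ^ N = (σ π / π) ^ N * σ ((x - 1) / π ^ N) := by
    rw [map_div₀, map_sub, map_one, map_pow, div_pow]
    have hσπ0 : σ π ≠ 0 := by
      intro h
      apply hπ0
      have := h84o_norm_map σ π
      rw [h, norm_zero] at this
      exact norm_eq_zero.mp this.symm
    field_simp
  have hσy : ‖σ ((x - 1) / π ^ N)‖ ≤ 1 := by rw [h84o_norm_map]; exact hy
  show h84u_res _ = _ * h84u_res _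
  rw [e, h84u_res_mul (h84u_norm_pow_le hΨ _) hσy, h7d_inertia_res hσ hy]

theorem h7e_a_eq_zero_of_le {π : Om p} (hπ0 : π ≠ 0) (hπ1 : ‖π‖ < 1) {N : ℕ} {x : Om p}
    (hx : ‖x - 1‖ ≤ ‖π‖ ^ (N + 1)) : h7d_a π N x = 0 := by
  have hπpos : 0 < ‖π‖ := norm_pos_iff.mpr hπ0
  have h2 : ‖(x - 1) / π ^ N‖ < 1 := by
    rw [norm_div, norm_pow, div_lt_one (pow_pos hπpos _)]
    refine lt_of_le_of_lt hx ?_
    rw [pow_succ]
    exact mul_lt_of_lt_one_right (pow_pos hπpos _) hπ1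
  exact (h84u_res_eq_zero_iff h2.le).2 h2

theorem h7e_lt_of_a_eq_zero {π : Om p} (hπ0 : π ≠ 0) {N : ℕ} {x : Om p}
    (hx : ‖x - 1‖ ≤ ‖π‖ ^ N) (h : h7d_a π N x = 0) : ‖x - 1‖ < ‖π‖ ^ N := by
  have hπpos : 0 < ‖π‖ := norm_pos_iff.mpr hπ0
  have h1 : ‖(x - 1) / π ^ N‖ < 1 := (h84u_res_eq_zero_iff (h7d_quot_le hπ0 hx)).1 h
  rw [norm_div, norm_pow, div_lt_one (pow_pos hπpos _)] at h1
  exact h1

/-- natural numbers are integers of `Om p`. -/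
theorem h7e_norm_natCast_le (n : ℕ) : ‖((n : ℕ) : Om p)‖ ≤ 1 := by
  induction n with
  | zero => rw [Nat.cast_zero, norm_zero]; exact zero_le_one
  | succ n ih =>
    rw [Nat.cast_succ]
    exact h84u_norm_add_le ih (by rw [norm_one])

theorem h7e_res_one : h84u_res (1 : Om p) = 1 := by
  have h1 : ‖(1 : Om p)‖ ≤ 1 := by rw [norm_one]
  have h2 := h84u_res_mul h1 h1
  rw [mul_one] at h2
  have h3 : h84u_res (1 : Om p) ≠ 0 := by
    intro h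
    have := (h84u_res_eq_zero_iff h1).1 h
    rw [norm_one] at this
    exact lt_irrefl _ this
  have h4 : h84u_res (1 : Om p) * 1 = h84u_res (1 : Om p) * h84u_res (1 : Om p) := by
    rw [mul_one]
    exact h2
  exact (mul_left_cancel₀ h3 h4).symm

theorem h7e_res_natCast (n : ℕ) : h84u_res ((n : ℕ) : Om p) = (n : h84u_kappa p) := by
  induction n with
  | zero =>
    rw [Nat.cast_zero, Nat.cast_zero]
    exact (h84u_res_eq_zero_iff (by rw [norm_zero]; exact zero_le_one)).2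
      (by rw [norm_zero]; exact zero_lt_one)
  | succ n ih =>
    rw [Nat.cast_succ, Nat.cast_succ, h84u_res_add (h7e_norm_natCast_le n) (by rw [norm_one]),
      ih, h7e_res_one]

end Coef

section Iota

variable {p : ℕ} [Fact p.Prime] {k : Type} [Field k] [Fintype k] [DecidableEq k]

/-- the embedding of `k` into the residue field of `Om p` attached to `τ`. -/
def h7e_iota (τ : kˣ →* (Om p)ˣ) (x : k) : h84u_kappa p := h84u_res (h7g_lift τ x)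

variable (τ : kˣ →* (Om p)ˣ)

theorem h7e_iota_zero : h7e_iota τ (0 : k) = 0 := by
  show h84u_res _ = 0
  rw [h7g_lift_zero]
  exact (h84u_res_eq_zero_iff (by rw [norm_zero]; exact zero_le_one)).2
    (by rw [norm_zero]; exact zero_lt_one)

theorem h7e_iota_unit (a : kˣ) : h7e_iota τ (a : k) = h84u_res ((τ a : (Om p)ˣ) : Om p) := by
  show h84u_res _ = _
  rw [h7g_lift_unit]

theorem h7e_iota_mul (x y : k) : h7e_iota τ (x * y) = h7e_iota τ x * h7e_iota τ y := by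
  show h84u_res _ = h84u_res _ * h84u_res _
  rw [h7g_lift_mul, h84u_res_mul (h7g_lift_norm_le τ x) (h7g_lift_norm_le τ y)]

theorem h7e_iota_pow (x : k) (m : ℕ) : h7e_iota τ (x ^ m) = h7e_iota τ x ^ m := by
  show h84u_res _ = h84u_res _ ^ m
  rw [h7g_lift_pow, h84u_res_pow (h7g_lift_norm_le τ x)]

theorem h7e_iota_add (hτ : IsTeich p τ) (x y : k) :
    h7e_iota τ (x + y) = h7e_iota τ x + h7e_iota τ y := by
  show h84u_res _ = h84u_res _ + h84u_res _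
  rw [← h84u_res_add (h7g_lift_norm_le τ x) (h7g_lift_norm_le τ y)]
  exact h84u_res_eq_of_norm_sub_lt
    (h84u_norm_add_le (h7g_lift_norm_le τ x) (h7g_lift_norm_le τ y))
    (h7g_lift_add τ hτ.1 hτ.2 x y)

theorem h7e_iota_natCast (hτ : IsTeich p τ) (n : ℕ) :
    h7e_iota τ ((n : ℕ) : k) = (n : h84u_kappa p) := by
  rw [← h7e_res_natCast]
  exact h84u_res_eq_of_norm_sub_lt (h7e_norm_natCast_le n) (h7g_lift_natCast τ hτ.1 hτ.2 n)

end Iota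

section Main

variable {p : ℕ} [Fact p.Prime]

/-- an element fixed by the Frobenius is in the prime field. -/
theorem h7e_exists_nat {k : Type} [Field k] [CharP k p] {x : k} (hx : x ^ p = x) :
    ∃ n : ℕ, (n : k) = x := by
  have h1 : x ∈ (⊥ : Subfield k) := (Subfield.mem_bot_iff_pow_eq_self k p).mpr hx
  obtain ⟨n, hn⟩ := (mem_bot_iff_intCast p k).mp h1
  haveI : NeZero p := ⟨(Fact.out : p.Prime).ne_zero⟩
  refine ⟨((n : ZMod p)).val, ?_⟩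
  rw [← hn]
  have h2 : (((n : ZMod p).val : ℕ) : ZMod p) = (n : ZMod p) := ZMod.natCast_zmod_val _
  have h3 : ((((n : ZMod p).val : ℕ) : ℤ) : ZMod p) = (n : ZMod p) := by
    rw [Int.cast_natCast]
    exact h2
  have h4 := (ZMod.intCast_eq_intCast_iff_dvd_sub _ _ p).mp h3
  have h5 : ((n - (((n : ZMod p).val : ℕ) : ℤ) : ℤ) : k) = 0 :=
    (CharP.intCast_eq_zero_iff k p _).mpr h4
  rw [Int.cast_sub, Int.cast_natCast, sub_eq_zero] at h5
  exact h5.symm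

/-- natural numbers are fixed by the Frobenius. -/
theorem h7e_natCast_pow {k : Type} [Field k] [CharP k p] (n : ℕ) : ((n : ℕ) : k) ^ p = n := by
  have h := map_natCast (frobenius k p) n
  rwa [frobenius_def] at h

/-- powers of Kummer generators. -/
theorem h7e_kg_pow {π ζ : Om p} (hζ : ζ ^ p = 1) {e : Gq p → ZMod p} {β : Om p}
    (h : h89s_KG p π ζ e β) (m : ℕ) :
    h89s_KG p π ζ (fun g => (m : ZMod p) * e g) (β ^ m) := by
  induction m with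
  | zero =>
    rw [pow_zero]
    exact h89k_kg_one π ζ (fun g _ => by simp)
  | succ m ih =>
    rw [pow_succ]
    exact h89k_kg_mul hζ ih h (fun g _ => by push_cast; ring)

/-- **FL-S4K-B**, conditional form. -/
theorem h7e_kLevEig_of (hP : H89KPowLev) (hFS : FundSurjective) (hCF : CycFund) :
    H89KLevEig := by
  intro p _ hp2 k _ _ _ τ hτ π hπ ψ hψ μ hμ ζ hζ hζ1 l j hj0 hj hpj hj2 hj2p hlev
  classical
  letI : Fintype k := Fintype.ofFinite k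
  obtain ⟨β, hβ, hkg⟩ := hlev
  have hp : p.Prime := Fact.out
  have hp1 : 1 < p := hp.one_lt
  have hn : 0 < p ^ 2 - 1 := h89x_sq_sub_one_pos
  have hpn : ¬ p ∣ p ^ 2 - 1 := h89x_not_dvd_sq_sub_one
  have hπ0 : π ≠ 0 := h89x_pi_ne_zero hπ
  have hπ1 : ‖π‖ < 1 := h89x_norm_pi_lt_one hπ
  have hπpos : 0 < ‖π‖ := h89x_norm_pi_pos hπ
  have hdvd : (p - 1) ∣ p ^ 2 - 1 := by
    have := Nat.sub_dvd_pow_sub_pow p 1 2
    simpa using this
  have hquot : (p ^ 2 - 1) / (p - 1) = p + 1 := by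
    have h1 : (p - 1) * (p + 1) = p ^ 2 - 1 := by
      obtain ⟨q, rfl⟩ : ∃ q, p = q + 1 := ⟨p - 1, by omega⟩
      simp only [Nat.add_sub_cancel]
      have : (q + 1) ^ 2 = q * (q + 1 + 1) + 1 := by ring
      omega
    rw [← h1, Nat.mul_div_cancel_left _ (by omega)]
  have hpsq : p ^ 2 = (p ^ 2 - 1) + 1 := by omega
  -- a generator of tame inertia
  obtain ⟨u, hu⟩ := h89o_exists_primitiveRoot (p := p) (p ^ 2 - 1) hn
  obtain ⟨σ, hσ, hσπ⟩ := hFS p _ hn hpn π hπ u hu.pow_eq_one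
  have hu0 : u ≠ 0 := hu.ne_zero hn.ne'
  have hun : ‖u‖ = 1 := h36u_norm_eq_one_of_pow hn hu.pow_eq_one
  have hψu : σ π / π = u := by rw [hσπ, mul_div_assoc, div_self hπ0, mul_one]
  have hσu : σ u = u := h89d0_fix_of_mem_inertia hσ u _ hn hpn hu.pow_eq_one
  have hupsq : u ^ (p ^ 2) = u := by
    conv_lhs => rw [hpsq]
    rw [pow_succ, hu.pow_eq_one, one_mul]
  obtain ⟨ω, hω⟩ := h89o_exists_cycExp σ
  have hσζ : σ ζ = ζ ^ ω := hω ζ hζ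
  have hcf := hCF p hp2 (p ^ 2 - 1) hn hpn hdvd π hπ σ hσ ω hω
  rw [hψu, hquot] at hcf
  -- the inverse of `σ`
  have hσi : σ⁻¹ ∈ inertia p := (inertia p).inv_mem hσ
  have hσiπ : σ⁻¹ π = u⁻¹ * π := by
    have h1 : σ (u⁻¹ * π) = π := by
      rw [map_mul, map_inv₀, hσu, hσπ, ← mul_assoc, inv_mul_cancel₀ hu0, one_mul]
    calc σ⁻¹ π = σ⁻¹ (σ (u⁻¹ * π)) := by rw [h1]
      _ = u⁻¹ * π := by rw [← AlgEquiv.mul_apply, inv_mul_cancel, AlgEquiv.one_apply]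
  have hψi := hψ σ⁻¹ hσi
  rw [hσiπ, mul_div_assoc, div_self hπ0, mul_one] at hψi
  have hτψ : ((τ (ψ σ⁻¹) : (Om p)ˣ) : Om p) * u = u ^ p := by
    have hup0 : u ^ p ≠ 0 := pow_ne_zero _ hu0
    calc ((τ (ψ σ⁻¹) : (Om p)ˣ) : Om p) * u
        = (((τ (ψ σ⁻¹) : (Om p)ˣ) : Om p) * u⁻¹ ^ p) * (u ^ p * u) := by
          rw [inv_pow]
          field_simp
      _ = u⁻¹ * (u ^ p * u) := by rw [hψi]
      _ = u ^ p := by field_simp
  have hψpsq : ((ψ σ⁻¹ : kˣ) : k) ^ (p ^ 2) = (ψ σ⁻¹ : kˣ) :=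
    (h89k_nu τ hτ hπ hu.inv hψi).1
  -- the element `θ`
  obtain ⟨θ, hθ⟩ : ∃ θ : k, θ = (ω : k) * ((ψ σ⁻¹ : kˣ) : k) := ⟨_, rfl⟩
  have hθpsq : θ ^ (p ^ 2) = θ := by
    rw [hθ, mul_pow, hψpsq, pow_two, pow_mul, h7e_natCast_pow, h7e_natCast_pow]
  obtain ⟨ū, hū⟩ : ∃ ū : h84u_kappa p, ū = h84u_res u := ⟨_, rfl⟩
  have hū0 : ū ≠ 0 := by
    rw [hū]
    intro h
    have := (h84u_res_eq_zero_iff hun.le).1 h
    rw [hun] at this
    exact lt_irrefl _ this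
  have hūpow : ∀ m : ℕ, h84u_res (u ^ m) = ū ^ m := fun m => by
    rw [hū, h84u_res_pow hun.le]
  have hūpsq : ū ^ (p ^ 2) = ū := by
    rw [← hūpow, hupsq, hū]
  have hιω : ((ω : ℕ) : h84u_kappa p) = ū ^ (p + 1) := by
    rw [← h7e_res_natCast, ← hūpow]
    exact (h84u_res_eq_of_norm_sub_lt (h7e_norm_natCast_le ω) hcf).symm
  have hιψ : h7e_iota τ ((ψ σ⁻¹ : kˣ) : k) * ū = ū ^ p := by
    rw [h7e_iota_unit, hū, ← h84u_res_mul (h7g_norm_tau τ _).le hun.le, hτψ,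
      h84u_res_pow hun.le]
  have hιθ : h7e_iota τ θ = ū ^ (2 * p) := by
    have h1 : h7e_iota τ θ * ū = ū ^ (2 * p) * ū := by
      rw [hθ, h7e_iota_mul, h7e_iota_natCast τ hτ, hιω, mul_assoc, hιψ, ← pow_add, ← pow_succ]
      congr 1
      omega
    exact mul_right_cancel₀ hū0 h1
  have hιθp : h7e_iota τ θ ^ p = ū ^ 2 := by
    rw [hιθ, ← pow_mul]
    have e : 2 * p * p = p ^ 2 * 2 := by ring
    rw [e, pow_mul, hūpsq]
  -- the quadratic relation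
  have hs₁ : (θ + θ ^ p) ^ p = θ + θ ^ p := by
    rw [add_pow_char, ← pow_mul, ← pow_two, hθpsq, add_comm]
  have hs₂ : (θ * θ ^ p) ^ p = θ * θ ^ p := by
    rw [mul_pow, ← pow_mul, ← pow_two, hθpsq, mul_comm]
  obtain ⟨a', ha'⟩ := h7e_exists_nat hs₁
  obtain ⟨b, hb⟩ := h7e_exists_nat hs₂
  have hpk : ((p : ℕ) : k) = 0 := CharP.cast_eq_zero k p
  have hpκ : ((p : ℕ) : h84u_kappa p) = 0 := by
    haveI := h84u_charP p
    exact CharP.cast_eq_zero (h84u_kappa p) p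
  have hak : (((p - 1) * a' : ℕ) : k) = -(θ + θ ^ p) := by
    rw [Nat.cast_mul, Nat.cast_sub hp1.le, hpk, ha', Nat.cast_one]
    ring
  have hrel : θ * θ + (((p - 1) * a' : ℕ) : k) * θ + (b : k) = 0 := by
    rw [hak, hb]
    ring
  have haκ : (((p - 1) * a' : ℕ) : h84u_kappa p) = -(ū ^ (2 * p) + ū ^ 2) := by
    have h1 : ((a' : ℕ) : h84u_kappa p) = ū ^ (2 * p) + ū ^ 2 := by
      rw [← h7e_iota_natCast τ hτ, ha', h7e_iota_add τ hτ, h7e_iota_pow, hιθp, hιθ]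
    rw [Nat.cast_mul, Nat.cast_sub hp1.le, hpκ, h1, Nat.cast_one]
    ring
  have hbκ : ((b : ℕ) : h84u_kappa p) = ū ^ (2 * p) * ū ^ 2 := by
    rw [← h7e_iota_natCast τ hτ, hb, h7e_iota_mul, h7e_iota_pow, hιθp, hιθ]
  -- the Kummer generators `σ β`, `σ² β`
  have hnorm : ∀ g ∈ h89s_IK p π, σ⁻¹ * g * σ ∈ h89s_IK p π :=
    fun g hg => h89k_IK_normal' hπ σ hg
  have hμσ : ∀ g ∈ h89s_IK p π, μ (σ⁻¹ * g * σ) = ((ψ σ⁻¹ : kˣ) : k) * μ g := by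
    intro g hg
    have h1 := hμ σ⁻¹ hσi g hg
    rwa [inv_inv] at h1
  have hkg1 : h89s_KG p π ζ (fun g => l (θ * μ g)) (σ β) := by
    refine h89k_kg_congr (h89k_kg_transport hζ hkg σ hnorm ω hσζ) (fun g hg => ?_)
    show l (θ * μ g) = (ω : ZMod p) * l (μ (σ⁻¹ * g * σ))
    rw [hμσ g hg, ← h89k_l_nat, hθ, mul_assoc]
  have hkg2 : h89s_KG p π ζ (fun g => l (θ * (θ * μ g))) (σ (σ β)) := by
    refine h89k_kg_congr (h89k_kg_transport hζ hkg1 σ hnorm ω hσζ) (fun g hg => ?_)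
    show l (θ * (θ * μ g)) = (ω : ZMod p) * l (θ * μ (σ⁻¹ * g * σ))
    rw [hμσ g hg, ← h89k_l_nat]
    congr 1
    rw [hθ]
    ring
  -- the combination `γ`
  obtain ⟨a, ha⟩ : ∃ a : ℕ, a = (p - 1) * a' := ⟨_, rfl⟩
  rw [← ha] at hrel haκ
  have hkgγ : h89s_KG p π ζ (fun _ => 0) (σ (σ β) * ((σ β) ^ a * β ^ b)) := by
    refine h89k_kg_congr (h89k_kg_mul hζ hkg2
      (h89k_kg_mul hζ (h7e_kg_pow hζ hkg1 a) (h7e_kg_pow hζ hkg b) (fun g _ => rfl))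
      (fun g _ => rfl)) (fun g hg => ?_)
    show (0 : ZMod p) = l (θ * (θ * μ g)) + ((a : ZMod p) * l (θ * μ g) + (b : ZMod p) * l (μ g))
    rw [← h89k_l_nat, ← h89k_l_nat, ← map_add, ← map_add]
    have e : θ * (θ * μ g) + ((a : k) * (θ * μ g) + (b : k) * μ g) =
        (θ * θ + (a : k) * θ + (b : k)) * μ g := by ring
    rw [e, hrel, zero_mul, map_zero]
  have hγfix : h89s_KFix p π (σ (σ β) * ((σ β) ^ a * β ^ b)) := by
    intro g hg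
    have h1 := hkgγ g hg
    rwa [ZMod.val_zero, pow_zero, one_mul] at h1
  -- levels
  have hx1 : ‖σ (β ^ p) - 1‖ ≤ ‖π‖ ^ j := by rw [h7e_lev_map]; exact hβ
  have hx2 : ‖σ (σ (β ^ p)) - 1‖ ≤ ‖π‖ ^ j := by rw [h7e_lev_map]; exact hx1
  have hr : ‖π‖ ^ j ≤ 1 := pow_le_one₀ (norm_nonneg _) hπ1.le
  have hγp : (σ (σ β) * ((σ β) ^ a * β ^ b)) ^ p =
      σ (σ (β ^ p)) * ((σ (β ^ p)) ^ a * (β ^ p) ^ b) := by
    simp only [map_pow, mul_pow]
    rw [pow_right_comm (σ β) a p, pow_right_comm β b p]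
  have hlev2 : ‖(σ (β ^ p)) ^ a * (β ^ p) ^ b - 1‖ ≤ ‖π‖ ^ j :=
    h89k_mul_lev hr (h7e_lev_pow hπ1 hx1 a) (h7e_lev_pow hπ1 hβ b)
  have hlevγ : ‖(σ (σ β) * ((σ β) ^ a * β ^ b)) ^ p - 1‖ ≤ ‖π‖ ^ j := by
    rw [hγp]
    exact h89k_mul_lev hr hx2 hlev2
  have hγ1 := hP p π hπ _ j hγfix hj0 hj hpj hlevγ
  have hcγ : h7d_a π j ((σ (σ β) * ((σ β) ^ a * β ^ b)) ^ p) = 0 :=
    h7e_a_eq_zero_of_le hπ0 hπ1 hγ1
  -- the leading coefficient of `γ ^ p`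
  have hres : h84u_res ((σ π / π) ^ j) = ū ^ j := by rw [hψu, hūpow]
  have hc1 : h7d_a π j (σ (β ^ p)) = ū ^ j * h7d_a π j (β ^ p) := by
    rw [h7e_a_inertia hπ0 hσ hβ, hres]
  have hc2 : h7d_a π j (σ (σ (β ^ p))) = ū ^ j * (ū ^ j * h7d_a π j (β ^ p)) := by
    rw [h7e_a_inertia hπ0 hσ hx1, hres, hc1]
  rw [hγp, h7e_a_mul hπ0 hπ1 hj0 hx2 hlev2,
    h7e_a_mul hπ0 hπ1 hj0 (h7e_lev_pow hπ1 hx1 a) (h7e_lev_pow hπ1 hβ b),
    h7e_a_pow hπ0 hπ1 hj0 hx1, h7e_a_pow hπ0 hπ1 hj0 hβ, hc2, hc1, haκ, hbκ] at hcγ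
  have hfac : (ū ^ j - ū ^ 2) * (ū ^ j - ū ^ (2 * p)) * h7d_a π j (β ^ p) = 0 := by
    rw [← hcγ]
    ring
  have hne : ∀ m : ℕ, ¬ j ≡ m [MOD p ^ 2 - 1] → ū ^ j - ū ^ m ≠ 0 := by
    intro m hm h
    apply hm
    rw [sub_eq_zero, ← hūpow, ← hūpow] at h
    have h1 : ‖u ^ j - u ^ m‖ < 1 :=
      h84u_norm_sub_lt_of_res_eq (h84u_norm_pow_le hun.le _) (h84u_norm_pow_le hun.le _) h
    have h2 : u ^ j = u ^ m := by
      refine h7x_root_eq hn hpn ?_ ?_ h1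
      · rw [← pow_mul, mul_comm, pow_mul, hu.pow_eq_one, one_pow]
      · rw [← pow_mul, mul_comm, pow_mul, hu.pow_eq_one, one_pow]
    exact h7x_modEq_of_pow_eq hu hn h2
  have hc0 : h7d_a π j (β ^ p) = 0 := by
    rcases mul_eq_zero.mp hfac with h | h
    · rcases mul_eq_zero.mp h with h' | h'
      · exact absurd h' (hne 2 hj2)
      · exact absurd h' (hne (2 * p) hj2p)
    · exact h
  -- conclusion
  have hlt := h7e_lt_of_a_eq_zero hπ0 hβ hc0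
  have hfix1 : h89s_KFix p π (β ^ p - 1) := by
    have h1 := h89k_kg_pow_fix hζ hkg
    intro g hg
    rw [map_sub, map_one, h1 g hg]
  exact ⟨β, h7d_disc hπ hfix1 hlt, hkg⟩

/-- **FL-S4K-B.** -/
theorem h7e_kLevEig : H89KLevEig := h7e_kLevEig_of h10v_kPowLev h89f_fundSurjective h7c_cycFund

end Main

end Fermat.Agent.S56F
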