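import Fermat.Agent.S56F.FLS4KIface_helper89
import Fermat.Agent.S56F.FLO2_helper89

/-!
# S56 / LOC-p-FL, row FL-S4K-B (helper82, prefix `h82k_`): the eigen-exclusion `H89KLevEig`

`h82k_levEig_of : H89KExpand → H89KPowLev → H89KLevEig`.

Proof.  `σ ∈ inertia` with `σ π = u π`, `u` a primitive `(p² - 1)`-th root of unity, `σ ζ = ζ ^ a₀`
(`a₀ ≡ u ^ (p + 1)`), `c = ψ (σ⁻¹)` (`τ c = u ^ (p - 1)`), `θ = a₀ c ∈ 𝔽_{p²} ⊆ k`
(`τ θ ≡ u ^ (2 p)`), `θ² + a θ + b = 0` with `a ≡ -(u² + u ^ (2 p))`, `b ≡ u ^ (2 p + 2)`.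
If `β` is a Kummer generator of `l ∘ (d μ)` then `σ β` is one of `l ∘ (θ d μ)`; hence
`γ = σ² β * (σ β) ^ a * β ^ b` is fixed by `I_K`.  With `β ^ p = 1 + π ^ j (w + π z)`:
`γ ^ p ≡ 1 + (u ^ (2 j) + a u ^ j + b) w π ^ j` modulo `π ^ (j + 1)`, and
`u ^ (2 j) + a u ^ j + b ≡ (u ^ j - u²)(u ^ j - u ^ (2 p))` is a unit; `H89KPowLev` for `γ` gives
`w ≡ 0`, so `w = 0`.
-/

set_option autoImplicit false
set_option linter.style.haveILetI false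

open Fermat.Agent.PT.Loc

noncomputable section

namespace Fermat.Agent.S56F

section Calc

variable {p : ℕ} [Fact p.Prime]

/-- `X ≡ 1 + c t` modulo `ε`. -/
def h82k_C (ε : ℝ) (t X c : Om p) : Prop := ‖X - (1 + c * t)‖ ≤ ε

theorem h82k_norm_one_add {t c : Om p} (ht1 : ‖t‖ ≤ 1) (hc : ‖c‖ ≤ 1) :
    ‖(1 : Om p) + c * t‖ ≤ 1 := by
  refine (IsUltrametricDist.norm_add_le_max _ _).trans (max_le (by rw [norm_one]) ?_)
  rw [norm_mul]
  exact mul_le_one₀ hc (norm_nonneg _) ht1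

theorem h82k_C_norm_le {ε : ℝ} {t X c : Om p} (hε : ε ≤ 1) (ht1 : ‖t‖ ≤ 1) (hc : ‖c‖ ≤ 1)
    (hX : h82k_C ε t X c) : ‖X‖ ≤ 1 := by
  have e : X = (X - (1 + c * t)) + (1 + c * t) := by ring
  rw [e]
  exact (IsUltrametricDist.norm_add_le_max _ _).trans
    (max_le (hX.trans hε) (h82k_norm_one_add ht1 hc))

theorem h82k_C_mul {ε : ℝ} {t X Y c d : Om p} (hε : ε ≤ 1) (ht : ‖t‖ ^ 2 ≤ ε) (ht1 : ‖t‖ ≤ 1)
    (hc : ‖c‖ ≤ 1) (hd : ‖d‖ ≤ 1) (hX : h82k_C ε t X c) (hY : h82k_C ε t Y d) :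
    h82k_C ε t (X * Y) (c + d) := by
  have hYn : ‖Y‖ ≤ 1 := h82k_C_norm_le hε ht1 hd hY
  have h1 : ‖(1 : Om p) + c * t‖ ≤ 1 := h82k_norm_one_add ht1 hc
  have hε0 : 0 ≤ ε := le_trans (norm_nonneg _) hX
  have e : X * Y - (1 + (c + d) * t) =
      (X - (1 + c * t)) * Y + ((1 + c * t) * (Y - (1 + d * t)) + c * d * t ^ 2) := by ring
  unfold h82k_C
  rw [e]
  refine (IsUltrametricDist.norm_add_le_max _ _).trans (max_le ?_ ?_)
  · rw [norm_mul]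
    calc ‖X - (1 + c * t)‖ * ‖Y‖ ≤ ε * 1 := mul_le_mul hX hYn (norm_nonneg _) hε0
      _ = ε := mul_one _
  · refine (IsUltrametricDist.norm_add_le_max _ _).trans (max_le ?_ ?_)
    · rw [norm_mul]
      calc ‖1 + c * t‖ * ‖Y - (1 + d * t)‖ ≤ 1 * ε := mul_le_mul h1 hY (norm_nonneg _) zero_le_one
        _ = ε := one_mul _
    · rw [norm_mul, norm_mul, norm_pow]
      have h2 : ‖c‖ * ‖d‖ ≤ 1 := mul_le_one₀ hc (norm_nonneg _) hd
      calc ‖c‖ * ‖d‖ * ‖t‖ ^ 2 ≤ 1 * ε :=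
            mul_le_mul h2 ht (by positivity) zero_le_one
        _ = ε := one_mul _

theorem h82k_C_one {ε : ℝ} (hε0 : 0 ≤ ε) (t : Om p) : h82k_C ε t 1 0 := by
  unfold h82k_C
  simpa using hε0

theorem h82k_norm_natCast_le (n : ℕ) : ‖((n : ℕ) : Om p)‖ ≤ 1 :=
  IsUltrametricDist.norm_natCast_le_one (Om p) n

theorem h82k_C_pow {ε : ℝ} {t X c : Om p} (hε : ε ≤ 1) (ht : ‖t‖ ^ 2 ≤ ε) (ht1 : ‖t‖ ≤ 1)
    (hc : ‖c‖ ≤ 1) (hX : h82k_C ε t X c) (n : ℕ) : h82k_C ε t (X ^ n) ((n : Om p) * c) := by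
  have hε0 : 0 ≤ ε := le_trans (norm_nonneg _) hX
  induction n with
  | zero =>
    simpa using h82k_C_one hε0 t
  | succ n ih =>
    have hnc : ‖((n : ℕ) : Om p) * c‖ ≤ 1 := by
      rw [norm_mul]
      exact mul_le_one₀ (h82k_norm_natCast_le n) (norm_nonneg _) hc
    have h := h82k_C_mul hε ht ht1 hnc hc ih hX
    rw [pow_succ]
    have e : ((n + 1 : ℕ) : Om p) * c = (n : Om p) * c + c := by
      push_cast
      ring
    rw [e]
    exact h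

end Calc

section Cong

variable {p : ℕ} [Fact p.Prime]

/-- `X ≡ Y` modulo the maximal ideal. -/
def h82k_E (X Y : Om p) : Prop := ‖X - Y‖ < 1

theorem h82k_E_refl (X : Om p) : h82k_E X X := by
  unfold h82k_E
  simp

theorem h82k_E_symm {X Y : Om p} (h : h82k_E X Y) : h82k_E Y X := by
  unfold h82k_E at h ⊢
  rwa [← norm_neg, neg_sub]

theorem h82k_E_trans {X Y Z : Om p} (h : h82k_E X Y) (h' : h82k_E Y Z) : h82k_E X Z := by
  unfold h82k_E at h h' ⊢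
  have e : X - Z = (X - Y) + (Y - Z) := by ring
  rw [e]
  exact lt_of_le_of_lt (IsUltrametricDist.norm_add_le_max _ _) (max_lt h h')

theorem h82k_E_add {X X' Y Y' : Om p} (h : h82k_E X X') (h' : h82k_E Y Y') :
    h82k_E (X + Y) (X' + Y') := by
  unfold h82k_E at h h' ⊢
  have e : X + Y - (X' + Y') = (X - X') + (Y - Y') := by ring
  rw [e]
  exact lt_of_le_of_lt (IsUltrametricDist.norm_add_le_max _ _) (max_lt h h')

theorem h82k_E_neg {X X' : Om p} (h : h82k_E X X') : h82k_E (-X) (-X') := by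
  unfold h82k_E at h ⊢
  have e : -X - -X' = -(X - X') := by ring
  rwa [e, norm_neg]

theorem h82k_E_mul {X X' Y Y' : Om p} (hX : ‖X‖ ≤ 1) (hY' : ‖Y'‖ ≤ 1) (h : h82k_E X X')
    (h' : h82k_E Y Y') : h82k_E (X * Y) (X' * Y') := by
  unfold h82k_E at h h' ⊢
  have e : X * Y - X' * Y' = X * (Y - Y') + (X - X') * Y' := by ring
  rw [e]
  refine lt_of_le_of_lt (IsUltrametricDist.norm_add_le_max _ _) (max_lt ?_ ?_)
  · rw [norm_mul]
    calc ‖X‖ * ‖Y - Y'‖ ≤ 1 * ‖Y - Y'‖ := mul_le_mul_of_nonneg_right hX (norm_nonneg _)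
      _ = ‖Y - Y'‖ := one_mul _
      _ < 1 := h'
  · rw [norm_mul]
    calc ‖X - X'‖ * ‖Y'‖ ≤ ‖X - X'‖ * 1 := mul_le_mul_of_nonneg_left hY' (norm_nonneg _)
      _ = ‖X - X'‖ := mul_one _
      _ < 1 := h

theorem h82k_E_pow {X X' : Om p} (hX : ‖X‖ ≤ 1) (hX' : ‖X'‖ ≤ 1) (h : h82k_E X X') (n : ℕ) :
    h82k_E (X ^ n) (X' ^ n) := by
  induction n with
  | zero => simpa using h82k_E_refl (1 : Om p)
  | succ n ih =>
    rw [pow_succ, pow_succ]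
    exact h82k_E_mul (by rw [norm_pow]; exact pow_le_one₀ (norm_nonneg _) hX) hX' ih h

/-- an element of a field of characteristic `p` fixed by the `p`-th power map is a natural
number. -/
theorem h82k_exists_nat {k : Type} [Field k] [CharP k p] {x : k} (hx : x ^ p = x) :
    ∃ n : ℕ, (n : k) = x := by
  have hmem : x ∈ (⊥ : Subfield k) := (Subfield.mem_bot_iff_pow_eq_self k p).mpr hx
  obtain ⟨n, hn⟩ := (mem_bot_iff_intCast p k).mp hmem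
  have hp0 : (0 : ℤ) < p := by exact_mod_cast (Fact.out : p.Prime).pos
  refine ⟨(n % p).toNat, ?_⟩
  have h1 : (((n % p).toNat : ℕ) : ℤ) = n % p := Int.toNat_of_nonneg (Int.emod_nonneg _ hp0.ne')
  have h2 : (((n % p).toNat : ℕ) : k) = ((((n % p).toNat : ℕ) : ℤ) : k) := by
    rw [Int.cast_natCast]
  rw [h2, h1, ← hn]
  have h3 : n % p = n - p * (n / p) := by
    have := Int.emod_add_mul_ediv n p
    linarith
  rw [h3]
  push_cast
  rw [CharP.cast_eq_zero k p]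
  ring

end Cong

section Quad

variable {p : ℕ} [Fact p.Prime] {k : Type} [Field k] [Fintype k] [DecidableEq k] [CharP k p]

/-- the quadratic relation of `θ = a₀ c`, `τ c = u ^ (p - 1)`, `a₀ ≡ u ^ (p + 1)`. -/
theorem h82k_quad (τ : kˣ →* (Om p)ˣ) (hτ : IsTeich p τ) (c : kˣ) (a₀ : ℕ) (u : Om p)
    (hu : u ^ (p ^ 2 - 1) = 1) (hc : ((τ c : (Om p)ˣ) : Om p) = u ^ (p - 1))
    (ha₀ : ‖u ^ (p + 1) - (a₀ : Om p)‖ < 1) :
    ∃ a b : ℕ, ((a₀ : k) * c) ^ 2 + (a : k) * ((a₀ : k) * c) + (b : k) = 0 ∧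
      ‖(a : Om p) + (u ^ 2 + u ^ (2 * p))‖ < 1 ∧ ‖(b : Om p) - u ^ (2 * p + 2)‖ < 1 := by
  have hp : p.Prime := Fact.out
  have hp2 : 2 ≤ p := hp.two_le
  have hn0 : 0 < p ^ 2 - 1 := by
    have : 4 ≤ p ^ 2 := by nlinarith
    omega
  have hun : ‖u‖ = 1 := h89d0_norm_of_pow_eq_one hn0 hu
  have hupow : ∀ m : ℕ, ‖u ^ m‖ ≤ 1 := fun m => by
    rw [norm_pow, hun, one_pow]
  -- `c ^ (p² - 1) = 1`
  have hc1 : c ^ (p ^ 2 - 1) = 1 := by
    by_contra hne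
    apply h7g_tau_ne_one τ hτ.1 hτ.2 hne
    apply Units.ext
    rw [map_pow, Units.val_pow_eq_pow_val, hc, ← pow_mul, mul_comm, pow_mul, hu, one_pow,
      Units.val_one]
  have hcp : (c : k) ^ (p ^ 2) = c := by
    have e : p ^ 2 = (p ^ 2 - 1) + 1 := by omega
    rw [e, pow_succ, ← Units.val_pow_eq_pow_val, hc1, Units.val_one, one_mul]
  have hap : ((a₀ : ℕ) : k) ^ p = a₀ := by
    have := map_natCast (frobenius k p) a₀
    rwa [frobenius_def] at this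
  have hap2 : ((a₀ : ℕ) : k) ^ (p ^ 2) = a₀ := by
    rw [pow_two, pow_mul, hap, hap]
  set θ : k := (a₀ : k) * c with hθ
  have hθp2 : θ ^ (p ^ 2) = θ := by
    rw [hθ, mul_pow, hap2, hcp]
  have hθpp : (θ ^ p) ^ p = θ := by
    rw [← pow_mul, ← pow_two, hθp2]
  -- the trace and the norm
  have hs : (-(θ + θ ^ p)) ^ p = -(θ + θ ^ p) := by
    have h1 : (θ + θ ^ p) ^ p = θ ^ p + (θ ^ p) ^ p := add_pow_char θ (θ ^ p) p
    have h2 := map_neg (frobenius k p) (θ + θ ^ p)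
    rw [frobenius_def, frobenius_def, h1, hθpp] at h2
    rw [h2]
    ring
  have hnn : (θ * θ ^ p) ^ p = θ * θ ^ p := by
    rw [mul_pow, hθpp]
    ring
  obtain ⟨a, ha⟩ := h82k_exists_nat (p := p) hs
  obtain ⟨b, hb⟩ := h82k_exists_nat (p := p) hnn
  refine ⟨a, b, ?_, ?_, ?_⟩
  · rw [ha, hb]
    ring
  all_goals
    have hTa0 : h82k_E (h7g_lift τ ((a₀ : ℕ) : k)) (u ^ (p + 1)) :=
      h82k_E_trans (h7g_lift_natCast τ hτ.1 hτ.2 a₀) (h82k_E_symm ha₀)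
    have hTc : h7g_lift τ (c : k) = u ^ (p - 1) := by
      rw [h7g_lift_unit, hc]
    have hTθ : h82k_E (h7g_lift τ θ) (u ^ (2 * p)) := by
      have h1 : h82k_E (h7g_lift τ θ) (u ^ (p + 1) * u ^ (p - 1)) := by
        rw [hθ, h7g_lift_mul, hTc]
        exact h82k_E_mul (h7g_lift_norm_le τ _) (hupow _) hTa0 (h82k_E_refl _)
      have e : u ^ (p + 1) * u ^ (p - 1) = u ^ (2 * p) := by
        rw [← pow_add]
        congr 1
        omega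
      rwa [e] at h1
    have hTθp : h82k_E (h7g_lift τ (θ ^ p)) (u ^ 2) := by
      have h1 : h82k_E (h7g_lift τ (θ ^ p)) ((u ^ (2 * p)) ^ p) := by
        rw [h7g_lift_pow]
        exact h82k_E_pow (h7g_lift_norm_le τ _) (hupow _) hTθ p
      have e : (u ^ (2 * p)) ^ p = u ^ 2 := by
        have e1 : 2 * p * p = (p ^ 2 - 1) * 2 + 2 := by
          have : 1 ≤ p ^ 2 := by nlinarith
          have h3 : p ^ 2 = p * p := pow_two p
          have h4 : 2 * p * p = 2 * (p * p) := by ring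
          rw [h4, ← h3]
          omega
        rw [← pow_mul, e1, pow_add, pow_mul, hu, one_pow, one_mul]
      rwa [e] at h1
  · -- `a ≡ -(u² + u ^ (2 p))`
    have hTs : h82k_E (h7g_lift τ (θ + θ ^ p)) (u ^ (2 * p) + u ^ 2) :=
      h82k_E_trans (h7g_lift_add τ hτ.1 hτ.2 θ (θ ^ p)) (h82k_E_add hTθ hTθp)
    have h0 : h82k_E (h7g_lift τ ((θ + θ ^ p) + -(θ + θ ^ p)))
        (h7g_lift τ (θ + θ ^ p) + h7g_lift τ (-(θ + θ ^ p))) :=
      h7g_lift_add τ hτ.1 hτ.2 _ _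
    rw [add_neg_cancel, h7g_lift_zero] at h0
    have hTneg : h82k_E (h7g_lift τ (-(θ + θ ^ p))) (-(u ^ (2 * p) + u ^ 2)) := by
      have h1 : h82k_E (h7g_lift τ (-(θ + θ ^ p))) (-(h7g_lift τ (θ + θ ^ p))) := by
        unfold h82k_E at h0 ⊢
        have e : h7g_lift τ (-(θ + θ ^ p)) - -(h7g_lift τ (θ + θ ^ p)) =
            -(0 - (h7g_lift τ (θ + θ ^ p) + h7g_lift τ (-(θ + θ ^ p)))) := by ring
        rwa [e, norm_neg]
      exact h82k_E_trans h1 (h82k_E_neg hTs)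
    have hTa : h82k_E (h7g_lift τ ((a : ℕ) : k)) (a : Om p) := h7g_lift_natCast τ hτ.1 hτ.2 a
    rw [ha] at hTa
    have h2 := h82k_E_trans (h82k_E_symm hTa) hTneg
    unfold h82k_E at h2
    have e : (a : Om p) + (u ^ 2 + u ^ (2 * p)) = (a : Om p) - -(u ^ (2 * p) + u ^ 2) := by ring
    rw [e]
    exact h2
  · -- `b ≡ u ^ (2 p + 2)`
    have hTn : h82k_E (h7g_lift τ (θ * θ ^ p)) (u ^ (2 * p + 2)) := by
      rw [h7g_lift_mul, pow_add]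
      exact h82k_E_mul (h7g_lift_norm_le τ _) (hupow _) hTθ hTθp
    have hTb : h82k_E (h7g_lift τ ((b : ℕ) : k)) (b : Om p) := h7g_lift_natCast τ hτ.1 hτ.2 b
    rw [hb] at hTb
    exact h82k_E_trans (h82k_E_symm hTb) hTn

end Quad

section Zeta

variable {p : ℕ} [Fact p.Prime]

/-- `ζ ^ n` depends on `n` modulo `p` only. -/
theorem h82k_zeta_pow {ζ : Om p} (hζ : ζ ^ p = 1) (n : ℕ) :
    ζ ^ ((n : ZMod p)).val = ζ ^ n := by
  rw [ZMod.val_natCast]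
  conv_rhs => rw [← Nat.mod_add_div n p]
  rw [pow_add, pow_mul, hζ, one_pow, mul_one]

theorem h82k_zeta_add {ζ : Om p} (hζ : ζ ^ p = 1) (x y : ZMod p) :
    ζ ^ (x + y).val = ζ ^ x.val * ζ ^ y.val := by
  haveI : NeZero p := ⟨(Fact.out : p.Prime).ne_zero⟩
  rw [← pow_add, ← h82k_zeta_pow hζ (x.val + y.val)]
  congr 2
  push_cast
  rw [ZMod.natCast_zmod_val, ZMod.natCast_zmod_val]

theorem h82k_zeta_nsmul {ζ : Om p} (hζ : ζ ^ p = 1) (n : ℕ) (x : ZMod p) :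
    ζ ^ (n • x).val = (ζ ^ x.val) ^ n := by
  haveI : NeZero p := ⟨(Fact.out : p.Prime).ne_zero⟩
  rw [← pow_mul, ← h82k_zeta_pow hζ (x.val * n)]
  congr 2
  push_cast
  rw [ZMod.natCast_zmod_val, nsmul_eq_mul, mul_comm]

theorem h82k_zeta_zero (ζ : Om p) : ζ ^ (0 : ZMod p).val = 1 := by
  rw [ZMod.val_zero, pow_zero]

/-- distinct powers of a primitive root of unity of order prime to `p` are not congruent. -/
theorem h82k_unit_diff {n : ℕ} (hn0 : 0 < n) (hpn : ¬ p ∣ n) {u : Om p}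
    (hu : IsPrimitiveRoot u n) {i i' : ℕ} (hii : ¬ i ≡ i' [MOD n]) : ‖u ^ i - u ^ i'‖ = 1 := by
  have hun : ‖u‖ = 1 := h89d0_norm_of_pow_eq_one hn0 hu.pow_eq_one
  have hle : ‖u ^ i - u ^ i'‖ ≤ 1 := by
    refine (h89o_norm_sub_le_max _ _).trans (max_le ?_ ?_)
    · rw [norm_pow, hun, one_pow]
    · rw [norm_pow, hun, one_pow]
  rcases lt_or_eq_of_le hle with hlt | heq
  · exfalso
    apply hii
    haveI : FiniteDimensional ℚ_[p] (IntermediateField.adjoin ℚ_[p] ({u} : Set (Om p))) :=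
      h89d0_finiteDimensional_adjoin _ (Set.toFinite _)
    have huK : u ∈ IntermediateField.adjoin ℚ_[p] ({u} : Set (Om p)) :=
      IntermediateField.subset_adjoin _ _ (by simp)
    have h1 : (u ^ i) ^ n = 1 := by rw [← pow_mul, mul_comm, pow_mul, hu.pow_eq_one, one_pow]
    have h2 : (u ^ i') ^ n = 1 := by rw [← pow_mul, mul_comm, pow_mul, hu.pow_eq_one, one_pow]
    have h3 : u ^ i = u ^ i' :=
      h34lf_teich_unique_K (IntermediateField.adjoin ℚ_[p] ({u} : Set (Om p))) hpn hpn hn0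
        (pow_mem huK i) (pow_mem huK i') h1 h2 hlt
    have hfin : IsOfFinOrder u := isOfFinOrder_iff_pow_eq_one.mpr ⟨n, hn0, hu.pow_eq_one⟩
    have h4 := hfin.pow_eq_pow_iff_modEq.mp h3
    rwa [← hu.eq_orderOf] at h4
  · exact heq

end Zeta

section Main

variable {p : ℕ} [Fact p.Prime] {k : Type} [Field k]

/-- conjugating a Kummer generator by `σ`. -/
theorem h82k_conj {π ζ : Om p} (hζ : ζ ^ p = 1) {n : ℕ} (hn0 : 0 < n) (hpn : ¬ p ∣ n)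
    {u : Om p} (hu : u ^ n = 1) {σ : Gq p} (hσ : σ ∈ inertia p) (hσπ : σ π = u * π) {a₀ : ℕ}
    (ha₀ : cycExp p σ a₀) {μ : Gq p → k} {c : k}
    (hc : ∀ g ∈ h89s_IK p π, μ (σ⁻¹ * g * σ) = c * μ g) (l : k →+ ZMod p) (d : k) (β : Om p)
    (hβ : ∀ g ∈ h89s_IK p π, g β = ζ ^ (l (d * μ g)).val * β) :
    ∀ g ∈ h89s_IK p π, g (σ β) = ζ ^ (l ((a₀ : k) * c * d * μ g)).val * σ β := by
  intro g hg
  have hg' : σ⁻¹ * g * σ ∈ h89s_IK p π := by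
    refine ⟨(inertia p).mul_mem ((inertia p).mul_mem ((inertia p).inv_mem hσ) hg.1) hσ, ?_⟩
    have hgu : g u = u := h89d0_fix_of_mem_inertia hg.1 u n hn0 hpn hu
    rw [AlgEquiv.mul_apply, AlgEquiv.mul_apply, hσπ, map_mul, hgu, hg.2, ← hσπ,
      ← AlgEquiv.mul_apply, inv_mul_cancel, AlgEquiv.one_apply]
  have h1 : g (σ β) = σ ((σ⁻¹ * g * σ) β) := by
    rw [← AlgEquiv.mul_apply, ← AlgEquiv.mul_apply]
    congr 1
    group
  rw [h1, hβ _ hg', map_mul, map_pow, ha₀ ζ hζ, hc g hg]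
  congr 1
  have e : (a₀ : k) * c * d * μ g = a₀ • (d * (c * μ g)) := by
    rw [nsmul_eq_mul]
    ring
  rw [e, map_nsmul, h82k_zeta_nsmul hζ, ← pow_mul, ← pow_mul, mul_comm]

/-- **FL-S4K-B**, conditional on the expansion and on the levels of `p`-th powers. -/
theorem h82k_levEig_of (hX : H89KExpand) (hP : H89KPowLev) : H89KLevEig := by
  intro p _ hp2 k _ _ _ τ hτ π hπ ψ hψ μ hμ ζ hζ hζ1 l j hj0 hjlt hpj hj2 hj2p hlev
  classical
  letI : Fintype k := Fintype.ofFinite k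
  obtain ⟨β, hβ, hKG⟩ := hlev
  refine ⟨β, ?_, hKG⟩
  have hp : p.Prime := Fact.out
  have hp3 : 3 ≤ p := by
    have := hp.two_le
    omega
  have hpp : p ^ 2 = p * p := pow_two p
  have h9 : 9 ≤ p * p := by nlinarith
  have hn0 : 0 < p ^ 2 - 1 := by omega
  have hpn : ¬ p ∣ p ^ 2 - 1 := h89o_not_dvd_pow_sub_one 2 (by norm_num)
  have hfac : p ^ 2 - 1 = (p + 1) * (p - 1) := by
    have h1 : (p + 1) * (p - 1) = p * p - 1 := by
      obtain ⟨q, rfl⟩ : ∃ q, p = q + 1 := ⟨p - 1, by omega⟩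
      simp only [Nat.add_sub_cancel]
      ring_nf
      omega
    rw [h1, hpp]
  have hdvd : (p - 1) ∣ p ^ 2 - 1 := ⟨p + 1, by rw [hfac, mul_comm]⟩
  have hdiv : (p ^ 2 - 1) / (p - 1) = p + 1 := by
    rw [hfac]
    exact Nat.mul_div_cancel _ (by omega)
  -- `π`
  have hpOm : ((p : ℕ) : Om p) ≠ 0 := by
    intro h
    have := h7g_norm_p p
    rw [h, norm_zero] at this
    have hpos : (0 : ℝ) < (p : ℝ)⁻¹ := by
      have : (0 : ℝ) < p := by exact_mod_cast hp.pos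
      positivity
    linarith
  have hπ0 : π ≠ 0 := by
    intro h
    rw [h, zero_pow hn0.ne'] at hπ
    exact hpOm hπ.symm
  have hπpos : 0 < ‖π‖ := norm_pos_iff.mpr hπ0
  have hπn : ‖π‖ < 1 := by
    have h1 : ‖π‖ ^ (p ^ 2 - 1) = (p : ℝ)⁻¹ := by
      rw [← norm_pow, hπ]
      exact h7g_norm_p p
    have h2 : (p : ℝ)⁻¹ < 1 := by
      have : (1 : ℝ) < p := by exact_mod_cast hp.one_lt
      exact inv_lt_one_of_one_lt₀ this
    rw [← h1] at h2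
    exact (pow_lt_one_iff_of_nonneg (norm_nonneg _) hn0.ne').mp h2
  -- `u`, `σ`
  obtain ⟨u, hu⟩ := h89o_exists_primitiveRoot (p := p) (p ^ 2 - 1) hn0
  obtain ⟨σ, hσ, hσπ⟩ := h89f_fundSurjective p (p ^ 2 - 1) hn0 hpn π hπ u hu.pow_eq_one
  have hun : ‖u‖ = 1 := h89d0_norm_of_pow_eq_one hn0 hu.pow_eq_one
  have hupow : ∀ m : ℕ, ‖u ^ m‖ ≤ 1 := fun m => by
    rw [norm_pow, hun, one_pow]
  have hu0 : u ≠ 0 := by
    intro h
    rw [h, norm_zero] at hun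
    exact zero_ne_one hun
  have hσu : σ u = u := h89d0_fix_of_mem_inertia hσ u _ hn0 hpn hu.pow_eq_one
  have hσi : σ⁻¹ ∈ inertia p := (inertia p).inv_mem hσ
  have hσiπ : σ⁻¹ π = u⁻¹ * π := by
    have h1 : σ (u⁻¹ * π) = π := by
      rw [map_mul, map_inv₀, hσu, hσπ, ← mul_assoc, inv_mul_cancel₀ hu0, one_mul]
    conv_lhs => rw [← h1]
    rw [← AlgEquiv.mul_apply, inv_mul_cancel, AlgEquiv.one_apply]
  -- `c = ψ σ⁻¹`
  have hτc : ((τ (ψ σ⁻¹) : (Om p)ˣ) : Om p) = u ^ (p - 1) := by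
    have h := hψ σ⁻¹ hσi
    rw [hσiπ, mul_div_assoc, div_self hπ0, mul_one] at h
    have h2 : ((τ (ψ σ⁻¹) : (Om p)ˣ) : Om p) * (u⁻¹) ^ p * u ^ p = u⁻¹ * u ^ p := by
      rw [h]
    rw [mul_assoc, inv_pow, inv_mul_cancel₀ (pow_ne_zero p hu0), mul_one] at h2
    rw [h2]
    have h3 : u ^ p = u ^ (p - 1) * u := by
      rw [← pow_succ]
      congr 1
      omega
    rw [h3, mul_comm (u ^ (p - 1)) u, ← mul_assoc, inv_mul_cancel₀ hu0, one_mul]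
  -- `a₀`
  obtain ⟨a₀, ha₀⟩ := h89o_exists_cycExp σ
  have hcyc : ‖u ^ (p + 1) - (a₀ : Om p)‖ < 1 := by
    have h := h7c_cycFund p hp2 (p ^ 2 - 1) hn0 hpn hdvd π hπ σ hσ a₀ ha₀
    rwa [hσπ, mul_div_assoc, div_self hπ0, mul_one, hdiv] at h
  -- the quadratic relation
  obtain ⟨a, b, hrel, hacong, hbcong⟩ :=
    h82k_quad τ hτ (ψ σ⁻¹) a₀ u hu.pow_eq_one hτc hcyc
  -- equivariance at `σ⁻¹`
  have hc : ∀ g ∈ h89s_IK p π, μ (σ⁻¹ * g * σ) = ((ψ σ⁻¹ : kˣ) : k) * μ g := by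
    intro g hg
    have h := hμ σ⁻¹ hσi g hg
    rwa [inv_inv] at h
  -- Kummer generators
  have hK0 : ∀ g ∈ h89s_IK p π, g β = ζ ^ (l (1 * μ g)).val * β := by
    intro g hg
    rw [one_mul]
    exact hKG g hg
  have hK1 := h82k_conj hζ hn0 hpn hu.pow_eq_one hσ hσπ ha₀ hc l 1 β hK0
  have hK2 := h82k_conj hζ hn0 hpn hu.pow_eq_one hσ hσπ ha₀ hc l _ (σ β) hK1
  -- `γ`
  have hγfix : h89s_KFix p π (σ (σ β) * (σ β) ^ a * β ^ b) := by
    intro g hg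
    rw [map_mul, map_mul, map_pow, map_pow, hK2 g hg, hK1 g hg, hKG g hg, mul_pow, mul_pow]
    have hz : ζ ^ (l ((a₀ : k) * (ψ σ⁻¹ : kˣ) * ((a₀ : k) * (ψ σ⁻¹ : kˣ) * 1) * μ g)).val *
        (ζ ^ (l ((a₀ : k) * (ψ σ⁻¹ : kˣ) * 1 * μ g)).val) ^ a * (ζ ^ (l (μ g)).val) ^ b = 1 := by
      rw [← h82k_zeta_nsmul hζ, ← h82k_zeta_nsmul hζ, ← h82k_zeta_add hζ, ← h82k_zeta_add hζ]
      have h0 : l ((a₀ : k) * (ψ σ⁻¹ : kˣ) * ((a₀ : k) * (ψ σ⁻¹ : kˣ) * 1) * μ g) +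
          a • l ((a₀ : k) * (ψ σ⁻¹ : kˣ) * 1 * μ g) + b • l (μ g) = 0 := by
        rw [← map_nsmul, ← map_nsmul, ← map_add, ← map_add]
        have e : (a₀ : k) * (ψ σ⁻¹ : kˣ) * ((a₀ : k) * (ψ σ⁻¹ : kˣ) * 1) * μ g +
            a • ((a₀ : k) * (ψ σ⁻¹ : kˣ) * 1 * μ g) + b • μ g =
            (((a₀ : k) * (ψ σ⁻¹ : kˣ)) ^ 2 + (a : k) * ((a₀ : k) * (ψ σ⁻¹ : kˣ)) + (b : k)) *
              μ g := by
          rw [nsmul_eq_mul, nsmul_eq_mul]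
          ring
        rw [e, hrel, zero_mul, map_zero]
      rw [h0, h82k_zeta_zero]
    calc ζ ^ (l ((a₀ : k) * (ψ σ⁻¹ : kˣ) * ((a₀ : k) * (ψ σ⁻¹ : kˣ) * 1) * μ g)).val * σ (σ β) *
          ((ζ ^ (l ((a₀ : k) * (ψ σ⁻¹ : kˣ) * 1 * μ g)).val) ^ a * (σ β) ^ a) *
          ((ζ ^ (l (μ g)).val) ^ b * β ^ b)
        = (ζ ^ (l ((a₀ : k) * (ψ σ⁻¹ : kˣ) * ((a₀ : k) * (ψ σ⁻¹ : kˣ) * 1) * μ g)).val *
          (ζ ^ (l ((a₀ : k) * (ψ σ⁻¹ : kˣ) * 1 * μ g)).val) ^ a * (ζ ^ (l (μ g)).val) ^ b) *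
          (σ (σ β) * (σ β) ^ a * β ^ b) := by ring
      _ = σ (σ β) * (σ β) ^ a * β ^ b := by rw [hz, one_mul]
  -- `x = β ^ p`
  have hxfix : h89s_KFix p π (β ^ p) := by
    intro g hg
    rw [map_pow, hKG g hg, mul_pow, ← pow_mul, mul_comm _ p, pow_mul, hζ, one_pow, one_mul]
  obtain ⟨w, z, hw, hzfix, hz1, hx⟩ := hX p π hπ (β ^ p) j hxfix hβ
  have hσw : σ w = w := by
    rcases hw with rfl | ⟨m, hm0, hpm, hwm⟩
    · exact map_zero σ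
    · exact h89d0_fix_of_mem_inertia hσ w m hm0 hpm hwm
  have hw1 : ‖w‖ ≤ 1 := by
    rcases hw with rfl | ⟨m, hm0, hpm, hwm⟩
    · simp
    · exact (h89d0_norm_of_pow_eq_one hm0 hwm).le
  -- the calculus modulo `π ^ (j + 1)`
  have hε1 : ‖π‖ ^ (j + 1) ≤ 1 := pow_le_one₀ (norm_nonneg _) hπn.le
  have htn : ‖w * π ^ j‖ ≤ ‖π‖ ^ j := by
    rw [norm_mul, norm_pow]
    exact mul_le_of_le_one_left (by positivity) hw1
  have ht1 : ‖w * π ^ j‖ ≤ 1 := htn.trans (pow_le_one₀ (norm_nonneg _) hπn.le)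
  have ht2 : ‖w * π ^ j‖ ^ 2 ≤ ‖π‖ ^ (j + 1) := by
    calc ‖w * π ^ j‖ ^ 2 ≤ (‖π‖ ^ j) ^ 2 := pow_le_pow_left₀ (norm_nonneg _) htn 2
      _ = ‖π‖ ^ (j * 2) := by rw [← pow_mul]
      _ ≤ ‖π‖ ^ (j + 1) := pow_le_pow_of_le_one (norm_nonneg _) hπn.le (by omega)
  have hshape : ∀ v z' : Om p, ‖v‖ ≤ 1 → ‖z'‖ ≤ 1 →
      h82k_C (‖π‖ ^ (j + 1)) (w * π ^ j) (1 + (v * π) ^ j * (w + v * π * z')) (v ^ j) := by
    intro v z' hv hz'
    unfold h82k_C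
    have e : 1 + (v * π) ^ j * (w + v * π * z') - (1 + v ^ j * (w * π ^ j)) =
        v ^ (j + 1) * z' * π ^ (j + 1) := by ring
    rw [e, norm_mul, norm_mul, norm_pow, norm_pow]
    have h1 : ‖v‖ ^ (j + 1) * ‖z'‖ ≤ 1 :=
      mul_le_one₀ (pow_le_one₀ (norm_nonneg _) hv) (norm_nonneg _) hz'
    exact mul_le_of_le_one_left (by positivity) h1
  have hCx : h82k_C (‖π‖ ^ (j + 1)) (w * π ^ j) (β ^ p) 1 := by
    have h := hshape 1 z (by simp) hz1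
    simp only [one_mul, one_pow] at h
    rwa [← hx] at h
  have hσx : σ (β ^ p) = 1 + (u * π) ^ j * (w + u * π * σ z) := by
    rw [hx]
    simp only [map_add, map_mul, map_pow, map_one, hσπ, hσw]
  have hCσx : h82k_C (‖π‖ ^ (j + 1)) (w * π ^ j) (σ (β ^ p)) (u ^ j) := by
    rw [hσx]
    exact hshape u (σ z) hun.le (by rw [h89d0_norm_map]; exact hz1)
  have hσσx : σ (σ (β ^ p)) = 1 + (u ^ 2 * π) ^ j * (w + u ^ 2 * π * σ (σ z)) := by
    rw [hσx]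
    simp only [map_add, map_mul, map_pow, map_one, hσπ, hσw, hσu]
    ring
  have hCσσx : h82k_C (‖π‖ ^ (j + 1)) (w * π ^ j) (σ (σ (β ^ p))) ((u ^ 2) ^ j) := by
    rw [hσσx]
    exact hshape (u ^ 2) (σ (σ z)) (hupow 2)
      (by rw [h89d0_norm_map, h89d0_norm_map]; exact hz1)
  -- `γ ^ p`
  have hγp : (σ (σ β) * (σ β) ^ a * β ^ b) ^ p =
      σ (σ (β ^ p)) * (σ (β ^ p)) ^ a * (β ^ p) ^ b := by
    simp only [map_pow]
    ring
  have hna : ‖(a : Om p) * u ^ j‖ ≤ 1 := by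
    rw [norm_mul]
    exact mul_le_one₀ (h82k_norm_natCast_le a) (norm_nonneg _) (hupow j)
  have hnb : ‖(b : Om p) * 1‖ ≤ 1 := by
    rw [mul_one]
    exact h82k_norm_natCast_le b
  have hn2j : ‖(u ^ 2) ^ j‖ ≤ 1 := by
    rw [← pow_mul]
    exact hupow _
  have hnsum : ‖(u ^ 2) ^ j + (a : Om p) * u ^ j‖ ≤ 1 :=
    (IsUltrametricDist.norm_add_le_max _ _).trans (max_le hn2j hna)
  have hCγ : h82k_C (‖π‖ ^ (j + 1)) (w * π ^ j) ((σ (σ β) * (σ β) ^ a * β ^ b) ^ p)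
      ((u ^ 2) ^ j + (a : Om p) * u ^ j + (b : Om p) * 1) := by
    rw [hγp]
    have h1 := h82k_C_pow hε1 ht2 ht1 (hupow j) hCσx a
    have h2 := h82k_C_pow hε1 ht2 ht1 (by simp) hCx b
    have h3 := h82k_C_mul hε1 ht2 ht1 hn2j hna hCσσx h1
    exact h82k_C_mul hε1 ht2 ht1 hnsum hnb h3 h2
  have hc₀le : ‖(u ^ 2) ^ j + (a : Om p) * u ^ j + (b : Om p) * 1‖ ≤ 1 :=
    (IsUltrametricDist.norm_add_le_max _ _).trans (max_le hnsum hnb)
  -- the coefficient is a unit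
  have hc₀n : 1 ≤ ‖(u ^ 2) ^ j + (a : Om p) * u ^ j + (b : Om p) * 1‖ := by
    have hd1 : ‖u ^ j - u ^ 2‖ = 1 := h82k_unit_diff hn0 hpn hu hj2
    have hd2 : ‖u ^ j - u ^ (2 * p)‖ = 1 := h82k_unit_diff hn0 hpn hu hj2p
    have hprod : ‖(u ^ j - u ^ 2) * (u ^ j - u ^ (2 * p))‖ = 1 := by
      rw [norm_mul, hd1, hd2, one_mul]
    have hbr : ‖((a : Om p) + (u ^ 2 + u ^ (2 * p))) * u ^ j +
        ((b : Om p) - u ^ (2 * p + 2))‖ < 1 := by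
      refine lt_of_le_of_lt (IsUltrametricDist.norm_add_le_max _ _) (max_lt ?_ hbcong)
      rw [norm_mul]
      calc ‖(a : Om p) + (u ^ 2 + u ^ (2 * p))‖ * ‖u ^ j‖
          ≤ ‖(a : Om p) + (u ^ 2 + u ^ (2 * p))‖ * 1 :=
            mul_le_mul_of_nonneg_left (hupow j) (norm_nonneg _)
        _ = ‖(a : Om p) + (u ^ 2 + u ^ (2 * p))‖ := mul_one _
        _ < 1 := hacong
    by_contra hlt
    push Not at hlt
    have e : (u ^ j - u ^ 2) * (u ^ j - u ^ (2 * p)) =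
        ((u ^ 2) ^ j + (a : Om p) * u ^ j + (b : Om p) * 1) -
          (((a : Om p) + (u ^ 2 + u ^ (2 * p))) * u ^ j + ((b : Om p) - u ^ (2 * p + 2))) := by
      ring
    rw [e] at hprod
    have h := lt_of_le_of_lt (h89o_norm_sub_le_max _ _) (max_lt hlt hbr)
    rw [hprod] at h
    exact lt_irrefl _ h
  -- `H89KPowLev` for `γ`
  have hγj : ‖(σ (σ β) * (σ β) ^ a * β ^ b) ^ p - 1‖ ≤ ‖π‖ ^ j := by
    have e : (σ (σ β) * (σ β) ^ a * β ^ b) ^ p - 1 =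
        ((σ (σ β) * (σ β) ^ a * β ^ b) ^ p -
          (1 + ((u ^ 2) ^ j + (a : Om p) * u ^ j + (b : Om p) * 1) * (w * π ^ j))) +
        ((u ^ 2) ^ j + (a : Om p) * u ^ j + (b : Om p) * 1) * (w * π ^ j) := by ring
    rw [e]
    refine (IsUltrametricDist.norm_add_le_max _ _).trans (max_le ?_ ?_)
    · exact hCγ.trans (pow_le_pow_of_le_one (norm_nonneg _) hπn.le (by omega))
    · rw [norm_mul]
      calc ‖(u ^ 2) ^ j + (a : Om p) * u ^ j + (b : Om p) * 1‖ * ‖w * π ^ j‖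
          ≤ 1 * ‖π‖ ^ j := mul_le_mul hc₀le htn (norm_nonneg _) zero_le_one
        _ = ‖π‖ ^ j := one_mul _
  have hγ1 := hP p π hπ _ j hγfix hj0 hjlt hpj hγj
  have hct : ‖((u ^ 2) ^ j + (a : Om p) * u ^ j + (b : Om p) * 1) * (w * π ^ j)‖ ≤
      ‖π‖ ^ (j + 1) := by
    have e : ((u ^ 2) ^ j + (a : Om p) * u ^ j + (b : Om p) * 1) * (w * π ^ j) =
        ((σ (σ β) * (σ β) ^ a * β ^ b) ^ p - 1) -
        ((σ (σ β) * (σ β) ^ a * β ^ b) ^ p -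
          (1 + ((u ^ 2) ^ j + (a : Om p) * u ^ j + (b : Om p) * 1) * (w * π ^ j))) := by ring
    rw [e]
    exact (h89o_norm_sub_le_max _ _).trans (max_le hγ1 hCγ)
  have htε : ‖w * π ^ j‖ ≤ ‖π‖ ^ (j + 1) := by
    rw [norm_mul] at hct
    calc ‖w * π ^ j‖ = 1 * ‖w * π ^ j‖ := (one_mul _).symm
      _ ≤ ‖(u ^ 2) ^ j + (a : Om p) * u ^ j + (b : Om p) * 1‖ * ‖w * π ^ j‖ :=
          mul_le_mul_of_nonneg_right hc₀n (norm_nonneg _)
      _ ≤ ‖π‖ ^ (j + 1) := hct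
  -- `w = 0`
  have hw0 : w = 0 := by
    by_contra hne
    rcases hw with h0 | ⟨m, hm0, hpm, hwm⟩
    · exact hne h0
    · have hwn : ‖w‖ = 1 := h89d0_norm_of_pow_eq_one hm0 hwm
      rw [norm_mul, norm_pow, hwn, one_mul, pow_succ] at htε
      have hpos : 0 < ‖π‖ ^ j := pow_pos hπpos j
      have h2 : ‖π‖ ^ j * ‖π‖ < ‖π‖ ^ j * 1 := mul_lt_mul_of_pos_left hπn hpos
      rw [mul_one] at h2
      exact absurd htε (not_le.mpr h2)
  -- conclusion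
  rw [hx, hw0]
  have e : 1 + π ^ j * (0 + π * z) - 1 = z * π ^ (j + 1) := by ring
  rw [e, norm_mul, norm_pow]
  exact mul_le_of_le_one_left (by positivity) hz1

end Main

end Fermat.Agent.S56F
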