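import Fermat.Agent.S56F.FLS3g_helper68

/-!
# S56 / LOC-p-FL, row FL-S4K-C (helper68): `H89KLevTop`

A character of `I_K` of level `≥ p² + p` is trivial: `‖π‖ ^ (p² + p) = ‖ζ - 1‖ ^ p`, Artin–Schreier
step and the unique root near `1` (`h68v_top`).  General form: `h68v_top`
(`S56F/FLLev_helper68.lean`), for any subgroup of inertia fixing `ζ`.
-/

set_option autoImplicit false

open Fermat.Agent.PT.Loc

noncomputable section

namespace Fermat.Agent.S56F

/-- **FL-S4K-C.** -/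
theorem h68v_kLevTop : H89KLevTop := by
  intro p _ hp2 π hπ ζ hζ hζ1 e hlev g hg
  obtain ⟨β, hβle, hβ⟩ := hlev
  have hprim : IsPrimitiveRoot ζ p := h68v_primitive hζ hζ1
  have hfix : ∀ g ∈ h89s_IK p π, g ζ = ζ := h68z_zetaFix_89 hp2 π hπ ζ hζ
  have hnorm : ‖π‖ ^ (p + 1) = ‖ζ - 1‖ := h68v_norm_pi hπ hprim
  have hle : ‖β ^ p - 1‖ ≤ ‖ζ - 1‖ ^ p := by
    rw [← hnorm, ← pow_mul]
    have h1 : (p + 1) * p = p ^ 2 + p := by ring
    rw [h1]
    exact hβle
  exact h68v_top (h89s_IK p π) (fun _ h => h.1) hprim hfix e β hβ hle g hg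

end Fermat.Agent.S56F
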