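import Fermat.Agent.S56F.KumPow_helper97
import Fermat.Agent.S56F.FLS4KIface_helper89
import Fermat.Agent.S56F.FLD4_helper7

/-!
# S56 / LOC-p-FL, row FL-S4K-C: `H89KLevTop` from `h97k_topLevel` (helper97)

Also `h97k_IK_fix_mu` : `I_K` fixes the `p`-th roots of unity when `(p - 1) ∣ n`.
-/

set_option autoImplicit false
set_option linter.style.haveILetI false

open Fermat.Agent.PT.Loc

noncomputable section
namespace Fermat.Agent.S56F

section
variable {p : ℕ} [Fact p.Prime] {n : ℕ} {π : Om p}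

theorem h97k_norm_natCast_lt_one_iff (m : ℕ) : ‖((m : ℕ) : Om p)‖ < 1 ↔ p ∣ m := by
  have h1 : ((m : ℕ) : Om p) = algebraMap ℚ_[p] (Om p) (m : ℚ_[p]) := by simp
  rw [h1, norm_algebraMap', Padic.norm_natCast_lt_one_iff]

/-- `I_K` fixes the `p`-th roots of unity (`(p - 1) ∣ n`). -/
theorem h97k_IK_fix_mu (hp2 : p ≠ 2) (hn : 0 < n) (hpn : ¬ p ∣ n) (hdiv : (p - 1) ∣ n)
    (hπ : π ^ n = p) {g : Gq p} (hg : g ∈ IK p π) {μ : Om p} (hμ : μ ^ p = 1) : g μ = μ := by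
  have hp := (Fact.out : p.Prime)
  have hπ0 : π ≠ 0 := norm_pos_iff.1 (h97k_norm_pi_pos hπ)
  -- the exponent of `g` on `μ_p`
  obtain ⟨ζ, hζ⟩ := h7c_exists_primitiveRoot p
  have h1 : (g ζ) ^ p = 1 := by rw [← map_pow, hζ.pow_eq_one, map_one]
  haveI : NeZero p := ⟨hp.ne_zero⟩
  obtain ⟨a, -, ha⟩ := hζ.eq_pow_of_pow_eq_one h1
  have hcyc : cycExp p g a := fun ν hν => by
    obtain ⟨j, -, hj⟩ := hζ.eq_pow_of_pow_eq_one hν
    rw [← hj, map_pow, ← ha, ← pow_mul, ← pow_mul, mul_comm]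
  have h2 := h7c_cycFund p hp2 n hn hpn hdiv π hπ g hg.1 a hcyc
  rw [hg.2, div_self hπ0, one_pow] at h2
  -- `a ≡ 1 mod p`
  have ha1 : 1 ≤ a := by
    rcases Nat.eq_zero_or_pos a with h0 | h0
    · rw [h0, Nat.cast_zero, sub_zero, norm_one] at h2
      exact absurd h2 (lt_irrefl _)
    · exact h0
  have h3 : ‖(((a - 1 : ℕ)) : Om p)‖ < 1 := by
    rw [Nat.cast_sub ha1, Nat.cast_one, ← norm_neg]
    simpa using h2
  obtain ⟨c, hc⟩ := (h97k_norm_natCast_lt_one_iff (a - 1)).1 h3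
  have hac : a = p * c + 1 := by omega
  rw [hcyc μ hμ, hac, pow_succ, pow_mul, hμ, one_pow, one_mul]

end

/-- **FL-S4K-C** from `h97k_topLevel`. -/
theorem h97k_kLevTop : H89KLevTop := by
  intro p _ hp2 π hπ ζ hζp hζ1 e hlev g hg
  have hp := (Fact.out : p.Prime)
  have h2 := hp.two_le
  have hn : 0 < p ^ 2 - 1 := by
    have : 4 ≤ p ^ 2 := by nlinarith
    omega
  have hfac : p ^ 2 - 1 = (p + 1) * (p - 1) := by
    obtain ⟨q, hq⟩ : ∃ q, p = q + 1 := ⟨p - 1, by omega⟩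
    rw [hq, Nat.add_sub_cancel]
    have : (q + 1) ^ 2 = (q + 1 + 1) * q + 1 := by ring
    rw [this, Nat.add_sub_cancel]
  have hdiv : (p - 1) ∣ p ^ 2 - 1 := ⟨p + 1, by rw [hfac, mul_comm]⟩
  have hquot : (p ^ 2 - 1) / (p - 1) = p + 1 := by
    rw [hfac]
    exact Nat.mul_div_cancel _ (by omega)
  have hpn : ¬ p ∣ p ^ 2 - 1 := by
    intro hd
    have h3 : p ∣ p ^ 2 := dvd_pow_self p (by norm_num)
    have h4 : p ∣ 1 := by
      have := (Nat.dvd_sub h3 hd)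
      rwa [Nat.sub_sub_self (by nlinarith : 1 ≤ p ^ 2)] at this
    exact hp.one_lt.ne' (Nat.dvd_one.1 h4)
  obtain ⟨β, hβn, hβ⟩ := hlev
  have hjm : p * ((p ^ 2 - 1) / (p - 1)) = p ^ 2 + p := by rw [hquot]; ring
  have hufix : ∀ s ∈ IK p π, s (β ^ p) = β ^ p := fun s hs => by
    rw [map_pow, hβ s hs, mul_pow, ← pow_mul, mul_comm _ p, pow_mul, hζp, one_pow, one_mul]
  have hun : ‖β ^ p - 1‖ ≤ ‖π‖ ^ (p * ((p ^ 2 - 1) / (p - 1))) := by rw [hjm]; exact hβn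
  obtain ⟨b, hbfix, hb⟩ := h97k_topLevel hn hpn hdiv hπ (β ^ p) hufix hun
  -- `β / b` is a `p`-th root of unity, fixed by `I_K`
  have hβ0 : β ≠ 0 := by
    rintro rfl
    rw [zero_pow hp.ne_zero, zero_sub, norm_neg, norm_one] at hβn
    have hr1 := h97k_norm_pi_lt_one hπ
    have hr0 := h97k_norm_pi_pos hπ
    have : ‖π‖ ^ (p ^ 2 + p) < 1 := pow_lt_one₀ hr0.le hr1 (by positivity)
    linarith
  have hb0 : b ≠ 0 := by
    rintro rfl
    rw [zero_pow hp.ne_zero] at hb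
    exact pow_ne_zero _ hβ0 hb.symm
  have hμ : (β / b) ^ p = 1 := by rw [div_pow, hb, div_self (pow_ne_zero _ hβ0)]
  have hgμ := h97k_IK_fix_mu hp2 hn hpn hdiv hπ hg hμ
  have hgβ : g β = β := by
    have e : β = (β / b) * b := by field_simp
    rw [e, map_mul, hgμ, hbfix g hg]
  have h5 := hβ g hg
  rw [hgβ] at h5
  have h6 : ζ ^ (e g).val = 1 := by
    have h5' : 1 * β = ζ ^ (e g).val * β := by rw [one_mul]; exact h5
    exact (mul_right_cancel₀ hβ0 h5').symm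
  -- `ζ` is primitive
  have hord : orderOf ζ = p := orderOf_eq_prime hζp hζ1
  have h7 : p ∣ (e g).val := by
    have := orderOf_dvd_of_pow_eq_one h6
    rwa [hord] at this
  have h8 : (e g).val < p := ZMod.val_lt _
  have h9 : (e g).val = 0 := Nat.eq_zero_of_dvd_of_lt h7 h8
  exact (ZMod.val_eq_zero _).1 h9

end Fermat.Agent.S56F
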