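import Fermat.Agent.S56F.FLS4KIface_helper89
import Fermat.Agent.S56F.FLD7_helper45
import Fermat.Agent.S56F.FLS2B_helper43

/-!
# S56 / LOC-p-FL, sub-leaf FL-S4K-P (helper43): levels of `p`-th powers

`h43k_kPowLev : H89KPowLev`: for `y ∈ K = ℚ_p^ur(π)` (`π ^ (p² - 1) = p`) and `0 < j < p² + p`,
`p ∤ j`: `‖y ^ p - 1‖ ≤ ‖π‖ ^ j` implies `‖y ^ p - 1‖ ≤ ‖π‖ ^ (j + 1)`.

Proof: `z = y - 1` has `‖z‖ < 1` (`h43b_root_cong`), `‖z‖ = ‖π‖ ^ i` (`h45g_tameDiscrete`),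
`y ^ p - 1 = z ^ p + p z r` with `‖r‖ ≤ 1`; `‖z ^ p‖ = ‖π‖ ^ (p i)`,
`‖p z r‖ ≤ ‖π‖ ^ (p² - 1 + i)`.  If `i ≤ p`, the norm is `‖π‖ ^ (p i)` and `p i ≠ j`;
if `i ≥ p + 1`, both terms are `≤ ‖π‖ ^ (p² + p)`.
-/

set_option autoImplicit false
set_option linter.style.haveILetI false
set_option linter.unusedSectionVars false

open Fermat.Agent.PT.Loc

noncomputable section

namespace Fermat.Agent.S56F

/-- **FL-S4K-P.** -/
theorem h43k_kPowLev : H89KPowLev := by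
  intro p _ π hπ y j hy hj hjlt hpj hle
  have hp : p.Prime := Fact.out
  have hp2 : 2 ≤ p := hp.two_le
  have hn : 0 < p ^ 2 - 1 := by
    have : 4 ≤ p ^ 2 := by nlinarith
    omega
  have hpn : ¬ p ∣ p ^ 2 - 1 := by
    intro h
    have h1 : p ∣ p ^ 2 := dvd_pow_self p (by norm_num)
    have h2 : p ∣ p ^ 2 - (p ^ 2 - 1) := Nat.dvd_sub h1 h
    have h3 : p ^ 2 - (p ^ 2 - 1) = 1 := by omega
    rw [h3] at h2
    exact hp.one_lt.ne' (Nat.dvd_one.mp h2)
  -- the norm of `π`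
  have hπn : ‖π‖ ^ (p ^ 2 - 1) = (p : ℝ)⁻¹ := by
    rw [← norm_pow, hπ, h43b_norm_p]
  have hπpos : 0 < ‖π‖ := by
    rcases (norm_nonneg π).lt_or_eq with h | h
    · exact h
    · rw [← h, zero_pow hn.ne'] at hπn
      exact absurd hπn (h43b_p_inv_pos (p := p)).ne
  have hπlt : ‖π‖ < 1 := by
    by_contra hcon
    have h1 : (1 : ℝ) ≤ ‖π‖ ^ (p ^ 2 - 1) := one_le_pow₀ (not_lt.mp hcon)
    rw [hπn] at h1
    exact absurd h1 (not_le.mpr (h43b_p_inv_lt_one (p := p)))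
  have hpπ : ‖(p : Om p)‖ = ‖π‖ ^ (p ^ 2 - 1) := by rw [hπn, h43b_norm_p]
  have hmono : ∀ {a b : ℕ}, a ≤ b → ‖π‖ ^ b ≤ ‖π‖ ^ a := fun h =>
    pow_le_pow_of_le_one hπpos.le hπlt.le h
  -- `‖y ^ p - 1‖ < 1`
  have hlt1 : ‖y ^ p - 1‖ < 1 :=
    lt_of_le_of_lt hle (pow_lt_one₀ hπpos.le hπlt hj.ne')
  -- `‖y‖ ≤ 1`
  have hy1 : ‖y‖ ≤ 1 := by
    by_contra hcon
    have h1 : 1 < ‖y‖ := not_le.mp hcon
    have h2 : 1 < ‖y ^ p‖ := by
      rw [norm_pow]
      exact one_lt_pow₀ h1 hp.ne_zero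
    have h3 : ‖y ^ p - 1‖ = ‖y ^ p‖ := by
      have := IsUltrametricDist.norm_add_eq_max_of_norm_ne_norm (x := y ^ p) (y := -1)
        (by rw [norm_neg, norm_one]; exact h2.ne')
      rw [norm_neg, norm_one, max_eq_left h2.le, ← sub_eq_add_neg] at this
      exact this
    rw [h3] at hlt1
    linarith
  have hz1 : ‖y - 1‖ < 1 := h43b_root_cong hy1 hlt1
  by_cases hz0 : y - 1 = 0
  · have : y = 1 := sub_eq_zero.mp hz0
    rw [this, one_pow, sub_self, norm_zero]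
    exact pow_nonneg hπpos.le _
  -- discreteness
  have hD := h45g_tameDiscrete p (p ^ 2 - 1) hn hpn π hπ (h89s_IK p π) (fun σ => Iff.rfl)
  obtain ⟨-, -, -, hdisc⟩ := hD
  have hzmem : y - 1 ∈ fixInt p (h89s_IK p π) := ⟨hz1.le, fun σ hσ => by
    rw [map_sub, map_one, hy σ hσ]⟩
  obtain ⟨i, u, -, hu1, hzu⟩ := hdisc (y - 1) hzmem hz0
  have hzn : ‖y - 1‖ = ‖π‖ ^ i := by
    rw [hzu, norm_mul, norm_pow, hu1, mul_one]
  have hi : 1 ≤ i := by
    by_contra hcon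
    have : i = 0 := by omega
    rw [this, pow_zero] at hzn
    linarith
  -- the binomial formula in the ring of integers
  have hmem : y - 1 ∈ intOm p := ⟨hz1.le, fun σ hσ => by
    rw [Subgroup.mem_bot] at hσ
    rw [hσ]
    rfl⟩
  obtain ⟨r, hr⟩ := exists_add_pow_prime_eq hp (⟨y - 1, hmem⟩ : intOm p) 1
  have hr' : y ^ p = (y - 1) ^ p + 1 + (p : Om p) * (y - 1) * 1 * (r : Om p) := by
    have := congrArg (fun x : intOm p => (x : Om p)) hr
    simpa using this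
  have hrn : ‖(r : Om p)‖ ≤ 1 := r.2.1
  have e : y ^ p - 1 = (y - 1) ^ p + (p : Om p) * (y - 1) * 1 * (r : Om p) := by
    rw [hr']
    ring
  have hA : ‖(y - 1) ^ p‖ = ‖π‖ ^ (p * i) := by
    rw [norm_pow, hzn, ← pow_mul, mul_comm]
  have hB : ‖(p : Om p) * (y - 1) * 1 * (r : Om p)‖ ≤ ‖π‖ ^ (p ^ 2 - 1 + i) := by
    rw [norm_mul, norm_mul, norm_mul, norm_one, mul_one, hpπ, hzn, ← pow_add]
    calc ‖π‖ ^ (p ^ 2 - 1 + i) * ‖(r : Om p)‖ ≤ ‖π‖ ^ (p ^ 2 - 1 + i) * 1 := by gcongr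
      _ = ‖π‖ ^ (p ^ 2 - 1 + i) := mul_one _
  rcases Nat.lt_or_ge i (p + 1) with hip | hip
  · -- `i ≤ p`: the norm is `‖π‖ ^ (p i)`
    have hexp : p * i < p ^ 2 - 1 + i := by
      have h1 : i ≤ p := by omega
      have h2 : p * i + (p - i) ≤ p * p := by
        have : p * i + (p - i) ≤ p * i + p * (p - i) := by
          have : p - i ≤ p * (p - i) := Nat.le_mul_of_pos_left _ hp.pos
          omega
        have h3 : p * i + p * (p - i) = p * p := by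
          rw [← Nat.mul_add, Nat.add_sub_cancel' h1]
        omega
      have h4 : p ^ 2 = p * p := sq p
      rcases Nat.eq_or_lt_of_le h1 with h5 | h5
      · subst h5
        have : 2 ≤ i * i := by nlinarith
        omega
      · have : 1 ≤ p - i := by omega
        have h6 : p * i + 2 * 1 ≤ p * i + p * (p - i) := by
          have : 2 * 1 ≤ p * (p - i) := Nat.mul_le_mul hp2 this
          omega
        have h3 : p * i + p * (p - i) = p * p := by
          rw [← Nat.mul_add, Nat.add_sub_cancel' h1]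
        omega
    have hBlt : ‖(p : Om p) * (y - 1) * 1 * (r : Om p)‖ < ‖(y - 1) ^ p‖ := by
      rw [hA]
      exact lt_of_le_of_lt hB (pow_lt_pow_right_of_lt_one₀ hπpos hπlt hexp)
    have hnorm : ‖y ^ p - 1‖ = ‖π‖ ^ (p * i) := by
      rw [e, IsUltrametricDist.norm_add_eq_max_of_norm_ne_norm hBlt.ne', max_eq_left hBlt.le, hA]
    rw [hnorm] at hle ⊢
    have hji : j ≤ p * i := by
      by_contra hcon
      have h1 : p * i < j := not_le.mp hcon
      have := pow_lt_pow_right_of_lt_one₀ hπpos hπlt h1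
      linarith
    have hne : j ≠ p * i := by
      intro h
      exact hpj ⟨i, h⟩
    exact hmono (by omega)
  · -- `i ≥ p + 1`: both terms are small
    have h1 : ‖(y - 1) ^ p‖ ≤ ‖π‖ ^ (j + 1) := by
      rw [hA]
      apply hmono
      have : p * (p + 1) ≤ p * i := Nat.mul_le_mul_left p hip
      have h4 : p * (p + 1) = p ^ 2 + p := by ring
      omega
    have h2 : ‖(p : Om p) * (y - 1) * 1 * (r : Om p)‖ ≤ ‖π‖ ^ (j + 1) := by
      refine hB.trans (hmono ?_)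
      omega
    rw [e]
    exact (IsUltrametricDist.norm_add_le_max _ _).trans (max_le h1 h2)

end Fermat.Agent.S56F
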