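import Fermat.Agent.S56F.FLS4KIface_helper89
import Fermat.Agent.S56F.FLO8b_helper84
import Fermat.Agent.S56F.FLS4KP_helper43
import Fermat.Agent.S56F.FLD7_helper45

/-!
# S56 / LOC-p-FL, sub-leaf FL-S4K-D (helper72): the leading coefficient at level `p² + 1`

`h72d_kInv : H89KInv`.  `κ` = residue field of `Om p` (`h84u_kappa p`, helper84),
`a x = residue ((x - 1) / π ^ N)`, `N = p² + 1`.

* additive: `x x' - 1 = (x - 1) + (x' - 1) + (x - 1)(x' - 1)`;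
* kernel: `(x - 1) / π ^ N` is an integer of `K` of norm `< 1`, hence of norm `≤ ‖π‖`
  (`h45g_tameDiscrete`);
* `p`-th powers: `h43k_kPowLev`;
* Frobenius: an integer is `≡` a root of unity of order prime to `p` or `≡ 0` (`h84u_teich`);
* inertia: `σ z ≡ z` for integers `z`, `u' = residue ((σ π / π) ^ N)`.
-/

set_option autoImplicit false
set_option linter.style.haveILetI false
set_option linter.unusedSectionVars false

open Valued IsLocalRing Polynomial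

open scoped NormedField

open Fermat.Agent.PT.Loc

noncomputable section

namespace Fermat.Agent.S56F

variable {p : ℕ} [Fact p.Prime]

/-- the residue of `s₀ y` for an automorphism acting on the roots of unity of order prime to
`p` by `q`-th powers. -/
theorem h72d_res_map_pow (s₀ : Gq p) (q : ℕ) (hq : q ≠ 0)
    (hs : ∀ (w : Om p) (m : ℕ), 0 < m → ¬ p ∣ m → w ^ m = 1 → s₀ w = w ^ q)
    {y : Om p} (hy : ‖y‖ ≤ 1) : h84u_res (s₀ y) = h84u_res y ^ q := by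
  have hsy : ‖s₀ y‖ ≤ 1 := by rw [h84o_norm_map]; exact hy
  rcases lt_or_eq_of_le hy with h | h
  · have h1 : ‖s₀ y‖ < 1 := by rw [h84o_norm_map]; exact h
    rw [(h84u_res_eq_zero_iff hy).2 h, (h84u_res_eq_zero_iff hsy).2 h1, zero_pow hq]
  · obtain ⟨w, hw, hyw⟩ := h84u_teich h
    obtain ⟨m, hm0, hm, hwm⟩ := hw
    have hw1 : ‖w‖ ≤ 1 := (h36u_norm_eq_one_of_pow hm0 hwm).le
    have h1 : h84u_res y = h84u_res w := h84u_res_eq_of_norm_sub_lt hw1 hyw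
    have hsw : ‖s₀ w‖ ≤ 1 := by rw [h84o_norm_map]; exact hw1
    have h2 : h84u_res (s₀ y) = h84u_res (s₀ w) := by
      apply h84u_res_eq_of_norm_sub_lt hsw
      rw [← map_sub, h84o_norm_map]
      exact hyw
    rw [h2, h1, hs w m hm0 hm hwm, h84u_res_pow hw1]

/-- inertia acts trivially on residues. -/
theorem h72d_res_inertia {σ : Gq p} (hσ : σ ∈ inertia p) {y : Om p} (hy : ‖y‖ ≤ 1) :
    h84u_res (σ y) = h84u_res y :=
  h84u_res_eq_of_norm_sub_lt hy (hσ y hy)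

/-- `(x - 1) / π ^ n` is an integer if `‖x - 1‖ ≤ ‖π‖ ^ n`. -/
theorem h72d_norm_div_le {π x : Om p} (hπ0 : π ≠ 0) {n : ℕ} (hx : ‖x - 1‖ ≤ ‖π‖ ^ n) :
    ‖(x - 1) / π ^ n‖ ≤ 1 := by
  rw [norm_div, norm_pow]
  exact div_le_one_of_le₀ hx (pow_nonneg (norm_nonneg _) _)

/-- **FL-S4K-D.**  The leading coefficient at level `p² + 1`. -/
theorem h72d_kInv : H89KInv := by
  intro p _ hp2 π hπ
  have hp : p.Prime := Fact.out
  have hp3 : 3 ≤ p := by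
    have := hp.two_le
    omega
  have hpp : 9 ≤ p ^ 2 := by nlinarith
  have hn0 : 0 < p ^ 2 - 1 := by omega
  have hpn : ¬ p ∣ p ^ 2 - 1 := by
    intro h
    have h1 : p ∣ p ^ 2 := dvd_pow_self p (by norm_num)
    have h2 : p ∣ p ^ 2 - (p ^ 2 - 1) := Nat.dvd_sub h1 h
    have h3 : p ^ 2 - (p ^ 2 - 1) = 1 := by omega
    rw [h3] at h2
    exact hp.one_lt.ne' (Nat.dvd_one.1 h2)
  have hpN : ¬ p ∣ p ^ 2 + 1 := by
    intro h
    have h1 : p ∣ p ^ 2 := dvd_pow_self p (by norm_num)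
    have h2 : p ∣ 1 := (Nat.dvd_add_right h1).1 h
    exact hp.one_lt.ne' (Nat.dvd_one.1 h2)
  have hD : IsDiscrete p (h89s_IK p π) π :=
    h45g_tameDiscrete p (p ^ 2 - 1) hn0 hpn π hπ (h89s_IK p π) (fun σ => Iff.rfl)
  have hπ1 : ‖π‖ < 1 := hD.2.1
  have hπ0 : π ≠ 0 := hD.2.2.1
  have hπpos : 0 < ‖π‖ := norm_pos_iff.2 hπ0
  have hπN0 : π ^ (p ^ 2 + 1) ≠ 0 := pow_ne_zero _ hπ0
  have hπNpos : 0 < ‖π‖ ^ (p ^ 2 + 1) := pow_pos hπpos _
  have hπNlt : ‖π‖ ^ (p ^ 2 + 1) < 1 := pow_lt_one₀ (norm_nonneg _) hπ1 (by omega)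
  refine ⟨h84u_kappa p, inferInstance, h84u_charP p,
    fun x => h84u_res ((x - 1) / π ^ (p ^ 2 + 1)), ?_, ?_, ?_, ?_, ?_⟩
  · -- additivity
    intro x x' _ _ hx hx'
    have hz := h72d_norm_div_le hπ0 hx
    have hz' := h72d_norm_div_le hπ0 hx'
    have e : (x * x' - 1) / π ^ (p ^ 2 + 1) =
        (x - 1) / π ^ (p ^ 2 + 1) + (x' - 1) / π ^ (p ^ 2 + 1) +
          (x - 1) / π ^ (p ^ 2 + 1) * ((x' - 1) / π ^ (p ^ 2 + 1)) * π ^ (p ^ 2 + 1) := by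
      field_simp
      ring
    have h3 : ‖(x - 1) / π ^ (p ^ 2 + 1) * ((x' - 1) / π ^ (p ^ 2 + 1)) * π ^ (p ^ 2 + 1)‖
        < 1 := by
      rw [norm_mul, norm_mul, norm_pow]
      calc ‖(x - 1) / π ^ (p ^ 2 + 1)‖ * ‖(x' - 1) / π ^ (p ^ 2 + 1)‖ * ‖π‖ ^ (p ^ 2 + 1)
          ≤ 1 * 1 * ‖π‖ ^ (p ^ 2 + 1) := by
            refine mul_le_mul_of_nonneg_right ?_ hπNpos.le
            exact mul_le_mul hz hz' (norm_nonneg _) zero_le_one
        _ < 1 := by rw [one_mul, one_mul]; exact hπNlt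
    show h84u_res ((x * x' - 1) / π ^ (p ^ 2 + 1)) = _
    rw [e, h84u_res_add (h84u_norm_add_le hz hz') h3.le, h84u_res_add hz hz',
      (h84u_res_eq_zero_iff h3.le).2 h3, add_zero]
  · -- kernel
    intro x hfix hx ha
    have hz := h72d_norm_div_le hπ0 hx
    have hz1 : ‖(x - 1) / π ^ (p ^ 2 + 1)‖ < 1 := (h84u_res_eq_zero_iff hz).1 ha
    have hzfix : ∀ g ∈ h89s_IK p π, g ((x - 1) / π ^ (p ^ 2 + 1)) = (x - 1) / π ^ (p ^ 2 + 1) := by
      intro g hg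
      rw [map_div₀, map_sub, map_one, map_pow, hfix g hg, hg.2]
    have hzle : ‖(x - 1) / π ^ (p ^ 2 + 1)‖ ≤ ‖π‖ := by
      by_cases hz0 : (x - 1) / π ^ (p ^ 2 + 1) = 0
      · rw [hz0, norm_zero]
        exact hπpos.le
      obtain ⟨n, u, -, hu, hzu⟩ := hD.2.2.2 _ ⟨hz, hzfix⟩ hz0
      have hn : n ≠ 0 := by
        rintro rfl
        rw [hzu, pow_zero, one_mul, hu] at hz1
        exact lt_irrefl _ hz1
      rw [hzu, norm_mul, norm_pow, hu, mul_one]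
      exact pow_le_of_le_one (norm_nonneg _) hπ1.le hn
    have h1 : ‖x - 1‖ = ‖(x - 1) / π ^ (p ^ 2 + 1)‖ * ‖π‖ ^ (p ^ 2 + 1) := by
      rw [← norm_pow, ← norm_mul, div_mul_cancel₀ _ hπN0]
    rw [h1, pow_succ' ‖π‖ (p ^ 2 + 1)]
    exact mul_le_mul_of_nonneg_right hzle hπNpos.le
  · -- `p`-th powers
    intro y hy hpow
    have h1 := h43k_kPowLev p π hπ y (p ^ 2 + 1) hy (by omega) (by omega) hpN hpow
    have h2 : ‖(y ^ p - 1) / π ^ (p ^ 2 + 1)‖ < 1 := by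
      rw [norm_div, norm_pow, div_lt_one hπNpos]
      refine lt_of_le_of_lt h1 ?_
      rw [pow_succ]
      calc ‖π‖ ^ (p ^ 2 + 1) * ‖π‖ < ‖π‖ ^ (p ^ 2 + 1) * 1 :=
            mul_lt_mul_of_pos_left hπ1 hπNpos
        _ = ‖π‖ ^ (p ^ 2 + 1) := mul_one _
    exact (h84u_res_eq_zero_iff h2.le).2 h2
  · -- Frobenius
    intro s₀ hs₀π hs₀w x _ hx
    have hz := h72d_norm_div_le hπ0 hx
    have e : (s₀ x - 1) / π ^ (p ^ 2 + 1) = s₀ ((x - 1) / π ^ (p ^ 2 + 1)) := by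
      rw [map_div₀, map_sub, map_one, map_pow, hs₀π]
    show h84u_res ((s₀ x - 1) / π ^ (p ^ 2 + 1)) = _
    rw [e]
    exact h72d_res_map_pow s₀ (p ^ 2) (by positivity) hs₀w hz
  · -- inertia
    intro σ hσ
    have hσπ0 : σ π ≠ 0 := (map_ne_zero_iff _ σ.injective).2 hπ0
    have hc : ‖(σ π / π) ^ (p ^ 2 + 1)‖ ≤ 1 := by
      rw [norm_pow, norm_div, h84o_norm_map, div_self hπpos.ne', one_pow]
    refine ⟨h84u_res ((σ π / π) ^ (p ^ 2 + 1)), fun x _ hx => ?_⟩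
    have hz := h72d_norm_div_le hπ0 hx
    have hσz : ‖σ ((x - 1) / π ^ (p ^ 2 + 1))‖ ≤ 1 := by rw [h84o_norm_map]; exact hz
    have e : (σ x - 1) / π ^ (p ^ 2 + 1) =
        (σ π / π) ^ (p ^ 2 + 1) * σ ((x - 1) / π ^ (p ^ 2 + 1)) := by
      rw [map_div₀, map_sub, map_one, map_pow, div_pow]
      field_simp
    show h84u_res ((σ x - 1) / π ^ (p ^ 2 + 1)) = _
    rw [e, h84u_res_mul hc hσz, h72d_res_inertia hσ hz]

end Fermat.Agent.S56F
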