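import Fermat.Agent.S56F.FLS4KX_helper89
import Fermat.Agent.S56F.FLO8b_helper84
import Fermat.Agent.S56F.FLS4KP_helper43

/-!
# S56 / LOC-p-FL, row FL-S4K-D (helper89): `H89KInv`

`h89i_kInv : H89KInv` (and `h89i_kInv_of : H89KPowLev → H89KInv`): the leading coefficient at level `N = p² + 1`,
`a x = residue ((x - 1) / π ^ N)` with values in the residue field of `Om p`
(`h84u_kappa`, `h84u_res` of `FLO8b_helper84`).
-/

set_option autoImplicit false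

open Fermat.Agent.PT.Loc

noncomputable section

namespace Fermat.Agent.S56F

variable {p : ℕ} [Fact p.Prime]

/-- the leading coefficient at level `N`. -/
def h89i_a (π : Om p) (N : ℕ) (x : Om p) : h84u_kappa p := h84u_res ((x - 1) / π ^ N)

theorem h89i_norm_div_le {π : Om p} (hπ : π ^ (p ^ 2 - 1) = p) {N : ℕ} {x : Om p}
    (hx : ‖x - 1‖ ≤ ‖π‖ ^ N) : ‖(x - 1) / π ^ N‖ ≤ 1 := by
  rw [norm_div, norm_pow, div_le_one (pow_pos (h89x_norm_pi_pos hπ) N)]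
  exact hx

theorem h89i_add {π : Om p} (hπ : π ^ (p ^ 2 - 1) = p) {N : ℕ} (hN : 0 < N) {x x' : Om p}
    (hx : ‖x - 1‖ ≤ ‖π‖ ^ N) (hx' : ‖x' - 1‖ ≤ ‖π‖ ^ N) :
    h89i_a π N (x * x') = h89i_a π N x + h89i_a π N x' := by
  have hπN0 : π ^ N ≠ 0 := pow_ne_zero _ (h89x_pi_ne_zero hπ)
  have hy := h89i_norm_div_le hπ hx
  have hy' := h89i_norm_div_le hπ hx'
  have hlt : ‖π‖ ^ N < 1 := pow_lt_one₀ (norm_nonneg _) (h89x_norm_pi_lt_one hπ) hN.ne'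
  have e : (x * x' - 1) / π ^ N =
      ((x - 1) / π ^ N + (x' - 1) / π ^ N) + (x - 1) * ((x' - 1) / π ^ N) := by
    field_simp
    ring
  have hsmall : ‖(x - 1) * ((x' - 1) / π ^ N)‖ < 1 := by
    rw [norm_mul]
    calc ‖x - 1‖ * ‖(x' - 1) / π ^ N‖ ≤ ‖π‖ ^ N * 1 :=
          mul_le_mul hx hy' (norm_nonneg _) (pow_nonneg (norm_nonneg _) _)
      _ < 1 := by rw [mul_one]; exact hlt
  unfold h89i_a
  rw [e, h84u_res_add (h84u_norm_add_le hy hy') hsmall.le, h84u_res_add hy hy',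
    (h84u_res_eq_zero_iff hsmall.le).2 hsmall, add_zero]

theorem h89i_ker {π : Om p} (hπ : π ^ (p ^ 2 - 1) = p) {N : ℕ} {x : Om p}
    (hfix : h89s_KFix p π x) (hx : ‖x - 1‖ ≤ ‖π‖ ^ N) (ha : h89i_a π N x = 0) :
    ‖x - 1‖ ≤ ‖π‖ ^ (N + 1) := by
  have hπN0 : π ^ N ≠ 0 := pow_ne_zero _ (h89x_pi_ne_zero hπ)
  have hy := h89i_norm_div_le hπ hx
  have hylt : ‖(x - 1) / π ^ N‖ < 1 := (h84u_res_eq_zero_iff hy).1 ha
  have hyfix : h89s_KFix p π ((x - 1) / π ^ N) :=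
    h89x_fix_div (h89x_fix_sub hfix (h89x_fix_one π)) (h89x_fix_pow (h89x_pi_fix π) N)
  obtain ⟨z, -, hz1, hyz⟩ := h89x_div_pi hπ hyfix hylt
  have e : x - 1 = π ^ (N + 1) * z := by
    rw [pow_succ, mul_assoc, ← hyz, mul_div_cancel₀ _ hπN0]
  rw [e, norm_mul, norm_pow]
  calc ‖π‖ ^ (N + 1) * ‖z‖ ≤ ‖π‖ ^ (N + 1) * 1 :=
        mul_le_mul_of_nonneg_left hz1 (pow_nonneg (norm_nonneg _) _)
    _ = ‖π‖ ^ (N + 1) := mul_one _

theorem h89i_zero_of_lev {π : Om p} (hπ : π ^ (p ^ 2 - 1) = p) {N : ℕ} {x : Om p}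
    (hx : ‖x - 1‖ ≤ ‖π‖ ^ (N + 1)) : h89i_a π N x = 0 := by
  have hπpos := h89x_norm_pi_pos hπ
  have hlt : ‖(x - 1) / π ^ N‖ < 1 := by
    rw [norm_div, norm_pow, div_lt_one (pow_pos hπpos N)]
    calc ‖x - 1‖ ≤ ‖π‖ ^ (N + 1) := hx
      _ = ‖π‖ ^ N * ‖π‖ := pow_succ _ _
      _ < ‖π‖ ^ N * 1 := mul_lt_mul_of_pos_left (h89x_norm_pi_lt_one hπ) (pow_pos hπpos N)
      _ = ‖π‖ ^ N := mul_one _
  exact (h84u_res_eq_zero_iff hlt.le).2 hlt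

/-- the residue of `s₀ y` for a `p²`-Frobenius `s₀`. -/
theorem h89i_frob_res (s₀ : Gq p)
    (hs₀ : ∀ (w : Om p) (m : ℕ), 0 < m → ¬ p ∣ m → w ^ m = 1 → s₀ w = w ^ (p ^ 2))
    {y : Om p} (hy : ‖y‖ ≤ 1) : h84u_res (s₀ y) = h84u_res y ^ (p ^ 2) := by
  have hp := (Fact.out : p.Prime)
  have hp20 : p ^ 2 ≠ 0 := pow_ne_zero _ hp.ne_zero
  have hφy : ‖s₀ y‖ ≤ 1 := by rw [h89d0_norm_map]; exact hy
  rcases lt_or_eq_of_le hy with h | h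
  · have h1 : ‖s₀ y‖ < 1 := by rw [h89d0_norm_map]; exact h
    rw [(h84u_res_eq_zero_iff hy).2 h, (h84u_res_eq_zero_iff hφy).2 h1, zero_pow hp20]
  · obtain ⟨w, m, hm0, hm, hwm, hyw⟩ := h89x_teich h
    have hw1 : ‖w‖ ≤ 1 := (h89d0_norm_of_pow_eq_one hm0 hwm).le
    have h1 : h84u_res y = h84u_res w := h84u_res_eq_of_norm_sub_lt hw1 hyw
    have hφw : ‖s₀ w‖ ≤ 1 := by rw [h89d0_norm_map]; exact hw1
    have h2 : h84u_res (s₀ y) = h84u_res (s₀ w) := by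
      apply h84u_res_eq_of_norm_sub_lt hφw
      rw [← map_sub, h89d0_norm_map]
      exact hyw
    rw [h2, h1, hs₀ w m hm0 hm hwm, h84u_res_pow hw1]

theorem h89i_frob {π : Om p} (hπ : π ^ (p ^ 2 - 1) = p) {N : ℕ} (s₀ : Gq p) (hs₀π : s₀ π = π)
    (hs₀ : ∀ (w : Om p) (m : ℕ), 0 < m → ¬ p ∣ m → w ^ m = 1 → s₀ w = w ^ (p ^ 2))
    {x : Om p} (hx : ‖x - 1‖ ≤ ‖π‖ ^ N) :
    h89i_a π N (s₀ x) = h89i_a π N x ^ (p ^ 2) := by
  have e : (s₀ x - 1) / π ^ N = s₀ ((x - 1) / π ^ N) := by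
    rw [map_div₀, map_sub, map_one, map_pow, hs₀π]
  unfold h89i_a
  rw [e, h89i_frob_res s₀ hs₀ (h89i_norm_div_le hπ hx)]

theorem h89i_tame {π : Om p} (hπ : π ^ (p ^ 2 - 1) = p) {N : ℕ} {σ : Gq p}
    (hσ : σ ∈ inertia p) {x : Om p} (hx : ‖x - 1‖ ≤ ‖π‖ ^ N) :
    h89i_a π N (σ x) = h84u_res ((σ π / π) ^ N) * h89i_a π N x := by
  have hπ0 : π ≠ 0 := h89x_pi_ne_zero hπ
  have hπN0 : π ^ N ≠ 0 := pow_ne_zero _ hπ0
  have hy := h89i_norm_div_le hπ hx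
  have hΨ : ‖(σ π / π) ^ N‖ ≤ 1 := by
    rw [norm_pow, norm_div, h89d0_norm_map, div_self (h89x_norm_pi_pos hπ).ne', one_pow]
  have e : (σ x - 1) / π ^ N = (σ π / π) ^ N * σ ((x - 1) / π ^ N) := by
    rw [map_div₀, map_sub, map_one, map_pow, div_pow]
    have hσπ0 : σ π ^ N ≠ 0 := pow_ne_zero _ (by
      intro h
      exact hπ0 ((map_eq_zero σ).mp h))
    field_simp
  have hσy : ‖σ ((x - 1) / π ^ N)‖ ≤ 1 := by rw [h89d0_norm_map]; exact hy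
  have hres : h84u_res (σ ((x - 1) / π ^ N)) = h84u_res ((x - 1) / π ^ N) :=
    h84u_res_eq_of_norm_sub_lt hy (hσ _ hy)
  unfold h89i_a
  rw [e, h84u_res_mul hΨ hσy, hres]

/-- **FL-S4K-D**, conditional on `H89KPowLev`. -/
theorem h89i_kInv_of (hP : H89KPowLev) : H89KInv := by
  intro p _ hp2 π hπ
  have hp : p.Prime := Fact.out
  have hp3 : 3 ≤ p := by
    have := hp.two_le
    omega
  have hN : 0 < p ^ 2 + 1 := Nat.succ_pos _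
  refine ⟨h84u_kappa p, inferInstance, h84u_charP p, h89i_a π (p ^ 2 + 1), ?_, ?_, ?_, ?_, ?_⟩
  · intro x x' _ _ hx hx'
    exact h89i_add hπ hN hx hx'
  · intro x hfix hx ha
    exact h89i_ker hπ hfix hx ha
  · intro y hy hlev
    apply h89i_zero_of_lev hπ
    refine hP p π hπ y (p ^ 2 + 1) hy hN (by omega) ?_ hlev
    intro hdvd
    have h1 : p ∣ p ^ 2 := dvd_pow_self p (by norm_num)
    have h2 : p ∣ 1 := (Nat.dvd_add_right h1).mp hdvd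
    have := Nat.le_of_dvd (by norm_num) h2
    omega
  · intro s₀ hs₀π hs₀ x _ hx
    exact h89i_frob hπ s₀ hs₀π hs₀ hx
  · intro σ hσ
    exact ⟨h84u_res ((σ π / π) ^ (p ^ 2 + 1)), fun x _ hx => h89i_tame hπ hσ hx⟩

/-- **FL-S4K-D**, unconditional. -/
theorem h89i_kInv : H89KInv := h89i_kInv_of h43k_kPowLev

end Fermat.Agent.S56F
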