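import Fermat.Agent.S56F.FLS4KIface_helper89
import Fermat.Agent.S56F.FLO8c_helper75

/-!
# S56 / LOC-p-FL, row FL-S4K-E (helper10): the semilinear count, `p²`-form (`H89KSemi2`)

Pure algebra (Mathlib + the frozen interface + the landed `h75s_core`).

* `h10e_finrank_le` : a finite dimensional `𝔽_p`-space `M` of `𝔽_p`-linear maps `F : X → κ` with
  `F (θ x) = F x ^ (p²)` (`θ` surjective) and `F (φ x) = u' F x`, where `u' ^ p ≠ u'`, has
  `dim_{𝔽_p} M ≤ dim_{𝔽_p} X`.
  Proof: for an `𝔽_p`-basis `F i` of `M` the maps `H i = F i + (F i) ^ p` are `κ`-independent: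
  a relation `∑ a i H i = 0` splits (apply it at `φ x`, use `u' ^ p ≠ u'`) into
  `∑ a i F i = 0` and `∑ a i (F i) ^ p = 0`, i.e. a relation between the functions
  `v i = (F i, (F i) ^ p)` on `X ⊕ X`, which are Frobenius-fixed for
  `θ' (inl x) = inr x`, `θ' (inr x) = inl (θ x)`; now `h75s_core`.
* `h10e_kSemi2 : H89KSemi2`.  If `u' ^ p = u'`, then `u'` lies in the prime field, `u - u'` is a
  unit of `k` and `T = 0`.  Otherwise as in `h75s_kSemilin`.
-/

set_option autoImplicit false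
set_option linter.style.haveILetI false

open Finset

namespace Fermat.Agent.S56F

/-- **dimension bound, `p²`-form**. -/
theorem h10e_finrank_le {p : ℕ} [Fact p.Prime] {κ : Type*} [Field κ] [CharP κ p]
    [Algebra (ZMod p) κ] {X : Type*} [AddCommGroup X] [Module (ZMod p) X]
    [Module.Finite (ZMod p) X] (θ : X → X) (hθ : Function.Surjective θ) (φ : X → X)
    (u' : κ) (hu' : u' ^ p ≠ u')
    (M : Submodule (ZMod p) (X →ₗ[ZMod p] κ)) [Module.Finite (ZMod p) M]
    (hM : ∀ F ∈ M, ∀ x, F (θ x) = F x ^ (p ^ 2))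
    (hMu : ∀ F ∈ M, ∀ x, F (φ x) = u' * F x) :
    Module.finrank (ZMod p) M ≤ Module.finrank (ZMod p) X := by
  classical
  set b := Module.finBasis (ZMod p) M with hbdef
  -- the maps `H i = F i + (F i) ^ p`
  let H : Fin (Module.finrank (ZMod p) M) → (X →ₗ[ZMod p] κ) := fun i =>
    (AddMonoidHom.mk' (fun x : X => ((b i : M) : X →ₗ[ZMod p] κ) x +
      ((b i : M) : X →ₗ[ZMod p] κ) x ^ p) (fun x y => by
        rw [map_add, add_pow_char]
        ring)).toZModLinearMap p
  have hH : ∀ i x, H i x = ((b i : M) : X →ₗ[ZMod p] κ) x +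
      ((b i : M) : X →ₗ[ZMod p] κ) x ^ p := fun _ _ => rfl
  -- the doubled functions
  let v : Fin (Module.finrank (ZMod p) M) → X ⊕ X → κ := fun i =>
    Sum.elim (fun x => ((b i : M) : X →ₗ[ZMod p] κ) x)
      (fun x => ((b i : M) : X →ₗ[ZMod p] κ) x ^ p)
  let θ' : X ⊕ X → X ⊕ X := Sum.elim (fun x => Sum.inr x) (fun x => Sum.inl (θ x))
  have hθ' : Function.Surjective θ' := by
    rintro (y | y)
    · obtain ⟨x, rfl⟩ := hθ y
      exact ⟨Sum.inr x, rfl⟩
    · exact ⟨Sum.inl y, rfl⟩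
  have hv : ∀ i x, v i (θ' x) = v i x ^ p := by
    rintro i (x | x)
    · rfl
    · change ((b i : M) : X →ₗ[ZMod p] κ) (θ x) = (((b i : M) : X →ₗ[ZMod p] κ) x ^ p) ^ p
      rw [hM _ (b i).2 x, ← pow_mul, pow_two]
  have hli : LinearIndependent κ H := by
    rw [linearIndependent_iff']
    intro s a ha
    have hsum : ∀ x, ∑ i ∈ s, a i * (((b i : M) : X →ₗ[ZMod p] κ) x +
        ((b i : M) : X →ₗ[ZMod p] κ) x ^ p) = 0 := by
      intro x
      have h1 := congrArg (fun F : X →ₗ[ZMod p] κ => F x) ha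
      simp only [LinearMap.sum_apply, LinearMap.smul_apply, smul_eq_mul,
        LinearMap.zero_apply] at h1
      rw [← h1]
      refine Finset.sum_congr rfl fun i _ => ?_
      rw [hH]
    -- split the relation
    have hAB : ∀ x, ∑ i ∈ s, a i * ((b i : M) : X →ₗ[ZMod p] κ) x +
        ∑ i ∈ s, a i * ((b i : M) : X →ₗ[ZMod p] κ) x ^ p = 0 := by
      intro x
      rw [← Finset.sum_add_distrib, ← hsum x]
      refine Finset.sum_congr rfl fun i _ => ?_
      ring
    have hAB' : ∀ x, u' * ∑ i ∈ s, a i * ((b i : M) : X →ₗ[ZMod p] κ) x +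
        u' ^ p * ∑ i ∈ s, a i * ((b i : M) : X →ₗ[ZMod p] κ) x ^ p = 0 := by
      intro x
      rw [Finset.mul_sum, Finset.mul_sum, ← Finset.sum_add_distrib, ← hsum (φ x)]
      refine Finset.sum_congr rfl fun i _ => ?_
      rw [hMu _ (b i).2 x, mul_pow]
      ring
    have hB : ∀ x, ∑ i ∈ s, a i * ((b i : M) : X →ₗ[ZMod p] κ) x ^ p = 0 := by
      intro x
      have h1 := hAB x
      have h2 := hAB' x
      have h3 : (u' ^ p - u') * ∑ i ∈ s, a i * ((b i : M) : X →ₗ[ZMod p] κ) x ^ p = 0 := by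
        have h4 : (u' ^ p - u') * ∑ i ∈ s, a i * ((b i : M) : X →ₗ[ZMod p] κ) x ^ p =
            (u' * ∑ i ∈ s, a i * ((b i : M) : X →ₗ[ZMod p] κ) x +
              u' ^ p * ∑ i ∈ s, a i * ((b i : M) : X →ₗ[ZMod p] κ) x ^ p) -
            u' * (∑ i ∈ s, a i * ((b i : M) : X →ₗ[ZMod p] κ) x +
              ∑ i ∈ s, a i * ((b i : M) : X →ₗ[ZMod p] κ) x ^ p) := by
          ring
        rw [h4, h1, h2, mul_zero, sub_zero]
      rcases mul_eq_zero.mp h3 with h | h
      · exact absurd (sub_eq_zero.mp h) hu'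
      · exact h
    have hA : ∀ x, ∑ i ∈ s, a i * ((b i : M) : X →ₗ[ZMod p] κ) x = 0 := by
      intro x
      have h1 := hAB x
      rw [hB x, add_zero] at h1
      exact h1
    refine h75s_core θ' hθ' v hv ?_ s a ?_
    · intro s' n hn
      have h1 : ∑ i ∈ s', n i • b i = 0 := by
        apply Subtype.ext
        apply LinearMap.ext
        intro x
        rw [Submodule.coe_sum, LinearMap.sum_apply, Submodule.coe_zero, LinearMap.zero_apply,
          ← hn (Sum.inl x)]
        refine Finset.sum_congr rfl fun i _ => ?_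
        rw [Submodule.coe_smul, LinearMap.smul_apply, Algebra.smul_def]
        rfl
      exact linearIndependent_iff'.mp b.linearIndependent s' n h1
    · rintro (x | x)
      · exact hA x
      · exact hB x
  have h2 := hli.fintype_card_le_finrank
  rw [Fintype.card_fin, Module.finrank_linearMap_self] at h2
  exact h2

/-- **FL-S4K-E**, the semilinear count (`p²`-form). -/
theorem h10e_kSemi2 : H89KSemi2 := by
  intro p _ k _ _ _ κ _ _ S _ _ T c u u' hadd1 hadd2 hsmul hfrob hu hu2 hup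
  classical
  letI : Algebra (ZMod p) k := ZMod.algebra k p
  letI : Algebra (ZMod p) κ := ZMod.algebra κ p
  haveI : Module.Finite (ZMod p) k := Module.Finite.of_finite
  -- elementary consequences of additivity
  have hTsub : ∀ μ μ' l, T (μ - μ') l = T μ l - T μ' l := by
    intro μ μ' l
    have h := hadd1 (μ - μ') μ' l
    rw [sub_add_cancel] at h
    rw [h, add_sub_cancel_right]
  -- the linear maps `Fv ν : Dual k → κ`
  let Fa : S → (Module.Dual (ZMod p) k) →+ κ := fun ν =>
    AddMonoidHom.mk' (fun l' => T ν l'.toAddMonoidHom) (fun l' l'' => by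
      have h : (l' + l'').toAddMonoidHom = l'.toAddMonoidHom + l''.toAddMonoidHom := by
        ext y
        rfl
      rw [h]
      exact hadd2 ν _ _)
  let Fv : S → (Module.Dual (ZMod p) k) →ₗ[ZMod p] κ := fun ν => (Fa ν).toZModLinearMap p
  have hFv : ∀ ν l', Fv ν l' = T ν l'.toAddMonoidHom := fun _ _ => rfl
  have hFvl : ∀ ν (l : k →+ ZMod p), T ν l = Fv ν (l.toZModLinearMap p) := fun _ _ => rfl
  have hFadd : ∀ ν ν', Fv (ν + ν') = Fv ν + Fv ν' := by
    intro ν ν'
    apply LinearMap.ext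
    intro l'
    rw [LinearMap.add_apply, hFv, hFv, hFv, hadd1]
  have hFsmul : ∀ (x : k) ν l', Fv (x • ν) l' = Fv ν (l'.comp (LinearMap.mulLeft (ZMod p) x)) := by
    intro x ν l'
    rw [hFv, hFv, hsmul]
    rfl
  -- the twists
  let tw : k → Module.Dual (ZMod p) k → Module.Dual (ZMod p) k :=
    fun x l' => l'.comp (LinearMap.mulLeft (ZMod p) x)
  have htw : ∀ x : k, x ≠ 0 → Function.Surjective (tw x) := by
    intro x hx l'
    refine ⟨l'.comp (LinearMap.mulLeft (ZMod p) x⁻¹), ?_⟩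
    apply LinearMap.ext
    intro y
    simp only [tw, LinearMap.comp_apply, LinearMap.mulLeft_apply]
    rw [← mul_assoc, inv_mul_cancel₀ hx, one_mul]
  have hFθ : ∀ ν l', Fv ν (tw (c : k) l') = Fv ν l' ^ (p ^ 2) := by
    intro ν l'
    rw [hFv, hFv, ← hfrob]
    rfl
  have hFu : ∀ ν l', Fv ν (tw (u : k) l') = u' * Fv ν l' := by
    intro ν l'
    rw [hFv, hFv, ← hu]
    rfl
  by_cases hex : ∃ μ₀, Fv μ₀ ≠ 0
  swap
  · refine ⟨0, fun μ => ⟨0, fun l => ?_⟩⟩
    have h1 : Fv (μ - (0 : k) • (0 : S)) = 0 := by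
      by_contra h
      exact hex ⟨_, h⟩
    rw [hFvl, h1, LinearMap.zero_apply]
  obtain ⟨μ₀, hμ₀⟩ := hex
  -- `u'` is not in the prime field
  have hu' : u' ^ p ≠ u' := by
    intro hfix
    obtain ⟨n, hn⟩ := h75s_mem_prime hfix
    have hne : (u : k) - algebraMap (ZMod p) k n ≠ 0 := by
      intro h0
      apply hup
      rw [sub_eq_zero.mp h0, ← map_pow, ZMod.pow_card]
    apply hμ₀
    apply LinearMap.ext
    intro l'
    obtain ⟨l'', rfl⟩ := htw _ hne l'
    have h1 : tw ((u : k) - algebraMap (ZMod p) k n) l'' = tw (u : k) l'' - n • l'' := by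
      apply LinearMap.ext
      intro y
      simp only [tw, LinearMap.comp_apply, LinearMap.mulLeft_apply, LinearMap.sub_apply,
        LinearMap.smul_apply]
      rw [sub_mul, map_sub, ← Algebra.smul_def, map_smul]
    rw [h1, map_sub, hFu, map_smul, Algebra.smul_def, hn, sub_self, LinearMap.zero_apply]
  refine ⟨μ₀, fun μ => ?_⟩
  -- the map `x ↦ Fv (x • μ₀)`
  let g₁ : k →ₗ[ZMod p] (Module.Dual (ZMod p) k →ₗ[ZMod p] κ) :=
    (AddMonoidHom.mk' (fun x : k => Fv (x • μ₀))
      (fun x y => by rw [add_smul, hFadd])).toZModLinearMap p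
  have hg₁ : ∀ x, g₁ x = Fv (x • μ₀) := fun _ => rfl
  have hinj : Function.Injective g₁ := by
    rw [← LinearMap.ker_eq_bot, LinearMap.ker_eq_bot']
    intro x hx
    by_contra hx0
    apply hμ₀
    apply LinearMap.ext
    intro l'
    have h1 := congrArg (fun F : Module.Dual (ZMod p) k →ₗ[ZMod p] κ =>
      F (l'.comp (LinearMap.mulLeft (ZMod p) x⁻¹))) hx
    simp only [LinearMap.zero_apply] at h1
    rw [hg₁, hFsmul] at h1
    rw [LinearMap.zero_apply, ← h1]
    congr 1
    apply LinearMap.ext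
    intro y
    simp only [LinearMap.comp_apply, LinearMap.mulLeft_apply]
    rw [← mul_assoc, inv_mul_cancel₀ hx0, one_mul]
  -- the space of semilinear maps
  have hrange : ∀ F ∈ LinearMap.range g₁ ⊔ Submodule.span (ZMod p) {Fv μ},
      (∀ l', F (tw (c : k) l') = F l' ^ (p ^ 2)) ∧ (∀ l', F (tw (u : k) l') = u' * F l') := by
    intro F hF
    obtain ⟨F₁, hF₁, F₂, hF₂, rfl⟩ := Submodule.mem_sup.mp hF
    obtain ⟨x, rfl⟩ := hF₁
    obtain ⟨n, rfl⟩ := Submodule.mem_span_singleton.mp hF₂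
    have hn : algebraMap (ZMod p) κ n ^ (p ^ 2) = algebraMap (ZMod p) κ n := by
      rw [pow_two, pow_mul, ← map_pow (algebraMap (ZMod p) κ) n p, ZMod.pow_card,
        ← map_pow (algebraMap (ZMod p) κ) n p, ZMod.pow_card]
    constructor
    · intro l'
      rw [LinearMap.add_apply, LinearMap.add_apply, LinearMap.smul_apply, LinearMap.smul_apply,
        hg₁, hFθ, hFθ, add_pow_char_pow, Algebra.smul_def, Algebra.smul_def, mul_pow, hn]
    · intro l'
      rw [LinearMap.add_apply, LinearMap.add_apply, LinearMap.smul_apply, LinearMap.smul_apply,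
        hg₁, hFu, hFu, Algebra.smul_def, Algebra.smul_def]
      ring
  have hfin : Module.Finite (ZMod p) ↥(LinearMap.range g₁ ⊔ Submodule.span (ZMod p) {Fv μ}) :=
    inferInstance
  have h1 := h10e_finrank_le (tw (c : k)) (htw _ c.ne_zero) (tw (u : k)) u' hu'
    (LinearMap.range g₁ ⊔ Submodule.span (ZMod p) {Fv μ})
    (fun F hF => (hrange F hF).1) (fun F hF => (hrange F hF).2)
  rw [Subspace.dual_finrank_eq, ← LinearMap.finrank_range_of_inj hinj] at h1
  have h2 : LinearMap.range g₁ = LinearMap.range g₁ ⊔ Submodule.span (ZMod p) {Fv μ} :=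
    Submodule.eq_of_le_of_finrank_le le_sup_left h1
  have h3 : Fv μ ∈ LinearMap.range g₁ := by
    rw [h2]
    exact Submodule.mem_sup_right (Submodule.mem_span_singleton_self _)
  obtain ⟨x, hx⟩ := h3
  refine ⟨x, fun l => ?_⟩
  rw [hTsub, hFvl μ, hFvl (x • μ₀), ← hx, hg₁, sub_self]

end Fermat.Agent.S56F
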