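import Fermat.Agent.S56F.FLS4KIface_helper89
import Fermat.Agent.S56F.FLS4Count_helper75

/-!
# S56 / LOC-p-FL, block SS, row FL-S4K-E (helper75, twin): `H89KSemi2`

The frozen Prop `H89KSemi2` of `S56F/FLS4KIface_helper89.lean`, from the Mathlib-only
`h75s_ssSemilin_gen` (`S56F/FLS4Count_helper75.lean`).
-/

set_option autoImplicit false

namespace Fermat.Agent.S56F

/-- **FL-S4K-E**: the semilinear count, `p²`-form. -/
theorem h75s_kSemi2 : H89KSemi2 := by
  intro p _ k _ _ _ κ _ _ S _ _ T c u u' hadd1 hadd2 hsmul hfrob hu hu1 hu2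
  exact h75s_ssSemilin_gen T (u : k) (c : k) c.ne_zero u' (1 : κ) one_ne_zero hu1 hu2 hadd1 hadd2
    hsmul hu (fun μ l => by rw [one_mul]; exact hfrob μ l)

end Fermat.Agent.S56F
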