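import Fermat.Agent.S56F.FLS4KAsm_helper89
import Fermat.Agent.S56F.FLS4KD_helper89
import Fermat.Agent.S56F.FLS4K3_helper43
import Fermat.Agent.S56F.FLS4KC_helper97
import Fermat.Agent.S56F.FLS4KE_helper10

/-!
# S56 / LOC-p-FL, row FL-S4 (helper89): `SSCount` modulo the eigen-exclusion leaf only

All the sub-leaves of the Kummer count except `H89KLevEig` (row FL-S4K-B) are landed:
`h43s_kLevP` (A), `h97k_kLevTop` (C), `h89i_kInv` (D), `h10e_kSemi2` (E).

* `h89f_ssKum_of_B : H89KLevEig → H89SSKum`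
* `h89f_ssCount_of_B : H89KLevEig → SSCount`
-/

set_option autoImplicit false

namespace Fermat.Agent.S56F

/-- the Kummer count, modulo the eigen-exclusion leaf. -/
theorem h89f_ssKum_of_B (hB : H89KLevEig) : H89SSKum :=
  h89k_ssKum_of h43s_kLevP hB h97k_kLevTop h89i_kInv h10e_kSemi2

/-- `SSCount`, modulo the eigen-exclusion leaf. -/
theorem h89f_ssCount_of_B (hB : H89KLevEig) : SSCount :=
  h89s_ssCount_of (h89f_ssKum_of_B hB)

end Fermat.Agent.S56F
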