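import Fermat.Agent.S56F.FLS4K01_helper61
import Fermat.Agent.S56F.FLC5Final_helper89
import Fermat.Agent.S56F.FLO2_helper89
import Fermat.Agent.S56F.FLO8c_helper75
import Fermat.Agent.PT.Loc.H66Res

/-!
# S56 / LOC-p-FL, row FL-S4-KUM (helper61): the eigen-step and the climb of the levels

From the frozen leaves of `FLS4KumIface_helper61.lean` (as hypotheses):

* `h61k_coef_nsmul` : coefficients of multiples of a character;
* `h61k_eigen` : if `μ` is inertia-equivariant (through `ψ`, `τ ∘ ψ = Ψ ^ (1 - p)`) and ALL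
  characters `l ∘ μ` have level `≥ j`, with `p ∤ j`, `j < p² + p`, `j ≢ 2, 2p mod p² - 1`, then
  all of them have level `≥ j + 1`;
* `h61k_climb1` : level `≥ 3` for all `l` ⟹ level `≥ p² + 1` for all `l`;
* `h61k_climb2` : level `≥ p² + 2` for all `l` ⟹ `μ = 0` on `I_K`.
-/

set_option autoImplicit false
set_option linter.style.haveILetI false
set_option linter.unusedSectionVars false

open Fermat.Agent.PT.Loc

noncomputable section

namespace Fermat.Agent.S56F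

variable {p : ℕ} [Fact p.Prime]

theorem h61k_norm_natCast_le (n : ℕ) : ‖(n : Om p)‖ ≤ 1 :=
  IsUltrametricDist.norm_natCast_le_one (Om p) n

theorem h61k_coef_zero {π : Om p} (hπ : π ^ (p ^ 2 - 1) = p) (ζ : Om p) (j : ℕ) :
    h61k_Coef p π ζ (fun _ => 0) j 0 := by
  refine ⟨1, fun g _ => ?_, ?_⟩
  · simp
  · rw [one_pow, sub_self, zero_mul, sub_zero, norm_zero]
    exact h61k_pi_pow_pos hπ j

theorem h61k_coef_nsmul (hAdd : H61KAdd) (hp2 : p ≠ 2) {π ζ : Om p}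
    (hπ : π ^ (p ^ 2 - 1) = p) (hζ : ζ ^ p = 1) (hζ1 : ζ ≠ 1) {χ : Gq p → ZMod p} {j : ℕ}
    {a : Om p} (hj : 1 ≤ j) (ha : ‖a‖ ≤ 1) (h : h61k_Coef p π ζ χ j a) (n : ℕ) :
    h61k_Coef p π ζ (fun g => n • χ g) j ((n : Om p) * a) := by
  induction n with
  | zero =>
    have h0 := h61k_coef_zero hπ ζ j
    have e1 : (fun g => 0 • χ g) = fun _ : Gq p => (0 : ZMod p) := by
      funext g
      rw [zero_smul]
    rw [e1, Nat.cast_zero, zero_mul]
    exact h0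
  | succ n ih =>
    have hna : ‖(n : Om p) * a‖ ≤ 1 := by
      rw [norm_mul]
      exact mul_le_one₀ (h61k_norm_natCast_le n) (norm_nonneg _) ha
    have h1 := hAdd p hp2 π ζ hπ hζ hζ1 _ _ j _ _ hj hna ha ih h
    have e1 : (fun g => (n + 1) • χ g) = fun g => n • χ g + χ g := by
      funext g
      rw [succ_nsmul]
    have e2 : ((n + 1 : ℕ) : Om p) * a = (n : Om p) * a + a := by
      push_cast
      ring
    rw [e1, e2]
    exact h1

/-- `p² - 1 = (p - 1) (p + 1)`. -/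
theorem h61k_sq_sub_one (p : ℕ) (hp : 1 ≤ p) : p ^ 2 - 1 = (p - 1) * (p + 1) := by
  obtain ⟨q, rfl⟩ : ∃ q, p = q + 1 := ⟨p - 1, by omega⟩
  have h1 : (q + 1) ^ 2 = q * (q + 1 + 1) + 1 := by ring
  rw [h1]
  simp

/-- **The eigen-step** (for one character `l ∘ μ`). -/
theorem h61k_eigen1 (hDisc : H61KDisc) (hAdd : H61KAdd) (hUniq : H61KUniq) (hTw : H61KTwist)
    (hp2 : p ≠ 2) {k : Type} [Field k] [Finite k] [CharP k p]
    (τ : kˣ →* (Om p)ˣ) (hτ : IsTeich p τ) {π : Om p} (hπ : π ^ (p ^ 2 - 1) = p)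
    (ψ : Gq p → kˣ)
    (hψ : ∀ σ ∈ inertia p, ((τ (ψ σ) : (Om p)ˣ) : Om p) * (σ π / π) ^ p = σ π / π)
    (μ : Gq p → k)
    (hμ : ∀ σ ∈ inertia p, ∀ g ∈ h89s_IK p π, μ (σ * g * σ⁻¹) = ((ψ σ : kˣ) : k) * μ g)
    {ζ : Om p} (hζ : ζ ^ p = 1) (hζ1 : ζ ≠ 1) {j : ℕ} (hj0 : 0 < j) (hj : j < p ^ 2 + p)
    (hpj : ¬ p ∣ j) (h2 : ¬ j ≡ 2 [MOD p ^ 2 - 1]) (h2p : ¬ j ≡ 2 * p [MOD p ^ 2 - 1])
    (l : k →+ ZMod p) (hl : h61k_Lev p π ζ (fun g => l (μ g)) j) :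
    h61k_Lev p π ζ (fun g => l (μ g)) (j + 1) := by
  classical
  letI : Fintype k := Fintype.ofFinite k
  have hp : p.Prime := Fact.out
  have hp1 : 1 ≤ p := hp.one_le
  have hp3 : 2 ≤ p := hp.two_le
  obtain ⟨N, hN⟩ : ∃ N, N = p ^ 2 - 1 := ⟨_, rfl⟩
  rw [← hN] at hπ h2 h2p
  have hN0 : 0 < N := hN ▸ h61k_e_pos p
  have hpN : ¬ p ∣ N := hN ▸ h89o_not_dvd_pow_sub_one (p := p) 2 (by norm_num)
  have hNf : N = (p - 1) * (p + 1) := hN ▸ h61k_sq_sub_one p hp1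
  have hπ' : π ^ (p ^ 2 - 1) = p := hN ▸ hπ
  obtain ⟨θ₀, hθ₀⟩ := h89o_exists_primitiveRoot (p := p) N hN0
  have hθN : θ₀ ^ N = 1 := hθ₀.pow_eq_one
  obtain ⟨s, hs, hsπ⟩ := h89f_fundSurjective p N hN0 hpN π hπ θ₀ hθN
  have hπ0 := h61k_pi_ne_zero hπ'
  have hθ0 : θ₀ ≠ 0 := hθ₀.ne_zero hN0.ne'
  have hΨ : s π / π = θ₀ := by rw [hsπ, mul_div_assoc, div_self hπ0, mul_one]
  have hsinv : s⁻¹ ∈ inertia p := (inertia p).inv_mem hs
  have hsθ : s θ₀ = θ₀ := h89d0_fix_of_mem_inertia hs θ₀ N hN0 hpN hθN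
  have hsinvπ : s⁻¹ π = θ₀⁻¹ * π := by
    have h1 : s (θ₀⁻¹ * π) = π := by
      rw [map_mul, map_inv₀, hsθ, hsπ, ← mul_assoc, inv_mul_cancel₀ hθ0, one_mul]
    calc s⁻¹ π = s⁻¹ (s (θ₀⁻¹ * π)) := by rw [h1]
      _ = θ₀⁻¹ * π := by rw [← AlgEquiv.mul_apply, inv_mul_cancel, AlgEquiv.one_apply]
  obtain ⟨α, hα⟩ : ∃ α : kˣ, α = ψ s⁻¹ := ⟨_, rfl⟩
  obtain ⟨v, hv⟩ : ∃ v : Om p, v = ((τ α : (Om p)ˣ) : Om p) := ⟨_, rfl⟩
  -- `τ α = θ₀ ^ (p - 1)`
  have hvθ : v = θ₀ ^ (p - 1) := by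
    have h1 := hψ s⁻¹ hsinv
    rw [hsinvπ, mul_div_assoc, div_self hπ0, mul_one, ← hα, ← hv] at h1
    have h3 : v * θ₀⁻¹ ^ p * θ₀ ^ p = θ₀⁻¹ * θ₀ ^ p := by rw [h1]
    rw [mul_assoc, ← mul_pow, inv_mul_cancel₀ hθ0, one_pow, mul_one] at h3
    rw [h3]
    have h4 : θ₀ ^ p = θ₀ ^ (p - 1) * θ₀ := by
      rw [← pow_succ]
      congr 1
      omega
    rw [h4, mul_comm (θ₀ ^ (p - 1)), ← mul_assoc, inv_mul_cancel₀ hθ0, one_mul]
  have hvN : v ^ N = 1 := by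
    rw [hvθ, ← pow_mul, mul_comm, pow_mul, hθN, one_pow]
  -- `α ^ (p + 1) = 1`
  have hαp : α ^ (p + 1) = 1 := by
    apply h89o_teich_inj_mod τ hτ
    rw [map_pow, map_one, Units.val_pow_eq_pow_val, ← hv, hvθ, ← pow_mul, ← hNf, hθN,
      Units.val_one, sub_self, norm_zero]
    exact zero_lt_one
  have hαinv : α ^ p = α⁻¹ := by
    rw [pow_succ] at hαp
    exact eq_inv_of_mul_eq_one_left hαp
  have hαinv' : (α⁻¹ : kˣ) ^ p = α := by
    rw [inv_pow, hαinv, inv_inv]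
  -- the trace of `α` is in the prime field
  have hsp : ((α : k) + ((α⁻¹ : kˣ) : k)) ^ p = (α : k) + ((α⁻¹ : kˣ) : k) := by
    rw [add_pow_char, ← Units.val_pow_eq_pow_val, ← Units.val_pow_eq_pow_val, hαinv, hαinv',
      add_comm]
  obtain ⟨ns, hns⟩ : ∃ ns : ℕ, (ns : k) = (α : k) + ((α⁻¹ : kˣ) : k) := by
    letI : Algebra (ZMod p) k := ZMod.algebra k p
    obtain ⟨n, hn⟩ := h75s_mem_prime (p := p) hsp
    refine ⟨n.val, ?_⟩
    rw [← hn, ← map_natCast (algebraMap (ZMod p) k), ZMod.natCast_zmod_val]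
  have hrel : (α : k) * (α : k) + 1 = (ns : k) * (α : k) := by
    rw [hns, add_mul]
    congr 1
    rw [← Units.val_mul, inv_mul_cancel, Units.val_one]
  -- Teichmüller: `v + v⁻¹ ≡ ns`
  have hvinv : ((τ α⁻¹ : (Om p)ˣ) : Om p) = v⁻¹ := by
    rw [map_inv, Units.val_inv_eq_inv_val, hv]
  have hT : ‖(ns : Om p) - (v + v⁻¹)‖ < 1 := by
    have h1 := h7g_lift_add τ hτ.1 hτ.2 (α : k) ((α⁻¹ : kˣ) : k)
    rw [← hns, h7g_lift_unit, h7g_lift_unit, hvinv, ← hv] at h1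
    have h3 := h7g_lift_natCast τ hτ.1 hτ.2 ns
    have e : (ns : Om p) - (v + v⁻¹) =
        (h7g_lift τ ((ns : ℕ) : k) - (v + v⁻¹)) - (h7g_lift τ ((ns : ℕ) : k) - (ns : Om p)) := by
      ring
    rw [e]
    exact lt_of_le_of_lt (h89o_norm_sub_le_max _ _) (max_lt h1 h3)
  have hv0 : v ≠ 0 := by
    rw [hv]
    exact Units.ne_zero _
  have hvnorm : ‖v‖ = 1 := h66v_norm_root hN0 hvN
  -- the multiplier `u = θ₀ ^ (j - p - 1)`
  have hpN' : p + 1 ≤ N := by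
    rw [hNf]
    calc p + 1 = 1 * (p + 1) := (one_mul _).symm
      _ ≤ (p - 1) * (p + 1) := Nat.mul_le_mul_right _ (by omega)
  obtain ⟨u, hu⟩ : ∃ u : Om p, u = θ₀ ^ (j + (N - (p + 1))) := ⟨_, rfl⟩
  have huθ : u * θ₀ ^ (p + 1) = θ₀ ^ j := by
    rw [hu, ← pow_add, add_assoc, Nat.sub_add_cancel hpN', pow_add, hθN, mul_one]
  have huN : u ^ N = 1 := by
    rw [hu, ← pow_mul, mul_comm, pow_mul, hθN, one_pow]
  have hunorm : ‖u‖ = 1 := h66v_norm_root hN0 huN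
  have hfin : IsOfFinOrder θ₀ := isOfFinOrder_iff_pow_eq_one.mpr ⟨N, hN0, hθN⟩
  have hord : orderOf θ₀ = N := hθ₀.eq_orderOf.symm
  have huv : u ≠ v := by
    intro h
    apply h2p
    have h1 : θ₀ ^ j = θ₀ ^ (2 * p) := by
      rw [← huθ, h, hvθ, ← pow_add]
      congr 1
      omega
    have := hfin.pow_eq_pow_iff_modEq.mp h1
    rwa [hord] at this
  have huv' : u ≠ v⁻¹ := by
    intro h
    apply h2
    have h1 : θ₀ ^ (j + (p - 1)) = θ₀ ^ (2 + (p - 1)) := by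
      have h3 : u * v = 1 := by rw [h, inv_mul_cancel₀ hv0]
      calc θ₀ ^ (j + (p - 1)) = u * θ₀ ^ (p + 1) * v := by rw [pow_add, huθ, hvθ]
        _ = (u * v) * θ₀ ^ (p + 1) := by ring
        _ = θ₀ ^ (2 + (p - 1)) := by
          rw [h3, one_mul]
          congr 1
          omega
    have h4 := hfin.pow_eq_pow_iff_modEq.mp h1
    rw [hord] at h4
    exact Nat.ModEq.add_right_cancel' _ h4
  have hvinvN : (v⁻¹) ^ N = 1 := by rw [inv_pow, hvN, inv_one]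
  have hX : ‖u * u - (ns : Om p) * u + 1‖ = 1 := by
    have hY : ‖(u - v) * (u - v⁻¹)‖ = 1 := by
      rw [norm_mul, h66v_norm_sub_eq_one hN0 hpN huN hN0 hpN hvN huv,
        h66v_norm_sub_eq_one hN0 hpN huN hN0 hpN hvinvN huv', one_mul]
    have hXY : ‖(u * u - (ns : Om p) * u + 1) - (u - v) * (u - v⁻¹)‖ < 1 := by
      have e : (u * u - (ns : Om p) * u + 1) - (u - v) * (u - v⁻¹) =
          -(((ns : Om p) - (v + v⁻¹)) * u) := by
        field_simp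
        ring
      rw [e, norm_neg, norm_mul, hunorm, mul_one]
      exact hT
    apply le_antisymm
    · have e : u * u - (ns : Om p) * u + 1 =
          ((u * u - (ns : Om p) * u + 1) - (u - v) * (u - v⁻¹)) + (u - v) * (u - v⁻¹) := by
        ring
      rw [e]
      exact (IsUltrametricDist.norm_add_le_max _ _).trans (max_le hXY.le hY.le)
    · by_contra hlt
      rw [not_le] at hlt
      have e : (u - v) * (u - v⁻¹) =
          (u * u - (ns : Om p) * u + 1) -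
            ((u * u - (ns : Om p) * u + 1) - (u - v) * (u - v⁻¹)) := by
        ring
      have h5 : ‖(u - v) * (u - v⁻¹)‖ < 1 := by
        rw [e]
        exact lt_of_le_of_lt (h89o_norm_sub_le_max _ _) (max_lt hlt hXY)
      rw [hY] at h5
      exact lt_irrefl _ h5
  -- the main argument
  obtain ⟨a, ha, hca⟩ := (hDisc p hp2 π ζ hπ' hζ hζ1 (fun g => l (μ g)) j).2 hl
  have hconj : ∀ g ∈ h89s_IK p π, μ (s⁻¹ * g * s) = (α : k) * μ g := by
    intro g hg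
    have := hμ s⁻¹ hsinv g hg
    rwa [inv_inv, ← hα] at this
  have hua : ‖u * a‖ ≤ 1 := by
    rw [norm_mul, hunorm, one_mul]
    exact ha
  have huua : ‖u * (u * a)‖ ≤ 1 := by
    rw [norm_mul, hunorm, one_mul]
    exact hua
  -- the twists
  have hc1 : h61k_Coef p π ζ (fun g => l ((α : k) * μ g)) j (u * a) := by
    have h1 := hTw p hp2 π ζ hπ' hζ hζ1 s hs (fun g => l (μ g)) j a (u * a) hj0 ha hca
      (by rw [hΨ, mul_right_comm, huθ])
    refine h61k_coef_ext ?_ h1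
    intro g hg
    show l (μ (s⁻¹ * g * s)) = l ((α : k) * μ g)
    rw [hconj g hg]
  have hc2 : h61k_Coef p π ζ (fun g => l ((α : k) * ((α : k) * μ g))) j (u * (u * a)) := by
    have h1 := hTw p hp2 π ζ hπ' hζ hζ1 s hs (fun g => l ((α : k) * μ g)) j (u * a)
      (u * (u * a)) hj0 hua hc1 (by rw [hΨ, mul_right_comm, huθ])
    refine h61k_coef_ext ?_ h1
    intro g hg
    show l ((α : k) * μ (s⁻¹ * g * s)) = l ((α : k) * ((α : k) * μ g))
    rw [hconj g hg]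
  have hcA := hAdd p hp2 π ζ hπ' hζ hζ1 _ _ j _ _ hj0 huua ha hc2 hca
  have hcB := h61k_coef_nsmul hAdd hp2 hπ' hζ hζ1 hj0 hua hc1 ns
  have hcB' : h61k_Coef p π ζ (fun g => l ((α : k) * ((α : k) * μ g)) + l (μ g)) j
      ((ns : Om p) * (u * a)) := by
    refine h61k_coef_ext ?_ hcB
    intro g _
    show ns • l ((α : k) * μ g) = l ((α : k) * ((α : k) * μ g)) + l (μ g)
    rw [← map_nsmul, ← map_add]
    congr 1
    rw [nsmul_eq_mul, ← mul_assoc, ← mul_assoc, ← hrel]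
    ring
  have hnua : ‖(ns : Om p) * (u * a)‖ ≤ 1 := by
    rw [norm_mul]
    exact mul_le_one₀ (h61k_norm_natCast_le ns) (norm_nonneg _) hua
  have hsum : ‖u * (u * a) + a‖ ≤ 1 :=
    (IsUltrametricDist.norm_add_le_max _ _).trans (max_le huua ha)
  have hj' : j < p ^ 2 + p := hj
  have hlt := hUniq p hp2 π ζ hπ' hζ hζ1 _ j _ _ hpj hj' hsum hnua hcA hcB'
  have e : u * (u * a) + a - (ns : Om p) * (u * a) = (u * u - (ns : Om p) * u + 1) * a := by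
    ring
  rw [e, norm_mul, hX, one_mul] at hlt
  have hc0 : h61k_Coef p π ζ (fun g => l (μ g)) j 0 :=
    h61k_coef_congr hπ' hca (by rwa [sub_zero])
  exact (hDisc p hp2 π ζ hπ' hζ hζ1 (fun g => l (μ g)) j).1 hc0

/-- **The eigen-step** (all characters). -/
theorem h61k_eigen (hDisc : H61KDisc) (hAdd : H61KAdd) (hUniq : H61KUniq) (hTw : H61KTwist)
    (hp2 : p ≠ 2) {k : Type} [Field k] [Finite k] [CharP k p]
    (τ : kˣ →* (Om p)ˣ) (hτ : IsTeich p τ) {π : Om p} (hπ : π ^ (p ^ 2 - 1) = p)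
    (ψ : Gq p → kˣ)
    (hψ : ∀ σ ∈ inertia p, ((τ (ψ σ) : (Om p)ˣ) : Om p) * (σ π / π) ^ p = σ π / π)
    (μ : Gq p → k)
    (hμ : ∀ σ ∈ inertia p, ∀ g ∈ h89s_IK p π, μ (σ * g * σ⁻¹) = ((ψ σ : kˣ) : k) * μ g)
    {ζ : Om p} (hζ : ζ ^ p = 1) (hζ1 : ζ ≠ 1) {j : ℕ} (hj0 : 0 < j) (hj : j < p ^ 2 + p)
    (hpj : ¬ p ∣ j) (h2 : ¬ j ≡ 2 [MOD p ^ 2 - 1]) (h2p : ¬ j ≡ 2 * p [MOD p ^ 2 - 1])
    (hall : ∀ l : k →+ ZMod p, h61k_Lev p π ζ (fun g => l (μ g)) j) :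
    ∀ l : k →+ ZMod p, h61k_Lev p π ζ (fun g => l (μ g)) (j + 1) := fun l =>
  h61k_eigen1 hDisc hAdd hUniq hTw hp2 τ hτ hπ ψ hψ μ hμ hζ hζ1 hj0 hj hpj h2 h2p l (hall l)

/-- arithmetic: the exceptional residues are avoided in `3 ≤ j ≤ p²`. -/
theorem h61k_arith1 (hp2 : p ≠ 2) {j : ℕ} (h3 : 3 ≤ j) (hj : j ≤ p ^ 2) (hpj : ¬ p ∣ j) :
    ¬ j ≡ 2 [MOD p ^ 2 - 1] ∧ ¬ j ≡ 2 * p [MOD p ^ 2 - 1] := by
  have hp : p.Prime := Fact.out
  have hp3 : 3 ≤ p := by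
    have := hp.two_le
    omega
  obtain ⟨P2, hP2⟩ : ∃ P2, P2 = p ^ 2 := ⟨_, rfl⟩
  have hP2' : 3 * p ≤ P2 := by
    rw [hP2, pow_two]
    exact Nat.mul_le_mul_right p hp3
  rw [← hP2] at hj ⊢
  constructor
  · intro h
    have h1 : P2 - 1 ∣ j - 2 := (Nat.modEq_iff_dvd' (by omega)).mp h.symm
    have h2 := Nat.le_of_dvd (by omega) h1
    omega
  · intro h
    rcases le_or_gt (2 * p) j with hle | hlt
    · have h1 : P2 - 1 ∣ j - 2 * p := (Nat.modEq_iff_dvd' hle).mp h.symm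
      have hne : j ≠ 2 * p := by
        rintro rfl
        exact hpj (Dvd.intro_left 2 rfl)
      have h2 := Nat.le_of_dvd (by omega) h1
      omega
    · have h1 : P2 - 1 ∣ 2 * p - j := (Nat.modEq_iff_dvd' hlt.le).mp h
      have h2 := Nat.le_of_dvd (by omega) h1
      omega

/-- arithmetic: the exceptional residues are avoided in `p² + 2 ≤ j < p² + p`. -/
theorem h61k_arith2 (hp2 : p ≠ 2) {j : ℕ} (h3 : p ^ 2 + 2 ≤ j) (hj : j < p ^ 2 + p) :
    ¬ p ∣ j ∧ ¬ j ≡ 2 [MOD p ^ 2 - 1] ∧ ¬ j ≡ 2 * p [MOD p ^ 2 - 1] := by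
  have hp : p.Prime := Fact.out
  have hp3 : 3 ≤ p := by
    have := hp.two_le
    omega
  obtain ⟨P2, hP2⟩ : ∃ P2, P2 = p ^ 2 := ⟨_, rfl⟩
  have hP2' : 3 * p ≤ P2 := by
    rw [hP2, pow_two]
    exact Nat.mul_le_mul_right p hp3
  have hdvd : p ∣ P2 := by
    rw [hP2]
    exact dvd_pow_self p (by norm_num)
  rw [← hP2] at h3 hj ⊢
  refine ⟨?_, ?_, ?_⟩
  · intro h
    have h1 : p ∣ j - P2 := Nat.dvd_sub h hdvd
    have h2 := Nat.le_of_dvd (by omega) h1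
    omega
  · intro h
    have h1 : P2 - 1 ∣ j - 2 := (Nat.modEq_iff_dvd' (by omega)).mp h.symm
    obtain ⟨c, hc⟩ := h1
    rcases c with _ | _ | c
    · omega
    · omega
    · have h2 : (P2 - 1) * 2 ≤ (P2 - 1) * (c + 1 + 1) := Nat.mul_le_mul_left _ (by omega)
      omega
  · intro h
    have h1 : P2 - 1 ∣ j - 2 * p := (Nat.modEq_iff_dvd' (by omega)).mp h.symm
    have h2 := Nat.le_of_dvd (by omega) h1
    omega

section Climb

variable (hDisc : H61KDisc) (hAdd : H61KAdd) (hUniq : H61KUniq) (hTw : H61KTwist)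
  (hP : H61KPStep) (hp2 : p ≠ 2) {k : Type} [Field k] [Finite k] [CharP k p]
  (τ : kˣ →* (Om p)ˣ) (hτ : IsTeich p τ) {π : Om p} (hπ : π ^ (p ^ 2 - 1) = p)
  (ψ : Gq p → kˣ)
  (hψ : ∀ σ ∈ inertia p, ((τ (ψ σ) : (Om p)ˣ) : Om p) * (σ π / π) ^ p = σ π / π)
  (μ : Gq p → k)
  (hμ : ∀ σ ∈ inertia p, ∀ g ∈ h89s_IK p π, μ (σ * g * σ⁻¹) = ((ψ σ : kˣ) : k) * μ g)
  {ζ : Om p} (hζ : ζ ^ p = 1) (hζ1 : ζ ≠ 1)

include hDisc hAdd hUniq hTw hP hp2 hτ hπ hψ hμ hζ hζ1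

/-- **Climb 1**: from level `3` to level `p² + 1`. -/
theorem h61k_climb1 (hall : ∀ l : k →+ ZMod p, h61k_Lev p π ζ (fun g => l (μ g)) 3) :
    ∀ l : k →+ ZMod p, h61k_Lev p π ζ (fun g => l (μ g)) (p ^ 2 + 1) := by
  have hp : p.Prime := Fact.out
  have key : ∀ j, 3 ≤ j → j ≤ p ^ 2 + 1 →
      ∀ l : k →+ ZMod p, h61k_Lev p π ζ (fun g => l (μ g)) j := by
    intro j h3
    induction j, h3 using Nat.le_induction with
    | base => exact fun _ => hall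
    | succ j h3 ih =>
      intro hj
      have ihj := ih (by omega)
      by_cases hpj : p ∣ j
      · obtain ⟨i, rfl⟩ := hpj
        have hi1 : 1 ≤ i := by
          rcases Nat.eq_zero_or_pos i with h0 | h0
          · rw [h0] at h3
            omega
          · exact h0
        have hi2 : i ≤ p := by
          have h4 : p * i ≤ p * p := by
            rw [← pow_two]
            omega
          exact Nat.le_of_mul_le_mul_left h4 hp.pos
        intro l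
        exact hP p hp2 π ζ hπ hζ hζ1 _ i hi1 (by omega) (ihj l)
      · obtain ⟨h2, h2p⟩ := h61k_arith1 hp2 h3 (by omega) hpj
        exact h61k_eigen hDisc hAdd hUniq hTw hp2 τ hτ hπ ψ hψ μ hμ hζ hζ1 (by omega)
          (by have := hp.pos; omega) hpj h2 h2p ihj
  exact key _ (by have := hp.two_le; nlinarith) le_rfl

/-- **Climb 2**: from level `p² + 2` to the top: `l ∘ μ = 0` on `I_K`. -/
theorem h61k_climb2 (hTop : H61KTop)
    (hall : ∀ l : k →+ ZMod p, h61k_Lev p π ζ (fun g => l (μ g)) (p ^ 2 + 2)) :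
    ∀ l : k →+ ZMod p, ∀ g ∈ h89s_IK p π, l (μ g) = 0 := by
  have hp : p.Prime := Fact.out
  have key : ∀ j, p ^ 2 + 2 ≤ j → j ≤ p ^ 2 + p →
      ∀ l : k →+ ZMod p, h61k_Lev p π ζ (fun g => l (μ g)) j := by
    intro j h3
    induction j, h3 using Nat.le_induction with
    | base => exact fun _ => hall
    | succ j h3 ih =>
      intro hj
      have ihj := ih (by omega)
      obtain ⟨hpj, h2, h2p⟩ := h61k_arith2 hp2 h3 (by omega)
      exact h61k_eigen hDisc hAdd hUniq hTw hp2 τ hτ hπ ψ hψ μ hμ hζ hζ1 (by omega)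
        (by omega) hpj h2 h2p ihj
  have hp3 : 3 ≤ p := by
    have := hp.two_le
    omega
  have h1 := key (p ^ 2 + p) (by omega) le_rfl
  intro l
  have h2 : h61k_Lev p π ζ (fun g => l (μ g)) (p * (p + 1)) := by
    have e : p * (p + 1) = p ^ 2 + p := by ring
    rw [e]
    exact h1 l
  have h3 := hP p hp2 π ζ hπ hζ hζ1 _ (p + 1) (by omega) le_rfl h2
  have e : p * (p + 1) + 1 = p ^ 2 + p + 1 := by ring
  rw [e] at h3
  exact hTop p hp2 π ζ hπ hζ hζ1 _ h3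

end Climb

/-- additive functionals separate the points of `k`. -/
theorem h61k_separate {k : Type} [Field k] [CharP k p] {y : k}
    (h : ∀ l : k →+ ZMod p, l y = 0) : y = 0 := by
  letI : Algebra (ZMod p) k := ZMod.algebra k p
  rw [← Module.forall_dual_apply_eq_zero_iff (ZMod p) y]
  intro φ
  exact h φ.toAddMonoidHom

end Fermat.Agent.S56F
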