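import Fermat.Agent.S56F.FinalAsm
import Fermat.Agent.S56F.FLO8Final_helper34

/-!
# S56 / LOC-p-FL: block ORD is unconditional; the pillar reduced to the four SS blocks
-/

set_option autoImplicit false

namespace Fermat.Agent.S56F

/-- **Block ORD, unconditional.** -/
theorem h97_ordBound : OrdBound := h97_ordBound_of h34k_ordKC

/-- **The pillar LOC-p-FL from the four supersingular blocks.** -/
theorem h97_locPFL_of_ss (s1 : SSNFExists) (s2 : SSDiagZero) (s3 : SSOffLev3) (s4 : SSCount) :
    LocPFL :=
  h97_locPFL_of h34k_ordKC s1 s2 s3 s4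

end Fermat.Agent.S56F
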