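import Fermat.Agent.S56F.FinalSS_helper97
import Fermat.Agent.S56F.FLS2A_helper49
import Fermat.Agent.S56F.FLS4KD_helper7

/-!
# S56 / LOC-p-FL (helper97): final assembly of `LocPFL`, conditional on the eigen-exclusion only

`h97_locPFL_of1 : H89KLevEig → LocPFL` (`SSClaimA` = `h49a_ssClaimA`, `H89KInv` = `h7d_kInv`).
-/

set_option autoImplicit false

namespace Fermat.Agent.S56F

theorem h97_locPFL_of1 (hB : H89KLevEig) : LocPFL :=
  h97_locPFL_of3 h49a_ssClaimA hB h7d_kInv

end Fermat.Agent.S56F
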