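import Fermat.Agent.S56F.FinalOrd
import Fermat.Agent.S56F.FLS1F_helper7
import Fermat.Agent.S56F.FLS2Final_helper39
import Fermat.Agent.S56F.FLS3Final_helper15
import Fermat.Agent.S56F.FLS4KAsm_helper89
import Fermat.Agent.S56F.FLS4K3_helper43
import Fermat.Agent.S56F.FLS4KC_helper97
import Fermat.Agent.S56F.FLS4KE_helper10

/-!
# S56 / LOC-p-FL (helper97): conditional final assembly of `LocPFL`

`h97_locPFL_of3 : SSClaimA → H89KLevEig → H89KInv → LocPFL`: every other block of the flat local
condition at `p` is already a theorem (ordinary block `h97_ordBound`, supersingular normal form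
`h7x_ssnfExists`, off-diagonal level `h15s_ssOffLev3`, diagonal assembly `h39s_ssDiagZero_ofA`,
Kummer count assembly `h89k_ssCount_of` with `h43s_kLevP`, `h97k_kLevTop`, `h10e_kSemi2`).
-/

set_option autoImplicit false

namespace Fermat.Agent.S56F

theorem h97_locPFL_of3 (hA : SSClaimA) (hB : H89KLevEig) (hD : H89KInv) : LocPFL :=
  h97_locPFL_of_ss h7x_ssnfExists (h39s_ssDiagZero_ofA hA) h15s_ssOffLev3
    (h89k_ssCount_of h43s_kLevP hB h97k_kLevTop hD h10e_kSemi2)

end Fermat.Agent.S56F
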