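import Fermat.Agent.S56F.Defs

/-!
# S56 / LOC-p-FL: frozen leaf statements, block HOPF (normal form, H1–H4, sub/quotient)

Every `def … : Prop` below is a LEAF (row `FL-…` on `s56_tasks`); prove it as
`theorem <your prefix>_<name> : <Name>` in your own file `Fermat/Agent/S56F/<File>.lean`
(import this file; Mathlib only is needed for this block).  Do NOT edit this file.

Notation: `Om p = PadicAlgCl p`, `‖p‖ = p⁻¹`; `Gq p` acts by isometries
(`nnnorm_padicAlgCl_algEquiv`); `fixInt p Γ` = integers fixed by `Γ`; `intOm p` = all integers.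
-/

set_option autoImplicit false

open Fermat.Agent.PT.Loc

noncomputable section

namespace Fermat.Agent.S56F

/-! ## A. Normal form -/

/-- **FL-A1** (normal form).  A `Flat` module has a function Hopf order over `fixInt p Γ`, for
every `Γ ≤ Gq p`, stable under conjugation by the normaliser of `Γ`.
Proof: `𝓗 := fixInt p Γ`-span of the functions `x ↦ padicEmbedding p ((e.symm x) h)`, `h ∈ H`.
Equivariance from `padicEmbedding_localGaloisToGlobal`; Sweedler form from the definition of the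
convolution product (`(f * g) h = ∑ f h₁ * g h₂`); `ℤ_(p) ⊆ fixInt p Γ`. -/
def NormalForm : Prop :=
  ∀ (p : ℕ) [Fact p.Prime] (M : Type) [AddCommGroup M] [Finite M] (act : GQ → M → M),
    Flat p M act → ∀ Γ : Subgroup (Gq p),
      ∃ 𝓗 : FHO p Γ M (fun τ => act (ιp p τ)),
        ∀ τ : Gq p, (∀ σ ∈ Γ, τ * σ * τ⁻¹ ∈ Γ) → (∀ σ ∈ Γ, τ⁻¹ * σ * τ ∈ Γ) → 𝓗.ConjStable τ

/-- **FL-A2** (compositum).  An order can be enlarged to one stable under all additive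
automorphisms commuting with `Γ`, keeping conjugation stability.
Proof: the subalgebra generated by the finitely many `𝓗 ∘ α`. -/
def AutStabilize : Prop :=
  ∀ (p : ℕ) [Fact p.Prime] (Γ : Subgroup (Gq p)) (M : Type) [AddCommGroup M] [Finite M]
    (act : Gq p → M → M), IsAct act → ∀ 𝓗 : FHO p Γ M act,
      (∀ τ : Gq p, (∀ σ ∈ Γ, τ * σ * τ⁻¹ ∈ Γ) → (∀ σ ∈ Γ, τ⁻¹ * σ * τ ∈ Γ) → 𝓗.ConjStable τ) →
      ∃ 𝓗' : FHO p Γ M act, 𝓗.carrier ≤ 𝓗'.carrier ∧
        (∀ α : M ≃+ M, (∀ σ ∈ Γ, ∀ x, α (act σ x) = act σ (α x)) → 𝓗'.StableUnder α) ∧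
        (∀ τ : Gq p, (∀ σ ∈ Γ, τ * σ * τ⁻¹ ∈ Γ) → (∀ σ ∈ Γ, τ⁻¹ * σ * τ ∈ Γ) →
          𝓗'.ConjStable τ)

/-- **FL-A3** (H3, group-likes are integral).  Every order is character complete.
Proof: `N := intOm`-span of `𝓗` is a lattice in `M → Om p` (separation + Lagrange interpolation);
its dual `D ⊆ Om p [M]` is closed under convolution (Sweedler form) and bounded, so a character
`ξ`, being multiplicative on `D`, has `‖ξ̂ μ‖ ^ n ≤ C` for all `n`, i.e. `‖ξ̂ μ‖ ≤ 1` on `D`;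
`N` is free (finitely generated torsion-free over a valuation ring), hence `ξ ∈ D^∨ = N`. -/
def CharCompleteAll : Prop :=
  ∀ (p : ℕ) [Fact p.Prime] (Γ : Subgroup (Gq p)) (M : Type) [AddCommGroup M] [Finite M]
    (act : Gq p → M → M) (𝓗 : FHO p Γ M act), 𝓗.CharComplete

/-- Block A, assembled: a `Flat` module has a nice order over every `Γ`. -/
def NiceExists : Prop :=
  ∀ (p : ℕ) [Fact p.Prime] (M : Type) [AddCommGroup M] [Finite M] (act : GQ → M → M),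
    IsAct act → Flat p M act → ∀ Γ : Subgroup (Gq p),
      ∃ 𝓗 : FHO p Γ M (fun τ => act (ιp p τ)), 𝓗.Nice

theorem niceExists_of (h1 : NormalForm) (h2 : AutStabilize) (h3 : CharCompleteAll) :
    NiceExists := by
  intro p _ M _ _ act hact hfl Γ
  obtain ⟨𝓗, h𝓗⟩ := h1 p M act hfl Γ
  have hact' : IsAct (fun τ : Gq p => act (ιp p τ)) :=
    ⟨fun x => by simp only [map_one]; exact hact.one x,
     fun σ τ x => by simp only [map_mul]; exact hact.mul _ _ x,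
     fun σ x y => hact.add _ x y⟩
  obtain ⟨𝓗', -, ha, hc⟩ := h2 p Γ M _ hact' 𝓗 h𝓗
  exact ⟨𝓗', ⟨ha, hc, h3 p Γ M _ 𝓗'⟩⟩

/-! ## B. The congruence filtration -/

/-- **FL-B1** (integrality of values). -/
def ValuesIntegral : Prop :=
  ∀ (p : ℕ) [Fact p.Prime] (Γ : Subgroup (Gq p)) (M : Type) [AddCommGroup M]
    (act : Gq p → M → M) (𝓗 : FHO p Γ M act), ∀ f ∈ 𝓗.carrier, ∀ x, ‖f x‖ ≤ 1

/-- **FL-B2** (H1, translation invariance): `x + y ≡ x` iff `y ≡ 0`.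
Proof: `f (x + y) - f x = ∑ (a i y - a i 0) * b i x` and
`f y - f 0 = ∑ (a i (x + y) - a i x) * b i (-x)`; ultrametric inequality and FL-B1. -/
def TranslationInvariance : Prop :=
  ∀ (p : ℕ) [Fact p.Prime] (Γ : Subgroup (Gq p)) (M : Type) [AddCommGroup M]
    (act : Gq p → M → M) (𝓗 : FHO p Γ M act) (x y : M) (t : ℝ),
    𝓗.Cong (x + y) x t ↔ 𝓗.PtLE y t

/-- **FL-B3** (the points `≡ 0` form a subgroup). -/
def PtSubgroup : Prop :=
  ∀ (p : ℕ) [Fact p.Prime] (Γ : Subgroup (Gq p)) (M : Type) [AddCommGroup M]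
    (act : Gq p → M → M) (𝓗 : FHO p Γ M act) (t : ℝ),
    (0 ≤ t → 𝓗.PtLE 0 t) ∧ (∀ y y', 𝓗.PtLE y t → 𝓗.PtLE y' t → 𝓗.PtLE (y + y') t) ∧
      (∀ y, 𝓗.PtLE y t → 𝓗.PtLE (-y) t)

/-- **FL-B4** (stability of the filtration). -/
def PtStable : Prop :=
  ∀ (p : ℕ) [Fact p.Prime] (Γ : Subgroup (Gq p)) (M : Type) [AddCommGroup M]
    (act : Gq p → M → M), IsAct act → ∀ (𝓗 : FHO p Γ M act) (t : ℝ) (y : M), 𝓗.PtLE y t →
    (∀ σ ∈ Γ, 𝓗.PtLE (act σ y) t) ∧
    (∀ α : M ≃+ M, 𝓗.StableUnder α → 𝓗.PtLE (α y) t) ∧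
    (∀ τ : Gq p, 𝓗.ConjStable τ⁻¹ → 𝓗.PtLE (act τ y) t)

/-- **FL-B5** (H4): inertia acts trivially modulo the points `≡ 0 mod 𝔪`. -/
def InertiaTrivial : Prop :=
  ∀ (p : ℕ) [Fact p.Prime] (Γ : Subgroup (Gq p)) (M : Type) [AddCommGroup M]
    (act : Gq p → M → M) (𝓗 : FHO p Γ M act), Γ ≤ inertia p →
    ∀ σ ∈ Γ, ∀ x : M, ∃ t : ℝ, t < 1 ∧ 𝓗.PtLE (act σ x - x) t

/-- **FL-B6** (H2, the ramification bound): if `g ∈ Γ` moves `x` by a point `y` which is NOT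
`≡ 0` modulo `{‖·‖ ≤ t}`, there is an integer `z` of the field of definition of `x` with
`‖g z - z‖ > t`. -/
def RamBound : Prop :=
  ∀ (p : ℕ) [Fact p.Prime] (Γ : Subgroup (Gq p)) (M : Type) [AddCommGroup M]
    (act : Gq p → M → M) (𝓗 : FHO p Γ M act) (g : Gq p), g ∈ Γ → ∀ (x : M) (t : ℝ),
    ¬ 𝓗.PtLE (act g x - x) t →
    ∃ z : Om p, ‖z‖ ≤ 1 ∧ (∀ σ ∈ Γ, act σ x = x → σ z = z) ∧ t < ‖g z - z‖

/-- **FL-B7** (restriction to a sub-object): pull-back of the order along an injective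
equivariant additive map. -/
def SubOrder : Prop :=
  ∀ (p : ℕ) [Fact p.Prime] (Γ : Subgroup (Gq p)) (M : Type) [AddCommGroup M] [Finite M]
    (act : Gq p → M → M) (𝓗 : FHO p Γ M act) (N : Type) [AddCommGroup N]
    (actN : Gq p → N → N) (j : N →+ M), Function.Injective j →
    (∀ σ ∈ Γ, ∀ x, j (actN σ x) = act σ (j x)) →
    ∃ 𝓗N : FHO p Γ N actN, (∀ g : N → Om p, g ∈ 𝓗N.carrier ↔ ∃ f ∈ 𝓗.carrier, g = f ∘ j) ∧
      (𝓗.CharComplete → 𝓗N.CharComplete)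

/-- `fixInt p Γ` is a discrete valuation ring with uniformiser `ϖ`. -/
def IsDiscrete (p : ℕ) [Fact p.Prime] (Γ : Subgroup (Gq p)) (ϖ : Om p) : Prop :=
  ϖ ∈ fixInt p Γ ∧ ‖ϖ‖ < 1 ∧ ϖ ≠ 0 ∧
    ∀ x ∈ fixInt p Γ, x ≠ 0 → ∃ (n : ℕ) (u : Om p), u ∈ fixInt p Γ ∧ ‖u‖ = 1 ∧ x = ϖ ^ n * u

/-- **FL-B8** (quotient object): over a discrete `fixInt p Γ`, the `ker π`-invariant functions
of the order form an order of the quotient.
Proof: `𝓗` is free over the PID `R = fixInt p Γ`; `𝓗^N` is saturated, hence a direct summand;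
an `R`-basis of `𝓗` is linearly independent over `Om p` (Artin's argument: `Γ`-fixed elements
are in `Frac R`); so `f (x + y) = ∑ c i j • e i x * e j y` with `f` invariant forces `c i j = 0`
outside the basis of `𝓗^N`.  Separation: for `f ∈ 𝓗` the elementary symmetric functions
`g_k x = e_k (f (x + n) : n ∈ N)` are `N`-invariant and `Γ`-equivariant, hence in `Frac R • 𝓗`
(an equivariant `∑ c i • e i` has `Γ`-fixed `c i`), so `ϖ ^ m • g_k ∈ 𝓗^N`; if they do not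
separate `x, x'` then `𝓗 = ⋃ n, {f | f x' = f (x + n)}`, a finite union of submodules, so one of
them is `𝓗` and `x' = x + n`.  Character completeness: `(intOm • 𝓗)^N = intOm • 𝓗^N` by the
same basis (`rank 𝓗^N = #(M/N)` by interpolation). -/
def QuotOrder : Prop :=
  ∀ (p : ℕ) [Fact p.Prime] (Γ : Subgroup (Gq p)) (ϖ : Om p), IsDiscrete p Γ ϖ →
  ∀ (M : Type) [AddCommGroup M] [Finite M]
    (act : Gq p → M → M), IsAct act → ∀ (𝓗 : FHO p Γ M act) (Q : Type) [AddCommGroup Q]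
    (actQ : Gq p → Q → Q) (π : M →+ Q), Function.Surjective π →
    (∀ σ ∈ Γ, ∀ x, π (act σ x) = actQ σ (π x)) →
    ∃ 𝓗Q : FHO p Γ Q actQ, (∀ g : Q → Om p, g ∈ 𝓗Q.carrier ↔ g ∘ π ∈ 𝓗.carrier) ∧
      (𝓗.CharComplete → 𝓗Q.CharComplete)

end Fermat.Agent.S56F
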