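import Fermat.Agent.S56F.IfaceOrd

/-!
# S56 / LOC-p-FL: frozen leaf statements, block HOPF, part 2 (base change, unit eigenfunctions)
-/

set_option autoImplicit false

open Fermat.Agent.PT.Loc

noncomputable section

namespace Fermat.Agent.S56F

/-- **FL-B9** (base change): for `Γ' ≤ Γ` the `fixInt p Γ'`-span of an order over `Γ` is an
order over `Γ'`. -/
def BaseChange : Prop :=
  ∀ (p : ℕ) [Fact p.Prime] (Γ Γ' : Subgroup (Gq p)), Γ' ≤ Γ →
  ∀ (M : Type) [AddCommGroup M] (act : Gq p → M → M) (𝓗 : FHO p Γ M act),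
    ∃ 𝓗' : FHO p Γ' M act, (∀ f ∈ 𝓗.carrier, f ∈ 𝓗'.carrier) ∧
      ∀ f ∈ 𝓗'.carrier, f ∈ Submodule.span (fixInt p Γ') (𝓗.carrier : Set (M → Om p))

/-- **FL-D7** (tame extensions of the inertia field are discrete): the integers of
`ℚ_p^ur(π)`, `π ^ n = p`, `p ∤ n`, are discrete with uniformiser `π`.
Proof: eigen-decomposition `x = ∑_{j<n} x_j`, `x_j ∈ ℚ_p^ur π^j`, under `μ_n`; the norms of
the non-zero `x_j` are pairwise distinct. -/
def TameDiscrete : Prop :=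
  ∀ (p : ℕ) [Fact p.Prime] (n : ℕ), 0 < n → ¬ p ∣ n → ∀ π : Om p, π ^ n = p →
    ∀ Γ : Subgroup (Gq p), (∀ σ, σ ∈ Γ ↔ σ ∈ inertia p ∧ σ π = π) → IsDiscrete p Γ π

/-- **FL-B10** (unit eigenfunctions; the heart of "peu ramifié").  `𝓗` a character complete
order over inertia on `M`; `L ≤ M` with inertia trivial on `M/L`, `I₁ = {g ∈ inertia | g ζ_p =
ζ_p}` trivial on `L`, and `M/L` étale for `𝓗` (every `x ∉ L` is separated from `0` modulo `𝔪` by
an `L`-invariant function of `𝓗`).  Then for every character `ξ` of `M` and every `x` there is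
a UNIT `β` with `g β = ξ (g x - x) β` for all `g ∈ I₁`.
Proof: (a) the indicator `e` of `x + L` is in `𝓗` (Lagrange interpolation in the quotient order,
values in `fixInt p (inertia p)`, unit denominators); (b) `R₁ = fixInt p I₁` is discrete
(FL-D7), `𝓗₁ = R₁`-span of `𝓗` (FL-B9); the functions of `𝓗₁` supported on `x + L` with
`t (y + l) = ξ l * t y` form `R₁ t₀` (values at `x` lie on a line over `Frac R₁`), and
`t₀ x` is a Kummer generator; (c) `ξ • e ∈ intOm`-span of `𝓗` is of this type, so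
`ξ x = c * t₀ x` with `‖c‖ ≤ 1` (saturation + linear independence of an `R₁`-basis over
`Om p`, as in FL-B8), hence `‖t₀ x‖ = 1`. -/
def UnitEigen : Prop :=
  ∀ (p : ℕ) [Fact p.Prime], p ≠ 2 → ∀ (M : Type) [AddCommGroup M] [Finite M]
    (act : Gq p → M → M), IsAct act → ∀ 𝓗 : FHO p (inertia p) M act, 𝓗.CharComplete →
  ∀ L : AddSubgroup M, (∀ σ ∈ inertia p, ∀ x, act σ x - x ∈ L) →
    (∀ g ∈ inertia p, cycExp p g 1 → ∀ y ∈ L, act g y = y) →
    (∀ x, x ∉ L → ∃ f ∈ 𝓗.carrier, (∀ y ∈ L, ∀ z, f (z + y) = f z) ∧ ‖f x - f 0‖ = 1) →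
  ∀ ξ : M → Om p, ξ 0 = 1 → (∀ x y, ξ (x + y) = ξ x * ξ y) → ∀ x : M,
    ∃ β : Om p, ‖β‖ = 1 ∧ ∀ g ∈ inertia p, cycExp p g 1 → g β = ξ (act g x - x) * β

end Fermat.Agent.S56F
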