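import Fermat.Agent.S56F.IfaceOrd

/-!
# S56 / LOC-p-FL, row FL-O8 (`OrdKC`, helper34): frozen SUB-LEAVES

`OrdKC` (the Kummer count) is split into three independent sub-leaves and one assembly:

* `H34KCob`     (row FL-O8a): a `ψ`-cocycle vanishing on `I₁ = {g ∈ inertia, g = 1 on μ_p}` is a
                coboundary.  Pure group theory + `ψ ≠ 1` on inertia.
* `H34KUnitInv` (row FL-O8b): the invariant `a : U(ℚ_p^ur) → κ`, `u = [c] (1 + p a) ↦ a mod 𝔪`:
                additive, kernel = `p`-th powers, Frobenius semilinear.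
* `H34KSemilin` (row FL-O8c): pure algebra (Mathlib only): a `k`-linear family of additive maps
                `(k →+ 𝔽_p) → κ` which is Frobenius semilinear has `k`-rank `≤ 1`.
* assembly `h34k_ordKC_of` (helper34, file `FLO8_helper34.lean`): Kummer generators with
  `β ^ p ∈ ℚ_p^ur`, well-definedness of `μ, l ↦ a (β ^ p)`, and the count.

Prove each Prop as `theorem <prefix>_<name> : <Name>` in your own file
`Fermat/Agent/S56F/FLO8<x>_<seat>.lean`.  Do NOT edit this file.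
-/

set_option autoImplicit false

open Fermat.Agent.PT.Loc

noncomputable section

namespace Fermat.Agent.S56F

/-- **FL-O8a** (restriction to `I₁` is injective modulo coboundaries).
Proof: inertia is normal in `Gq p` and the action on `μ_p` is through an abelian group
(`IsPrimitiveRoot.autToPow`), so `h = τ⁻¹ σ₀⁻¹ τ σ₀ ∈ I₁` for `σ₀ ∈ inertia`.  Choose
`σ₀ ∈ inertia` with `ψ σ₀ ≠ 1` (the cyclotomic character is ramified: LOC-CYCRAM
`S56L/H10CycRam.lean`, or `FundSurjective` + `CycFund` with `n = p - 1`), put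
`x = μ σ₀ / (ψ σ₀ - 1)` and `μ' σ = μ σ - (ψ σ - 1) x`: a cocycle vanishing on `I₁` and at `σ₀`.
From `τ σ₀ = σ₀ τ h`: `μ' τ = μ' (τ σ₀) = μ' (σ₀ τ h) = ψ σ₀ * μ' τ`, so `μ' τ = 0`. -/
def H34KCob : Prop :=
  ∀ (p : ℕ) [Fact p.Prime], p ≠ 2 → ∀ (k : Type) [Field k] [CharP k p] (ψ : Gq p →* kˣ),
    (∀ σ ∈ inertia p, ∀ a : ℕ, cycExp p σ a → ((ψ σ : kˣ) : k) = (a : k)) →
    ∀ μ : Gq p → k, (∀ σ τ, μ (σ * τ) = μ σ + (ψ σ : k) * μ τ) →
      (∀ g ∈ inertia p, cycExp p g 1 → μ g = 0) →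
      ∃ x : k, ∀ σ, μ σ = ((ψ σ : k) - 1) * x

/-- **FL-O8b** (units of `ℚ_p^ur` modulo `p`-th powers).  There are a field `κ` of
characteristic `p` (the residue field of `Om p`) and a map `a : Om p → κ` which on the units
fixed by inertia is additive, has kernel the `p`-th powers (of elements fixed by inertia) and is
Frobenius semilinear.
Proof: a unit `v` fixed by inertia is `w * (1 + p * y)` with `w` a root of unity of order prime
to `p` (Teichmüller: `h34lf_teich_exists` as used in `FLD0_helper89`, uniqueness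
`h34lf_teich_unique'`) and `‖y‖ ≤ 1`, `y` fixed by inertia (`InertiaDiscrete`:
`v / w - 1 = p ^ n * u`, `n ≥ 1`); `a v := residue y`.
Additive: `(1 + p y) (1 + p y') = 1 + p (y + y' + p y y')`.
Kernel: `w` is a `p`-th power of a root of unity of order prime to `p`; if `residue y = 0` then
`y = p y'` (`InertiaDiscrete`), and `1 + p² y' = b ^ p` with `‖b - 1‖ < ‖ζ - 1‖`
(`∏ i, (b₀ - ζ ^ i) = b₀ ^ p - 1` has norm `≤ p⁻²`, and `p / (p - 1) < 2` as `p ≥ 3`); `b` is the
unique such root, hence fixed by inertia (isometries).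
Frobenius: `φ w = w ^ p`, and `‖φ y - y ^ p‖ < 1` for `y` integral fixed by inertia (`y` is
`≡ 0` or `≡` a root of unity of order prime to `p`). -/
def H34KUnitInv : Prop :=
  ∀ (p : ℕ) [Fact p.Prime], p ≠ 2 →
    ∃ (κ : Type) (_ : Field κ) (_ : CharP κ p) (a : Om p → κ),
      (∀ v v' : Om p, ‖v‖ = 1 → ‖v'‖ = 1 → (∀ σ ∈ inertia p, σ v = v) →
        (∀ σ ∈ inertia p, σ v' = v') → a (v * v') = a v + a v') ∧
      (∀ v : Om p, ‖v‖ = 1 → (∀ σ ∈ inertia p, σ v = v) → a v = 0 →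
        ∃ b : Om p, (∀ σ ∈ inertia p, σ b = b) ∧ b ^ p = v) ∧
      (∀ φ : Gq p, (∀ (w : Om p) (m : ℕ), 0 < m → ¬ p ∣ m → w ^ m = 1 → φ w = w ^ p) →
        ∀ v : Om p, ‖v‖ = 1 → (∀ σ ∈ inertia p, σ v = v) → a (φ v) = a v ^ p)

/-- **FL-O8c** (the semilinear count; Mathlib only).  `L = (k →+ 𝔽_p)`; `T μ : L → κ` additive
in `μ` and in `l`, compatible with the scalars (`T (x • μ) l = T μ (l ∘ x)`) and Frobenius
semilinear for one `c ∈ kˣ` (`T μ (l ∘ c) = (T μ l) ^ p`).  Then the image of `T` has `k`-rank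
`≤ 1`.
Proof: `E = {F : L → κ additive, F (l ∘ c) = F l ^ p}` is the fixed set of the `p`-semilinear
additive map `Φ F l = F (l ∘ c⁻¹) ^ p` of the `κ`-vector space `Hom_{𝔽_p}(L, κ)` of dimension
`r = dim_{𝔽_p} k`; `𝔽_p`-linearly independent fixed points of a `p`-semilinear map are
`κ`-linearly independent (shortest relation, apply `Φ`, subtract), so `#E ≤ p ^ r = #k`.
`k` acts on `E` by `(x • F) l = F (l ∘ x)` and `T` is `k`-linear, so its image is a `k`-subspace
with at most `#k` elements. -/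
def H34KSemilin : Prop :=
  ∀ (p : ℕ) [Fact p.Prime] (k : Type) [Field k] [Finite k] [CharP k p] (κ : Type) [Field κ]
    [CharP κ p] (S : Type) [AddCommGroup S] [Module k S] (T : S → (k →+ ZMod p) → κ) (c : kˣ),
    (∀ μ μ' l, T (μ + μ') l = T μ l + T μ' l) →
    (∀ μ l l', T μ (l + l') = T μ l + T μ l') →
    (∀ (x : k) μ l, T (x • μ) l = T μ (l.comp (AddMonoidHom.mulLeft x))) →
    (∀ μ l, T μ (l.comp (AddMonoidHom.mulLeft (c : k))) = T μ l ^ p) →
    ∃ μ₀ : S, ∀ μ : S, ∃ x : k, ∀ l, T (μ - x • μ₀) l = 0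

end Fermat.Agent.S56F
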