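import Fermat.Agent.S56F.IfaceHopf

/-!
# S56 / LOC-p-FL: frozen leaf statements, blocks TAME and RANK ONE (Raynaud via Gauss sums)

Rank one: `M` is a line over a finite field `k`, `#k = q = p ^ r`, inertia acts through a
character `χ`; `𝓗` is an order over `fixInt p (inertia p)` (the integers of `ℚ_p^ur`), stable
under `kˣ` and character complete.  For the Teichmüller character `τ` and `π ^ (q - 1) = p`
(fundamental character `Ψ σ = σ π / π`):  `τ ∘ χ = Ψ ^ m` on inertia, the `p`-adic digits of `m`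
are `0` or `1`, and the `τ ^ (p ^ i)`-eigenfunction generator `X_i` has
`‖X_i y‖ ^ (q - 1) = ‖p‖ ^ (p ^ i m mod (q - 1))` for `y ≠ 0`.

Do NOT edit this file.  Leaves are rows `FL-C*`, `FL-D*` on `s56_tasks`.
-/

set_option autoImplicit false

open Fermat.Agent.PT.Loc

noncomputable section

namespace Fermat.Agent.S56F

/-! ## D. Tame structure of `Gq p` -/

/-- **FL-D0**: inertia = the elements fixing all roots of unity of order prime to `p`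
(the description used by the landed PT toolkit, e.g. `h96k_norm_of_inert`). -/
def InertiaIffRoots : Prop :=
  ∀ (p : ℕ) [Fact p.Prime] (σ : Gq p),
    σ ∈ inertia p ↔ ∀ (w : Om p) (m : ℕ), 0 < m → ¬ p ∣ m → w ^ m = 1 → σ w = w

/-- **FL-D1**: the inertia field is unramified: `fixInt p (inertia p)` is discrete with
uniformiser `p`.  (From `h96k_norm_of_inert` in `PT/Glob/H96KKumRamConv.lean` and FL-D0.) -/
def InertiaDiscrete : Prop :=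
  ∀ (p : ℕ) [Fact p.Prime], IsDiscrete p (inertia p) (p : Om p)

/-- **FL-D2**: the fundamental character of level `n` (`p ∤ n`) is onto `μ_n` on inertia.
Proof: the orbit of `π` under inertia is `H π` for a subgroup `H ≤ μ_n`; `π ^ #H` is fixed by
inertia, so `‖π‖ ^ #H ∈ ‖p‖ ^ ℤ` (FL-D1), hence `n ∣ #H`. -/
def FundSurjective : Prop :=
  ∀ (p : ℕ) [Fact p.Prime] (n : ℕ), 0 < n → ¬ p ∣ n → ∀ π : Om p, π ^ n = p →
    ∀ ζ : Om p, ζ ^ n = 1 → ∃ σ ∈ inertia p, σ π = ζ * π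

/-- **FL-D3** (tame values): if `z ≠ 0` and `z ^ n` is fixed by inertia (`p ∤ n`), then
`‖z‖ ^ n = ‖p‖ ^ U` and inertia acts on `z` through `Ψ ^ U`.
Proof: `z ^ n = p ^ U u` with `u` a unit fixed by inertia (FL-D1); `w = z / π ^ U` has `w ^ n = u`,
so `σ w / w` is an `n`-th root of unity `≡ 1 mod 𝔪`, hence `= 1`. -/
def TameValue : Prop :=
  ∀ (p : ℕ) [Fact p.Prime] (n : ℕ), 0 < n → ¬ p ∣ n → ∀ π : Om p, π ^ n = p →
    ∀ z : Om p, z ≠ 0 → (∀ σ ∈ inertia p, σ (z ^ n) = z ^ n) →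
      ∃ U : ℤ, ‖z‖ ^ n = ‖(p : Om p)‖ ^ U ∧ ∀ σ ∈ inertia p, σ z / z = (σ π / π) ^ U

/-! ## C. Rank one -/

/-- `τ` is a Teichmüller character of the finite field `k`: a multiplicative character which is
additive modulo the maximal ideal. -/
def IsTeich (p : ℕ) [Fact p.Prime] {k : Type} [Field k] (τ : kˣ →* (Om p)ˣ) : Prop :=
  (∀ a b c : kˣ, (a : k) + b = c → ‖((τ a : (Om p)ˣ) : Om p) + τ b - τ c‖ < 1) ∧
    ∀ a b : kˣ, (a : k) + b = 0 → ‖((τ a : (Om p)ˣ) : Om p) + τ b‖ < 1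

/-- **FL-C0**: Teichmüller characters exist. -/
def TeichExists : Prop :=
  ∀ (p : ℕ) [Fact p.Prime] (k : Type) [Field k] [Finite k] [CharP k p],
    ∃ τ : kˣ →* (Om p)ˣ, IsTeich p τ

/-- **FL-C1** (the easy Gauss sum): `‖∑_a τ(a)^{-p^i} ξ₀(a)‖ = ‖ζ_p - 1‖ = p^{-1/(p-1)}` for a
non-trivial additive character `ξ₀` of `k`.
Proof: `ξ₀ a - 1 ≡ n_a (ζ - 1) mod (ζ - 1)²` with `n_a ≡ Tr(β a)`, and
`∑_a τ(a)^{-p^i} Tr(β a) ≡ -β^{p^i} ≢ 0 mod 𝔪`. -/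
def GaussNorm : Prop :=
  ∀ (p : ℕ) [Fact p.Prime], p ≠ 2 → ∀ (k : Type) [Field k] [Fintype k] [DecidableEq k]
    [CharP k p] (τ : kˣ →* (Om p)ˣ), IsTeich p τ → ∀ ξ₀ : k → Om p, ξ₀ 0 = 1 →
    (∀ a b, ξ₀ (a + b) = ξ₀ a * ξ₀ b) → (∃ a, ξ₀ a ≠ 1) → ∀ i : ℕ,
    ‖∑ a : kˣ, (((τ a)⁻¹ : (Om p)ˣ) : Om p) ^ (p ^ i) * ξ₀ (a : k)‖ ^ (p - 1) = ‖(p : Om p)‖

/-- **FL-C2** (eigen-generator): for a non-trivial character `θ = τ ^ j` of `kˣ` the
`θ`-eigenfunctions of the order are `R₀ X` for one `X ≠ 0`, and those of its `intOm`-span are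
`intOm X`.
Proof: eigen-projector `e_θ f = (q-1)⁻¹ ∑_a θ(a)⁻¹ f(a ·)` (values of `τ` are fixed by inertia);
values at a fixed `y₀ ≠ 0` of eigenfunctions in `𝓗` form a finitely generated `R₀`-submodule of a
line over the inertia field; FL-D1. -/
def EigenGen : Prop :=
  ∀ (p : ℕ) [Fact p.Prime] (k : Type) [Field k] [Fintype k] [CharP k p]
    (M : Type) [AddCommGroup M] [Module k M], Module.finrank k M = 1 →
  ∀ (act : Gq p → M → M) (χ : Gq p → kˣ), (∀ σ ∈ inertia p, ∀ x, act σ x = χ σ • x) →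
  ∀ 𝓗 : FHO p (inertia p) M act, (∀ a : kˣ, 𝓗.StableUnder (fun x => a • x)) →
  ∀ (τ : kˣ →* (Om p)ˣ), IsTeich p τ → ∀ j : ℕ, ¬ (Fintype.card k - 1) ∣ j →
    ∃ X ∈ 𝓗.carrier, (∃ y, X y ≠ 0) ∧ (∀ (a : kˣ) (y : M), X (a • y) = (τ a : Om p) ^ j * X y) ∧
      ∀ Y ∈ Submodule.span (intOm p) (𝓗.carrier : Set (M → Om p)),
        (∀ (a : kˣ) (y : M), Y (a • y) = (τ a : Om p) ^ j * Y y) →
          ∃ c : Om p, ‖c‖ ≤ 1 ∧ ∀ y, Y y = c * X y

/-- **FL-C4** (digits): if all `U i ≤ (q-1)/(p-1)` and `U i ≡ p^i U 0 mod (q-1)` then the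
`p`-adic digits of `U 0` are `0` or `1`. -/
def DigitLemma : Prop :=
  ∀ (p r : ℕ), p.Prime → 0 < r → ∀ U : ℕ → ℕ,
    (∀ i < r, U i ≤ (p ^ r - 1) / (p - 1)) →
    (∀ i < r, U i ≡ p ^ i * U 0 [MOD p ^ r - 1]) →
    ∃ S : Finset (Fin r), U 0 = ∑ i ∈ S, p ^ (i : ℕ)

/-- **FL-C5** (RAYNAUD, rank one).  Assembly of FL-C1, C2, C4, D1, D2, D3. -/
def RankOne : Prop :=
  ∀ (p : ℕ) [Fact p.Prime], p ≠ 2 → ∀ (k : Type) [Field k] [Fintype k] [CharP k p] (r : ℕ),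
    Fintype.card k = p ^ r →
  ∀ (M : Type) [AddCommGroup M] [Module k M], Module.finrank k M = 1 →
  ∀ (act : Gq p → M → M) (χ : Gq p → kˣ), (∀ σ ∈ inertia p, ∀ x, act σ x = χ σ • x) →
  ∀ 𝓗 : FHO p (inertia p) M act, (∀ a : kˣ, 𝓗.StableUnder (fun x => a • x)) →
    𝓗.CharComplete →
  ∀ (τ : kˣ →* (Om p)ˣ), IsTeich p τ → ∀ π : Om p, π ^ (p ^ r - 1) = p →
    ∃ m : ℕ, (∃ S : Finset (Fin r), m = ∑ i ∈ S, p ^ (i : ℕ)) ∧
      (∀ σ ∈ inertia p, ((τ (χ σ) : (Om p)ˣ) : Om p) = (σ π / π) ^ m) ∧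
      ∀ i < r, ∃ X ∈ 𝓗.carrier, X 0 = 0 ∧
        ∀ y : M, y ≠ 0 → ‖X y‖ ^ (p ^ r - 1) = ‖(p : Om p)‖ ^ ((p ^ i * m) % (p ^ r - 1))

/-- The assembly statement of the rank-one block. -/
def RankOneAsm : Prop :=
  InertiaDiscrete → FundSurjective → TameValue → GaussNorm → EigenGen → DigitLemma → RankOne

end Fermat.Agent.S56F
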