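import Fermat.Agent.S56F.IfaceHopf2

/-!
# S56 / LOC-p-FL: frozen statements, block SS (no `Gq p`-stable line)

Normal form: inertia acts diagonally in a basis `v₁, v₂` through the two fundamental characters
of level `2` (`Ψ σ = σ π / π`, `π ^ (p² - 1) = p`, and `Ψ ^ p`); every element of `Gq p`
preserves or swaps the two lines.  Necessary conditions for a locally flat cocycle `c`:
* `SSDiagZero` : the diagonal entries of `c σ` vanish for `σ` preserving the lines;
* `SSOffLev3`  : on `I_K = {g ∈ inertia | g π = π}` the off-diagonal entry `c₁₂` has Kummer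
  generators `β` with `β ^ p ≡ 1 mod π ^ 3` ("no class of level `≤ 2`").
`SSCount` : these cocycles span a space of dimension `≤ 4`.  `ssBound_of` : compiled assembly.
-/

set_option autoImplicit false
set_option linter.style.haveILetI false

open Fermat.Agent.PT.Loc Polynomial

noncomputable section

namespace Fermat.Agent.S56F

section

variable (p : ℕ) [Fact p.Prime] {k : Type} [Field k] {V : Type} [AddCommGroup V] [Module k V]

/-- The supersingular normal form. -/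
structure SSNF (ρ : Gq p →* Module.End k V) (τ : kˣ →* (Om p)ˣ) (π : Om p) (v₁ v₂ : V) :
    Prop where
  indep : LinearIndependent k ![v₁, v₂]
  inert₁ : ∀ σ ∈ inertia p, ∃ a : kˣ, ρ σ v₁ = (a : k) • v₁ ∧ ((τ a : (Om p)ˣ) : Om p) = σ π / π
  inert₂ : ∀ σ ∈ inertia p, ∃ a : kˣ, ρ σ v₂ = (a : k) • v₂ ∧
    ((τ a : (Om p)ˣ) : Om p) = (σ π / π) ^ p
  swap : ∀ σ : Gq p, (∃ a b : k, ρ σ v₁ = a • v₁ ∧ ρ σ v₂ = b • v₂) ∨
    (∃ a b : k, ρ σ v₁ = a • v₂ ∧ ρ σ v₂ = b • v₁)

/-- The diagonal part of `f` vanishes on the stabiliser of the two lines. -/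
def SSDiag0 (ρ : Gq p →* Module.End k V) (v₁ v₂ : V) (f : Gq p → Module.End k V) : Prop :=
  ∀ σ : Gq p, (∃ a : k, ρ σ v₁ = a • v₁) → ∃ b : k, f σ v₁ = b • v₂

/-- The `(1,2)`-entry of `f` on `I_K` has Kummer generators of level `≥ 3`. -/
def SSLev3 (π : Om p) (v₁ v₂ : V) (f : Gq p → Module.End k V) : Prop :=
  ∀ ζ : Om p, ζ ^ p = 1 → ζ ≠ 1 → ∀ l : k →+ ZMod p,
    ∃ β : Om p, ‖β ^ p - 1‖ ≤ ‖π‖ ^ 3 ∧
      ∀ g ∈ inertia p, g π = π → ∀ b : k, f g v₂ = b • v₁ → g β = ζ ^ (l b).val * β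

/-- The necessary condition for flatness in the supersingular case. -/
structure SSCond (ρ : Gq p →* Module.End k V) (π : Om p) (v₁ v₂ : V)
    (f : Gq p → Module.End k V) : Prop where
  cont : Cont1 (⊥ : LF p) f
  cocycle : ∀ σ τ : Gq p, f (σ * τ) = f σ + ρ σ * f τ * ρ σ⁻¹
  trace : ∀ σ : Gq p, LinearMap.trace k V (f σ) = 0
  diag : SSDiag0 p ρ v₁ v₂ f
  lev : SSLev3 p π v₁ v₂ f

end

/-- **FL-S1** (supersingular normal form).  Steps: (a) wild inertia
`P = {σ ∈ inertia | ‖σ z / z - 1‖ < 1 ∀ z ≠ 0}` is normal with abelian quotient `inertia / P`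
and acts through a `p`-group on every finite continuous module (trace argument), hence
trivially on `V` (no stable line); the `p`-Sylow of the abelian `ρ(inertia)` is trivial for the
same reason; so `ρ(inertia)` is diagonalisable (`LocHyp.split`), not scalar (an eigenvector of a
Frobenius would span a stable line), and `Gq p` permutes the two eigenlines;
(b) rank one on both lines (nice order, stable under `diag(a, 1)`), `det = ω`, Frobenius swaps
the lines: the digits of `m` alternate, i.e. `τ ∘ χ ∈ {Ψ, Ψ ^ p}` for the level `p² - 1`. -/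
def SSNFExists : Prop :=
  ∀ (p : ℕ) [Fact p.Prime] (k : Type) [Field k] [Finite k] [CharP k p] (V : Type)
    [AddCommGroup V] [Module k V] [Module.Finite k V] (ρ : Gq p →* Module.End k V),
    LocHyp p ρ → (¬ ∃ v : V, v ≠ 0 ∧ ∀ σ : Gq p, ∃ a : k, ρ σ v = a • v) →
    LocFlat p V (fun σ v => ρ σ v) →
    ∀ (τ : kˣ →* (Om p)ˣ), IsTeich p τ → ∀ π : Om p, π ^ (p ^ 2 - 1) = p →
      ∃ v₁ v₂ : V, SSNF p ρ τ π v₁ v₂

/-- **FL-S2** (the diagonal part of a flat class vanishes).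
(i) `h = c₁₁` is a homomorphism on inertia, invariant under conjugation by inertia and
anti-invariant under a swapping Frobenius; hence (Kummer theory over `ℚ_p^ur(ζ_p)`: the
`ω`-eigenspace of `K₁ˣ/p` is `≅ κ` by the level-one coefficient, Frobenius acts semilinearly)
its image is at most an `𝔽_p`-line; (ii) if `h ≠ 0`, the field `L` cut out by `h` over
`K = ℚ_p^ur(π)` has `‖g z - z‖ ≤ p^{-1/p}` for all integers `z` (elementary: `‖L₀ˣ‖ ⊆ p^{ℤ/p}`
and `g w / w ≡ 1`), but the sub-quotient `(k v₁ ⊕ εV)/(k ε v₂)` of `V × V` has points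
`g x - x ≠ 0` of norm-level `‖π‖ = p^{-1/(p²-1)} > p^{-1/p}` (rank one), contradicting
FL-B6; so `c₁₁ = 0` on inertia; (iii) then `c₁₁` is unramified on the stabiliser of the lines
and anti-invariant, so `2 c₁₁ = 0`. -/
def SSDiagZero : Prop :=
  ∀ (p : ℕ) [Fact p.Prime] (k : Type) [Field k] [Finite k] [CharP k p] (V : Type)
    [AddCommGroup V] [Module k V] [Module.Finite k V] (ρ : Gq p →* Module.End k V),
    LocHyp p ρ → ∀ (τ : kˣ →* (Om p)ˣ), IsTeich p τ → ∀ π : Om p, π ^ (p ^ 2 - 1) = p →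
    ∀ v₁ v₂ : V, SSNF p ρ τ π v₁ v₂ →
    (¬ ∃ v : V, v ≠ 0 ∧ ∀ σ : Gq p, ∃ a : k, ρ σ v = a • v) →
    ∀ c : Gq p → Module.End k V, IsLocFlatCocycle p ρ c → SSDiag0 p ρ v₁ v₂ c

/-- **FL-S3** (the off-diagonal part of a flat class has level `≥ 3`).
For `l = Tr ∘ λ_F` (`λ_F : k → 𝔽_{p²}` linear over `𝔽_{p²}`): the sub-quotient
`E = (k v₂ ⊕ εV)/(k ε v₂ + ker λ_F ε v₁)` of `V × V` is an extension of `k(χ')` by
`𝔽_{p²}(χ)` with an `𝔽_{p²}ˣ`-stable character complete order; rank one gives `X` with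
`‖X y‖ = ‖π‖` on the line; base change to `I_K`, quotient by an `𝔽_p`-line `H`: the norm
function `∏_{n ∈ H} X (y + n)` shows that the non-zero points of the quotient line have level
`≥ ‖π‖ ^ p`; FL-B6 gives integers `z` of the cyclic field `K(β)` with `‖g z - z‖ > t` for all
`t < ‖π‖ ^ p`; the cyclic conductor lemma (FL-K3) excludes all classes not represented in
`U^{(3)}`. -/
def SSOffLev3 : Prop :=
  ∀ (p : ℕ) [Fact p.Prime] (k : Type) [Field k] [Finite k] [CharP k p] (V : Type)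
    [AddCommGroup V] [Module k V] [Module.Finite k V] (ρ : Gq p →* Module.End k V),
    LocHyp p ρ → ∀ (τ : kˣ →* (Om p)ˣ), IsTeich p τ → ∀ π : Om p, π ^ (p ^ 2 - 1) = p →
    ∀ v₁ v₂ : V, SSNF p ρ τ π v₁ v₂ →
    ∀ c : Gq p → Module.End k V, IsLocFlatCocycle p ρ c → SSLev3 p π v₁ v₂ c

/-- **FL-S4** (the count; pure Galois cohomology of `Gq p`, `ρ` continuous).
`B¹` has dimension `3` (`h⁰ = 0`); a cocycle in `SSCond` whose `(1,2)`-entry vanishes on `I_K`
is a coboundary (inflation–restriction by hand); the `(1,2)`-entries on `I_K` form a `k`-space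
of dimension `≤ 1` (Kummer classes of level `≥ 3` in the `{Ψ², Ψ^{2p}}`-part are determined by
their coefficient at level `p² + 1`; Frobenius semilinearity). -/
def SSCount : Prop :=
  ∀ (p : ℕ) [Fact p.Prime] (k : Type) [Field k] [Finite k] [CharP k p] (V : Type)
    [AddCommGroup V] [Module k V] [Module.Finite k V] (ρ : Gq p →* Module.End k V),
    LocHyp p ρ → Cont1 (⊥ : LF p) (fun σ => ρ σ) →
    (¬ ∃ v : V, v ≠ 0 ∧ ∀ σ : Gq p, ∃ a : k, ρ σ v = a • v) →
    ∀ (τ : kˣ →* (Om p)ˣ), IsTeich p τ → ∀ π : Om p, π ^ (p ^ 2 - 1) = p →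
    ∀ v₁ v₂ : V, SSNF p ρ τ π v₁ v₂ →
    ∃ W : Submodule k (Gq p → Module.End k V),
      Module.Finite k W ∧ Module.finrank k W ≤ 4 ∧
      (∀ X : Module.End k V, LinearMap.trace k V X = 0 → coB p ρ X ∈ W) ∧
      ∀ f : Gq p → Module.End k V, SSCond p ρ π v₁ v₂ f → f ∈ W

/-- **FL-S0**: `p² - 1`-th roots of `p` exist (`Om p` is algebraically closed). -/
theorem exists_root (p : ℕ) [Fact p.Prime] (n : ℕ) (hn : 0 < n) : ∃ π : Om p, π ^ n = p :=
  IsAlgClosed.exists_pow_nat_eq (p : Om p) hn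

/-- **Assembly of block SS** (compiled). -/
theorem ssBound_of (h0 : FlatCont) (h1 : LocFlatSub) (h7 : RepCont) (hT : TeichExists)
    (h2 : SSNFExists) (h3 : SSDiagZero) (h4 : SSOffLev3) (h5 : SSCount) : SSBound := by
  intro p _ k _ _ _ V _ _ _ ρ hρ hline
  by_cases hex : ∃ c : Gq p → Module.End k V, IsLocFlatCocycle p ρ c
  · obtain ⟨c₀, hc₀⟩ := hex
    have hV := h1 p k V ρ c₀ hc₀
    obtain ⟨τ, hτ⟩ := hT p k
    have hp1 : 0 < p ^ 2 - 1 := by
      have := (Fact.out : p.Prime).two_le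
      have : 4 ≤ p ^ 2 := by nlinarith
      omega
    obtain ⟨π, hπ⟩ := exists_root p (p ^ 2 - 1) hp1
    obtain ⟨v₁, v₂, hNF⟩ := h2 p k V ρ hρ hline hV τ hτ π hπ
    obtain ⟨W, hfin, hrk, hB, hW⟩ := h5 p k V ρ hρ (h7 p k V ρ hV) hline τ hτ π hπ v₁ v₂ hNF
    refine ⟨W, hfin, hrk, fun X hX => hB X hX, fun c hc => hW c ?_⟩
    exact ⟨h0 p k V ρ c hc, hc.cocycle, hc.trace,
      h3 p k V ρ hρ τ hτ π hπ v₁ v₂ hNF hline c hc,
      h4 p k V ρ hρ τ hτ π hπ v₁ v₂ hNF c hc⟩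
  · obtain ⟨W, hfin, hrk, hB⟩ := coB_bound p k V hρ.rank ρ
    exact ⟨W, hfin, hrk, fun X _ => hB X, fun c hc => (hex ⟨c, hc⟩).elim⟩

/-- **The whole pillar, conditional on the block Props** (compiled). -/
theorem locPFL_of_blocks (hN : NiceExists) (hD : DetBridge)
    (h0 : FlatCont) (h1 : LocFlatSub) (h7 : RepCont) (hT : TeichExists)
    (o2 : OrdNFExists) (o3 : OrdLine) (o4 : OrdPeu) (o5 : OrdPeuRep) (o6 : OrdCount)
    (s2 : SSNFExists) (s3 : SSDiagZero) (s4 : SSOffLev3) (s5 : SSCount) : LocPFL :=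
  locPFL_of hN hD (locPFLloc_of (ordBound_of h0 h1 o2 o3 o4 o5 o6 h7)
    (ssBound_of h0 h1 h7 hT s2 s3 s4 s5))

end Fermat.Agent.S56F
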