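import Fermat.Agent.S56F.IfaceRank1

/-!
# S56 / LOC-p-FL: the local target, the two cases, and the conditional assembly of `LocPFL`

* `LocFlat p M act` : the local necessary condition for flatness (a nice function Hopf order
  over every `Γ ≤ Gq p`);  `IsLocFlatCocycle`;
* `LocPFLloc` : the target for a representation of `Gq p`;
* `OrdBound`, `SSBound` : the target in the two cases (a `Gq p`-stable line exists / does not);
* `locPFL_of` : **compiled assembly** `NiceExists → OrdBound → SSBound → LocPFL`.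
-/

set_option autoImplicit false
set_option linter.style.haveILetI false

open Fermat.Agent.PT.Loc Polynomial

noncomputable section

namespace Fermat.Agent.S56F

/-- Local necessary condition for flatness. -/
def LocFlat (p : ℕ) [Fact p.Prime] (M : Type) [AddCommGroup M] (act : Gq p → M → M) : Prop :=
  ∀ Γ : Subgroup (Gq p), ∃ 𝓗 : FHO p Γ M act, 𝓗.Nice

section

variable (p : ℕ) [Fact p.Prime] {k : Type} [Field k] {V : Type} [AddCommGroup V] [Module k V]

/-- The action of `G` on `V × V = V ⊕ εV` attached to a cocycle. -/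
def defAct {G : Type} [Group G] (ρ : G →* Module.End k V) (c : G → Module.End k V) :
    G → V × V → V × V :=
  fun σ x => (ρ σ x.1, ρ σ x.2 + c σ (ρ σ x.1))

/-- Locally flat trace-zero cocycles of a representation of `Gq p`. -/
structure IsLocFlatCocycle (ρ : Gq p →* Module.End k V) (c : Gq p → Module.End k V) : Prop where
  cocycle : ∀ σ τ : Gq p, c (σ * τ) = c σ + ρ σ * c τ * ρ σ⁻¹
  trace : ∀ σ : Gq p, LinearMap.trace k V (c σ) = 0
  flat : LocFlat p (V × V) (defAct ρ c)

/-- The conclusion of the target, for a representation `ρ` of `Gq p`. -/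
def LocConclusion (ρ : Gq p →* Module.End k V) : Prop :=
  ∃ W : Submodule k (Gq p → Module.End k V),
    Module.Finite k W ∧ Module.finrank k W ≤ 4 ∧
    (∀ X : Module.End k V, LinearMap.trace k V X = 0 →
      (fun τ : Gq p => X - ρ τ * X * ρ τ⁻¹) ∈ W) ∧
    ∀ c : Gq p → Module.End k V, IsLocFlatCocycle p ρ c → c ∈ W

end

/-- The hypotheses on the local representation. -/
structure LocHyp (p : ℕ) [Fact p.Prime] {k : Type} [Field k] {V : Type} [AddCommGroup V]
    [Module k V] [Module.Finite k V] (ρ : Gq p →* Module.End k V) : Prop where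
  odd : p ≠ 2
  rank : Module.finrank k V = 2
  split : ∀ σ : Gq p, ∃ α β : k, LinearMap.charpoly (ρ σ) = (X - C α) * (X - C β)
  det : ∀ (σ : Gq p) (a : ℕ), (∀ μ : Om p, μ ^ p = 1 → σ μ = μ ^ a) →
    LinearMap.det (ρ σ) = (a : k)

/-- **Local target.** -/
def LocPFLloc : Prop :=
  ∀ (p : ℕ) [Fact p.Prime] (k : Type) [Field k] [Finite k] [CharP k p] (V : Type)
    [AddCommGroup V] [Module k V] [Module.Finite k V] (ρ : Gq p →* Module.End k V),
    LocHyp p ρ → LocConclusion p ρ

/-- **Block ORD**: the local target when there is a `Gq p`-stable line. -/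
def OrdBound : Prop :=
  ∀ (p : ℕ) [Fact p.Prime] (k : Type) [Field k] [Finite k] [CharP k p] (V : Type)
    [AddCommGroup V] [Module k V] [Module.Finite k V] (ρ : Gq p →* Module.End k V),
    LocHyp p ρ → (∃ v : V, v ≠ 0 ∧ ∀ σ : Gq p, ∃ a : k, ρ σ v = a • v) → LocConclusion p ρ

/-- **Block SS**: the local target when there is no `Gq p`-stable line. -/
def SSBound : Prop :=
  ∀ (p : ℕ) [Fact p.Prime] (k : Type) [Field k] [Finite k] [CharP k p] (V : Type)
    [AddCommGroup V] [Module k V] [Module.Finite k V] (ρ : Gq p →* Module.End k V),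
    LocHyp p ρ → (¬ ∃ v : V, v ≠ 0 ∧ ∀ σ : Gq p, ∃ a : k, ρ σ v = a • v) → LocConclusion p ρ

theorem locPFLloc_of (h1 : OrdBound) (h2 : SSBound) : LocPFLloc := by
  intro p _ k _ _ _ V _ _ _ ρ hρ
  by_cases h : ∃ v : V, v ≠ 0 ∧ ∀ σ : Gq p, ∃ a : k, ρ σ v = a • v
  · exact h1 p k V ρ hρ h
  · exact h2 p k V ρ hρ h

/-- **FL-T1** (local-global bridge for the determinant): if `τ ∈ Gq p` acts on `μ_p(Om p)` by
`a`-th powers, then `ιp p τ` acts on `μ_p(ℚ̄)` by `a`-th powers. -/
def DetBridge : Prop :=
  ∀ (p : ℕ) [Fact p.Prime] (τ : Gq p) (a : ℕ), (∀ μ : Om p, μ ^ p = 1 → τ μ = μ ^ a) →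
    ∀ μ : Qb, μ ^ p = 1 → ιp p τ μ = μ ^ a

/-- **Assembly of the pillar** (compiled): `NiceExists`, the bridge and the local target give
`LocPFL`. -/
theorem locPFL_of (hN : NiceExists) (hD : DetBridge) (hL : LocPFLloc) : LocPFL := by
  intro p _ hp2 k _ _ _ V _ _ _ hrank ρ hsplit hdet
  set ρp : Gq p →* Module.End k V := ρ.comp (ιp p) with hρp
  have hyp : LocHyp p ρp :=
    { odd := hp2
      rank := hrank
      split := fun σ => hsplit (ιp p σ)
      det := fun σ a ha => hdet (ιp p σ) a (hD p σ a ha) }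
  obtain ⟨W, hfin, hrk, hB, hc⟩ := hL p k V ρp hyp
  refine ⟨W, hfin, hrk, ?_, ?_⟩
  · intro X hX
    have hfun : (fun τ : Gq p => X - ρ (ιp p τ) * X * ρ (ιp p τ)⁻¹) =
        (fun τ : Gq p => X - ρp τ * X * ρp τ⁻¹) := by
      funext τ
      simp only [hρp, MonoidHom.comp_apply, map_inv]
    rw [hfun]
    exact hB X hX
  · intro c hcf
    apply hc
    have hinv : ∀ σ : GQ, ρ σ * ρ σ⁻¹ = 1 := fun σ => by
      rw [← map_mul, mul_inv_cancel, map_one]
    have hact : IsAct (fun (σ : GQ) (x : V × V) => (ρ σ x.1, ρ σ x.2 + c σ (ρ σ x.1))) := by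
      have hc1 : c 1 = 0 := by
        have := hcf.cocycle 1 1
        simp only [mul_one, map_one, inv_one, one_mul] at this
        exact left_eq_add.mp this
      refine ⟨fun x => ?_, fun σ τ x => ?_, fun σ x y => ?_⟩
      · simp [hc1]
      · have h3 : c (σ * τ) * ρ σ = c σ * ρ σ + ρ σ * c τ := by
          rw [hcf.cocycle σ τ, add_mul, mul_assoc (ρ σ * c τ), ← map_mul, inv_mul_cancel, map_one,
            mul_one]
        have h4 : ∀ v : V, c (σ * τ) (ρ σ v) = c σ (ρ σ v) + ρ σ (c τ v) := fun v => by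
          have := congrArg (fun f : Module.End k V => f v) h3
          simpa [Module.End.mul_apply] using this
        simp only [map_mul, Module.End.mul_apply, map_add, Prod.mk.injEq, true_and]
        rw [h4]
        abel
      · simp only [Prod.fst_add, Prod.snd_add, map_add, Prod.mk_add_mk, Prod.mk.injEq, true_and]
        abel
    refine ⟨fun σ τ => ?_, fun σ => hcf.trace _, ?_⟩
    · simp only [hρp, MonoidHom.comp_apply, map_mul, map_inv]
      exact hcf.cocycle _ _
    · intro Γ
      have : Finite V := Module.finite_of_finite k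
      exact hN p (V × V) _ hact hcf.flat Γ

end Fermat.Agent.S56F
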