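import Fermat.Agent.S56F.IfaceKum
import Fermat.Agent.S56F.FLD7_helper45
import Fermat.Agent.S56F.FLO8b_helper84

/-!
# S56 / LOC-p-FL: shared lemmas on `p`-th powers in `K = ℚ_p^ur(π)` (helper97)

General `n` with `p ∤ n`, `(p - 1) ∣ n`, `π ^ n = p`; `jmax = p * (n / (p - 1))`.

* `h97k_binom`         : `‖(1 + t) ^ p - 1 - p t - t ^ p‖ ≤ ‖p‖ ‖t‖ ^ 2` for `‖t‖ ≤ 1`;
* `h97k_norm_eq_pow`   : norms of non-zero integers of `K` are powers of `‖π‖`;
* `h97k_powLevel`      : the level of a `p`-th power of `K` is divisible by `p` or `≥ jmax`;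
* `h97k_root_near_one` : `‖u - 1‖ ^ (p - 1) < ‖p‖ ^ p` ⇒ `u = b ^ p` with `‖b - 1‖ ^ (p - 1) < ‖p‖`;
* `h97k_root_fixed`    : that root is fixed by every `g` fixing `u`;
* `h97k_as_root`       : Artin–Schreier step, `w ^ p + w ≡ a` with `w` fixed by inertia;
* `h97k_topLevel`      : `u ∈ K`, `‖u - 1‖ ≤ ‖π‖ ^ jmax` ⇒ `u` is a `p`-th power in `K`.
-/

set_option autoImplicit false
set_option linter.style.haveILetI false

open Fermat.Agent.PT.Loc

noncomputable section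
namespace Fermat.Agent.S56F

theorem h97k_norm_natCast_le (p : ℕ) [Fact p.Prime] (c : ℕ) : ‖((c : ℕ) : Om p)‖ ≤ 1 := by
  induction c with
  | zero => simp
  | succ n ih =>
    rw [Nat.cast_succ]
    exact (IsUltrametricDist.norm_add_le_max _ _).trans (max_le ih (by rw [norm_one]))

/-- binomial estimate -/
theorem h97k_binom {p : ℕ} [Fact p.Prime] (t : Om p) (ht : ‖t‖ ≤ 1) :
    ‖(1 + t) ^ p - 1 - (p : Om p) * t - t ^ p‖ ≤ ‖(p : Om p)‖ * ‖t‖ ^ 2 := by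
  have hp := (Fact.out : p.Prime)
  have h2 := hp.two_le
  have hsum : (1 + t) ^ p - 1 - (p : Om p) * t - t ^ p =
      ∑ m ∈ Finset.range (p - 2), t ^ (m + 2) * ((p.choose (m + 2) : ℕ) : Om p) := by
    have key : ∀ q : ℕ, (1 + t) ^ (q + 2) - 1 - ((q + 2 : ℕ) : Om p) * t - t ^ (q + 2) =
        ∑ m ∈ Finset.range q, t ^ (m + 2) * (((q + 2).choose (m + 2) : ℕ) : Om p) := by
      intro q
      rw [add_comm 1 t, add_pow]
      simp only [one_pow, mul_one]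
      rw [Finset.sum_range_succ, Finset.sum_range_succ', Finset.sum_range_succ']
      simp only [pow_zero, Nat.choose_zero_right, Nat.cast_one, mul_one, zero_add, pow_one,
        Nat.choose_one_right, Nat.choose_self]
      ring
    have e : p = (p - 2) + 2 := by omega
    have := key (p - 2)
    rw [← e] at this
    exact this
  rw [hsum]
  apply IsUltrametricDist.norm_sum_le_of_forall_le_of_nonneg
    (mul_nonneg (norm_nonneg _) (pow_nonneg (norm_nonneg _) _))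
  intro m hm
  rw [Finset.mem_range] at hm
  have hdvd : p ∣ p.choose (m + 2) := hp.dvd_choose_self (by omega) (by omega)
  obtain ⟨c, hc⟩ := hdvd
  rw [hc, Nat.cast_mul, norm_mul, norm_mul, norm_pow]
  have hc1 : ‖((c : ℕ) : Om p)‖ ≤ 1 := h97k_norm_natCast_le p c
  have ht2 : ‖t‖ ^ (m + 2) ≤ ‖t‖ ^ 2 :=
    pow_le_pow_of_le_one (norm_nonneg _) ht (by omega)
  calc ‖t‖ ^ (m + 2) * (‖(p : Om p)‖ * ‖((c : ℕ) : Om p)‖)
      ≤ ‖t‖ ^ 2 * (‖(p : Om p)‖ * 1) := by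
        apply mul_le_mul ht2 (mul_le_mul_of_nonneg_left hc1 (norm_nonneg _))
          (mul_nonneg (norm_nonneg _) (norm_nonneg _)) (pow_nonneg (norm_nonneg _) _)
    _ = ‖(p : Om p)‖ * ‖t‖ ^ 2 := by ring

section
variable {p : ℕ} [Fact p.Prime] {n : ℕ} {π : Om p}

theorem h97k_norm_pi_pow (hπ : π ^ n = p) : ‖π‖ ^ n = ‖(p : Om p)‖ := by
  rw [← norm_pow, hπ]

theorem h97k_norm_pi_pos (hπ : π ^ n = p) : 0 < ‖π‖ := by
  rw [norm_pos_iff]
  rintro rfl
  have hp := (Fact.out : p.Prime)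
  rcases Nat.eq_zero_or_pos n with h0 | h0
  · subst h0
    rw [pow_zero] at hπ
    have := h34t_norm_p_lt_one p
    rw [← hπ, norm_one] at this
    exact lt_irrefl _ this
  · rw [zero_pow h0.ne'] at hπ
    have := h84u_norm_p_pos p
    rw [← hπ, norm_zero] at this
    exact lt_irrefl _ this

theorem h97k_norm_pi_lt_one (hπ : π ^ n = p) : ‖π‖ < 1 := by
  by_contra hge
  rw [not_lt] at hge
  have h1 : (1 : ℝ) ≤ ‖π‖ ^ n := one_le_pow₀ hge
  rw [h97k_norm_pi_pow hπ] at h1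
  have := h34t_norm_p_lt_one p
  linarith

/-- norms of non-zero integers of `K` are powers of `‖π‖`. -/
theorem h97k_norm_eq_pow (hn : 0 < n) (hpn : ¬ p ∣ n) (hπ : π ^ n = p) {y : Om p}
    (hy : ∀ g ∈ IK p π, g y = y) (hy1 : ‖y‖ ≤ 1) (hy0 : y ≠ 0) : ∃ i : ℕ, ‖y‖ = ‖π‖ ^ i := by
  have hD := h45g_tameDiscrete p n hn hpn π hπ (IK p π) (fun σ => mem_IK)
  obtain ⟨-, -, -, hdisc⟩ := hD
  obtain ⟨i, u, -, hu1, hyu⟩ := hdisc y ⟨hy1, hy⟩ hy0
  exact ⟨i, by rw [hyu, norm_mul, norm_pow, hu1, mul_one]⟩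

end

section
variable {p : ℕ} [Fact p.Prime] {n : ℕ} {π : Om p}

/-- **Level of a `p`-th power**: divisible by `p` or `≥ p n/(p-1)`. -/
theorem h97k_powLevel (hn : 0 < n) (hpn : ¬ p ∣ n) (hdiv : (p - 1) ∣ n) (hπ : π ^ n = p)
    (γ : Om p) (hγ : ∀ g ∈ IK p π, g γ = γ) (j : ℕ) (hj : ¬ p ∣ j)
    (hjm : j < p * (n / (p - 1))) (h : ‖γ ^ p - 1‖ ≤ ‖π‖ ^ j) :
    ‖γ ^ p - 1‖ ≤ ‖π‖ ^ (j + 1) := by
  have hp := (Fact.out : p.Prime)
  have hp2 := hp.two_le
  have hr0 := h97k_norm_pi_pos hπ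
  have hr1 := h97k_norm_pi_lt_one hπ
  have hrn := h97k_norm_pi_pow hπ
  have hpp := h84u_norm_p_pos p
  have hp1 := h34t_norm_p_lt_one p
  have hj1 : 1 ≤ j := by
    rcases Nat.eq_zero_or_pos j with h0 | h0
    · exact absurd (h0 ▸ dvd_zero p) hj
    · exact h0
  have hlt1 : ‖γ ^ p - 1‖ < 1 :=
    lt_of_le_of_lt h (lt_of_le_of_lt (pow_le_pow_of_le_one hr0.le hr1.le hj1)
      (by rw [pow_one]; exact hr1))
  -- ‖γ‖ = 1
  have hγp : ‖γ ^ p‖ = 1 := by
    have e : γ ^ p = 1 + (γ ^ p - 1) := by ring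
    rw [e, IsUltrametricDist.norm_add_eq_max_of_norm_ne_norm
      (by rw [norm_one]; exact hlt1.ne'), norm_one]
    exact max_eq_left hlt1.le
  have hγ1 : ‖γ‖ = 1 := by
    rw [norm_pow] at hγp
    exact (pow_eq_one_iff_of_nonneg (norm_nonneg _) hp.ne_zero).1 hγp
  set y : Om p := γ - 1 with hy
  have hγy : γ = 1 + y := by rw [hy]; ring
  have hy1 : ‖y‖ ≤ 1 := by
    rw [hy]
    have := IsUltrametricDist.norm_add_le_max γ (-1)
    rw [norm_neg, norm_one, hγ1, max_self, ← sub_eq_add_neg] at this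
    exact this
  have hE := h97k_binom y hy1
  set E : Om p := (1 + y) ^ p - 1 - (p : Om p) * y - y ^ p with hEdef
  have hdec : γ ^ p - 1 = y ^ p + ((p : Om p) * y + E) := by rw [hEdef, hγy]; ring
  -- ‖y‖ < 1
  have hylt : ‖y‖ < 1 := by
    by_contra hge
    have hy_eq : ‖y‖ = 1 := le_antisymm hy1 (not_lt.1 hge)
    have h1 : ‖(p : Om p) * y + E‖ < 1 := by
      refine lt_of_le_of_lt (IsUltrametricDist.norm_add_le_max _ _) (max_lt ?_ ?_)
      · rw [norm_mul, hy_eq, mul_one]; exact hp1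
      · refine lt_of_le_of_lt hE ?_
        rw [hy_eq, one_pow, mul_one]; exact hp1
    have h2 : y ^ p = (γ ^ p - 1) - ((p : Om p) * y + E) := by rw [hdec]; ring
    have h3 : ‖y ^ p‖ < 1 := by
      rw [h2, sub_eq_add_neg]
      refine lt_of_le_of_lt (IsUltrametricDist.norm_add_le_max _ _) (max_lt hlt1 ?_)
      rw [norm_neg]; exact h1
    rw [norm_pow, hy_eq, one_pow] at h3
    exact lt_irrefl _ h3
  by_cases hy0 : y = 0
  · have : γ ^ p - 1 = 0 := by rw [hγy, hy0]; simp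
    rw [this, norm_zero]
    exact pow_nonneg hr0.le _
  have hyfix : ∀ g ∈ IK p π, g y = y := fun g hg => by
    rw [hy, map_sub, map_one, hγ g hg]
  obtain ⟨i, hi⟩ := h97k_norm_eq_pow hn hpn hπ hyfix hy1 hy0
  have hi1 : 1 ≤ i := by
    rcases Nat.eq_zero_or_pos i with h0 | h0
    · rw [h0, pow_zero] at hi
      exact absurd hi hylt.ne
    · exact h0
  have hA : ‖y ^ p‖ = ‖π‖ ^ (p * i) := by rw [norm_pow, hi, ← pow_mul, mul_comm]
  have hy_pos : 0 < ‖y‖ := norm_pos_iff.2 hy0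
  have hB : ‖(p : Om p) * y + E‖ = ‖π‖ ^ (n + i) := by
    have hlt : ‖E‖ < ‖(p : Om p) * y‖ := by
      refine lt_of_le_of_lt hE ?_
      rw [norm_mul]
      have : ‖y‖ ^ 2 < ‖y‖ := by
        rw [pow_two]
        calc ‖y‖ * ‖y‖ < 1 * ‖y‖ := mul_lt_mul_of_pos_right hylt hy_pos
          _ = ‖y‖ := one_mul _
      exact mul_lt_mul_of_pos_left this hpp
    rw [IsUltrametricDist.norm_add_eq_max_of_norm_ne_norm hlt.ne', max_eq_left hlt.le, norm_mul,
      ← hrn, hi, ← pow_add]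
  have he1 : n / (p - 1) * (p - 1) = n := Nat.div_mul_cancel hdiv
  have hpe : ∀ m : ℕ, p * m = (p - 1) * m + m := fun m => by
    obtain ⟨q, hq⟩ : ∃ q, p = q + 1 := ⟨p - 1, by omega⟩
    rw [hq, Nat.add_sub_cancel]
    ring
  rcases lt_or_ge (p * i) (n + i) with hc | hc
  · -- the `p`-th power term dominates
    have hlt : ‖(p : Om p) * y + E‖ < ‖y ^ p‖ := by
      rw [hA, hB]
      exact pow_lt_pow_right_of_lt_one₀ hr0 hr1 hc
    have hnorm : ‖γ ^ p - 1‖ = ‖π‖ ^ (p * i) := by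
      rw [hdec, IsUltrametricDist.norm_add_eq_max_of_norm_ne_norm hlt.ne', max_eq_left hlt.le, hA]
    rw [hnorm] at h ⊢
    have hji : j ≤ p * i := (pow_le_pow_iff_right_of_lt_one₀ hr0 hr1).1 h
    have hne : j ≠ p * i := fun e => hj (e ▸ dvd_mul_right p i)
    exact pow_le_pow_of_le_one hr0.le hr1.le (by omega)
  · -- both terms have level `≥ p n/(p-1)`
    have hi2 : n / (p - 1) ≤ i := by
      have h1 : n ≤ (p - 1) * i := by
        have := hpe i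
        omega
      rw [← he1] at h1
      have h2 : 0 < p - 1 := by omega
      rw [mul_comm] at h1
      exact Nat.le_of_mul_le_mul_left h1 h2
    have hjmax : p * (n / (p - 1)) = n + n / (p - 1) := by
      rw [hpe, mul_comm, he1]
    have h1 : j + 1 ≤ n + i := by omega
    have h2 : j + 1 ≤ p * i := by omega
    rw [hdec]
    refine (IsUltrametricDist.norm_add_le_max _ _).trans (max_le ?_ ?_)
    · rw [hA]; exact pow_le_pow_of_le_one hr0.le hr1.le h2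
    · rw [hB]; exact pow_le_pow_of_le_one hr0.le hr1.le h1

end

section
variable {p : ℕ} [Fact p.Prime]

open Polynomial in
/-- existence of the `p`-th root near `1` (sharp form). -/
theorem h97k_root_near_one {u : Om p} (hu : ‖u - 1‖ ^ (p - 1) < ‖(p : Om p)‖ ^ p) :
    ∃ b : Om p, b ^ p = u ∧ ‖b - 1‖ ^ (p - 1) < ‖(p : Om p)‖ := by
  classical
  have hp := (Fact.out : p.Prime)
  haveI : NeZero p := ⟨hp.ne_zero⟩
  haveI hnz : NeZero ((p : ℕ) : Om p) := ⟨by exact_mod_cast hp.ne_zero⟩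
  obtain ⟨ζ, hζ⟩ := HasEnoughRootsOfUnity.exists_primitiveRoot (Om p) p
  obtain ⟨b₀, hb₀⟩ := IsAlgClosed.exists_pow_nat_eq u hp.pos
  have hprod := hζ.pow_sub_pow_eq_prod_sub_mul b₀ 1 hp.pos
  rw [one_pow, hb₀] at hprod
  have hex : ∃ μ ∈ nthRootsFinset p (1 : Om p), ‖b₀ - μ‖ ^ (p - 1) < ‖(p : Om p)‖ := by
    by_contra hcon
    simp only [not_exists, not_and, not_lt] at hcon
    have h1 : ‖u - 1‖ ^ (p - 1) = ∏ μ ∈ nthRootsFinset p (1 : Om p), ‖b₀ - μ‖ ^ (p - 1) := by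
      rw [hprod, norm_prod, ← Finset.prod_pow]
      refine Finset.prod_congr rfl fun μ _ => ?_
      rw [mul_one]
    have h2 : ∏ _μ ∈ nthRootsFinset p (1 : Om p), ‖(p : Om p)‖ ≤
        ∏ μ ∈ nthRootsFinset p (1 : Om p), ‖b₀ - μ‖ ^ (p - 1) :=
      Finset.prod_le_prod (fun _ _ => norm_nonneg _) fun μ hμ => hcon μ hμ
    rw [Finset.prod_const, hζ.card_nthRootsFinset, ← h1] at h2
    linarith
  obtain ⟨μ, hμ, hμn⟩ := hex
  have hμp : μ ^ p = 1 := (mem_nthRootsFinset hp.pos 1).1 hμ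
  have hμ1 : ‖μ‖ = 1 := h36u_norm_eq_one_of_pow hp.pos hμp
  have hμ0 : μ ≠ 0 := by
    intro h
    rw [h, norm_zero] at hμ1
    exact zero_ne_one hμ1
  refine ⟨b₀ / μ, ?_, ?_⟩
  · rw [div_pow, hb₀, hμp, div_one]
  · have e : b₀ / μ - 1 = (b₀ - μ) / μ := by field_simp
    rw [e, norm_div, hμ1, div_one]
    exact hμn

theorem h97k_norm_map (g : Gq p) (x : Om p) : ‖g x‖ = ‖x‖ :=
  congrArg NNReal.toReal (nnnorm_padicAlgCl_algEquiv p g x)

/-- the `p`-th root near `1` of an element fixed by `g` is fixed by `g`. -/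
theorem h97k_root_fixed {u b : Om p} (hb : b ^ p = u) (hbn : ‖b - 1‖ ^ (p - 1) < ‖(p : Om p)‖)
    (g : Gq p) (hg : g u = u) : g b = b := by
  apply h84u_root_near_one_unique (p := p)
  · rw [← map_pow, hb, hg]
  · have : g b - 1 = g (b - 1) := by rw [map_sub, map_one]
    rw [this, h97k_norm_map]
    exact hbn
  · exact hbn

end

section
variable {p : ℕ} [Fact p.Prime]

theorem h97k_pow_sub_pow_lt {x y : Om p} (hx : ‖x‖ ≤ 1) (hy : ‖y‖ ≤ 1) (hxy : ‖x - y‖ < 1)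
    (m : ℕ) (hm : 0 < m) : ‖x ^ m - y ^ m‖ < 1 := by
  induction m with
  | zero => exact absurd hm (lt_irrefl _)
  | succ k ih =>
    rcases Nat.eq_zero_or_pos k with h0 | h0
    · subst h0
      simpa using hxy
    · have e : x ^ (k + 1) - y ^ (k + 1) = x * (x ^ k - y ^ k) + (x - y) * y ^ k := by ring
      rw [e]
      refine lt_of_le_of_lt (IsUltrametricDist.norm_add_le_max _ _) (max_lt ?_ ?_)
      · rw [norm_mul]
        calc ‖x‖ * ‖x ^ k - y ^ k‖ ≤ 1 * ‖x ^ k - y ^ k‖ :=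
              mul_le_mul_of_nonneg_right hx (norm_nonneg _)
          _ = ‖x ^ k - y ^ k‖ := one_mul _
          _ < 1 := ih h0
      · rw [norm_mul, norm_pow]
        calc ‖x - y‖ * ‖y‖ ^ k ≤ ‖x - y‖ * 1 :=
              mul_le_mul_of_nonneg_left (pow_le_one₀ (norm_nonneg _) hy) (norm_nonneg _)
          _ = ‖x - y‖ := mul_one _
          _ < 1 := hxy

open Polynomial in
/-- Artin–Schreier step: `x ^ p + x ≡ a` has a solution fixed by inertia. -/
theorem h97k_as_root (a : Om p) (ha : ‖a‖ ≤ 1) :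
    ∃ w : Om p, ‖w‖ ≤ 1 ∧ (∀ σ ∈ inertia p, σ w = w) ∧ ‖w ^ p + w - a‖ < 1 := by
  have hp := (Fact.out : p.Prime)
  have hp2 := hp.two_le
  have hdeg : ((X : (Om p)[X]) ^ p + (X - C a)).degree = (p : WithBot ℕ) := by
    rw [degree_add_eq_left_of_degree_lt, degree_X_pow]
    rw [degree_X_pow, degree_X_sub_C]
    exact_mod_cast (by omega : 1 < p)
  have hdeg0 : ((X : (Om p)[X]) ^ p + (X - C a)).degree ≠ 0 := by
    rw [hdeg]
    exact_mod_cast hp.ne_zero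
  obtain ⟨x₀, hx₀⟩ := IsAlgClosed.exists_root _ hdeg0
  have hx₀' : x₀ ^ p + (x₀ - a) = 0 := by
    simpa [IsRoot] using hx₀
  have hx1 : ‖x₀‖ ≤ 1 := by
    by_contra hgt
    rw [not_le] at hgt
    have h1 : ‖x₀ - a‖ ≤ ‖x₀‖ := by
      rw [sub_eq_add_neg]
      refine (IsUltrametricDist.norm_add_le_max _ _).trans (max_le le_rfl ?_)
      rw [norm_neg]
      exact ha.trans hgt.le
    have h2 : ‖x₀‖ < ‖x₀ ^ p‖ := by
      rw [norm_pow]
      calc ‖x₀‖ = ‖x₀‖ ^ 1 := (pow_one _).symm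
        _ < ‖x₀‖ ^ p := pow_lt_pow_right₀ hgt (by omega)
    have h3 : ‖x₀ ^ p + (x₀ - a)‖ = ‖x₀ ^ p‖ := by
      rw [IsUltrametricDist.norm_add_eq_max_of_norm_ne_norm (lt_of_le_of_lt h1 h2).ne']
      exact max_eq_left (h1.trans h2.le)
    rw [hx₀', norm_zero] at h3
    have : (0 : ℝ) < ‖x₀ ^ p‖ := lt_trans (lt_trans zero_lt_one hgt) h2
    linarith
  have hae : a = x₀ ^ p + x₀ := by
    have := hx₀'
    linear_combination -this
  rcases lt_or_eq_of_le hx1 with hlt | heq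
  · refine ⟨0, by simp, fun σ _ => map_zero σ, ?_⟩
    rw [zero_pow hp.ne_zero, zero_add, zero_sub, norm_neg, hae]
    refine lt_of_le_of_lt (IsUltrametricDist.norm_add_le_max _ _) (max_lt ?_ hlt)
    rw [norm_pow]
    exact pow_lt_one₀ (norm_nonneg _) hlt hp.ne_zero
  · obtain ⟨w, hw, hwx⟩ := h84u_teich heq
    have hw1 : ‖w‖ = 1 := h84u_isMu_norm hw
    refine ⟨w, hw1.le, fun σ hσ => h84u_isMu_fix hw hσ, ?_⟩
    have hxw : ‖w - x₀‖ < 1 := by rw [← norm_neg]; simpa using hwx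
    have e : w ^ p + w - a = (w ^ p - x₀ ^ p) + (w - x₀) := by rw [hae]; ring
    rw [e]
    exact lt_of_le_of_lt (IsUltrametricDist.norm_add_le_max _ _)
      (max_lt (h97k_pow_sub_pow_lt hw1.le hx1 hxw p hp.pos) hxw)

end

section
variable {p : ℕ} [Fact p.Prime] {n : ℕ} {π : Om p}

/-- **Top level**: an element of `K` which is `≡ 1` modulo `π ^ (p n/(p-1))` is a `p`-th power
in `K`. -/
theorem h97k_topLevel (hn : 0 < n) (_hpn : ¬ p ∣ n) (hdiv : (p - 1) ∣ n) (hπ : π ^ n = p)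
    (u : Om p) (hu : ∀ g ∈ IK p π, g u = u) (h : ‖u - 1‖ ≤ ‖π‖ ^ (p * (n / (p - 1)))) :
    ∃ b : Om p, (∀ g ∈ IK p π, g b = b) ∧ b ^ p = u := by
  have hp := (Fact.out : p.Prime)
  have hp2 := hp.two_le
  have hr0 := h97k_norm_pi_pos hπ
  have hr1 := h97k_norm_pi_lt_one hπ
  have hrn := h97k_norm_pi_pow hπ
  have hπ0 : π ≠ 0 := norm_pos_iff.1 hr0
  set e₁ : ℕ := n / (p - 1) with he₁
  have he1 : e₁ * (p - 1) = n := Nat.div_mul_cancel hdiv
  have hpe : ∀ m : ℕ, p * m = (p - 1) * m + m := fun m => by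
    obtain ⟨q, hq⟩ : ∃ q, p = q + 1 := ⟨p - 1, by omega⟩
    rw [hq, Nat.add_sub_cancel]
    ring
  have hjmax : p * e₁ = n + e₁ := by rw [hpe, mul_comm, he1]
  have he₁pos : 1 ≤ e₁ := by
    rcases Nat.eq_zero_or_pos e₁ with h0 | h0
    · rw [h0, zero_mul] at he1
      omega
    · exact h0
  -- the coefficient at the top level
  set a : Om p := (u - 1) / π ^ (p * e₁) with ha
  have hpow0 : π ^ (p * e₁) ≠ 0 := pow_ne_zero _ hπ0
  have ha1 : ‖a‖ ≤ 1 := by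
    rw [ha, norm_div, norm_pow]
    exact div_le_one_of_le₀ h (pow_nonneg hr0.le _)
  have hau : u - 1 = a * π ^ (p * e₁) := by
    rw [ha]; field_simp
  obtain ⟨w, hw1, hwfix, hwa⟩ := h97k_as_root a ha1
  set t : Om p := w * π ^ e₁ with ht
  have htn : ‖t‖ ≤ ‖π‖ ^ e₁ := by
    rw [ht, norm_mul, norm_pow]
    calc ‖w‖ * ‖π‖ ^ e₁ ≤ 1 * ‖π‖ ^ e₁ := mul_le_mul_of_nonneg_right hw1 (pow_nonneg hr0.le _)
      _ = ‖π‖ ^ e₁ := one_mul _
  have hπe : ‖π‖ ^ e₁ < 1 := pow_lt_one₀ hr0.le hr1 (by omega)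
  have htlt : ‖t‖ < 1 := lt_of_le_of_lt htn hπe
  have hE := h97k_binom t htlt.le
  set E : Om p := (1 + t) ^ p - 1 - (p : Om p) * t - t ^ p with hEdef
  have hEn : ‖E‖ ≤ ‖π‖ ^ (n + 2 * e₁) := by
    refine hE.trans ?_
    rw [← hrn, pow_add, pow_mul']
    exact mul_le_mul_of_nonneg_left (pow_le_pow_left₀ (norm_nonneg _) htn 2)
      (pow_nonneg hr0.le _)
  have hpt : (p : Om p) * t = w * π ^ (p * e₁) := by
    rw [ht, ← hπ, hjmax, pow_add]; ring
  have htp : t ^ p = w ^ p * π ^ (p * e₁) := by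
    rw [ht, mul_pow, ← pow_mul, mul_comm e₁ p]
  set c₁ : Om p := 1 + t with hc₁
  have hdiff : u - c₁ ^ p = (a - w - w ^ p) * π ^ (p * e₁) - E := by
    have h1 : c₁ ^ p = 1 + (p : Om p) * t + t ^ p + E := by rw [hEdef, hc₁]; ring
    have h2 : u = 1 + a * π ^ (p * e₁) := by rw [← hau]; ring
    rw [h1, h2, hpt, htp]; ring
  have hdn : ‖u - c₁ ^ p‖ < ‖π‖ ^ (p * e₁) := by
    rw [hdiff, sub_eq_add_neg]
    refine lt_of_le_of_lt (IsUltrametricDist.norm_add_le_max _ _) (max_lt ?_ ?_)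
    · rw [norm_mul, norm_pow]
      have h3 : ‖a - w - w ^ p‖ < 1 := by
        have : a - w - w ^ p = -(w ^ p + w - a) := by ring
        rw [this, norm_neg]; exact hwa
      calc ‖a - w - w ^ p‖ * ‖π‖ ^ (p * e₁) < 1 * ‖π‖ ^ (p * e₁) :=
            mul_lt_mul_of_pos_right h3 (pow_pos hr0 _)
        _ = ‖π‖ ^ (p * e₁) := one_mul _
    · rw [norm_neg]
      refine lt_of_le_of_lt hEn ?_
      exact pow_lt_pow_right_of_lt_one₀ hr0 hr1 (by omega)
  have hc1n : ‖c₁‖ = 1 := by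
    rw [hc₁, IsUltrametricDist.norm_add_eq_max_of_norm_ne_norm
      (by rw [norm_one]; exact htlt.ne'), norm_one]
    exact max_eq_left htlt.le
  have hc10 : c₁ ≠ 0 := by
    intro h0
    rw [h0, norm_zero] at hc1n
    exact zero_ne_one hc1n
  have hcp0 : c₁ ^ p ≠ 0 := pow_ne_zero _ hc10
  set u' : Om p := u / c₁ ^ p with hu'
  have hu'n : ‖u' - 1‖ < ‖π‖ ^ (p * e₁) := by
    have e : u' - 1 = (u - c₁ ^ p) / c₁ ^ p := by rw [hu']; field_simp
    rw [e, norm_div, norm_pow, hc1n, one_pow, div_one]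
    exact hdn
  have hu'p : ‖u' - 1‖ ^ (p - 1) < ‖(p : Om p)‖ ^ p := by
    have h1 : ‖u' - 1‖ ^ (p - 1) < (‖π‖ ^ (p * e₁)) ^ (p - 1) :=
      pow_lt_pow_left₀ hu'n (norm_nonneg _) (by omega)
    have h2 : (‖π‖ ^ (p * e₁)) ^ (p - 1) = ‖(p : Om p)‖ ^ p := by
      rw [← hrn, ← pow_mul, ← pow_mul, mul_assoc, he1, mul_comm]
    rw [h2] at h1
    exact h1
  obtain ⟨b', hb', hb'n⟩ := h97k_root_near_one hu'p
  have hc1fix : ∀ g ∈ IK p π, g c₁ = c₁ := fun g hg => by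
    rw [hc₁, ht, map_add, map_one, map_mul, map_pow, hwfix g hg.1, hg.2]
  have hu'fix : ∀ g ∈ IK p π, g u' = u' := fun g hg => by
    rw [hu', map_div₀, map_pow, hu g hg, hc1fix g hg]
  refine ⟨b' * c₁, fun g hg => ?_, ?_⟩
  · rw [map_mul, hc1fix g hg, h97k_root_fixed hb' hb'n g (hu'fix g hg)]
  · rw [mul_pow, hb', hu']
    field_simp

end

end Fermat.Agent.S56F
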